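import Mathlib
import Fermat.Agent.S58.Kol

/-!
# TRACK 13 (S40), package ALG-S + CASE A (helper8): pure algebra, Mathlib + `S58/Kol.lean` only

`G` a group acting additively on `Pt` (`= W[p]`, exponent `p`, order `p²`, irreducible) and on `J`
(`= J₀(Mp)[p]`), `V ≤ J` a nonzero `G`-stable subgroup of exponent `p`, `χ : G →* ZMod p` (the mod-`p`
cyclotomic character), and the RELATION (ALG-R): every `g` has integers `t, d` with `d ≡ χ g` and
`g² − t g + d = 0` on `Pt` and on `V`.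

* `S40AS_zsmul_congr`, `S40AS_eq_zero_of_zsmul`, `S40AS_chi_ne_zero` : small lemmas;
* `S40AS_le_aug` : **CASE A, step 1**: if some `g ∈ I` has `p ∤ 1 − t + d` (relation on `V`), then
  `V ≤ U := closure {σ y − y | σ ∈ I, y ∈ J}`;
* `S40AS_scalar` : **ALG-S**: if `τ₀ = c` on `V` with `c ≡ χ τ₀`, `p ∤ c − 1`, every `g` is a scalar on `V`;
* `S40AS_false_of_scalar` : all `g` scalar on `V` + (ALG-R) + `Pt` irreducible of order `p²` ⇒ `False`
  (two characters `ψ`, `χ ψ⁻¹`, Kolchin `S58K_main`);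
* `S40AS_false_of_tau` : `τ₀ = c` on `V` ⇒ `False` (case B (i));
* `S40AS_caseA` : **CASE A** ⇒ `False`.

REMARK. Without `c ≡ χ τ₀` ALG-S is false (`G = GL₂(𝔽_p)`, `V = Pt`, `τ₀ = c · 1`, `χ = det`).
-/

set_option autoImplicit false
set_option linter.unusedSectionVars false
set_option linter.unusedVariables false
set_option linter.style.haveILetI false

namespace Fermat.Agent.S40

open Fermat.Agent.S58

section small

variable {A : Type*} [AddCommGroup A]

/-- on an element killed by `p`, integers congruent mod `p` act in the same way. -/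
theorem S40AS_zsmul_congr (p : ℕ) (x : A) (hx : p • x = 0) (m m' : ℤ)
    (h : (m : ZMod p) = (m' : ZMod p)) : m • x = m' • x := by
  obtain ⟨k, hk⟩ := (ZMod.intCast_eq_intCast_iff_dvd_sub m m' p).1 h
  have e : m' = m + k * (p : ℤ) := by linarith
  rw [e, add_zsmul, mul_zsmul, natCast_zsmul, hx, zsmul_zero, add_zero]

/-- an element killed by `p` and by an integer prime to `p` is zero. -/
theorem S40AS_eq_zero_of_zsmul (p : ℕ) [Fact p.Prime] (x : A) (hx : p • x = 0) (m : ℤ)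
    (hm : (m : ZMod p) ≠ 0) (h : m • x = 0) : x = 0 := by
  have e : (((((m : ZMod p)⁻¹).val : ℤ) * m : ℤ) : ZMod p) = ((1 : ℤ) : ZMod p) := by
    push_cast
    rw [ZMod.natCast_zmod_val, inv_mul_cancel₀ hm]
  have h1 := S40AS_zsmul_congr p x hx _ _ e
  rw [mul_zsmul, h, zsmul_zero, one_zsmul] at h1
  exact h1.symm

/-- an integer killing a nonzero element of exponent `p` is `0` mod `p`. -/
theorem S40AS_cast_eq_zero (p : ℕ) [Fact p.Prime] (x : A) (hx : p • x = 0) (hx0 : x ≠ 0) (m : ℤ)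
    (h : m • x = 0) : (m : ZMod p) = 0 := by
  by_contra hm
  exact hx0 (S40AS_eq_zero_of_zsmul p x hx m hm h)

end small

section main

variable {G : Type*} [Group G]

/-- the values of a monoid hom `G →* ZMod p` are nonzero. -/
theorem S40AS_chi_ne_zero (p : ℕ) [Fact p.Prime] (χ : G →* ZMod p) (g : G) : χ g ≠ 0 := by
  intro h
  have h1 : χ g * χ g⁻¹ = 1 := by rw [← map_mul, mul_inv_cancel, map_one]
  rw [h, zero_mul] at h1
  exact zero_ne_one h1

/-- **linear core** (Kolchin `S58K_main`): on an irreducible `Pt` of order `p²` (a `ZMod p`-module) no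
two characters `ψ₁, ψ₂` can satisfy `(g − ψ₁ g)(g − ψ₂ g) = 0` for all `g`. -/
theorem S40AS_lin (p : ℕ) [Fact p.Prime] {Pt : Type*} [AddCommGroup Pt]
    [Module (ZMod p) Pt] (actW : G → Pt → Pt)
    (h1W : ∀ x, actW 1 x = x) (hmulW : ∀ g h x, actW (g * h) x = actW g (actW h x))
    (haddW : ∀ g x y, actW g (x + y) = actW g x + actW g y)
    (hirr : ∀ Y : AddSubgroup Pt, (∀ g : G, ∀ x ∈ Y, actW g x ∈ Y) → Y = ⊥ ∨ Y = ⊤)
    (hcard : Nat.card Pt = p ^ 2) (ψ₁ ψ₂ : G →* (ZMod p)ˣ)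
    (hrelZ : ∀ g : G, ∃ t d : ℤ, (t : ZMod p) = (ψ₁ g : ZMod p) + (ψ₂ g : ZMod p) ∧
      (d : ZMod p) = (ψ₁ g : ZMod p) * (ψ₂ g : ZMod p) ∧
      ∀ x : Pt, actW g (actW g x) - t • actW g x + d • x = 0) : False := by
  classical
  have hp : p.Prime := Fact.out
  have hrel : ∀ g x, actW g (actW g x) - ((ψ₁ g : ZMod p) + (ψ₂ g : ZMod p)) • actW g x
      + ((ψ₁ g : ZMod p) * (ψ₂ g : ZMod p)) • x = 0 := by
    intro g x
    obtain ⟨t, d, ht, hd, h⟩ := hrelZ g
    rw [← ht, ← hd, Int.cast_smul_eq_zsmul, Int.cast_smul_eq_zsmul]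
    exact h x
  haveI : Finite Pt := Nat.finite_of_card_ne_zero (by rw [hcard]; exact pow_ne_zero 2 hp.ne_zero)
  haveI : Module.Finite (ZMod p) Pt := Module.Finite.of_finite
  have hfr : Module.finrank (ZMod p) Pt = 2 := by
    have h := hcard
    rw [Module.natCard_eq_pow_finrank (K := ZMod p) (V := Pt), Nat.card_zmod] at h
    exact Nat.pow_right_injective hp.two_le h
  let ρ : G →* Module.End (ZMod p) Pt :=
    { toFun := fun g => (AddMonoidHom.mk' (actW g) (haddW g)).toZModLinearMap p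
      map_one' := by
        ext x
        simp only [AddMonoidHom.coe_toZModLinearMap, AddMonoidHom.mk'_apply, Module.End.one_apply]
        exact h1W x
      map_mul' := fun g h => by
        ext x
        simp only [AddMonoidHom.coe_toZModLinearMap, AddMonoidHom.mk'_apply, Module.End.mul_apply]
        exact hmulW g h x }
  have hρ : ∀ g x, ρ g x = actW g x := fun g x => rfl
  have hrel' : ∀ g, (ρ g - ((ψ₁ g : (ZMod p)ˣ) : ZMod p) • (1 : Module.End (ZMod p) Pt)) *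
      (ρ g - ((ψ₂ g : (ZMod p)ˣ) : ZMod p) • (1 : Module.End (ZMod p) Pt)) = 0 := by
    intro g
    ext x
    simp only [Module.End.mul_apply, LinearMap.sub_apply, LinearMap.smul_apply,
      Module.End.one_apply, LinearMap.zero_apply, map_sub, map_smul, hρ]
    linear_combination (norm := module) hrel g x
  obtain ⟨v, hv0, hv⟩ := S58K_main hfr ρ ψ₁ ψ₂ hrel'
  have hv' : ∃ a : G → ZMod p, ∀ g, actW g v = a g • v := by
    rcases hv with h | h
    · exact ⟨fun g => ((ψ₁ g : (ZMod p)ˣ) : ZMod p), fun g => by rw [← hρ]; exact h g⟩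
    · exact ⟨fun g => ((ψ₂ g : (ZMod p)ˣ) : ZMod p), fun g => by rw [← hρ]; exact h g⟩
  obtain ⟨a, ha⟩ := hv'
  have hstab : ∀ g : G, ∀ x ∈ (Submodule.span (ZMod p) {v}).toAddSubgroup,
      actW g x ∈ (Submodule.span (ZMod p) {v}).toAddSubgroup := by
    intro g x hx
    rw [Submodule.mem_toAddSubgroup] at hx ⊢
    obtain ⟨k, rfl⟩ := Submodule.mem_span_singleton.1 hx
    rw [← hρ, map_smul, hρ, ha g, smul_smul]
    exact Submodule.mem_span_singleton.2 ⟨_, rfl⟩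
  rcases hirr _ hstab with hbot | htop
  · apply hv0
    have : v ∈ (Submodule.span (ZMod p) {v}).toAddSubgroup := by
      rw [Submodule.mem_toAddSubgroup]
      exact Submodule.mem_span_singleton_self v
    rw [hbot] at this
    exact (AddSubgroup.mem_bot).1 this
  · have htop' : Submodule.span (ZMod p) {v} = ⊤ := by
      rw [eq_top_iff]
      intro x _
      have : x ∈ (Submodule.span (ZMod p) {v}).toAddSubgroup := by
        rw [htop]; exact AddSubgroup.mem_top x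
      exact (Submodule.mem_toAddSubgroup _).1 this
    have h1 : Module.finrank (ZMod p) (Submodule.span (ZMod p) {v}) = 1 :=
      finrank_span_singleton hv0
    rw [htop', finrank_top, hfr] at h1
    exact absurd h1 (by norm_num)

variable {J : Type*} [AddCommGroup J] (actJ : G → J → J)
  (haddJ : ∀ g x y, actJ g (x + y) = actJ g x + actJ g y)

include haddJ in
theorem S40AS_act_zsmul (g : G) (n : ℤ) (x : J) : actJ g (n • x) = n • actJ g x :=
  map_zsmul (AddMonoidHom.mk' (actJ g) (haddJ g)) n x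

include haddJ in
/-- **CASE A, step 1**: `(g − 1)(g + 1 − t) = −(1 − t + d)` on `V`, so `g − 1` is onto `V`. -/
theorem S40AS_le_aug (p : ℕ) [Fact p.Prime] (V : AddSubgroup J) (hVp : ∀ x ∈ V, p • x = 0)
    (I : Subgroup G) (g : G) (hg : g ∈ I) (t d : ℤ)
    (hrel : ∀ x ∈ V, actJ g (actJ g x) - t • actJ g x + d • x = 0)
    (hnd : ¬ (p : ℤ) ∣ 1 - t + d) :
    V ≤ AddSubgroup.closure {w | ∃ σ ∈ I, ∃ y : J, w = actJ σ y - y} := by
  intro x hx
  apply AddSubgroup.subset_closure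
  have hm : (((1 - t + d : ℤ)) : ZMod p) ≠ 0 := by
    intro h
    exact hnd ((ZMod.intCast_zmod_eq_zero_iff_dvd _ p).1 h)
  obtain ⟨m', e⟩ : ∃ m' : ℤ, ((m' * (1 - t + d) : ℤ) : ZMod p) = ((1 : ℤ) : ZMod p) := by
    refine ⟨((((1 - t + d : ℤ) : ZMod p)⁻¹).val : ℤ), ?_⟩
    rw [Int.cast_mul, Int.cast_natCast, ZMod.natCast_zmod_val, inv_mul_cancel₀ hm, Int.cast_one]
  have h1 : (m' * (1 - t + d)) • x = x := by
    have := S40AS_zsmul_congr p x (hVp x hx) _ _ e
    rwa [one_zsmul] at this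
  refine ⟨g, hg, (-m') • (actJ g x + (1 - t) • x), ?_⟩
  have hr := hrel x hx
  rw [S40AS_act_zsmul actJ haddJ, haddJ, S40AS_act_zsmul actJ haddJ]
  have h3 : (-m') • (actJ g (actJ g x) + (1 - t) • actJ g x) - (-m') • (actJ g x + (1 - t) • x)
      = (m' * (1 - t + d)) • x := by
    linear_combination (norm := module) (-m') • hr
  rw [h3, h1]

variable (hmulJ : ∀ g h x, actJ (g * h) x = actJ g (actJ h x))

include haddJ hmulJ in
/-- **ALG-S**: if `τ₀` acts on `V` as the scalar `c ≡ χ τ₀ ≢ 1`, every `g` acts on `V` as a scalar. -/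
theorem S40AS_scalar (p : ℕ) [Fact p.Prime] (V : AddSubgroup J) (hVp : ∀ x ∈ V, p • x = 0)
    (hVst : ∀ g : G, ∀ x ∈ V, actJ g x ∈ V) (hV0 : V ≠ ⊥)
    (χ : G →* ZMod p)
    (hR : ∀ g : G, ∃ t d : ℤ, (d : ZMod p) = χ g ∧
      ∀ x ∈ V, actJ g (actJ g x) - t • actJ g x + d • x = 0)
    (τ₀ : G) (c : ℤ) (hcχ : (c : ZMod p) = χ τ₀) (hc1 : ¬ (p : ℤ) ∣ c - 1)
    (hτ : ∀ x ∈ V, actJ τ₀ x = c • x) (g : G) :
    ∃ n : ℤ, ∀ x ∈ V, actJ g x = n • x := by
  obtain ⟨t, d, hd, hrel⟩ := hR g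
  obtain ⟨t', d', hd', hrel'⟩ := hR (g * τ₀)
  -- the relation for `g τ₀` in terms of `g`
  have key : ∀ x ∈ V, (c ^ 2 * t - c * t') • actJ g x = (c ^ 2 * d - d') • x := by
    intro x hx
    have hgx := hVst g x hx
    have e1 : actJ (g * τ₀) x = c • actJ g x := by
      rw [hmulJ, hτ x hx, S40AS_act_zsmul actJ haddJ]
    have e2 : actJ (g * τ₀) (actJ g x) = c • actJ g (actJ g x) := by
      rw [hmulJ, hτ _ hgx, S40AS_act_zsmul actJ haddJ]
    have h2 := hrel x hx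
    have h3 := hrel' x hx
    rw [e1, S40AS_act_zsmul actJ haddJ, e2] at h3
    linear_combination (norm := module) h3 - (c ^ 2) • h2
  -- `r = c² d − d'` is a unit mod `p`
  have hr : (((c ^ 2 * d - d' : ℤ)) : ZMod p) ≠ 0 := by
    have hc1' : ((c : ZMod p) - 1) ≠ 0 := by
      intro h
      apply hc1
      have : (((c - 1 : ℤ)) : ZMod p) = 0 := by push_cast; exact h
      exact (ZMod.intCast_zmod_eq_zero_iff_dvd _ p).1 this
    have e : (((c ^ 2 * d - d' : ℤ)) : ZMod p) = χ g * χ τ₀ * ((c : ZMod p) - 1) := by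
      push_cast
      rw [hd, hd', map_mul, hcχ]
      ring
    rw [e]
    exact mul_ne_zero (mul_ne_zero (S40AS_chi_ne_zero p χ g) (S40AS_chi_ne_zero p χ τ₀)) hc1'
  -- a nonzero element of `V`
  obtain ⟨x₀, hx₀, hx₀0⟩ : ∃ x ∈ V, x ≠ 0 := by
    by_contra h
    push Not at h
    exact hV0 ((AddSubgroup.eq_bot_iff_forall V).2 h)
  -- `s = c² t − c t'` is a unit mod `p`
  have hs : (((c ^ 2 * t - c * t' : ℤ)) : ZMod p) ≠ 0 := by
    intro h
    have h0 : (c ^ 2 * t - c * t') • actJ g x₀ = 0 := by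
      have := S40AS_zsmul_congr p (actJ g x₀) (hVp _ (hVst g x₀ hx₀)) (c ^ 2 * t - c * t') 0
        (by rw [h, Int.cast_zero])
      rwa [zero_zsmul] at this
    rw [key x₀ hx₀] at h0
    exact hx₀0 (S40AS_eq_zero_of_zsmul p x₀ (hVp x₀ hx₀) _ hr h0)
  obtain ⟨s', e⟩ : ∃ s' : ℤ, ((s' * (c ^ 2 * t - c * t') : ℤ) : ZMod p) = ((1 : ℤ) : ZMod p) := by
    refine ⟨((((c ^ 2 * t - c * t' : ℤ) : ZMod p)⁻¹).val : ℤ), ?_⟩
    rw [Int.cast_mul, Int.cast_natCast, ZMod.natCast_zmod_val, inv_mul_cancel₀ hs, Int.cast_one]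
  refine ⟨s' * (c ^ 2 * d - d'), fun x hx => ?_⟩
  have h1 : (s' * (c ^ 2 * t - c * t')) • actJ g x = actJ g x := by
    have := S40AS_zsmul_congr p (actJ g x) (hVp _ (hVst g x hx)) _ _ e
    rwa [one_zsmul] at this
  rw [← h1, mul_zsmul, key x hx, ← mul_zsmul]

variable (h1J : ∀ x, actJ 1 x = x)

variable {Pt : Type*} [AddCommGroup Pt] (actW : G → Pt → Pt)
  (h1W : ∀ x, actW 1 x = x) (hmulW : ∀ g h x, actW (g * h) x = actW g (actW h x))
  (haddW : ∀ g x y, actW g (x + y) = actW g x + actW g y)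
  (hirr : ∀ Y : AddSubgroup Pt, (∀ g : G, ∀ x ∈ Y, actW g x ∈ Y) → Y = ⊥ ∨ Y = ⊤)

include haddJ hmulJ h1J h1W hmulW haddW hirr in
/-- all `g` scalar on `V ≠ 0` + (ALG-R) + `Pt` irreducible of order `p²` ⇒ `False`. -/
theorem S40AS_false_of_scalar (p : ℕ) [Fact p.Prime] (hXp : ∀ x : Pt, p • x = 0)
    (hcard : Nat.card Pt = p ^ 2)
    (V : AddSubgroup J) (hVp : ∀ x ∈ V, p • x = 0) (hV0 : V ≠ ⊥)
    (χ : G →* ZMod p)
    (hR : ∀ g : G, ∃ t d : ℤ, (d : ZMod p) = χ g ∧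
      (∀ x : Pt, actW g (actW g x) - t • actW g x + d • x = 0) ∧
      ∀ x ∈ V, actJ g (actJ g x) - t • actJ g x + d • x = 0)
    (hsc : ∀ g : G, ∃ n : ℤ, ∀ x ∈ V, actJ g x = n • x) : False := by
  classical
  have hp : p.Prime := Fact.out
  obtain ⟨x₀, hx₀, hx₀0⟩ : ∃ x ∈ V, x ≠ 0 := by
    by_contra h
    push Not at h
    exact hV0 ((AddSubgroup.eq_bot_iff_forall V).2 h)
  have hpx₀ := hVp x₀ hx₀
  choose n hn using hsc
  choose t d hd hW hV using hR
  -- `ψ g = n g mod p` is a character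
  have hψ1 : ((n 1 : ℤ) : ZMod p) = 1 := by
    have h : (n 1 - 1) • x₀ = 0 := by
      have := hn 1 x₀ hx₀
      rw [h1J] at this
      linear_combination (norm := module) -this
    have := S40AS_cast_eq_zero p x₀ hpx₀ hx₀0 _ h
    push_cast at this
    exact sub_eq_zero.1 this
  have hψmul : ∀ g h : G, ((n (g * h) : ℤ) : ZMod p) = (n g : ZMod p) * (n h : ZMod p) := by
    intro g h
    have e : (n (g * h) - n g * n h) • x₀ = 0 := by
      have h1 := hn (g * h) x₀ hx₀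
      rw [hmulJ, hn h x₀ hx₀, S40AS_act_zsmul actJ haddJ, hn g x₀ hx₀] at h1
      linear_combination (norm := module) -h1
    have := S40AS_cast_eq_zero p x₀ hpx₀ hx₀0 _ e
    push_cast at this
    exact sub_eq_zero.1 this
  have hroot : ∀ g : G, (n g : ZMod p) ^ 2 - (t g : ZMod p) * (n g : ZMod p) + (d g : ZMod p) = 0 := by
    intro g
    have e : (n g ^ 2 - t g * n g + d g) • x₀ = 0 := by
      have h1 := hV g x₀ hx₀
      rw [hn g x₀ hx₀, S40AS_act_zsmul actJ haddJ, hn g x₀ hx₀] at h1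
      linear_combination (norm := module) h1
    have := S40AS_cast_eq_zero p x₀ hpx₀ hx₀0 _ e
    push_cast at this
    exact this
  let ψm : G →* ZMod p :=
    { toFun := fun g => (n g : ZMod p)
      map_one' := hψ1
      map_mul' := hψmul }
  let ψu : G →* (ZMod p)ˣ := ψm.toHomUnits
  let χu : G →* (ZMod p)ˣ := χ.toHomUnits
  have hψu : ∀ g, ((ψu g : (ZMod p)ˣ) : ZMod p) = (n g : ZMod p) := fun g => rfl
  have hχu : ∀ g, ((χu g : (ZMod p)ˣ) : ZMod p) = χ g := fun g => rfl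
  have hψ' : ∀ g, (((χu * ψu⁻¹) g : (ZMod p)ˣ) : ZMod p) = (t g : ZMod p) - (n g : ZMod p) := by
    intro g
    rw [MonoidHom.mul_apply, MonoidHom.inv_apply, Units.val_mul, Units.val_inv_eq_inv_val, hψu, hχu,
      ← hd g]
    have hn0 : (n g : ZMod p) ≠ 0 := by
      rw [← hψu]; exact Units.ne_zero _
    field_simp
    linear_combination hroot g
  -- the linear core
  refine @S40AS_lin G _ p _ Pt _ (AddCommGroup.zmodModule hXp) actW h1W hmulW haddW hirr hcard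
    ψu (χu * ψu⁻¹) (fun g => ⟨t g, d g, ?_, ?_, hW g⟩)
  · rw [hψ', hψu]; ring
  · rw [hψ', hψu]
    linear_combination hroot g

include haddJ hmulJ h1J h1W hmulW haddW hirr in
/-- **case B (i) / end of CASE A**: `τ₀ = c` on `V`, `c ≡ χ τ₀ ≢ 1` ⇒ `False`. -/
theorem S40AS_false_of_tau (p : ℕ) [Fact p.Prime] (hXp : ∀ x : Pt, p • x = 0)
    (hcard : Nat.card Pt = p ^ 2)
    (V : AddSubgroup J) (hVp : ∀ x ∈ V, p • x = 0)
    (hVst : ∀ g : G, ∀ x ∈ V, actJ g x ∈ V) (hV0 : V ≠ ⊥)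
    (χ : G →* ZMod p)
    (hR : ∀ g : G, ∃ t d : ℤ, (d : ZMod p) = χ g ∧
      (∀ x : Pt, actW g (actW g x) - t • actW g x + d • x = 0) ∧
      ∀ x ∈ V, actJ g (actJ g x) - t • actJ g x + d • x = 0)
    (τ₀ : G) (c : ℤ) (hcχ : (c : ZMod p) = χ τ₀) (hc1 : ¬ (p : ℤ) ∣ c - 1)
    (hτ : ∀ x ∈ V, actJ τ₀ x = c • x) : False :=
  S40AS_false_of_scalar actJ haddJ hmulJ h1J actW h1W hmulW haddW hirr p hXp hcard V hVp hV0 χ hR
    (fun g => S40AS_scalar actJ haddJ hmulJ p V hVp hVst hV0 χ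
      (fun g' => by
        obtain ⟨t, d, hd, -, hV⟩ := hR g'
        exact ⟨t, d, hd, hV⟩) τ₀ c hcχ hc1 hτ g)

include haddJ hmulJ h1J h1W hmulW haddW hirr in
/-- **CASE A**: some `g ∈ I` has `p ∤ 1 − t + d` (no fixed vector) ⇒ `V ≤ U_J` ⇒ (hN) `τ₀ = c` on `V`
⇒ `False`. -/
theorem S40AS_caseA (p : ℕ) [Fact p.Prime] (hXp : ∀ x : Pt, p • x = 0)
    (hcard : Nat.card Pt = p ^ 2)
    (V : AddSubgroup J) (hVp : ∀ x ∈ V, p • x = 0)
    (hVst : ∀ g : G, ∀ x ∈ V, actJ g x ∈ V) (hV0 : V ≠ ⊥)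
    (χ : G →* ZMod p)
    (hR : ∀ g : G, ∃ t d : ℤ, (d : ZMod p) = χ g ∧
      (∀ x : Pt, actW g (actW g x) - t • actW g x + d • x = 0) ∧
      ∀ x ∈ V, actJ g (actJ g x) - t • actJ g x + d • x = 0)
    (I : Subgroup G)
    (hA : ∃ g ∈ I, ∃ t d : ℤ, (∀ x ∈ V, actJ g (actJ g x) - t • actJ g x + d • x = 0) ∧
      ¬ (p : ℤ) ∣ 1 - t + d)
    (τ₀ : G) (c : ℤ) (hcχ : (c : ZMod p) = χ τ₀) (hc1 : ¬ (p : ℤ) ∣ c - 1)
    (hN : ∀ x ∈ V, x ∈ AddSubgroup.closure {w | ∃ σ ∈ I, ∃ y : J, w = actJ σ y - y} →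
      actJ τ₀ x = c • x) : False := by
  obtain ⟨g, hg, t, d, hrel, hnd⟩ := hA
  have hle := S40AS_le_aug actJ haddJ p V hVp I g hg t d hrel hnd
  exact S40AS_false_of_tau actJ haddJ hmulJ h1J actW h1W hmulW haddW hirr p hXp hcard V hVp hVst
    hV0 χ hR τ₀ c hcχ hc1 (fun x hx => hN x hx (hle hx))

end main

end Fermat.Agent.S40
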