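import Mathlib
import Fermat.Agent.S58.Kol
import Fermat.Agent.S40.AlgSc

/-!
# TRACK 13 (S40), package CASE A, second half (helper8): `det = χ` on `W[p]` WITHOUT the Weil pairing

Setting of `S40/AlgSc.lean`: `G` acts additively on `Pt` (exponent `p`, order `p²`, irreducible),
`χ : G →* ZMod p`, and every `g` has integers `t, d` with `d ≡ χ g` and `g² − t g + d = 0` on `Pt`.

* `S40AD_ch` : Cayley–Hamilton for `2 × 2` matrices, by hand;
* `S40AD_scalar_or_det` : a `2 × 2` matrix killed by `X² − tX + d` is scalar or has determinant `d`;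
* `S40AD_sq_lin`, `S40AD_sq` : if `g` acts on `Pt` as the scalar `s`, then `s² ≡ χ g`
  (the scalar elements and the elements of determinant `χ` are two "subgroups" covering `G`; `G` is
  not the union of two proper subgroups, `S58K_two`; not all `g` are scalar by irreducibility);
* `S40AD_not_dvd` : **CASE A**: if `g` has no nonzero fixed vector on `Pt` and `g² − t g + d = 0` on
  `Pt` with `d ≡ χ g`, then `p ∤ 1 − t + d`;
* `S40AD_le_aug` : **hole (A) of the mid wire**, abstract: CASE A forces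
  `V ≤ closure {σ y − y | σ ∈ I, y ∈ V}`.
-/

set_option autoImplicit false
set_option linter.unusedSectionVars false
set_option linter.unusedVariables false
set_option linter.style.haveILetI false

namespace Fermat.Agent.S40

open Fermat.Agent.S58

section matrix

variable {k : Type*} [Field k]

/-- Cayley–Hamilton for `2 × 2` matrices, by hand. -/
theorem S40AD_ch (A : Matrix (Fin 2) (Fin 2) k) :
    A * A - (A 0 0 + A 1 1) • A + (A 0 0 * A 1 1 - A 0 1 * A 1 0) • (1 : Matrix (Fin 2) (Fin 2) k)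
      = 0 := by
  ext i j
  fin_cases i <;> fin_cases j <;>
    simp [Matrix.mul_apply, Fin.sum_univ_two] <;> ring

/-- a `2 × 2` matrix killed by `X² − tX + d` is scalar or has determinant `d`. -/
theorem S40AD_scalar_or_det (A : Matrix (Fin 2) (Fin 2) k) (t d : k)
    (h : A * A - t • A + d • (1 : Matrix (Fin 2) (Fin 2) k) = 0) :
    (∃ s : k, A = s • (1 : Matrix (Fin 2) (Fin 2) k)) ∨ A.det = d := by
  have hch := S40AD_ch A
  have hdet : A.det = A 0 0 * A 1 1 - A 0 1 * A 1 0 := Matrix.det_fin_two A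
  have key : (A 0 0 + A 1 1 - t) • A = (A.det - d) • (1 : Matrix (Fin 2) (Fin 2) k) := by
    rw [hdet]
    have : (A 0 0 + A 1 1 - t) • A - (A 0 0 * A 1 1 - A 0 1 * A 1 0 - d) •
        (1 : Matrix (Fin 2) (Fin 2) k) = 0 := by
      rw [sub_smul, sub_smul]
      linear_combination (norm := skip) h - hch
      abel
    exact sub_eq_zero.1 this
  by_cases ht : A 0 0 + A 1 1 - t = 0
  · right
    rw [ht, zero_smul] at key
    have h00 := congrFun (congrFun key 0) 0
    simp at h00
    exact (sub_eq_zero.1 h00.symm)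
  · left
    refine ⟨(A 0 0 + A 1 1 - t)⁻¹ * (A.det - d), ?_⟩
    rw [mul_smul, ← key, smul_smul, inv_mul_cancel₀ ht, one_smul]

end matrix

section main

variable {G : Type*} [Group G]

/-- **linear form**: on an irreducible `Pt` of order `p²`, a `g` acting as the scalar `s` has
`s² = χ g`. -/
theorem S40AD_sq_lin (p : ℕ) [Fact p.Prime] {Pt : Type*} [AddCommGroup Pt]
    [Module (ZMod p) Pt] (actW : G → Pt → Pt)
    (h1W : ∀ x, actW 1 x = x) (hmulW : ∀ g h x, actW (g * h) x = actW g (actW h x))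
    (haddW : ∀ g x y, actW g (x + y) = actW g x + actW g y)
    (hirr : ∀ Y : AddSubgroup Pt, (∀ g : G, ∀ x ∈ Y, actW g x ∈ Y) → Y = ⊥ ∨ Y = ⊤)
    (hcard : Nat.card Pt = p ^ 2) (χ : G →* ZMod p)
    (hR : ∀ g : G, ∃ t d : ℤ, (d : ZMod p) = χ g ∧
      ∀ x : Pt, actW g (actW g x) - t • actW g x + d • x = 0)
    (g : G) (s : ℤ) (hs : ∀ x, actW g x = s • x) : ((s : ZMod p)) ^ 2 = χ g := by
  classical
  have hp : p.Prime := Fact.out
  haveI : Finite Pt := Nat.finite_of_card_ne_zero (by rw [hcard]; exact pow_ne_zero 2 hp.ne_zero)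
  haveI : Module.Finite (ZMod p) Pt := Module.Finite.of_finite
  have hfr : Module.finrank (ZMod p) Pt = 2 := by
    have h := hcard
    rw [Module.natCard_eq_pow_finrank (K := ZMod p) (V := Pt), Nat.card_zmod] at h
    exact Nat.pow_right_injective hp.two_le h
  let ρ : G →* Module.End (ZMod p) Pt :=
    { toFun := fun g => (AddMonoidHom.mk' (actW g) (haddW g)).toZModLinearMap p
      map_one' := by
        ext x
        simp only [AddMonoidHom.coe_toZModLinearMap, AddMonoidHom.mk'_apply, Module.End.one_apply]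
        exact h1W x
      map_mul' := fun g h => by
        ext x
        simp only [AddMonoidHom.coe_toZModLinearMap, AddMonoidHom.mk'_apply, Module.End.mul_apply]
        exact hmulW g h x }
  have hρ : ∀ g x, ρ g x = actW g x := fun g x => rfl
  let b : Module.Basis (Fin 2) (ZMod p) Pt := Module.finBasisOfFinrankEq (ZMod p) Pt hfr
  let M : G → Matrix (Fin 2) (Fin 2) (ZMod p) := fun g => LinearMap.toMatrix b b (ρ g)
  have hM1 : M 1 = 1 := by
    show LinearMap.toMatrix b b (ρ 1) = 1
    rw [map_one]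
    exact LinearMap.toMatrix_one b
  have hMmul : ∀ g h, M (g * h) = M g * M h := by
    intro g h
    show LinearMap.toMatrix b b (ρ (g * h)) = _
    rw [map_mul]
    exact LinearMap.toMatrix_mul b (ρ g) (ρ h)
  have hMrel : ∀ g : G, ∃ t d : ZMod p, d = χ g ∧
      M g * M g - t • M g + d • (1 : Matrix (Fin 2) (Fin 2) (ZMod p)) = 0 := by
    intro g
    obtain ⟨t, d, hd, hrel⟩ := hR g
    refine ⟨(t : ZMod p), (d : ZMod p), hd, ?_⟩
    have e : ρ g * ρ g - (t : ZMod p) • ρ g + (d : ZMod p) • (1 : Module.End (ZMod p) Pt) = 0 := by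
      ext x
      simp only [Module.End.mul_apply, LinearMap.sub_apply, LinearMap.add_apply,
        LinearMap.smul_apply, Module.End.one_apply, LinearMap.zero_apply, hρ]
      rw [Int.cast_smul_eq_zsmul, Int.cast_smul_eq_zsmul]
      exact hrel x
    have e2 := congrArg (LinearMap.toMatrix b b) e
    rw [map_add, map_sub, map_smul, map_smul, LinearMap.toMatrix_mul, LinearMap.toMatrix_one,
      map_zero] at e2
    exact e2
  -- the two "subgroups"
  have hχ0 : ∀ g, χ g ≠ 0 := S40AS_chi_ne_zero p χ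
  have hcover : ∀ g, (∃ s : ZMod p, M g = s • (1 : Matrix (Fin 2) (Fin 2) (ZMod p))) ∨
      (M g).det = χ g := by
    intro g
    obtain ⟨t, d, hd, hrel⟩ := hMrel g
    rcases S40AD_scalar_or_det (M g) t d hrel with h | h
    · exact Or.inl h
    · exact Or.inr (h.trans hd)
  have hinvM : ∀ g, M g * M g⁻¹ = 1 := fun g => by rw [← hMmul, mul_inv_cancel, hM1]
  have htwo := S58K_two (fun g => ∃ s : ZMod p, M g = s • (1 : Matrix (Fin 2) (Fin 2) (ZMod p)))
    (fun g => (M g).det = χ g)
    (fun x y ⟨a, ha⟩ ⟨b', hb⟩ => ⟨a * b', by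
      rw [hMmul, ha, hb, smul_mul_smul_comm, mul_one]⟩)
    (fun x ⟨a, ha⟩ => by
      have h1 := hinvM x
      rw [ha, smul_mul_assoc, one_mul] at h1
      have ha0 : a ≠ 0 := by
        rintro rfl
        rw [zero_smul] at h1
        exact zero_ne_one h1
      refine ⟨a⁻¹, ?_⟩
      rw [← h1, smul_smul, inv_mul_cancel₀ ha0, one_smul])
    (fun x y hx hy => by
      show (M (x * y)).det = χ (x * y)
      rw [hMmul, Matrix.det_mul, hx, hy, map_mul])
    (fun x hx => by
      show (M x⁻¹).det = χ x⁻¹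
      have h1 := congrArg Matrix.det (hinvM x)
      rw [Matrix.det_mul, Matrix.det_one, hx] at h1
      have h2 : χ x * χ x⁻¹ = 1 := by rw [← map_mul, mul_inv_cancel, map_one]
      exact mul_left_cancel₀ (hχ0 x) (h1.trans h2.symm))
    hcover
  have hMs : M g = (s : ZMod p) • (1 : Matrix (Fin 2) (Fin 2) (ZMod p)) := by
    have e : ρ g = (s : ZMod p) • (1 : Module.End (ZMod p) Pt) := by
      ext x
      rw [hρ, hs x, LinearMap.smul_apply, Module.End.one_apply, Int.cast_smul_eq_zsmul]
    show LinearMap.toMatrix b b (ρ g) = _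
    rw [e, map_smul, LinearMap.toMatrix_one]
  rcases htwo with hall | hall
  · -- all scalar: impossible
    exfalso
    have hsc : ∀ g : G, ∃ a : ZMod p, ∀ x, actW g x = a • x := by
      intro g
      obtain ⟨a, ha⟩ := hall g
      have e : ρ g = a • (1 : Module.End (ZMod p) Pt) := by
        apply (LinearMap.toMatrix b b).injective
        rw [map_smul, LinearMap.toMatrix_one]
        exact ha
      exact ⟨a, fun x => by rw [← hρ, e, LinearMap.smul_apply, Module.End.one_apply]⟩
    have hv0 : b 0 ≠ 0 := b.ne_zero 0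
    have hstab : ∀ g : G, ∀ x ∈ (Submodule.span (ZMod p) {b 0}).toAddSubgroup,
        actW g x ∈ (Submodule.span (ZMod p) {b 0}).toAddSubgroup := by
      intro g x hx
      obtain ⟨a, ha⟩ := hsc g
      rw [Submodule.mem_toAddSubgroup] at hx ⊢
      rw [ha x]
      exact Submodule.smul_mem _ a hx
    rcases hirr _ hstab with hbot | htop
    · apply hv0
      have : b 0 ∈ (Submodule.span (ZMod p) {b 0}).toAddSubgroup := by
        rw [Submodule.mem_toAddSubgroup]
        exact Submodule.mem_span_singleton_self _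
      rw [hbot] at this
      exact (AddSubgroup.mem_bot).1 this
    · have htop' : Submodule.span (ZMod p) {b 0} = ⊤ := by
        rw [eq_top_iff]
        intro x _
        have : x ∈ (Submodule.span (ZMod p) {b 0}).toAddSubgroup := by
          rw [htop]; exact AddSubgroup.mem_top x
        exact (Submodule.mem_toAddSubgroup _).1 this
      have h1 : Module.finrank (ZMod p) (Submodule.span (ZMod p) {b 0}) = 1 :=
        finrank_span_singleton hv0
      rw [htop', finrank_top, hfr] at h1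
      exact absurd h1 (by norm_num)
  · have := hall g
    rw [hMs, Matrix.det_smul, Matrix.det_one, mul_one, Fintype.card_fin] at this
    exact this

variable {Pt : Type*} [AddCommGroup Pt] (actW : G → Pt → Pt)
  (h1W : ∀ x, actW 1 x = x) (hmulW : ∀ g h x, actW (g * h) x = actW g (actW h x))
  (haddW : ∀ g x y, actW g (x + y) = actW g x + actW g y)
  (hirr : ∀ Y : AddSubgroup Pt, (∀ g : G, ∀ x ∈ Y, actW g x ∈ Y) → Y = ⊥ ∨ Y = ⊤)

include h1W hmulW haddW hirr in
/-- **`det = χ` on scalars**: if `g` acts on `Pt` as the scalar `s`, then `s² ≡ χ g`. -/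
theorem S40AD_sq (p : ℕ) [Fact p.Prime] (hXp : ∀ x : Pt, p • x = 0)
    (hcard : Nat.card Pt = p ^ 2) (χ : G →* ZMod p)
    (hR : ∀ g : G, ∃ t d : ℤ, (d : ZMod p) = χ g ∧
      ∀ x : Pt, actW g (actW g x) - t • actW g x + d • x = 0)
    (g : G) (s : ℤ) (hs : ∀ x, actW g x = s • x) : ((s : ZMod p)) ^ 2 = χ g :=
  @S40AD_sq_lin G _ p _ Pt _ (AddCommGroup.zmodModule hXp) actW h1W hmulW haddW hirr hcard χ hR
    g s hs

include h1W hmulW haddW hirr in
/-- **CASE A**: `g` without nonzero fixed vector on `Pt`, `g² − t g + d = 0` on `Pt`, `d ≡ χ g`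
⇒ `p ∤ 1 − t + d`. -/
theorem S40AD_not_dvd (p : ℕ) [Fact p.Prime] (hXp : ∀ x : Pt, p • x = 0)
    (hcard : Nat.card Pt = p ^ 2) (χ : G →* ZMod p)
    (hR : ∀ g : G, ∃ t d : ℤ, (d : ZMod p) = χ g ∧
      ∀ x : Pt, actW g (actW g x) - t • actW g x + d • x = 0)
    (g : G) (hfix : ∀ w : Pt, actW g w = w → w = 0) (t d : ℤ) (hd : (d : ZMod p) = χ g)
    (hrel : ∀ x : Pt, actW g (actW g x) - t • actW g x + d • x = 0) :
    ¬ (p : ℤ) ∣ 1 - t + d := by
  intro hdvd
  have hp : p.Prime := Fact.out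
  have h0 : (((1 - t + d : ℤ)) : ZMod p) = 0 := (ZMod.intCast_zmod_eq_zero_iff_dvd _ p).2 hdvd
  -- `g = t − 1` on `Pt`
  have hsc : ∀ x, actW g x = (t - 1) • x := by
    intro x
    have hz : (1 - t + d) • x = 0 := by
      have := S40AS_zsmul_congr p x (hXp x) (1 - t + d) 0 (by rw [h0, Int.cast_zero])
      rwa [zero_zsmul] at this
    have hu : actW g (actW g x - (t - 1) • x) = actW g x - (t - 1) • x := by
      have e1 : actW g (actW g x - (t - 1) • x) = actW g (actW g x) - (t - 1) • actW g x := by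
        have := map_sub (AddMonoidHom.mk' (actW g) (haddW g)) (actW g x) ((t - 1) • x)
        have h2 := map_zsmul (AddMonoidHom.mk' (actW g) (haddW g)) (t - 1) x
        simp only [AddMonoidHom.mk'_apply] at this h2
        rw [this, h2]
      rw [e1]
      linear_combination (norm := module) hrel x - hz
    exact sub_eq_zero.1 (hfix _ hu)
  have hsq := S40AD_sq actW h1W hmulW haddW hirr p hXp hcard χ hR g (t - 1) hsc
  -- `(t − 1)² = χ g = d = t − 1` mod `p`
  have hd' : (d : ZMod p) = ((t - 1 : ℤ) : ZMod p) := by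
    have : (((1 - t + d : ℤ)) : ZMod p) = (d : ZMod p) - ((t - 1 : ℤ) : ZMod p) := by
      push_cast; ring
    rw [this] at h0
    exact sub_eq_zero.1 h0
  rw [← hd, hd'] at hsq
  have hχ0 := S40AS_chi_ne_zero p χ g
  rw [← hd, hd'] at hχ0
  -- so `t − 1 = 1` mod `p`
  have h1 : ((t - 1 : ℤ) : ZMod p) = 1 := by
    have : ((t - 1 : ℤ) : ZMod p) * (((t - 1 : ℤ) : ZMod p) - 1) = 0 := by
      linear_combination hsq
    rcases mul_eq_zero.1 this with h | h
    · exact absurd h hχ0
    · exact sub_eq_zero.1 h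
  -- hence `g = 1` on `Pt`, so `Pt = 0`
  have hall : ∀ x : Pt, x = 0 := by
    intro x
    apply hfix
    rw [hsc x]
    have := S40AS_zsmul_congr p x (hXp x) (t - 1) 1 (by rw [h1, Int.cast_one])
    rwa [one_zsmul] at this
  have hsub : Subsingleton Pt := ⟨fun a b => by rw [hall a, hall b]⟩
  have hc1 : Nat.card Pt = 1 := Nat.card_unique
  rw [hcard] at hc1
  have := Nat.one_lt_pow two_ne_zero hp.one_lt
  omega

variable {J : Type*} [AddCommGroup J] (actJ : G → J → J)
  (haddJ : ∀ g x y, actJ g (x + y) = actJ g x + actJ g y)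

include haddJ in
/-- **CASE A, step 1, sharp form**: `V ≤ closure {g y − y | y ∈ V}` (the augmentation part of `V`
itself) if `p ∤ 1 − t + d`. -/
theorem S40AD_le_augV (p : ℕ) [Fact p.Prime] (V : AddSubgroup J) (hVp : ∀ x ∈ V, p • x = 0)
    (hVst : ∀ g : G, ∀ x ∈ V, actJ g x ∈ V)
    (I : Subgroup G) (g : G) (hg : g ∈ I) (t d : ℤ)
    (hrel : ∀ x ∈ V, actJ g (actJ g x) - t • actJ g x + d • x = 0)
    (hnd : ¬ (p : ℤ) ∣ 1 - t + d) :
    ∀ x ∈ V, ∃ y ∈ V, x = actJ g y - y := by
  intro x hx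
  have hm : (((1 - t + d : ℤ)) : ZMod p) ≠ 0 := by
    intro h
    exact hnd ((ZMod.intCast_zmod_eq_zero_iff_dvd _ p).1 h)
  obtain ⟨m', e⟩ : ∃ m' : ℤ, ((m' * (1 - t + d) : ℤ) : ZMod p) = ((1 : ℤ) : ZMod p) := by
    refine ⟨((((1 - t + d : ℤ) : ZMod p)⁻¹).val : ℤ), ?_⟩
    rw [Int.cast_mul, Int.cast_natCast, ZMod.natCast_zmod_val, inv_mul_cancel₀ hm, Int.cast_one]
  have h1 : (m' * (1 - t + d)) • x = x := by
    have := S40AS_zsmul_congr p x (hVp x hx) _ _ e
    rwa [one_zsmul] at this
  refine ⟨(-m') • (actJ g x + (1 - t) • x), ?_, ?_⟩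
  · exact V.zsmul_mem (V.add_mem (hVst g x hx) (V.zsmul_mem hx _)) _
  have hr := hrel x hx
  rw [S40AS_act_zsmul actJ haddJ, haddJ, S40AS_act_zsmul actJ haddJ]
  have h3 : (-m') • (actJ g (actJ g x) + (1 - t) • actJ g x) - (-m') • (actJ g x + (1 - t) • x)
      = (m' * (1 - t + d)) • x := by
    linear_combination (norm := module) (-m') • hr
  rw [h3, h1]

include haddJ h1W hmulW haddW hirr in
/-- **hole (A) of the mid wire, abstract**: CASE A (`g ∈ I` without nonzero fixed vector on `Pt`)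
forces every `x ∈ V` to be `g y − y` with `y ∈ V`. -/
theorem S40AD_caseA_aug (p : ℕ) [Fact p.Prime] (hXp : ∀ x : Pt, p • x = 0)
    (hcard : Nat.card Pt = p ^ 2)
    (V : AddSubgroup J) (hVp : ∀ x ∈ V, p • x = 0)
    (hVst : ∀ g : G, ∀ x ∈ V, actJ g x ∈ V)
    (χ : G →* ZMod p)
    (hR : ∀ g : G, ∃ t d : ℤ, (d : ZMod p) = χ g ∧
      (∀ x : Pt, actW g (actW g x) - t • actW g x + d • x = 0) ∧
      ∀ x ∈ V, actJ g (actJ g x) - t • actJ g x + d • x = 0)
    (I : Subgroup G) (g : G) (hg : g ∈ I) (hfix : ∀ w : Pt, actW g w = w → w = 0) :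
    ∀ x ∈ V, ∃ y ∈ V, x = actJ g y - y := by
  obtain ⟨t, d, hd, hW, hV⟩ := hR g
  have hnd := S40AD_not_dvd actW h1W hmulW haddW hirr p hXp hcard χ
    (fun g' => by
      obtain ⟨t', d', hd', hW', -⟩ := hR g'
      exact ⟨t', d', hd', hW'⟩) g hfix t d hd hW
  exact S40AD_le_augV actJ haddJ p V hVp hVst I g hg t d hV hnd

end main

end Fermat.Agent.S40
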