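import Fermat.Agent.S58.HresMain

/-!
# TRACK 13 (S40), package ALG-K (helper25) — prefix `S40AK_`

**Kernel equality** ("one field on both sides", §1 of `NOTES/items/38_F1_helper6.md`), in the
form of helper6's RULING 1: `V` is ANY finite abelian group of exponent `p` with an additive
action `actV` of `G_ℚ` which is SIMPLE (no proper nonzero stable subgroup), and `(R)` is the
output of ALG-R:

  `S40AK_Rel W p actV` : for every `g` there are `t : ℤ`, `d : ℕ` with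
  `g² − t g + d = 0` on `W[p]` AND on `V`, and `g ζ = ζ ^ d` on `μ_p`.

Results (`W.Δ ≠ 0`, `p` odd, `W[p]` irreducible):

* `S40AK_zeta_of_fix` : `g = 1` on `W[p]`  `⇒`  `g ζ = ζ` on `μ_p`   (NO Weil pairing: compare
  the relations of `g₀` and `g g₀` for a non-scalar `g₀`);
* `S40AK_unip_of_fix` : `g = 1` on `W[p]`  `⇒`  `(g − 1)² = 0` on `V`;
* `S40AK_main`        : `g = 1` on `W[p]`  `⇒`  `g = 1` on `V`   (`V` finite, simple);
* `S40AK_main_sub`    : the same for a stable simple subgroup `V` of a `G_ℚ`-module `Y`;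
* `S40AK_exists_simple` : a nonzero finite stable subgroup contains a simple stable subgroup.

Abstract tools: `S40AK_exists_fixed` (a group acting unipotently on a nonzero finite group of
exponent `p` has a nonzero fixed point), `S40AK_trivial_of_unip` (Kolchin + simplicity).
-/

set_option autoImplicit false
set_option linter.unusedSectionVars false
set_option linter.unusedVariables false
set_option linter.style.haveILetI false

open Polynomial
open scoped Pointwise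

namespace Fermat.Agent.S40

open WeierstrassCurve Fermat.Agent.Lib Fermat.Agent.GalRep Fermat.Agent.S41 Fermat.Agent.S31
  Fermat.Agent.S58

local notation "ℚbar" => AlgebraicClosure ℚ

/-! ### abstract tools -/

section abstract

variable {G : Type*} [Group G] {V : Type*} [AddCommGroup V] (actV : G → V → V)
  (h1 : ∀ x, actV 1 x = x) (hmul : ∀ g h x, actV (g * h) x = actV g (actV h x))
  (hadd : ∀ g x y, actV g (x + y) = actV g x + actV g y)

/-- a nontrivial finite abelian group of exponent `p` has order divisible by `p`. -/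
theorem S40AK_dvd_card (p : ℕ) [Fact p.Prime] [Finite V] [Nontrivial V]
    (hVp : ∀ x : V, p • x = 0) : p ∣ Nat.card V := by
  have hp : p.Prime := Fact.out
  obtain ⟨x₀, hx₀⟩ := exists_ne (0 : V)
  have hord : addOrderOf x₀ = p := by
    have hdvd : addOrderOf x₀ ∣ p := addOrderOf_dvd_of_nsmul_eq_zero (hVp x₀)
    rcases (Nat.dvd_prime hp).1 hdvd with h | h
    · exact absurd (AddMonoid.addOrderOf_eq_one_iff.1 h) hx₀
    · exact h
  rw [← hord]
  exact addOrderOf_dvd_natCard x₀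

include h1 hmul hadd in
/-- **fixed points**: a subgroup acting unipotently on a nonzero finite group of exponent `p`
has a nonzero fixed point. -/
theorem S40AK_exists_fixed (p : ℕ) [Fact p.Prime] [Finite V] [Nontrivial V]
    (hVp : ∀ x : V, p • x = 0) (H : Subgroup G)
    (hu : ∀ h ∈ H, ∀ x, actV h (actV h x) - (2 : ℤ) • actV h x + x = 0) :
    ∃ x : V, x ≠ 0 ∧ ∀ h ∈ H, actV h x = x := by
  classical
  have hp : p.Prime := Fact.out
  set φ := S58H_perm actV h1 hmul with hφ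
  set P : Subgroup (Equiv.Perm V) := H.map φ with hP
  have hPp : IsPGroup p P := by
    rintro ⟨σ, hσ⟩
    obtain ⟨h, hh, rfl⟩ := hσ
    refine ⟨1, ?_⟩
    apply Subtype.ext
    rw [pow_one]
    show (φ h) ^ p = 1
    rw [← map_pow]
    ext x
    exact S58H_pow_act actV h1 hmul hadd p hVp h (hu h hh) x
  have hmod := hPp.card_modEq_card_fixedPoints V
  have hdvd : p ∣ Nat.card (MulAction.fixedPoints P V) := by
    have h0 : Nat.card V ≡ 0 [MOD p] :=
      (Nat.modEq_zero_iff_dvd).2 (S40AK_dvd_card p hVp)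
    exact (Nat.modEq_zero_iff_dvd).1 (hmod.symm.trans h0)
  have hzero : (0 : V) ∈ MulAction.fixedPoints P V := by
    rintro ⟨σ, hσ⟩
    obtain ⟨h, hh, rfl⟩ := hσ
    exact S58H_act_zero actV hadd h
  have hpos : 0 < Nat.card (MulAction.fixedPoints P V) :=
    Nat.card_pos_iff.2 ⟨⟨⟨0, hzero⟩⟩, inferInstance⟩
  have h2 : 1 < Nat.card (MulAction.fixedPoints P V) :=
    lt_of_lt_of_le hp.one_lt (Nat.le_of_dvd hpos hdvd)
  obtain ⟨⟨x, hx⟩, hne⟩ : ∃ y : MulAction.fixedPoints P V, y ≠ ⟨0, hzero⟩ := by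
    by_contra hcon
    push Not at hcon
    haveI : Subsingleton (MulAction.fixedPoints P V) :=
      ⟨fun a b => (hcon a).trans (hcon b).symm⟩
    have : Nat.card (MulAction.fixedPoints P V) ≤ 1 := Finite.card_le_one_iff_subsingleton.2 this
    omega
  refine ⟨x, fun h0 => hne (Subtype.ext h0), fun h hh => ?_⟩
  exact hx ⟨φ h, Subgroup.mem_map_of_mem φ hh⟩

include h1 hmul hadd in
/-- **Kolchin + simplicity**: a normal subgroup acting unipotently on a finite simple `V` of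
exponent `p` acts trivially. -/
theorem S40AK_trivial_of_unip (p : ℕ) [Fact p.Prime] [Finite V]
    (hVp : ∀ x : V, p • x = 0)
    (hsimple : ∀ Y : AddSubgroup V, (∀ g : G, ∀ x ∈ Y, actV g x ∈ Y) → Y = ⊥ ∨ Y = ⊤)
    (H : Subgroup G) [H.Normal]
    (hu : ∀ h ∈ H, ∀ x, actV h (actV h x) - (2 : ℤ) • actV h x + x = 0) :
    ∀ h ∈ H, ∀ x, actV h x = x := by
  rcases subsingleton_or_nontrivial V with hsub | hnt
  · intro h _ x
    exact Subsingleton.elim _ _
  obtain ⟨x₀, hx₀, hfix⟩ := S40AK_exists_fixed actV h1 hmul hadd p hVp H hu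
  set Y : AddSubgroup V :=
    { carrier := {x | ∀ h ∈ H, actV h x = x}
      zero_mem' := fun h _ => S58H_act_zero actV hadd h
      add_mem' := fun {a b} ha hb h hh => by rw [hadd, ha h hh, hb h hh]
      neg_mem' := fun {a} ha h hh => by rw [S58H_act_neg actV hadd, ha h hh] } with hY
  have hstab : ∀ g : G, ∀ x ∈ Y, actV g x ∈ Y := by
    intro g x hx h hh
    have hconj : g⁻¹ * h * g ∈ H := by
      have := ‹H.Normal›.conj_mem h hh g⁻¹
      rwa [inv_inv] at this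
    have e : h * g = g * (g⁻¹ * h * g) := by group
    rw [← hmul, e, hmul, hx _ hconj]
  rcases hsimple Y hstab with hbot | htop
  · exfalso
    apply hx₀
    have : x₀ ∈ Y := hfix
    rw [hbot] at this
    exact (AddSubgroup.mem_bot).1 this
  · intro h hh x
    have : x ∈ Y := by rw [htop]; exact AddSubgroup.mem_top x
    exact this h hh

end abstract

/-- `ζ ^ p = 1` and `p ∣ a − b` give `ζ ^ a = ζ ^ b`. -/
theorem S40AK_pow_congr {K : Type*} [Field K] {ζ : K} {p : ℕ} (hp : 0 < p) (hζ : ζ ^ p = 1)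
    {a b : ℕ} (hab : (p : ℤ) ∣ (a : ℤ) - (b : ℤ)) : ζ ^ a = ζ ^ b := by
  have hζ0 : ζ ≠ 0 := by
    rintro rfl
    rw [zero_pow hp.ne'] at hζ
    exact zero_ne_one hζ
  obtain ⟨m, hm⟩ := hab
  have e : (a : ℤ) = (b : ℤ) + (p : ℤ) * m := by linarith
  have h1 : ζ ^ (a : ℤ) = ζ ^ (b : ℤ) := by
    rw [e, zpow_add₀ hζ0, zpow_mul, zpow_natCast ζ p, hζ, one_zpow, mul_one]
  rwa [zpow_natCast, zpow_natCast] at h1

/-- Bézout: `a p + b c = 1` and `p • x = 0` give `x = (b c) • x`. -/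
theorem S40AK_bezout {X : Type*} [AddCommGroup X] {p : ℕ} {a b c : ℤ}
    (hab : a * (p : ℤ) + b * c = 1) {x : X} (hx : p • x = 0) : x = b • c • x := by
  have h : (a * (p : ℤ) + b * c) • x = b • c • x := by
    rw [add_smul, mul_smul, mul_smul, natCast_zsmul, hx, smul_zero, zero_add]
  rwa [hab, one_smul] at h

/-- an integer killing a nonzero element of order `p` is divisible by `p`. -/
theorem S40AK_dvd_of_smul {X : Type*} [AddCommGroup X] {p : ℕ} (hp : p.Prime) {e : ℤ}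
    {x : X} (hx : p • x = 0) (hx0 : x ≠ 0) (he : e • x = 0) : (p : ℤ) ∣ e := by
  by_contra hne
  have hcop : IsCoprime (p : ℤ) e :=
    (Prime.coprime_iff_not_dvd (Nat.prime_iff_prime_int.1 hp)).2 hne
  obtain ⟨a, b, hab⟩ := hcop
  have := S40AK_bezout hab hx
  rw [he, smul_zero] at this
  exact hx0 this

/-- `a • x` depends only on `a mod p` when `p • x = 0`. -/
theorem S40AK_smul_congr {X : Type*} [AddCommGroup X] {p : ℕ} {a b : ℤ}
    (hab : (p : ℤ) ∣ a - b) {x : X} (hx : p • x = 0) : a • x = b • x := by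
  obtain ⟨m, hm⟩ := hab
  have e : a = b + m * (p : ℤ) := by linarith
  rw [e, add_smul, mul_smul, natCast_zsmul, hx, smul_zero, add_zero]

/-- the difference of two quadratic relations. -/
theorem S40AK_rel_diff {X : Type*} [AddCommGroup X] {t t' d d' : ℤ} {x y z : X}
    (e1 : z - t • y + d • x = 0) (e2 : z - t' • y + d' • x = 0) :
    (t - t') • y = (d - d') • x := by
  have e3 : z = t • y - d • x := by
    rw [← sub_eq_zero, ← e1]; abel
  have e4 : z = t' • y - d' • x := by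
    rw [← sub_eq_zero, ← e2]; abel
  have e5 := e3.symm.trans e4
  rw [sub_smul, sub_smul, sub_eq_sub_iff_add_eq_add]
  rw [sub_eq_sub_iff_add_eq_add] at e5
  rw [e5]
  abel

/-- a unipotent relation from a quadratic relation with `t ≡ 2`, `d ≡ 1`. -/
theorem S40AK_rel_unip {X : Type*} [AddCommGroup X] {p : ℕ} {t d : ℤ} {x y z : X}
    (hx : p • x = 0) (hy : p • y = 0) (ht : (p : ℤ) ∣ t - 2) (hd : (p : ℤ) ∣ d - 1)
    (e1 : z - t • y + d • x = 0) : z - (2 : ℤ) • y + x = 0 := by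
  rw [S40AK_smul_congr ht hy, S40AK_smul_congr hd hx, one_smul] at e1
  exact e1

/-- `x − t x + d x = 0` is `(1 − t + d) x = 0`. -/
theorem S40AK_unip_coeff {X : Type*} [AddCommGroup X] {t d : ℤ} {x : X}
    (e : x - t • x + d • x = 0) : (1 - t + d) • x = 0 := by
  rw [add_smul, sub_smul, one_smul]
  exact e

/-! ### the concrete statements -/

/-- **the output of ALG-R**: for every `g ∈ G_ℚ` there are `t : ℤ`, `d : ℕ` with
`g² − t g + d = 0` on `W[p]` and on `V`, and `g ζ = ζ ^ d` on the `p`-th roots of unity. -/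
def S40AK_Rel (W : WeierstrassCurve ℤ) (p : ℕ) {V : Type*} [AddCommGroup V]
    (actV : GQ → V → V) : Prop :=
  ∀ g : GQ, ∃ (t : ℤ) (d : ℕ),
    (∀ P : (W.baseChange ℚbar).toAffine.Point, p • P = 0 →
      g • g • P - t • g • P + (d : ℤ) • P = 0) ∧
    (∀ y : V, actV g (actV g y) - t • actV g y + (d : ℤ) • y = 0) ∧
    ∀ ζ : ℚbar, ζ ^ p = 1 → g ζ = ζ ^ d

/-- the `W`-side half of `S40AK_Rel`. -/
def S40AK_RelW (W : WeierstrassCurve ℤ) (p : ℕ) : Prop :=
  ∀ g : GQ, ∃ (t : ℤ) (d : ℕ),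
    (∀ P : (W.baseChange ℚbar).toAffine.Point, p • P = 0 →
      g • g • P - t • g • P + (d : ℤ) • P = 0) ∧
    ∀ ζ : ℚbar, ζ ^ p = 1 → g ζ = ζ ^ d

theorem S40AK_relW_of_rel (W : WeierstrassCurve ℤ) (p : ℕ) {V : Type*} [AddCommGroup V]
    (actV : GQ → V → V) (h : S40AK_Rel W p actV) : S40AK_RelW W p := by
  intro g
  obtain ⟨t, d, h1, -, h3⟩ := h g
  exact ⟨t, d, h1, h3⟩

/-- there is a point of exact order `p`. -/
theorem S40AK_exists_pt (W : WeierstrassCurve ℤ) (hΔ : W.Δ ≠ 0) {p : ℕ} (hp : p.Prime)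
    (hp2 : p ≠ 2) : ∃ P : (W.baseChange ℚbar).toAffine.Point, p • P = 0 ∧ P ≠ 0 := by
  have hcard : Nat.card (S58ER_K W p) = p ^ 2 := S41NE_card_X W hΔ hp hp2
  have hfin : Finite (S58ER_K W p) :=
    Nat.finite_of_card_ne_zero (by rw [hcard]; exact pow_ne_zero 2 hp.ne_zero)
  have hnt : Nontrivial (S58ER_K W p) := by
    apply (Finite.one_lt_card_iff_nontrivial).1
    rw [hcard]
    exact Nat.one_lt_pow two_ne_zero hp.one_lt
  obtain ⟨x₀, hx₀⟩ := exists_ne (0 : S58ER_K W p)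
  exact ⟨x₀.1, (S58ER_mem_K W p x₀.1).1 x₀.2, fun h => hx₀ (Subtype.ext h)⟩

/-- there is an element of `G_ℚ` which is not a scalar on `W[p]`. -/
theorem S40AK_exists_nonscalar (W : WeierstrassCurve ℤ) (hΔ : W.Δ ≠ 0) {p : ℕ} (hp : p.Prime)
    (hp2 : p ≠ 2) (hirr : W.ModRepIsIrreducible p) :
    ∃ g₀ : GQ, ∀ n : ℤ, ∃ P : (W.baseChange ℚbar).toAffine.Point, p • P = 0 ∧ g₀ • P ≠ n • P := by
  haveI : Fact p.Prime := ⟨hp⟩
  by_contra hcon
  push Not at hcon
  have hcard : Nat.card (S58ER_K W p) = p ^ 2 := S41NE_card_X W hΔ hp hp2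
  refine S58H_not_all_scalar (G := GQ) (X := S58ER_K W p) (fun g x => (S58ER_F W p g) x)
    (fun Y hY => S58HM_hirr W hp hirr hΔ Y hY) p
    (fun x => Subtype.ext ((S58ER_mem_K W p x.1).1 x.2)) hcard (fun g => ?_)
  obtain ⟨n, hn⟩ := hcon g
  refine ⟨n, fun x => ?_⟩
  apply Subtype.ext
  rw [AddSubgroup.coe_zsmul, S58ER_F_apply]
  exact hn x.1 ((S58ER_mem_K W p x.1).1 x.2)

/-- **no Weil pairing needed**: an element of `G_ℚ` which is trivial on `W[p]` is trivial on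
`μ_p`. -/
theorem S40AK_zeta_of_fix (W : WeierstrassCurve ℤ) (hΔ : W.Δ ≠ 0) {p : ℕ} (hp : p.Prime)
    (hp2 : p ≠ 2) (hirr : W.ModRepIsIrreducible p) (hR : S40AK_RelW W p) (g : GQ)
    (hg : ∀ P : (W.baseChange ℚbar).toAffine.Point, p • P = 0 → g • P = P) :
    ∀ ζ : ℚbar, ζ ^ p = 1 → g ζ = ζ := by
  obtain ⟨g₀, hg₀⟩ := S40AK_exists_nonscalar W hΔ hp hp2 hirr
  obtain ⟨P₀, hP₀, hP₀ne⟩ := S40AK_exists_pt W hΔ hp hp2
  obtain ⟨t, d, hrel, hζd⟩ := hR g₀
  obtain ⟨t', d', hrel', hζd'⟩ := hR (g * g₀)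
  have htor : ∀ (σ : GQ) (P : (W.baseChange ℚbar).toAffine.Point), p • P = 0 → p • (σ • P) = 0 :=
    fun σ P hP => by rw [← S41NE_gsmul_nsmul, hP, S41NE_gsmul_zero]
  -- `g g₀ = g₀` on `W[p]`
  have hgg : ∀ P : (W.baseChange ℚbar).toAffine.Point, p • P = 0 → (g * g₀) • P = g₀ • P :=
    fun P hP => by rw [S41NE_gsmul_mul, hg _ (htor g₀ P hP)]
  -- the difference of the two relations
  have hdiff : ∀ P : (W.baseChange ℚbar).toAffine.Point, p • P = 0 →
      (t - t') • g₀ • P = ((d : ℤ) - (d' : ℤ)) • P := by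
    intro P hP
    have e1 := hrel P hP
    have e2 := hrel' P hP
    rw [hgg P hP, hgg _ (htor g₀ P hP)] at e2
    exact S40AK_rel_diff e1 e2
  -- `t ≡ t'`
  have ht : (p : ℤ) ∣ t - t' := by
    by_contra hne
    have hcop : IsCoprime (p : ℤ) (t - t') :=
      (Prime.coprime_iff_not_dvd (Nat.prime_iff_prime_int.1 hp)).2 hne
    obtain ⟨a, b, hab⟩ := hcop
    obtain ⟨P, hP, hPne⟩ := hg₀ (b * ((d : ℤ) - (d' : ℤ)))
    apply hPne
    have hgP := htor g₀ P hP
    have h1 : g₀ • P = b • (t - t') • g₀ • P := S40AK_bezout hab hgP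
    have h2 : b • (t - t') • g₀ • P = b • ((d : ℤ) - (d' : ℤ)) • P :=
      congrArg (fun Q : (W.baseChange ℚbar).toAffine.Point => b • Q) (hdiff P hP)
    have h3 : b • ((d : ℤ) - (d' : ℤ)) • P = (b * ((d : ℤ) - (d' : ℤ))) • P :=
      (mul_smul b ((d : ℤ) - (d' : ℤ)) P).symm
    exact h1.trans (h2.trans h3)
  -- `d ≡ d'`
  have hd : (p : ℤ) ∣ (d : ℤ) - (d' : ℤ) := by
    apply S40AK_dvd_of_smul hp hP₀ hP₀ne
    have h1 : (t - t') • g₀ • P₀ = (0 : ℤ) • g₀ • P₀ :=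
      S40AK_smul_congr (b := 0) (by simpa using ht) (htor g₀ P₀ hP₀)
    have h2 : (0 : ℤ) • g₀ • P₀ = 0 := zero_zsmul _
    exact (hdiff P₀ hP₀).symm.trans (h1.trans h2)
  -- conclusion
  intro ζ hζ
  have hζ' : (g₀⁻¹ ζ) ^ p = 1 := by rw [← map_pow, hζ, map_one]
  have h1 : (g * g₀) (g₀⁻¹ ζ) = g₀ (g₀⁻¹ ζ) := by
    rw [hζd' _ hζ', hζd _ hζ']
    exact (S40AK_pow_congr hp.pos hζ' hd).symm
  have h2 : g₀ (g₀⁻¹ ζ) = ζ := by
    rw [← AlgEquiv.mul_apply, mul_inv_cancel, AlgEquiv.one_apply]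
  rw [AlgEquiv.mul_apply, h2] at h1
  exact h1

/-- **`g = 1` on `W[p]` gives `(g − 1)² = 0` on `V`**. -/
theorem S40AK_unip_of_fix (W : WeierstrassCurve ℤ) (hΔ : W.Δ ≠ 0) {p : ℕ} (hp : p.Prime)
    (hp2 : p ≠ 2) (hirr : W.ModRepIsIrreducible p) {V : Type*} [AddCommGroup V]
    (actV : GQ → V → V) (hVp : ∀ y : V, p • y = 0) (hR : S40AK_Rel W p actV) (g : GQ)
    (hg : ∀ P : (W.baseChange ℚbar).toAffine.Point, p • P = 0 → g • P = P) (y : V) :
    actV g (actV g y) - (2 : ℤ) • actV g y + y = 0 := by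
  have hζ := S40AK_zeta_of_fix W hΔ hp hp2 hirr (S40AK_relW_of_rel W p actV hR) g hg
  obtain ⟨t, d, hrel, hrelV, hζd⟩ := hR g
  obtain ⟨P₀, hP₀, hP₀ne⟩ := S40AK_exists_pt W hΔ hp hp2
  haveI : NeZero ((p : ℕ) : ℚ) := ⟨Nat.cast_ne_zero.2 hp.ne_zero⟩
  haveI : NeZero p := ⟨hp.ne_zero⟩
  obtain ⟨ζ, hprim⟩ := HasEnoughRootsOfUnity.exists_primitiveRoot ℚbar p
  have hζ0 : ζ ≠ 0 := hprim.ne_zero hp.ne_zero
  have hd : (p : ℤ) ∣ (d : ℤ) - 1 := by
    have h1 : ζ ^ d = ζ := by rw [← hζd ζ hprim.pow_eq_one, hζ ζ hprim.pow_eq_one]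
    apply (hprim.zpow_eq_one_iff_dvd _).1
    rw [zpow_sub₀ hζ0, zpow_natCast, zpow_one, h1, div_self hζ0]
  have ht : (p : ℤ) ∣ t - 2 := by
    have e := hrel P₀ hP₀
    simp only [hg P₀ hP₀] at e
    have h := S40AK_dvd_of_smul hp hP₀ hP₀ne (S40AK_unip_coeff e)
    have e2 : t - 2 = ((d : ℤ) - 1) - (1 - t + d) := by ring
    rw [e2]
    exact dvd_sub hd h
  exact S40AK_rel_unip (hVp y) (hVp _) ht hd (hrelV y)

/-- the subgroup of `G_ℚ` acting trivially on `W[p]`. -/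
def S40AK_H (W : WeierstrassCurve ℤ) (p : ℕ) : Subgroup GQ where
  carrier := {g | ∀ P : (W.baseChange ℚbar).toAffine.Point, p • P = 0 → g • P = P}
  one_mem' := fun P _ => S41NE_gsmul_one W P
  mul_mem' := fun {a b} ha hb P hP => by
    rw [S41NE_gsmul_mul, hb P hP, ha P hP]
  inv_mem' := fun {a} ha P hP => by
    have h : a⁻¹ • a • P = a⁻¹ • P :=
      congrArg (fun Q : (W.baseChange ℚbar).toAffine.Point => a⁻¹ • Q) (ha P hP)
    rw [← S41NE_gsmul_mul, inv_mul_cancel, S41NE_gsmul_one] at h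
    exact h.symm

theorem S40AK_mem_H (W : WeierstrassCurve ℤ) (p : ℕ) (g : GQ) :
    g ∈ S40AK_H W p ↔ ∀ P : (W.baseChange ℚbar).toAffine.Point, p • P = 0 → g • P = P :=
  Iff.rfl

instance S40AK_H_normal (W : WeierstrassCurve ℤ) (p : ℕ) : (S40AK_H W p).Normal where
  conj_mem := fun n hn g P hP => by
    have hgP : p • (g⁻¹ • P) = 0 := by rw [← S41NE_gsmul_nsmul, hP, S41NE_gsmul_zero]
    rw [S41NE_gsmul_mul, S41NE_gsmul_mul, hn _ hgP, ← S41NE_gsmul_mul, mul_inv_cancel,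
      S41NE_gsmul_one]

/-- **ALG-K, kernel equality**: `V` finite, of exponent `p`, simple, with the relations `(R)`
of ALG-R: an element of `G_ℚ` which is trivial on `W[p]` is trivial on `V`. -/
theorem S40AK_main (W : WeierstrassCurve ℤ) (hΔ : W.Δ ≠ 0) {p : ℕ} (hp : p.Prime)
    (hp2 : p ≠ 2) (hirr : W.ModRepIsIrreducible p) {V : Type*} [AddCommGroup V] [Finite V]
    (actV : GQ → V → V) (h1V : ∀ x, actV 1 x = x)
    (hmulV : ∀ g h x, actV (g * h) x = actV g (actV h x))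
    (haddV : ∀ g x y, actV g (x + y) = actV g x + actV g y)
    (hVp : ∀ y : V, p • y = 0)
    (hsimple : ∀ Y : AddSubgroup V, (∀ g : GQ, ∀ x ∈ Y, actV g x ∈ Y) → Y = ⊥ ∨ Y = ⊤)
    (hR : S40AK_Rel W p actV) (g : GQ)
    (hg : ∀ P : (W.baseChange ℚbar).toAffine.Point, p • P = 0 → g • P = P) (y : V) :
    actV g y = y := by
  haveI : Fact p.Prime := ⟨hp⟩
  exact S40AK_trivial_of_unip actV h1V hmulV haddV p hVp hsimple (S40AK_H W p)
    (fun h hh x => S40AK_unip_of_fix W hΔ hp hp2 hirr actV hVp hR h hh x) g hg y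

/-- the relations `(R)` for a subgroup `V` of a `G_ℚ`-module `Y`. -/
def S40AK_RelOn (W : WeierstrassCurve ℤ) (p : ℕ) {Y : Type*} [AddCommGroup Y]
    (actY : GQ → Y → Y) (V : AddSubgroup Y) : Prop :=
  ∀ g : GQ, ∃ (t : ℤ) (d : ℕ),
    (∀ P : (W.baseChange ℚbar).toAffine.Point, p • P = 0 →
      g • g • P - t • g • P + (d : ℤ) • P = 0) ∧
    (∀ y ∈ V, actY g (actY g y) - t • actY g y + (d : ℤ) • y = 0) ∧
    ∀ ζ : ℚbar, ζ ^ p = 1 → g ζ = ζ ^ d

/-- **ALG-K for a subgroup**: `V ≤ Y` a finite `G_ℚ`-stable subgroup of exponent `p` which is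
simple (every stable subgroup `Y' ≤ V` is `⊥` or `V`), with the relations `(R)` on `V`:
an element of `G_ℚ` which is trivial on `W[p]` is trivial on `V`. -/
theorem S40AK_main_sub (W : WeierstrassCurve ℤ) (hΔ : W.Δ ≠ 0) {p : ℕ} (hp : p.Prime)
    (hp2 : p ≠ 2) (hirr : W.ModRepIsIrreducible p) {Y : Type*} [AddCommGroup Y]
    (actY : GQ → Y → Y) (h1Y : ∀ x, actY 1 x = x)
    (hmulY : ∀ g h x, actY (g * h) x = actY g (actY h x))
    (haddY : ∀ g x y, actY g (x + y) = actY g x + actY g y)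
    (V : AddSubgroup Y) [Finite V] (hstab : ∀ g : GQ, ∀ y ∈ V, actY g y ∈ V)
    (hVp : ∀ y ∈ V, p • y = 0)
    (hsimple : ∀ Y' : AddSubgroup Y, Y' ≤ V → (∀ g : GQ, ∀ x ∈ Y', actY g x ∈ Y') →
      Y' = ⊥ ∨ Y' = V)
    (hR : S40AK_RelOn W p actY V) (g : GQ)
    (hg : ∀ P : (W.baseChange ℚbar).toAffine.Point, p • P = 0 → g • P = P) :
    ∀ y ∈ V, actY g y = y := by
  intro y hy
  let actV : GQ → V → V := fun σ v => ⟨actY σ v.1, hstab σ v.1 v.2⟩
  have key := S40AK_main W hΔ hp hp2 hirr (V := V) actV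
    (fun x => Subtype.ext (h1Y x.1)) (fun σ τ x => Subtype.ext (hmulY σ τ x.1))
    (fun σ x z => Subtype.ext (haddY σ x.1 z.1))
    (fun v => Subtype.ext (by rw [AddSubgroup.coe_nsmul]; exact hVp v.1 v.2))
    (fun Y'' hY'' => by
      have hle : Y''.map V.subtype ≤ V := by
        rintro _ ⟨v, -, rfl⟩
        exact v.2
      have hst : ∀ σ : GQ, ∀ x ∈ Y''.map V.subtype, actY σ x ∈ Y''.map V.subtype := by
        rintro σ _ ⟨v, hv, rfl⟩
        exact ⟨actV σ v, hY'' σ v hv, rfl⟩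
      rcases hsimple _ hle hst with h | h
      · left
        rw [eq_bot_iff]
        intro v hv
        have : (v : Y) ∈ Y''.map V.subtype := ⟨v, hv, rfl⟩
        rw [h] at this
        exact AddSubgroup.mem_bot.2 (Subtype.ext (AddSubgroup.mem_bot.1 this))
      · right
        rw [eq_top_iff]
        intro v _
        have : (v : Y) ∈ Y''.map V.subtype := by rw [h]; exact v.2
        obtain ⟨v', hv', hvv'⟩ := this
        have : v' = v := Subtype.ext hvv'
        rwa [this] at hv')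
    (fun σ => by
      obtain ⟨t, d, h1, h2, h3⟩ := hR σ
      refine ⟨t, d, h1, fun v => ?_, h3⟩
      apply Subtype.ext
      rw [AddSubgroup.coe_add, AddSubgroup.coe_sub, AddSubgroup.coe_zsmul,
        AddSubgroup.coe_zsmul]
      exact h2 v.1 v.2)
    g hg ⟨y, hy⟩
  exact congrArg Subtype.val key

/-- a nonzero finite stable subgroup contains a nonzero SIMPLE stable subgroup. -/
theorem S40AK_exists_simple {G : Type*} {Y : Type*} [AddCommGroup Y] (actY : G → Y → Y)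
    (V₀ : AddSubgroup Y) [Finite V₀] (hV₀ : V₀ ≠ ⊥)
    (hstab : ∀ g : G, ∀ y ∈ V₀, actY g y ∈ V₀) :
    ∃ V : AddSubgroup Y, V ≤ V₀ ∧ V ≠ ⊥ ∧ (∀ g : G, ∀ y ∈ V, actY g y ∈ V) ∧
      ∀ Y' : AddSubgroup Y, Y' ≤ V → (∀ g : G, ∀ x ∈ Y', actY g x ∈ Y') →
        Y' = ⊥ ∨ Y' = V := by
  suffices h : ∀ n : ℕ, ∀ V₁ : AddSubgroup Y, V₁ ≤ V₀ → V₁ ≠ ⊥ →
      (∀ g : G, ∀ y ∈ V₁, actY g y ∈ V₁) → Nat.card V₁ = n →
      ∃ V : AddSubgroup Y, V ≤ V₁ ∧ V ≠ ⊥ ∧ (∀ g : G, ∀ y ∈ V, actY g y ∈ V) ∧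
        ∀ Y' : AddSubgroup Y, Y' ≤ V → (∀ g : G, ∀ x ∈ Y', actY g x ∈ Y') →
          Y' = ⊥ ∨ Y' = V from h _ V₀ le_rfl hV₀ hstab rfl
  intro n
  induction n using Nat.strong_induction_on with
  | _ n ih =>
    intro V₁ hle hne hst hcard
    by_cases hs : ∀ Y' : AddSubgroup Y, Y' ≤ V₁ → (∀ g : G, ∀ x ∈ Y', actY g x ∈ Y') →
        Y' = ⊥ ∨ Y' = V₁
    · exact ⟨V₁, le_rfl, hne, hst, hs⟩
    · push Not at hs
      obtain ⟨Y', hY'le, hY'st, hY'ne, hY'ne'⟩ := hs
      haveI hfin : Finite V₁ :=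
        Finite.of_injective (AddSubgroup.inclusion hle) (AddSubgroup.inclusion_injective hle)
      have hlt : Nat.card Y' < Nat.card V₁ := by
        by_contra hge
        exact hY'ne' (AddSubgroup.eq_of_le_of_card_ge hY'le (not_lt.1 hge))
      obtain ⟨V, hV, hVne, hVst, hVs⟩ :=
        ih _ (hcard ▸ hlt) Y' (hY'le.trans hle) hY'ne hY'st rfl
      exact ⟨V, hV.trans hY'le, hVne, hVst, hVs⟩

end Fermat.Agent.S40
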