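import Mathlib
import Fermat.Agent.S58.Rel
import Fermat.Agent.S33.Degen
import Fermat.Prelude.Def_ModularCurve_HeckeModule

/-!
# TRACK 13 (S40, row 38): the INTERFACES of the mid wire (helper6, designer).  Prefix `S40D_`.

Level `N = M' * p`, `p ∤ M'`, `A` a valuation ring of `ℚ̄` over `p`, `W / ℤ` good at `p`.

* `S40D_I1 A p`   : `I¹ = {g ∈ I_A | g ζ = ζ for all ζ with ζ ^ p = 1}`;
* `S40D_Tres A p β` : `β ≠ 0`, `β ^ p` fixed by `I¹`, `v(β) ∉ v(F^×)` (`F := Fix(I¹)`): a TRÈS ramifié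
  Kummer generator over `F`;
* `S40D_InvW W A p` : **(INV) on the W-side**: no très `β` lies in `F(W[p])`, i.e. every très `β` is
  moved by some `g ∈ I¹` fixing `W[p]` pointwise;
* `S40D_InvJ N A p V` : the same for a subgroup `V` of `J₀(N)`;
* `S40D_Rel W p N V` : **(ALG-R)** the joint quadratic relations on `W[p]` and on `V`;
* `S40D_Ker W p N V` : **(ALG-K)** `g = 1` on `W[p]` ⇒ `g = 1` on `V`;
* `S40D_V0 W p N`   : the `W`-eigenspace of `J₀(N)[p]` for the `T_ℓ`, `ℓ ∤ N`, `ℓ ≠ p`, `ℓ` good for `W`;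
* `S40D_invJ_of_invW` : (INV) passes from `W[p]` to `V` along (ALG-K).
-/

set_option autoImplicit false
set_option linter.unusedSectionVars false
set_option linter.unusedVariables false

namespace Fermat.Agent.S40

open WeierstrassCurve ModularCurve

local notation "ℚbar" => AlgebraicClosure ℚ
local notation "GQ" => (AlgebraicClosure ℚ ≃ₐ[ℚ] AlgebraicClosure ℚ)

/-- `I¹`: the elements of the inertia group at `A` fixing the `p`-th roots of unity. -/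
def S40D_I1 (A : ValuationSubring ℚbar) (p : ℕ) : Subgroup GQ where
  carrier := {g | g ∈ A.inertiaSubgroupIn ℚ ∧ ∀ ζ : ℚbar, ζ ^ p = 1 → g ζ = ζ}
  one_mem' := ⟨one_mem _, fun _ _ => rfl⟩
  mul_mem' := by
    rintro g h ⟨hg, hg'⟩ ⟨hh, hh'⟩
    refine ⟨mul_mem hg hh, fun ζ hζ => ?_⟩
    change g (h ζ) = ζ
    rw [hh' ζ hζ, hg' ζ hζ]
  inv_mem' := by
    rintro g ⟨hg, hg'⟩
    refine ⟨inv_mem hg, fun ζ hζ => ?_⟩
    have h1 : g ζ = ζ := hg' ζ hζ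
    calc g⁻¹ ζ = g⁻¹ (g ζ) := by rw [h1]
      _ = ζ := g.symm_apply_apply ζ

theorem S40D_mem_I1 {A : ValuationSubring ℚbar} {p : ℕ} {g : GQ} :
    g ∈ S40D_I1 A p ↔ g ∈ A.inertiaSubgroupIn ℚ ∧ ∀ ζ : ℚbar, ζ ^ p = 1 → g ζ = ζ :=
  Iff.rfl

/-- a TRÈS ramifié Kummer generator over `F = Fix(I¹)`: `β ≠ 0`, `β ^ p ∈ F`, `v(β) ∉ v(F^×)`. -/
def S40D_Tres (A : ValuationSubring ℚbar) (p : ℕ) (β : ℚbar) : Prop :=
  β ≠ 0 ∧ (∀ g ∈ S40D_I1 A p, g (β ^ p) = β ^ p) ∧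
    ∀ c : ℚbar, (∀ g ∈ S40D_I1 A p, g c = c) → c ≠ 0 → A.valuation β ≠ A.valuation c

/-- **(INV), W-side**: every très `β` is moved by some `g ∈ I¹` acting trivially on `W[p]`
(`F(W[p])` contains no très Kummer generator). -/
def S40D_InvW (W : WeierstrassCurve ℤ) (A : ValuationSubring ℚbar) (p : ℕ) : Prop :=
  ∀ β : ℚbar, S40D_Tres A p β →
    ∃ g ∈ S40D_I1 A p, (∀ P : (W.baseChange ℚbar).toAffine.Point, p • P = 0 → g • P = P) ∧
      g β ≠ β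

/-- **(INV), J-side**: every très `β` is moved by some `g ∈ I¹` acting trivially on `V`. -/
def S40D_InvJ (N : ℕ) (A : ValuationSubring ℚbar) (p : ℕ) (V : AddSubgroup (JZero N)) : Prop :=
  ∀ β : ℚbar, S40D_Tres A p β → ∃ g ∈ S40D_I1 A p, (∀ x ∈ V, g • x = x) ∧ g β ≠ β

/-- **(ALG-R)** the joint relations: every `g ∈ G_ℚ` satisfies `g² − t g + d = 0` on `W[p]` and on
`V`, and `g ζ = ζ ^ d` on the `p`-th roots of unity. -/
def S40D_Rel (W : WeierstrassCurve ℤ) (p N : ℕ) (V : AddSubgroup (JZero N)) : Prop :=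
  ∀ g : GQ, ∃ (t : ℤ) (d : ℕ),
    (∀ P : (W.baseChange ℚbar).toAffine.Point, p • P = 0 → g • g • P - t • g • P + d • P = 0) ∧
    (∀ x ∈ V, g • g • x - t • g • x + d • x = 0) ∧
    ∀ ζ : ℚbar, ζ ^ p = 1 → g ζ = ζ ^ d

/-- **(ALG-K)** kernel inclusion: `g = 1` on `W[p]` ⇒ `g = 1` on `V`. -/
def S40D_Ker (W : WeierstrassCurve ℤ) (p N : ℕ) (V : AddSubgroup (JZero N)) : Prop :=
  ∀ g : GQ, (∀ P : (W.baseChange ℚbar).toAffine.Point, p • P = 0 → g • P = P) →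
    ∀ x ∈ V, g • x = x

/-- the `W`-eigenspace of `J₀(N)[p]` for the Hecke operators `T_ℓ`, `ℓ ∤ N`, `ℓ ≠ p`, `ℓ` good
(as a set; it is a `G_ℚ`-stable subgroup). -/
def S40D_V0 (W : WeierstrassCurve ℤ) (p N : ℕ) [NeZero N] : Set (JZero N) :=
  {x | p • x = 0 ∧ ∀ ℓ : Nat.Primes, W.IsGoodPrimeFor ℓ → ¬ (ℓ : ℕ) ∣ N → (ℓ : ℕ) ≠ p →
    heckeOperatorBar N ℓ x = W.apOfModel ℓ • x}

/-- (INV) passes from `W[p]` to `V` along (ALG-K). -/
theorem S40D_invJ_of_invW {W : WeierstrassCurve ℤ} {A : ValuationSubring ℚbar} {p N : ℕ}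
    {V : AddSubgroup (JZero N)} (hK : S40D_Ker W p N V) (hW : S40D_InvW W A p) :
    S40D_InvJ N A p V := by
  intro β hβ
  obtain ⟨g, hg, hgW, hgβ⟩ := hW β hβ
  exact ⟨g, hg, hK g hgW, hgβ⟩

end Fermat.Agent.S40
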