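import Mathlib

/-!
# S40 (Mazur–Ribet at `p`, row 38): the ABSTRACT mid wire (helper2).  Prefix `S40WA_`.  Mathlib only.

The logic of helper6's skeleton (T13 RULING 1), for an abstract group `G` acting on an abelian
group `J` (think `G = G_ℚ`, `J = J₀(M'p)`), a finite `G`-stable subgroup `V₀ ≠ 0` (the
eigen-classes of `W` in `J[p]`), a group `Wp` with `G`-action (`W[p]`), the inertia group
`Iner`, the wild part `I1`, predicates `New` (killed by the two degeneracy maps) and `PEU`.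

* `S40WA_exists_simple` : a finite nonzero stable subgroup contains a SIMPLE stable subgroup.
* `S40WA_main` : the goal `Core` from the holes
  (OLD) a non-new class of `V₀` gives `Core`;                       [GEO-3 + GEO-2 LIFT]
  (U)   a simple new `V ≤ V₀` inside `U_J` is impossible;           [hN of S33 + ALG-S]
  (A)   CASE A (some `g ∈ Iner` without fixed vector on `Wp`) forces `V ≤ U_J`;   [ALG-R]
  (GEO) CASE B and `V ⊄ U_J`: `Core`, or some `τ ∈ I1` PEU moves a vector of `V`; [GEO-5, GEO-6]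
  (PEU) a PEU element is trivial on `Wp`;                            [W-PEU]
  (KER) trivial on `Wp` ⇒ trivial on a simple `V ≤ V₀`.               [ALG-K]
-/

set_option autoImplicit false

namespace Fermat.Agent.S40

variable {G : Type*} [Group G] {J : Type*} [AddCommGroup J] [DistribMulAction G J]

/-- `V` is stable under `G`. -/
def S40WA_Stable (G : Type*) [Group G] {J : Type*} [AddCommGroup J] [DistribMulAction G J]
    (V : AddSubgroup J) : Prop :=
  ∀ (g : G) (x : J), x ∈ V → g • x ∈ V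

/-- `V` is a simple `G`-stable subgroup. -/
def S40WA_Simple (G : Type*) [Group G] {J : Type*} [AddCommGroup J] [DistribMulAction G J]
    (V : AddSubgroup J) : Prop :=
  V ≠ ⊥ ∧ S40WA_Stable G V ∧
    ∀ V' : AddSubgroup J, V' ≤ V → S40WA_Stable G V' → V' = ⊥ ∨ V' = V

/-- the augmentation part `U_J` of a subgroup `Iner`: generated by the `σ x − x`. -/
def S40WA_U {G : Type*} [Group G] (Iner : Subgroup G) (J : Type*) [AddCommGroup J]
    [DistribMulAction G J] : AddSubgroup J :=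
  AddSubgroup.closure {w | ∃ σ ∈ Iner, ∃ x : J, w = σ • x - x}

/-- a finite nonzero stable subgroup contains a simple stable subgroup. -/
theorem S40WA_exists_simple (V₀ : AddSubgroup J) [Finite V₀] (hV₀ : V₀ ≠ ⊥)
    (hst : S40WA_Stable G V₀) :
    ∃ V : AddSubgroup J, V ≤ V₀ ∧ S40WA_Simple G V := by
  classical
  -- induction on the cardinality
  suffices H : ∀ n : ℕ, ∀ V₁ : AddSubgroup J, V₁ ≤ V₀ → V₁ ≠ ⊥ → S40WA_Stable G V₁ →
      Nat.card V₁ ≤ n → ∃ V : AddSubgroup J, V ≤ V₁ ∧ S40WA_Simple G V by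
    exact H (Nat.card V₀) V₀ le_rfl hV₀ hst le_rfl
  intro n
  induction n with
  | zero =>
    intro V₁ hV₁ _ _ hcard
    have : Finite V₁ := Finite.of_injective (AddSubgroup.inclusion hV₁)
      (AddSubgroup.inclusion_injective hV₁)
    have : 0 < Nat.card V₁ := Nat.card_pos
    omega
  | succ n ih =>
    intro V₁ hV₁ hne hst₁ hcard
    have : Finite V₁ := Finite.of_injective (AddSubgroup.inclusion hV₁)
      (AddSubgroup.inclusion_injective hV₁)
    by_cases hsimple : ∀ V' : AddSubgroup J, V' ≤ V₁ → S40WA_Stable G V' → V' = ⊥ ∨ V' = V₁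
    · exact ⟨V₁, le_rfl, hne, hst₁, hsimple⟩
    · push Not at hsimple
      obtain ⟨V', hV'le, hV'st, hV'bot, hV'ne⟩ := hsimple
      have hlt : Nat.card V' < Nat.card V₁ := by
        have hle : Nat.card V' ≤ Nat.card V₁ := AddSubgroup.card_le_of_le hV'le
        rcases Nat.lt_or_ge (Nat.card V') (Nat.card V₁) with h | h
        · exact h
        · exact absurd (AddSubgroup.eq_of_le_of_card_ge hV'le h) hV'ne
      obtain ⟨V, hVle, hV⟩ := ih V' (hV'le.trans hV₁) hV'bot hV'st (by omega)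
      exact ⟨V, hVle.trans hV'le, hV⟩

/-- **ABSTRACT MID WIRE.** -/
theorem S40WA_main {Wp : Type*} [AddCommGroup Wp] [DistribMulAction G Wp]
    (Iner I1 : Subgroup G) (V₀ : AddSubgroup J) [Finite V₀]
    (New : J → Prop) (PEU : G → Prop) (Core : Prop)
    (hV₀ : V₀ ≠ ⊥) (hst : S40WA_Stable G V₀)
    (hOLD : (∃ x ∈ V₀, ¬ New x) → Core)
    (hU : ∀ V : AddSubgroup J, V ≤ V₀ → S40WA_Simple G V → (∀ x ∈ V, New x) →
      V ≤ S40WA_U Iner J → False)
    (hA : ∀ V : AddSubgroup J, V ≤ V₀ → S40WA_Simple G V → (∀ x ∈ V, New x) →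
      (∃ g ∈ Iner, ∀ w : Wp, g • w = w → w = 0) → V ≤ S40WA_U Iner J)
    (hGEO : ∀ V : AddSubgroup J, V ≤ V₀ → S40WA_Simple G V → (∀ x ∈ V, New x) →
      (∀ g ∈ Iner, ∃ w : Wp, w ≠ 0 ∧ g • w = w) → ¬ V ≤ S40WA_U Iner J →
      Core ∨ ∃ τ ∈ I1, PEU τ ∧ ∃ x ∈ V, τ • x ≠ x)
    (hPEU : ∀ τ ∈ I1, PEU τ → ∀ w : Wp, τ • w = w)
    (hKER : ∀ V : AddSubgroup J, V ≤ V₀ → S40WA_Simple G V → ∀ g : G,
      (∀ w : Wp, g • w = w) → ∀ x ∈ V, g • x = x) :
    Core := by
  classical
  by_cases hold : ∃ x ∈ V₀, ¬ New x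
  · exact hOLD hold
  · push Not at hold
    obtain ⟨V, hVle, hV⟩ := S40WA_exists_simple (G := G) V₀ hV₀ hst
    have hnew : ∀ x ∈ V, New x := fun x hx => hold x (hVle hx)
    by_cases hcaseA : ∃ g ∈ Iner, ∀ w : Wp, g • w = w → w = 0
    · exact (hU V hVle hV hnew (hA V hVle hV hnew hcaseA)).elim
    · have hcaseB : ∀ g ∈ Iner, ∃ w : Wp, w ≠ 0 ∧ g • w = w := by
        intro g hg
        by_contra hcon
        push Not at hcon
        exact hcaseA ⟨g, hg, fun w hw => by_contra fun hw0 => hcon w hw0 hw⟩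
      by_cases hVU : V ≤ S40WA_U Iner J
      · exact (hU V hVle hV hnew hVU).elim
      · rcases hGEO V hVle hV hnew hcaseB hVU with hc | ⟨τ, hτ, hτP, x, hx, hτx⟩
        · exact hc
        · exact (hτx (hKER V hVle hV τ (hPEU τ hτ hτP) x hx)).elim

end Fermat.Agent.S40
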