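import Fermat.Agent.S40.AlgKer
import Fermat.Agent.S40.Defs
import Fermat.Agent.S40.WireAbs

/-!
# TRACK 13 (S40), package ALG-K, the INSTANCE for helper6's interface (helper25) — prefix `S40AK_`

* `S40AK_relOn_of_rel` : `S40D_Rel W p N V ⇒ S40AK_RelOn W p (· • ·) V`;
* `S40AK_ker` : for a finite SIMPLE stable subgroup `V ≤ J₀(N)` of exponent `p`:
  `S40D_Rel W p N V ⇒ S40D_Ker W p N V`   (the hole (KER) of `S40WA_main`);
* `S40AK_rel_mono` : `S40D_Rel` passes to subgroups.
-/

set_option autoImplicit false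
set_option linter.unusedSectionVars false
set_option linter.unusedVariables false
set_option linter.style.haveILetI false

namespace Fermat.Agent.S40

open WeierstrassCurve ModularCurve Fermat.Agent.GalRep

local notation "ℚbar" => AlgebraicClosure ℚ

/-- `S40D_Rel` passes to subgroups. -/
theorem S40AK_rel_mono {W : WeierstrassCurve ℤ} {p N : ℕ} {V V' : AddSubgroup (JZero N)}
    (hle : V' ≤ V) (hR : S40D_Rel W p N V) : S40D_Rel W p N V' := by
  intro g
  obtain ⟨t, d, h1, h2, h3⟩ := hR g
  exact ⟨t, d, h1, fun x hx => h2 x (hle hx), h3⟩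

/-- the relations of helper6's interface in the form of `S40/AlgKer.lean`. -/
theorem S40AK_relOn_of_rel {W : WeierstrassCurve ℤ} {p N : ℕ} {V : AddSubgroup (JZero N)}
    (hR : S40D_Rel W p N V) :
    S40AK_RelOn W p (fun (g : GQ) (x : JZero N) => g • x) V := by
  intro g
  obtain ⟨t, d, h1, h2, h3⟩ := hR g
  refine ⟨t, d, fun P hP => ?_, fun x hx => ?_, h3⟩
  · have := h1 P hP
    rwa [← natCast_zsmul] at this
  · have := h2 x hx
    rwa [← natCast_zsmul] at this

/-- **ALG-K for helper6's interface**: the hole (KER) of the mid wire. -/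
theorem S40AK_ker (W : WeierstrassCurve ℤ) (hΔ : W.Δ ≠ 0) {p : ℕ} (hp : p.Prime)
    (hp2 : p ≠ 2) (hirr : W.ModRepIsIrreducible p) {N : ℕ} (V : AddSubgroup (JZero N))
    [Finite V] (hVp : ∀ x ∈ V, p • x = 0) (hV : S40WA_Simple GQ V)
    (hR : S40D_Rel W p N V) : S40D_Ker W p N V := by
  intro g hg
  obtain ⟨-, hst, hsimple⟩ := hV
  exact S40AK_main_sub W hΔ hp hp2 hirr (fun (g : GQ) (x : JZero N) => g • x)
    (fun x => one_smul _ x) (fun g h x => mul_smul g h x) (fun g x y => smul_add g x y)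
    V (fun g y hy => hst g y hy) hVp
    (fun Y' hle hY' => hsimple Y' hle (fun g x hx => hY' g x hx))
    (S40AK_relOn_of_rel hR) g hg

end Fermat.Agent.S40
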