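import Mathlib
import Fermat.Agent.S33.Degen
import Fermat.Agent.S37.Main
import Fermat.Agent.S37.H1
import Fermat.Agent.S18
import Fermat.Agent.Lib.FrobExists

/-!
# TRACK 13 (S40), package GEO-3 (helper1): the degeneracy maps commute with `T_ℓ` on torsion

Prefix `S40G3_`.  `a = S33DG_aJ M p = α_*`, `b = S33DG_bJ M p = β_* : J₀(Mp) →+ J₀(M)`.

No base change of norms: Hecke-equivariance ON TORSION follows from Galois-equivariance
(`S33DG_aJ_smul`, `S33DG_bJ_smul`) and the Eichler–Shimura relation on torsion.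

* `S40G3_es`       : **Eichler–Shimura on torsion**: for `y ∈ J₀(N)` killed by `m`, `ℓ ∤ m N`
                     prime and `σ` a Frobenius at `A ∣ ℓ`:  `T_ℓ y = σ y + ℓ σ⁻¹ y`;
* `S40G3_aJ_hecke`, `S40G3_bJ_hecke` : `a (T_ℓ x) = T_ℓ (a x)` for torsion `x`, `ℓ ∤ M p`;
* `S40G3_aJ_eigen`, `S40G3_bJ_eigen` : `T_ℓ x = c • x ⇒ T_ℓ (a x) = c • a x`;
* `S40G3_a_hecke`, `S40G3_b_hecke`, `S40G3_a_eigen`, `S40G3_b_eigen` : the same for
  `S33DG_a M p K`, `S33DG_b M p K` on `J₀(Mp)[p^K]` (`ℓ ≠ p`).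
-/

set_option autoImplicit false
set_option linter.style.haveILetI false
set_option linter.unusedSectionVars false
set_option synthInstance.maxHeartbeats 400000
set_option maxHeartbeats 1000000

open AlgebraicCurve ModularCurve

noncomputable section

namespace Fermat.Agent.S40

open Fermat.Agent.S18 Fermat.Agent.S33 Fermat.Agent.S37 Fermat.Agent.Lib Fermat.Agent.GalRep

/-- auxiliary: torsion of the Eichler–Shimura combination. -/
theorem S40G3_aux_tors {J : Type*} [AddCommGroup J] (m ℓ : ℕ) (T S R : J)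
    (h1 : m • T = 0) (h2 : m • S = 0) (h3 : m • R = 0) : m • (T - (S + ℓ • R)) = 0 := by
  rw [smul_sub, smul_add, h1, h2, smul_comm m ℓ, h3, smul_zero, add_zero, sub_zero]

/-- auxiliary: an additive map kills the Eichler–Shimura combination. -/
theorem S40G3_aux_red {J J' : Type*} [AddCommGroup J] [AddCommGroup J'] (φ : J →+ J') (ℓ : ℕ)
    (T S R : J) (h : φ T = φ S + ℓ • φ R) : φ (T - (S + ℓ • R)) = 0 := by
  rw [map_sub, map_add, map_nsmul, h, sub_self]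

/-- **Eichler–Shimura on torsion.** -/
theorem S40G3_es (N : ℕ) [NeZero N] (q : Nat.Primes) (hℓN : ¬ (q : ℕ) ∣ N)
    (A : ValuationSubring (AlgebraicClosure ℚ)) (hA : A.LiesOverPrime (q : ℕ))
    (σ : AlgebraicClosure ℚ ≃ₐ[ℚ] AlgebraicClosure ℚ) (hσ : A.IsFrobeniusAt σ (q : ℕ))
    {m : ℕ} (hm : ¬ (q : ℕ) ∣ m) (y : JZero N) (hy : m • y = 0) :
    heckeOperatorBar N q y = σ • y + (q : ℕ) • σ⁻¹ • y := by
  have hℓ : (q : ℕ).Prime := q.2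
  haveI : Fact (q : ℕ).Prime := ⟨hℓ⟩
  haveI : NeZero (q : ℕ) := ⟨hℓ.ne_zero⟩
  have h : ReductionInputsModL A N := RI_main N A hℓ hA hℓN
  have hred := S37_red_hecke h hℓ hA (S37_H1 N (q : ℕ) hℓ hℓN) σ hσ y
  have h1 : m • heckeOperatorBar N q y = 0 := by
    rw [← map_nsmul, hy, map_zero]
  have hg : ∀ g : AlgebraicClosure ℚ ≃ₐ[ℚ] AlgebraicClosure ℚ, m • (g • y) = 0 := by
    intro g
    have e : m • (g • y) = g • (m • y) := smul_comm m g y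
    rw [e, hy]
    exact smul_zero (A := JZero N) g
  have h2 : m • (σ • y) = 0 := hg σ
  have h3 : m • (σ⁻¹ • y) = 0 := hg σ⁻¹
  have hmz : m • (heckeOperatorBar N q y - (σ • y + (q : ℕ) • σ⁻¹ • y)) = 0 :=
    S40G3_aux_tors m (q : ℕ) _ _ _ h1 h2 h3
  have hredz : reductionModL A N (heckeOperatorBar N q y - (σ • y + (q : ℕ) • σ⁻¹ • y)) = 0 :=
    S40G3_aux_red (reductionModL A N) (q : ℕ) _ _ _ hred
  exact sub_eq_zero.mp (Fermat.Agent.S18.result N hℓN A hA h m hm _ hmz hredz)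

section degeneracy

variable (M p : ℕ) [NeZero M] [NeZero p] [NeZero (M * p)]

/-- **`a = α_*` commutes with `T_ℓ` on torsion** (`ℓ ∤ M p`, `ℓ ∤ m`). -/
theorem S40G3_aJ_hecke (q : Nat.Primes) (hℓMp : ¬ (q : ℕ) ∣ M * p) {m : ℕ} (hm0 : 0 < m)
    (hm : ¬ (q : ℕ) ∣ m) (x : JZero (M * p)) (hx : m • x = 0) :
    S33DG_aJ M p (heckeOperatorBar (M * p) q x) = heckeOperatorBar M q (S33DG_aJ M p x) := by
  obtain ⟨A, σ, hA, hσ⟩ := exists_isFrobeniusAt (q : ℕ) q.2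
  have hℓM : ¬ (q : ℕ) ∣ M := fun hd => hℓMp (Dvd.dvd.mul_right hd p)
  have hax : m • S33DG_aJ M p x = 0 := by rw [← map_nsmul, hx, map_zero]
  rw [S40G3_es (M * p) q hℓMp A hA σ hσ hm x hx, S40G3_es M q hℓM A hA σ hσ hm _ hax,
    map_add, map_nsmul, S33DG_aJ_smul M p hm0 σ x hx, S33DG_aJ_smul M p hm0 σ⁻¹ x hx]

/-- **`b = β_*` commutes with `T_ℓ` on torsion** (`ℓ ∤ M p`, `ℓ ∤ m`). -/
theorem S40G3_bJ_hecke (q : Nat.Primes) (hℓMp : ¬ (q : ℕ) ∣ M * p) {m : ℕ} (hm0 : 0 < m)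
    (hm : ¬ (q : ℕ) ∣ m) (x : JZero (M * p)) (hx : m • x = 0) :
    S33DG_bJ M p (heckeOperatorBar (M * p) q x) = heckeOperatorBar M q (S33DG_bJ M p x) := by
  obtain ⟨A, σ, hA, hσ⟩ := exists_isFrobeniusAt (q : ℕ) q.2
  have hℓM : ¬ (q : ℕ) ∣ M := fun hd => hℓMp (Dvd.dvd.mul_right hd p)
  have hbx : m • S33DG_bJ M p x = 0 := by rw [← map_nsmul, hx, map_zero]
  rw [S40G3_es (M * p) q hℓMp A hA σ hσ hm x hx, S40G3_es M q hℓM A hA σ hσ hm _ hbx,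
    map_add, map_nsmul, S33DG_bJ_smul M p hm0 σ x hx, S33DG_bJ_smul M p hm0 σ⁻¹ x hx]

/-- an eigen-class for `T_ℓ` at level `M p` is mapped by `a` to an eigen-class at level `M`
with the same eigenvalue. -/
theorem S40G3_aJ_eigen (q : Nat.Primes) (hℓMp : ¬ (q : ℕ) ∣ M * p) {m : ℕ} (hm0 : 0 < m)
    (hm : ¬ (q : ℕ) ∣ m) (x : JZero (M * p)) (hx : m • x = 0) (c : ℤ)
    (hc : heckeOperatorBar (M * p) q x = c • x) :
    heckeOperatorBar M q (S33DG_aJ M p x) = c • S33DG_aJ M p x := by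
  rw [← S40G3_aJ_hecke M p q hℓMp hm0 hm x hx, hc, map_zsmul]

theorem S40G3_bJ_eigen (q : Nat.Primes) (hℓMp : ¬ (q : ℕ) ∣ M * p) {m : ℕ} (hm0 : 0 < m)
    (hm : ¬ (q : ℕ) ∣ m) (x : JZero (M * p)) (hx : m • x = 0) (c : ℤ)
    (hc : heckeOperatorBar (M * p) q x = c • x) :
    heckeOperatorBar M q (S33DG_bJ M p x) = c • S33DG_bJ M p x := by
  rw [← S40G3_bJ_hecke M p q hℓMp hm0 hm x hx, hc, map_zsmul]

/-! ### the same on `J₀(Mp)[p^K]` -/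

theorem S40G3_not_dvd_pow (q : Nat.Primes) (hℓMp : ¬ (q : ℕ) ∣ M * p) (K : ℕ) :
    ¬ (q : ℕ) ∣ p ^ K := fun hd =>
  hℓMp (Dvd.dvd.mul_left (q.2.dvd_of_dvd_pow hd) M)

/-- `a (T_ℓ x) = T_ℓ (a x)` on `J₀(Mp)[p^K]`, `ℓ ∤ M p`. -/
theorem S40G3_a_hecke (K : ℕ) (q : Nat.Primes) (hℓMp : ¬ (q : ℕ) ∣ M * p)
    (x : ↥(Submodule.torsionBy ℤ (JZero (M * p)) ((p : ℤ) ^ K))) :
    S33DG_aJ M p (heckeOperatorBar (M * p) q (x : JZero (M * p))) =
      heckeOperatorBar M q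
        ((S33DG_a M p K x : ↥(Submodule.torsionBy ℤ (JZero M) ((p : ℤ) ^ K))) : JZero M) := by
  rw [S33DG_a_coe]
  exact S40G3_aJ_hecke M p q hℓMp (pos_of_ne_zero (pow_ne_zero K (NeZero.ne p)))
    (S40G3_not_dvd_pow M p q hℓMp K) _ (S33DG_tors_nsmul p K x)

/-- `b (T_ℓ x) = T_ℓ (b x)` on `J₀(Mp)[p^K]`, `ℓ ∤ M p`. -/
theorem S40G3_b_hecke (K : ℕ) (q : Nat.Primes) (hℓMp : ¬ (q : ℕ) ∣ M * p)
    (x : ↥(Submodule.torsionBy ℤ (JZero (M * p)) ((p : ℤ) ^ K))) :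
    S33DG_bJ M p (heckeOperatorBar (M * p) q (x : JZero (M * p))) =
      heckeOperatorBar M q
        ((S33DG_b M p K x : ↥(Submodule.torsionBy ℤ (JZero M) ((p : ℤ) ^ K))) : JZero M) := by
  rw [S33DG_b_coe]
  exact S40G3_bJ_hecke M p q hℓMp (pos_of_ne_zero (pow_ne_zero K (NeZero.ne p)))
    (S40G3_not_dvd_pow M p q hℓMp K) _ (S33DG_tors_nsmul p K x)

/-- an eigen-class of `J₀(Mp)[p^K]` for `T_ℓ` (`ℓ ∤ M p`) is mapped by `a` to an eigen-class of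
`J₀(M)[p^K]` with the same eigenvalue. -/
theorem S40G3_a_eigen (K : ℕ) (q : Nat.Primes) (hℓMp : ¬ (q : ℕ) ∣ M * p)
    (x : ↥(Submodule.torsionBy ℤ (JZero (M * p)) ((p : ℤ) ^ K))) (c : ℤ)
    (hc : heckeOperatorBar (M * p) q (x : JZero (M * p)) = c • (x : JZero (M * p))) :
    heckeOperatorBar M q
        ((S33DG_a M p K x : ↥(Submodule.torsionBy ℤ (JZero M) ((p : ℤ) ^ K))) : JZero M) =
      c • ((S33DG_a M p K x : ↥(Submodule.torsionBy ℤ (JZero M) ((p : ℤ) ^ K))) : JZero M) := by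
  rw [S33DG_a_coe]
  exact S40G3_aJ_eigen M p q hℓMp (pos_of_ne_zero (pow_ne_zero K (NeZero.ne p)))
    (S40G3_not_dvd_pow M p q hℓMp K) _ (S33DG_tors_nsmul p K x) c hc

theorem S40G3_b_eigen (K : ℕ) (q : Nat.Primes) (hℓMp : ¬ (q : ℕ) ∣ M * p)
    (x : ↥(Submodule.torsionBy ℤ (JZero (M * p)) ((p : ℤ) ^ K))) (c : ℤ)
    (hc : heckeOperatorBar (M * p) q (x : JZero (M * p)) = c • (x : JZero (M * p))) :
    heckeOperatorBar M q
        ((S33DG_b M p K x : ↥(Submodule.torsionBy ℤ (JZero M) ((p : ℤ) ^ K))) : JZero M) =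
      c • ((S33DG_b M p K x : ↥(Submodule.torsionBy ℤ (JZero M) ((p : ℤ) ^ K))) : JZero M) := by
  rw [S33DG_b_coe]
  exact S40G3_bJ_eigen M p q hℓMp (pos_of_ne_zero (pow_ne_zero K (NeZero.ne p)))
    (S40G3_not_dvd_pow M p q hℓMp K) _ (S33DG_tors_nsmul p K x) c hc

end degeneracy

end Fermat.Agent.S40
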