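import Mathlib
import Fermat.Agent.S40.Defs
import Fermat.Agent.S40.Geo3
import Fermat.Agent.S58.CompRes
import Fermat.Agent.S58.Fin
import Fermat.Agent.S17.Stab

/-!
# TRACK 13 (S40, row 38), package (ALG-R) (helper4).  Prefix `S40AR_`.

`S40AR_main : W.Δ ≠ 0 → p.Prime → (V ⊆ S40D_V0 W p N) → S40D_Rel W p N V`.

For `g ∈ G_ℚ` choose (elementwise Frobenius density `S58FIN_fde`) a Frobenius element `σ` at a
prime `ℓ ∤ N p Δ_W` and `n` with `g = σ ^ n` on `W[p]`, on `J₀(N)[p]` (`S17ST_tors_stab`) and on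
`μ_p`.  Then `t := V_n(a_ℓ(W), ℓ)` (Lucas sequence) and `d := ℓ ^ n` work:
* Eichler–Shimura on classes `S40G3_es` (helper1): `T_ℓ x = σ x + ℓ σ⁻¹ x` on `J₀(N)[p]`;
* `S40AR_abs_stable` : hence `σ T_ℓ = T_ℓ σ` on `J₀(N)[p]`, the eigenspace `{T_ℓ x = a x}` is
  `σ`-stable and `σ² − a σ + ℓ = 0` on it (abstract: any group acting on any abelian group);
* `S40AR_abs_rel_pow` : Lucas (`S58ER_lucas_add`) for the powers of `σ`;
* `S58ER_rel_pow` on `W[p]`; `S58ER_zeta_pow` on `μ_p`.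
-/

set_option autoImplicit false
set_option linter.unusedSectionVars false
set_option linter.unusedVariables false
set_option linter.style.haveILetI false

open scoped Pointwise

namespace Fermat.Agent.S40

open WeierstrassCurve ModularCurve AlgebraicCurve Fermat.Agent.Lib Fermat.Agent.GalRep
  Fermat.Agent.S41 Fermat.Agent.S31 Fermat.Agent.S58 Fermat.Agent.S17

local notation "ℚbar" => AlgebraicClosure ℚ

/-! ### the abstract part -/

section abs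

variable {G M : Type*} [Group G] [AddCommGroup M] [DistribMulAction G M]
  (T : M →+ M) (σ : G) (ℓ p : ℕ) (a : ℤ)

/-- the `a`-eigenspace of `T` in `M[p]`. -/
def S40AR_H : AddSubgroup M where
  carrier := {x | p • x = 0 ∧ T x = a • x}
  zero_mem' := ⟨smul_zero _, by rw [map_zero, smul_zero]⟩
  add_mem' := by
    rintro x y ⟨hx, hx'⟩ ⟨hy, hy'⟩
    exact ⟨by rw [smul_add, hx, hy, add_zero], by rw [map_add, hx', hy', smul_add]⟩
  neg_mem' := by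
    rintro x ⟨hx, hx'⟩
    exact ⟨by rw [smul_neg, hx, neg_zero], by rw [map_neg, hx', smul_neg]⟩

theorem S40AR_mem_H {x : M} : x ∈ S40AR_H T p a ↔ p • x = 0 ∧ T x = a • x := Iff.rfl

variable (hes : ∀ x : M, p • x = 0 → T x = σ • x + ℓ • σ⁻¹ • x)

include hes in
/-- the eigenspace is stable under `σ`, and `σ² − a σ + ℓ = 0` on it. -/
theorem S40AR_abs_stable (x : M) (hx : x ∈ S40AR_H T p a) :
    σ • x ∈ S40AR_H T p a ∧ σ • σ • x - a • σ • x + (ℓ : ℤ) • x = 0 := by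
  obtain ⟨h1, h2⟩ := hx
  have hσx : p • (σ • x) = 0 := by rw [smul_comm, h1, smul_zero]
  have e1 : T (σ • x) = σ • σ • x + ℓ • x := by
    have := hes (σ • x) hσx
    rwa [inv_smul_smul] at this
  have e2 := hes x h1
  have e3 : σ • (T x) = σ • σ • x + ℓ • x := by
    rw [e2, smul_add, smul_comm σ ℓ, smul_inv_smul]
  have e4 : T (σ • x) = a • σ • x := by
    rw [e1, ← e3, h2, smul_comm]
  refine ⟨⟨hσx, e4⟩, ?_⟩
  rw [← e4, e1, natCast_zsmul]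
  abel

/-- `σ` as an additive endomorphism of the eigenspace. -/
def S40AR_F (hst : ∀ x ∈ S40AR_H T p a, σ • x ∈ S40AR_H T p a) :
    AddMonoid.End (S40AR_H T p a) :=
  AddMonoidHom.mk' (fun x => ⟨σ • x.1, hst x.1 x.2⟩)
    (fun x y => Subtype.ext (smul_add σ x.1 y.1))

theorem S40AR_F_pow_apply (hst : ∀ x ∈ S40AR_H T p a, σ • x ∈ S40AR_H T p a) (n : ℕ)
    (x : S40AR_H T p a) :
    (((S40AR_F T σ p a hst) ^ n) x : M) = (σ ^ n) • x.1 := by
  induction n generalizing x with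
  | zero => rw [pow_zero, pow_zero, one_smul]; rfl
  | succ n ih =>
    rw [pow_succ', pow_succ', mul_smul, ← ih x]
    rfl

include hes in
/-- **the Lucas form of the relation**: `(σ^n)² − V_n(a, ℓ) σ^n + ℓ^n = 0` on the eigenspace. -/
theorem S40AR_abs_rel_pow (n : ℕ) (x : M) (hx : x ∈ S40AR_H T p a) :
    (σ ^ n) • (σ ^ n) • x - (LUC_V a (ℓ : ℤ) n) • (σ ^ n) • x + ((ℓ : ℤ) ^ n) • x = 0 := by
  have hst : ∀ x ∈ S40AR_H T p a, σ • x ∈ S40AR_H T p a :=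
    fun x hx => (S40AR_abs_stable T σ ℓ p a hes x hx).1
  have h : ∀ y : S40AR_H T p a, (S40AR_F T σ p a hst) ((S40AR_F T σ p a hst) y) -
      a • (S40AR_F T σ p a hst) y + (ℓ : ℤ) • y = 0 := by
    intro y
    apply Subtype.ext
    rw [AddSubgroup.coe_add, AddSubgroup.coe_sub, AddSubgroup.coe_zsmul, AddSubgroup.coe_zsmul]
    exact (S40AR_abs_stable T σ ℓ p a hes y.1 y.2).2
  have h1 := S58ER_lucas_add (S40AR_F T σ p a hst) a (ℓ : ℤ) h n ⟨x, hx⟩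
  have h2 := congrArg (fun y : S40AR_H T p a => (y : M)) h1
  simp only [AddSubgroup.coe_add, AddSubgroup.coe_sub, AddSubgroup.coe_zsmul,
    S40AR_F_pow_apply] at h2
  exact h2

/-- transport of the relation along `g = σ ^ n` on `M[p]`. -/
theorem S40AR_abs_transport (g : G) (n : ℕ) (t : ℤ) (d : ℕ)
    (hg : ∀ z : M, p • z = 0 → g • z = (σ ^ n) • z) (x : M) (hx : p • x = 0)
    (hrel : (σ ^ n) • (σ ^ n) • x - t • (σ ^ n) • x + ((d : ℕ) : ℤ) • x = 0) :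
    g • g • x - t • g • x + d • x = 0 := by
  have hgx1 : p • (g • x) = 0 := by rw [smul_comm, hx, smul_zero]
  rw [hg _ hgx1, hg x hx, ← natCast_zsmul]
  exact hrel

end abs

/-! ### the instance -/

/-- **(ALG-R)**: the joint quadratic relations on `W[p]` and on every subgroup `V` of the
`W`-eigenspace `S40D_V0 W p N` of `J₀(N)[p]`. -/
theorem S40AR_main (W : WeierstrassCurve ℤ) (hΔ : W.Δ ≠ 0) {p : ℕ} (hp : p.Prime)
    (N : ℕ) [NeZero N] (V : AddSubgroup (JZero N))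
    (hV : ∀ x ∈ V, x ∈ S40D_V0 W p N) : S40D_Rel W p N V := by
  intro g
  haveI : NeZero ((p : ℕ) : ℚ) := ⟨Nat.cast_ne_zero.2 hp.ne_zero⟩
  haveI : NeZero p := ⟨hp.ne_zero⟩
  obtain ⟨ζ, hζ⟩ := HasEnoughRootsOfUnity.exists_primitiveRoot ℚbar p
  obtain ⟨K', hK', -, hstab⟩ := S17ST_tors_stab N p hp.pos
  haveI := hK'
  obtain ⟨ℓ, σ, n, n', hℓ, hℓT', ⟨A, hA, hσ⟩, hgK, hgζ, hgW, -, -, -⟩ :=
    S58FIN_fde W hΔ hp.ne_zero K' {ζ} g (N.primeFactors ∪ W.Δ.natAbs.primeFactors ∪ {p})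
  have hℓN : ¬ ℓ ∣ N := by
    intro h
    apply hℓT'
    have h2 : ℓ ∈ N.primeFactors := Nat.mem_primeFactors.2 ⟨hℓ, h, NeZero.ne N⟩
    simp [h2]
  have hgood : ¬ (ℓ : ℤ) ∣ W.Δ := by
    intro h
    apply hℓT'
    have h1 : ℓ ∣ W.Δ.natAbs := Int.natCast_dvd.1 h
    have h2 : ℓ ∈ W.Δ.natAbs.primeFactors :=
      Nat.mem_primeFactors.2 ⟨hℓ, h1, Int.natAbs_ne_zero.2 hΔ⟩
    simp [h2]
  have hℓp : ℓ ≠ p := fun h => hℓT' (by simp [h])
  have hℓp' : ¬ ℓ ∣ p := fun h => hℓp ((Nat.prime_dvd_prime_iff_eq hℓ hp).1 h)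
  -- `g = σ ^ n` on `J₀(N)[p]`
  have hgJ : ∀ z : JZero N, p • z = 0 → g • z = (σ ^ n) • z := by
    intro z hz
    have hfix : ∀ a ∈ K', (g⁻¹ * σ ^ n) a = a := by
      intro a ha
      rw [AlgEquiv.mul_apply, ← hgK a ha]
      exact g.symm_apply_apply a
    have h1 := hstab (g⁻¹ * σ ^ n) hfix z hz
    have h2 : g • ((g⁻¹ * σ ^ n) • z) = (σ ^ n) • z := by
      rw [← mul_smul, mul_inv_cancel_left]
    rw [← h2, h1]
  -- Eichler–Shimura at `ℓ`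
  have hes : ∀ x : JZero N, p • x = 0 →
      (heckeOperatorBar N ⟨ℓ, hℓ⟩).toAddMonoidHom x = σ • x + ℓ • σ⁻¹ • x :=
    fun x hx => S40G3_es N ⟨ℓ, hℓ⟩ hℓN A hA σ hσ hℓp' x hx
  refine ⟨LUC_V (W.apOfModel ℓ) (ℓ : ℤ) n, ℓ ^ n, ?_, ?_, ?_⟩
  · -- the relation on `W[p]`
    intro P hP
    have hgP1 : p • (g • P) = 0 := by rw [← S41NE_gsmul_nsmul, hP, S41NE_gsmul_zero]
    have hrel := S58ER_rel_pow W A hℓ hA hgood hℓp' σ hσ n P hP
    rw [hgW _ hgP1, hgW P hP, ← natCast_zsmul, Nat.cast_pow]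
    exact hrel
  · -- the relation on `V`
    intro x hx
    obtain ⟨hpx, hT⟩ := hV x hx
    have hxH : x ∈ S40AR_H (heckeOperatorBar N ⟨ℓ, hℓ⟩).toAddMonoidHom p (W.apOfModel ℓ) :=
      ⟨hpx, hT ⟨ℓ, hℓ⟩ hgood hℓN hℓp⟩
    have hrel := S40AR_abs_rel_pow (heckeOperatorBar N ⟨ℓ, hℓ⟩).toAddMonoidHom σ ℓ p
      (W.apOfModel ℓ) hes n x hxH
    refine S40AR_abs_transport σ p g n _ (ℓ ^ n) hgJ x hpx ?_
    rw [Nat.cast_pow]
    exact hrel
  · -- roots of unity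
    intro ζ' hζ'
    obtain ⟨j, -, rfl⟩ := hζ.eq_pow_of_pow_eq_one hζ'
    rw [map_pow, hgζ ζ (Finset.mem_singleton_self ζ),
      S58ER_zeta_pow hζ hp.pos hℓ hℓp' A hA σ hσ n, ← pow_mul, ← pow_mul, mul_comm]

end Fermat.Agent.S40
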