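import Mathlib
import Fermat.Prelude.Def_CuspForm_Newforms
import Fermat.Prelude.Def_FLTPrelim_ModularRep
import Fermat.Agent.S58.Newform
import Fermat.Agent.S58.StabGen

/-!
# S40 (Mazur–Ribet at `p`, row 38): the OLD wire (helper2).  Prefix `S40O_`.

Pure wiring of TRACK 12's packages A (`S58A_exists_newform`) and G (`S58G_stab'`).

* `S40O_dvd_div` : `p` prime, `p ∣ M`, `M' ∣ M`, `p ∤ M'` `⇒` `M' ∣ M / p`.
* `S40O_of_occurs` : if the good eigensystem of a witness `f` of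
  `W.IsResiduallyModularOfLevel p M` occurs at a level `M' ∣ M` prime to `p`, then
  `W.IsResiduallyModularOfLevel p (M / p)`.
* `S40O_reduce` : the frozen conclusion of S40 from the NEW case alone: it is enough to treat
  witnesses `f` whose newform `g₀` (level `M₀ ∣ M`) has `p ∣ M₀`.
-/

set_option autoImplicit false

open ModularFormClass

namespace Fermat.Agent.S40

open CuspForm

/-- `p` prime, `p ∣ M`, `M' ∣ M`, `p ∤ M'` `⇒` `M' ∣ M / p`. -/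
theorem S40O_dvd_div {p M M' : ℕ} (hp : p.Prime) (hpM : p ∣ M) (hM' : M' ∣ M)
    (hpM' : ¬ p ∣ M') : M' ∣ M / p := by
  obtain ⟨k, rfl⟩ := hpM
  rw [Nat.mul_div_cancel_left k hp.pos]
  have hcop : Nat.Coprime M' p := ((Nat.Prime.coprime_iff_not_dvd hp).2 hpM').symm
  exact hcop.dvd_of_dvd_mul_left hM'

/-- `p` prime, `p ∣ M`, `0 < M`: a prime `ℓ ≠ p` not dividing `M / p` does not divide `M`. -/
theorem S40O_not_dvd {p M ℓ : ℕ} (hp : p.Prime) (hpM : p ∣ M) (hℓ : ℓ.Prime)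
    (hℓp : ℓ ≠ p) (hℓM : ¬ ℓ ∣ M / p) : ¬ ℓ ∣ M := by
  obtain ⟨k, rfl⟩ := hpM
  rw [Nat.mul_div_cancel_left k hp.pos] at hℓM
  intro hd
  rcases (Nat.Prime.dvd_mul hℓ).1 hd with h | h
  · exact hℓp ((Nat.prime_dvd_prime_iff_eq hℓ hp).1 h)
  · exact hℓM h

/-- **OLD wire, eigensystem form.**  `f` a witness of `W.IsResiduallyModularOfLevel p M`; if the
good eigensystem of `f` occurs at a level `M' ∣ M` prime to `p`, then `W` is residually modular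
of level `M / p`. -/
theorem S40O_of_occurs (W : WeierstrassCurve ℤ) {p M : ℕ} (hp : p.Prime) (hM : 0 < M)
    (hpM : p ∣ M)
    (f : CuspForm (CongruenceSubgroup.Gamma0 M) 2) (𝔪 : Ideal (integralClosure ℤ ℂ))
    (h𝔪 : 𝔪.IsMaximal) (hp𝔪 : (p : integralClosure ℤ ℂ) ∈ 𝔪)
    (hcong : ∀ ℓ : ℕ, ℓ.Prime → W.IsGoodPrimeFor ℓ → ¬ ℓ ∣ M → ℓ ≠ p →
      ∃ a : integralClosure ℤ ℂ, (a : ℂ) = ModularFormClass.qCoeff f ℓ ∧
        a - ((W.apOfModel ℓ : ℤ) : integralClosure ℤ ℂ) ∈ 𝔪)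
    {M' : ℕ} (hM'M : M' ∣ M) (hpM' : ¬ p ∣ M') (hocc : GoodEigensystemOccursAt f M') :
    W.IsResiduallyModularOfLevel p (M / p) := by
  obtain ⟨h, hh, hco⟩ := hocc
  have hdiv : M' ∣ M / p := S40O_dvd_div hp hpM hM'M hpM'
  have hMp : M / p ≠ 0 := by
    obtain ⟨k, rfl⟩ := hpM
    rw [Nat.mul_div_cancel_left k hp.pos]
    rintro rfl
    simp at hM
  obtain ⟨g, hg, hgc⟩ := Fermat.Agent.S58.S58G_stab' M' (M / p) hMp hdiv hh
  refine ⟨g, 𝔪, hg, h𝔪, hp𝔪, fun ℓ hℓ hgood hℓMp hℓp => ?_⟩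
  have hℓM : ¬ ℓ ∣ M := S40O_not_dvd hp hpM hℓ hℓp hℓMp
  obtain ⟨a, ha, ham⟩ := hcong ℓ hℓ hgood hℓM hℓp
  exact ⟨a, by rw [ha, hgc ℓ hℓ hℓMp, hco ℓ hℓ hℓM], ham⟩

/-- **Reduction of S40 to the NEW case.**  For the conclusion `W.IsResiduallyModularOfLevel p (M / p)`
it is enough to treat the witnesses `f` whose newform `g₀` (package A, level `M₀ ∣ M`) has
`p ∣ M₀`: in the other case package G stabilises `g₀` up to `M / p`. -/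
theorem S40O_reduce (W : WeierstrassCurve ℤ) {p M : ℕ} (hp : p.Prime) (hM : 0 < M)
    (hpM : p ∣ M) (hmod : W.IsResiduallyModularOfLevel p M)
    (hnew : ∀ (f : CuspForm (CongruenceSubgroup.Gamma0 M) 2) (𝔪 : Ideal (integralClosure ℤ ℂ)),
      f.IsNormalizedEigenform → 𝔪.IsMaximal → (p : integralClosure ℤ ℂ) ∈ 𝔪 →
      (∀ ℓ : ℕ, ℓ.Prime → W.IsGoodPrimeFor ℓ → ¬ ℓ ∣ M → ℓ ≠ p →
        ∃ a : integralClosure ℤ ℂ, (a : ℂ) = ModularFormClass.qCoeff f ℓ ∧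
          a - ((W.apOfModel ℓ : ℤ) : integralClosure ℤ ℂ) ∈ 𝔪) →
      ∀ (M₀ : ℕ) (_ : M₀ ∣ M) (g₀ : CuspForm (CongruenceSubgroup.Gamma0 M₀) 2),
        g₀.IsNewform → (∀ ℓ : ℕ, ℓ.Prime → ¬ ℓ ∣ M → qCoeff g₀ ℓ = qCoeff f ℓ) →
        p ∣ M₀ → W.IsResiduallyModularOfLevel p (M / p)) :
    W.IsResiduallyModularOfLevel p (M / p) := by
  obtain ⟨f, 𝔪, hf, h𝔪, hp𝔪, hcong⟩ := hmod
  obtain ⟨M₀, hM₀, g₀, hg₀, hco⟩ := Fermat.Agent.S58.S58A_exists_newform hM.ne' f hf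
  by_cases hpM₀ : p ∣ M₀
  · exact hnew f 𝔪 hf h𝔪 hp𝔪 hcong M₀ hM₀ g₀ hg₀ hco hpM₀
  · exact S40O_of_occurs W hp hM hpM f 𝔪 h𝔪 hp𝔪 hcong hM₀ hpM₀ ⟨g₀, hg₀.1, hco⟩

end Fermat.Agent.S40
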