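import Mathlib
import Fermat.Prelude.Def_CuspForm_Newforms
import Fermat.Prelude.Def_FLTPrelim_ModularRep
import Fermat.Agent.S40.Old

/-!
# S40 (Mazur–Ribet at `p`, row 38): the TOP WIRE (helper2).  Prefix `S40W_`.

* `S40W_Cong W p M f 𝔪` : the congruence clause of `W.IsResiduallyModularOfLevel p M` for a form
  `f` of ANY level and a maximal ideal `𝔪`, at the primes `ℓ ≠ p`, `ℓ ∤ M`, good for `W`.
* `S40W_Core W p M` : **the target of the NEW case**: a normalised eigenform `h` of some level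
  `M' ∣ M / p` and a maximal ideal `𝔪' ∋ p` (it may differ from the given one) with
  `S40W_Cong W p M h 𝔪'`.
* `S40W_of_core` : `S40W_Core W p M ⇒ W.IsResiduallyModularOfLevel p (M / p)` (package G).
* `S40W_HoleNew` : the ONLY hole of the top wire: in the NEW case (`g₀` the newform of the witness
  `f`, of level `M₀ ∣ M` with `p ∣ M₀`) the core holds.
* `S40W_main` : `S40W_HoleNew ⇒` the frozen statement S40, verbatim.
-/

set_option autoImplicit false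

open ModularFormClass

namespace Fermat.Agent.S40

open CuspForm

/-- the congruence clause: `a_ℓ(f) ≡ a_ℓ(W)` modulo `𝔪` at every prime `ℓ ≠ p`, `ℓ ∤ M`, good
for `W` (`f` of any level `N`). -/
def S40W_Cong (W : WeierstrassCurve ℤ) (p M : ℕ) {N : ℕ}
    (f : CuspForm (CongruenceSubgroup.Gamma0 N) 2) (𝔪 : Ideal (integralClosure ℤ ℂ)) : Prop :=
  ∀ ℓ : ℕ, ℓ.Prime → W.IsGoodPrimeFor ℓ → ¬ ℓ ∣ M → ℓ ≠ p →
    ∃ a : integralClosure ℤ ℂ, (a : ℂ) = ModularFormClass.qCoeff f ℓ ∧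
      a - ((W.apOfModel ℓ : ℤ) : integralClosure ℤ ℂ) ∈ 𝔪

/-- **the target of the NEW case**: a normalised eigenform of a level `M' ∣ M / p`, congruent
to `W` modulo some maximal ideal over `p` at the primes `ℓ ≠ p`, `ℓ ∤ M`, good for `W`. -/
def S40W_Core (W : WeierstrassCurve ℤ) (p M : ℕ) : Prop :=
  ∃ (M' : ℕ) (_ : M' ∣ M / p) (h : CuspForm (CongruenceSubgroup.Gamma0 M') 2)
    (𝔪' : Ideal (integralClosure ℤ ℂ)),
    h.IsNormalizedEigenform ∧ 𝔪'.IsMaximal ∧ (p : integralClosure ℤ ℂ) ∈ 𝔪' ∧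
      S40W_Cong W p M h 𝔪'

/-- the congruence clause only depends on the coefficients at the primes `ℓ ∤ M`, `ℓ ≠ p`. -/
theorem S40W_cong_congr (W : WeierstrassCurve ℤ) (p M : ℕ) {N N' : ℕ}
    (f : CuspForm (CongruenceSubgroup.Gamma0 N) 2) (g : CuspForm (CongruenceSubgroup.Gamma0 N') 2)
    (𝔪 : Ideal (integralClosure ℤ ℂ))
    (hfg : ∀ ℓ : ℕ, ℓ.Prime → ¬ ℓ ∣ M → ℓ ≠ p → qCoeff g ℓ = qCoeff f ℓ)
    (hf : S40W_Cong W p M f 𝔪) : S40W_Cong W p M g 𝔪 := by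
  intro ℓ hℓ hgood hℓM hℓp
  obtain ⟨a, ha, ham⟩ := hf ℓ hℓ hgood hℓM hℓp
  exact ⟨a, by rw [ha, hfg ℓ hℓ hℓM hℓp], ham⟩

/-- **core ⇒ conclusion** (package G: stabilise up from `M'` to `M / p`). -/
theorem S40W_of_core (W : WeierstrassCurve ℤ) {p M : ℕ} (hp : p.Prime) (hM : 0 < M)
    (hpM : p ∣ M) (hcore : S40W_Core W p M) : W.IsResiduallyModularOfLevel p (M / p) := by
  obtain ⟨M', hM', h, 𝔪', hh, h𝔪', hp𝔪', hcong⟩ := hcore
  have hMp : M / p ≠ 0 := by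
    obtain ⟨k, rfl⟩ := hpM
    rw [Nat.mul_div_cancel_left k hp.pos]
    rintro rfl
    simp at hM
  obtain ⟨g, hg, hgc⟩ := Fermat.Agent.S58.S58G_stab' M' (M / p) hMp hM' hh
  refine ⟨g, 𝔪', hg, h𝔪', hp𝔪', fun ℓ hℓ hgood hℓMp hℓp => ?_⟩
  have hℓM : ¬ ℓ ∣ M := S40O_not_dvd hp hpM hℓ hℓp hℓMp
  obtain ⟨a, ha, ham⟩ := hcong ℓ hℓ hgood hℓM hℓp
  exact ⟨a, by rw [ha, hgc ℓ hℓ hℓMp], ham⟩

/-- **the ONLY hole of the top wire** (the NEW case of Mazur–Ribet): `W` good at the odd prime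
`p`, `W[p]` irreducible, `p ∥ M`, `f` a normalised eigenform of level `M` congruent to `W`
modulo `𝔪 ∋ p`, and the newform `g₀` of `f` (package A) has a level `M₀ ∣ M` DIVISIBLE by `p`.
Then the core holds. -/
def S40W_HoleNew : Prop :=
  ∀ (W : WeierstrassCurve ℤ), W.Δ ≠ 0 → ∀ {p : ℕ}, p.Prime → p ≠ 2 → W.IsGoodPrimeFor p →
    W.ModRepIsIrreducible p → ∀ {M : ℕ}, 0 < M → p ∣ M → ¬ p ^ 2 ∣ M →
    ∀ (f : CuspForm (CongruenceSubgroup.Gamma0 M) 2) (𝔪 : Ideal (integralClosure ℤ ℂ)),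
      f.IsNormalizedEigenform → 𝔪.IsMaximal → (p : integralClosure ℤ ℂ) ∈ 𝔪 →
      S40W_Cong W p M f 𝔪 →
      ∀ (M₀ : ℕ) (_ : M₀ ∣ M) (g₀ : CuspForm (CongruenceSubgroup.Gamma0 M₀) 2),
        g₀.IsNewform → (∀ ℓ : ℕ, ℓ.Prime → ¬ ℓ ∣ M → qCoeff g₀ ℓ = qCoeff f ℓ) →
        p ∣ M₀ → S40W_Core W p M

/-- **TOP WIRE**: the frozen statement S40 from the hole of the NEW case. -/
theorem S40W_main (hnew : S40W_HoleNew)
    (W : WeierstrassCurve ℤ) (hΔ : W.Δ ≠ 0)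
    {p : ℕ} (hp : p.Prime) (hp2 : p ≠ 2)
    (hgood : W.IsGoodPrimeFor p)
    (hirr : W.ModRepIsIrreducible p)
    {M : ℕ} (hM : 0 < M) (hpM : p ∣ M) (hp2M : ¬ p ^ 2 ∣ M)
    (hmod : W.IsResiduallyModularOfLevel p M) :
    W.IsResiduallyModularOfLevel p (M / p) :=
  S40O_reduce W hp hM hpM hmod
    (fun f 𝔪 hf h𝔪 hp𝔪 hcong M₀ hM₀ g₀ hg₀ hco hpM₀ =>
      S40W_of_core W hp hM hpM
        (hnew W hΔ hp hp2 hgood hirr hM hpM hp2M f 𝔪 hf h𝔪 hp𝔪 hcong M₀ hM₀ g₀ hg₀ hco hpM₀))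

end Fermat.Agent.S40
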