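import Mathlib
import Fermat.Agent.S40.Defs
import Fermat.Agent.S40.Wire
import Fermat.Agent.S40.WireAbs

/-!
# TRACK 13 (S40, row 38): the ONE hole of the J-side (helper6, designer).  Prefix `S40DJ_`.

Level `N = M' * p`, `p ∤ M'`, `A` a valuation ring of `ℚ̄` over `p`.

* `S40DJ_New M' p x` : `x ∈ J₀(M'p)` is killed by the two degeneracy maps `a = S33DG_aJ`,
  `b = S33DG_bJ` to `J₀(M')`;
* `S40DJ_U A N`      : `U_J`, the subgroup generated by the `σ x − x`, `σ ∈ I_A`;
* `S40DJ_Hole`       : **the hole (GEO) of `S40WA_main` in the (INV) form**: for a simple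
  `G_ℚ`-stable subgroup `V` of `W`-eigen-classes of `J₀(M'p)[p]`, new, not inside `U_J`, on which
  (ALG-R), (ALG-K) and (INV) hold, the core (an eigenform of level `M'' ∣ M'` congruent to `W`)
  holds.  This is (F2') + (ii) + (kernel of reduction ⇒ `τ₀ = c`) of the J-side.
-/

set_option autoImplicit false
set_option linter.unusedSectionVars false
set_option linter.unusedVariables false

namespace Fermat.Agent.S40

open WeierstrassCurve ModularCurve Fermat.Agent.S33

local notation "ℚbar" => AlgebraicClosure ℚ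
local notation "GQ" => (AlgebraicClosure ℚ ≃ₐ[ℚ] AlgebraicClosure ℚ)

/-- `x` is NEW: killed by the two degeneracy maps `J₀(M'p) → J₀(M')`. -/
def S40DJ_New (M' p : ℕ) [NeZero M'] [NeZero p] (x : JZero (M' * p)) : Prop :=
  S33DG_aJ M' p x = 0 ∧ S33DG_bJ M' p x = 0

/-- `U_J`: the subgroup of `J₀(N)` generated by the `σ x − x`, `σ ∈ I_A`. -/
noncomputable def S40DJ_U (A : ValuationSubring ℚbar) (N : ℕ) : AddSubgroup (JZero N) :=
  S40WA_U (A.inertiaSubgroupIn ℚ) (JZero N)

/-- **the ONE hole of the J-side**, (INV) form. -/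
def S40DJ_Hole : Prop :=
  ∀ (W : WeierstrassCurve ℤ), W.Δ ≠ 0 → ∀ (p : ℕ), p.Prime → p ≠ 2 → W.IsGoodPrimeFor p →
    W.ModRepIsIrreducible p → ∀ (M' : ℕ) [NeZero M'] [NeZero p] [NeZero (M' * p)], ¬ p ∣ M' →
    ∀ (A : ValuationSubring ℚbar), A.LiesOverPrime p →
    ∀ V : AddSubgroup (JZero (M' * p)),
      (∀ x ∈ V, x ∈ S40D_V0 W p (M' * p)) → S40WA_Simple GQ V →
      (∀ x ∈ V, S40DJ_New M' p x) →
      S40D_Rel W p (M' * p) V → S40D_Ker W p (M' * p) V → S40D_InvJ (M' * p) A p V →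
      ¬ V ≤ S40DJ_U A (M' * p) →
      S40W_Core W p (M' * p)

end Fermat.Agent.S40
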