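import Mathlib
import Fermat.Agent.S40.DefsJ

/-!
# TRACK 13 (S40, row 38): the ONE hole of the J-side, corrected (helper6).  Prefix `S40DJ_`.

helper8's warning: `S40DJ_U A N` (all `σ y − y`, `y ∈ J₀(N)(ℚ̄)`) is too big for hN of S33.
The right augmentation subgroup is `S40DJ_UV A V`, generated by the `σ y − y` with `y ∈ V`.
In CASE B the hypothesis `¬ V ≤ U` is a consequence of (ALG-S), so the hole is stated with the
CASE-B hypothesis instead.

* `S40DJ_UV A V`  : the subgroup generated by the `σ y − y`, `σ ∈ I_A`, `y ∈ V`;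
* `S40DJ_CaseB W A p` : every `g ∈ I_A` fixes a nonzero point of `W[p]`;
* `S40DJ_Hole2`   : **the hole of the J-side**: `V` simple, stable, eigen, new, CASE B, (ALG-R),
  (ALG-K), (INV) `⇒` the core.
-/

set_option autoImplicit false
set_option linter.unusedSectionVars false
set_option linter.unusedVariables false

namespace Fermat.Agent.S40

open WeierstrassCurve ModularCurve Fermat.Agent.S33

local notation "ℚbar" => AlgebraicClosure ℚ
local notation "GQ" => (AlgebraicClosure ℚ ≃ₐ[ℚ] AlgebraicClosure ℚ)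

/-- the augmentation subgroup of `V`: generated by the `σ y − y`, `σ ∈ I_A`, `y ∈ V`. -/
noncomputable def S40DJ_UV (A : ValuationSubring ℚbar) {N : ℕ} (V : AddSubgroup (JZero N)) :
    AddSubgroup (JZero N) :=
  AddSubgroup.closure {w | ∃ σ ∈ A.inertiaSubgroupIn ℚ, ∃ y ∈ V, w = σ • y - y}

/-- CASE B: every element of the inertia group at `A` fixes a nonzero point of `W[p]`. -/
def S40DJ_CaseB (W : WeierstrassCurve ℤ) (A : ValuationSubring ℚbar) (p : ℕ) : Prop :=
  ∀ g ∈ A.inertiaSubgroupIn ℚ,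
    ∃ P : (W.baseChange ℚbar).toAffine.Point, P ≠ 0 ∧ p • P = 0 ∧ g • P = P

/-- **the ONE hole of the J-side**, (INV) form, CASE B. -/
def S40DJ_Hole2 : Prop :=
  ∀ (W : WeierstrassCurve ℤ), W.Δ ≠ 0 → ∀ (p : ℕ), p.Prime → p ≠ 2 → W.IsGoodPrimeFor p →
    W.ModRepIsIrreducible p → ∀ (M' : ℕ) [NeZero M'] [NeZero p] [NeZero (M' * p)], ¬ p ∣ M' →
    ∀ (A : ValuationSubring ℚbar), A.LiesOverPrime p →
    ∀ V : AddSubgroup (JZero (M' * p)),
      (∀ x ∈ V, x ∈ S40D_V0 W p (M' * p)) → S40WA_Simple GQ V →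
      (∀ x ∈ V, S40DJ_New M' p x) → S40DJ_CaseB W A p →
      S40D_Rel W p (M' * p) V → S40D_Ker W p (M' * p) V → S40D_InvJ (M' * p) A p V →
      S40W_Core W p (M' * p)

end Fermat.Agent.S40
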