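import Fermat.Agent.S33.NewWire

/-!
# TRACK 13 (S40), package CASE A / hN+ (helper12): the statement (N) of TRACK 11 with the
inertia element, its cyclotomic value and the degeneracy maps EXPOSED

Level `M * p`, `p ∤ M`, `p` odd, `P` a place of `ℚ̄` over `p`, `I_P` its inertia group.
`S33GI_Input` (on main) hides `τ₀`, `c`, `a`, `b` behind existential quantifiers; CASE A of
TRACK 13 needs `τ₀ ζ = ζ ^ c` for the SAME `τ₀` and `c`.  Everything is already proved in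
TRACK 11 (`S33NW_core`, `S33KB_normalised`, DEGEN33); this file only re-packages it.

* `S40HN_main`   : for ALL data `(τ₀, c, c', k, ζ)` (`S33NFR_Data`: `τ₀ ∈ I_P`, `ζ` a primitive
  `p`-th root of unity, `τ₀ ζ = ζ ^ c`, `p ∤ c − 1`, `c + c' = p k`), every `K` and every
  `x ∈ J₀(M p)[p ^ K]` with `p • x = 0`, `x ∈ U_J = closure {σ y − y | σ ∈ I_P}`,
  `S33DG_a x = 0`, `S33DG_b x = 0`:   `τ₀ x = c • x`.
* `S40HN_exists` : one such `τ₀` exists (`c = 2`), with `τ₀ ζ = ζ ^ c` and `p ∤ c − 1` exposed.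
-/

set_option autoImplicit false
set_option linter.style.haveILetI false
set_option linter.unusedSectionVars false
set_option linter.unusedVariables false
set_option synthInstance.maxHeartbeats 400000
set_option maxHeartbeats 1000000

open AlgebraicCurve ModularCurve IntermediateField

noncomputable section

namespace Fermat.Agent.S40

open Fermat.Agent.S17 Fermat.Agent.S18 Fermat.Agent.S19 Fermat.Agent.S24 Fermat.Agent.S34
  Fermat.Agent.S35 Fermat.Agent.S36 Fermat.Agent.S37 Fermat.Agent.GalRep Fermat.Agent.S33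

variable (M p : ℕ) [NeZero M] [NeZero p] [NeZero (M * p)] (hp : p.Prime) (hpM : ¬ p ∣ M)

include hp hpM in
/-- **hN+**: (N) of TRACK 11 for ALL data, with explicit `τ₀`, `c`, `a = S33DG_a`, `b = S33DG_b`. -/
theorem S40HN_main (hp2 : p ≠ 2) (P : ValuationSubring (AlgebraicClosure ℚ))
    (hP : P.LiesOverPrime p) (τ₀ : GQ) (c c' k : ℕ) (ζ : AlgebraicClosure ℚ)
    (hD : S33NFR_Data p P τ₀ c c' k ζ) (K : ℕ)
    (x : ↥(Submodule.torsionBy ℤ (JZero (M * p)) ((p : ℤ) ^ K))) (hpx : p • x = 0)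
    (hxU : x ∈ AddSubgroup.closure
      {w | ∃ σ ∈ P.inertiaSubgroupIn ℚ, ∃ y, w = S19F_act (M * p) p K σ y - y})
    (hax : S33DG_a M p K x = 0) (hbx : S33DG_b M p K x = 0) :
    S19F_act (M * p) p K τ₀ x = c • x := by
  have hgen := S34VH_hgen M p hp hpM P hP
  obtain ⟨u, hu, -⟩ := S33DG_gen_exists (M * p) p K p x hpx
  obtain ⟨c'', g, hc', hg, hN⟩ := S33KB_normalised M p hp hpM P hgen hP K x hxU u hu
  haveI := S18_hPD (M * p)
  have hu' : S33DG_IsGen p (x : JZero (M * p))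
      (u * algebraMap (AlgebraicClosure ℚ) ↥(modularFunctionFieldBar (M * p)) c'' * g ^ p) := by
    have := S33DG_isGen_mul hu (S33KB_isGen_triv (K := AlgebraicClosure ℚ) p c'' g hc' hg)
    rwa [add_zero, ← mul_assoc] at this
  have hcore := S33NW_core M p hp hpM hp2 P hP τ₀ c c' k ζ hD
  refine S33DG_act_eq_of_isTriv (M * p) p K hp.pos x hu' τ₀ c
    (hcore hgen _ ⟨S33DG_isKum hu', ?_⟩ (S33DG_a_kum M p K x hu' hax)
      (S33DG_b_kum M p K x hu' hbx))
  rw [S34K_mem_Norm_iff, S34M_T1_O, S34M_T2_O]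
  exact ⟨hN.1, hN.2⟩

include hp hpM in
/-- **hN+, existence form**: one `τ₀ ∈ I_P` with `τ₀ ζ = ζ ^ c`, `p ∤ c − 1`, acting as `c` on the
`p`-torsion of `U_J ∩ ker a ∩ ker b`, for every `K`. -/
theorem S40HN_exists (hp2 : p ≠ 2) (P : ValuationSubring (AlgebraicClosure ℚ))
    (hP : P.LiesOverPrime p) :
    ∃ τ₀ ∈ P.inertiaSubgroupIn ℚ, ∃ (c : ℕ) (ζ : AlgebraicClosure ℚ),
      IsPrimitiveRoot ζ p ∧ τ₀ ζ = ζ ^ c ∧ ¬ (p : ℤ) ∣ (c : ℤ) - 1 ∧
      ∀ (K : ℕ) (x : ↥(Submodule.torsionBy ℤ (JZero (M * p)) ((p : ℤ) ^ K))), p • x = 0 →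
        x ∈ AddSubgroup.closure
          {w | ∃ σ ∈ P.inertiaSubgroupIn ℚ, ∃ y, w = S19F_act (M * p) p K σ y - y} →
        S33DG_a M p K x = 0 → S33DG_b M p K x = 0 →
        S19F_act (M * p) p K τ₀ x = c • x := by
  obtain ⟨τ₀, c, c', k, ζ, hD⟩ := S33NFR_exists_data p hp hp2 P hP
  exact ⟨τ₀, hD.1, c, ζ, hD.2.1, hD.2.2.1, hD.2.2.2.1, fun K x hpx hxU hax hbx =>
    S40HN_main M p hp hpM hp2 P hP τ₀ c c' k ζ hD K x hpx hxU hax hbx⟩

end Fermat.Agent.S40
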