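import Fermat.Agent.S40.AlgDet
import Fermat.Agent.S40.DefsJ2
import Fermat.Agent.S40.HN
import Fermat.Agent.S58.HresMain

/-!
# TRACK 13 (S40), package ALG-S + CASE A, the INSTANCES for helper6's interface (helper8).
Prefix `S40AI_`.

`W / ℤ` with `Δ ≠ 0`, `p` odd, `W[p]` irreducible, `V ≤ J₀(N)` a nonzero `G_ℚ`-stable subgroup of
exponent `p` with the joint relations `S40D_Rel W p N V` (ALG-R).

* `S40AI_chi hζ` : the mod-`p` cyclotomic character `G_ℚ →* ZMod p` of a primitive root `ζ`;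
* `S40AI_rel`    : `S40D_Rel` in the abstract form of `S40/AlgSc.lean`;
* `S40AI_false_of_tau` : **(ALG-S)** `τ₀ ζ = ζ ^ c`, `p ∤ c − 1`, `τ₀ = c` on `V` ⇒ `False`;
* `S40AI_caseA_aug`    : **hole (A)**: `g` without nonzero fixed point on `W[p]` ⇒ every `x ∈ V`
  is `g y − y` with `y ∈ V`;
* `S40AI_caseA`  : **CASE A is impossible**: `V` simple, stable, of exponent `p`, NEW, (ALG-R) and
  NOT `S40DJ_CaseB W A p` ⇒ `False`   (uses hN+ = `S40HN_exists` of TRACK 11).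
-/

set_option autoImplicit false
set_option linter.unusedSectionVars false
set_option linter.unusedVariables false
set_option linter.style.haveILetI false
set_option synthInstance.maxHeartbeats 400000
set_option maxHeartbeats 1000000

noncomputable section

namespace Fermat.Agent.S40

open WeierstrassCurve ModularCurve Fermat.Agent.Lib Fermat.Agent.GalRep Fermat.Agent.S41
  Fermat.Agent.S31 Fermat.Agent.S58 Fermat.Agent.S33 Fermat.Agent.S19

local notation "ℚbar" => AlgebraicClosure ℚ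
local notation "GQ" => (AlgebraicClosure ℚ ≃ₐ[ℚ] AlgebraicClosure ℚ)

section chi

variable {p : ℕ} [NeZero p] {ζ : ℚbar}

/-- the mod-`p` cyclotomic character, as a monoid hom to `ZMod p`. -/
def S40AI_chi (hζ : IsPrimitiveRoot ζ p) : GQ →* ZMod p :=
  (Units.coeHom (ZMod p)).comp (hζ.autToPow ℚ)

/-- `g ζ = ζ ^ a ⇒ χ g = a`. -/
theorem S40AI_chi_eq (hζ : IsPrimitiveRoot ζ p) (g : GQ) (a : ℕ) (h : g ζ = ζ ^ a) :
    S40AI_chi hζ g = (a : ZMod p) := by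
  show ((hζ.autToPow ℚ g : (ZMod p)ˣ) : ZMod p) = (a : ZMod p)
  have h1 := hζ.autToPow_spec ℚ g
  rw [h] at h1
  have h0 : ζ ≠ 0 := hζ.ne_zero (NeZero.ne p)
  have hord : orderOf (Units.mk0 ζ h0) = p := by
    rw [← orderOf_units, Units.val_mk0, ← hζ.eq_orderOf]
  have hpow : ∀ x y : ℕ, ζ ^ x = ζ ^ y → x ≡ y [MOD p] := by
    intro x y hxy
    have e : (Units.mk0 ζ h0) ^ x = (Units.mk0 ζ h0) ^ y := by
      apply Units.ext
      rw [Units.val_pow_eq_pow_val, Units.val_pow_eq_pow_val, Units.val_mk0]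
      exact hxy
    rw [pow_eq_pow_iff_modEq, hord] at e
    exact e
  have h2 : (hζ.autToPow ℚ g : ZMod p).val ≡ a [MOD p] := hpow _ _ h1
  have h3 := (ZMod.natCast_eq_natCast_iff _ _ _).mpr h2
  rwa [ZMod.natCast_zmod_val] at h3

end chi

/-- `S40D_Rel` in the abstract form of `S40/AlgSc.lean`. -/
theorem S40AI_rel (W : WeierstrassCurve ℤ) {p : ℕ} [NeZero p] {N : ℕ} (V : AddSubgroup (JZero N))
    (hR : S40D_Rel W p N V) {ζ : ℚbar} (hζ : IsPrimitiveRoot ζ p) (g : GQ) :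
    ∃ t d : ℤ, (d : ZMod p) = S40AI_chi hζ g ∧
      (∀ x : S58ER_K W p, (S58ER_F W p g) ((S58ER_F W p g) x) - t • (S58ER_F W p g) x + d • x = 0) ∧
      ∀ x ∈ V, g • g • x - t • g • x + d • x = 0 := by
  obtain ⟨t, d, h1, h2, h3⟩ := hR g
  refine ⟨t, (d : ℤ), ?_, fun x => ?_, fun x hx => ?_⟩
  · rw [S40AI_chi_eq hζ g d (h3 ζ hζ.pow_eq_one), Int.cast_natCast]
  · apply Subtype.ext
    rw [AddSubgroup.coe_add, AddSubgroup.coe_sub, AddSubgroup.coe_zsmul, AddSubgroup.coe_zsmul,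
      S58ER_F_apply, S58ER_F_apply, natCast_zsmul]
    exact h1 x.1 ((S58ER_mem_K W p x.1).1 x.2)
  · rw [natCast_zsmul]
    exact h2 x hx

/-- **(ALG-S), instance**: `τ₀ ζ = ζ ^ c`, `p ∤ c − 1`, `τ₀ = c` on `V ≠ 0` ⇒ `False`. -/
theorem S40AI_false_of_tau (W : WeierstrassCurve ℤ) (hΔ : W.Δ ≠ 0) {p : ℕ} (hp : p.Prime)
    (hp2 : p ≠ 2) (hirr : W.ModRepIsIrreducible p) {N : ℕ} (V : AddSubgroup (JZero N))
    (hVp : ∀ x ∈ V, p • x = 0) (hVst : ∀ g : GQ, ∀ x ∈ V, g • x ∈ V) (hV0 : V ≠ ⊥)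
    (hR : S40D_Rel W p N V)
    (τ₀ : GQ) (c : ℕ) (ζ : ℚbar) (hζ : IsPrimitiveRoot ζ p) (hτζ : τ₀ ζ = ζ ^ c)
    (hc1 : ¬ (p : ℤ) ∣ (c : ℤ) - 1) (hτ : ∀ x ∈ V, τ₀ • x = c • x) : False := by
  haveI : Fact p.Prime := ⟨hp⟩
  haveI : NeZero p := ⟨hp.ne_zero⟩
  exact S40AS_false_of_tau (G := GQ) (J := JZero N) (fun g x => g • x)
    (fun g x y => smul_add g x y) (fun g h x => mul_smul g h x) (fun x => one_smul _ x)
    (Pt := S58ER_K W p) (fun g x => (S58ER_F W p g) x)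
    (fun x => Subtype.ext (S41NE_gsmul_one W x.1))
    (fun g h x => Subtype.ext (S41NE_gsmul_mul W g h x.1))
    (fun g x y => map_add (S58ER_F W p g) x y)
    (fun Y hY => S58HM_hirr W hp hirr hΔ Y hY)
    p (fun x => Subtype.ext ((S58ER_mem_K W p x.1).1 x.2)) (S41NE_card_X W hΔ hp hp2)
    V hVp hVst hV0 (S40AI_chi hζ) (fun g => S40AI_rel W V hR hζ g)
    τ₀ (c : ℤ) (by rw [S40AI_chi_eq hζ τ₀ c hτζ, Int.cast_natCast]) hc1
    (fun x hx => by rw [natCast_zsmul]; exact hτ x hx)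

/-- **hole (A), instance**: `g` without nonzero fixed point on `W[p]` ⇒ every `x ∈ V` is
`g y − y` with `y ∈ V`. -/
theorem S40AI_caseA_aug (W : WeierstrassCurve ℤ) (hΔ : W.Δ ≠ 0) {p : ℕ} (hp : p.Prime)
    (hp2 : p ≠ 2) (hirr : W.ModRepIsIrreducible p) {N : ℕ} (V : AddSubgroup (JZero N))
    (hVp : ∀ x ∈ V, p • x = 0) (hVst : ∀ g : GQ, ∀ x ∈ V, g • x ∈ V)
    (hR : S40D_Rel W p N V) (g : GQ)
    (hfix : ∀ P : (W.baseChange ℚbar).toAffine.Point, p • P = 0 → g • P = P → P = 0) :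
    ∀ x ∈ V, ∃ y ∈ V, x = g • y - y := by
  haveI : Fact p.Prime := ⟨hp⟩
  haveI : NeZero p := ⟨hp.ne_zero⟩
  obtain ⟨ζ, hζ⟩ : ∃ ζ : ℚbar, IsPrimitiveRoot ζ p :=
    HasEnoughRootsOfUnity.exists_primitiveRoot ℚbar p
  exact S40AD_caseA_aug (G := GQ) (Pt := S58ER_K W p) (fun g x => (S58ER_F W p g) x)
    (fun x => Subtype.ext (S41NE_gsmul_one W x.1))
    (fun g h x => Subtype.ext (S41NE_gsmul_mul W g h x.1))
    (fun g x y => map_add (S58ER_F W p g) x y)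
    (fun Y hY => S58HM_hirr W hp hirr hΔ Y hY)
    (J := JZero N) (fun g x => g • x) (fun g x y => smul_add g x y)
    p (fun x => Subtype.ext ((S58ER_mem_K W p x.1).1 x.2)) (S41NE_card_X W hΔ hp hp2)
    V hVp hVst (S40AI_chi hζ) (fun g => S40AI_rel W V hR hζ g) ⊤ g (Subgroup.mem_top g)
    (fun w hw => Subtype.ext (hfix w.1 ((S58ER_mem_K W p w.1).1 w.2)
      (by have := congrArg Subtype.val hw; rwa [S58ER_F_apply] at this)))

/-- **CASE A is impossible**: `V` simple, stable, of exponent `p`, NEW, with (ALG-R), and some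
`g ∈ I_A` without nonzero fixed point on `W[p]` (`¬ S40DJ_CaseB`): `False`. -/
theorem S40AI_caseA (W : WeierstrassCurve ℤ) (hΔ : W.Δ ≠ 0) (p : ℕ) (hp : p.Prime)
    (hp2 : p ≠ 2) (hirr : W.ModRepIsIrreducible p) (M' : ℕ) [NeZero M'] [NeZero p]
    [NeZero (M' * p)] (hpM : ¬ p ∣ M') (A : ValuationSubring ℚbar) (hA : A.LiesOverPrime p)
    (V : AddSubgroup (JZero (M' * p))) (hVp : ∀ x ∈ V, p • x = 0)
    (hV : S40WA_Simple GQ V) (hnew : ∀ x ∈ V, S40DJ_New M' p x)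
    (hR : S40D_Rel W p (M' * p) V) (hnB : ¬ S40DJ_CaseB W A p) : False := by
  obtain ⟨hV0, hVst, -⟩ := hV
  have hVst' : ∀ g : GQ, ∀ x ∈ V, g • x ∈ V := fun g x hx => hVst g x hx
  -- the element of CASE A
  unfold S40DJ_CaseB at hnB
  push Not at hnB
  obtain ⟨g, hg, hgfix⟩ := hnB
  have hfix : ∀ P : (W.baseChange ℚbar).toAffine.Point, p • P = 0 → g • P = P → P = 0 := by
    intro P hP hgP
    by_contra hP0
    exact hgfix P hP0 hP hgP
  have haug := S40AI_caseA_aug W hΔ hp hp2 hirr V hVp hVst' hR g hfix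
  -- hN+
  obtain ⟨τ₀, hτ₀, c, ζ, hζ, hτζ, hc1, hN⟩ := S40HN_exists M' p hp hpM hp2 A hA
  refine S40AI_false_of_tau W hΔ hp hp2 hirr V hVp hVst' hV0 hR τ₀ c ζ hζ hτζ hc1 ?_
  intro x hx
  obtain ⟨y, hy, hxy⟩ := haug x hx
  have hmem : ∀ z ∈ V, z ∈ Submodule.torsionBy ℤ (JZero (M' * p)) ((p : ℤ) ^ 1) := by
    intro z hz
    rw [Submodule.mem_torsionBy_iff, pow_one, natCast_zsmul]
    exact hVp z hz
  have key := hN 1 ⟨x, hmem x hx⟩ (Subtype.ext (by rw [Submodule.coe_smul_of_tower]; exact hVp x hx))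
    (AddSubgroup.subset_closure ⟨g, hg, ⟨y, hmem y hy⟩, Subtype.ext (by
      rw [AddSubgroupClass.coe_sub, S19F_act_coe]; exact hxy)⟩)
    (Subtype.ext (by rw [S33DG_a_coe]; exact (hnew x hx).1))
    (Subtype.ext (by rw [S33DG_b_coe]; exact (hnew x hx).2))
  have := congrArg Subtype.val key
  rw [S19F_act_coe] at this
  rw [this]
  rfl

end Fermat.Agent.S40
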