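import Mathlib
import Fermat.Prelude.Def_FLTPrelim_FreyPackage
import Fermat.Prelude.Def_FLTPrelim_GaloisRep
import Fermat.Prelude.Def_FLTPrelim_Modularity
import Fermat.Prelude.Def_FLTPrelim_ModularRep
import Fermat.Agent.S41.NETransfer
import Fermat.Agent.S41.NEAct
import Fermat.Agent.S05.Frey

/-!
# S44 (row 38): BRIDGE-W (helper2).  Prefix `S44B_`.

From the hypotheses of the frozen S44 (an integral model `W` of the Frey curve of `P`, the mod-`p`
representation of `P.freyCurve` irreducible) to the hypotheses of the S40 packages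
(`W.Δ ≠ 0`, `W.ModRepIsIrreducible P.p`).

* `S44B_frey_elliptic` : the Frey curve is elliptic;
* `S44B_modRep_of_pt`  : the raw irreducibility of `W[p](ℚ̄)` gives `W.ModRepIsIrreducible p`
  (the converse of `S58HI_irr_pt`);
* `S44B_bridge`        : `W.Δ ≠ 0 ∧ W.ModRepIsIrreducible P.p`.
-/

set_option autoImplicit false
set_option linter.unusedSectionVars false
set_option linter.unusedVariables false
set_option linter.style.haveILetI false

namespace Fermat.Agent.S40

open WeierstrassCurve WeierstrassCurve.Affine.Point Fermat.Agent.GalRep Fermat.Agent.S41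

local notation "ℚbar" => AlgebraicClosure ℚ

/-- the Frey curve is elliptic. -/
theorem S44B_frey_elliptic (P : FreyPackage) : P.freyCurve.IsElliptic := by
  refine ⟨isUnit_iff_ne_zero.2 ?_⟩
  rw [Fermat.Agent.S05.S05_frey_Δ]
  have h0 : ((P.a * P.b * P.c : ℤ) : ℚ) ≠ 0 := Int.cast_ne_zero.2 P.habc0
  exact div_ne_zero (pow_ne_zero _ (pow_ne_zero _ h0)) (by norm_num)

/-- **the converse of `S58HI_irr_pt`**: the raw irreducibility of `W[p](ℚ̄)` (as a statement on
subgroups of `W(ℚ̄)`) together with a nonzero point of order `p` gives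
`W.ModRepIsIrreducible p`. -/
theorem S44B_modRep_of_pt (W : WeierstrassCurve ℤ) (hΔ : W.Δ ≠ 0) {p : ℕ} (hp : p.Prime)
    (hnt : ∃ P : (W.baseChange ℚbar).toAffine.Point, P ≠ 0 ∧ p • P = 0)
    (hpt : ∀ N : AddSubgroup (W.baseChange ℚbar).toAffine.Point,
      (∀ P ∈ N, p • P = 0) → (∀ σ : GQ, ∀ P ∈ N, σ • P ∈ N) →
      N = ⊥ ∨ ∀ P : (W.baseChange ℚbar).toAffine.Point, p • P = 0 → P ∈ N) :
    W.ModRepIsIrreducible p := by
  have hΔ' : (W.map (Int.castRingHom ℚ)).Δ ≠ 0 := by
    rw [WeierstrassCurve.map_Δ]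
    simpa using hΔ
  haveI : (W.map (Int.castRingHom ℚ)).IsElliptic := ⟨isUnit_iff_ne_zero.2 hΔ'⟩
  haveI : Fact p.Prime := ⟨hp⟩
  have hC : (1 : WeierstrassCurve.VariableChange ℚ) • (W.map (Int.castRingHom ℚ)) =
      W.map (Int.castRingHom ℚ) := one_smul _ _
  set E := W.map (Int.castRingHom ℚ) with hE
  set Θ := S41NT_theta E W 1 hC with hΘ
  have hinj : Function.Injective Θ := S41NT_theta_injective E W 1 hC
  have hsurj : Function.Surjective Θ := S41NT_theta_surjective E W 1 hC
  have hmemT : ∀ P : (W.baseChange ℚbar).toAffine.Point, p • P = 0 →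
      Θ P ∈ Submodule.torsionBy ℤ (WeierstrassCurve.Affine.baseChange E ℚbar).Point p := by
    intro P hP
    rw [Submodule.mem_torsionBy_iff, Nat.cast_smul_eq_nsmul, ← _root_.map_nsmul, hP,
      _root_.map_zero]
  have hofT : ∀ P : (W.baseChange ℚbar).toAffine.Point,
      Θ P ∈ Submodule.torsionBy ℤ (WeierstrassCurve.Affine.baseChange E ℚbar).Point p →
      p • P = 0 := by
    intro P hP
    rw [Submodule.mem_torsionBy_iff, Nat.cast_smul_eq_nsmul, ← _root_.map_nsmul] at hP
    exact hinj (by rw [hP, _root_.map_zero])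
  unfold WeierstrassCurve.ModRepIsIrreducible
  refine ⟨?_, ?_⟩
  · obtain ⟨P, hP0, hP⟩ := hnt
    refine ⟨⟨⟨Θ P, hmemT P hP⟩, 0, ?_⟩⟩
    intro h
    have h2 : Θ P = 0 := congrArg Subtype.val h
    exact hP0 (hinj (by rw [h2, _root_.map_zero]))
  · intro N hN
    -- the pulled back subgroup
    let N' : AddSubgroup (W.baseChange ℚbar).toAffine.Point :=
      { carrier := {P | ∃ h : Θ P ∈ Submodule.torsionBy ℤ
            (WeierstrassCurve.Affine.baseChange E ℚbar).Point p,
            (⟨Θ P, h⟩ : Submodule.torsionBy ℤ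
              (WeierstrassCurve.Affine.baseChange E ℚbar).Point p) ∈ N}
        add_mem' := by
          rintro P Q ⟨hP, hPN⟩ ⟨hQ, hQN⟩
          have hPQ : Θ (P + Q) ∈ Submodule.torsionBy ℤ
              (WeierstrassCurve.Affine.baseChange E ℚbar).Point p := by
            rw [_root_.map_add]
            exact Submodule.add_mem _ hP hQ
          refine ⟨hPQ, ?_⟩
          have := N.add_mem hPN hQN
          have e : (⟨Θ (P + Q), hPQ⟩ : Submodule.torsionBy ℤ
              (WeierstrassCurve.Affine.baseChange E ℚbar).Point p) =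
              ⟨Θ P, hP⟩ + ⟨Θ Q, hQ⟩ :=
            Subtype.ext (by show Θ (P + Q) = Θ P + Θ Q; exact _root_.map_add Θ P Q)
          rw [e]
          exact this
        zero_mem' := by
          have h0 : Θ 0 ∈ Submodule.torsionBy ℤ
              (WeierstrassCurve.Affine.baseChange E ℚbar).Point p := by
            rw [_root_.map_zero]
            exact Submodule.zero_mem _
          refine ⟨h0, ?_⟩
          have e : (⟨Θ 0, h0⟩ : Submodule.torsionBy ℤ
              (WeierstrassCurve.Affine.baseChange E ℚbar).Point p) = 0 :=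
            Subtype.ext (by show Θ 0 = 0; exact _root_.map_zero Θ)
          rw [e]
          exact N.zero_mem
        neg_mem' := by
          rintro P ⟨hP, hPN⟩
          have hnP : Θ (-P) ∈ Submodule.torsionBy ℤ
              (WeierstrassCurve.Affine.baseChange E ℚbar).Point p := by
            rw [_root_.map_neg]
            exact Submodule.neg_mem _ hP
          refine ⟨hnP, ?_⟩
          have e : (⟨Θ (-P), hnP⟩ : Submodule.torsionBy ℤ
              (WeierstrassCurve.Affine.baseChange E ℚbar).Point p) = -⟨Θ P, hP⟩ :=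
            Subtype.ext (by show Θ (-P) = -Θ P; exact _root_.map_neg Θ P)
          rw [e]
          exact N.neg_mem hPN }
    have hN'p : ∀ P ∈ N', p • P = 0 := by
      rintro P ⟨hP, -⟩
      exact hofT P hP
    have hN'σ : ∀ σ : GQ, ∀ P ∈ N', σ • P ∈ N' := by
      rintro σ P ⟨hP, hPN⟩
      have hσP : Θ (σ • P) ∈ Submodule.torsionBy ℤ
          (WeierstrassCurve.Affine.baseChange E ℚbar).Point p := by
        rw [S41NT_theta_smul]
        exact smul_mem_torsionBy σ hP
      refine ⟨hσP, ?_⟩
      have := hN σ _ hPN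
      have e : (⟨Θ (σ • P), hσP⟩ : Submodule.torsionBy ℤ
          (WeierstrassCurve.Affine.baseChange E ℚbar).Point p) = σ • ⟨Θ P, hP⟩ :=
        Subtype.ext (by show Θ (σ • P) = σ • Θ P; exact S41NT_theta_smul E W 1 hC σ P)
      rw [e]
      exact this
    rcases hpt N' hN'p hN'σ with h | h
    · left
      rw [eq_bot_iff]
      intro x hx
      obtain ⟨P, hP⟩ := hsurj x.1
      have hPT : Θ P ∈ Submodule.torsionBy ℤ
          (WeierstrassCurve.Affine.baseChange E ℚbar).Point p := by rw [hP]; exact x.2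
      have hPN : P ∈ N' := ⟨hPT, by
        have e : (⟨Θ P, hPT⟩ : Submodule.torsionBy ℤ
            (WeierstrassCurve.Affine.baseChange E ℚbar).Point p) = x := Subtype.ext hP
        rw [e]; exact hx⟩
      rw [h, AddSubgroup.mem_bot] at hPN
      rw [Submodule.mem_bot]
      apply Subtype.ext
      rw [← hP, hPN, _root_.map_zero]
      rfl
    · right
      rw [eq_top_iff]
      intro x _
      obtain ⟨P, hP⟩ := hsurj x.1
      have hPT : Θ P ∈ Submodule.torsionBy ℤ
          (WeierstrassCurve.Affine.baseChange E ℚbar).Point p := by rw [hP]; exact x.2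
      obtain ⟨hPT', hPN⟩ := h P (hofT P hPT)
      have e : (⟨Θ P, hPT'⟩ : Submodule.torsionBy ℤ
          (WeierstrassCurve.Affine.baseChange E ℚbar).Point p) = x := Subtype.ext hP
      rw [e] at hPN
      exact hPN

/-- **BRIDGE-W**: an integral model `W` of the Frey curve with irreducible `E[p]` has `Δ ≠ 0` and
`W.ModRepIsIrreducible p`. -/
theorem S44B_bridge (P : FreyPackage) (W : WeierstrassCurve ℤ)
    (hW : W.IsIntegralModelOf P.freyCurve)
    (hirr : GaloisRepIsIrreducible (K := AlgebraicClosure ℚ) ℚ P.freyCurve P.p) :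
    W.Δ ≠ 0 ∧ W.ModRepIsIrreducible P.p := by
  haveI := S44B_frey_elliptic P
  obtain ⟨hΔ, hpt⟩ := S41NT_irr P.freyCurve hW P.pp hirr
  have hp2 : P.p ≠ 2 := by have := P.hp5; omega
  refine ⟨hΔ, S44B_modRep_of_pt W hΔ P.pp ?_ hpt⟩
  -- a nonzero point of order `p`
  have hcard := S41NE_card_X W hΔ P.pp hp2
  haveI := S41NE_finite_X W hΔ P.pp hp2
  have h1 : 1 < Nat.card (S41NE_X W P.p) := by
    rw [hcard]
    exact Nat.one_lt_pow (by norm_num) P.pp.one_lt
  obtain ⟨x, y, hxy⟩ := Finite.one_lt_card_iff_nontrivial.1 h1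
  by_cases hx : x.pt = 0
  · refine ⟨y.pt, fun hy => hxy (S41NE_X.ext (by rw [hx, hy])), y.pt_spec⟩
  · exact ⟨x.pt, hx, x.pt_spec⟩

end Fermat.Agent.S40
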