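import Fermat.Agent.Lib.RiemannThm

/-!
# TRACK 13 (row 38), (D-CUSP): exhaustion of the poles by a degree count (helper6).
Prefix `S40CU_`.  Mathlib + `Lib/RiemannThm` only.

* `S40CU_exhaust` : `F / K` a function field with all places of degree one, `x ∈ F`, and a finite
  injective family of places `v i` with `ord_{v i} x = − e i < 0` and
  `deg (x)_∞ ≤ Σ e i`.  Then EVERY pole of `x` is one of the `v i`.
  (Use: `x = j̄` on `C₁ = X₀(M')_k`, `v_D = v_∞ ∘ w̄_D`, `e_D = D`, `Σ_{D ∣ M'} D = ψ(M')`.)
* `S40CU_all` : hence a property which holds at all the `v i` holds at all the poles of `x`.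
-/

set_option autoImplicit false
set_option linter.unusedVariables false

open AlgebraicCurve

namespace Fermat.Agent.S40

open Fermat.Agent.Lib

variable {K F : Type*} [Field K] [Field F] [Algebra K F]

/-- **exhaustion of the poles by the degree**. -/
theorem S40CU_exhaust (hdeg : ∀ v : Place K F, v.deg = 1) (hP : HasPrincipalDivisors K F)
    (x : F) {ι : Type*} [Fintype ι] (v : ι → Place K F) (hinj : Function.Injective v)
    (e : ι → ℤ) (he : ∀ i, (v i).ord x = - e i) (hepos : ∀ i, 0 < e i)
    (hsum : (RR_poleDiv hP x).degree ≤ ∑ i, e i)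
    (w : Place K F) (hw : w.ord x < 0) : ∃ i, v i = w := by
  classical
  by_contra hcon
  push Not at hcon
  -- the divisor `Σ e i · v i + w`
  set D : Divisor K F := (∑ i, Finsupp.single (v i) (e i)) + Finsupp.single w 1 with hD
  have hle : D ≤ RR_poleDiv hP x := by
    rw [Finsupp.le_def]
    intro u
    rw [hD, Finsupp.add_apply, Finsupp.finsetSum_apply, RR_poleDiv_apply]
    by_cases hu : ∃ i, v i = u
    · obtain ⟨i, rfl⟩ := hu
      have h1 : ∑ j, (Finsupp.single (v j) (e j)) (v i) = e i := by
        rw [Finset.sum_eq_single i]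
        · rw [Finsupp.single_eq_same]
        · intro j _ hji
          rw [Finsupp.single_eq_of_ne]
          exact fun h => hji (hinj h.symm)
        · intro h
          exact absurd (Finset.mem_univ i) h
      have h2 : (Finsupp.single w (1 : ℤ)) (v i) = 0 := by
        rw [Finsupp.single_eq_of_ne]
        exact fun h => hcon i h
      rw [h1, h2, add_zero, he i, neg_neg]
      exact le_max_left _ _
    · push Not at hu
      have h1 : ∑ j, (Finsupp.single (v j) (e j)) u = 0 := by
        apply Finset.sum_eq_zero
        intro j _
        rw [Finsupp.single_eq_of_ne]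
        exact fun h => hu j h.symm
      rw [h1, zero_add, Finsupp.single_apply]
      split_ifs with h
      · subst h
        exact le_max_of_le_left (by omega)
      · exact le_max_right _ _
  have h2 := RR_degree_mono hdeg hle
  have h3 : Divisor.degree D = (∑ i, e i) + 1 := by
    rw [hD, map_add, map_sum, Divisor.degree_single, hdeg w]
    simp only [Divisor.degree_single, hdeg, Nat.cast_one, mul_one]
  rw [h3] at h2
  omega

/-- a property which holds at all the `v i` holds at all the poles of `x`. -/
theorem S40CU_all (hdeg : ∀ v : Place K F, v.deg = 1) (hP : HasPrincipalDivisors K F)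
    (x : F) {ι : Type*} [Fintype ι] (v : ι → Place K F) (hinj : Function.Injective v)
    (e : ι → ℤ) (he : ∀ i, (v i).ord x = - e i) (hepos : ∀ i, 0 < e i)
    (hsum : (RR_poleDiv hP x).degree ≤ ∑ i, e i)
    (P : Place K F → Prop) (hPv : ∀ i, P (v i))
    (w : Place K F) (hw : w.ord x < 0) : P w := by
  obtain ⟨i, rfl⟩ := S40CU_exhaust hdeg hP x v hinj e he hepos hsum w hw
  exact hPv i

end Fermat.Agent.S40
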