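import Mathlib
import Fermat.Agent.S41.NEMain

/-!
# TRACK 13 (S40), package "`a_ℓ ≢ ℓ + 1`" of the (F2') table (helper13).  Prefix `S40F2E_`.

`W[p]` irreducible, `p` odd `⇒` for every finite set `T` of primes (and every modulus `m > 0`)
there is a prime `ℓ ∉ T`, `ℓ ≡ 1 mod m`, good for `W`, `ℓ ≠ p`, with
`p ∤ a_ℓ(W) − ℓ − 1`.

This IS on main for an integral model of an elliptic curve over `ℚ` (`S41NE_main`, TRACK of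
S41: FDE + the Eichler–Shimura relation on `W[p]` + Kolchin); here it is restated for
`W : WeierstrassCurve ℤ` with `W.ModRepIsIrreducible p` in the shapes of the (F2') table.
-/

set_option autoImplicit false
set_option linter.unusedSectionVars false
set_option linter.unusedVariables false
set_option linter.style.haveILetI false

namespace Fermat.Agent.S40

open WeierstrassCurve Fermat.Agent.S41

/-- `W.ModRepIsIrreducible p` forces `Δ ≠ 0`. -/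
theorem S40F2E_disc_ne_zero (W : WeierstrassCurve ℤ) (hΔ : W.Δ ≠ 0) :
    (W.map (Int.castRingHom ℚ)).IsElliptic :=
  ⟨by rw [WeierstrassCurve.map_Δ, eq_intCast]; exact IsUnit.mk0 _ (Int.cast_ne_zero.2 hΔ)⟩

/-- **`a_ℓ ≢ ℓ + 1`, with a congruence condition on `ℓ`**. -/
theorem S40F2E_main_mod (W : WeierstrassCurve ℤ) (hΔ : W.Δ ≠ 0) {p : ℕ} (hp : p.Prime)
    (hp2 : p ≠ 2) (hirr : W.ModRepIsIrreducible p) (m : ℕ) (hm : 0 < m) (T : Finset ℕ) :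
    ∃ ℓ : ℕ, ℓ.Prime ∧ ℓ ∉ T ∧ ℓ ≡ 1 [MOD m] ∧ W.IsGoodPrimeFor ℓ ∧ ℓ ≠ p ∧
      ¬ (p : ℤ) ∣ W.apOfModel ℓ - ℓ - 1 := by
  haveI := S40F2E_disc_ne_zero W hΔ
  obtain ⟨ℓ, hℓ, hℓT, hℓm, hgood, hℓp, hnd⟩ :=
    S41NE_main (W.map (Int.castRingHom ℚ)) (W := W) ⟨1, one_smul _ _⟩ hp hp2 hirr m hm T
  refine ⟨ℓ, hℓ, hℓT, hℓm, hgood, hℓp, fun h => hnd ?_⟩
  have e : W.apOfModel ℓ - ((ℓ : ℤ) + 1) = W.apOfModel ℓ - ℓ - 1 := by ring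
  rw [e]
  exact h

/-- **`a_ℓ ≢ ℓ + 1`**: the shape of the (F2') table, `ℓ ∤ N p`. -/
theorem S40F2E_main (W : WeierstrassCurve ℤ) (hΔ : W.Δ ≠ 0) {p : ℕ} (hp : p.Prime)
    (hp2 : p ≠ 2) (hirr : W.ModRepIsIrreducible p) (N : ℕ) (hN : 0 < N) (T : Finset ℕ) :
    ∃ ℓ : ℕ, ℓ.Prime ∧ ℓ ∉ T ∧ W.IsGoodPrimeFor ℓ ∧ ¬ ℓ ∣ N ∧ ℓ ≠ p ∧
      ¬ (p : ℤ) ∣ W.apOfModel ℓ - ℓ - 1 := by
  obtain ⟨ℓ, hℓ, hℓT, -, hgood, hℓp, hnd⟩ :=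
    S40F2E_main_mod W hΔ hp hp2 hirr 1 one_pos (T ∪ N.primeFactors)
  refine ⟨ℓ, hℓ, fun h => hℓT (Finset.mem_union_left _ h), hgood, fun h => hℓT ?_, hℓp, hnd⟩
  exact Finset.mem_union_right _ (Nat.mem_primeFactors.2 ⟨hℓ, h, hN.ne'⟩)

/-- the same in `ZMod p`: `(a_ℓ(W) : ZMod p) ≠ ℓ + 1`. -/
theorem S40F2E_main_zmod (W : WeierstrassCurve ℤ) (hΔ : W.Δ ≠ 0) {p : ℕ} (hp : p.Prime)
    (hp2 : p ≠ 2) (hirr : W.ModRepIsIrreducible p) (N : ℕ) (hN : 0 < N) (T : Finset ℕ) :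
    ∃ ℓ : ℕ, ℓ.Prime ∧ ℓ ∉ T ∧ W.IsGoodPrimeFor ℓ ∧ ¬ ℓ ∣ N ∧ ℓ ≠ p ∧
      ((W.apOfModel ℓ : ℤ) : ZMod p) ≠ (ℓ : ZMod p) + 1 := by
  obtain ⟨ℓ, hℓ, hℓT, hgood, hℓN, hℓp, hnd⟩ := S40F2E_main W hΔ hp hp2 hirr N hN T
  refine ⟨ℓ, hℓ, hℓT, hgood, hℓN, hℓp, fun h => hnd ?_⟩
  rw [← ZMod.intCast_zmod_eq_zero_iff_dvd]
  push_cast
  rw [h]
  ring

end Fermat.Agent.S40
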