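import Mathlib
import Fermat.Agent.S33.Degen
import Fermat.Agent.S40.Geo3

/-!
# S40 (Mazur–Ribet at `p`, row 38), package H3 of GEO-5 (helper9): the PULL-BACK `α^*`.
Prefix `S40GP_`.

* `S40GP_pull φ hφ hFI : Pic0 K F →+ Pic0 K F'` (generic pull-back along `φ : F →ₐ[K] F'`),
  `S40GP_isGen_pull` (Kummer form: `φ u` is a Kummer generator of `φ^* x`),
  `S40GP_pull_smul` (compatibility with semilinear automorphisms, on torsion classes);
* `S40GP_pullJ M p : JZero M →+ JZero (M * p)`, the pull-back along `heckeAlphaBar ℚ̄ M p`;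
  `S40GP_pullB M p` along `heckeBetaBar ℚ̄ M p`;
* `S40GP_pullJ_gen` : (i) Kummer form;
* `S40GP_pullJ_smul` : Galois-equivariance on torsion;
* `S40GP_pullJ_hecke` : (ii) `T_ℓ (α^* y) = α^* (T_ℓ y)` on torsion prime to `ℓ`, `ℓ ∤ M p`
  (Eichler–Shimura on torsion at the two levels);
* the same for `β^*`.
-/

set_option autoImplicit false
set_option linter.style.haveILetI false
set_option linter.unusedSectionVars false
set_option linter.unusedVariables false
set_option synthInstance.maxHeartbeats 400000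
set_option maxHeartbeats 1000000

open AlgebraicCurve ModularCurve IntermediateField

noncomputable section

namespace Fermat.Agent.S40

open Fermat.Agent.S17 Fermat.Agent.S18 Fermat.Agent.S19 Fermat.Agent.S24 Fermat.Agent.S35
  Fermat.Agent.S37 Fermat.Agent.GalRep Fermat.Agent.S33 Fermat.Agent.Lib

section generic

variable {K F F' : Type*} [Field K] [Field F] [Field F'] [Algebra K F] [Algebra K F']
variable [HasPrincipalDivisors K F']
variable (φ : F →ₐ[K] F') (hφ : φ.toRingHom.IsIntegral) (hFI : FundamentalIdentityAlong K φ hφ)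

/-- the pull-back `φ^* : Pic0 K F →+ Pic0 K F'`. -/
def S40GP_pull : Pic0 K F →+ Pic0 K F' :=
  letI := algebraAlong φ
  haveI := isScalarTower_along φ
  haveI := isIntegral_along φ hφ
  haveI : FundamentalIdentity K F F' := hFI
  Pic0.pullbackHom F'

/-- **Kummer form of the pull-back**: `φ u` is a Kummer generator of `φ^* x`. -/
theorem S40GP_isGen_pull {n : ℕ} {x : Pic0 K F} {u : F} (h : S33DG_IsGen n x u) :
    S33DG_IsGen n (S40GP_pull φ hφ hFI x) (φ u) := by
  letI := algebraAlong φ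
  haveI := isScalarTower_along φ
  haveI := isIntegral_along φ hφ
  haveI : FundamentalIdentity K F F' := hFI
  obtain ⟨D, rfl, hu, hD⟩ := h
  refine ⟨Pic0.pullbackDegZeroHom F' D, rfl, ?_, fun w => ?_⟩
  · exact (map_ne_zero_iff _ φ.toRingHom.injective).mpr hu
  · rw [Pic0.coe_pullbackDegZeroHom, Divisor.pullback_apply]
    have h1 := w.ord_restrict (F := F) u
    have h2 : algebraMap F F' u = φ u := rfl
    rw [h2] at h1
    rw [h1, ← hD (w.restrict F)]
    ring

/-- `φ^*` commutes with compatible semilinear automorphisms, on torsion classes. -/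
theorem S40GP_pull_smul (g : SemilinearAut K F) (g' : SemilinearAut K F')
    (hg : ∀ f : F, φ (g • f) = g' • φ f) {n : ℕ} (hn : 0 < n) (x : Pic0 K F)
    (hx : n • x = 0) :
    S40GP_pull φ hφ hFI (g • x) = g' • S40GP_pull φ hφ hFI x := by
  obtain ⟨u, hu⟩ := S33DG_isGen_exists n x hx
  have h1 := S40GP_isGen_pull φ hφ hFI (S33DG_isGen_smul hu g)
  have h2 := S33DG_isGen_smul (S40GP_isGen_pull φ hφ hFI hu) g'
  rw [hg u] at h1
  exact S33DG_isGen_unique hn h1 h2

end generic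

section concrete

variable (M p : ℕ) [NeZero M] [NeZero p]

local notation "Kb" => AlgebraicClosure ℚ

/-- `α^* : J₀(M) →+ J₀(Mp)` (pull-back along the inclusion `F_M ⊂ F_{Mp}`). -/
def S40GP_pullJ : JZero M →+ JZero (M * p) :=
  haveI := S18_hPD (M * p)
  S40GP_pull (heckeAlphaBar Kb M p) (S37P_alpha_integral M p)
    (S37P_fundamentalIdentity_alpha M p)

/-- `β^* : J₀(M) →+ J₀(Mp)` (pull-back along `f(t) ↦ f(t^p)`). -/
def S40GP_pullB : JZero M →+ JZero (M * p) :=
  haveI := S18_hPD (M * p)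
  S40GP_pull (heckeBetaBar Kb M p) (S37P_beta_integral M p)
    (S37P_fundamentalIdentity_beta M p)

/-- **(i) Kummer form** of `α^*`. -/
theorem S40GP_pullJ_gen {n : ℕ} {y : JZero M} {w : ↥(modularFunctionFieldBar M)}
    (h : S33DG_IsGen n y w) :
    S33DG_IsGen n (S40GP_pullJ M p y) (heckeAlphaBar Kb M p w) := by
  haveI := S18_hPD (M * p)
  exact S40GP_isGen_pull (heckeAlphaBar Kb M p) (S37P_alpha_integral M p)
    (S37P_fundamentalIdentity_alpha M p) h

/-- **(i) Kummer form** of `β^*`. -/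
theorem S40GP_pullB_gen {n : ℕ} {y : JZero M} {w : ↥(modularFunctionFieldBar M)}
    (h : S33DG_IsGen n y w) :
    S33DG_IsGen n (S40GP_pullB M p y) (heckeBetaBar Kb M p w) := by
  haveI := S18_hPD (M * p)
  exact S40GP_isGen_pull (heckeBetaBar Kb M p) (S37P_beta_integral M p)
    (S37P_fundamentalIdentity_beta M p) h

/-- Galois equivariance of `α^*` on torsion classes. -/
theorem S40GP_pullJ_smul {n : ℕ} (hn : 0 < n) (σ : GQ) (y : JZero M) (hy : n • y = 0) :
    S40GP_pullJ M p (σ • y) = σ • S40GP_pullJ M p y := by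
  haveI := S18_hPD (M * p)
  exact S40GP_pull_smul (heckeAlphaBar Kb M p) (S37P_alpha_integral M p)
    (S37P_fundamentalIdentity_alpha M p)
    (arithmeticGalois (modularFunctionFieldFull M) σ)
    (arithmeticGalois (modularFunctionFieldFull (M * p)) σ) (S33DG_alpha_gal M p σ) hn y hy

/-- Galois equivariance of `β^*` on torsion classes. -/
theorem S40GP_pullB_smul {n : ℕ} (hn : 0 < n) (σ : GQ) (y : JZero M) (hy : n • y = 0) :
    S40GP_pullB M p (σ • y) = σ • S40GP_pullB M p y := by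
  haveI := S18_hPD (M * p)
  exact S40GP_pull_smul (heckeBetaBar Kb M p) (S37P_beta_integral M p)
    (S37P_fundamentalIdentity_beta M p)
    (arithmeticGalois (modularFunctionFieldFull M) σ)
    (arithmeticGalois (modularFunctionFieldFull (M * p)) σ) (S33DG_beta_gal M p σ) hn y hy

variable [NeZero (M * p)]

/-- **(ii) `α^*` commutes with `T_ℓ` on torsion** (`ℓ ∤ M p`, `ℓ ∤ m`). -/
theorem S40GP_pullJ_hecke (q : Nat.Primes) (hℓMp : ¬ (q : ℕ) ∣ M * p) {m : ℕ} (hm0 : 0 < m)
    (hm : ¬ (q : ℕ) ∣ m) (y : JZero M) (hy : m • y = 0) :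
    heckeOperatorBar (M * p) q (S40GP_pullJ M p y) = S40GP_pullJ M p (heckeOperatorBar M q y) := by
  obtain ⟨A, σ, hA, hσ⟩ := exists_isFrobeniusAt (q : ℕ) q.2
  have hℓM : ¬ (q : ℕ) ∣ M := fun hd => hℓMp (Dvd.dvd.mul_right hd p)
  have hpy : m • S40GP_pullJ M p y = 0 := by rw [← map_nsmul, hy, map_zero]
  rw [S40G3_es (M * p) q hℓMp A hA σ hσ hm _ hpy, S40G3_es M q hℓM A hA σ hσ hm y hy,
    map_add, map_nsmul, S40GP_pullJ_smul M p hm0 σ y hy, S40GP_pullJ_smul M p hm0 σ⁻¹ y hy]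

/-- **(ii) `β^*` commutes with `T_ℓ` on torsion** (`ℓ ∤ M p`, `ℓ ∤ m`). -/
theorem S40GP_pullB_hecke (q : Nat.Primes) (hℓMp : ¬ (q : ℕ) ∣ M * p) {m : ℕ} (hm0 : 0 < m)
    (hm : ¬ (q : ℕ) ∣ m) (y : JZero M) (hy : m • y = 0) :
    heckeOperatorBar (M * p) q (S40GP_pullB M p y) = S40GP_pullB M p (heckeOperatorBar M q y) := by
  obtain ⟨A, σ, hA, hσ⟩ := exists_isFrobeniusAt (q : ℕ) q.2
  have hℓM : ¬ (q : ℕ) ∣ M := fun hd => hℓMp (Dvd.dvd.mul_right hd p)
  have hpy : m • S40GP_pullB M p y = 0 := by rw [← map_nsmul, hy, map_zero]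
  rw [S40G3_es (M * p) q hℓMp A hA σ hσ hm _ hpy, S40G3_es M q hℓM A hA σ hσ hm y hy,
    map_add, map_nsmul, S40GP_pullB_smul M p hm0 σ y hy, S40GP_pullB_smul M p hm0 σ⁻¹ y hy]

/-- an eigen-class for `T_ℓ` at level `M` is pulled back by `α^*` to an eigen-class at level
`M p` with the same eigenvalue. -/
theorem S40GP_pullJ_eigen (q : Nat.Primes) (hℓMp : ¬ (q : ℕ) ∣ M * p) {m : ℕ} (hm0 : 0 < m)
    (hm : ¬ (q : ℕ) ∣ m) (y : JZero M) (hy : m • y = 0) (c : ℤ)
    (hc : heckeOperatorBar M q y = c • y) :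
    heckeOperatorBar (M * p) q (S40GP_pullJ M p y) = c • S40GP_pullJ M p y := by
  rw [S40GP_pullJ_hecke M p q hℓMp hm0 hm y hy, hc, map_zsmul]

end concrete

end Fermat.Agent.S40
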