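import Mathlib

/-!
# TRACK 13 (S40, row 38), package GEO-5: the ABSTRACT core (helper5).  Prefix `S40G5_`.  Mathlib only.

* `S40G5_eig_of_subquot` : `E` a finite abelian group, `S i` commuting additive endomorphisms,
  `E₁`, `H` stable subgroups, `e ∈ E₁ ∖ H` with `S i e ∈ H` for all `i` (a common "kernel vector" of
  the stable subquotient `E₁ / (H ⊓ E₁)`).  Then `E₁` contains `y ≠ 0` with `S i y = 0` for all `i`.
  (Induction on `card E₁`, kernels and images of one `S j`; any index type.)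
* `S40G5_eig_of_quot` : the same for `T i` and integer eigenvalues `a i`
  (`T i e - a i • e ∈ H` ⇒ an eigenvector `T i y = a i • y`, `y ≠ 0`).
* `S40G5_abs` : **GEO-5, abstract form.**  `E` finite with commuting operators `TE i`
  (`E = J₀(M')[p]`), `J` an abelian group with operators `TJ i` (`J = J₀(M' p)`), `pull : E →+ J`
  equivariant (the pull-back `α^*`), `K₁ ≤ J` a `TJ`-stable subgroup (the classes with a Kummer
  generator which is a `1`-unit at `V₁`), `x ∈ J` an eigen-class `TJ i x = a i • x` which is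
  FINITE (`x - pull y ∈ K₁` for some `y`) and NOT CONNECTED (`x ∉ K₁`).  Then `E` contains an
  eigen-class `y ≠ 0`, `TE i y = a i • y`.
* `S40G5_abs_tors` : the same with `p • x = 0` ⇒ `p • y = 0` (the multiplication by `p` is added to
  the family of operators; `E` need not be killed by `p`).
-/

set_option autoImplicit false
set_option linter.style.haveILetI false

namespace Fermat.Agent.S40

section subquot

variable {E ι : Type*} [AddCommGroup E] [Finite E]

/-- auxiliary form of `S40G5_eig_of_subquot`, by induction on a bound for `card E₁`. -/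
theorem S40G5_eig_aux (S : ι → E →+ E) (hcomm : ∀ i j y, S i (S j y) = S j (S i y)) :
    ∀ n : ℕ, ∀ E₁ H : AddSubgroup E, Nat.card E₁ ≤ n →
      (∀ i, ∀ y ∈ E₁, S i y ∈ E₁) → (∀ i, ∀ y ∈ H, S i y ∈ H) →
      ∀ e : E, e ∈ E₁ → e ∉ H → (∀ i, S i e ∈ H) →
      ∃ y ∈ E₁, y ≠ 0 ∧ ∀ i, S i y = 0 := by
  classical
  intro n
  induction n with
  | zero =>
    intro E₁ H hcard _ _ e _ _ _
    have : 0 < Nat.card E₁ := Nat.card_pos
    omega
  | succ n ih =>
    intro E₁ H hcard hE₁ hH e heE heH hSe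
    by_cases hall : ∀ i, ∀ y ∈ E₁, S i y = 0
    · exact ⟨e, heE, fun h0 => heH (h0 ▸ H.zero_mem), fun i => hall i e heE⟩
    · push Not at hall
      obtain ⟨j, z, hz, hSz⟩ := hall
      -- the kernel of `S j` in `E₁`
      have hE₁'st : ∀ i, ∀ y ∈ E₁ ⊓ (S j).ker, S i y ∈ E₁ ⊓ (S j).ker := by
        intro i y hy
        refine ⟨hE₁ i y hy.1, AddMonoidHom.mem_ker.2 ?_⟩
        rw [← hcomm i j y, AddMonoidHom.mem_ker.1 hy.2, map_zero]
      have hlt' : Nat.card ↥(E₁ ⊓ (S j).ker) < Nat.card E₁ := by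
        have hle : E₁ ⊓ (S j).ker ≤ E₁ := inf_le_left
        have hne : E₁ ⊓ (S j).ker ≠ E₁ := by
          intro h
          have hz' : z ∈ E₁ ⊓ (S j).ker := by rw [h]; exact hz
          exact hSz (AddMonoidHom.mem_ker.1 hz'.2)
        rcases Nat.lt_or_ge (Nat.card ↥(E₁ ⊓ (S j).ker)) (Nat.card E₁) with h | h
        · exact h
        · exact absurd (AddSubgroup.eq_of_le_of_card_ge hle h) hne
      by_cases ha : ∃ h ∈ H, e - h ∈ E₁ ⊓ (S j).ker
      · -- case (a): `e ≡ e'` modulo `H` with `e'` in the kernel of `S j`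
        obtain ⟨h, hh, heh⟩ := ha
        obtain ⟨y, hy, hy0, hyS⟩ := ih (E₁ ⊓ (S j).ker) H (by omega) hE₁'st hH (e - h) heh
          (fun hc => heH (by have := H.add_mem hc hh; simpa using this))
          (fun i => by rw [map_sub]; exact H.sub_mem (hSe i) (hH i h hh))
        exact ⟨y, hy.1, hy0, hyS⟩
      · -- case (b): pass to the image of `S j`
        push Not at ha
        -- `S j` is not injective on `E₁`
        have hninj : ∃ z' ∈ E₁, z' ≠ 0 ∧ S j z' = 0 := by
          by_contra hcon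
          push Not at hcon
          -- `S j` is injective on `H ⊓ E₁`, hence surjective
          let f : ↥(H ⊓ E₁) → ↥(H ⊓ E₁) := fun y => ⟨S j y, hH j y y.2.1, hE₁ j y y.2.2⟩
          have hfinj : Function.Injective f := by
            intro y₁ y₂ h12
            have h1 : S j (y₁ : E) = S j (y₂ : E) := congrArg (fun w : ↥(H ⊓ E₁) => (w : E)) h12
            have h2 : S j ((y₁ : E) - (y₂ : E)) = 0 := by rw [map_sub, h1, sub_self]
            have h3 : (y₁ : E) - (y₂ : E) ∈ E₁ := E₁.sub_mem y₁.2.2 y₂.2.2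
            by_contra hne
            have h4 : (y₁ : E) - (y₂ : E) ≠ 0 := fun h0 => hne (Subtype.ext (sub_eq_zero.1 h0))
            exact hcon _ h3 h4 h2
          have hfsurj : Function.Surjective f := Finite.injective_iff_surjective.1 hfinj
          obtain ⟨h, hh⟩ := hfsurj ⟨S j e, hSe j, hE₁ j e heE⟩
          have h1 : S j (h : E) = S j e := congrArg (fun w : ↥(H ⊓ E₁) => (w : E)) hh
          refine ha (h : E) h.2.1 ⟨E₁.sub_mem heE h.2.2, AddMonoidHom.mem_ker.2 ?_⟩
          rw [map_sub, h1, sub_self]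
        obtain ⟨z', hz', hz'0, hSz'⟩ := hninj
        have hE₁''st : ∀ i, ∀ y ∈ E₁.map (S j), S i y ∈ E₁.map (S j) := by
          rintro i y ⟨w, hw, rfl⟩
          exact ⟨S i w, hE₁ i w hw, hcomm j i w⟩
        have hH''st : ∀ i, ∀ y ∈ (H ⊓ E₁).map (S j), S i y ∈ (H ⊓ E₁).map (S j) := by
          rintro i y ⟨w, hw, rfl⟩
          exact ⟨S i w, ⟨hH i w hw.1, hE₁ i w hw.2⟩, hcomm j i w⟩
        have hlt'' : Nat.card ↥(E₁.map (S j)) < Nat.card E₁ := by
          let g : E₁ → ↥(E₁.map (S j)) := fun y => ⟨S j y, y, y.2, rfl⟩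
          have hgsurj : Function.Surjective g := by
            rintro ⟨y, w, hw, rfl⟩
            exact ⟨⟨w, hw⟩, rfl⟩
          have hgninj : ¬ Function.Injective g := by
            intro hinj
            have h0 : g ⟨z', hz'⟩ = g 0 := by
              apply Subtype.ext
              change S j z' = S j 0
              rw [hSz', map_zero]
            have := hinj h0
            exact hz'0 (congrArg (fun w : E₁ => (w : E)) this)
          haveI : Fintype E₁ := Fintype.ofFinite _
          haveI : Fintype ↥(E₁.map (S j)) := Fintype.ofFinite _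
          rw [Nat.card_eq_fintype_card, Nat.card_eq_fintype_card]
          exact Fintype.card_lt_of_surjective_not_injective g hgsurj hgninj
        obtain ⟨y, hy, hy0, hyS⟩ := ih (E₁.map (S j)) ((H ⊓ E₁).map (S j)) (by omega) hE₁''st
          hH''st (S j e) ⟨e, heE, rfl⟩
          (by
            rintro ⟨h, hh, hhe⟩
            refine ha h hh.1 ⟨E₁.sub_mem heE hh.2, AddMonoidHom.mem_ker.2 ?_⟩
            rw [map_sub, hhe, sub_self])
          (fun i => ⟨S i e, ⟨hSe i, hE₁ i e heE⟩, hcomm j i e⟩)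
        obtain ⟨w, hw, rfl⟩ := hy
        exact ⟨S j w, hE₁ j w hw, hy0, hyS⟩

/-- **an eigen-system occurring in a stable subquotient occurs** (kernel form). -/
theorem S40G5_eig_of_subquot (S : ι → E →+ E) (hcomm : ∀ i j y, S i (S j y) = S j (S i y))
    (E₁ H : AddSubgroup E) (hE₁ : ∀ i, ∀ y ∈ E₁, S i y ∈ E₁) (hH : ∀ i, ∀ y ∈ H, S i y ∈ H)
    (e : E) (heE : e ∈ E₁) (heH : e ∉ H) (hSe : ∀ i, S i e ∈ H) :
    ∃ y ∈ E₁, y ≠ 0 ∧ ∀ i, S i y = 0 :=
  S40G5_eig_aux S hcomm (Nat.card E₁) E₁ H le_rfl hE₁ hH e heE heH hSe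

/-- **an eigen-system occurring in a stable quotient occurs** (eigenvalue form, integer
eigenvalues). -/
theorem S40G5_eig_of_quot (T : ι → E →+ E) (a : ι → ℤ)
    (hcomm : ∀ i j y, T i (T j y) = T j (T i y))
    (H : AddSubgroup E) (hH : ∀ i, ∀ y ∈ H, T i y ∈ H)
    (e : E) (heH : e ∉ H) (hTe : ∀ i, T i e - a i • e ∈ H) :
    ∃ y : E, y ≠ 0 ∧ ∀ i, T i y = a i • y := by
  let S : ι → E →+ E := fun i => T i - (a i) • AddMonoidHom.id E
  have hS : ∀ i y, S i y = T i y - a i • y := fun i y => rfl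
  have hcommS : ∀ i j y, S i (S j y) = S j (S i y) := by
    intro i j y
    simp only [hS, map_sub, map_zsmul, smul_sub, hcomm i j y, smul_comm (a i) (a j) y]
    abel
  obtain ⟨y, -, hy0, hyS⟩ := S40G5_eig_of_subquot S hcommS ⊤ H
    (fun _ _ _ => AddSubgroup.mem_top _)
    (fun i y hy => by rw [hS]; exact H.sub_mem (hH i y hy) (H.zsmul_mem hy _))
    e (AddSubgroup.mem_top _) heH (fun i => by rw [hS]; exact hTe i)
  exact ⟨y, hy0, fun i => sub_eq_zero.1 (by rw [← hS]; exact hyS i)⟩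

end subquot

section abs

variable {E J ι : Type*} [AddCommGroup E] [AddCommGroup J] [Finite E]

/-- **GEO-5, abstract form**: a finite, not connected eigen-class of `J` gives an eigen-class of
`E`. -/
theorem S40G5_abs (TE : ι → E →+ E) (TJ : ι → J →+ J) (a : ι → ℤ)
    (hcomm : ∀ i j y, TE i (TE j y) = TE j (TE i y))
    (pull : E →+ J) (hpull : ∀ i y, pull (TE i y) = TJ i (pull y))
    (K₁ : AddSubgroup J) (hK₁ : ∀ i, ∀ x ∈ K₁, TJ i x ∈ K₁)
    (x : J) (hx : ∀ i, TJ i x = a i • x)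
    (hfin : ∃ y : E, x - pull y ∈ K₁) (hnc : x ∉ K₁) :
    ∃ y : E, y ≠ 0 ∧ ∀ i, TE i y = a i • y := by
  obtain ⟨y₁, hy₁⟩ := hfin
  refine S40G5_eig_of_quot TE a hcomm (K₁.comap pull) ?_ y₁ ?_ ?_
  · intro i y hy
    rw [AddSubgroup.mem_comap] at hy ⊢
    rw [hpull]
    exact hK₁ i _ hy
  · intro hc
    rw [AddSubgroup.mem_comap] at hc
    exact hnc (by have := K₁.add_mem hy₁ hc; simpa using this)
  · intro i
    rw [AddSubgroup.mem_comap, map_sub, map_zsmul, hpull]
    -- `TJ i (pull y₁) - a i • pull y₁ = - (TJ i (x - pull y₁) - a i • (x - pull y₁))`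
    have h1 : TJ i (pull y₁) - a i • pull y₁ =
        -(TJ i (x - pull y₁) - a i • (x - pull y₁)) := by
      rw [map_sub, hx i, smul_sub]
      abel
    rw [h1]
    exact K₁.neg_mem (K₁.sub_mem (hK₁ i _ hy₁) (K₁.zsmul_mem hy₁ _))

/-- **GEO-5, abstract form, with the exponent**: if moreover `p • x = 0`, the eigen-class of `E`
can be taken with `p • y = 0` (no `p`-torsion lifting is needed: `E` may be `J₀(M')[n]` for any
`n` such that a lift of exponent `n` exists). -/
theorem S40G5_abs_tors (p : ℕ) (TE : ι → E →+ E) (TJ : ι → J →+ J) (a : ι → ℤ)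
    (hcomm : ∀ i j y, TE i (TE j y) = TE j (TE i y))
    (pull : E →+ J) (hpull : ∀ i y, pull (TE i y) = TJ i (pull y))
    (K₁ : AddSubgroup J) (hK₁ : ∀ i, ∀ x ∈ K₁, TJ i x ∈ K₁)
    (x : J) (hpx : p • x = 0) (hx : ∀ i, TJ i x = a i • x)
    (hfin : ∃ y : E, x - pull y ∈ K₁) (hnc : x ∉ K₁) :
    ∃ y : E, y ≠ 0 ∧ p • y = 0 ∧ ∀ i, TE i y = a i • y := by
  obtain ⟨y₁, hy₁⟩ := hfin
  -- the family `T i - a i`, together with the multiplication by `p`
  let S : Option ι → E →+ E := fun o =>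
    match o with
    | none => p • AddMonoidHom.id E
    | some i => TE i - (a i) • AddMonoidHom.id E
  have hSn : ∀ y, S none y = p • y := fun y => rfl
  have hSs : ∀ i y, S (some i) y = TE i y - a i • y := fun i y => rfl
  have hcommS : ∀ o o' y, S o (S o' y) = S o' (S o y) := by
    rintro (_ | i) (_ | j) y
    · rfl
    · rw [hSn, hSs, hSs, hSn, map_nsmul, smul_sub, smul_comm p (a j) y]
    · rw [hSn, hSs, hSs, hSn, map_nsmul, smul_sub, smul_comm p (a i) y]
    · simp only [hSs, map_sub, map_zsmul, smul_sub, hcomm i j y, smul_comm (a i) (a j) y]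
      abel
  have hH : ∀ o, ∀ y ∈ K₁.comap pull, S o y ∈ K₁.comap pull := by
    rintro (_ | i) y hy
    · rw [hSn]; exact (K₁.comap pull).nsmul_mem hy _
    · rw [hSs]
      refine (K₁.comap pull).sub_mem ?_ ((K₁.comap pull).zsmul_mem hy _)
      rw [AddSubgroup.mem_comap] at hy ⊢
      rw [hpull]
      exact hK₁ i _ hy
  have hy₁H : y₁ ∉ K₁.comap pull := by
    intro hc
    rw [AddSubgroup.mem_comap] at hc
    exact hnc (by have := K₁.add_mem hy₁ hc; simpa using this)
  have hSy₁ : ∀ o, S o y₁ ∈ K₁.comap pull := by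
    rintro (_ | i)
    · rw [hSn, AddSubgroup.mem_comap, map_nsmul]
      have h1 : p • pull y₁ = -(p • (x - pull y₁)) := by
        rw [smul_sub, hpx]
        abel
      rw [h1]
      exact K₁.neg_mem (K₁.nsmul_mem hy₁ _)
    · rw [hSs, AddSubgroup.mem_comap, map_sub, map_zsmul, hpull]
      have h1 : TJ i (pull y₁) - a i • pull y₁ =
          -(TJ i (x - pull y₁) - a i • (x - pull y₁)) := by
        rw [map_sub, hx i, smul_sub]
        abel
      rw [h1]
      exact K₁.neg_mem (K₁.sub_mem (hK₁ i _ hy₁) (K₁.zsmul_mem hy₁ _))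
  obtain ⟨y, -, hy0, hyS⟩ := S40G5_eig_of_subquot S hcommS ⊤ (K₁.comap pull)
    (fun _ _ _ => AddSubgroup.mem_top _) hH y₁ (AddSubgroup.mem_top _) hy₁H hSy₁
  exact ⟨y, hy0, by rw [← hSn]; exact hyS none,
    fun i => sub_eq_zero.1 (by rw [← hSs]; exact hyS (some i))⟩

end abs

end Fermat.Agent.S40
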