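import Mathlib
import Fermat.Agent.S32.SubQMain
import Fermat.Agent.S37.Main
import Fermat.Agent.S37.H1
import Fermat.Agent.S18
import Fermat.Agent.Lib.FrobExists

/-!
# TRACK 13 (S40), package KAPPA (helper25) — prefix `S40KI_`

The Kummer map `κ = S32Q_kappa N p k : J₀(N)[p^k] →+ ℤ/p^k ⊗ parInt N` of TRACK 9 is
BIJECTIVE and compatible with the Hecke operators of the Prelude (`heckeOperatorBar N ℓ`,
`ℓ ∤ N`, `ℓ ≠ p`) and the cohomological ones (`GR_hT N ℓ = GRD_heckeL N (heckeGen ℓ)`).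

* `S40KI_kappa_injective`, `S40KI_kappa_bijective`;
* `S40KI_es_J` : **Eichler–Shimura on prime-to-`ℓ` torsion of `J₀(N)`**:
  `T_ℓ y = σ y + ℓ σ⁻¹ y` for `σ` a Frobenius element at `ℓ ∤ N`, `m y = 0`, `ℓ ∤ m`
  (from `S37_red_hecke` and S18);
* `S40KI_es_J'` : `σ (σ y) − T_ℓ (σ y) + ℓ y = 0`;
* `S40KI_es_coh` : `T_ℓ v = r(σ) v + ℓ r(σ⁻¹) v` on `ℤ/p^k ⊗ parInt N` (from the tower);
* `S40KI_kappa_hecke` : `κ (T_ℓ x) = T_ℓ (κ x)`;
* `S40KI_eigen_iff` : `T_ℓ x = a x ↔ T_ℓ (κ x) = a (κ x)` (`a : ℤ`).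
-/

set_option autoImplicit false
set_option linter.unusedSectionVars false
set_option linter.unusedVariables false
set_option linter.style.haveILetI false

open ModularCurve AlgebraicCurve
open scoped TensorProduct

namespace Fermat.Agent.S40

open Fermat.Agent.GalRep Fermat.Agent.S32 Fermat.Agent.S17 Fermat.Agent.S18 Fermat.Agent.S37
  Fermat.Agent.S19 Fermat.Agent.Lib

/-! ### injectivity -/

section inj

variable (N : ℕ) [NeZero N] (ℓ k : ℕ) [NeZero (ℓ ^ k)]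

theorem S40KI_chi_injective : Function.Injective (S32Q_chi N ℓ k) := by
  intro x y hxy
  obtain ⟨D, f, hD, hf0, hf, hχ⟩ := S32Q_chi_spec N ℓ k x
  obtain ⟨D', f', hD', hf0', hf', hχ'⟩ := S32Q_chi_spec N ℓ k y
  rw [← hxy] at hχ'
  have h := S17ST_eq_of_char N (ℓ ^ k) (Nat.pos_of_ne_zero (NeZero.ne (ℓ ^ k))) D D' f f'
    hf0 hf0' hf hf' _ hχ hχ'
  apply Subtype.ext
  rw [← hD, ← hD', h]

/-- **the Kummer map is injective**. -/
theorem S40KI_kappa_injective : Function.Injective (S32Q_kappa N ℓ k) := by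
  intro x y h
  rw [S32Q_kappa_apply, S32Q_kappa_apply] at h
  exact S40KI_chi_injective N ℓ k ((GRT_iso N (ℓ ^ k)).symm.injective h)

/-- **the Kummer map is bijective**. -/
theorem S40KI_kappa_bijective : Function.Bijective (S32Q_kappa N ℓ k) :=
  ⟨S40KI_kappa_injective N ℓ k, S32Q_kappa_surjective N ℓ k⟩

end inj

/-! ### Eichler–Shimura on torsion points -/

section es

variable (N : ℕ) [NeZero N]

omit [NeZero N] in
theorem S40KI_aux_sub {J : Type*} [AddCommGroup J] (m : ℕ) (t a b : J) (ht : m • t = 0)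
    (ha : m • a = 0) (hb : m • b = 0) : m • (t - (a + b)) = 0 := by
  rw [smul_sub, smul_add, ht, ha, hb, add_zero, sub_zero]

omit [NeZero N] in
theorem S40KI_aux_quad {J : Type*} [AddCommGroup J] (n : ℕ) (s t b : J)
    (ht : t = s + n • b) : s - t + n • b = 0 := by
  rw [ht]
  abel

omit [NeZero N] in
/-- the Galois action preserves `m`-torsion. -/
theorem S40KI_tors_smul (σ : GQ) (m : ℕ) (y : JZero N) (hy : m • y = 0) : m • (σ • y) = 0 := by
  have h : m • (σ • y) = σ • (m • y) := smul_comm m σ y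
  rw [h, hy]
  exact smul_zero (A := JZero N) σ

/-- **Eichler–Shimura on the prime-to-`ℓ` torsion of `J₀(N)`**: `T_ℓ y = σ y + ℓ σ⁻¹ y`. -/
theorem S40KI_es_J (q : Nat.Primes) (hqN : ¬ (q : ℕ) ∣ N) (σ : GQ) (hσ : GR_IsFrob (q : ℕ) σ)
    (m : ℕ) (hm : ¬ (q : ℕ) ∣ m) (y : JZero N) (hy : m • y = 0) :
    heckeOperatorBar N q y = σ • y + (q : ℕ) • σ⁻¹ • y := by
  obtain ⟨A, hA, hσA⟩ := hσ
  have hℓ : (q : ℕ).Prime := q.2
  haveI : NeZero (q : ℕ) := ⟨hℓ.ne_zero⟩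
  haveI : Fact (q : ℕ).Prime := ⟨hℓ⟩
  have h := RI_main N A hℓ hA hqN
  have hred := S37_red_hecke h hℓ hA (S37_H1 N (q : ℕ) hℓ hqN) σ hσA y
  have key : ∀ t : JZero N, reductionModL A N t =
      reductionModL A N (σ • y) + (q : ℕ) • reductionModL A N (σ⁻¹ • y) → m • t = 0 →
      t = σ • y + (q : ℕ) • σ⁻¹ • y := by
    intro t ht hmt
    have hz : reductionModL A N (t - (σ • y + (q : ℕ) • σ⁻¹ • y)) = 0 := by
      rw [map_sub, map_add, map_nsmul, ht, sub_self]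
    have h2 : m • (σ • y) = 0 := S40KI_tors_smul N σ m y hy
    have h3 : m • ((q : ℕ) • σ⁻¹ • y) = 0 := by
      rw [smul_comm m (q : ℕ), S40KI_tors_smul N σ⁻¹ m y hy, smul_zero]
    have hmz : m • (t - (σ • y + (q : ℕ) • σ⁻¹ • y)) = 0 :=
      S40KI_aux_sub m t _ _ hmt h2 h3
    exact sub_eq_zero.1 (Fermat.Agent.S18.result N hqN A hA h m hm _ hmz hz)
  exact key _ hred (by rw [← map_nsmul, hy, map_zero])

/-- the quadratic form: `σ (σ y) − T_ℓ (σ y) + ℓ y = 0`. -/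
theorem S40KI_es_J' (q : Nat.Primes) (hqN : ¬ (q : ℕ) ∣ N) (σ : GQ) (hσ : GR_IsFrob (q : ℕ) σ)
    (m : ℕ) (hm : ¬ (q : ℕ) ∣ m) (y : JZero N) (hy : m • y = 0) :
    σ • σ • y - heckeOperatorBar N q (σ • y) + (q : ℕ) • y = 0 := by
  have hy' : m • (σ • y) = 0 := S40KI_tors_smul N σ m y hy
  have e1 := S40KI_es_J N q hqN σ hσ m hm (σ • y) hy'
  rw [inv_smul_smul] at e1
  exact S40KI_aux_quad (q : ℕ) _ _ _ e1

/-- on the torsion prime to `ℓ`, `T_ℓ` commutes with a Frobenius element at `ℓ`. -/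
theorem S40KI_hecke_frob (q : Nat.Primes) (hqN : ¬ (q : ℕ) ∣ N) (σ : GQ)
    (hσ : GR_IsFrob (q : ℕ) σ) (m : ℕ) (hm : ¬ (q : ℕ) ∣ m) (y : JZero N) (hy : m • y = 0) :
    heckeOperatorBar N q (σ • y) = σ • heckeOperatorBar N q y := by
  have hy' : m • (σ • y) = 0 := S40KI_tors_smul N σ m y hy
  have e1 := S40KI_es_J N q hqN σ hσ m hm (σ • y) hy'
  have e2 := S40KI_es_J N q hqN σ hσ m hm y hy
  rw [e1, e2, inv_smul_smul]
  have e3 : σ • (σ • y + (q : ℕ) • σ⁻¹ • y) = σ • σ • y + σ • ((q : ℕ) • σ⁻¹ • y) :=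
    smul_add (A := JZero N) σ _ _
  have e4 : σ • ((q : ℕ) • σ⁻¹ • y) = (q : ℕ) • (σ • σ⁻¹ • y) :=
    (smul_comm (q : ℕ) σ (σ⁻¹ • y)).symm
  rw [e3, e4, smul_inv_smul]

end es

end Fermat.Agent.S40
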