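import Mathlib
import Fermat.Agent.S40.KappaInj
import Fermat.Agent.GalRep.HeckeFinal

/-!
# TRACK 13 (S40), package KAPPA, part 2 (helper25) — prefix `S40KH_`

The Kummer map `κ = S32Q_kappa N p k : J₀(N)[p^k] →+ ℤ/p^k ⊗ parInt N` commutes with the Hecke
operators at the primes `q ∤ N p`: on the left `heckeOperatorBar N q` (Prelude), on the right
`(GR_hT N q).baseChange (ZMod (p^k))`, `GR_hT N q = GRD_heckeL N (heckeGen q)`.

Proof: both sides are `Frob + q Frob⁻¹` (Eichler–Shimura `S40KI_es_J` on `J₀(N)[p^k]`,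
`GRT_r_es` on the cohomology) and `κ` is Galois-equivariant (`S32Q_kappa_gal`).

* `S40KH_es_coh`      : `T_q v = r(σ) v + q r(σ⁻¹) v`;
* `S40KH_hecke_mem`   : `T_q` preserves `J₀(N)[p^k]`;
* `S40KH_kappa_hecke` : `κ (T_q x) = T_q (κ x)`;
* `S40KH_eigen_iff`   : `T_q x = a x ↔ T_q (κ x) = a (κ x)` for `a : ℤ`.
-/

set_option autoImplicit false
set_option maxHeartbeats 1600000
set_option synthInstance.maxHeartbeats 400000
set_option linter.unusedSectionVars false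
set_option linter.unusedVariables false
set_option linter.style.haveILetI false

open ModularCurve AlgebraicCurve
open scoped TensorProduct

namespace Fermat.Agent.S40

open Fermat.Agent.GalRep Fermat.Agent.S32 Fermat.Agent.S17 Fermat.Agent.S18 Fermat.Agent.S37
  Fermat.Agent.S19 Fermat.Agent.Lib Fermat.Agent.S16

theorem S40KH_aux {J : Type*} [AddCommGroup J] (a t b : J) (h : a - t + b = 0) : t = a + b := by
  have h1 : a + b - t = 0 := by rw [← h]; abel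
  exact (sub_eq_zero.1 h1).symm

variable (N : ℕ) [NeZero N] (p k : ℕ) [NeZero (p ^ k)]

/-- Eichler–Shimura on the cohomology, linear form: `T_q v = r(σ) v + q r(σ⁻¹) v`. -/
theorem S40KH_es_coh (q : Nat.Primes) (hqN : ¬ (q : ℕ) ∣ N) (hqp : ¬ (q : ℕ) ∣ p ^ k) (σ : GQ)
    (hσ : GR_IsFrob (q : ℕ) σ) (v : ZMod (p ^ k) ⊗[ℤ] ↥(parInt N)) :
    (GR_hT N (q : ℕ)).baseChange (ZMod (p ^ k)) v =
      GRT_r (KMF_kappa_final N) (p ^ k) σ v
        + (q : ℕ) • GRT_r (KMF_kappa_final N) (p ^ k) σ⁻¹ v := by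
  haveI : Fact (q : ℕ).Prime := ⟨q.2⟩
  obtain ⟨H⟩ := GRHX_heckeES N (q : ℕ)
  have hes := GRT_r_es (KMF_kappa_final N) (p ^ k) (q : ℕ) H hqN hqp σ hσ
  have h1 := congrArg (fun f : Module.End (ZMod (p ^ k)) (ZMod (p ^ k) ⊗[ℤ] ↥(parInt N)) =>
    f (GRT_r (KMF_kappa_final N) (p ^ k) σ⁻¹ v)) hes
  have hinv : GRT_r (KMF_kappa_final N) (p ^ k) σ (GRT_r (KMF_kappa_final N) (p ^ k) σ⁻¹ v)
      = v := by
    rw [← Module.End.mul_apply, ← map_mul, mul_inv_cancel, map_one, Module.End.one_apply]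
  have h1' : GRT_r (KMF_kappa_final N) (p ^ k) σ
        (GRT_r (KMF_kappa_final N) (p ^ k) σ (GRT_r (KMF_kappa_final N) (p ^ k) σ⁻¹ v))
      - (GR_hT N (q : ℕ)).baseChange (ZMod (p ^ k))
        (GRT_r (KMF_kappa_final N) (p ^ k) σ (GRT_r (KMF_kappa_final N) (p ^ k) σ⁻¹ v))
      + ((q : ℕ) : ZMod (p ^ k)) • GRT_r (KMF_kappa_final N) (p ^ k) σ⁻¹ v = 0 := h1
  rw [hinv] at h1'
  have h3 : ((q : ℕ) : ZMod (p ^ k)) • GRT_r (KMF_kappa_final N) (p ^ k) σ⁻¹ v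
      = (q : ℕ) • GRT_r (KMF_kappa_final N) (p ^ k) σ⁻¹ v := Nat.cast_smul_eq_nsmul _ _ _
  rw [h3] at h1'
  exact S40KH_aux _ _ _ h1'

omit [NeZero (p ^ k)] in
/-- `T_q` preserves `J₀(N)[p^k]`. -/
theorem S40KH_hecke_mem (q : Nat.Primes)
    (x : ↥(Submodule.torsionBy ℤ (JZero N) ((p : ℤ) ^ k))) :
    heckeOperatorBar N q (x : JZero N) ∈ Submodule.torsionBy ℤ (JZero N) ((p : ℤ) ^ k) := by
  have h := x.2
  rw [Submodule.mem_torsionBy_iff] at h ⊢
  rw [← map_zsmul, h, map_zero]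

/-- **the Kummer map commutes with the Hecke operators** at the primes `q ∤ N p`. -/
theorem S40KH_kappa_hecke (q : Nat.Primes) (hqN : ¬ (q : ℕ) ∣ N) (hqp : ¬ (q : ℕ) ∣ p ^ k)
    (x y : ↥(Submodule.torsionBy ℤ (JZero N) ((p : ℤ) ^ k)))
    (hxy : (y : JZero N) = heckeOperatorBar N q (x : JZero N)) :
    S32Q_kappa N p k y = (GR_hT N (q : ℕ)).baseChange (ZMod (p ^ k)) (S32Q_kappa N p k x) := by
  obtain ⟨A, σ, hA, hσA⟩ := exists_isFrobeniusAt (q : ℕ) q.2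
  have hσ : GR_IsFrob (q : ℕ) σ := ⟨A, hA, hσA⟩
  have hx : (p ^ k) • (x : JZero N) = 0 := S32Q_tors_nsmul N p k x
  have e := S40KI_es_J N q hqN σ hσ (p ^ k) hqp (x : JZero N) hx
  have hy : y = S19F_act N p k σ x + (q : ℕ) • S19F_act N p k σ⁻¹ x := by
    apply Subtype.ext
    rw [hxy, e, Submodule.coe_add, AddSubmonoidClass.coe_nsmul, S19F_act_coe, S19F_act_coe]
  have g1 := S32Q_kappa_gal N p k σ x (S19F_act N p k σ x) (S19F_act_coe N p k σ x)
  have g2 := S32Q_kappa_gal N p k σ⁻¹ x (S19F_act N p k σ⁻¹ x) (S19F_act_coe N p k σ⁻¹ x)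
  rw [hy, map_add, map_nsmul, g1, g2]
  exact (S40KH_es_coh N p k q hqN hqp σ hσ _).symm

/-- **eigenvectors correspond**: `T_q x = a x ↔ T_q (κ x) = a (κ x)`. -/
theorem S40KH_eigen_iff (q : Nat.Primes) (hqN : ¬ (q : ℕ) ∣ N) (hqp : ¬ (q : ℕ) ∣ p ^ k)
    (x : ↥(Submodule.torsionBy ℤ (JZero N) ((p : ℤ) ^ k))) (a : ℤ) :
    heckeOperatorBar N q (x : JZero N) = a • (x : JZero N) ↔
      (GR_hT N (q : ℕ)).baseChange (ZMod (p ^ k)) (S32Q_kappa N p k x)
        = a • S32Q_kappa N p k x := by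
  have hT := S40KH_kappa_hecke N p k q hqN hqp x ⟨_, S40KH_hecke_mem N p k q x⟩ rfl
  constructor
  · intro h
    rw [← hT, ← map_zsmul]
    congr 1
    exact Subtype.ext h
  · intro h
    rw [← hT, ← map_zsmul] at h
    have := S40KI_kappa_injective N p k h
    exact congrArg Subtype.val this

end Fermat.Agent.S40
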