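import Mathlib
import Fermat.Agent.S33.KumBridge
import Fermat.Agent.S40.G5Pull
import Fermat.Agent.S40.Geo5Abs
import Fermat.Agent.S40.KappaHecke
import Fermat.Agent.GalRep.HeckeFinal

/-!
# TRACK 13 (S40, row 38), package GEO-5: the CLASS-LEVEL WIRE (helper5).  Prefix `S40G5W_`.

Level `N`, `F = modularFunctionFieldBar N`, `O` a valuation ring of `F` (in the application
`N = M' * p`, `O = V₁ = S34DF_O1 M' p A hgen`), `t = GRS_t hst` the multiplicative Hecke operator.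

* `S40G5W_isGen_mul_triv` : a Kummer generator times a trivial element is a Kummer generator of
  the same class;
* `S40G5W_hecke_gen` : **Kummer form of `T_q`**: `t u` is a Kummer generator of `T_q x`
  (`q ∤ N n`), from Eichler–Shimura on torsion (`S40G3_es`) and on functions (`GRS_t_es`);
* `S40G5W_K N n O` : the subgroup `K₁` of the classes with a Kummer generator of exponent `n`
  which is `≡ 1` at `O`;
* `S40G5W_K_hecke` : `K₁` is stable under `T_q`, from (H2-gen) `u ≡ 1 ⇒ t u ≡ 1` at `O`;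
* `S40G5W_hecke_comm` : the `T_q`, `q ∤ N p`, commute on `J₀(N)[p^k]` (`κ` injective and
  Hecke-equivariant, `GR_hT_commute`);
* `S40G5W_main` : **GEO-5 modulo (H2-gen) and (H4)**: an eigen-class `x` of `J₀(M'p)[p]` which
  is FINITE at `O` (`x - α^* y ∈ K₁` for some `y ∈ J₀(M')[p^k]`) and NOT CONNECTED at `O`
  (`x ∉ K₁`) gives a nonzero eigen-class of `J₀(M')[p]` with the same eigenvalues.
-/

set_option autoImplicit false
set_option linter.style.haveILetI false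
set_option linter.unusedSectionVars false
set_option linter.unusedVariables false
set_option synthInstance.maxHeartbeats 400000
set_option maxHeartbeats 1000000

open AlgebraicCurve ModularCurve
open scoped TensorProduct

noncomputable section

namespace Fermat.Agent.S40

open Fermat.Agent.S17 Fermat.Agent.S18 Fermat.Agent.S19 Fermat.Agent.S24 Fermat.Agent.S32
  Fermat.Agent.S33 Fermat.Agent.S37 Fermat.Agent.GalRep Fermat.Agent.Lib Fermat.Agent.S16

local notation "Kb" => AlgebraicClosure ℚ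

section gen

variable {N : ℕ} [NeZero N]

/-- a Kummer generator times a trivial element is a Kummer generator of the same class. -/
theorem S40G5W_isGen_mul_triv {n : ℕ} {x : JZero N} {u v : ↥(modularFunctionFieldBar N)}
    (h : S33DG_IsGen n x u) (hv : GR_IsTriv N n v) : S33DG_IsGen n x (u * v) := by
  obtain ⟨c, g, hc, hg, rfl⟩ := hv
  haveI := S18_hPD N
  have h0 : S33DG_IsGen n (0 : JZero N)
      (algebraMap Kb ↥(modularFunctionFieldBar N) c * g ^ n) :=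
    S33KB_isGen_triv n c g hc hg
  have h1 := S33DG_isGen_mul h h0
  rwa [add_zero] at h1

/-- **Kummer form of `T_q`**: `t u` is a Kummer generator of `T_q x`. -/
theorem S40G5W_hecke_gen (q : Nat.Primes) (hqN : ¬ (q : ℕ) ∣ N) {n : ℕ} (hn : 0 < n)
    (hqn : ¬ (q : ℕ) ∣ n) {ζ : Kbˣ} (hζ : IsPrimitiveRoot (ζ : Kb) (q : ℕ))
    (hst : haveI : NeZero (q : ℕ) := ⟨q.2.ne_zero⟩; GRS_Stab N (q : ℕ) ζ)
    {x : JZero N} {u : ↥(modularFunctionFieldBar N)} (h : S33DG_IsGen n x u) :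
    haveI : NeZero (q : ℕ) := ⟨q.2.ne_zero⟩
    S33DG_IsGen n (heckeOperatorBar N q x) (GRS_t hst u) := by
  haveI : NeZero (q : ℕ) := ⟨q.2.ne_zero⟩
  haveI : Fact (q : ℕ).Prime := ⟨q.2⟩
  obtain ⟨A, σ, hA, hσ⟩ := exists_isFrobeniusAt (q : ℕ) q.2
  have hx : n • x = 0 := S33DG_isGen_tors h
  rw [S40G3_es N q hqN A hA σ hσ hqn x hx]
  have h1 := S33DG_isGen_gal N h σ
  have h2 := S33DG_isGen_gal N h σ⁻¹
  have h3 := S33DG_isGen_mul h1 (S33DG_isGen_pow h2 (q : ℕ))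
  have hes := GRS_t_es GRT3_s18 GRT3_ri hst hζ
    (fun n f hf => GRHK_kum ζ hζ q.2 hst n f hf) hqN n hn hqn u (S33DG_isKum h) σ ⟨A, hA, hσ⟩
  have h4 := S40G5W_isGen_mul_triv h3 hes
  have hne : GR_gal N σ u * (GR_gal N σ⁻¹ u) ^ (q : ℕ) ≠ 0 := S33DG_isGen_ne_zero h3
  have e : GR_gal N σ u * (GR_gal N σ⁻¹ u) ^ (q : ℕ) *
      (GRS_t hst u * (GR_gal N σ u * (GR_gal N σ⁻¹ u) ^ (q : ℕ))⁻¹) = GRS_t hst u := by
    rw [mul_comm (GRS_t hst u), ← mul_assoc, mul_inv_cancel₀ hne, one_mul]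
  rwa [e] at h4

variable (N) in
/-- `K₁`: the classes with a Kummer generator of exponent `n` which is `≡ 1` at `O`. -/
def S40G5W_K (n : ℕ) (O : ValuationSubring ↥(modularFunctionFieldBar N)) :
    AddSubgroup (JZero N) where
  carrier := {x | ∃ u, S33DG_IsGen n x u ∧ S33KB_N1 O u}
  zero_mem' := ⟨1, S33DG_isGen_one n, S33KB_N1_one O⟩
  add_mem' := by
    rintro x y ⟨u, hu, hu1⟩ ⟨v, hv, hv1⟩
    exact ⟨u * v, S33DG_isGen_mul hu hv, S33KB_N1_mul O hu1 hv1⟩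
  neg_mem' := by
    rintro x ⟨u, hu, hu1⟩
    exact ⟨u⁻¹, S33DG_isGen_inv hu, S33KB_N1_inv O hu1⟩

theorem S40G5W_mem_K {n : ℕ} {O : ValuationSubring ↥(modularFunctionFieldBar N)} {x : JZero N} :
    x ∈ S40G5W_K N n O ↔ ∃ u, S33DG_IsGen n x u ∧ S33KB_N1 O u := Iff.rfl

/-- (H2-gen) at the prime `q`, exponent `n`, valuation ring `O`: `t` preserves the Kummer
generators which are `≡ 1` at `O`. -/
def S40G5W_H2 (N : ℕ) [NeZero N] (n : ℕ) (O : ValuationSubring ↥(modularFunctionFieldBar N))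
    (q : Nat.Primes) : Prop :=
  haveI : NeZero (q : ℕ) := ⟨q.2.ne_zero⟩
  ∀ (ζ : Kbˣ), IsPrimitiveRoot (ζ : Kb) (q : ℕ) → ∀ hst : GRS_Stab N (q : ℕ) ζ,
    ∀ u : ↥(modularFunctionFieldBar N), KM_IsKum Kb ↥(modularFunctionFieldBar N) n u →
      S33KB_N1 O u → S33KB_N1 O (GRS_t hst u)

/-- `K₁` is stable under `T_q`, from (H2-gen). -/
theorem S40G5W_K_hecke (q : Nat.Primes) (hqN : ¬ (q : ℕ) ∣ N) {n : ℕ} (hn : 0 < n)
    (hqn : ¬ (q : ℕ) ∣ n) (O : ValuationSubring ↥(modularFunctionFieldBar N))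
    (hH2 : S40G5W_H2 N n O q) {x : JZero N} (hx : x ∈ S40G5W_K N n O) :
    heckeOperatorBar N q x ∈ S40G5W_K N n O := by
  haveI : NeZero (q : ℕ) := ⟨q.2.ne_zero⟩
  obtain ⟨u, hu, hu1⟩ := hx
  obtain ⟨ζ, hζ⟩ := GRS_exists_zeta (q : ℕ)
  have hst : GRS_Stab N (q : ℕ) ζ := GRHS_stab ζ hζ q.2
  exact ⟨GRS_t hst u, S40G5W_hecke_gen q hqN hn hqn hζ hst hu,
    hH2 ζ hζ hst u (S33DG_isKum hu) hu1⟩

end gen

section comm

variable (N : ℕ) [NeZero N] (p k : ℕ) [NeZero (p ^ k)]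

/-- the integral Hecke operators on `parInt N` commute (local copy of `GR_hT_commute`). -/
theorem S40G5W_hT_commute (ℓ ℓ' : ℕ) : Commute (GR_hT N ℓ) (GR_hT N ℓ') := by
  unfold GR_hT
  split_ifs with h h'
  · show _ * _ = _ * _
    rw [← map_mul, ← map_mul, mul_comm]
  · exact Commute.zero_right _
  · exact Commute.zero_left _
  · exact Commute.zero_left _

/-- the Hecke operators `T_q`, `q ∤ N p`, commute on `J₀(N)[p^k]`. -/
theorem S40G5W_hecke_comm (q q' : Nat.Primes) (hqN : ¬ (q : ℕ) ∣ N) (hq'N : ¬ (q' : ℕ) ∣ N)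
    (hqp : ¬ (q : ℕ) ∣ p ^ k) (hq'p : ¬ (q' : ℕ) ∣ p ^ k)
    (x : ↥(Submodule.torsionBy ℤ (JZero N) ((p : ℤ) ^ k))) :
    heckeOperatorBar N q (heckeOperatorBar N q' (x : JZero N)) =
      heckeOperatorBar N q' (heckeOperatorBar N q (x : JZero N)) := by
  set y' : ↥(Submodule.torsionBy ℤ (JZero N) ((p : ℤ) ^ k)) :=
    ⟨_, S40KH_hecke_mem N p k q' x⟩ with hy'
  set y : ↥(Submodule.torsionBy ℤ (JZero N) ((p : ℤ) ^ k)) :=
    ⟨_, S40KH_hecke_mem N p k q x⟩ with hy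
  set z' : ↥(Submodule.torsionBy ℤ (JZero N) ((p : ℤ) ^ k)) :=
    ⟨_, S40KH_hecke_mem N p k q y'⟩ with hz'
  set z : ↥(Submodule.torsionBy ℤ (JZero N) ((p : ℤ) ^ k)) :=
    ⟨_, S40KH_hecke_mem N p k q' y⟩ with hz
  have e1 := S40KH_kappa_hecke N p k q' hq'N hq'p x y' rfl
  have e2 := S40KH_kappa_hecke N p k q hqN hqp y' z' rfl
  have e3 := S40KH_kappa_hecke N p k q hqN hqp x y rfl
  have e4 := S40KH_kappa_hecke N p k q' hq'N hq'p y z rfl
  have hc : (GR_hT N (q : ℕ)).baseChange (ZMod (p ^ k))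
      ((GR_hT N (q' : ℕ)).baseChange (ZMod (p ^ k)) (S32Q_kappa N p k x)) =
      (GR_hT N (q' : ℕ)).baseChange (ZMod (p ^ k))
      ((GR_hT N (q : ℕ)).baseChange (ZMod (p ^ k)) (S32Q_kappa N p k x)) := by
    have h1 := S40G5W_hT_commute N (q : ℕ) (q' : ℕ)
    have h2 : (GR_hT N (q : ℕ)).baseChange (ZMod (p ^ k)) ∘ₗ
        (GR_hT N (q' : ℕ)).baseChange (ZMod (p ^ k)) =
        (GR_hT N (q' : ℕ)).baseChange (ZMod (p ^ k)) ∘ₗ
        (GR_hT N (q : ℕ)).baseChange (ZMod (p ^ k)) := by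
      rw [← LinearMap.baseChange_comp, ← LinearMap.baseChange_comp]
      congr 1
    exact LinearMap.congr_fun h2 _
  have hzz : S32Q_kappa N p k z' = S32Q_kappa N p k z := by
    rw [e2, e1, e4, e3, hc]
  have := S40KI_kappa_injective N p k hzz
  exact congrArg (fun w : ↥(Submodule.torsionBy ℤ (JZero N) ((p : ℤ) ^ k)) => (w : JZero N)) this

end comm

section main

variable (M p : ℕ) [NeZero M] [NeZero p] [NeZero (M * p)]

/-- **GEO-5 modulo (H2-gen) and (H4)**: a finite, not connected eigen-class of `J₀(M p)[p]` gives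
a nonzero eigen-class of `J₀(M)[p]` with the same eigenvalues. -/
theorem S40G5W_main (hp : p.Prime) (k : ℕ)
    (O : ValuationSubring ↥(modularFunctionFieldBar (M * p)))
    (S : Set Nat.Primes) (hS : ∀ q ∈ S, ¬ (q : ℕ) ∣ M * p) (a : Nat.Primes → ℤ)
    (hH2 : ∀ q ∈ S, S40G5W_H2 (M * p) (p ^ k) O q)
    (x : JZero (M * p)) (hpx : p • x = 0)
    (hx : ∀ q ∈ S, heckeOperatorBar (M * p) q x = a q • x)
    (hfin : ∃ y : JZero M, (p ^ k) • y = 0 ∧
      x - S40GP_pullJ M p y ∈ S40G5W_K (M * p) (p ^ k) O)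
    (hnc : x ∉ S40G5W_K (M * p) (p ^ k) O) :
    ∃ y : JZero M, y ≠ 0 ∧ p • y = 0 ∧ ∀ q ∈ S, heckeOperatorBar M q y = a q • y := by
  haveI : Fact p.Prime := ⟨hp⟩
  haveI : NeZero (p ^ k) := ⟨pow_ne_zero k hp.ne_zero⟩
  haveI := S19F_jzero_finite M p k
  have hpk : 0 < p ^ k := pos_of_ne_zero (pow_ne_zero k hp.ne_zero)
  have hqM : ∀ q ∈ S, ¬ (q : ℕ) ∣ M := fun q hq hd => hS q hq (Dvd.dvd.mul_right hd p)
  have hqp : ∀ q ∈ S, ¬ (q : ℕ) ∣ p ^ k := fun q hq hd =>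
    hS q hq (Dvd.dvd.mul_left (q.2.dvd_of_dvd_pow hd) M)
  -- the operators on `E = J₀(M)[p^k]`
  let TE : ↥S → ↥(Submodule.torsionBy ℤ (JZero M) ((p : ℤ) ^ k)) →+
      ↥(Submodule.torsionBy ℤ (JZero M) ((p : ℤ) ^ k)) := fun i =>
    { toFun := fun y => ⟨heckeOperatorBar M i.1 (y : JZero M), S40KH_hecke_mem M p k i.1 y⟩
      map_zero' := Subtype.ext (map_zero _)
      map_add' := fun y z => Subtype.ext (map_add _ _ _) }
  let TJ : ↥S → JZero (M * p) →+ JZero (M * p) := fun i =>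
    (heckeOperatorBar (M * p) i.1).toAddMonoidHom
  let pull : ↥(Submodule.torsionBy ℤ (JZero M) ((p : ℤ) ^ k)) →+ JZero (M * p) :=
    (S40GP_pullJ M p).comp (Submodule.torsionBy ℤ (JZero M) ((p : ℤ) ^ k)).subtype.toAddMonoidHom
  have hTE : ∀ (i : ↥S) (y : ↥(Submodule.torsionBy ℤ (JZero M) ((p : ℤ) ^ k))),
      ((TE i y : ↥(Submodule.torsionBy ℤ (JZero M) ((p : ℤ) ^ k))) : JZero M) =
        heckeOperatorBar M i.1 (y : JZero M) := fun _ _ => rfl
  have hpullv : ∀ y : ↥(Submodule.torsionBy ℤ (JZero M) ((p : ℤ) ^ k)),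
      pull y = S40GP_pullJ M p (y : JZero M) := fun _ => rfl
  obtain ⟨y₁, hy₁, hy₁K⟩ := hfin
  have hy₁mem : y₁ ∈ Submodule.torsionBy ℤ (JZero M) ((p : ℤ) ^ k) := by
    rw [Submodule.mem_torsionBy_iff]
    have : ((p : ℤ) ^ k) • y₁ = (p ^ k) • y₁ := by
      rw [← Nat.cast_pow, natCast_zsmul]
    rw [this, hy₁]
  obtain ⟨y, hy0, hpy, hyT⟩ := S40G5_abs_tors p (fun i => TE i) (fun i => TJ i)
    (fun i : ↥S => a i.1)
    (fun i j y => Subtype.ext (by
      rw [hTE, hTE, hTE, hTE]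
      exact S40G5W_hecke_comm M p k i.1 j.1 (hqM _ i.2) (hqM _ j.2) (hqp _ i.2) (hqp _ j.2) y))
    pull
    (fun i y => by
      rw [hpullv, hpullv, hTE]
      exact (S40GP_pullJ_hecke M p i.1 (hS _ i.2) hpk (hqp _ i.2) (y : JZero M)
        (S32Q_tors_nsmul M p k y)).symm)
    (S40G5W_K (M * p) (p ^ k) O)
    (fun i z hz => S40G5W_K_hecke i.1 (hS _ i.2) hpk (hqp _ i.2) O (hH2 _ i.2) hz)
    x hpx (fun i => hx _ i.2) ⟨⟨y₁, hy₁mem⟩, hy₁K⟩ hnc
  refine ⟨(y : JZero M), fun h0 => hy0 (Subtype.ext h0), ?_, fun q hq => ?_⟩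
  · have := congrArg (fun w : ↥(Submodule.torsionBy ℤ (JZero M) ((p : ℤ) ^ k)) => (w : JZero M)) hpy
    simpa using this
  · have := congrArg (fun w : ↥(Submodule.torsionBy ℤ (JZero M) ((p : ℤ) ^ k)) => (w : JZero M))
      (hyT ⟨q, hq⟩)
    simpa [hTE] using this

end main

end Fermat.Agent.S40
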