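import Mathlib
import Fermat.Agent.S40.Geo5Wire

/-!
# TRACK 13 (S40, row 38), package P6-J (helper17): the Hecke operator on Kummer generators of an
EIGEN-class.  Prefix `S40F2HJ_`.

Level `N`, `F = modularFunctionFieldBar N`, `t = GRS_t hst` the multiplicative Hecke operator at
the prime `q ∤ N n`, `x ∈ J₀(N)` with Kummer generator `u` of exponent `n`
(`S33DG_IsGen n x u`: `div u = n D`, `[D] = x`).

* `S40F2HJ_isGen_zpow` : `u ^ a` generates `a • x` (`a : ℤ`);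
* `S40F2HJ_triv`  : `T_q x = a • x`  ⇒  `t u · (u ^ a)⁻¹` is a trivial Kummer generator;
* `S40F2HJ_main`  : **P6-J**: `T_q x = a • x` ⇒ `t u = c · u ^ a · g ^ n` (`c ≠ 0` constant,
  `g ≠ 0`);
* `S40F2HJ_main_nat` : the same for `a : ℕ`;
* `S40F2HJ_gal`   : `τ (t u) = t (τ u)` for every `τ ∈ Gal(ℚ̄/ℚ)`;
* `S40F2HJ_fixed` : if `u` is fixed by `τ` then so is `t u`;
* `S40F2HJ_const` : `t c = c ^ (q + 1)` for a constant `c` (`q ∤ N`).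
-/

set_option autoImplicit false
set_option linter.style.haveILetI false
set_option linter.unusedSectionVars false
set_option linter.unusedVariables false
set_option synthInstance.maxHeartbeats 400000
set_option maxHeartbeats 1000000

open AlgebraicCurve ModularCurve

noncomputable section

namespace Fermat.Agent.S40

open Fermat.Agent.S17 Fermat.Agent.S18 Fermat.Agent.S19 Fermat.Agent.S24 Fermat.Agent.S32
  Fermat.Agent.S33 Fermat.Agent.S37 Fermat.Agent.GalRep Fermat.Agent.Lib Fermat.Agent.S16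

local notation "Kb" => AlgebraicClosure ℚ

section gen

variable {N : ℕ} [NeZero N]

/-- `u ^ a` is a Kummer generator of `a • x`, `a : ℤ`. -/
theorem S40F2HJ_isGen_zpow {n : ℕ} {x : JZero N} {u : ↥(modularFunctionFieldBar N)}
    (h : S33DG_IsGen n x u) (a : ℤ) : S33DG_IsGen n (a • x) (u ^ a) := by
  obtain ⟨m, rfl | rfl⟩ := Int.eq_nat_or_neg a
  · rw [natCast_zsmul, zpow_natCast]
    exact S33DG_isGen_pow h m
  · rw [neg_smul, natCast_zsmul, zpow_neg, zpow_natCast]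
    exact S33DG_isGen_inv (S33DG_isGen_pow h m)

/-- `T_q x = a • x` ⇒ `t u · (u ^ a)⁻¹` is a trivial Kummer generator. -/
theorem S40F2HJ_triv (q : Nat.Primes) (hqN : ¬ (q : ℕ) ∣ N) {n : ℕ} (hn : 0 < n)
    (hqn : ¬ (q : ℕ) ∣ n) {ζ : Kbˣ} (hζ : IsPrimitiveRoot (ζ : Kb) (q : ℕ))
    (hst : haveI : NeZero (q : ℕ) := ⟨q.2.ne_zero⟩; GRS_Stab N (q : ℕ) ζ)
    {x : JZero N} {u : ↥(modularFunctionFieldBar N)} (h : S33DG_IsGen n x u) (a : ℤ)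
    (hx : heckeOperatorBar N q x = a • x) :
    haveI : NeZero (q : ℕ) := ⟨q.2.ne_zero⟩
    GR_IsTriv N n (GRS_t hst u * (u ^ a)⁻¹) := by
  haveI : NeZero (q : ℕ) := ⟨q.2.ne_zero⟩
  have h1 := S40G5W_hecke_gen q hqN hn hqn hζ hst h
  have h2 := S33DG_isGen_inv (S40F2HJ_isGen_zpow h a)
  have h3 := S33DG_isGen_mul h1 h2
  rw [hx, add_neg_cancel] at h3
  exact S33DG_isTriv_of_zero h3

/-- **P6-J**: `T_q x = a • x` ⇒ `t u = c · u ^ a · g ^ n`. -/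
theorem S40F2HJ_main (q : Nat.Primes) (hqN : ¬ (q : ℕ) ∣ N) {n : ℕ} (hn : 0 < n)
    (hqn : ¬ (q : ℕ) ∣ n) {ζ : Kbˣ} (hζ : IsPrimitiveRoot (ζ : Kb) (q : ℕ))
    (hst : haveI : NeZero (q : ℕ) := ⟨q.2.ne_zero⟩; GRS_Stab N (q : ℕ) ζ)
    {x : JZero N} {u : ↥(modularFunctionFieldBar N)} (h : S33DG_IsGen n x u) (a : ℤ)
    (hx : heckeOperatorBar N q x = a • x) :
    haveI : NeZero (q : ℕ) := ⟨q.2.ne_zero⟩
    ∃ (c : Kb) (g : ↥(modularFunctionFieldBar N)), c ≠ 0 ∧ g ≠ 0 ∧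
      GRS_t hst u = algebraMap Kb ↥(modularFunctionFieldBar N) c * u ^ a * g ^ n := by
  haveI : NeZero (q : ℕ) := ⟨q.2.ne_zero⟩
  obtain ⟨c, g, hc, hg, e⟩ := S40F2HJ_triv q hqN hn hqn hζ hst h a hx
  refine ⟨c, g, hc, hg, ?_⟩
  have hu : u ≠ 0 := S33DG_isGen_ne_zero h
  have hua : u ^ a ≠ 0 := zpow_ne_zero a hu
  calc GRS_t hst u = GRS_t hst u * (u ^ a)⁻¹ * u ^ a := by
        rw [mul_assoc, inv_mul_cancel₀ hua, mul_one]
    _ = algebraMap Kb ↥(modularFunctionFieldBar N) c * u ^ a * g ^ n := by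
        rw [e]
        ring

/-- **P6-J** for a natural eigenvalue. -/
theorem S40F2HJ_main_nat (q : Nat.Primes) (hqN : ¬ (q : ℕ) ∣ N) {n : ℕ} (hn : 0 < n)
    (hqn : ¬ (q : ℕ) ∣ n) {ζ : Kbˣ} (hζ : IsPrimitiveRoot (ζ : Kb) (q : ℕ))
    (hst : haveI : NeZero (q : ℕ) := ⟨q.2.ne_zero⟩; GRS_Stab N (q : ℕ) ζ)
    {x : JZero N} {u : ↥(modularFunctionFieldBar N)} (h : S33DG_IsGen n x u) (a : ℕ)
    (hx : heckeOperatorBar N q x = a • x) :
    haveI : NeZero (q : ℕ) := ⟨q.2.ne_zero⟩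
    ∃ (c : Kb) (g : ↥(modularFunctionFieldBar N)), c ≠ 0 ∧ g ≠ 0 ∧
      GRS_t hst u = algebraMap Kb ↥(modularFunctionFieldBar N) c * u ^ a * g ^ n := by
  haveI : NeZero (q : ℕ) := ⟨q.2.ne_zero⟩
  have hx' : heckeOperatorBar N q x = (a : ℤ) • x := by rw [hx, natCast_zsmul]
  obtain ⟨c, g, hc, hg, e⟩ := S40F2HJ_main q hqN hn hqn hζ hst h (a : ℤ) hx'
  exact ⟨c, g, hc, hg, by rw [e, zpow_natCast]⟩

/-- **P6-J for an eigenvalue modulo `n`**: `T_q x = a • x`, `a ≡ a'` modulo `n` ⇒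
`t u = c · u ^ a' · g ^ n`. -/
theorem S40F2HJ_main_mod (q : Nat.Primes) (hqN : ¬ (q : ℕ) ∣ N) {n : ℕ} (hn : 0 < n)
    (hqn : ¬ (q : ℕ) ∣ n) {ζ : Kbˣ} (hζ : IsPrimitiveRoot (ζ : Kb) (q : ℕ))
    (hst : haveI : NeZero (q : ℕ) := ⟨q.2.ne_zero⟩; GRS_Stab N (q : ℕ) ζ)
    {x : JZero N} {u : ↥(modularFunctionFieldBar N)} (h : S33DG_IsGen n x u) (a a' : ℤ)
    (hx : heckeOperatorBar N q x = a • x) (haa : (n : ℤ) ∣ a - a') :
    haveI : NeZero (q : ℕ) := ⟨q.2.ne_zero⟩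
    ∃ (c : Kb) (g : ↥(modularFunctionFieldBar N)), c ≠ 0 ∧ g ≠ 0 ∧
      GRS_t hst u = algebraMap Kb ↥(modularFunctionFieldBar N) c * u ^ a' * g ^ n := by
  haveI : NeZero (q : ℕ) := ⟨q.2.ne_zero⟩
  obtain ⟨c, g, hc, hg, e⟩ := S40F2HJ_main q hqN hn hqn hζ hst h a hx
  obtain ⟨j, hj⟩ := haa
  have hu : u ≠ 0 := S33DG_isGen_ne_zero h
  refine ⟨c, g * u ^ j, hc, mul_ne_zero hg (zpow_ne_zero j hu), ?_⟩
  have ha : a = a' + (n : ℤ) * j := by linarith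
  rw [e, ha, zpow_add₀ hu, mul_pow, ← zpow_natCast (u ^ j) n, ← zpow_mul, mul_comm j (n : ℤ)]
  ring

/-- `t` commutes with the Galois action. -/
theorem S40F2HJ_gal (q : ℕ) [NeZero q] {ζ : Kbˣ} (hζ : IsPrimitiveRoot (ζ : Kb) q)
    (hst : GRS_Stab N q ζ) (τ : GQ) (u : ↥(modularFunctionFieldBar N)) :
    GR_gal N τ (GRS_t hst u) = GRS_t hst (GR_gal N τ u) :=
  (GRS_t_gal hst hζ τ u).symm

/-- `t u` is fixed by `τ` if `u` is. -/
theorem S40F2HJ_fixed (q : ℕ) [NeZero q] {ζ : Kbˣ} (hζ : IsPrimitiveRoot (ζ : Kb) q)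
    (hst : GRS_Stab N q ζ) (τ : GQ) (u : ↥(modularFunctionFieldBar N))
    (hu : GR_gal N τ u = u) : GR_gal N τ (GRS_t hst u) = GRS_t hst u := by
  rw [S40F2HJ_gal q hζ hst τ u, hu]

/-- `t c = c ^ (q + 1)` for a constant `c`, `q ∤ N`. -/
theorem S40F2HJ_const (q : ℕ) [NeZero q] {ζ : Kbˣ} (hst : GRS_Stab N q ζ) (hqN : ¬ q ∣ N)
    (c : Kb) :
    GRS_t hst (algebraMap Kb ↥(modularFunctionFieldBar N) c) =
      algebraMap Kb ↥(modularFunctionFieldBar N) (c ^ (q + 1)) := by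
  rw [GRS_t_const hst c, if_neg hqN]

end gen

end Fermat.Agent.S40
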