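import Fermat.Agent.S18.GaussModL

/-!
# TRACK 13 (S40), GEO-5, route 2, support of (iv-b) (helper10), prefix `S40G5P_`:
the reduction of a unit of the shape `c · hⁿ`

* `S40G5P_pth_abs` : for a Gauss datum `G`: `w ∈ O`, `red w ≠ 0`, `w = c · hⁿ` with `c ∈ Lˣ`,
  `h ∈ Fˣ`  ⇒  `red w = ē · h̄ⁿ` with `ē ∈ kˣ`, `h̄ ∈ F_kˣ`  (moreover `h = c₁ · h₁` with `h₁ ∈ O`,
  `red h₁ = h̄`);
* `S40G5P_pth`     : the same for the Gauss ring `S18_O A N` of ANY level `N` (from `hgen` only).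
-/

set_option autoImplicit false
set_option synthInstance.maxHeartbeats 400000
set_option maxHeartbeats 1000000
set_option linter.unusedSectionVars false
set_option linter.style.haveILetI false

open HahnSeries IntermediateField AlgebraicCurve ModularCurve

namespace Fermat.Agent.S40

open Fermat.Agent.S18

section Abstract

variable {L F k Fk : Type*} [Field L] [Field F] [Algebra L F] [Field k] [Field Fk]
  [Algebra k Fk]

/-- the reduction of a unit of the shape `c · hⁿ` is of the shape `ē · h̄ⁿ`. -/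
theorem S40G5P_pth_abs (G : S18_Gauss L F k Fk) (n : ℕ) (w : G.O) (hw : G.red w ≠ 0)
    (c : L) (h : F) (hc : c ≠ 0) (hh : h ≠ 0) (e : (w : F) = algebraMap L F c * h ^ n) :
    ∃ (e' : k) (h' : Fk), e' ≠ 0 ∧ h' ≠ 0 ∧ G.red w = algebraMap k Fk e' * h' ^ n ∧
      ∃ (c₁ : L) (h₁ : G.O), c₁ ≠ 0 ∧ h = algebraMap L F c₁ * (h₁ : F) ∧ G.red h₁ = h' := by
  obtain ⟨c₁, h₁, hc₁, hh₁, rfl⟩ := G.exists_const_mul_unit h hh
  have hU : IsUnit h₁ := (G.red_ne_zero_iff h₁).1 hh₁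
  set v : G.Oˣ := hU.unit with hv
  have hv1 : (h₁ : G.O) * ((v⁻¹ : G.Oˣ) : G.O) = 1 := hU.mul_val_inv
  have hh₁0 : (h₁ : F) ≠ 0 := by
    intro h0
    apply hh₁
    have : h₁ = 0 := Subtype.ext h0
    rw [this, map_zero]
  set c₂ : L := c * c₁ ^ n with hc₂
  have e2 : (w : F) = algebraMap L F c₂ * (h₁ : F) ^ n := by
    rw [e, hc₂, map_mul, map_pow, mul_pow, mul_assoc]
  have e3 : algebraMap L F c₂ = ((w * ((v⁻¹ : G.Oˣ) : G.O) ^ n : G.O) : F) := by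
    have h5 : ((h₁ : G.O) : F) * (((v⁻¹ : G.Oˣ) : G.O) : F) = 1 := by
      exact_mod_cast congrArg (fun z : G.O => (z : F)) hv1
    have h6 : ((h₁ : G.O) : F) ^ n * (((v⁻¹ : G.Oˣ) : G.O) : F) ^ n = 1 := by
      rw [← mul_pow, h5, one_pow]
    push_cast
    rw [e2, mul_assoc, h6, mul_one]
  have hmem : algebraMap L F c₂ ∈ G.O := by
    rw [e3]
    exact Subtype.property _
  have hA : c₂ ∈ G.A := (G.algebraMap_mem_iff c₂).1 hmem
  have hred := G.red_algebraMap c₂ hA hmem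
  have e4 : w = (⟨algebraMap L F c₂, hmem⟩ : G.O) * h₁ ^ n := by
    apply Subtype.ext
    push_cast
    exact e2
  have e5 : G.red w = algebraMap k Fk (G.res ⟨c₂, hA⟩) * G.red h₁ ^ n := by
    rw [e4, map_mul, map_pow, hred]
  refine ⟨G.res ⟨c₂, hA⟩, G.red h₁, ?_, hh₁, e5, c₁, h₁, hc₁, rfl, rfl⟩
  intro h0
  apply hw
  rw [e5, h0, map_zero, zero_mul]

end Abstract

section X0

variable (N : ℕ) [NeZero N] (A : ValuationSubring (AlgebraicClosure ℚ))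

/-- **the reduction of a unit `c · hⁿ` of the Gauss ring of level `N` is `ē · h̄ⁿ`**. -/
theorem S40G5P_pth (hgen : PrincipalGeneratedByIntegral A (IsLocalRing.residue A) N) (n : ℕ)
    (w : ↥(modularFunctionFieldBar N)) (hw : w ∈ S18_O A N) (hred : S18_red A N ⟨w, hw⟩ ≠ 0)
    (c : AlgebraicClosure ℚ) (h : ↥(modularFunctionFieldBar N)) (hc : c ≠ 0) (hh : h ≠ 0)
    (e : w = algebraMap (AlgebraicClosure ℚ) ↥(modularFunctionFieldBar N) c * h ^ n) :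
    ∃ (e' : IsLocalRing.ResidueField A)
      (h' : ↥(modularFunctionFieldFullC (IsLocalRing.ResidueField A) N)), e' ≠ 0 ∧ h' ≠ 0 ∧
      S18_red A N ⟨w, hw⟩ = algebraMap (IsLocalRing.ResidueField A)
        ↥(modularFunctionFieldFullC (IsLocalRing.ResidueField A) N) e' * h' ^ n ∧
      ∃ (c₁ : AlgebraicClosure ℚ) (h₁ : ↥(modularFunctionFieldBar N)) (hh₁ : h₁ ∈ S18_O A N),
        c₁ ≠ 0 ∧ h = algebraMap (AlgebraicClosure ℚ) ↥(modularFunctionFieldBar N) c₁ * h₁ ∧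
        S18_red A N ⟨h₁, hh₁⟩ = h' := by
  obtain ⟨e', h', he', hh', hr, c₁, h₁, hc₁, hh₁, hr₁⟩ :=
    S40G5P_pth_abs (S18_gaussModL N A hgen) n ⟨w, hw⟩ hred c h hc hh e
  exact ⟨e', h', he', hh', hr, c₁, h₁.1, h₁.2, hc₁, hh₁, hr₁⟩

end X0

end Fermat.Agent.S40
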