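import Fermat.Agent.S40.Geo5H2

/-!
# TRACK 13 (S40), GEO-5, route 2, support of (iv-b) (helper10), prefix `S40G5Q_`:
the reduction of `t u` is computed by the `q`-expansion formula, hence does not see the level

`A` a valuation ring of `ℚ̄`, `O_N = S18_O A N` the Gauss ring of level `N`, `red_N = S18_red A N`
with values in `F_k(N) ⊂ k((q))`, `t = GRS_t hst` the multiplicative Hecke operator at `ℓ`.

* `S40G5Q_rhs_div`  : `GRS_rhs (f / g) = GRS_rhs f / GRS_rhs g` over a field;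
* `S40G5Q_qexp`     : `u ∈ O_N` ⇒ `(red (t u))(q^ℓ) = GRS_rhs N ℓ ζ̄ (red u)` in `k((q))`;
* `S40G5Q_compare`  : `u₁ ∈ O_{N₁}`, `u₂ ∈ O_{N₂}`, `red u₁ = red u₂` in `k((q))`,
  `ℓ ∣ N₁ ↔ ℓ ∣ N₂`  ⇒  `red (t u₁) = red (t u₂)` in `k((q))`.
-/

set_option autoImplicit false
set_option synthInstance.maxHeartbeats 400000
set_option maxHeartbeats 1000000
set_option linter.unusedSectionVars false
set_option linter.style.haveILetI false

open HahnSeries IntermediateField AlgebraicCurve ModularCurve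

namespace Fermat.Agent.S40

open Fermat.Agent.S18 Fermat.Agent.GalRep

section field

variable {k : Type*} [Field k]

/-- `GRS_rhs` is compatible with quotients over a field. -/
theorem S40G5Q_rhs_div (N ℓ : ℕ) [NeZero ℓ] (u : kˣ) (f g : LaurentSeries k) (hg : g ≠ 0) :
    GRS_rhs N ℓ u (f / g) = GRS_rhs N ℓ u f / GRS_rhs N ℓ u g := by
  have h0 := S40G5H_rhs_ne_zero N ℓ u g hg
  rw [eq_div_iff h0, ← GRS_rhs_mul, div_mul_cancel₀ f hg]

end field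

section main

variable (N : ℕ) [NeZero N] (A : ValuationSubring (AlgebraicClosure ℚ))
  {ℓ : ℕ} [NeZero ℓ] {ζ : (AlgebraicClosure ℚ)ˣ}

/-- **the reduction commutes with (H1)**: `(red (t u))(q^ℓ) = GRS_rhs (red u)`, `u ∈ O`. -/
theorem S40G5Q_qexp (hgen : PrincipalGeneratedByIntegral A (IsLocalRing.residue A) N)
    (ζA : Aˣ) (hζA : Units.map (A.subtype : A →* AlgebraicClosure ℚ) ζA = ζ)
    (hst : GRS_Stab N ℓ ζ)
    (u : ↥(modularFunctionFieldBar N)) (hu : u ∈ S18_O A N)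
    (h' : GRS_t hst u ∈ S18_O A N) :
    qExpand (IsLocalRing.ResidueField A) ℓ
        ((S18_red A N ⟨GRS_t hst u, h'⟩ :
          ↥(modularFunctionFieldFullC (IsLocalRing.ResidueField A) N)) :
            LaurentSeries (IsLocalRing.ResidueField A)) =
      GRS_rhs N ℓ (Units.map
          ((IsLocalRing.residue A : A →+* IsLocalRing.ResidueField A) : A →* _) ζA)
        ((S18_red A N ⟨u, hu⟩ :
          ↥(modularFunctionFieldFullC (IsLocalRing.ResidueField A) N)) :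
            LaurentSeries (IsLocalRing.ResidueField A)) := by
  obtain ⟨s₁, h1, s₂, h2, hne, hf⟩ := hu
  obtain ⟨t₁, t₂, ht₁B, ht₂B, hρt₂, ht', hq₁, hq₂⟩ :=
    S40G5H_rep N A hgen ζA hζA hst u h1 h2 hne hf
  have e1 := S18_red_eq A N ht₁B ht₂B hρt₂ ht'
  have e2 := S18_red_eq A N h1 h2 hne hf
  rw [e2, S40G5Q_rhs_div N ℓ _ _ _ hne, ← hq₁, ← hq₂, ← map_div₀]
  exact congrArg _ e1

/-- `t` keeps the Gauss ring. -/
theorem S40G5Q_mem (hgen : PrincipalGeneratedByIntegral A (IsLocalRing.residue A) N)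
    (hζ : ζ ^ ℓ = 1) (hst : GRS_Stab N ℓ ζ)
    (u : ↥(modularFunctionFieldBar N)) (hu : u ∈ S18_O A N) : GRS_t hst u ∈ S18_O A N := by
  obtain ⟨ζA, hζA⟩ := S40G5H_unit_of_pow A ζ ℓ (NeZero.ne ℓ) hζ
  obtain ⟨s₁, h1, s₂, h2, hne, hf⟩ := hu
  obtain ⟨t₁, t₂, ht₁B, ht₂B, hρt₂, ht', -, -⟩ :=
    S40G5H_rep N A hgen ζA hζA hst u h1 h2 hne hf
  exact ⟨t₁, ht₁B, t₂, ht₂B, hρt₂, ht'⟩

end main

section compare

variable (N₁ N₂ : ℕ) [NeZero N₁] [NeZero N₂] (A : ValuationSubring (AlgebraicClosure ℚ))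
  {ℓ : ℕ} [NeZero ℓ] {ζ : (AlgebraicClosure ℚ)ˣ}

/-- **the reduction of `t u` does not see the level**: if `red_{N₁} u₁ = red_{N₂} u₂` as Laurent
series over `k` then `red_{N₁} (t u₁) = red_{N₂} (t u₂)`. -/
theorem S40G5Q_compare (hgen₁ : PrincipalGeneratedByIntegral A (IsLocalRing.residue A) N₁)
    (hgen₂ : PrincipalGeneratedByIntegral A (IsLocalRing.residue A) N₂)
    (hdvd : ℓ ∣ N₁ ↔ ℓ ∣ N₂) (hζ : ζ ^ ℓ = 1)
    (hst₁ : GRS_Stab N₁ ℓ ζ) (hst₂ : GRS_Stab N₂ ℓ ζ)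
    (u₁ : ↥(modularFunctionFieldBar N₁)) (hu₁ : u₁ ∈ S18_O A N₁)
    (u₂ : ↥(modularFunctionFieldBar N₂)) (hu₂ : u₂ ∈ S18_O A N₂)
    (hred : ((S18_red A N₁ ⟨u₁, hu₁⟩ :
          ↥(modularFunctionFieldFullC (IsLocalRing.ResidueField A) N₁)) :
            LaurentSeries (IsLocalRing.ResidueField A)) =
        ((S18_red A N₂ ⟨u₂, hu₂⟩ :
          ↥(modularFunctionFieldFullC (IsLocalRing.ResidueField A) N₂)) :
            LaurentSeries (IsLocalRing.ResidueField A)))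
    (h₁' : GRS_t hst₁ u₁ ∈ S18_O A N₁) (h₂' : GRS_t hst₂ u₂ ∈ S18_O A N₂) :
    ((S18_red A N₁ ⟨GRS_t hst₁ u₁, h₁'⟩ :
          ↥(modularFunctionFieldFullC (IsLocalRing.ResidueField A) N₁)) :
            LaurentSeries (IsLocalRing.ResidueField A)) =
      ((S18_red A N₂ ⟨GRS_t hst₂ u₂, h₂'⟩ :
          ↥(modularFunctionFieldFullC (IsLocalRing.ResidueField A) N₂)) :
            LaurentSeries (IsLocalRing.ResidueField A)) := by
  obtain ⟨ζA, hζA⟩ := S40G5H_unit_of_pow A ζ ℓ (NeZero.ne ℓ) hζ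
  apply qExpand_injective ℓ
  rw [S40G5Q_qexp N₁ A hgen₁ ζA hζA hst₁ u₁ hu₁ h₁',
    S40G5Q_qexp N₂ A hgen₂ ζA hζA hst₂ u₂ hu₂ h₂', hred]
  by_cases h : ℓ ∣ N₁
  · rw [GRS_rhs_of_dvd N₁ ℓ h, GRS_rhs_of_dvd N₂ ℓ (hdvd.1 h)]
  · rw [GRS_rhs_of_not_dvd N₁ ℓ h, GRS_rhs_of_not_dvd N₂ ℓ (fun h2 => h (hdvd.2 h2))]

end compare

end Fermat.Agent.S40
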