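import Mathlib
import Fermat.Agent.S40.Defs
import Fermat.Agent.S40.F2E
import Fermat.Agent.S40.F2HJ
import Fermat.Agent.S40.Geo5Q
import Fermat.Agent.S40.Geo5Pth
import Fermat.Agent.S18.CuspAx

/-!
# TRACK 13 (row 38), (D-CUSP) at the cusp `∞` (helper6).  Prefix `S40CI_`.

Level `N` (ANY level), `A` a place of `ℚ̄` over `p`, `O = S18_O A N` the Gauss valuation ring of
`F = ℚ̄(X₀(N))` (`q`-expansion at `∞`), `red : O → Fk ⊂ k((q))`.

* `S40CI_order_rhs` : `ord_q (ES_rhs ℓ ζ f) = ℓ (ℓ + 1) ord_q f`;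
* `S40CI_core`      : `F'(q^ℓ) = ES_rhs ℓ ζ f`, `F' = c · f ^ a · g ^ p`, `p ∤ a − ℓ − 1` ⇒
  `p ∣ ord_q f`  (Mathlib + the series lemmas);
* `S40CI_main`      : **the cusp `∞` is free**: for a `W`-eigen-class `x ∈ J₀(N)[p]`
  (`x ∈ S40D_V0 W p N`), `W` with irreducible mod-`p` representation, and a Kummer generator `u`
  of `x` which is a unit of the Gauss ring: `p ∣ ord_q (red u)`.
  Proof: `t u = c · u ^ a_ℓ · g ^ p` (P6-J, `S40F2HJ_main_mod`), its reduction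
  (`S40G5P_pth`), the `q`-expansion formula `red (t u) (q^ℓ) = ES_rhs (red u)` (`S40G5Q_qexp`),
  and a prime `ℓ` with `p ∤ a_ℓ − ℓ − 1` (`S40F2E_main`).  NO chart, NO place of level `N`.
-/

set_option autoImplicit false
set_option linter.style.haveILetI false
set_option linter.unusedSectionVars false
set_option linter.unusedVariables false
set_option synthInstance.maxHeartbeats 400000
set_option maxHeartbeats 1000000

open HahnSeries IntermediateField AlgebraicCurve ModularCurve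

noncomputable section

namespace Fermat.Agent.S40

open Fermat.Agent.S17 Fermat.Agent.S18 Fermat.Agent.S19 Fermat.Agent.S24 Fermat.Agent.S32
  Fermat.Agent.S33 Fermat.Agent.S37 Fermat.Agent.GalRep Fermat.Agent.Lib Fermat.Agent.S16

section core

variable {k : Type*} [Field k]

theorem S40CI_tw_ne_zero (u : kˣ) {f : LaurentSeries k} (hf : f ≠ 0) : ES_tw u f ≠ 0 :=
  (map_ne_zero (ES_tw u)).mpr hf

theorem S40CI_order_tw (u : kˣ) (f : LaurentSeries k) : (ES_tw u f).order = f.order := by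
  apply CU_order_eq_of_coeff (ζ := (u : k)) u.ne_zero
  intro n
  rw [ES_tw_coeff, Units.val_zpow_eq_zpow_val]

theorem S40CI_rhs_ne_zero (ℓ : ℕ) [NeZero ℓ] (u : kˣ) {f : LaurentSeries k} (hf : f ≠ 0) :
    ES_rhs ℓ u f ≠ 0 := by
  unfold ES_rhs
  exact mul_ne_zero (CU_qExpand_ne_zero ℓ (CU_qExpand_ne_zero ℓ hf))
    (Finset.prod_ne_zero_iff.mpr (fun i _ => S40CI_tw_ne_zero _ hf))

/-- `ord_q (ES_rhs ℓ ζ f) = ℓ (ℓ + 1) ord_q f`. -/
theorem S40CI_order_rhs (ℓ : ℕ) [NeZero ℓ] (u : kˣ) {f : LaurentSeries k} (hf : f ≠ 0) :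
    (ES_rhs ℓ u f).order = (ℓ : ℤ) * ((ℓ : ℤ) + 1) * f.order := by
  unfold ES_rhs
  have h1 : qExpand k ℓ (qExpand k ℓ f) ≠ 0 := CU_qExpand_ne_zero ℓ (CU_qExpand_ne_zero ℓ hf)
  have h2 : ∀ i ∈ Finset.range ℓ, ES_tw (u ^ i) f ≠ 0 := fun i _ => S40CI_tw_ne_zero _ hf
  have h3 : ∏ i ∈ Finset.range ℓ, ES_tw (u ^ i) f ≠ 0 := Finset.prod_ne_zero_iff.mpr h2
  rw [HahnSeries.order_mul h1 h3, CU_order_qExpand, CU_order_qExpand, CU_order_prod _ _ h2]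
  simp only [S40CI_order_tw, Finset.sum_const, Finset.card_range, nsmul_eq_mul]
  ring

/-- **the core**: `p ∣ ord_q f`. -/
theorem S40CI_core {p : ℕ} (hp : p.Prime) (ℓ : ℕ) [NeZero ℓ] (ζ : kˣ)
    (f F' g cL : LaurentSeries k) (a : ℕ)
    (hf : f ≠ 0) (hc : cL ≠ 0) (hc0 : cL.order = 0) (hg : g ≠ 0)
    (h1 : qExpand k ℓ F' = ES_rhs ℓ ζ f)
    (h2 : F' = cL * f ^ a * g ^ p)
    (ha : ¬ (p : ℤ) ∣ (a : ℤ) - ℓ - 1) : (p : ℤ) ∣ f.order := by
  have hfa : f ^ a ≠ 0 := pow_ne_zero a hf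
  have hgp : g ^ p ≠ 0 := pow_ne_zero p hg
  have e1 : F'.order = a * f.order + p * g.order := by
    rw [h2, HahnSeries.order_mul (mul_ne_zero hc hfa) hgp, HahnSeries.order_mul hc hfa, hc0,
      order_pow, order_pow]
    simp only [nsmul_eq_mul]
    ring
  have e2 := congrArg HahnSeries.order h1
  rw [CU_order_qExpand, S40CI_order_rhs ℓ ζ hf, e1] at e2
  have hℓ : (ℓ : ℤ) ≠ 0 := by exact_mod_cast NeZero.ne ℓ
  have e3 : (a : ℤ) * f.order + p * g.order = ((ℓ : ℤ) + 1) * f.order := by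
    apply mul_left_cancel₀ hℓ
    rw [e2]
    ring
  have hdvd : (p : ℤ) ∣ ((a : ℤ) - ℓ - 1) * f.order :=
    ⟨-g.order, by linear_combination e3⟩
  exact ((Nat.prime_iff_prime_int.mp hp).dvd_or_dvd hdvd).resolve_left ha

end core

section inst

variable (N : ℕ) [NeZero N] (A : ValuationSubring (AlgebraicClosure ℚ))

/-- **(D-CUSP) at the cusp `∞`**: `p ∣ ord_q (red u)` for a unit Kummer generator `u` of a
`W`-eigen-class. -/
theorem S40CI_main (W : WeierstrassCurve ℤ) (hΔ : W.Δ ≠ 0) {p : ℕ} (hp : p.Prime) (hp2 : p ≠ 2)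
    (hirr : W.ModRepIsIrreducible p)
    (hgen : PrincipalGeneratedByIntegral A (IsLocalRing.residue A) N)
    (x : JZero N) (hx : x ∈ S40D_V0 W p N) (u : ↥(modularFunctionFieldBar N))
    (hu : S33DG_IsGen p x u) (huO : u ∈ S18_O A N) (hred : S18_red A N ⟨u, huO⟩ ≠ 0) :
    (p : ℤ) ∣ ((S18_red A N ⟨u, huO⟩ :
        ↥(modularFunctionFieldFullC (IsLocalRing.ResidueField A) N)) :
      LaurentSeries (IsLocalRing.ResidueField A)).order := by
  obtain ⟨ℓ, hℓ, -, hgood, hℓN, hℓp, hnd⟩ :=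
    S40F2E_main W hΔ hp hp2 hirr N (Nat.pos_of_ne_zero (NeZero.ne N)) ∅
  haveI : NeZero ℓ := ⟨hℓ.ne_zero⟩
  obtain ⟨ζ₀, hζ₀⟩ := HasEnoughRootsOfUnity.exists_primitiveRoot (AlgebraicClosure ℚ) ℓ
  have hζ0 : ζ₀ ≠ 0 := hζ₀.ne_zero (NeZero.ne ℓ)
  obtain ⟨ζ, rfl⟩ : ∃ ζ : (AlgebraicClosure ℚ)ˣ, (ζ : AlgebraicClosure ℚ) = ζ₀ :=
    ⟨Units.mk0 ζ₀ hζ0, rfl⟩
  have hζpow : ζ ^ ℓ = 1 := Units.ext (by
    rw [Units.val_pow_eq_pow_val, Units.val_one]; exact hζ₀.pow_eq_one)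
  obtain ⟨ζA, hζA⟩ := S40G5H_unit_of_pow A ζ ℓ (NeZero.ne ℓ) hζpow
  have hst : GRS_Stab N ℓ ζ := GRHS_stab ζ hζ₀ hℓ
  have hTx : heckeOperatorBar N ⟨ℓ, hℓ⟩ x = W.apOfModel ℓ • x :=
    hx.2 ⟨ℓ, hℓ⟩ hgood hℓN hℓp
  -- the eigenvalue modulo `p` as a natural number
  have hpos : (0 : ℤ) < p := by exact_mod_cast hp.pos
  obtain ⟨a', ha'⟩ : ∃ a' : ℕ, (a' : ℤ) = W.apOfModel ℓ % p :=
    ⟨(W.apOfModel ℓ % p).toNat, Int.toNat_of_nonneg (Int.emod_nonneg _ hpos.ne')⟩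
  have hdiv : (p : ℤ) ∣ W.apOfModel ℓ - a' := by
    rw [ha']
    exact Int.dvd_self_sub_emod
  have hqn : ¬ ((⟨ℓ, hℓ⟩ : Nat.Primes) : ℕ) ∣ p :=
    fun h => hℓp ((Nat.prime_dvd_prime_iff_eq hℓ hp).mp h)
  obtain ⟨c, g, hc, hg, e⟩ :=
    S40F2HJ_main_mod (N := N) ⟨ℓ, hℓ⟩ hℓN hp.pos hqn hζ₀ hst hu (W.apOfModel ℓ) (a' : ℤ) hTx hdiv
  rw [zpow_natCast] at e
  have hu0 : u ≠ 0 := S33DG_isGen_ne_zero hu
  -- integrality
  have htO : GRS_t hst u ∈ S18_O A N := S40G5Q_mem N A hgen hζpow hst u huO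
  have hq := S40G5Q_qexp N A hgen ζA hζA hst u huO htO
  rw [GRS_rhs_of_not_dvd N ℓ hℓN] at hq
  have hf : ((S18_red A N ⟨u, huO⟩ :
      ↥(modularFunctionFieldFullC (IsLocalRing.ResidueField A) N)) :
      LaurentSeries (IsLocalRing.ResidueField A)) ≠ 0 := fun h => hred (Subtype.ext h)
  have htred : S18_red A N ⟨GRS_t hst u, htO⟩ ≠ 0 := by
    intro h0
    rw [h0] at hq
    exact S40CI_rhs_ne_zero ℓ _ hf (by rw [← hq]; simp)
  have huinv : u⁻¹ ∈ S18_O A N := S18_inv_mem_O A N huO hred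
  have hwO : GRS_t hst u * (u⁻¹) ^ a' ∈ S18_O A N := mul_mem htO (pow_mem huinv a')
  have hw : GRS_t hst u * (u⁻¹) ^ a' =
      algebraMap (AlgebraicClosure ℚ) ↥(modularFunctionFieldBar N) c * g ^ p := by
    rw [e, inv_pow]
    field_simp
  have hwmul : (⟨GRS_t hst u * (u⁻¹) ^ a', hwO⟩ : S18_O A N) =
      ⟨GRS_t hst u, htO⟩ * ⟨u⁻¹, huinv⟩ ^ a' := Subtype.ext rfl
  have hwred : S18_red A N ⟨GRS_t hst u * (u⁻¹) ^ a', hwO⟩ ≠ 0 := by
    rw [hwmul, map_mul, map_pow, S18_red_inv A N huO hred]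
    exact mul_ne_zero htred (pow_ne_zero _ (inv_ne_zero hred))
  obtain ⟨e', h', he', hh', hr, -⟩ := S40G5P_pth N A hgen p _ hwO hwred c g hc hg hw
  have hmul : S18_red A N ⟨GRS_t hst u, htO⟩ =
      S18_red A N ⟨GRS_t hst u * (u⁻¹) ^ a', hwO⟩ * (S18_red A N ⟨u, huO⟩) ^ a' := by
    rw [hwmul, map_mul, map_pow, S18_red_inv A N huO hred, inv_pow, mul_assoc,
      inv_mul_cancel₀ (pow_ne_zero _ hred), mul_one]
  have hc0 : ((algebraMap (IsLocalRing.ResidueField A)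
      ↥(modularFunctionFieldFullC (IsLocalRing.ResidueField A) N) e' :
      ↥(modularFunctionFieldFullC (IsLocalRing.ResidueField A) N)) :
      LaurentSeries (IsLocalRing.ResidueField A)).order = 0 :=
    (CU_w_isVal (modularFunctionFieldFullC (IsLocalRing.ResidueField A) N).val).const e' he'
  have hcne : ((algebraMap (IsLocalRing.ResidueField A)
      ↥(modularFunctionFieldFullC (IsLocalRing.ResidueField A) N) e' :
      ↥(modularFunctionFieldFullC (IsLocalRing.ResidueField A) N)) :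
      LaurentSeries (IsLocalRing.ResidueField A)) ≠ 0 := by
    intro h0
    exact he' ((map_eq_zero _).mp (Subtype.ext h0))
  have hh'ne : ((h' : ↥(modularFunctionFieldFullC (IsLocalRing.ResidueField A) N)) :
      LaurentSeries (IsLocalRing.ResidueField A)) ≠ 0 := fun h0 => hh' (Subtype.ext h0)
  refine S40CI_core hp ℓ _ _ _ _ _ a' hf hcne hc0 hh'ne hq ?_ ?_
  · rw [hmul, hr]
    push_cast
    ring
  · intro hcon
    apply hnd
    have h3 : (p : ℤ) ∣ (W.apOfModel ℓ - a') + ((a' : ℤ) - ℓ - 1) := dvd_add hdiv hcon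
    have e4 : (W.apOfModel ℓ - a') + ((a' : ℤ) - ℓ - 1) = W.apOfModel ℓ - ℓ - 1 := by ring
    rwa [e4] at h3

end inst

end Fermat.Agent.S40
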