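import Mathlib
import Fermat.Agent.S34.AtkinLehner
import Fermat.Agent.S34.ValWire
import Fermat.Agent.S18.CuspAx
import Fermat.Agent.S18.DegCaseA

/-!
# TRACK 13 (row 38), (D-CUSP) (3): the Atkin–Lehner images of `j` (helper17).  Prefix `S40CJ_`.

Level `N`, `F = ℚ̄(X₀(N))`, `w_q = S34WQ_wq` the Atkin–Lehner involution at a prime `q ∥ N`.

* `S40CJ_w N q`  : `w_q` as a TOTAL function of `q` (the identity when `q` is not a prime exactly
  dividing `N`);
* `S40CJ_W N l`  : the composition `w_{q₁} ∘ … ∘ w_{q_r}` for a list `l = [q₁, …, q_r]`;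
* `S40CJ_W_jBar` : for a list `l` of pairwise different primes exactly dividing `N`:
  `W_l (j) = j(q^D)`, `D = ∏ l`;
* **`S40CJ_main`** : `N = M' p`, `M'` squarefree, `p ∤ M'`, `D ∣ M'`:
  `W_D (j) = jBar N D`, `W_D := S40CJ_W N (primeFactorsList D)`;
* `S40CJ_order`, **`S40CJ_red_order`** : `red (jBar N D) = j̄(q^D)` has `q`-order `−D`; so
  `W_D j` lies in the Gauss ring and `ord_q (red (W_D j)) = −D`.
-/

set_option autoImplicit false
set_option linter.style.haveILetI false
set_option linter.unusedSectionVars false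
set_option linter.unusedVariables false
set_option synthInstance.maxHeartbeats 400000
set_option maxHeartbeats 1000000

open HahnSeries IntermediateField AlgebraicCurve ModularCurve

noncomputable section

namespace Fermat.Agent.S40

open Fermat.Agent.S18 Fermat.Agent.S24 Fermat.Agent.S34 Fermat.Agent.Lib

local notation "Ω" => AlgebraicClosure ℚ

section W

variable (N : ℕ) [NeZero N]

open Classical in
/-- `w_q` as a total function of `q`. -/
def S40CJ_w (q : ℕ) : ↥(modularFunctionFieldBar N) ≃ₐ[Ω] ↥(modularFunctionFieldBar N) :=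
  if h : q.Prime ∧ q ∣ N ∧ ¬ q ∣ N / q then
    S34WQ_wq h.1 h.2.2 (Nat.mul_div_cancel' h.2.1)
  else AlgEquiv.refl

theorem S40CJ_w_eq {q : ℕ} (hq : q.Prime) (hqN : q ∣ N) (hqM : ¬ q ∣ N / q) :
    S40CJ_w N q = S34WQ_wq hq hqM (Nat.mul_div_cancel' hqN) :=
  dif_pos ⟨hq, hqN, hqM⟩

/-- the composition `w_{q₁} ∘ … ∘ w_{q_r}`. -/
def S40CJ_W : List ℕ → (↥(modularFunctionFieldBar N) ≃ₐ[Ω] ↥(modularFunctionFieldBar N))
  | [] => AlgEquiv.refl
  | q :: l => (S40CJ_W l).trans (S40CJ_w N q)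

theorem S40CJ_W_nil (f : ↥(modularFunctionFieldBar N)) : S40CJ_W N [] f = f := rfl

theorem S40CJ_W_cons (q : ℕ) (l : List ℕ) (f : ↥(modularFunctionFieldBar N)) :
    S40CJ_W N (q :: l) f = S40CJ_w N q (S40CJ_W N l f) := rfl

/-- `jBar` depends only on the number `d`. -/
theorem S40CJ_jBar_congr {d d' : ℕ} (e : d = d') (h0 : NeZero d) (h0' : NeZero d')
    (hd : d ∣ N) (hd' : d' ∣ N) :
    @jBar N _ d h0 hd = @jBar N _ d' h0' hd' := by
  subst e
  rfl

/-- `W_l (j) = j(q^D)`, `D = ∏ l`, for pairwise different primes exactly dividing `N`. -/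
theorem S40CJ_W_jBar (l : List ℕ) (hnd : l.Nodup) (hprime : ∀ q ∈ l, q.Prime)
    (hdiv : ∀ q ∈ l, q ∣ N) (hex : ∀ q ∈ l, ¬ q ∣ N / q) :
    ∃ (h0 : NeZero l.prod) (hd : l.prod ∣ N),
      S40CJ_W N l (jB N) = @jBar N _ l.prod h0 hd := by
  induction l with
  | nil =>
    refine ⟨⟨by simp⟩, by simp, ?_⟩
    rw [S40CJ_W_nil]
    exact S40CJ_jBar_congr N (by simp) _ _ _ _
  | cons q l ih =>
    have hnd' := List.nodup_cons.mp hnd
    obtain ⟨h0, hd, e⟩ := ih hnd'.2 (fun x hx => hprime x (List.mem_cons_of_mem q hx))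
      (fun x hx => hdiv x (List.mem_cons_of_mem q hx))
      (fun x hx => hex x (List.mem_cons_of_mem q hx))
    have hq : q.Prime := hprime q List.mem_cons_self
    have hqN : q ∣ N := hdiv q List.mem_cons_self
    have hqM : ¬ q ∣ N / q := hex q List.mem_cons_self
    have hN : q * (N / q) = N := Nat.mul_div_cancel' hqN
    -- `∏ l` is prime to `q`
    have hcop : Nat.Coprime l.prod q := by
      rw [Nat.coprime_list_prod_left_iff]
      intro x hx
      have hxp : x.Prime := hprime x (List.mem_cons_of_mem q hx)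
      refine (Nat.coprime_primes hxp hq).2 ?_
      rintro rfl
      exact hnd'.1 hx
    have hdM : l.prod ∣ N / q := by
      have h1 : l.prod ∣ q * (N / q) := by rw [hN]; exact hd
      exact hcop.dvd_of_dvd_mul_left h1
    have hprod : (q :: l).prod = q * l.prod := List.prod_cons
    have h0' : NeZero (q * l.prod) := ⟨mul_ne_zero hq.ne_zero h0.out⟩
    have hd' : q * l.prod ∣ N := by
      have := mul_dvd_mul_left q hdM
      rwa [hN] at this
    refine ⟨⟨by rw [hprod]; exact h0'.out⟩, by rw [hprod]; exact hd', ?_⟩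
    rw [S40CJ_W_cons, e, S40CJ_w_eq N hq hqN hqM]
    have key := @S34WQ_wq_jBar q (N / q) N _ hq hqM hN l.prod h0 h0' hdM
    refine Eq.trans ?_ (key.trans ?_)
    · rfl
    · exact S40CJ_jBar_congr N hprod.symm _ _ _ _

end W

section main

variable (M' p : ℕ) [NeZero (M' * p)]

/-- **(D-CUSP) (3a)**: `W_D (j) = j(q^D)` for `D ∣ M'`, `M'` squarefree, `p ∤ M'` prime. -/
theorem S40CJ_main (hp : p.Prime) (hpM : ¬ p ∣ M') (hsq : Squarefree M') (D : ℕ) [NeZero D]
    (hD : D ∣ M') :
    S40CJ_W (M' * p) D.primeFactorsList (jB (M' * p)) =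
      jBar (M' * p) D (Dvd.dvd.mul_right hD p) := by
  have hD0 : D ≠ 0 := NeZero.ne D
  have hM0 : M' ≠ 0 := fun h => NeZero.ne (M' * p) (by rw [h, zero_mul])
  have hDsq : Squarefree D := hsq.squarefree_of_dvd hD
  obtain ⟨h0, hd, e⟩ := S40CJ_W_jBar (M' * p) D.primeFactorsList
    ((Nat.squarefree_iff_nodup_primeFactorsList hD0).1 hDsq)
    (fun q hq => Nat.prime_of_mem_primeFactorsList hq)
    (fun q hq => (Nat.dvd_of_mem_primeFactorsList hq).trans (Dvd.dvd.mul_right hD p))
    (fun q hq hcon => by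
      have hqp : q.Prime := Nat.prime_of_mem_primeFactorsList hq
      have hqM : q ∣ M' := (Nat.dvd_of_mem_primeFactorsList hq).trans hD
      obtain ⟨m, hm⟩ := hqM
      have h1 : M' * p / q = m * p := by
        rw [hm, mul_assoc]
        exact Nat.mul_div_cancel_left _ hqp.pos
      rw [h1] at hcon
      rcases (Nat.Prime.dvd_mul hqp).1 hcon with h | h
      · -- `q² ∣ M'`
        have h2 : q * q ∣ M' := by
          rw [hm]
          exact mul_dvd_mul_left q h
        exact hqp.not_isUnit (hsq q h2)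
      · -- `q = p`
        have h3 : q = p := (Nat.prime_dvd_prime_iff_eq hqp hp).1 h
        exact hpM (h3 ▸ ⟨m, hm⟩))
  rw [e]
  exact S40CJ_jBar_congr (M' * p) (Nat.prod_primeFactorsList hD0) _ _ _ _

end main

section order

variable (N : ℕ) [NeZero N] (A : ValuationSubring Ω)

/-- **(D-CUSP) (3b)**: `red (j(q^D)) = j̄(q^D)` has `q`-order `−D`. -/
theorem S40CJ_order (D : ℕ) [NeZero D] (hD : D ∣ N) :
    ((S18_red A N ⟨jBar N D hD, S34VW_jBar_mem N A D hD⟩ :
      ↥(modularFunctionFieldFullC (IsLocalRing.ResidueField A) N)) :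
        LaurentSeries (IsLocalRing.ResidueField A)).order = -(D : ℤ) := by
  rw [S34VW_red_jBar, CU_order_qExpand, DG_A_order_jq]
  ring

end order

section final

variable (M' p : ℕ) [NeZero (M' * p)] (A : ValuationSubring Ω)

/-- **(D-CUSP) (3)**: `W_D j` lies in the Gauss ring and `ord_q (red (W_D j)) = −D`. -/
theorem S40CJ_red_order (hp : p.Prime) (hpM : ¬ p ∣ M') (hsq : Squarefree M') (D : ℕ) [NeZero D]
    (hD : D ∣ M') :
    ∃ h : S40CJ_W (M' * p) D.primeFactorsList (jB (M' * p)) ∈ S18_O A (M' * p),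
      ((S18_red A (M' * p) ⟨_, h⟩ :
        ↥(modularFunctionFieldFullC (IsLocalRing.ResidueField A) (M' * p))) :
          LaurentSeries (IsLocalRing.ResidueField A)).order = -(D : ℤ) := by
  have e := S40CJ_main M' p hp hpM hsq D hD
  have hmem : S40CJ_W (M' * p) D.primeFactorsList (jB (M' * p)) ∈ S18_O A (M' * p) := by
    rw [e]
    exact S34VW_jBar_mem (M' * p) A D _
  refine ⟨hmem, ?_⟩
  have h1 : (⟨S40CJ_W (M' * p) D.primeFactorsList (jB (M' * p)), hmem⟩ : S18_O A (M' * p)) =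
      ⟨jBar (M' * p) D (Dvd.dvd.mul_right hD p), S34VW_jBar_mem (M' * p) A D _⟩ :=
    Subtype.ext e
  rw [h1]
  exact S40CJ_order (M' * p) A D _

end final

end Fermat.Agent.S40
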