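import Mathlib
import Fermat.Agent.S34.AtkinLehnerPhi
import Fermat.Agent.GalRep.HeckeStab
import Fermat.Agent.S34.Defs

/-!
# TRACK 13 (S40 / S44), package P6 (helper24): `T_ℓ` COMMUTES WITH `w_p`.  Prefix `S40TW_`.

Level `N = M * p` (`p` prime, `p ∤ M`), `w = S34WQ_wq` the Atkin–Lehner involution `w_p` of
`F_N`, `ℓ ≠ p` a prime, `t = GRS_t hst` the multiplicative Hecke operator at `ℓ` on `F_N`
(`T_ℓ` for `ℓ ∤ N`, `U_ℓ` for `ℓ ∣ M`), `α, β : F_N → F_{Nℓ}` the Prelude maps.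

* `S40TW_wq'`        : `w_p` at level `N ℓ = p (M ℓ)`;
* `S40TW_wq_alpha`   : `w_p' (α f) = α (w_p f)`;
* `S40TW_wq_beta`    : `w_p' (β f) = β (w_p f)`;
* `S40TW_norm_wq`    : `N_B (w_p' x) = w_p' (N_B x)` for `B = β (F_N)`;
* **`S40TW_t_wq`**   : `t (w_p f) = w_p (t f)` — EXACTLY, no constant.

Proof: `β (t f) = N_B (α f)` (`GRHS_beta_t`), and `w_p'` is a field automorphism of `F_{Nℓ}`
mapping `B` to `B` (through `β ∘ w_p`), so the norm commutes with it.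
-/

set_option autoImplicit false
set_option synthInstance.maxHeartbeats 400000
set_option maxHeartbeats 1000000
set_option linter.unusedSectionVars false
set_option linter.unusedVariables false
set_option linter.style.haveILetI false

open ModularCurve

noncomputable section

namespace Fermat.Agent.S40

open Fermat.Agent.S24 Fermat.Agent.GalRep Fermat.Agent.S34

local notation "Ω" => AlgebraicClosure ℚ

/-- `jBar N d` depends on `d` only. -/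
theorem S40TW_jBar_congr {N d d' : ℕ} [NeZero N] [NeZero d] [NeZero d'] (h : d = d')
    (hd : d ∣ N) (hd' : d' ∣ N) : jBar N d hd = jBar N d' hd' := by
  subst h
  rfl

variable (M p ℓ : ℕ) [NeZero M] [NeZero p] [NeZero ℓ] (hp : p.Prime) (hpM : ¬ p ∣ M)
  (hℓ : ℓ.Prime) (hℓp : ℓ ≠ p)

include hp hpM hℓ hℓp in
theorem S40TW_not_dvd : ¬ p ∣ M * ℓ := by
  intro h
  rcases (Nat.Prime.dvd_mul hp).1 h with h | h
  · exact hpM h
  · exact hℓp ((Nat.prime_dvd_prime_iff_eq hp hℓ).1 h).symm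

/-- `w_p` at level `M * p * ℓ = p * (M * ℓ)`. -/
def S40TW_wq' : ↥(modularFunctionFieldBar (M * p * ℓ)) ≃ₐ[Ω]
    ↥(modularFunctionFieldBar (M * p * ℓ)) :=
  S34WQ_wq hp (S40TW_not_dvd M p ℓ hp hpM hℓ hℓp) (show p * (M * ℓ) = M * p * ℓ by ring)

theorem S40TW_wq'_wq' (x : ↥(modularFunctionFieldBar (M * p * ℓ))) :
    S40TW_wq' M p ℓ hp hpM hℓ hℓp (S40TW_wq' M p ℓ hp hpM hℓ hℓp x) = x :=
  S34WQ_wq_wq hp _ _ x

/-- `w_p'` on an OLD generator `j(q^d)`, `d ∣ M ℓ`. -/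
theorem S40TW_wq'_old (d : ℕ) [NeZero d] (hd : d ∣ M * ℓ) (hd1 : d ∣ M * p * ℓ)
    (hd2 : p * d ∣ M * p * ℓ) :
    haveI : NeZero (p * d) := ⟨Nat.mul_ne_zero hp.ne_zero (NeZero.ne d)⟩
    S40TW_wq' M p ℓ hp hpM hℓ hℓp (jBar (M * p * ℓ) d hd1) = jBar (M * p * ℓ) (p * d) hd2 := by
  haveI : NeZero (p * d) := ⟨Nat.mul_ne_zero hp.ne_zero (NeZero.ne d)⟩
  exact S34WQ_wq_jBar hp (S40TW_not_dvd M p ℓ hp hpM hℓ hℓp)
    (show p * (M * ℓ) = M * p * ℓ by ring) d hd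

/-- `w_p'` on a NEW generator `j(q^{p d})`, `d ∣ M ℓ`. -/
theorem S40TW_wq'_new (d : ℕ) [NeZero d] (hd : d ∣ M * ℓ) (hd1 : d ∣ M * p * ℓ)
    (hd2 : p * d ∣ M * p * ℓ) :
    haveI : NeZero (p * d) := ⟨Nat.mul_ne_zero hp.ne_zero (NeZero.ne d)⟩
    S40TW_wq' M p ℓ hp hpM hℓ hℓp (jBar (M * p * ℓ) (p * d) hd2) = jBar (M * p * ℓ) d hd1 := by
  haveI : NeZero (p * d) := ⟨Nat.mul_ne_zero hp.ne_zero (NeZero.ne d)⟩
  exact S34WQ_wq_jBar' hp (S40TW_not_dvd M p ℓ hp hpM hℓ hℓp)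
    (show p * (M * ℓ) = M * p * ℓ by ring) d hd

/-- a divisor of `M * p` is `d` or `p * d` with `d ∣ M`. -/
theorem S40TW_dvd_cases {d : ℕ} (hd : d ∣ M * p) (hp : p.Prime) :
    d ∣ M ∨ ∃ d', d = p * d' ∧ d' ∣ M := by
  by_cases hpd : p ∣ d
  · obtain ⟨d', rfl⟩ := hpd
    right
    refine ⟨d', rfl, ?_⟩
    rw [mul_comm M p] at hd
    exact (Nat.mul_dvd_mul_iff_left hp.pos).mp hd
  · left
    exact (Nat.Coprime.dvd_mul_right
      ((Nat.Prime.coprime_iff_not_dvd hp).mpr hpd).symm).mp hd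

/-- **`w_p' ∘ α = α ∘ w_p`**. -/
theorem S40TW_wq_alpha (f : ↥(modularFunctionFieldBar (M * p))) :
    S40TW_wq' M p ℓ hp hpM hℓ hℓp (heckeAlphaBar Ω (M * p) ℓ f) =
      heckeAlphaBar Ω (M * p) ℓ (S34WQ_wqMq M p hp hpM f) := by
  have key : ((S40TW_wq' M p ℓ hp hpM hℓ hℓp : ↥(modularFunctionFieldBar (M * p * ℓ)) →+*
        ↥(modularFunctionFieldBar (M * p * ℓ)))).comp
        (heckeAlphaBar Ω (M * p) ℓ : ↥(modularFunctionFieldBar (M * p)) →+*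
          ↥(modularFunctionFieldBar (M * p * ℓ))) =
      ((heckeAlphaBar Ω (M * p) ℓ : ↥(modularFunctionFieldBar (M * p)) →+*
          ↥(modularFunctionFieldBar (M * p * ℓ)))).comp
        (S34WQ_wqMq M p hp hpM : ↥(modularFunctionFieldBar (M * p)) →+*
          ↥(modularFunctionFieldBar (M * p))) := by
    apply ringHom_ext_gen (M * p)
    · intro a
      simp only [RingHom.comp_apply, RingHom.coe_coe, AlgHom.commutes, AlgEquiv.commutes]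
    · intro d _ hd
      simp only [RingHom.comp_apply, RingHom.coe_coe]
      rcases S40TW_dvd_cases M p hd hp with hdM | ⟨d', rfl, hd'⟩
      · haveI : NeZero (p * d) := ⟨Nat.mul_ne_zero hp.ne_zero (NeZero.ne d)⟩
        rw [S40TW_jBar_congr rfl hd (hdM.trans (dvd_mul_right M p)),
          S34WQ_wqMq_jBar_old M p hp hpM d hdM, GRHF_alpha_jBar, GRHF_alpha_jBar]
        exact S40TW_wq'_old M p ℓ hp hpM hℓ hℓp d (hdM.trans (dvd_mul_right M ℓ)) _ _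
      · haveI : NeZero d' := ⟨by
          rintro rfl
          exact NeZero.ne (p * 0) (by simp)⟩
        rw [S34WQ_wqMq_jBar_new M p hp hpM d' hd', GRHF_alpha_jBar, GRHF_alpha_jBar]
        exact S40TW_wq'_new M p ℓ hp hpM hℓ hℓp d' (hd'.trans (dvd_mul_right M ℓ)) _ _
  exact congrArg (fun φ : ↥(modularFunctionFieldBar (M * p)) →+*
    ↥(modularFunctionFieldBar (M * p * ℓ)) => φ f) key

/-- **`w_p' ∘ β = β ∘ w_p`**. -/
theorem S40TW_wq_beta (f : ↥(modularFunctionFieldBar (M * p))) :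
    S40TW_wq' M p ℓ hp hpM hℓ hℓp (heckeBetaBar Ω (M * p) ℓ f) =
      heckeBetaBar Ω (M * p) ℓ (S34WQ_wqMq M p hp hpM f) := by
  have key : ((S40TW_wq' M p ℓ hp hpM hℓ hℓp : ↥(modularFunctionFieldBar (M * p * ℓ)) →+*
        ↥(modularFunctionFieldBar (M * p * ℓ)))).comp
        (heckeBetaBar Ω (M * p) ℓ : ↥(modularFunctionFieldBar (M * p)) →+*
          ↥(modularFunctionFieldBar (M * p * ℓ))) =
      ((heckeBetaBar Ω (M * p) ℓ : ↥(modularFunctionFieldBar (M * p)) →+*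
          ↥(modularFunctionFieldBar (M * p * ℓ)))).comp
        (S34WQ_wqMq M p hp hpM : ↥(modularFunctionFieldBar (M * p)) →+*
          ↥(modularFunctionFieldBar (M * p))) := by
    apply ringHom_ext_gen (M * p)
    · intro a
      simp only [RingHom.comp_apply, RingHom.coe_coe, AlgHom.commutes, AlgEquiv.commutes]
    · intro d _ hd
      simp only [RingHom.comp_apply, RingHom.coe_coe]
      rcases S40TW_dvd_cases M p hd hp with hdM | ⟨d', rfl, hd'⟩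
      · haveI : NeZero (p * d) := ⟨Nat.mul_ne_zero hp.ne_zero (NeZero.ne d)⟩
        haveI : NeZero (ℓ * d) := ⟨Nat.mul_ne_zero hℓ.ne_zero (NeZero.ne d)⟩
        haveI : NeZero (p * (ℓ * d)) := ⟨Nat.mul_ne_zero hp.ne_zero (NeZero.ne (ℓ * d))⟩
        haveI : NeZero (ℓ * (p * d)) := ⟨Nat.mul_ne_zero hℓ.ne_zero (NeZero.ne (p * d))⟩
        have hℓd : ℓ * d ∣ M * ℓ := by
          rw [mul_comm M ℓ]
          exact mul_dvd_mul_left ℓ hdM
        have h1 : ℓ * d ∣ M * p * ℓ := hℓd.trans ⟨p, by ring⟩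
        have h2 : p * (ℓ * d) ∣ M * p * ℓ := by
          obtain ⟨e, he⟩ := hdM
          exact ⟨e, by rw [he]; ring⟩
        rw [S40TW_jBar_congr rfl hd (hdM.trans (dvd_mul_right M p)),
          S34WQ_wqMq_jBar_old M p hp hpM d hdM, GRHF_beta_jBar, GRHF_beta_jBar,
          S40TW_jBar_congr rfl _ h1, S40TW_wq'_old M p ℓ hp hpM hℓ hℓp (ℓ * d) hℓd h1 h2]
        exact S40TW_jBar_congr (by ring) _ _
      · haveI : NeZero d' := ⟨by
          rintro rfl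
          exact NeZero.ne (p * 0) (by simp)⟩
        haveI : NeZero (ℓ * d') := ⟨Nat.mul_ne_zero hℓ.ne_zero (NeZero.ne d')⟩
        haveI : NeZero (p * (ℓ * d')) := ⟨Nat.mul_ne_zero hp.ne_zero (NeZero.ne (ℓ * d'))⟩
        haveI : NeZero (ℓ * (p * d')) := ⟨Nat.mul_ne_zero hℓ.ne_zero (NeZero.ne (p * d'))⟩
        have hℓd : ℓ * d' ∣ M * ℓ := by
          rw [mul_comm M ℓ]
          exact mul_dvd_mul_left ℓ hd'
        have h1 : ℓ * d' ∣ M * p * ℓ := hℓd.trans ⟨p, by ring⟩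
        have h2 : p * (ℓ * d') ∣ M * p * ℓ := by
          obtain ⟨e, he⟩ := hd'
          exact ⟨e, by rw [he]; ring⟩
        rw [S34WQ_wqMq_jBar_new M p hp hpM d' hd', GRHF_beta_jBar, GRHF_beta_jBar,
          S40TW_jBar_congr (show ℓ * (p * d') = p * (ℓ * d') by ring) _ h2,
          S40TW_wq'_new M p ℓ hp hpM hℓ hℓp (ℓ * d') hℓd h1 h2]
  exact congrArg (fun φ : ↥(modularFunctionFieldBar (M * p)) →+*
    ↥(modularFunctionFieldBar (M * p * ℓ)) => φ f) key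

/-! ### the norm commutes with `w_p'` -/

/-- `w_p'` maps `B = β (F_N)` into itself. -/
theorem S40TW_wq'_mem_B (b : ↥(modularFunctionFieldBar (M * p * ℓ)))
    (hb : b ∈ GRHS_B (M * p) ℓ) : S40TW_wq' M p ℓ hp hpM hℓ hℓp b ∈ GRHS_B (M * p) ℓ := by
  obtain ⟨f, rfl⟩ := hb
  exact ⟨S34WQ_wqMq M p hp hpM f, (S40TW_wq_beta M p ℓ hp hpM hℓ hℓp f).symm⟩

/-- the restriction of `w_p'` to `B`. -/
def S40TW_resB : ↥(GRHS_B (M * p) ℓ) ≃+* ↥(GRHS_B (M * p) ℓ) where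
  toFun b := ⟨S40TW_wq' M p ℓ hp hpM hℓ hℓp b, S40TW_wq'_mem_B M p ℓ hp hpM hℓ hℓp b b.2⟩
  invFun b := ⟨S40TW_wq' M p ℓ hp hpM hℓ hℓp b, S40TW_wq'_mem_B M p ℓ hp hpM hℓ hℓp b b.2⟩
  left_inv b := Subtype.ext (S40TW_wq'_wq' M p ℓ hp hpM hℓ hℓp b)
  right_inv b := Subtype.ext (S40TW_wq'_wq' M p ℓ hp hpM hℓ hℓp b)
  map_mul' a b := Subtype.ext (map_mul (S40TW_wq' M p ℓ hp hpM hℓ hℓp) _ _)
  map_add' a b := Subtype.ext (map_add (S40TW_wq' M p ℓ hp hpM hℓ hℓp) _ _)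

theorem S40TW_coe_resB (b : ↥(GRHS_B (M * p) ℓ)) :
    ((S40TW_resB M p ℓ hp hpM hℓ hℓp b : ↥(GRHS_B (M * p) ℓ)) :
        ↥(modularFunctionFieldBar (M * p * ℓ))) =
      S40TW_wq' M p ℓ hp hpM hℓ hℓp b := rfl

/-- **the norm to `B` commutes with `w_p'`**. -/
theorem S40TW_norm_wq (x : ↥(modularFunctionFieldBar (M * p * ℓ))) :
    ((Algebra.norm ↥(GRHS_B (M * p) ℓ) (S40TW_wq' M p ℓ hp hpM hℓ hℓp x) :
        ↥(GRHS_B (M * p) ℓ)) : ↥(modularFunctionFieldBar (M * p * ℓ))) =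
      S40TW_wq' M p ℓ hp hpM hℓ hℓp
        ((Algebra.norm ↥(GRHS_B (M * p) ℓ) x : ↥(GRHS_B (M * p) ℓ)) :
          ↥(modularFunctionFieldBar (M * p * ℓ))) := by
  have he : RingHom.comp (algebraMap ↥(GRHS_B (M * p) ℓ) ↥(modularFunctionFieldBar (M * p * ℓ)))
      (S40TW_resB M p ℓ hp hpM hℓ hℓp : ↥(GRHS_B (M * p) ℓ) →+* ↥(GRHS_B (M * p) ℓ)) =
      RingHom.comp ((S40TW_wq' M p ℓ hp hpM hℓ hℓp).toRingEquiv :
          ↥(modularFunctionFieldBar (M * p * ℓ)) →+* ↥(modularFunctionFieldBar (M * p * ℓ)))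
        (algebraMap ↥(GRHS_B (M * p) ℓ) ↥(modularFunctionFieldBar (M * p * ℓ))) := by
    ext b
    rfl
  have h := Algebra.norm_eq_of_equiv_equiv (S40TW_resB M p ℓ hp hpM hℓ hℓp)
    ((S40TW_wq' M p ℓ hp hpM hℓ hℓp).toRingEquiv) he x
  have h2 : S40TW_resB M p ℓ hp hpM hℓ hℓp (Algebra.norm ↥(GRHS_B (M * p) ℓ) x) =
      Algebra.norm ↥(GRHS_B (M * p) ℓ) (S40TW_wq' M p ℓ hp hpM hℓ hℓp x) := by
    rw [h, RingEquiv.apply_symm_apply]
    rfl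
  rw [← h2, S40TW_coe_resB]

/-! ### the main theorem -/

variable (ζ : (AlgebraicClosure ℚ)ˣ) (hζ : IsPrimitiveRoot (ζ : AlgebraicClosure ℚ) ℓ)

include hζ hℓ hℓp in
/-- **`T_ℓ` commutes with `w_p`** (`ℓ ≠ p`): `t (w_p f) = w_p (t f)` for the multiplicative Hecke
operator `t = GRS_t hst` at `ℓ` on `F_{M p}`. -/
theorem S40TW_t_wq (hst : GRS_Stab (M * p) ℓ ζ) (f : ↥(modularFunctionFieldBar (M * p))) :
    GRS_t hst (S34WQ_wqMq M p hp hpM f) = S34WQ_wqMq M p hp hpM (GRS_t hst f) := by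
  apply (heckeBetaBar Ω (M * p) ℓ).toRingHom.injective
  show heckeBetaBar Ω (M * p) ℓ (GRS_t hst (S34WQ_wqMq M p hp hpM f)) =
    heckeBetaBar Ω (M * p) ℓ (S34WQ_wqMq M p hp hpM (GRS_t hst f))
  rw [GRHS_beta_t ζ hζ hℓ hst, ← S40TW_wq_alpha M p ℓ hp hpM hℓ hℓp f,
    S40TW_norm_wq M p ℓ hp hpM hℓ hℓp, ← GRHS_beta_t ζ hζ hℓ hst,
    S40TW_wq_beta M p ℓ hp hpM hℓ hℓp]

include hζ hℓ hℓp in
/-- the same for `S34DF_wq` (the form used by T7 / T10 / GEO-6). -/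
theorem S40TW_t_wq_DF (hst : GRS_Stab (M * p) ℓ ζ) (f : ↥(modularFunctionFieldBar (M * p))) :
    GRS_t hst (S34DF_wq M p hp hpM f) = S34DF_wq M p hp hpM (GRS_t hst f) :=
  S40TW_t_wq M p ℓ hp hpM hℓ hℓp ζ hζ hst f

end Fermat.Agent.S40
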