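import Mathlib
import Fermat.Agent.S40.TWq
import Fermat.Agent.S40.Geo5Wire

/-!
# TRACK 13 (row 38), (D-CUSP) item (b) (helper2): `T_ℓ` commutes with EVERY Atkin–Lehner
involution `w_d`, `d ∥ N`, on functions and on torsion classes.  Prefix `S40JSD_`.

Level `N`, `d` a prime with `d * M = N`, `d ∤ M` (e.g. `N = M' * p`, `d ∣ M'`, `d ≠ p`),
`w_d = S34WQ_wq hd hdM hN`.

* `S40JSD_t_wq`   : `t (w_d f) = w_d (t f)` for the multiplicative Hecke operator at `ℓ ≠ d`;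
* `S40JSD_w`      : `w_d` as a semilinear automorphism of `F_N` (trivial on `ℚ̄`);
* `S40JSD_isGen`  : `w_d u` is a Kummer generator of `w_d • x`;
* `S40JSD_hecke`  : `T_ℓ (w_d • x) = w_d • T_ℓ x` for `n • x = 0`, `ℓ ∤ N n`;
* `S40JSD_eigen`  : `w_d • x` is an eigen-class with the eigenvalues of `x`.
-/

set_option autoImplicit false
set_option linter.style.haveILetI false
set_option linter.unusedSectionVars false
set_option linter.unusedVariables false
set_option synthInstance.maxHeartbeats 400000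
set_option maxHeartbeats 1000000

open AlgebraicCurve ModularCurve IntermediateField

noncomputable section

namespace Fermat.Agent.S40

open Fermat.Agent.S17 Fermat.Agent.S18 Fermat.Agent.S19 Fermat.Agent.S24 Fermat.Agent.S34
  Fermat.Agent.S35 Fermat.Agent.S36 Fermat.Agent.S37 Fermat.Agent.GalRep Fermat.Agent.S33

local notation "ℚbar" => AlgebraicClosure ℚ

/-- **`T_ℓ` commutes with `w_d`** on functions, for every prime `d ∥ N`, `ℓ ≠ d`. -/
theorem S40JSD_t_wq {d M N : ℕ} [NeZero N] (hd : d.Prime) (hdM : ¬ d ∣ M) (hN : d * M = N)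
    (ℓ : ℕ) [NeZero ℓ] (hℓ : ℓ.Prime) (hℓd : ℓ ≠ d) (ζ : ℚbarˣ)
    (hζ : IsPrimitiveRoot (ζ : ℚbar) ℓ) (hst : GRS_Stab N ℓ ζ)
    (f : ↥(modularFunctionFieldBar N)) :
    GRS_t hst (S34WQ_wq hd hdM hN f) = S34WQ_wq hd hdM hN (GRS_t hst f) := by
  obtain rfl : N = M * d := by rw [← hN, mul_comm]
  haveI : NeZero M := ⟨fun h => NeZero.ne (M * d) (by rw [h, zero_mul])⟩
  haveI : NeZero d := ⟨hd.ne_zero⟩
  exact S40TW_t_wq M d ℓ hd hdM hℓ hℓd ζ hζ hst f

section sym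

variable {d M N : ℕ} [NeZero N] (hd : d.Prime) (hdM : ¬ d ∣ M) (hN : d * M = N)

/-- `w_d` as a semilinear automorphism (trivial on the constants). -/
def S40JSD_w : SemilinearAut ℚbar ↥(modularFunctionFieldBar N) :=
  SemilinearAut.ofAlgAut (S34WQ_wq hd hdM hN)

theorem S40JSD_w_smul (u : ↥(modularFunctionFieldBar N)) :
    S40JSD_w hd hdM hN • u = S34WQ_wq hd hdM hN u := rfl

/-- `w_d u` is a Kummer generator of `w_d • x`. -/
theorem S40JSD_isGen {n : ℕ} {x : JZero N} {u : ↥(modularFunctionFieldBar N)}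
    (h : S33DG_IsGen n x u) :
    S33DG_IsGen n (S40JSD_w hd hdM hN • x) (S34WQ_wq hd hdM hN u) :=
  S33DG_isGen_smul h (S40JSD_w hd hdM hN)

/-- `T_ℓ` commutes with `w_d` on the `n`-torsion classes (`ℓ ∤ N n`). -/
theorem S40JSD_hecke (q : Nat.Primes) (hqN : ¬ (q : ℕ) ∣ N) {n : ℕ} (hn : 0 < n)
    (hqn : ¬ (q : ℕ) ∣ n) (x : JZero N) (hx : n • x = 0) :
    heckeOperatorBar N q (S40JSD_w hd hdM hN • x) =
      S40JSD_w hd hdM hN • heckeOperatorBar N q x := by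
  haveI : NeZero (q : ℕ) := ⟨q.2.ne_zero⟩
  have hqd : (q : ℕ) ≠ d := fun h => hqN (by rw [← hN, h]; exact Dvd.intro M rfl)
  obtain ⟨u, hu⟩ := S33DG_isGen_exists n x hx
  obtain ⟨ζ, hζ⟩ := GRS_exists_zeta (q : ℕ)
  have hst : GRS_Stab N (q : ℕ) ζ := GRHS_stab ζ hζ q.2
  have h1 : S33DG_IsGen n (heckeOperatorBar N q x) (GRS_t hst u) :=
    S40G5W_hecke_gen q hqN hn hqn hζ hst hu
  have h2 : S33DG_IsGen n (heckeOperatorBar N q (S40JSD_w hd hdM hN • x))
      (GRS_t hst (S34WQ_wq hd hdM hN u)) :=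
    S40G5W_hecke_gen q hqN hn hqn hζ hst (S40JSD_isGen hd hdM hN hu)
  rw [S40JSD_t_wq hd hdM hN (q : ℕ) q.2 hqd ζ hζ hst u] at h2
  exact S33DG_isGen_unique hn h2 (S40JSD_isGen hd hdM hN h1)

/-- `w_d • x` is an eigen-class with the eigenvalues of `x`. -/
theorem S40JSD_eigen (q : Nat.Primes) (hqN : ¬ (q : ℕ) ∣ N) {n : ℕ} (hn : 0 < n)
    (hqn : ¬ (q : ℕ) ∣ n) (x : JZero N) (hx : n • x = 0) (a : ℤ)
    (hxa : heckeOperatorBar N q x = a • x) :
    heckeOperatorBar N q (S40JSD_w hd hdM hN • x) = a • (S40JSD_w hd hdM hN • x) := by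
  rw [S40JSD_hecke hd hdM hN q hqN hn hqn x hx, hxa]
  exact map_zsmul (DistribSMul.toAddMonoidHom (JZero N) (S40JSD_w hd hdM hN)) a x

/-- `w_d • x` is killed by `n` if `x` is. -/
theorem S40JSD_tors {n : ℕ} (x : JZero N) (hx : n • x = 0) :
    n • (S40JSD_w hd hdM hN • x) = 0 := by
  obtain ⟨u, hu⟩ := S33DG_isGen_exists n x hx
  exact S33DG_isGen_tors (S40JSD_isGen hd hdM hN hu)

end sym

end Fermat.Agent.S40
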