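import Mathlib
import Fermat.Agent.S40.JSymD
import Fermat.Agent.S40.CuspJ
import Fermat.Agent.S40.Defs

/-!
# TRACK 13 (row 38), (D-CUSP) item (2) (helper2): `W_D u` generates a class of `V₀`.
Prefix `S40CV_`.

`S40CJ_w N q` (helper17, `S40/CuspJ.lean`) is `w_q` as a total function, `S40CJ_W N l` the
composition over a list.

* `S40CV_step` : `x ∈ V₀`, `u` a Kummer generator of `x` ⇒ `w_q u` is a Kummer generator of a
  class of `V₀` (any `q`);
* `S40CV_main` : the same for `W_l = S40CJ_W N l` (any list `l`).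
-/

set_option autoImplicit false
set_option linter.style.haveILetI false
set_option linter.unusedSectionVars false
set_option linter.unusedVariables false
set_option synthInstance.maxHeartbeats 400000
set_option maxHeartbeats 1000000

open AlgebraicCurve ModularCurve IntermediateField

noncomputable section

namespace Fermat.Agent.S40

open Fermat.Agent.S17 Fermat.Agent.S18 Fermat.Agent.S19 Fermat.Agent.S24 Fermat.Agent.S34
  Fermat.Agent.S35 Fermat.Agent.S36 Fermat.Agent.S37 Fermat.Agent.GalRep Fermat.Agent.S33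

local notation "ℚbar" => AlgebraicClosure ℚ

variable (W : WeierstrassCurve ℤ) {p : ℕ} (hp : p.Prime) (N : ℕ) [NeZero N]

include hp in
/-- one Atkin–Lehner step keeps the `W`-eigen-classes. -/
theorem S40CV_step (q : ℕ) (x : JZero N) (hx : x ∈ S40D_V0 W p N)
    (u : ↥(modularFunctionFieldBar N)) (hu : S33DG_IsGen p x u) :
    ∃ x' : JZero N, x' ∈ S40D_V0 W p N ∧ S33DG_IsGen p x' (S40CJ_w N q u) := by
  by_cases h : q.Prime ∧ q ∣ N ∧ ¬ q ∣ N / q
  · have hN : q * (N / q) = N := Nat.mul_div_cancel' h.2.1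
    rw [S40CJ_w_eq N h.1 h.2.1 h.2.2]
    refine ⟨S40JSD_w h.1 h.2.2 hN • x, ⟨?_, ?_⟩, S40JSD_isGen h.1 h.2.2 hN hu⟩
    · exact S40JSD_tors h.1 h.2.2 hN x hx.1
    · intro ℓ hgood hℓN hℓp
      have hℓp' : ¬ (ℓ : ℕ) ∣ p := fun hd => hℓp ((Nat.prime_dvd_prime_iff_eq ℓ.2 hp).mp hd)
      exact S40JSD_eigen h.1 h.2.2 hN ℓ hℓN hp.pos hℓp' x hx.1 _ (hx.2 ℓ hgood hℓN hℓp)
  · refine ⟨x, hx, ?_⟩
    have e : S40CJ_w N q = AlgEquiv.refl := dif_neg h
    rw [e]
    exact hu

include hp in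
/-- **(D-CUSP) (2)**: `W_l u` is a Kummer generator of a class of `V₀`. -/
theorem S40CV_main (l : List ℕ) (x : JZero N) (hx : x ∈ S40D_V0 W p N)
    (u : ↥(modularFunctionFieldBar N)) (hu : S33DG_IsGen p x u) :
    ∃ x' : JZero N, x' ∈ S40D_V0 W p N ∧ S33DG_IsGen p x' (S40CJ_W N l u) := by
  induction l with
  | nil => exact ⟨x, hx, hu⟩
  | cons q l ih =>
    obtain ⟨x₁, hx₁, hu₁⟩ := ih
    rw [S40CJ_W_cons]
    exact S40CV_step W hp N q x₁ hx₁ _ hu₁

end Fermat.Agent.S40
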