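import Mathlib
import Fermat.Prelude.Def_ModularCurve_X0

/-!
# TRACK 13 (S40), (D-CUSP) arithmetic (helper3).  Prefix `S40PS_`.

For squarefree `M`: `∑_{d ∣ M} d = ψ(M)` (`ModularCurve.dedekindPsi`), the count of the widths of
the cusps `w_d(∞)`, `d ∣ M`, against `deg (j)_∞ = ψ(M)`.

* `S40PS_sum_divisors` : `∑ d ∈ M.divisors, d = dedekindPsi M`;
* `S40PS_sum_divisors_int` : the same in `ℤ`;
* `S40PS_le_sum` : `ψ(M) ≤ ∑_{d ∈ s} d` for a finset `s ⊇ M.divisors`.
-/

set_option autoImplicit false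

namespace Fermat.Agent.S40

open ModularCurve

/-- for squarefree `M`, `ψ(M) = ∑_{d ∣ M} d`. -/
theorem S40PS_sum_divisors {M : ℕ} (hM : Squarefree M) :
    ∑ d ∈ M.divisors, d = dedekindPsi M := by
  unfold dedekindPsi
  rw [Finset.filter_true_of_mem
    (fun d hd => hM.squarefree_of_dvd (Nat.dvd_of_mem_divisors hd))]
  exact (Nat.sum_div_divisors M (fun d => d)).symm

/-- the same in `ℤ`. -/
theorem S40PS_sum_divisors_int {M : ℕ} (hM : Squarefree M) :
    ∑ d ∈ M.divisors, (d : ℤ) = (dedekindPsi M : ℤ) := by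
  rw [← S40PS_sum_divisors hM]
  push_cast
  rfl

/-- `ψ(M) ≤ ∑_{d ∈ s} d` for a finset `s` containing the divisors of the squarefree `M`. -/
theorem S40PS_le_sum {M : ℕ} (hM : Squarefree M) (s : Finset ℕ) (hs : M.divisors ⊆ s) :
    dedekindPsi M ≤ ∑ d ∈ s, d := by
  rw [← S40PS_sum_divisors hM]
  exact Finset.sum_le_sum_of_subset hs

end Fermat.Agent.S40
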