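import Mathlib
import Fermat.Prelude.Def_AlgebraicCurve_DivisorClassGroup
import Fermat.Prelude.Def_ModularCurve_X0ModL
import Fermat.Agent.S24.PlaceOfVal
import Fermat.Agent.Lib.CuspEmb
import Fermat.Agent.S18.DegCaseA
import Fermat.Agent.S18.SepRel

/-!
# TRACK 13 (row 38), (D-CUSP): automorphisms on the residue field, the cusp `∞` in
characteristic `p` (helper6).  Prefix `S40RA_`.

* `S40RA_bar`  : an automorphism `w` of `F` with `w(O) ⊂ O`, `w⁻¹(O) ⊂ O` (`O` a valuation ring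
  of `F` with residue map `red : O → Fk`, onto, `red x ≠ 0 ↔ x` unit) induces a ring
  automorphism `w̄` of `Fk` with `w̄ (red f) = red (w f)`  (`S40RA_bar_red`);
* `S40RA_barAlg` : `w̄` as a `k`-algebra automorphism (constants: `hconst`);
* `S40RA_vinf k N` : the cusp `∞` of `Fk = modularFunctionFieldFullC k N ⊂ k((q))`, the place of
  the `q`-adic order; `S40RA_ord_vinf` : `ord_{v_∞} f = ord_q f`;
* `S40RA_ord_transport` : `(σ⁻¹ • v).ord f = v.ord (σ f)`.
-/

set_option autoImplicit false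
set_option linter.style.haveILetI false
set_option linter.unusedSectionVars false
set_option linter.unusedVariables false

open AlgebraicCurve ModularCurve HahnSeries

noncomputable section

namespace Fermat.Agent.S40

open Fermat.Agent.S18 Fermat.Agent.S24 Fermat.Agent.Lib

section abs

variable {F Fk : Type*} [Field F] [Field Fk]
  (O : ValuationSubring F) (red : O →+* Fk)

/-- `w` restricted to `O`. -/
def S40RA_res (w : F ≃+* F) (hw : ∀ f ∈ O, w f ∈ O) : O →+* O where
  toFun x := ⟨w x, hw x x.2⟩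
  map_one' := Subtype.ext (map_one w)
  map_mul' x y := Subtype.ext (map_mul w (x : F) (y : F))
  map_zero' := Subtype.ext (map_zero w)
  map_add' x y := Subtype.ext (map_add w (x : F) (y : F))

@[simp]
theorem S40RA_res_coe (w : F ≃+* F) (hw : ∀ f ∈ O, w f ∈ O) (x : O) :
    ((S40RA_res O w hw x : O) : F) = w x := rfl

variable {O red}

theorem S40RA_ker (hunit : ∀ x : O, red x ≠ 0 ↔ IsUnit x)
    (w : F ≃+* F) (hw : ∀ f ∈ O, w f ∈ O) (hw' : ∀ f ∈ O, w.symm f ∈ O)
    (x : O) (hx : red x = 0) : red (S40RA_res O w hw x) = 0 := by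
  by_contra h
  have hu : IsUnit (S40RA_res O w hw x) := (hunit _).1 h
  have hu2 : IsUnit (S40RA_res O w.symm hw' (S40RA_res O w hw x)) := hu.map _
  have e : S40RA_res O w.symm hw' (S40RA_res O w hw x) = x := Subtype.ext (by simp)
  rw [e] at hu2
  exact ((hunit x).2 hu2) hx

/-- the induced endomorphism of the residue field. -/
def S40RA_barHom (hsurj : Function.Surjective red) (hunit : ∀ x : O, red x ≠ 0 ↔ IsUnit x)
    (w : F ≃+* F) (hw : ∀ f ∈ O, w f ∈ O) (hw' : ∀ f ∈ O, w.symm f ∈ O) : Fk →+* Fk :=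
  red.liftOfRightInverse (Function.surjInv hsurj) (Function.rightInverse_surjInv hsurj)
    ⟨red.comp (S40RA_res O w hw), fun x hx => by
      rw [RingHom.mem_ker] at hx ⊢
      exact S40RA_ker hunit w hw hw' x hx⟩

theorem S40RA_barHom_red (hsurj : Function.Surjective red)
    (hunit : ∀ x : O, red x ≠ 0 ↔ IsUnit x)
    (w : F ≃+* F) (hw : ∀ f ∈ O, w f ∈ O) (hw' : ∀ f ∈ O, w.symm f ∈ O) (x : O) :
    S40RA_barHom hsurj hunit w hw hw' (red x) = red (S40RA_res O w hw x) :=
  RingHom.liftOfRightInverse_comp_apply _ _ _ _ x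

/-- the induced automorphism of the residue field. -/
def S40RA_bar (hsurj : Function.Surjective red) (hunit : ∀ x : O, red x ≠ 0 ↔ IsUnit x)
    (w : F ≃+* F) (hw : ∀ f ∈ O, w f ∈ O) (hw' : ∀ f ∈ O, w.symm f ∈ O) : Fk ≃+* Fk :=
  RingEquiv.ofRingHom (S40RA_barHom hsurj hunit w hw hw')
    (S40RA_barHom hsurj hunit w.symm hw' (by simpa using hw))
    (by
      ext y
      obtain ⟨x, rfl⟩ := hsurj y
      rw [RingHom.comp_apply, S40RA_barHom_red, S40RA_barHom_red, RingHom.id_apply]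
      exact congrArg red (Subtype.ext (by simp)))
    (by
      ext y
      obtain ⟨x, rfl⟩ := hsurj y
      rw [RingHom.comp_apply, S40RA_barHom_red, S40RA_barHom_red, RingHom.id_apply]
      exact congrArg red (Subtype.ext (by simp)))

theorem S40RA_bar_red (hsurj : Function.Surjective red)
    (hunit : ∀ x : O, red x ≠ 0 ↔ IsUnit x)
    (w : F ≃+* F) (hw : ∀ f ∈ O, w f ∈ O) (hw' : ∀ f ∈ O, w.symm f ∈ O)
    (f : F) (hf : f ∈ O) :
    S40RA_bar hsurj hunit w hw hw' (red ⟨f, hf⟩) = red ⟨w f, hw f hf⟩ :=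
  S40RA_barHom_red hsurj hunit w hw hw' ⟨f, hf⟩

/-- the induced automorphism as a `k`-algebra automorphism. -/
def S40RA_barAlg {k : Type*} [Field k] [Algebra k Fk] (hsurj : Function.Surjective red)
    (hunit : ∀ x : O, red x ≠ 0 ↔ IsUnit x)
    (w : F ≃+* F) (hw : ∀ f ∈ O, w f ∈ O) (hw' : ∀ f ∈ O, w.symm f ∈ O)
    (hconst : ∀ c : k, ∃ (f : F) (hf : f ∈ O), red ⟨f, hf⟩ = algebraMap k Fk c ∧ w f = f) :
    Fk ≃ₐ[k] Fk :=
  AlgEquiv.ofRingEquiv (f := S40RA_bar hsurj hunit w hw hw') (fun c => by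
    obtain ⟨f, hf, e, hwf⟩ := hconst c
    rw [← e, S40RA_bar_red]
    exact congrArg red (Subtype.ext hwf))

theorem S40RA_barAlg_red {k : Type*} [Field k] [Algebra k Fk] (hsurj : Function.Surjective red)
    (hunit : ∀ x : O, red x ≠ 0 ↔ IsUnit x)
    (w : F ≃+* F) (hw : ∀ f ∈ O, w f ∈ O) (hw' : ∀ f ∈ O, w.symm f ∈ O)
    (hconst : ∀ c : k, ∃ (f : F) (hf : f ∈ O), red ⟨f, hf⟩ = algebraMap k Fk c ∧ w f = f)
    (f : F) (hf : f ∈ O) :
    S40RA_barAlg hsurj hunit w hw hw' hconst (red ⟨f, hf⟩) = red ⟨w f, hw f hf⟩ :=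
  S40RA_bar_red hsurj hunit w hw hw' f hf

end abs

section transport

variable {K F : Type*} [Field K] [Field F] [Algebra K F]

/-- `(σ⁻¹ • v).ord f = v.ord (σ f)`. -/
theorem S40RA_ord_transport (σ : F ≃ₐ[K] F) (v : Place K F) (f : F) :
    (σ⁻¹ • v).ord f = v.ord (σ f) := by
  have h := Place.ord_smul (σ := σ⁻¹) v (σ f)
  have e : σ⁻¹ (σ f) = f := by
    rw [AlgEquiv.aut_inv]
    exact σ.symm_apply_apply f
  rwa [e] at h

end transport

section vinf

variable (k : Type*) [Field k] (N : ℕ) [NeZero N]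

/-- the `q`-adic order on `Fk`. -/
def S40RA_w (f : ↥(modularFunctionFieldFullC k N)) : ℤ :=
  CU_w (modularFunctionFieldFullC k N).val f

theorem S40RA_w_def (f : ↥(modularFunctionFieldFullC k N)) :
    S40RA_w k N f = (f : LaurentSeries k).order := rfl

theorem S40RA_w_isVal : IsVal (K := k) (S40RA_w k N) :=
  CU_w_isVal (modularFunctionFieldFullC k N).val

theorem S40RA_order_jbar : S40RA_w k N (S18_jbar N k) = -1 := by
  rw [S40RA_w_def, S18_jbar_coe]
  exact DG_A_order_jq k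

theorem S40RA_jbar_ne_zero : S18_jbar N k ≠ 0 := by
  intro h
  have h1 := S40RA_order_jbar k N
  rw [h, S40RA_w_def] at h1
  simp at h1

/-- the cusp `∞` of `Fk`: the place of the `q`-adic order. -/
def S40RA_vinf : Place k ↥(modularFunctionFieldFullC k N) :=
  (S40RA_w_isVal k N).place (S18_jbar N k)⁻¹ (inv_ne_zero (S40RA_jbar_ne_zero k N))
    (by rw [(S40RA_w_isVal k N).inv (S40RA_jbar_ne_zero k N), S40RA_order_jbar]; norm_num)

/-- `ord_{v_∞}` is the order of the `q`-expansion. -/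
theorem S40RA_ord_vinf {f : ↥(modularFunctionFieldFullC k N)} (hf : f ≠ 0) :
    (S40RA_vinf k N).ord f = (f : LaurentSeries k).order := by
  obtain ⟨m, hm, _, hmf⟩ := (S40RA_w_isVal k N).exists_mul_ord (S18_jbar N k)⁻¹
    (inv_ne_zero (S40RA_jbar_ne_zero k N))
    (by rw [(S40RA_w_isVal k N).inv (S40RA_jbar_ne_zero k N), S40RA_order_jbar]; norm_num)
  have h1 := hmf (S18_jbar N k)⁻¹ (inv_ne_zero (S40RA_jbar_ne_zero k N))
  have h1' : S40RA_w k N (S18_jbar N k)⁻¹ = 1 := by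
    rw [(S40RA_w_isVal k N).inv (S40RA_jbar_ne_zero k N), S40RA_order_jbar, neg_neg]
  have hm1 : m = 1 := by
    have hdvd : m ∣ 1 := ⟨_, h1'.symm.trans h1⟩
    exact Int.eq_one_of_dvd_one hm.le hdvd
  have h2 := hmf f hf
  rw [hm1, one_mul] at h2
  rw [← S40RA_w_def, h2]
  rfl

end vinf

end Fermat.Agent.S40
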