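import Mathlib
import Fermat.Agent.S40.CuspInf
import Fermat.Agent.S40.CuspAbs
import Fermat.Agent.S40.RedAut
import Fermat.Agent.S40.CuspJ
import Fermat.Agent.S40.CuspV0
import Fermat.Agent.S40.PsiSq
import Fermat.Agent.S34.ValDeg
import Fermat.Agent.S34.ValFk
import Fermat.Agent.S34.HexX0
import Fermat.Agent.S34.Asm3

/-!
# TRACK 13 (row 38), (D-CUSP) at ALL the cusps of `C₁` (helper6).  Prefix `S40CA2_`.

Level `N = M' p`, `M'` squarefree, `p ∤ M'`, `A` a place of `ℚ̄` over `p`, `T₁ = S34M_T1` the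
Gauss valuation of `F = ℚ̄(X₀(N))`, `Fk ⊂ k((q))` its residue field, `j̄ = S34M_xb`.

The ONLY hypothesis which is not on main is (a):

    hWO : ∀ d, d.Prime → d ∣ M' → ∀ f ∈ S18_O A N, S40CJ_w N d f ∈ S18_O A N

(the Atkin–Lehner involutions `w_d`, `d ∣ M'`, keep the Gauss ring).

* `S40CA2_w_symm`  : `w_q⁻¹ = w_q`;
* `S40CA2_W_mem`, `S40CA2_W_symm_mem` : `W_l` and `W_l⁻¹` keep the Gauss ring (`l` a list of
  primes dividing `M'`);
* `S40CA2_place`   : the place `v_l = W̄_l⁻¹ • ∞` of `Fk`: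
  `ord_{v_l} (red f) = ord_q (red (W_l f))` for the units `f` of the Gauss ring;
* **`S40CA2_main`** : for a `W`-eigen-class `x ∈ V₀` with a unit Kummer generator `u`:
  `p ∣ ord_v (red u)` at EVERY pole `v` of `j̄`.
-/

set_option autoImplicit false
set_option linter.style.haveILetI false
set_option linter.unusedSectionVars false
set_option linter.unusedVariables false
set_option synthInstance.maxHeartbeats 400000
set_option maxHeartbeats 1000000

open HahnSeries IntermediateField AlgebraicCurve ModularCurve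

noncomputable section

namespace Fermat.Agent.S40

open Fermat.Agent.S17 Fermat.Agent.S18 Fermat.Agent.S24 Fermat.Agent.S34 Fermat.Agent.Lib
  Fermat.Agent.S33 Fermat.Agent.GalRep

local notation "Ω" => AlgebraicClosure ℚ

section W

variable (N : ℕ) [NeZero N]

/-- `w_q⁻¹ = w_q` (total function). -/
theorem S40CA2_w_symm (q : ℕ) (f : ↥(modularFunctionFieldBar N)) :
    (S40CJ_w N q).symm f = S40CJ_w N q f := by
  by_cases h : q.Prime ∧ q ∣ N ∧ ¬ q ∣ N / q
  · rw [S40CJ_w_eq N h.1 h.2.1 h.2.2]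
    rfl
  · have e : S40CJ_w N q = AlgEquiv.refl := dif_neg h
    rw [e]
    rfl

theorem S40CA2_W_symm_cons (q : ℕ) (l : List ℕ) (f : ↥(modularFunctionFieldBar N)) :
    (S40CJ_W N (q :: l)).symm f = (S40CJ_W N l).symm (S40CJ_w N q f) := by
  rw [← S40CA2_w_symm]
  rfl

end W

section mem

variable (M' p : ℕ) [NeZero (M' * p)] (A : ValuationSubring Ω)

/-- `W_l` keeps the Gauss ring. -/
theorem S40CA2_W_mem
    (hWO : ∀ d : ℕ, d.Prime → d ∣ M' → ∀ f ∈ S18_O A (M' * p),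
      S40CJ_w (M' * p) d f ∈ S18_O A (M' * p))
    (l : List ℕ) (hl : ∀ q ∈ l, q.Prime ∧ q ∣ M') (f : ↥(modularFunctionFieldBar (M' * p)))
    (hf : f ∈ S18_O A (M' * p)) : S40CJ_W (M' * p) l f ∈ S18_O A (M' * p) := by
  induction l with
  | nil => exact hf
  | cons q l ih =>
    rw [S40CJ_W_cons]
    exact hWO q (hl q List.mem_cons_self).1 (hl q List.mem_cons_self).2 _
      (ih (fun x hx => hl x (List.mem_cons_of_mem q hx)))

/-- `W_l⁻¹` keeps the Gauss ring. -/
theorem S40CA2_W_symm_mem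
    (hWO : ∀ d : ℕ, d.Prime → d ∣ M' → ∀ f ∈ S18_O A (M' * p),
      S40CJ_w (M' * p) d f ∈ S18_O A (M' * p))
    (l : List ℕ) (hl : ∀ q ∈ l, q.Prime ∧ q ∣ M') (f : ↥(modularFunctionFieldBar (M' * p)))
    (hf : f ∈ S18_O A (M' * p)) : (S40CJ_W (M' * p) l).symm f ∈ S18_O A (M' * p) := by
  induction l generalizing f with
  | nil => exact hf
  | cons q l ih =>
    rw [S40CA2_W_symm_cons]
    exact ih (fun x hx => hl x (List.mem_cons_of_mem q hx)) _
      (hWO q (hl q List.mem_cons_self).1 (hl q List.mem_cons_self).2 f hf)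

end mem

section place

variable (M' p : ℕ) [NeZero (M' * p)] (A : ValuationSubring Ω)
  (hgen : PrincipalGeneratedByIntegral A (IsLocalRing.residue A) (M' * p))

include hgen in
/-- the place `v_l = W̄_l⁻¹ • ∞` of the fibre: `ord_{v_l} (red f) = ord_q (red (W_l f))`. -/
theorem S40CA2_place
    (hWO : ∀ d : ℕ, d.Prime → d ∣ M' → ∀ f ∈ S18_O A (M' * p),
      S40CJ_w (M' * p) d f ∈ S18_O A (M' * p))
    (l : List ℕ) (hl : ∀ q ∈ l, q.Prime ∧ q ∣ M') :
    ∃ v : Place (IsLocalRing.ResidueField A)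
        ↥(modularFunctionFieldFullC (IsLocalRing.ResidueField A) (M' * p)),
      ∀ (f : ↥(modularFunctionFieldBar (M' * p))) (hf : f ∈ S18_O A (M' * p)),
        S18_red A (M' * p) ⟨f, hf⟩ ≠ 0 →
        ∃ hf' : S40CJ_W (M' * p) l f ∈ S18_O A (M' * p),
          S18_red A (M' * p) ⟨_, hf'⟩ ≠ 0 ∧
          v.ord (S18_red A (M' * p) ⟨f, hf⟩) =
            ((S18_red A (M' * p) ⟨_, hf'⟩ :
              ↥(modularFunctionFieldFullC (IsLocalRing.ResidueField A) (M' * p))) :
                LaurentSeries (IsLocalRing.ResidueField A)).order := by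
  set T := S34M_T1 M' p A hgen with hT
  have hw : ∀ f ∈ T.O, (S40CJ_W (M' * p) l).toRingEquiv f ∈ T.O :=
    fun f hf => S40CA2_W_mem M' p A hWO l hl f hf
  have hw' : ∀ f ∈ T.O, (S40CJ_W (M' * p) l).toRingEquiv.symm f ∈ T.O :=
    fun f hf => S40CA2_W_symm_mem M' p A hWO l hl f hf
  have hconst : ∀ c : IsLocalRing.ResidueField A,
      ∃ (f : ↥(modularFunctionFieldBar (M' * p))) (hf : f ∈ T.O),
        T.red ⟨f, hf⟩ = algebraMap (IsLocalRing.ResidueField A)
          ↥(modularFunctionFieldFullC (IsLocalRing.ResidueField A) (M' * p)) c ∧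
        (S40CJ_W (M' * p) l).toRingEquiv f = f := by
    intro c
    obtain ⟨a, rfl⟩ := T.res_surjective c
    have haO : algebraMap Ω ↥(modularFunctionFieldBar (M' * p)) (a : Ω) ∈ T.O :=
      (T.algebraMap_mem_iff (a : Ω)).2 a.2
    refine ⟨_, haO, T.red_algebraMap (a : Ω) a.2 haO, ?_⟩
    exact (S40CJ_W (M' * p) l).commutes (a : Ω)
  set Wb := S40RA_barAlg (O := T.O) (red := T.red) T.red_surjective T.red_ne_zero_iff
    (S40CJ_W (M' * p) l).toRingEquiv hw hw' hconst with hWb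
  refine ⟨Wb⁻¹ • S40RA_vinf (IsLocalRing.ResidueField A) (M' * p), fun f hf hne => ?_⟩
  have hf' : S40CJ_W (M' * p) l f ∈ S18_O A (M' * p) := S40CA2_W_mem M' p A hWO l hl f hf
  have e1 : Wb (T.red ⟨f, hf⟩) = T.red ⟨S40CJ_W (M' * p) l f, hf'⟩ :=
    S40RA_barAlg_red (O := T.O) (red := T.red) T.red_surjective T.red_ne_zero_iff
      (S40CJ_W (M' * p) l).toRingEquiv hw hw' hconst f hf
  have hne' : T.red ⟨S40CJ_W (M' * p) l f, hf'⟩ ≠ 0 := by
    rw [← e1]
    exact (map_ne_zero_iff Wb Wb.injective).2 hne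
  refine ⟨hf', hne', ?_⟩
  have e2 := S40RA_ord_transport Wb (S40RA_vinf (IsLocalRing.ResidueField A) (M' * p))
    (T.red ⟨f, hf⟩)
  rw [e1] at e2
  exact e2.trans (S40RA_ord_vinf (IsLocalRing.ResidueField A) (M' * p) hne')

end place

section main

variable (M' p : ℕ) [NeZero M'] [NeZero (M' * p)] (A : ValuationSubring Ω)
  (hgen : PrincipalGeneratedByIntegral A (IsLocalRing.residue A) (M' * p))

include hgen in
/-- **(D-CUSP) at ALL the cusps of `C₁`** (modulo (a) = `hWO`): for a `W`-eigen-class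
`x ∈ V₀` with a unit Kummer generator `u`, `p ∣ ord_v (red u)` at every pole `v` of `j̄`. -/
theorem S40CA2_main (W : WeierstrassCurve ℤ) (hΔ : W.Δ ≠ 0) (hp : p.Prime) (hp2 : p ≠ 2)
    (hirr : W.ModRepIsIrreducible p) (hpM : ¬ p ∣ M') (hsq : Squarefree M')
    (hA : A.LiesOverPrime p)
    (hWO : ∀ d : ℕ, d.Prime → d ∣ M' → ∀ f ∈ S18_O A (M' * p),
      S40CJ_w (M' * p) d f ∈ S18_O A (M' * p))
    (x : JZero (M' * p)) (hx : x ∈ S40D_V0 W p (M' * p))
    (u : ↥(modularFunctionFieldBar (M' * p))) (hu : S33DG_IsGen p x u)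
    (huO : u ∈ S18_O A (M' * p)) (hred : S18_red A (M' * p) ⟨u, huO⟩ ≠ 0)
    (v : Place (IsLocalRing.ResidueField A)
      ↥(modularFunctionFieldFullC (IsLocalRing.ResidueField A) (M' * p)))
    (hv : v.ord (S34M_xb M' p A) < 0) :
    (p : ℤ) ∣ v.ord (S18_red A (M' * p) ⟨u, huO⟩) := by
  classical
  have hk := S34VF_hk M' A hp hA hpM
  have hl : ∀ D : ℕ, D ∣ M' → ∀ q ∈ D.primeFactorsList, q.Prime ∧ q ∣ M' := fun D hD q hq =>
    ⟨Nat.prime_of_mem_primeFactorsList hq, (Nat.dvd_of_mem_primeFactorsList hq).trans hD⟩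
  choose vv hvv using fun D : {D // D ∈ M'.divisors} =>
    S40CA2_place M' p A hgen hWO (D : ℕ).primeFactorsList (hl D (Nat.dvd_of_mem_divisors D.2))
  -- `j̄ ≠ 0`
  have hxb : S34M_xb M' p A = S18_jbar (M' * p) (IsLocalRing.ResidueField A) :=
    S34HX_xb_eq M' p A
  have hjne : S18_red A (M' * p) ⟨jB (M' * p), S34VW_jB_mem M' p A⟩ ≠ 0 := by
    have h0 : S34M_xb M' p A ≠ 0 := by
      rw [hxb]
      exact S40RA_jbar_ne_zero _ _
    exact h0
  -- the orders of `j̄` at the `v_D`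
  have he : ∀ D : {D // D ∈ M'.divisors},
      (vv D).ord (S34M_xb M' p A) = -(((D : ℕ) : ℤ)) := by
    intro D
    haveI : NeZero (D : ℕ) := ⟨(Nat.pos_of_mem_divisors D.2).ne'⟩
    obtain ⟨hf', -, e⟩ := hvv D (jB (M' * p)) (S34VW_jB_mem M' p A) hjne
    obtain ⟨h, e2⟩ := S40CJ_red_order M' p A hp hpM hsq (D : ℕ) (Nat.dvd_of_mem_divisors D.2)
    exact e.trans e2
  have hepos : ∀ D : {D // D ∈ M'.divisors}, (0 : ℤ) < (((D : ℕ) : ℤ)) := fun D => by
    exact_mod_cast Nat.pos_of_mem_divisors D.2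
  have hinj : Function.Injective vv := by
    intro D D' h
    have h1 := he D
    rw [h, he D'] at h1
    apply Subtype.ext
    have h2 : (((D' : ℕ) : ℤ)) = (((D : ℕ) : ℤ)) := neg_injective h1
    exact_mod_cast h2.symm
  -- the degree of the polar divisor of `j̄`
  have hsum : (RR_poleDiv hk.principal (S34M_xb M' p A)).degree ≤
      ∑ D : {D // D ∈ M'.divisors}, (((D : ℕ) : ℤ)) := by
    have h1 : (RR_poleDiv hk.principal (S34M_xb M' p A)).degree = (dedekindPsi M' : ℤ) :=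
      S34VD_deg_jbar_of_eq M' A hp hA hpM
        (modularFunctionFieldFullC (IsLocalRing.ResidueField A) (M' * p))
        (S34VF_FkN_res M' A hp hA) hk.principal (S34M_xb M' p A)
        (by rw [hxb]; exact S18_jbar_coe _ _)
    have h2 : ∑ D : {D // D ∈ M'.divisors}, (((D : ℕ) : ℤ)) =
        ∑ d ∈ M'.divisors, (d : ℤ) :=
      Finset.sum_coe_sort M'.divisors (fun d => (d : ℤ))
    rw [h1, h2, S40PS_sum_divisors_int hsq]
  -- the property at the `v_D`
  have hPv : ∀ D : {D // D ∈ M'.divisors},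
      (p : ℤ) ∣ (vv D).ord (S18_red A (M' * p) ⟨u, huO⟩) := by
    intro D
    obtain ⟨hf', hne', e⟩ := hvv D u huO hred
    obtain ⟨x', hx', hu'⟩ := S40CV_main W hp (M' * p) (D : ℕ).primeFactorsList x hx u hu
    rw [e]
    exact S40CI_main (M' * p) A W hΔ hp hp2 hirr hgen x' hx' _ hu' hf' hne'
  exact S40CU_all hk.deg_one hk.principal (S34M_xb M' p A) vv hinj
    (fun D => (((D : ℕ) : ℤ))) he hepos hsum
    (fun w => (p : ℤ) ∣ w.ord (S18_red A (M' * p) ⟨u, huO⟩)) hPv v hv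

end main

end Fermat.Agent.S40
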