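import Mathlib
import Fermat.Agent.S37.NormTrick

/-!
# TRACK 13 (S40/S44, row 38), (D-CUSP), route C0, leaf (L3) + the CLAIM (helper9).
Prefix `S40CP_`.  Abstract (Mathlib + `Lib/RiemannThm` + `S37/NormTrick`).

`F / L` a function field with principal divisors and places of degree one; `t : F →*₀ F` and an
additive `Td` on divisors, positive, of degree `C`, with `Td (div f) = div (t f)`.

* `S40CP_at`    : **POSITIVITY**.  If `ord_P (t f) = C · ord_P f` for all `f ≠ 0` and every place
  `Q ≠ P` is a pole of a function whose only zero is `P`, then `Td P = C · P` and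
  `(Td Q) P = 0` for every `Q ≠ P`.
* `S40CP_hord_transport` : the hypothesis `ord_P (t f) = C · ord_P f` at `P = w(P₀)` from the one
  at `P₀`, for an automorphism `w` commuting with `t`.
* `S40CP_claim` : **the CLAIM on the special fibre**.  `r` a map of places (to any type `Y`),
  `r_* (Td D)` depends on `r_* D` only (CONGR), `Td P_c = C · P_c`, the correspondence is
  symmetric on supports.  Then `(r_* Td D) (r P_c) = C · (r_* D) (r P_c)` for EVERY divisor `D`.
* `S40CP_final` : with `(r_* Td D) c ≡ a · (r_* D) c mod p` this gives `p ∣ (C - a) · (r_* D) c`.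
-/

set_option autoImplicit false
set_option linter.unusedSectionVars false
set_option linter.unusedVariables false

open AlgebraicCurve

namespace Fermat.Agent.S40

open Fermat.Agent.Lib Fermat.Agent.S37

section pos

variable {L F : Type*} [Field L] [Field F] [Algebra L F]

/-- the coefficient of an effective divisor is at most its degree. -/
theorem S40CP_apply_le (hdeg1 : ∀ v : Place L F, v.deg = 1) {D : Divisor L F} (hD : 0 ≤ D)
    (P : Place L F) : D P ≤ D.degree := by
  classical
  have hs : D.support ⊆ insert P D.support := Finset.subset_insert _ _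
  rw [RR_degree_eq_sum_of_subset hdeg1 D hs]
  exact Finset.single_le_sum (f := fun v => D v) (fun v _ => Finsupp.le_def.1 hD v)
    (Finset.mem_insert_self P _)

/-- an effective divisor whose degree is its coefficient at `P` is a multiple of `P`. -/
theorem S40CP_eq_single (hdeg1 : ∀ v : Place L F, v.deg = 1) {D : Divisor L F} (hD : 0 ≤ D)
    (P : Place L F) (h : D.degree ≤ D P) : D = Finsupp.single P (D P) := by
  classical
  ext Q
  rw [Finsupp.single_apply]
  split_ifs with hQ
  · rw [hQ]
  · have hPQ : P ≠ Q := hQ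
    have hs : D.support ⊆ insert P (insert Q D.support) := fun x hx =>
      Finset.mem_insert_of_mem (Finset.mem_insert_of_mem hx)
    have hsum := RR_degree_eq_sum_of_subset hdeg1 D hs
    have hpair : ({P, Q} : Finset (Place L F)) ⊆ insert P (insert Q D.support) := by
      intro x hx
      rw [Finset.mem_insert, Finset.mem_singleton] at hx
      rcases hx with rfl | rfl
      · exact Finset.mem_insert_self _ _
      · exact Finset.mem_insert_of_mem (Finset.mem_insert_self _ _)
    have h2 : ∑ v ∈ ({P, Q} : Finset (Place L F)), D v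
        ≤ ∑ v ∈ insert P (insert Q D.support), D v :=
      Finset.sum_le_sum_of_subset_of_nonneg hpair (fun v _ _ => Finsupp.le_def.1 hD v)
    rw [Finset.sum_pair hPQ, ← hsum] at h2
    have h3 : 0 ≤ D Q := Finsupp.le_def.1 hD Q
    omega

variable (hL : RR_Hyp L F) (t : F →*₀ F) (Td : Divisor L F →+ Divisor L F) (C : ℤ)
  (hdiv : ∀ f : F, f ≠ 0 → Td (RR_div hL.principal f) = RR_div hL.principal (t f))
  (hnn : ∀ E : Divisor L F, 0 ≤ E → 0 ≤ Td E)
  (hdeg : ∀ E : Divisor L F, (Td E).degree = C * E.degree)

include hdiv hnn hdeg in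
/-- **POSITIVITY** (leaf (L3) of route C0). -/
theorem S40CP_at (P : Place L F)
    (hord : ∀ f : F, f ≠ 0 → P.ord (t f) = C * P.ord f)
    (hex : ∀ Q : Place L F, Q ≠ P → ∃ f : F, f ≠ 0 ∧ 0 < P.ord f ∧
      (∀ Q' : Place L F, Q' ≠ P → Q'.ord f ≤ 0) ∧ Q.ord f < 0)
    (hne : ∃ Q : Place L F, Q ≠ P) :
    Td (Finsupp.single P 1) = Finsupp.single P C ∧
      ∀ Q : Place L F, Q ≠ P → Td (Finsupp.single Q 1) P = 0 := by
  classical
  have hdeg1 := hL.deg_one
  -- the key computation for one function
  have key : ∀ Q : Place L F, Q ≠ P → C ≤ Td (Finsupp.single P 1) P ∧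
      (Td (Finsupp.single P 1) P = C → Td (Finsupp.single Q 1) P = 0) := by
    intro Q hQ
    obtain ⟨f, hf0, hm, hoff, hQf⟩ := hex Q hQ
    set m : ℤ := P.ord f with hmdef
    set E : Divisor L F := Finsupp.single P m - RR_div hL.principal f with hE
    have hEnn : 0 ≤ E := by
      rw [Finsupp.le_def]
      intro v
      rw [Finsupp.zero_apply, hE, Finsupp.sub_apply, RR_div_apply, Finsupp.single_apply]
      split_ifs with hv
      · rw [← hv, hmdef, sub_self]
      · have := hoff v (fun h => hv h.symm)
        omega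
    have hEQ : Finsupp.single Q 1 ≤ E := by
      rw [Finsupp.le_def]
      intro v
      rw [hE, Finsupp.sub_apply, RR_div_apply, Finsupp.single_apply, Finsupp.single_apply]
      split_ifs with h1 h2 h2
      · exact absurd (h1.trans h2.symm) hQ
      · rw [← h1]; omega
      · rw [← h2, hmdef]; omega
      · have := hoff v (fun h => h2 h.symm)
        omega
    have hdf : RR_div hL.principal f = Finsupp.single P m - E := by
      rw [hE]; abel
    have h1 := hdiv f hf0
    rw [hdf, map_sub] at h1
    have h2 := congrArg (fun D : Divisor L F => D P) h1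
    simp only [Finsupp.sub_apply, RR_div_apply] at h2
    rw [hord f hf0] at h2
    have h3 : Td (Finsupp.single P m) = m • Td (Finsupp.single P 1) := by
      rw [← map_zsmul, Finsupp.smul_single, smul_eq_mul, mul_one]
    rw [h3, Finsupp.smul_apply, smul_eq_mul] at h2
    have h4 : 0 ≤ Td E P := Finsupp.le_def.1 (hnn E hEnn) P
    have h5 : 0 ≤ Td (E - Finsupp.single Q 1) P :=
      Finsupp.le_def.1 (hnn _ (sub_nonneg.2 hEQ)) P
    have h6 : Td E P = Td (Finsupp.single Q 1) P + Td (E - Finsupp.single Q 1) P := by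
      rw [← Finsupp.add_apply, ← map_add, add_sub_cancel]
    have h7 : 0 ≤ Td (Finsupp.single Q 1) P :=
      Finsupp.le_def.1 (hnn _ (by
        rw [Finsupp.le_def]
        intro v
        rw [Finsupp.zero_apply, Finsupp.single_apply]
        split_ifs <;> norm_num)) P
    have h8 : m * Td (Finsupp.single P 1) P = C * m + Td E P := by linarith
    constructor
    · by_contra hlt
      rw [not_le] at hlt
      have : m * Td (Finsupp.single P 1) P < m * C := mul_lt_mul_of_pos_left hlt hm
      nlinarith
    · intro heq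
      rw [heq] at h8
      have : Td E P = 0 := by nlinarith
      omega
  obtain ⟨Q₀, hQ₀⟩ := hne
  have hsP : (0 : Divisor L F) ≤ Finsupp.single P 1 := by
    rw [Finsupp.le_def]
    intro v
    rw [Finsupp.zero_apply, Finsupp.single_apply]
    split_ifs <;> norm_num
  have hTP : 0 ≤ Td (Finsupp.single P 1) := hnn _ hsP
  have hdP : (Td (Finsupp.single P 1)).degree = C := by
    rw [hdeg, Divisor.degree_single, hdeg1 P]
    norm_num
  have hle : Td (Finsupp.single P 1) P ≤ C := by
    have := S40CP_apply_le hdeg1 hTP P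
    rwa [hdP] at this
  have heqC : Td (Finsupp.single P 1) P = C := le_antisymm hle (key Q₀ hQ₀).1
  refine ⟨?_, fun Q hQ => (key Q hQ).2 heqC⟩
  have := S40CP_eq_single hdeg1 hTP P (by rw [hdP, heqC])
  rw [heqC] at this
  exact this

/-- transport of `hord` by an automorphism commuting with `t`. -/
theorem S40CP_hord_transport (t : F →*₀ F) (C : ℤ) (w : F ≃ₐ[L] F) (P₀ P : Place L F)
    (hP : ∀ f : F, P.ord f = P₀.ord (w f))
    (hw : ∀ f : F, t (w f) = w (t f))
    (hord : ∀ f : F, f ≠ 0 → P₀.ord (t f) = C * P₀.ord f) :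
    ∀ f : F, f ≠ 0 → P.ord (t f) = C * P.ord f := by
  intro f hf
  rw [hP, hP, ← hw]
  exact hord (w f) (by simpa using hf)

end pos

section claim

variable {X Y : Type*}

/-- **the CLAIM on the special fibre** (route C0): `(r_* Td D)(c) = C · (r_* D)(c)` at `c = r P_c`
for every divisor `D`. -/
theorem S40CP_claim (r : X → Y) (Td : (X →₀ ℤ) →+ (X →₀ ℤ)) (C : ℤ)
    (hnn : ∀ E : X →₀ ℤ, 0 ≤ E → 0 ≤ Td E)
    (hcongr : ∀ D D' : X →₀ ℤ, Finsupp.mapDomain r D = Finsupp.mapDomain r D' →
      Finsupp.mapDomain r (Td D) = Finsupp.mapDomain r (Td D'))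
    (hsym : ∀ P P' : X, Td (Finsupp.single P 1) P' ≠ 0 → Td (Finsupp.single P' 1) P ≠ 0)
    (Pc : X) (hPc : Td (Finsupp.single Pc 1) = Finsupp.single Pc C)
    (D : X →₀ ℤ) :
    Finsupp.mapDomain r (Td D) (r Pc) = C * Finsupp.mapDomain r D (r Pc) := by
  classical
  -- points over `c`
  have hover : ∀ P : X, r P = r Pc →
      Finsupp.mapDomain r (Td (Finsupp.single P 1)) = Finsupp.single (r Pc) C := by
    intro P hP
    have h1 : Finsupp.mapDomain r (Finsupp.single P (1 : ℤ))
        = Finsupp.mapDomain r (Finsupp.single Pc (1 : ℤ)) := by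
      rw [Finsupp.mapDomain_single, Finsupp.mapDomain_single, hP]
    rw [hcongr _ _ h1, hPc, Finsupp.mapDomain_single]
  have hs1 : ∀ P : X, (0 : X →₀ ℤ) ≤ Finsupp.single P 1 := by
    intro P
    rw [Finsupp.le_def]
    intro v
    rw [Finsupp.zero_apply, Finsupp.single_apply]
    split_ifs <;> norm_num
  -- all points of `Td P` reduce to `c` if `P` does
  have hall : ∀ P : X, r P = r Pc → ∀ P' : X, Td (Finsupp.single P 1) P' ≠ 0 → r P' = r Pc := by
    intro P hP P' hP'
    by_contra hne
    have hTnn := hnn _ (hs1 P)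
    have h1 := congrArg (fun E : Y →₀ ℤ => E (r P')) (hover P hP)
    simp only [Finsupp.single_apply, if_neg (Ne.symm hne)] at h1
    -- the coefficient at `r P'` is at least the coefficient of `P'`
    have h2 : Td (Finsupp.single P 1) P' ≤
        Finsupp.mapDomain r (Td (Finsupp.single P 1)) (r P') := by
      rw [Finsupp.mapDomain, Finsupp.sum, Finsupp.finsetSum_apply]
      have hmem : P' ∈ (Td (Finsupp.single P 1)).support := Finsupp.mem_support_iff.2 hP'
      have := Finset.single_le_sum
        (f := fun v => (Finsupp.single (r v) (Td (Finsupp.single P 1) v) : Y →₀ ℤ) (r P'))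
        (fun v _ => by
          show 0 ≤ (Finsupp.single (r v) (Td (Finsupp.single P 1) v) : Y →₀ ℤ) (r P')
          rw [Finsupp.single_apply]
          split_ifs
          · exact Finsupp.le_def.1 hTnn v
          · exact le_rfl) hmem
      simpa using this
    have h3 : 0 ≤ Td (Finsupp.single P 1) P' := Finsupp.le_def.1 hTnn P'
    rw [h1] at h2
    exact hP' (le_antisymm h2 h3)
  -- reduce to `D = single P n`
  induction D using Finsupp.induction_linear with
  | zero => simp
  | add D₁ D₂ h₁ h₂ =>
    rw [map_add, Finsupp.mapDomain_add, Finsupp.add_apply, h₁, h₂, Finsupp.mapDomain_add,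
      Finsupp.add_apply, mul_add]
  | single P n =>
    have hn : Finsupp.single P n = n • Finsupp.single P (1 : ℤ) := by
      rw [Finsupp.smul_single, smul_eq_mul, mul_one]
    rw [hn, map_zsmul, Finsupp.mapDomain_smul, Finsupp.mapDomain_smul, Finsupp.smul_apply,
      Finsupp.smul_apply, smul_eq_mul, smul_eq_mul, Finsupp.mapDomain_single]
    by_cases hP : r P = r Pc
    · rw [hover P hP, hP, Finsupp.single_eq_same, Finsupp.single_eq_same]
      ring
    · rw [Finsupp.single_apply, if_neg hP, mul_zero, mul_zero]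
      have h0 : Finsupp.mapDomain r (Td (Finsupp.single P 1)) (r Pc) = 0 := by
        rw [Finsupp.mapDomain, Finsupp.sum, Finsupp.finsetSum_apply]
        refine Finset.sum_eq_zero fun P' hP' => ?_
        rw [Finsupp.single_apply]
        split_ifs with h
        · exfalso
          have hne : Td (Finsupp.single P 1) P' ≠ 0 := Finsupp.mem_support_iff.1 hP'
          exact hP (hall P' h P (hsym P P' hne))
        · rfl
      rw [h0, mul_zero]

/-- **(D-CUSP), abstract**: the eigen-congruence at `c` and the CLAIM give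
`p ∣ (C - a) · (r_* D)(c)`. -/
theorem S40CP_final (r : X → Y) (Td : (X →₀ ℤ) →+ (X →₀ ℤ)) (C : ℤ)
    (hnn : ∀ E : X →₀ ℤ, 0 ≤ E → 0 ≤ Td E)
    (hcongr : ∀ D D' : X →₀ ℤ, Finsupp.mapDomain r D = Finsupp.mapDomain r D' →
      Finsupp.mapDomain r (Td D) = Finsupp.mapDomain r (Td D'))
    (hsym : ∀ P P' : X, Td (Finsupp.single P 1) P' ≠ 0 → Td (Finsupp.single P' 1) P ≠ 0)
    (Pc : X) (hPc : Td (Finsupp.single Pc 1) = Finsupp.single Pc C)
    (D : X →₀ ℤ) (p a : ℤ)
    (heig : p ∣ Finsupp.mapDomain r (Td D) (r Pc) - a * Finsupp.mapDomain r D (r Pc)) :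
    p ∣ (C - a) * Finsupp.mapDomain r D (r Pc) := by
  rw [S40CP_claim r Td C hnn hcongr hsym Pc hPc D] at heig
  rwa [sub_mul]

end claim

end Fermat.Agent.S40
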