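import Mathlib
import Fermat.Agent.S40.CuspPos
import Fermat.Agent.S17.RRAvoid

/-!
# TRACK 13 (S40/S44, row 38), (D-CUSP), route C0: the hypotheses `hex`, `hne` of `S40CP_at`
from Riemann's theorem, and the counting lemma of (L1) (helper9).  Prefix `S40CH_`.

* `S40CH_hex`   : for places `Q ≠ P` there is `f ≠ 0` whose only zero is `P` and with a pole
  at `Q`;
* `S40CH_at`    : `S40CP_at` with `hex` discharged: `ord_P (t f) = C · ord_P f` for all `f ≠ 0`
  gives `Td P = C · P` and `(Td Q) P = 0` for `Q ≠ P`;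
* `S40CH_count` : **counting** (leaf (L1)): if the places `P_i` (`i ∈ s`, pairwise different) are
  poles of `x` of the orders `d_i > 0` and `Σ d_i` is at least the degree of the pole divisor of
  `x`, then every pole of `x` is one of the `P_i`.
-/

set_option autoImplicit false
set_option linter.unusedSectionVars false
set_option linter.unusedVariables false

open AlgebraicCurve

namespace Fermat.Agent.S40

open Fermat.Agent.Lib Fermat.Agent.S37 Fermat.Agent.S17

variable {L F : Type*} [Field L] [Field F] [Algebra L F]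

/-- a function whose only zero is `P`, with a pole at `Q ≠ P`. -/
theorem S40CH_hex [Infinite L] (h : RR_Hyp L F) (P Q : Place L F) (hQ : Q ≠ P) :
    ∃ f : F, f ≠ 0 ∧ 0 < P.ord f ∧ (∀ Q' : Place L F, Q' ≠ P → Q'.ord f ≤ 0) ∧ Q.ord f < 0 := by
  classical
  set n : ℤ := 2 * (RR_genus L F : ℤ) + 2 with hn
  set D : Divisor L F := Finsupp.single P n - Finsupp.single Q 1 with hD
  have hdeg : D.degree = 2 * (RR_genus L F : ℤ) + 1 := by
    rw [hD, map_sub, Divisor.degree_single, Divisor.degree_single, h.deg_one, h.deg_one, hn]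
    push_cast
    ring
  obtain ⟨f₀, hf₀, hmem, hord⟩ := S17RS_exists_ord_eq h D (by rw [hdeg]) {P}
  have hall := (S17RS_mem_iff_ord hf₀).1 hmem
  have hDP : D P = n := by
    rw [hD, Finsupp.sub_apply, Finsupp.single_eq_same, Finsupp.single_apply, if_neg hQ, sub_zero]
  have hDQ : D Q = -1 := by
    rw [hD, Finsupp.sub_apply, Finsupp.single_eq_same, Finsupp.single_apply,
      if_neg (fun h' => hQ h'.symm), zero_sub]
  have hP := hord P (Finset.mem_singleton_self P)
  rw [hDP] at hP
  refine ⟨f₀⁻¹, inv_ne_zero hf₀, ?_, ?_, ?_⟩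
  · rw [P.ord_inv, hP, neg_neg, hn]
    positivity
  · intro Q' hQ'
    rw [Q'.ord_inv]
    have h1 := hall Q'
    have h2 : D Q' ≤ 0 := by
      rw [hD, Finsupp.sub_apply, Finsupp.single_apply, if_neg (fun h' => hQ' h'.symm),
        Finsupp.single_apply]
      split_ifs <;> norm_num
    omega
  · rw [Q.ord_inv]
    have h1 := hall Q
    rw [hDQ] at h1
    omega

/-- **POSITIVITY with `hex` discharged.** -/
theorem S40CH_at [Infinite L] (hL : RR_Hyp L F) (t : F →*₀ F) (Td : Divisor L F →+ Divisor L F)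
    (C : ℤ)
    (hdiv : ∀ f : F, f ≠ 0 → Td (RR_div hL.principal f) = RR_div hL.principal (t f))
    (hnn : ∀ E : Divisor L F, 0 ≤ E → 0 ≤ Td E)
    (hdeg : ∀ E : Divisor L F, (Td E).degree = C * E.degree)
    (P : Place L F) (hord : ∀ f : F, f ≠ 0 → P.ord (t f) = C * P.ord f) :
    Td (Finsupp.single P 1) = Finsupp.single P C ∧
      ∀ Q : Place L F, Q ≠ P → Td (Finsupp.single Q 1) P = 0 := by
  have : Infinite (Place L F) := RR_infinite_places hL
  obtain ⟨Q, hQ⟩ := exists_ne P
  exact S40CP_at hL t Td C hdiv hnn hdeg P hord (fun Q hQ => S40CH_hex hL P Q hQ) ⟨Q, hQ⟩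

/-- **counting**: poles `P_i` of orders `d_i` with `deg (x)_∞ ≤ Σ d_i` are all the poles. -/
theorem S40CH_count (hL : RR_Hyp L F) (x : F) {ι : Type*} (s : Finset ι) (Pl : ι → Place L F)
    (d : ι → ℤ) (hinj : ∀ i ∈ s, ∀ j ∈ s, Pl i = Pl j → i = j)
    (hpole : ∀ i ∈ s, (Pl i).ord x = - d i) (hd : ∀ i ∈ s, 0 < d i)
    (hcount : (RR_poleDiv hL.principal x).degree ≤ ∑ i ∈ s, d i)
    (v : Place L F) (hv : v.ord x < 0) : ∃ i ∈ s, v = Pl i := by
  classical
  by_contra hcon0
  have hcon : ∀ i ∈ s, v ≠ Pl i := fun i hi h' => hcon0 ⟨i, hi, h'⟩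
  set E : Divisor L F := RR_poleDiv hL.principal x with hE
  set E' : Divisor L F := ∑ i ∈ s, Finsupp.single (Pl i) (d i) with hE'
  have hE'deg : E'.degree = ∑ i ∈ s, d i := by
    rw [hE', map_sum]
    refine Finset.sum_congr rfl fun i _ => ?_
    rw [Divisor.degree_single, hL.deg_one]
    norm_num
  have hE'v : E' v = 0 := by
    rw [hE', Finsupp.finsetSum_apply]
    refine Finset.sum_eq_zero fun i hi => ?_
    rw [Finsupp.single_apply, if_neg (fun h' => hcon i hi h'.symm)]
  have hE'app : ∀ i ∈ s, E' (Pl i) = d i := by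
    intro i hi
    rw [hE', Finsupp.finsetSum_apply, Finset.sum_eq_single i]
    · rw [Finsupp.single_eq_same]
    · intro j hj hji
      rw [Finsupp.single_apply, if_neg (fun h' => hji (hinj j hj i hi h'))]
    · intro h'
      exact absurd hi h'
  have hEapp : ∀ w : Place L F, E w = max 0 (- w.ord x) := by
    intro w
    rw [hE, RR_poleDiv_apply, max_comm]
  -- `E' + single v 1 ≤ E`
  have hle : E' + Finsupp.single v 1 ≤ E := by
    rw [Finsupp.le_def]
    intro w
    rw [Finsupp.add_apply, hEapp]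
    by_cases hw : ∃ i ∈ s, w = Pl i
    · obtain ⟨i, hi, rfl⟩ := hw
      rw [hE'app i hi, Finsupp.single_apply, if_neg (fun h' => hcon i hi h'), add_zero,
        hpole i hi, neg_neg]
      exact le_max_right _ _
    · have hw' : ∀ i ∈ s, w ≠ Pl i := fun i hi h' => hw ⟨i, hi, h'⟩
      have h0 : E' w = 0 := by
        rw [hE', Finsupp.finsetSum_apply]
        refine Finset.sum_eq_zero fun i hi => ?_
        rw [Finsupp.single_apply, if_neg (fun h' => hw' i hi h'.symm)]
      rw [h0, zero_add, Finsupp.single_apply]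
      split_ifs with hvw
      · rw [← hvw]
        have : 1 ≤ - v.ord x := by omega
        exact le_trans this (le_max_right _ _)
      · exact le_max_left _ _
  have hdegle : (E' + Finsupp.single v 1).degree ≤ E.degree := by
    have h1 : 0 ≤ E - (E' + Finsupp.single v 1) := sub_nonneg.2 hle
    have h2 := RR_degree_nonneg hL.deg_one h1
    rw [map_sub] at h2
    linarith
  rw [map_add, hE'deg, Divisor.degree_single, hL.deg_one] at hdegle
  norm_num at hdegle
  linarith

end Fermat.Agent.S40
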