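import Fermat.Agent.S18.GaussModL
import Fermat.Agent.GalRep.HeckeSer

/-!
# TRACK 13 (S40), GEO-5, package H2-gen (helper10): the multiplicative Hecke operator keeps the
`1`-units of the Gauss valuation.  Prefix `S40G5H_`.

`F = modularFunctionFieldBar N ⊂ ℚ̄((q))`, `A` a valuation ring of `ℚ̄`, `O = S18_O A N` the Gauss
valuation ring of the `q`-expansion at `∞` (fractions `s₁ / s₂` of integral series, `ρ s₂ ≠ 0`),
`t = GRS_t hst` the multiplicative Hecke operator (`(t f)(q^ℓ) = GRS_rhs N ℓ ζ f`, i.e.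
`f(q^{ℓ²}) ∏ f(ζ^i q)` for `ℓ ∤ N`, `∏ f(ζ^i q)` for `ℓ ∣ N`), `ζ` an `ℓ`-th root of unity.

* `S40G5H_main` : `u ∈ O`, `red u = 1`  ⇒  `t u ∈ O` and `red (t u) = 1`.
* `S40G5H_unit` : `u ∈ O`, `red u ≠ 0`  ⇒  `t u ∈ O` and `red (t u) ≠ 0`.

No extension theory of valuations and no level `N ℓ` is used: `t` acts on `q`-expansions by an
explicit formula with integral coefficients, which commutes with the reduction of coefficients.
-/

set_option autoImplicit false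
set_option synthInstance.maxHeartbeats 400000
set_option maxHeartbeats 1000000

open HahnSeries IntermediateField AlgebraicCurve ModularCurve

namespace Fermat.Agent.S40

open Fermat.Agent.S18 Fermat.Agent.GalRep

section series

variable {L : Type*} [Field L] (A : ValuationSubring L)

/-- a series with coefficients in `A` comes from `A((q))`. -/
theorem S40G5H_exists_int (f : LaurentSeries L) (hf : ∀ n, f.coeff n ∈ A) :
    ∃ s : LaurentSeries A, coeffMap A.subtype s = f := by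
  refine ⟨⟨fun n => ⟨f.coeff n, hf n⟩, ?_⟩, ?_⟩
  · refine f.isPWO_support.mono ?_
    intro n hn
    simp only [Function.mem_support, ne_eq] at hn ⊢
    intro h0
    apply hn
    exact Subtype.ext h0
  · ext n
    rfl

/-- if `g(q^ℓ)` is integral, then `g` is integral. -/
theorem S40G5H_unq (ℓ : ℕ) [NeZero ℓ] (g : LaurentSeries L) (s' : LaurentSeries A)
    (h : qExpand L ℓ g = coeffMap A.subtype s') :
    ∃ s'' : LaurentSeries A, coeffMap A.subtype s'' = g ∧ qExpand A ℓ s'' = s' := by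
  have hcoeff : ∀ n, g.coeff n ∈ A := by
    intro n
    have h1 : (qExpand L ℓ g).coeff ((ℓ : ℤ) * n) = g.coeff n := qExpand_coeff_mul ℓ g n
    rw [← h1, h, coeffMap_coeff]
    exact (s'.coeff ((ℓ : ℤ) * n)).2
  obtain ⟨s'', hs''⟩ := S40G5H_exists_int A g hcoeff
  refine ⟨s'', hs'', ?_⟩
  have hinj : Function.Injective (coeffMap A.subtype : LaurentSeries A → LaurentSeries L) := by
    intro x y hxy
    ext n
    have := congrArg (fun z => z.coeff n) hxy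
    simpa using this
  apply hinj
  rw [coeffMap_qExpand, hs'', h]

/-- an element of finite order of `L` is a unit of `A`. -/
theorem S40G5H_unit_of_pow (ζ : Lˣ) (ℓ : ℕ) (hℓ : ℓ ≠ 0) (hζ : ζ ^ ℓ = 1) :
    ∃ ζA : Aˣ, Units.map (A.subtype : A →* L) ζA = ζ := by
  have hmem : ∀ x : Lˣ, x ^ ℓ = 1 → (x : L) ∈ A := by
    intro x hx
    rcases A.mem_or_inv_mem (x : L) with h | h
    · exact h
    · have e : (x : L) = ((x : L)⁻¹) ^ (ℓ - 1) := by
        have h1 : (x : L) ^ ℓ = 1 := by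
          rw [← Units.val_pow_eq_pow_val, hx]
          rfl
        have hx0 : (x : L) ≠ 0 := x.ne_zero
        have h2 : (x : L) * (x : L) ^ (ℓ - 1) = 1 := by
          rw [← pow_succ', Nat.sub_add_cancel (Nat.pos_of_ne_zero hℓ), h1]
        rw [inv_pow]
        field_simp
        rw [mul_comm] at h2
        exact h2.symm ▸ (by ring)
      rw [e]
      exact pow_mem h _
  have h1 : (ζ : L) ∈ A := hmem ζ hζ
  have h2 : ((ζ⁻¹ : Lˣ) : L) ∈ A := hmem ζ⁻¹ (by rw [inv_pow, hζ, inv_one])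
  refine ⟨⟨⟨ζ, h1⟩, ⟨((ζ⁻¹ : Lˣ) : L), h2⟩, Subtype.ext (by simp), Subtype.ext (by simp)⟩, ?_⟩
  ext
  rfl

end series

section field

variable {k : Type*} [Field k]

/-- the right-hand side of (H1) does not vanish on nonzero series over a field. -/
theorem S40G5H_rhs_ne_zero (N ℓ : ℕ) [NeZero ℓ] (u : kˣ) (f : LaurentSeries k) (hf : f ≠ 0) :
    GRS_rhs N ℓ u f ≠ 0 := by
  have htw : ∀ v : kˣ, ES_tw v f ≠ 0 := by
    intro v h0
    apply hf
    ext n
    have := congrArg (fun z => z.coeff n) h0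
    simp only [ES_tw_coeff, HahnSeries.coeff_zero] at this
    rcases mul_eq_zero.1 this with h | h
    · exact absurd h (Units.ne_zero _)
    · simpa using h
  have hprod : GRS_prodTw ℓ u f ≠ 0 := by
    rw [GRS_prodTw]
    exact Finset.prod_ne_zero_iff.2 (fun i _ => htw _)
  by_cases h : ℓ ∣ N
  · rw [GRS_rhs_of_dvd N ℓ h]
    exact hprod
  · rw [GRS_rhs_of_not_dvd N ℓ h, GRS_rhs_eq]
    refine mul_ne_zero ?_ hprod
    intro h0
    apply hf
    have h1 : qExpand k ℓ (qExpand k ℓ f) = qExpand k ℓ (qExpand k ℓ 0) := by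
      rw [h0, map_zero, map_zero]
    exact qExpand_injective ℓ (qExpand_injective ℓ h1)

end field

section main

variable (N : ℕ) [NeZero N] (A : ValuationSubring (AlgebraicClosure ℚ))
  {ℓ : ℕ} [NeZero ℓ] {ζ : (AlgebraicClosure ℚ)ˣ}

/-- the image under `t` of an integral series of `F` is an integral series of `F`, and the
reduction commutes with the formula (H1). -/
theorem S40G5H_t_int (hgen : PrincipalGeneratedByIntegral A (IsLocalRing.residue A) N)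
    (ζA : Aˣ) (hζA : Units.map (A.subtype : A →* AlgebraicClosure ℚ) ζA = ζ)
    (hst : GRS_Stab N ℓ ζ) (s : LaurentSeries A)
    (hs : S18_ι A s ∈ modularFunctionFieldBar N) :
    ∃ s'' : LaurentSeries A, s'' ∈ S18_B A N ∧
      S18_ι A s'' = ((GRS_t hst ⟨S18_ι A s, hs⟩ : ↥(modularFunctionFieldBar N)) :
        LaurentSeries (AlgebraicClosure ℚ)) ∧
      qExpand (IsLocalRing.ResidueField A) ℓ (S18_ρ A s'') =
        GRS_rhs N ℓ (Units.map
          ((IsLocalRing.residue A : A →+* IsLocalRing.ResidueField A) : A →* _) ζA)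
          (S18_ρ A s) := by
  have h1 := GRS_t_spec hst ⟨S18_ι A s, hs⟩
  have h2 : GRS_rhs N ℓ ζ (S18_ι A s) = S18_ι A (GRS_rhs N ℓ ζA s) := by
    rw [GRS_coeffMap_rhs, hζA]
  have h3 : qExpand (AlgebraicClosure ℚ) ℓ
      ((GRS_t hst ⟨S18_ι A s, hs⟩ : ↥(modularFunctionFieldBar N)) :
        LaurentSeries (AlgebraicClosure ℚ)) = coeffMap A.subtype (GRS_rhs N ℓ ζA s) := by
    rw [h1]
    exact h2
  obtain ⟨s'', hs'', hq⟩ := S40G5H_unq A ℓ _ _ h3
  have hmem : S18_ι A s'' ∈ modularFunctionFieldBar N := by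
    have : S18_ι A s'' = ((GRS_t hst ⟨S18_ι A s, hs⟩ : ↥(modularFunctionFieldBar N)) :
        LaurentSeries (AlgebraicClosure ℚ)) := hs''
    rw [this]
    exact (GRS_t hst ⟨S18_ι A s, hs⟩).2
  refine ⟨s'', S18_mem_B_of_ι_mem A N (S18_hPD N) (S18_hconst N) hgen hmem, hs'', ?_⟩
  have := congrArg (S18_ρ A) hq
  rw [coeffMap_qExpand, GRS_coeffMap_rhs] at this
  exact this

/-- **H2-gen, general form**: if `u = s₁ / s₂` in `O` then `t u = t₁ / t₂` in `O` with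
`red (t u) = ρ t₁ / ρ t₂`, `(ρ t_i)(q^ℓ) = GRS_rhs (ρ s_i)`. -/
theorem S40G5H_rep (hgen : PrincipalGeneratedByIntegral A (IsLocalRing.residue A) N)
    (ζA : Aˣ) (hζA : Units.map (A.subtype : A →* AlgebraicClosure ℚ) ζA = ζ)
    (hst : GRS_Stab N ℓ ζ)
    (u : ↥(modularFunctionFieldBar N)) {s₁ s₂ : LaurentSeries A}
    (h1 : s₁ ∈ S18_B A N) (h2 : s₂ ∈ S18_B A N) (hne : S18_ρ A s₂ ≠ 0)
    (hf : (u : LaurentSeries (AlgebraicClosure ℚ)) * S18_ι A s₂ = S18_ι A s₁) :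
    ∃ t₁ t₂ : LaurentSeries A, t₁ ∈ S18_B A N ∧ t₂ ∈ S18_B A N ∧ S18_ρ A t₂ ≠ 0 ∧
      ((GRS_t hst u : ↥(modularFunctionFieldBar N)) : LaurentSeries (AlgebraicClosure ℚ)) *
        S18_ι A t₂ = S18_ι A t₁ ∧
      qExpand (IsLocalRing.ResidueField A) ℓ (S18_ρ A t₁) =
        GRS_rhs N ℓ (Units.map
          ((IsLocalRing.residue A : A →+* IsLocalRing.ResidueField A) : A →* _) ζA)
          (S18_ρ A s₁) ∧
      qExpand (IsLocalRing.ResidueField A) ℓ (S18_ρ A t₂) =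
        GRS_rhs N ℓ (Units.map
          ((IsLocalRing.residue A : A →+* IsLocalRing.ResidueField A) : A →* _) ζA)
          (S18_ρ A s₂) := by
  obtain ⟨t₁, ht₁B, ht₁, hq₁⟩ := S40G5H_t_int N A hgen ζA hζA hst s₁ h1.1
  obtain ⟨t₂, ht₂B, ht₂, hq₂⟩ := S40G5H_t_int N A hgen ζA hζA hst s₂ h2.1
  have hu12 : u * (⟨S18_ι A s₂, h2.1⟩ : ↥(modularFunctionFieldBar N)) =
      ⟨S18_ι A s₁, h1.1⟩ := Subtype.ext hf
  have ht := congrArg (GRS_t hst) hu12
  rw [map_mul] at ht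
  have ht' : ((GRS_t hst u : ↥(modularFunctionFieldBar N)) :
      LaurentSeries (AlgebraicClosure ℚ)) * S18_ι A t₂ = S18_ι A t₁ := by
    rw [ht₁, ht₂]
    exact congrArg Subtype.val ht
  have hρt₂ : S18_ρ A t₂ ≠ 0 := by
    intro h0
    have := S40G5H_rhs_ne_zero N ℓ (Units.map
      ((IsLocalRing.residue A : A →+* IsLocalRing.ResidueField A) : A →* _) ζA)
      (S18_ρ A s₂) hne
    apply this
    rw [← hq₂, h0, map_zero]
  exact ⟨t₁, t₂, ht₁B, ht₂B, hρt₂, ht', hq₁, hq₂⟩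

/-- **H2-gen, units**: `t` keeps the units of the Gauss valuation ring. -/
theorem S40G5H_unit (hgen : PrincipalGeneratedByIntegral A (IsLocalRing.residue A) N)
    (hζ : ζ ^ ℓ = 1) (hst : GRS_Stab N ℓ ζ)
    (u : ↥(modularFunctionFieldBar N)) (hu : u ∈ S18_O A N)
    (hred : S18_red A N ⟨u, hu⟩ ≠ 0) :
    ∃ h : GRS_t hst u ∈ S18_O A N, S18_red A N ⟨GRS_t hst u, h⟩ ≠ 0 := by
  obtain ⟨ζA, hζA⟩ := S40G5H_unit_of_pow A ζ ℓ (NeZero.ne ℓ) hζ
  obtain ⟨s₁, h1, s₂, h2, hne, hf⟩ := hu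
  have hρ1 : S18_ρ A s₁ ≠ 0 := by
    intro h0
    apply hred
    apply Subtype.ext
    rw [S18_red_eq A N h1 h2 hne hf, h0, zero_div]
    rfl
  obtain ⟨t₁, t₂, ht₁B, ht₂B, hρt₂, ht', hq₁, hq₂⟩ :=
    S40G5H_rep N A hgen ζA hζA hst u h1 h2 hne hf
  have hρt₁ : S18_ρ A t₁ ≠ 0 := by
    intro h0
    have := S40G5H_rhs_ne_zero N ℓ (Units.map
      ((IsLocalRing.residue A : A →+* IsLocalRing.ResidueField A) : A →* _) ζA)
      (S18_ρ A s₁) hρ1
    apply this
    rw [← hq₁, h0, map_zero]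
  refine ⟨⟨t₁, ht₁B, t₂, ht₂B, hρt₂, ht'⟩, ?_⟩
  intro h0
  have := congrArg Subtype.val h0
  rw [S18_red_eq A N ht₁B ht₂B hρt₂ ht'] at this
  exact div_ne_zero hρt₁ hρt₂ this

/-- **H2-gen**: `t` keeps the `1`-units of the Gauss valuation ring:
`u ∈ O`, `red u = 1`  ⇒  `t u ∈ O`, `red (t u) = 1`. -/
theorem S40G5H_main (hgen : PrincipalGeneratedByIntegral A (IsLocalRing.residue A) N)
    (hζ : ζ ^ ℓ = 1) (hst : GRS_Stab N ℓ ζ)
    (u : ↥(modularFunctionFieldBar N)) (hu : u ∈ S18_O A N)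
    (hred : S18_red A N ⟨u, hu⟩ = 1) :
    ∃ h : GRS_t hst u ∈ S18_O A N, S18_red A N ⟨GRS_t hst u, h⟩ = 1 := by
  obtain ⟨ζA, hζA⟩ := S40G5H_unit_of_pow A ζ ℓ (NeZero.ne ℓ) hζ
  obtain ⟨s₁, h1, s₂, h2, hne, hf⟩ := hu
  have hρ12 : S18_ρ A s₁ = S18_ρ A s₂ := by
    have := congrArg Subtype.val hred
    rw [S18_red_eq A N h1 h2 hne hf] at this
    have h1' : S18_ρ A s₁ / S18_ρ A s₂ = 1 := this
    rw [div_eq_one_iff_eq hne] at h1'
    exact h1'
  obtain ⟨t₁, t₂, ht₁B, ht₂B, hρt₂, ht', hq₁, hq₂⟩ :=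
    S40G5H_rep N A hgen ζA hζA hst u h1 h2 hne hf
  have hρt : S18_ρ A t₁ = S18_ρ A t₂ := by
    apply qExpand_injective ℓ
    rw [hq₁, hq₂, hρ12]
  refine ⟨⟨t₁, ht₁B, t₂, ht₂B, hρt₂, ht'⟩, ?_⟩
  apply Subtype.ext
  rw [S18_red_eq A N ht₁B ht₂B hρt₂ ht', hρt, div_self hρt₂]
  rfl

end main

end Fermat.Agent.S40
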