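import Mathlib
import Fermat.Agent.S37.NormTrick

/-!
# TRACK 13 (S40), GEO-5, package G5b (helper10): the RELATIVE norm trick.  Prefix `S40G5T_`.

`F / K` a function field with `RR_Hyp`, `r : Pl(F) → Y` any map ("specialisation of places"),
`Ψ : Div(F) →+ (X →₀ ℤ)` additive, bounded on effective divisors (`|Ψ E x| ≤ C · deg E`) and
bounded on the principal divisors with small specialisation:
`|Ψ (div f) x| ≤ B` whenever `r_* (div f) + g · r(P₀) ≥ 0` (`g` the genus).
Then `Ψ P = Ψ P'` whenever `r P = r P'` (`S40G5T_single`), hence `Ψ D = 0` whenever `r_* D = 0`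
(`S40G5T_kill`), and `Ψ` factors through `r_*` (`S40G5T_factor`).

Proof: Riemann's inequality gives `f ≠ 0` with `div f = m P − m P' − g P' + E`, `E ≥ 0` of degree
`g`; the `m`'s cancel in `r_* (div f) = r_* E − g · r(P')`, so `m (Ψ P − Ψ P')` is bounded
independently of `m`.
-/

set_option autoImplicit false

open AlgebraicCurve Fermat.Agent.Lib Fermat.Agent.S37

namespace Fermat.Agent.S40

variable {K F : Type*} [Field K] [Field F] [Algebra K F]

/-- scalar relative norm trick. -/
theorem S40G5T_single_scalar {Y : Type*} (h : RR_Hyp K F) (r : Place K F → Y)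
    (lam : Divisor K F →+ ℤ) (C B : ℤ)
    (hb : ∀ E : Divisor K F, 0 ≤ E → |lam E| ≤ C * E.degree)
    (hprin : ∀ f : F, f ≠ 0 → ∀ P₀ : Place K F,
      0 ≤ Finsupp.mapDomain r (RR_div h.principal f) +
        (RR_genus K F : ℤ) • Finsupp.single (r P₀) (1 : ℤ) →
      |lam (RR_div h.principal f)| ≤ B)
    (P P' : Place K F) (hPP' : r P = r P') :
    lam (Finsupp.single P 1) = lam (Finsupp.single P' 1) := by
  classical
  set g : ℤ := (RR_genus K F : ℤ) with hg
  have hg0 : 0 ≤ g := by positivity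
  have hb1 : |lam (Finsupp.single P' 1)| ≤ C := by
    have := hb _ (S37_single_one_nonneg P')
    rwa [S37_degree_single_one h, mul_one] at this
  have hC : 0 ≤ C := le_trans (abs_nonneg _) hb1
  by_contra hne
  set d : ℤ := lam (Finsupp.single P' 1) - lam (Finsupp.single P 1) with hd
  have hd0 : d ≠ 0 := fun h0 => hne (by rw [hd, sub_eq_zero] at h0; exact h0.symm)
  have hd1 : 1 ≤ |d| := Int.one_le_abs hd0
  set m : ℤ := 2 * g * C + |B| + 1 with hm
  have hm0 : 0 ≤ m := by positivity
  set D : Divisor K F :=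
    m • Finsupp.single P' (1 : ℤ) - m • Finsupp.single P (1 : ℤ) + g • Finsupp.single P' (1 : ℤ)
    with hD
  have hDdeg : D.degree = g := by
    rw [hD, map_add, map_sub, map_zsmul, map_zsmul, map_zsmul, S37_degree_single_one h,
      S37_degree_single_one h]
    simp
  have hpos : 0 < Module.finrank K (riemannRochSpace D) := by
    have h1 := RR_riemann_ineq h D
    rw [hDdeg] at h1
    have : (0 : ℤ) < Module.finrank K (riemannRochSpace D) := by linarith
    exact_mod_cast this
  obtain ⟨f, hf0, hf⟩ := RR_exists_ne_zero_of_finrank_pos hpos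
  have hE : 0 ≤ D + RR_div h.principal f := (RR_mem_iff_div h.principal hf0).1 hf
  have hbE := hb _ hE
  have e2 : Divisor.degree (D + RR_div h.principal f) = g := by
    rw [map_add Divisor.degree, RR_div_degree, add_zero, hDdeg]
  rw [e2] at hbE
  -- the specialisation of `D`
  have hrD : Finsupp.mapDomain r D = g • Finsupp.single (r P') (1 : ℤ) := by
    rw [hD, Finsupp.mapDomain_add, Finsupp.mapDomain_sub, Finsupp.mapDomain_smul,
      Finsupp.mapDomain_smul, Finsupp.mapDomain_smul, Finsupp.mapDomain_single,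
      Finsupp.mapDomain_single, hPP', sub_self, zero_add]
  have hcond : 0 ≤ Finsupp.mapDomain r (RR_div h.principal f) +
      (RR_genus K F : ℤ) • Finsupp.single (r P') (1 : ℤ) := by
    have h1 : Finsupp.mapDomain r (RR_div h.principal f) +
        (RR_genus K F : ℤ) • Finsupp.single (r P') (1 : ℤ) =
        Finsupp.mapDomain r (D + RR_div h.principal f) := by
      rw [Finsupp.mapDomain_add, hrD, add_comm]
    rw [h1]
    exact S37_mapDomain_nonneg r hE
  have hB := hprin f hf0 P' hcond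
  have hlamD : lam D = m * d + g * lam (Finsupp.single P' 1) := by
    rw [hD, map_add, map_sub, map_zsmul, map_zsmul, map_zsmul, hd]
    simp only [smul_eq_mul]
    ring
  have e1 : lam (D + RR_div h.principal f) = lam D + lam (RR_div h.principal f) := map_add lam _ _
  rw [e1, hlamD] at hbE
  have h2 : |g * lam (Finsupp.single P' 1)| ≤ g * C := by
    rw [abs_mul, abs_of_nonneg hg0]
    exact mul_le_mul_of_nonneg_left hb1 hg0
  have hBB : B ≤ |B| := le_abs_self B
  have h1 : |m * d| ≤ C * g + g * C + |B| := by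
    have h3 : m * d = (m * d + g * lam (Finsupp.single P' 1) + lam (RR_div h.principal f))
        - g * lam (Finsupp.single P' 1) - lam (RR_div h.principal f) := by ring
    rw [h3]
    have a1 := abs_sub (m * d + g * lam (Finsupp.single P' 1) + lam (RR_div h.principal f)
      - g * lam (Finsupp.single P' 1)) (lam (RR_div h.principal f))
    have a2 := abs_sub (m * d + g * lam (Finsupp.single P' 1) + lam (RR_div h.principal f))
      (g * lam (Finsupp.single P' 1))
    linarith
  have h4 : m ≤ |m * d| := by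
    rw [abs_mul, abs_of_nonneg hm0]
    exact le_mul_of_one_le_right hm0 hd1
  have : m ≤ C * g + g * C + |B| := le_trans h4 h1
  rw [hm] at this
  linarith

/-- **relative norm trick**: `Ψ P = Ψ P'` whenever `r P = r P'`. -/
theorem S40G5T_single {X Y : Type*} (h : RR_Hyp K F) (r : Place K F → Y)
    (Ψ : Divisor K F →+ (X →₀ ℤ)) (C B : ℤ)
    (hb : ∀ E : Divisor K F, 0 ≤ E → ∀ x : X, |Ψ E x| ≤ C * E.degree)
    (hprin : ∀ f : F, f ≠ 0 → ∀ P₀ : Place K F,
      0 ≤ Finsupp.mapDomain r (RR_div h.principal f) +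
        (RR_genus K F : ℤ) • Finsupp.single (r P₀) (1 : ℤ) →
      ∀ x : X, |Ψ (RR_div h.principal f) x| ≤ B)
    (P P' : Place K F) (hPP' : r P = r P') :
    Ψ (Finsupp.single P 1) = Ψ (Finsupp.single P' 1) := by
  ext x
  exact S40G5T_single_scalar h r ((Finsupp.applyAddHom x).comp Ψ) C B
    (fun E hE => hb E hE x) (fun f hf P₀ hc => hprin f hf P₀ hc x) P P' hPP'

/-- **relative norm trick**: `Ψ` factors through `r_*`. -/
theorem S40G5T_factor {X Y : Type*} (h : RR_Hyp K F) (r : Place K F → Y)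
    (Ψ : Divisor K F →+ (X →₀ ℤ)) (C B : ℤ)
    (hb : ∀ E : Divisor K F, 0 ≤ E → ∀ x : X, |Ψ E x| ≤ C * E.degree)
    (hprin : ∀ f : F, f ≠ 0 → ∀ P₀ : Place K F,
      0 ≤ Finsupp.mapDomain r (RR_div h.principal f) +
        (RR_genus K F : ℤ) • Finsupp.single (r P₀) (1 : ℤ) →
      ∀ x : X, |Ψ (RR_div h.principal f) x| ≤ B) :
    ∃ Θ : (Y →₀ ℤ) →+ (X →₀ ℤ), ∀ D : Divisor K F, Ψ D = Θ (Finsupp.mapDomain r D) := by
  classical
  -- a section of `r` on its range
  let ψ : Y → (X →₀ ℤ) := fun y =>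
    if hy : ∃ P, r P = y then Ψ (Finsupp.single hy.choose 1) else 0
  have hψ : ∀ P, ψ (r P) = Ψ (Finsupp.single P 1) := by
    intro P
    have hy : ∃ P', r P' = r P := ⟨P, rfl⟩
    show (if hy : ∃ P', r P' = r P then Ψ (Finsupp.single hy.choose 1) else 0) = _
    rw [dif_pos hy]
    exact S40G5T_single h r Ψ C B hb hprin _ _ hy.choose_spec
  let Θ : (Y →₀ ℤ) →+ (X →₀ ℤ) :=
    Finsupp.liftAddHom (fun y => (zmultiplesHom (X →₀ ℤ)) (ψ y))
  refine ⟨Θ, ?_⟩
  have hcomp : Ψ = Θ.comp (Finsupp.mapDomain.addMonoidHom r) := by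
    apply Finsupp.addHom_ext
    intro P n
    show Ψ (Finsupp.single P n) = Θ (Finsupp.mapDomain r (Finsupp.single P n))
    rw [Finsupp.mapDomain_single]
    show _ = Finsupp.liftAddHom (fun y => (zmultiplesHom (X →₀ ℤ)) (ψ y)) (Finsupp.single (r P) n)
    rw [Finsupp.liftAddHom_apply_single, zmultiplesHom_apply, hψ, S37_single_eq_smul,
      map_zsmul]
  intro D
  rw [hcomp]
  rfl

/-- **relative norm trick**: `r_* D = 0 ⇒ Ψ D = 0`. -/
theorem S40G5T_kill {X Y : Type*} (h : RR_Hyp K F) (r : Place K F → Y)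
    (Ψ : Divisor K F →+ (X →₀ ℤ)) (C B : ℤ)
    (hb : ∀ E : Divisor K F, 0 ≤ E → ∀ x : X, |Ψ E x| ≤ C * E.degree)
    (hprin : ∀ f : F, f ≠ 0 → ∀ P₀ : Place K F,
      0 ≤ Finsupp.mapDomain r (RR_div h.principal f) +
        (RR_genus K F : ℤ) • Finsupp.single (r P₀) (1 : ℤ) →
      ∀ x : X, |Ψ (RR_div h.principal f) x| ≤ B)
    (D : Divisor K F) (hD : Finsupp.mapDomain r D = 0) : Ψ D = 0 := by
  obtain ⟨Θ, hΘ⟩ := S40G5T_factor h r Ψ C B hb hprin
  rw [hΘ, hD, map_zero]

end Fermat.Agent.S40
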