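import Mathlib
import Fermat.Agent.S40.Geo5Trick
import Fermat.Agent.S19.RedRR
import Fermat.Agent.S19.AddCurve

/-!
# TRACK 13 (S40/S44), GEO-5 route 2, item (i), ABSTRACT (helper25) — prefix `S40G5B_`

`S : S18_Spec L F k Fk` a specialisation of function fields (Gauss valuation ring `O`, reduction
`red : O → Fk`, specialisation of places `r`), with the lattice lemma `S19RR_Lat S`, Riemann's
theorem on both sides and equal genera.  `Td : Div(F) →+ Div(F)` a correspondence and
`t : F → F` its multiplicative companion (`S40G5B_Corr`): `Td ≥ 0` on effective divisors,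
`deg Td E = C deg E`, `Td (div f) = div (t f)`, `t` keeps the units of `O`, and `red (t u)` only
depends on `red u`.

* `S40G5B_kill` : `r_* D = 0 ⇒ r_* (Td D) = 0`;
* `S40G5B_main` : `r_* D` principal `⇒ r_* (Td D)` principal
  (**the kernel of the reduction map on classes is stable under the correspondence**).

Proof: helper10's relative norm trick `S40G5T_kill`, with the bound on principal divisors from
RED-RR (`S19RR_onto`): a unit `u` with `div (red u) ≥ − g Q₀` has the same reduction as some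
`f' ∈ L(G P₀) ∩ O`, `G = 2 g + 1`, and `div f' = E − G P₀` with `E ≥ 0` of degree `G`.
-/

set_option autoImplicit false
set_option maxHeartbeats 1000000
set_option linter.unusedSectionVars false
set_option linter.unusedVariables false

open AlgebraicCurve Fermat.Agent.Lib Fermat.Agent.S37 Fermat.Agent.S18 Fermat.Agent.S19

namespace Fermat.Agent.S40

variable {L F k Fk : Type*} [Field L] [Field F] [Algebra L F] [Field k] [Field Fk]
  [Algebra k Fk]

/-- a correspondence `Td` on divisors with a multiplicative companion `t` on functions,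
compatible with the specialisation `S`. -/
structure S40G5B_Corr (S : S18_Spec L F k Fk) (hL : RR_Hyp L F)
    (Td : Divisor L F →+ Divisor L F) (t : F → F) (C : ℕ) : Prop where
  nonneg : ∀ E : Divisor L F, 0 ≤ E → 0 ≤ Td E
  deg : ∀ E : Divisor L F, (Td E).degree = (C : ℤ) * E.degree
  div : ∀ f : F, f ≠ 0 → Td (RR_div hL.principal f) = RR_div hL.principal (t f)
  unit : ∀ u : S.O, S.red u ≠ 0 → ∃ h : t (u : F) ∈ S.O, S.red ⟨t (u : F), h⟩ ≠ 0
  red : ∀ u u' : S.O, S.red u ≠ 0 → S.red u = S.red u' →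
    ∀ (h : t (u : F) ∈ S.O) (h' : t (u' : F) ∈ S.O),
      S.red ⟨t (u : F), h⟩ = S.red ⟨t (u' : F), h'⟩

variable {S : S18_Spec L F k Fk} {hL : RR_Hyp L F} {Td : Divisor L F →+ Divisor L F}
  {t : F → F} {C : ℕ}

/-- `r_* (div u) = div (red u)` for a unit `u` of `O`. -/
theorem S40G5B_rdiv (S : S18_Spec L F k Fk) (hL : RR_Hyp L F) (hk : RR_Hyp k Fk) (u : S.O)
    (hu : S.red u ≠ 0) :
    Finsupp.mapDomain S.r (RR_div hL.principal (u : F)) = RR_div hk.principal (S.red u) := by
  ext Q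
  rw [S.mapDomain_div u hu (RR_div hL.principal (u : F))
    (fun P => RR_div_apply hL.principal _ P) Q, RR_div_apply]

/-- `r_* (Td (div u)) = div (red (t u))` for a unit `u` of `O`. -/
theorem S40G5B_unit_formula (hC : S40G5B_Corr S hL Td t C) (hk : RR_Hyp k Fk) (u : S.O)
    (hu : S.red u ≠ 0) (h : t (u : F) ∈ S.O) :
    Finsupp.mapDomain S.r (Td (RR_div hL.principal (u : F))) =
      RR_div hk.principal (S.red ⟨t (u : F), h⟩) := by
  obtain ⟨h', hne⟩ := hC.unit u hu
  rw [hC.div (u : F) (S.ne_zero_of_red_ne_zero hu)]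
  exact S40G5B_rdiv S hL hk ⟨t (u : F), h⟩ hne

/-- the bound on effective divisors. -/
theorem S40G5B_bound (hC : S40G5B_Corr S hL Td t C) {E : Divisor L F} (hE : 0 ≤ E)
    (Q : Place k Fk) :
    0 ≤ Finsupp.mapDomain S.r (Td E) Q ∧
      Finsupp.mapDomain S.r (Td E) Q ≤ (C : ℤ) * E.degree := by
  have h1 := hC.nonneg E hE
  refine ⟨Finsupp.le_def.1 (S37_mapDomain_nonneg _ h1) Q, ?_⟩
  rw [← hC.deg E, RR_degree_eq_sum hL.deg_one]
  exact S37_mapDomain_apply_le _ h1 Q

/-- `r_* (div f)` does not see constants: reduce to a unit of `O`. -/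
theorem S40G5B_exists_unit (S : S18_Spec L F k Fk) (hL : RR_Hyp L F) (f : F) (hf : f ≠ 0) :
    ∃ u : S.O, S.red u ≠ 0 ∧ RR_div hL.principal f = RR_div hL.principal (u : F) ∧
      ∃ c : L, c ≠ 0 ∧ f = algebraMap L F c * (u : F) := by
  obtain ⟨c, u, hc, hu, hfu⟩ := S.exists_const_mul_unit f hf
  refine ⟨u, hu, ?_, c, hc, hfu⟩
  ext P
  have hu0 : (u : F) ≠ 0 := S.ne_zero_of_red_ne_zero hu
  have hc0 : algebraMap L F c ≠ 0 := by
    intro h0
    exact hc ((map_eq_zero (algebraMap L F)).1 h0)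
  rw [RR_div_apply, RR_div_apply, hfu, P.ord_mul hc0 hu0, S18_Spec.ord_algebraMap, zero_add]

theorem S40G5B_single_aux {X : Type*} (Q₀ Q : X) (g G a : ℤ) (hgG : g ≤ G)
    (h : 0 ≤ a + g * (Finsupp.single Q₀ (1 : ℤ)) Q) :
    0 ≤ (Finsupp.single Q₀ G) Q + a := by
  classical
  rw [Finsupp.single_apply] at h ⊢
  split_ifs at h ⊢ with hQ
  · linarith
  · linarith

/-- **the bound on principal divisors with small specialisation**. -/
theorem S40G5B_prin [Infinite L] [Infinite k] (hLat : S19RR_Lat S) (hk : RR_Hyp k Fk)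
    (hg : RR_genus L F = RR_genus k Fk) (hC : S40G5B_Corr S hL Td t C)
    (f : F) (hf : f ≠ 0) (P₀ : Place L F)
    (hsmall : 0 ≤ Finsupp.mapDomain S.r (RR_div hL.principal f) +
      (RR_genus L F : ℤ) • Finsupp.single (S.r P₀) (1 : ℤ))
    (Q : Place k Fk) :
    |Finsupp.mapDomain S.r (Td (RR_div hL.principal f)) Q| ≤
      (C : ℤ) * (2 * RR_genus L F + 1 : ℕ) := by
  classical
  set g := RR_genus L F with hgdef
  set G : ℕ := 2 * g + 1 with hG
  obtain ⟨u, hu, hfu, -⟩ := S40G5B_exists_unit S hL f hf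
  rw [hfu] at hsmall ⊢
  have hu0 : (u : F) ≠ 0 := S.ne_zero_of_red_ne_zero hu
  -- the reduction lies in `L̄(G Q₀)`
  set D : Divisor L F := Finsupp.single P₀ (G : ℤ) with hD
  have hrD : (Finsupp.mapDomain S.r D : Divisor k Fk) = Finsupp.single (S.r P₀) (G : ℤ) := by
    rw [hD, Finsupp.mapDomain_single]
  have hmem : S.red u ∈ riemannRochSpace (Finsupp.mapDomain S.r D : Divisor k Fk) := by
    rw [RR_mem_iff_div hk.principal hu, hrD, Finsupp.le_def]
    intro Q'
    have h1 := Finsupp.le_def.1 hsmall Q'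
    rw [S40G5B_rdiv S hL hk u hu, Finsupp.add_apply, Finsupp.smul_apply, smul_eq_mul,
      Finsupp.zero_apply] at h1
    rw [Finsupp.zero_apply, Finsupp.add_apply]
    refine S40G5B_single_aux (S.r P₀) Q' (g : ℤ) (G : ℤ) _ ?_ h1
    rw [hG]
    push_cast
    linarith [Int.natCast_nonneg g]
  -- dimensions
  have hdegD : D.degree = (G : ℤ) := by
    rw [hD, Divisor.degree_single, hL.deg_one P₀, Nat.cast_one, mul_one]
  have hdegk : Divisor.degree (Finsupp.mapDomain S.r D : Divisor k Fk) = (G : ℤ) := by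
    rw [S19RR_degree S D, hdegD]
  have hfr : Module.finrank L (riemannRochSpace D) = G + 1 - g :=
    S19AC_finrank hL D G hdegD (by rw [hG]; omega)
  have hfrk : Module.finrank k (riemannRochSpace (Finsupp.mapDomain S.r D : Divisor k Fk)) =
      G + 1 - g := by
    have := S19AC_finrank hk (Finsupp.mapDomain S.r D : Divisor k Fk) G hdegk
      (by rw [← hg, hG]; omega)
    rw [this, ← hg]
  have hfin : FiniteDimensional k
      (riemannRochSpace (Finsupp.mapDomain S.r D : Divisor k Fk)) := RR_finite hk _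
  -- the lift
  obtain ⟨f', hf'mem, hf'red⟩ := S19RR_onto hLat hL.principal D (by rw [hfr, hfrk]) (S.red u) hmem
  have hf'ne : S.red f' ≠ 0 := by rw [hf'red]; exact hu
  have hf'0 : (f' : F) ≠ 0 := S.ne_zero_of_red_ne_zero hf'ne
  obtain ⟨htu, htune⟩ := hC.unit u hu
  obtain ⟨htf', htf'ne⟩ := hC.unit f' hf'ne
  have e1 := S40G5B_unit_formula hC hk u hu htu
  have e2 := S40G5B_unit_formula hC hk f' hf'ne htf'
  have e3 : S.red ⟨t (u : F), htu⟩ = S.red ⟨t (f' : F), htf'⟩ :=
    hC.red u f' hu hf'red.symm htu htf'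
  rw [e1, e3, ← e2]
  -- `div f' = E − D`
  set E : Divisor L F := RR_div hL.principal (f' : F) + D with hE
  have hE0 : 0 ≤ E := S19MU_div_add_nonneg hL hf'0 hf'mem
  have hD0 : 0 ≤ D := by
    rw [hD, Finsupp.le_def]
    intro P
    rw [Finsupp.zero_apply, Finsupp.single_apply]
    split_ifs
    · exact Int.natCast_nonneg G
    · exact le_refl _
  have hdegE : E.degree = (G : ℤ) := by
    rw [hE, map_add, RR_div_degree, zero_add, hdegD]
  have hsub : RR_div hL.principal (f' : F) = E - D := by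
    rw [hE]
    abel
  have hb1 := S40G5B_bound hC hE0 Q
  have hb2 := S40G5B_bound hC hD0 Q
  rw [hdegE] at hb1
  rw [hdegD] at hb2
  rw [hsub, map_sub, Finsupp.mapDomain_sub, Finsupp.sub_apply, abs_le]
  have hGG : ((2 * g + 1 : ℕ) : ℤ) = (G : ℤ) := by rw [hG]
  rw [hGG]
  constructor <;> linarith [hb1.1, hb1.2, hb2.1, hb2.2]

/-- **(i), divisor form**: `r_* D = 0 ⇒ r_* (Td D) = 0`. -/
theorem S40G5B_kill [Infinite L] [Infinite k] (hLat : S19RR_Lat S) (hk : RR_Hyp k Fk)
    (hg : RR_genus L F = RR_genus k Fk) (hC : S40G5B_Corr S hL Td t C)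
    (D : Divisor L F) (hD : Finsupp.mapDomain S.r D = 0) :
    Finsupp.mapDomain S.r (Td D) = 0 := by
  set Ψ : Divisor L F →+ (Place k Fk →₀ ℤ) :=
    (Finsupp.mapDomain.addMonoidHom S.r).comp Td with hΨ
  have key := S40G5T_kill hL S.r Ψ (C : ℤ) ((C : ℤ) * (2 * RR_genus L F + 1 : ℕ))
    (fun E hE x => ?_) (fun f hf P₀ hsmall x => ?_) D hD
  · exact key
  · have hb := S40G5B_bound hC hE x
    show |Finsupp.mapDomain S.r (Td E) x| ≤ _
    rw [abs_of_nonneg hb.1]
    exact hb.2
  · exact S40G5B_prin hLat hk hg hC f hf P₀ hsmall x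

/-- **(i), class form**: if `r_* D` is principal then `r_* (Td D)` is principal. -/
theorem S40G5B_main [Infinite L] [Infinite k] (hLat : S19RR_Lat S) (hk : RR_Hyp k Fk)
    (hg : RR_genus L F = RR_genus k Fk) (hC : S40G5B_Corr S hL Td t C)
    (D : Divisor L F) (hD : Divisor.IsPrincipal (Finsupp.mapDomain S.r D : Divisor k Fk)) :
    Divisor.IsPrincipal (Finsupp.mapDomain S.r (Td D) : Divisor k Fk) := by
  obtain ⟨w, hw0, hw⟩ := hD
  obtain ⟨u, hu⟩ := S.red_surjective w
  have hune : S.red u ≠ 0 := by rw [hu]; exact hw0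
  have h1 : Finsupp.mapDomain S.r (D - RR_div hL.principal (u : F)) = 0 := by
    rw [Finsupp.mapDomain_sub, S40G5B_rdiv S hL hk u hune, sub_eq_zero]
    ext Q
    rw [hw Q, RR_div_apply, hu]
  have h2 := S40G5B_kill hLat hk hg hC _ h1
  rw [map_sub, Finsupp.mapDomain_sub, sub_eq_zero] at h2
  obtain ⟨htu, htune⟩ := hC.unit u hune
  rw [h2, S40G5B_unit_formula hC hk u hune htu]
  exact ⟨_, htune, fun v => RR_div_apply hk.principal _ v⟩

end Fermat.Agent.S40
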