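import Mathlib
import Fermat.Agent.S40.Geo5RedB
import Fermat.Agent.S40.Geo5H2
import Fermat.Agent.S37.Main
import Fermat.Agent.S37.H1
import Fermat.Agent.S19.RedRRX0

/-!
# TRACK 13 (S40/S44), GEO-5 route 2, item (i), INSTANCE `X₀(N)` (helper25) — prefix `S40G5RI_`

`A` a valuation ring of `ℚ̄` over a prime `p ∤ N`, `ℓ ∤ N` a prime (`ℓ = p` allowed).

* `S40G5RI_main` : **the kernel of `reductionModL A N` is stable under the Hecke operator `T_ℓ`**:
  `reductionModL A N y = 0 ⇒ reductionModL A N (heckeOperatorAlong ℚ̄ N ℓ y) = 0`, for ALL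
  `y ∈ J₀(N)(ℚ̄)` (not only torsion).
* `S40G5RI_main'` : the same for `heckeOperatorBar N ℓ`, `ℓ : Nat.Primes`.
* `S40G5RI_congr` : `red y = red y' ⇒ red (T_ℓ y) = red (T_ℓ y')`.

Proof: the abstract `S40G5B_main` for the correspondence `S37_Td` with multiplicative companion
`S37_t` (norm of `β f`), units and reduction by helper10's H2-gen (`S40G5H_unit`, `S40G5H_rep`).
-/

set_option autoImplicit false
set_option synthInstance.maxHeartbeats 400000
set_option maxHeartbeats 1600000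
set_option linter.unusedSectionVars false
set_option linter.unusedVariables false
set_option linter.style.haveILetI false

open HahnSeries IntermediateField AlgebraicCurve ModularCurve

namespace Fermat.Agent.S40

open Fermat.Agent.S18 Fermat.Agent.Lib Fermat.Agent.GalRep Fermat.Agent.S37 Fermat.Agent.S19

variable (N : ℕ) [NeZero N] (A : ValuationSubring (AlgebraicClosure ℚ)) {ℓ : ℕ} [NeZero ℓ]

/-- `GRS_Stab` from the `q`-expansion formula (H1) of `S37_t`. -/
theorem S40G5RI_stab (hℓN : ¬ ℓ ∣ N) (ζ : (AlgebraicClosure ℚ)ˣ)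
    (hH : ∀ f : ↥(modularFunctionFieldBar N), f ≠ 0 →
      qExpand (AlgebraicClosure ℚ) ℓ (S37_t N ℓ f : LaurentSeries (AlgebraicClosure ℚ)) =
        ES_rhs ℓ ζ (f : LaurentSeries (AlgebraicClosure ℚ))) : GRS_Stab N ℓ ζ := by
  intro f
  by_cases hf : f = 0
  · subst hf
    refine ⟨0, ?_⟩
    rw [ZeroMemClass.coe_zero, map_zero, GRS_rhs_zero]
  · exact ⟨S37_t N ℓ f, by rw [hH f hf, GRS_rhs_of_not_dvd N ℓ hℓN]⟩

/-- `GRS_t = S37_t` on nonzero functions. -/
theorem S40G5RI_t_eq (hℓN : ¬ ℓ ∣ N) (ζ : (AlgebraicClosure ℚ)ˣ)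
    (hH : ∀ f : ↥(modularFunctionFieldBar N), f ≠ 0 →
      qExpand (AlgebraicClosure ℚ) ℓ (S37_t N ℓ f : LaurentSeries (AlgebraicClosure ℚ)) =
        ES_rhs ℓ ζ (f : LaurentSeries (AlgebraicClosure ℚ)))
    (hst : GRS_Stab N ℓ ζ) (f : ↥(modularFunctionFieldBar N)) (hf : f ≠ 0) :
    GRS_t hst f = S37_t N ℓ f :=
  GRS_t_eq hst f _ (by rw [hH f hf, GRS_rhs_of_not_dvd N ℓ hℓN])

/-- **the reduction of `t u` only depends on the reduction of `u`**. -/
theorem S40G5RI_red_congr (hgen : PrincipalGeneratedByIntegral A (IsLocalRing.residue A) N)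
    {ζ : (AlgebraicClosure ℚ)ˣ} (hζ : ζ ^ ℓ = 1) (hst : GRS_Stab N ℓ ζ)
    (u u' : ↥(modularFunctionFieldBar N)) (hu : u ∈ S18_O A N) (hu' : u' ∈ S18_O A N)
    (hred : S18_red A N ⟨u, hu⟩ = S18_red A N ⟨u', hu'⟩)
    (h : GRS_t hst u ∈ S18_O A N) (h' : GRS_t hst u' ∈ S18_O A N) :
    S18_red A N ⟨GRS_t hst u, h⟩ = S18_red A N ⟨GRS_t hst u', h'⟩ := by
  obtain ⟨ζA, hζA⟩ := S40G5H_unit_of_pow A ζ ℓ (NeZero.ne ℓ) hζ
  obtain ⟨s₁, h1, s₂, h2, hne, hf⟩ := hu
  obtain ⟨s₁', h1', s₂', h2', hne', hf'⟩ := hu'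
  obtain ⟨t₁, t₂, ht₁B, ht₂B, hρt₂, ht, hq₁, hq₂⟩ :=
    S40G5H_rep N A hgen ζA hζA hst u h1 h2 hne hf
  obtain ⟨t₁', t₂', ht₁B', ht₂B', hρt₂', ht', hq₁', hq₂'⟩ :=
    S40G5H_rep N A hgen ζA hζA hst u' h1' h2' hne' hf'
  have e := S18_red_eq A N h1 h2 hne hf
  have e' := S18_red_eq A N h1' h2' hne' hf'
  have hred' : S18_ρ A s₁ / S18_ρ A s₂ = S18_ρ A s₁' / S18_ρ A s₂' := by
    rw [← e, ← e']
    exact congrArg Subtype.val hred
  rw [div_eq_div_iff hne hne'] at hred'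
  have E := S18_red_eq A N ht₁B ht₂B hρt₂ ht
  have E' := S18_red_eq A N ht₁B' ht₂B' hρt₂' ht'
  apply Subtype.ext
  have goal : S18_ρ A t₁ / S18_ρ A t₂ = S18_ρ A t₁' / S18_ρ A t₂' := by
    rw [div_eq_div_iff hρt₂ hρt₂']
    apply qExpand_injective ℓ
    rw [map_mul, map_mul, hq₁, hq₂', hq₁', hq₂, ← GRS_rhs_mul, ← GRS_rhs_mul, hred']
  exact E.trans (goal.trans E'.symm)

/-- **(i) of route 2**: the kernel of the reduction map modulo `p` on `J₀(N)(ℚ̄)` is stable
under the Hecke operator `T_ℓ`, `ℓ ∤ N`. -/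
theorem S40G5RI_main {p : ℕ} (hp : p.Prime) (hA : A.LiesOverPrime p) (hpN : ¬ p ∣ N)
    (hℓ : ℓ.Prime) (hℓN : ¬ ℓ ∣ N) (y : JZero N) (hy : reductionModL A N y = 0) :
    reductionModL A N (heckeOperatorAlong (AlgebraicClosure ℚ) N ℓ y) = 0 := by
  have h := RI_main N A hp hA hpN
  obtain ⟨ζ, hζ, hH⟩ := S37_H1 N ℓ hℓ hℓN
  haveI := S18_hPD (N * ℓ)
  have hα : (heckeAlphaBar (AlgebraicClosure ℚ) N ℓ).toRingHom.IsIntegral :=
    S37P_alpha_integral N ℓ
  have hβ : (heckeBetaBar (AlgebraicClosure ℚ) N ℓ).toRingHom.IsIntegral :=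
    S37P_beta_integral N ℓ
  have hFI := S37P_fundamentalIdentity_beta N ℓ
  have hfin := S37P_finiteAlong_alpha N ℓ
  have hN := S37P_normFormula_alpha N ℓ
  have hst := S40G5RI_stab N hℓN ζ hH
  have hgen : PrincipalGeneratedByIntegral A (IsLocalRing.residue A) N := h.choose_spec.2
  have hunit : ∀ u : (S18_specModL N A h).O, (S18_specModL N A h).red u ≠ 0 →
      ∃ h' : S37_t N ℓ (u : ↥(modularFunctionFieldBar N)) ∈ (S18_specModL N A h).O,
        (S18_specModL N A h).red ⟨S37_t N ℓ (u : ↥(modularFunctionFieldBar N)), h'⟩ ≠ 0 := by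
    intro u hu
    have hu0 : (u : ↥(modularFunctionFieldBar N)) ≠ 0 :=
      (S18_specModL N A h).ne_zero_of_red_ne_zero hu
    obtain ⟨h1, h2⟩ := S40G5H_unit N A hgen hζ hst (u : ↥(modularFunctionFieldBar N)) u.2 hu
    have e := S40G5RI_t_eq N hℓN ζ hH hst (u : ↥(modularFunctionFieldBar N)) hu0
    rw [e] at h1
    refine ⟨h1, ?_⟩
    intro h0
    apply h2
    have e2 : (⟨GRS_t hst (u : ↥(modularFunctionFieldBar N)), e ▸ h1⟩ : ↥(S18_O A N)) =
        ⟨S37_t N ℓ (u : ↥(modularFunctionFieldBar N)), h1⟩ := Subtype.ext e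
    rw [e2]
    exact h0
  have hC : S40G5B_Corr (S18_specModL N A h) (S37_hRR N) (S37_Td hα hβ)
      (fun f => S37_t N ℓ f)
      (finrankAlong (AlgebraicClosure ℚ) (heckeBetaBar (AlgebraicClosure ℚ) N ℓ)) :=
    { nonneg := fun E hE => S37_Td_nonneg hα hβ hE
      deg := fun E => Divisor.degree_correspondence _ _ hβ hα hFI E
      div := fun f hf => by
        rw [S37_RR_div_eq, S37_Td_div hα hβ hfin hN f hf, S37_RR_div_eq]
      unit := hunit
      red := by
        intro u u' hu huu' h1 h1'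
        have hu0 : (u : ↥(modularFunctionFieldBar N)) ≠ 0 :=
          (S18_specModL N A h).ne_zero_of_red_ne_zero hu
        have hu'ne : (S18_specModL N A h).red u' ≠ 0 := huu' ▸ hu
        have hu'0 : (u' : ↥(modularFunctionFieldBar N)) ≠ 0 :=
          (S18_specModL N A h).ne_zero_of_red_ne_zero hu'ne
        have e := S40G5RI_t_eq N hℓN ζ hH hst (u : ↥(modularFunctionFieldBar N)) hu0
        have e' := S40G5RI_t_eq N hℓN ζ hH hst (u' : ↥(modularFunctionFieldBar N)) hu'0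
        have k1 : GRS_t hst (u : ↥(modularFunctionFieldBar N)) ∈ S18_O A N := e ▸ h1
        have k1' : GRS_t hst (u' : ↥(modularFunctionFieldBar N)) ∈ S18_O A N := e' ▸ h1'
        have key := S40G5RI_red_congr N A hgen hζ hst (u : ↥(modularFunctionFieldBar N))
          (u' : ↥(modularFunctionFieldBar N)) u.2 u'.2 huu' k1 k1'
        have e2 : (⟨GRS_t hst (u : ↥(modularFunctionFieldBar N)), k1⟩ : ↥(S18_O A N)) =
            ⟨S37_t N ℓ (u : ↥(modularFunctionFieldBar N)), h1⟩ := Subtype.ext e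
        have e2' : (⟨GRS_t hst (u' : ↥(modularFunctionFieldBar N)), k1'⟩ : ↥(S18_O A N)) =
            ⟨S37_t N ℓ (u' : ↥(modularFunctionFieldBar N)), h1'⟩ := Subtype.ext e'
        rw [e2, e2'] at key
        exact key }
  haveI : IsAlgClosed (IsLocalRing.ResidueField A) := S18_residue_isAlgClosed A
  haveI : Infinite (IsLocalRing.ResidueField A) := IsAlgClosed.instInfinite
  have hLat := S19RR_lat_X0 N A hp hpN hA h
  have hk := S18_hk N A hp hA hpN
  have hg := S19RR_genus_X0 N A hp hpN hA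
  rw [heckeOperatorAlong_eq hα hβ hFI hfin hN]
  obtain ⟨D, rfl⟩ := Pic0.mk_surjective y
  have hT : heckePic0Bar hα hβ hFI hfin hN (Pic0.mk D) =
      Pic0.mk (Pic0.degZeroCorrespondence (heckeBetaBar (AlgebraicClosure ℚ) N ℓ)
        (heckeAlphaBar (AlgebraicClosure ℚ) N ℓ) hβ hα hFI D) := rfl
  rw [hT, S37_red_mk h]
  rw [S37_red_mk h] at hy
  have hprin : Divisor.IsPrincipal (Finsupp.mapDomain (S18_specModL N A h).r
      (D : Divisor (AlgebraicClosure ℚ) ↥(modularFunctionFieldBar N))) :=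
    (QuotientAddGroup.eq_zero_iff _).1 hy
  have key := S40G5B_main hLat hk hg hC
    (D : Divisor (AlgebraicClosure ℚ) ↥(modularFunctionFieldBar N)) hprin
  exact (QuotientAddGroup.eq_zero_iff _).2 key

/-- the same for `heckeOperatorBar`. -/
theorem S40G5RI_main' {p : ℕ} (hp : p.Prime) (hA : A.LiesOverPrime p) (hpN : ¬ p ∣ N)
    (q : Nat.Primes) (hqN : ¬ (q : ℕ) ∣ N) (y : JZero N) (hy : reductionModL A N y = 0) :
    reductionModL A N (heckeOperatorBar N q y) = 0 := by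
  haveI : NeZero (q : ℕ) := ⟨q.2.ne_zero⟩
  exact S40G5RI_main N A hp hA hpN q.2 hqN y hy

/-- congruence form: `red y = red y' ⇒ red (T_q y) = red (T_q y')`. -/
theorem S40G5RI_congr {p : ℕ} (hp : p.Prime) (hA : A.LiesOverPrime p) (hpN : ¬ p ∣ N)
    (q : Nat.Primes) (hqN : ¬ (q : ℕ) ∣ N) (y y' : JZero N)
    (hy : reductionModL A N y = reductionModL A N y') :
    reductionModL A N (heckeOperatorBar N q y) = reductionModL A N (heckeOperatorBar N q y') := by
  have h0 : reductionModL A N (y - y') = 0 := by rw [map_sub, hy, sub_self]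
  have h1 := S40G5RI_main' N A hp hA hpN q hqN (y - y') h0
  rw [map_sub, map_sub] at h1
  exact sub_eq_zero.1 h1

end Fermat.Agent.S40
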