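import Mathlib
import Fermat.Agent.S34.Defs
import Fermat.Agent.S34.ValAB
import Fermat.Agent.S34.FibreIso

/-!
# S40 (Mazur–Ribet at `p`, row 38), package G5a of GEO-5 (helper9): the residue field of `V₁`.
Prefix `S40GR_`.

Level `M * p`, `p ∤`-hypothesis NOT needed, `A` a valuation ring of `ℚ̄` over `p`,
`V₁ = S34DF_O1 M p A hgen` the Gauss (`q`-expansion) valuation ring of `F_{Mp}`.

* `S40GR_exists_red` : for `f` in the Gauss ring of level `M p` there is `g` in the Gauss ring of
  level `M` with `red_{Mp} f = red_M g` in `k((t))` (the fibre field does not see `p`: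
  `S34FI_full_eq`, and `red_M` is onto);
* `S40GR_main` : **G5a**: `∀ f ∈ V₁, ∃ g ∈ S18_O A M, V₁.valuation (f − α g) < 1`.
-/

set_option autoImplicit false
set_option linter.unusedSectionVars false
set_option linter.unusedVariables false
set_option linter.style.haveILetI false
set_option synthInstance.maxHeartbeats 400000
set_option maxHeartbeats 1000000

open HahnSeries IntermediateField AlgebraicCurve ModularCurve

noncomputable section

namespace Fermat.Agent.S40

open Fermat.Agent.S18 Fermat.Agent.S24 Fermat.Agent.S34 Fermat.Agent.Lib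

variable (M p : ℕ) [NeZero M] [NeZero p] [NeZero (M * p)]
  (A : ValuationSubring (AlgebraicClosure ℚ))

/-- the reduction of a function of level `M p` is the reduction of a function of level `M`. -/
theorem S40GR_exists_red (hp : p.Prime) (hA : A.LiesOverPrime p)
    (f : ↥(modularFunctionFieldBar (M * p))) (hf : f ∈ S18_O A (M * p)) :
    ∃ (g : ↥(modularFunctionFieldBar M)) (hg : g ∈ S18_O A M),
      ((S18_red A (M * p) ⟨f, hf⟩ :
          ↥(modularFunctionFieldFullC (IsLocalRing.ResidueField A) (M * p))) :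
        LaurentSeries (IsLocalRing.ResidueField A))
      = ((S18_red A M ⟨g, hg⟩ : ↥(modularFunctionFieldFullC (IsLocalRing.ResidueField A) M)) :
        LaurentSeries (IsLocalRing.ResidueField A)) := by
  haveI : CharP (IsLocalRing.ResidueField A) p := S18_residue_charP A p hp hA
  haveI : Fact p.Prime := ⟨hp⟩
  have hmem : ((S18_red A (M * p) ⟨f, hf⟩ :
          ↥(modularFunctionFieldFullC (IsLocalRing.ResidueField A) (M * p))) :
        LaurentSeries (IsLocalRing.ResidueField A))
      ∈ modularFunctionFieldFullC (IsLocalRing.ResidueField A) M := by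
    rw [← S34FI_full_eq (IsLocalRing.ResidueField A) p M]
    exact (S18_red A (M * p) ⟨f, hf⟩).2
  obtain ⟨g, hg⟩ := S18_red_surjective A M ⟨_, hmem⟩
  refine ⟨g.1, g.2, ?_⟩
  have := congrArg Subtype.val hg
  exact this.symm

/-- **G5a**: the residue field of `V₁` is the residue field of the Gauss valuation of level `M`
along `α`. -/
theorem S40GR_main (hp : p.Prime) (hA : A.LiesOverPrime p)
    (hgen : PrincipalGeneratedByIntegral A (IsLocalRing.residue A) (M * p))
    (f : ↥(modularFunctionFieldBar (M * p))) (hf : f ∈ S34DF_O1 M p A hgen) :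
    ∃ g ∈ S18_O A M,
      (S34DF_O1 M p A hgen).valuation (f - heckeAlphaBar (AlgebraicClosure ℚ) M p g) < 1 := by
  have hf' : f ∈ S18_O A (M * p) := hf
  obtain ⟨g, hg, hred⟩ := S40GR_exists_red M p A hp hA f hf'
  refine ⟨g, hg, ?_⟩
  have hαg : heckeAlphaBar (AlgebraicClosure ℚ) M p g ∈ S18_O A (M * p) :=
    S34VW_alpha_mem p A hg
  have hsub : f - heckeAlphaBar (AlgebraicClosure ℚ) M p g ∈ S34DF_O1 M p A hgen :=
    sub_mem hf hαg
  -- the reduction of the difference vanishes
  have h0 : (S18_gaussModL (M * p) A hgen).red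
      ⟨f - heckeAlphaBar (AlgebraicClosure ℚ) M p g, hsub⟩ = 0 := by
    have e : (⟨f - heckeAlphaBar (AlgebraicClosure ℚ) M p g, hsub⟩ :
        (S18_gaussModL (M * p) A hgen).O)
        = (⟨f, hf⟩ : (S18_gaussModL (M * p) A hgen).O)
          - ⟨heckeAlphaBar (AlgebraicClosure ℚ) M p g, hαg⟩ := rfl
    rw [e, map_sub, sub_eq_zero]
    apply Subtype.ext
    show ((S18_red A (M * p) ⟨f, hf'⟩ :
          ↥(modularFunctionFieldFullC (IsLocalRing.ResidueField A) (M * p))) :
        LaurentSeries (IsLocalRing.ResidueField A))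
      = ((S18_red A (M * p) ⟨heckeAlphaBar (AlgebraicClosure ℚ) M p g, hαg⟩ :
          ↥(modularFunctionFieldFullC (IsLocalRing.ResidueField A) (M * p))) :
        LaurentSeries (IsLocalRing.ResidueField A))
    rw [hred, S34VW_red_alpha p A hg]
  -- not a unit, hence of valuation `< 1`
  have hnu : ¬ IsUnit (⟨f - heckeAlphaBar (AlgebraicClosure ℚ) M p g, hsub⟩ :
      (S18_gaussModL (M * p) A hgen).O) := by
    intro hu
    exact ((S18_gaussModL (M * p) A hgen).red_ne_zero_iff _).2 hu h0
  have hle : (S34DF_O1 M p A hgen).valuation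
      (f - heckeAlphaBar (AlgebraicClosure ℚ) M p g) ≤ 1 :=
    (ValuationSubring.valuation_le_one_iff _ _).2 hsub
  rcases lt_or_eq_of_le hle with h | h
  · exact h
  · exfalso
    apply hnu
    have := (ValuationSubring.valuation_eq_one_iff (S34DF_O1 M p A hgen)
      (⟨f - heckeAlphaBar (AlgebraicClosure ℚ) M p g, hsub⟩ : (S34DF_O1 M p A hgen))).2 h
    exact this

end Fermat.Agent.S40
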