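import Mathlib
import Fermat.Agent.S37.Main
import Fermat.Agent.S37.H1
import Fermat.Agent.S19.RedRRX0
import Fermat.Agent.S17.RRSharp
import Fermat.Agent.S18.Sep
import Fermat.Agent.S40.Geo5H2
import Fermat.Agent.S40.Geo5Trick

/-!
# TRACK 13 (S40), GEO-5, route 2 item (i) (helper10), prefix `S40G5R_`:
the reduction of `T_ℓ` is well defined on ALL classes

Abstract part (`S : S18_Spec L F k Fk`, Riemann on both sides, equal genera, the lattice lemma,
a multiplicative map `t` and a correspondence `Td` on divisors with `Td (div f) = div (t f)`,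
positive, of degree `C`, with `t` keeping the units and the `1`-units of the Gauss ring):

* `S40G5R_abs_congr` : `r_* D = r_* D'  ⇒  r_* (Td D) = r_* (Td D')`   (ALL divisors);
* `S40G5R_abs_unit`  : `f ∈ O`, `red f ≠ 0` ⇒ `r_* (Td (div f)) = div (red (t f))`;
* `S40G5R_abs_prin`  : `r_* D = div g`, `g ≠ 0` ⇒ `r_* (Td D) = div g'` for some `g' ≠ 0`.

Instance `X₀(N)` over `ℚ̄`, `A | p`, `p ∤ N`, `ℓ ∤ N` prime:

* `S40G5R_congr`, `S40G5R_unit`, `S40G5R_prin` : the same for `S37_Td`, `S37_t`;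
* `S40G5R_red_zero` : `reductionModL A N y = 0 ⇒ reductionModL A N (T_ℓ y) = 0`;
* `S40G5R_red_congr` : `reductionModL A N y = reductionModL A N y' ⇒` the same for `T_ℓ y, T_ℓ y'`.
-/

set_option autoImplicit false
set_option synthInstance.maxHeartbeats 400000
set_option maxHeartbeats 1000000
set_option linter.unusedSectionVars false
set_option linter.style.haveILetI false

open HahnSeries IntermediateField AlgebraicCurve ModularCurve

namespace Fermat.Agent.S40

open Fermat.Agent.S18 Fermat.Agent.Lib Fermat.Agent.GalRep Fermat.Agent.S37 Fermat.Agent.S19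
  Fermat.Agent.S17

section Abstract

variable {L F k Fk : Type*} [Field L] [Field F] [Algebra L F] [Field k] [Field Fk]
  [Algebra k Fk]

theorem S40G5R_div_mul (hP : HasPrincipalDivisors L F) {f g : F} (hf : f ≠ 0) (hg : g ≠ 0) :
    RR_div hP (f * g) = RR_div hP f + RR_div hP g := by
  ext v
  rw [Finsupp.add_apply, RR_div_apply, RR_div_apply, RR_div_apply, v.ord_mul hf hg]

theorem S40G5R_div_const (hP : HasPrincipalDivisors L F) (c : L) :
    RR_div hP (algebraMap L F c) = 0 := by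
  ext v
  rw [RR_div_apply, S18_Spec.ord_algebraMap, Finsupp.zero_apply]

theorem S40G5R_div_one (hP : HasPrincipalDivisors L F) : RR_div hP (1 : F) = 0 := by
  ext v
  rw [RR_div_apply, Place.ord_one, Finsupp.zero_apply]

variable (S : S18_Spec L F k Fk) (hL : RR_Hyp L F) (hk : RR_Hyp k Fk)

/-- `r_* (div x) = div (red x)` for the units of the Gauss ring. -/
theorem S40G5R_rdiv_unit (x : S.O) (hx : S.red x ≠ 0) :
    Finsupp.mapDomain S.r (RR_div hL.principal (x : F)) = RR_div hk.principal (S.red x) := by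
  ext Q
  rw [RR_div_apply]
  exact S.mapDomain_div x hx _ (fun P => RR_div_apply _ _ P) Q

variable (t : F →*₀ F) (Td : Divisor L F →+ Divisor L F) (C : ℤ)
  (hdiv : ∀ f : F, f ≠ 0 → Td (RR_div hL.principal f) = RR_div hL.principal (t f))
  (hnn : ∀ E : Divisor L F, 0 ≤ E → 0 ≤ Td E)
  (hdeg : ∀ E : Divisor L F, (Td E).degree = C * E.degree)
  (hunit : ∀ u : S.O, S.red u ≠ 0 → ∃ h : t (u : F) ∈ S.O, S.red ⟨t (u : F), h⟩ ≠ 0)
  (hone : ∀ u : S.O, S.red u = 1 → ∃ h : t (u : F) ∈ S.O, S.red ⟨t (u : F), h⟩ = 1)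

include hdiv hunit in
/-- `r_* (Td (div f)) = div (red (t f))` for the units of the Gauss ring. -/
theorem S40G5R_abs_unit (f : S.O) (hf : S.red f ≠ 0) :
    ∃ h : t (f : F) ∈ S.O, S.red ⟨t (f : F), h⟩ ≠ 0 ∧
      Finsupp.mapDomain S.r (Td (RR_div hL.principal (f : F))) =
        RR_div hk.principal (S.red ⟨t (f : F), h⟩) := by
  obtain ⟨h, hne⟩ := hunit f hf
  refine ⟨h, hne, ?_⟩
  rw [hdiv _ (S.ne_zero_of_red_ne_zero hf)]
  exact S40G5R_rdiv_unit S hL hk ⟨t (f : F), h⟩ hne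

include hk hone in
/-- two units with the same reduction: `r_* div (t u) = r_* div (t u')`. -/
theorem S40G5R_abs_same (u u' : S.O) (hu : S.red u ≠ 0) (huu : S.red u = S.red u') :
    Finsupp.mapDomain S.r (RR_div hL.principal (t (u : F))) =
      Finsupp.mapDomain S.r (RR_div hL.principal (t (u' : F))) := by
  have hu' : S.red u' ≠ 0 := huu ▸ hu
  have hU' : IsUnit u' := (S.red_ne_zero_iff u').1 hu'
  set w : S.O := ((hU'.unit⁻¹ : S.Oˣ) : S.O) with hw
  have hw1 : u' * w = 1 := by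
    rw [hw]
    exact hU'.mul_val_inv
  set v : S.O := u * w with hv
  have hredv : S.red v = 1 := by
    rw [hv, map_mul, huu, ← map_mul, hw1, map_one]
  have hvu : (u : F) = (v : F) * (u' : F) := by
    have : u = v * u' := by
      rw [hv, mul_assoc, mul_comm w u', hw1, mul_one]
    exact congrArg Subtype.val this
  obtain ⟨h, h1⟩ := hone v hredv
  have hv0 : (v : F) ≠ 0 := S.ne_zero_of_red_ne_zero (by rw [hredv]; exact one_ne_zero)
  have hu'0 : (u' : F) ≠ 0 := S.ne_zero_of_red_ne_zero hu'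
  have htv0 : t (v : F) ≠ 0 := (map_ne_zero t).2 hv0
  have htu'0 : t (u' : F) ≠ 0 := (map_ne_zero t).2 hu'0
  rw [hvu, map_mul, S40G5R_div_mul hL.principal htv0 htu'0, Finsupp.mapDomain_add]
  have h0 : Finsupp.mapDomain S.r (RR_div hL.principal (t (v : F))) = 0 := by
    have := S40G5R_rdiv_unit S hL hk ⟨t (v : F), h⟩ (by rw [h1]; exact one_ne_zero)
    rw [h1, S40G5R_div_one] at this
    exact this
  rw [h0, zero_add]

include hL hnn hdeg in
/-- the bound on the effective divisors. -/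
theorem S40G5R_abs_bound (E : Divisor L F) (hE : 0 ≤ E) (Q : Place k Fk) :
    |Finsupp.mapDomain S.r (Td E) Q| ≤ C * E.degree := by
  have h0 : 0 ≤ Td E := hnn E hE
  have h1 : 0 ≤ Finsupp.mapDomain S.r (Td E) Q :=
    Finsupp.le_def.1 (S37_mapDomain_nonneg _ h0) Q
  have h2 : Finsupp.mapDomain S.r (Td E) Q ≤ (Td E).degree := by
    rw [RR_degree_eq_sum hL.deg_one]
    exact S37_mapDomain_apply_le _ h0 Q
  rw [abs_of_nonneg h1, ← hdeg E]
  exact h2

variable [Infinite L] [Infinite k] (hg : RR_genus L F = RR_genus k Fk) (hLat : S19RR_Lat S)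

include hL hk hg hLat in
/-- lifting a function with a pole of order `≤ 2g` at `r P₀` only. -/
theorem S40G5R_abs_lift (P₀ : Place L F) (w : Fk)
    (hw : w ∈ riemannRochSpace
      (Finsupp.single (S.r P₀) ((2 * RR_genus L F : ℕ) : ℤ) : Divisor k Fk)) :
    ∃ f : S.O, (f : F) ∈ riemannRochSpace
        (Finsupp.single P₀ ((2 * RR_genus L F : ℕ) : ℤ) : Divisor L F) ∧ S.red f = w := by
  set G : ℕ := 2 * RR_genus L F with hG
  set D₁ : Divisor L F := Finsupp.single P₀ (G : ℤ) with hD₁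
  have hr : (Finsupp.mapDomain S.r D₁ : Divisor k Fk) = Finsupp.single (S.r P₀) (G : ℤ) := by
    rw [hD₁, Finsupp.mapDomain_single]
  have hdeg₁ : D₁.degree = (G : ℤ) := by
    rw [hD₁, Divisor.degree_single, hL.deg_one, Nat.cast_one, mul_one]
  have hdegk : Divisor.degree (Finsupp.mapDomain S.r D₁ : Divisor k Fk) = (G : ℤ) := by
    rw [hr, Divisor.degree_single, hk.deg_one, Nat.cast_one, mul_one]
  have h1 := S17RS_riemann_eq hL D₁ (by rw [hdeg₁, hG]; push_cast; rfl)
  have h2 := S17RS_riemann_eq hk (Finsupp.mapDomain S.r D₁ : Divisor k Fk)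
    (by rw [hdegk, ← hg, hG]; push_cast; rfl)
  rw [hdeg₁] at h1
  rw [hdegk, ← hg] at h2
  haveI : FiniteDimensional k
      (riemannRochSpace (Finsupp.mapDomain S.r D₁ : Divisor k Fk)) := RR_finite hk _
  have hle : Module.finrank k (riemannRochSpace (Finsupp.mapDomain S.r D₁ : Divisor k Fk)) ≤
      Module.finrank L (riemannRochSpace D₁) := by
    have : (Module.finrank k (riemannRochSpace (Finsupp.mapDomain S.r D₁ : Divisor k Fk)) : ℤ) =
        (Module.finrank L (riemannRochSpace D₁) : ℤ) := by rw [h1, h2]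
    exact le_of_eq (by exact_mod_cast this)
  exact S19RR_onto hLat hL.principal D₁ hle w (by rw [hr]; exact hw)

include hk hg hLat hdiv hnn hdeg hone in
/-- the bound on the principal divisors whose reduction has poles of order `≤ g` at one place
only. -/
theorem S40G5R_abs_hprin (f : F) (hf : f ≠ 0) (P₀ : Place L F)
    (hpos : 0 ≤ Finsupp.mapDomain S.r (RR_div hL.principal f) +
      (RR_genus L F : ℤ) • Finsupp.single (S.r P₀) (1 : ℤ))
    (Q : Place k Fk) :
    |Finsupp.mapDomain S.r (Td (RR_div hL.principal f)) Q| ≤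
      2 * (C * ((2 * RR_genus L F : ℕ) : ℤ)) := by
  classical
  set G : ℕ := 2 * RR_genus L F with hG
  obtain ⟨c, u, hc, hu, rfl⟩ := S.exists_const_mul_unit f hf
  have hu0 : (u : F) ≠ 0 := S.ne_zero_of_red_ne_zero hu
  have hc0 : algebraMap L F c ≠ 0 := by
    rw [Ne, map_eq_zero_iff _ (algebraMap L F).injective]
    exact hc
  have hdivf : RR_div hL.principal (algebraMap L F c * (u : F)) = RR_div hL.principal (u : F) := by
    rw [S40G5R_div_mul hL.principal hc0 hu0, S40G5R_div_const, zero_add]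
  rw [hdivf] at hpos ⊢
  rw [S40G5R_rdiv_unit S hL hk u hu] at hpos
  -- `red u ∈ L̄(G · r P₀)`
  have hw : S.red u ∈ riemannRochSpace
      (Finsupp.single (S.r P₀) ((G : ℕ) : ℤ) : Divisor k Fk) := by
    rw [RR_mem_iff_div hk.principal hu, Finsupp.le_def]
    intro Q'
    have h1 := Finsupp.le_def.1 hpos Q'
    rw [Finsupp.zero_apply, Finsupp.add_apply, Finsupp.smul_apply, smul_eq_mul] at h1
    rw [Finsupp.zero_apply, Finsupp.add_apply]
    have h2 : (RR_genus L F : ℤ) * (Finsupp.single (S.r P₀) (1 : ℤ)) Q' ≤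
        (Finsupp.single (S.r P₀) ((G : ℕ) : ℤ) : Divisor k Fk) Q' := by
      rw [Finsupp.single_apply, Finsupp.single_apply]
      split_ifs
      · rw [hG]
        push_cast
        linarith [Nat.cast_nonneg (α := ℤ) (RR_genus L F)]
      · simp
    linarith
  obtain ⟨f', hf', hred⟩ := S40G5R_abs_lift S hL hk hg hLat P₀ (S.red u) hw
  have hf'u : S.red f' ≠ 0 := by rw [hred]; exact hu
  have hf'0 : (f' : F) ≠ 0 := S.ne_zero_of_red_ne_zero hf'u
  have hsame := S40G5R_abs_same S hL hk t hone u f' hu hred.symm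
  rw [hdiv _ hu0, hsame, ← hdiv _ hf'0]
  -- `div f' = E' - D₁`
  set D₁ : Divisor L F := Finsupp.single P₀ ((G : ℕ) : ℤ) with hD₁
  have hE' : 0 ≤ D₁ + RR_div hL.principal (f' : F) := (RR_mem_iff_div hL.principal hf'0).1 hf'
  have hD₁nn : 0 ≤ D₁ := by
    rw [hD₁, Finsupp.le_def]
    intro v
    rw [Finsupp.zero_apply, Finsupp.single_apply]
    split_ifs
    · exact Nat.cast_nonneg _
    · exact le_rfl
  have hdegD₁ : D₁.degree = (G : ℤ) := by
    rw [hD₁, Divisor.degree_single, hL.deg_one, Nat.cast_one, mul_one]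
  have hdegE' : (D₁ + RR_div hL.principal (f' : F)).degree = (G : ℤ) := by
    rw [map_add, RR_div_degree, add_zero, hdegD₁]
  have hsplit : RR_div hL.principal (f' : F) = (D₁ + RR_div hL.principal (f' : F)) - D₁ := by
    abel
  rw [hsplit, map_sub, Finsupp.mapDomain_sub, Finsupp.sub_apply]
  have b1 := S40G5R_abs_bound S hL Td C hnn hdeg _ hE' Q
  have b2 := S40G5R_abs_bound S hL Td C hnn hdeg _ hD₁nn Q
  rw [hdegE'] at b1
  rw [hdegD₁] at b2
  rw [abs_le] at b1 b2 ⊢
  constructor <;> linarith [b1.1, b1.2, b2.1, b2.2]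

include hk hg hLat hdiv hnn hdeg hone in
/-- **(E1), abstract**: `r_* (Td D)` depends on `r_* D` only. -/
theorem S40G5R_abs_congr (D D' : Divisor L F)
    (hDD : Finsupp.mapDomain S.r D = Finsupp.mapDomain S.r D') :
    Finsupp.mapDomain S.r (Td D) = Finsupp.mapDomain S.r (Td D') := by
  set Ψ : Divisor L F →+ (Place k Fk →₀ ℤ) :=
    (Finsupp.mapDomain.addMonoidHom S.r).comp Td with hΨ
  have key := S40G5T_kill hL S.r Ψ C (2 * (C * ((2 * RR_genus L F : ℕ) : ℤ)))
    (fun E hE Q => S40G5R_abs_bound S hL Td C hnn hdeg E hE Q)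
    (fun f hf P₀ hpos Q =>
      S40G5R_abs_hprin S hL hk t Td C hdiv hnn hdeg hone hg hLat f hf P₀ hpos Q)
    (D - D') (by rw [Finsupp.mapDomain_sub, hDD, sub_self])
  have : Ψ D - Ψ D' = 0 := by rw [← map_sub]; exact key
  exact sub_eq_zero.1 this

include hk hg hLat hdiv hnn hdeg hone hunit in
/-- **(E3), abstract**: if `r_* D` is principal then so is `r_* (Td D)`. -/
theorem S40G5R_abs_prin (D : Divisor L F) (g : Fk) (hg0 : g ≠ 0)
    (hD : Finsupp.mapDomain S.r D = RR_div hk.principal g) :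
    ∃ g' : Fk, g' ≠ 0 ∧ Finsupp.mapDomain S.r (Td D) = RR_div hk.principal g' := by
  obtain ⟨g₀, hg₀⟩ := S.red_surjective g
  have hne : S.red g₀ ≠ 0 := by rw [hg₀]; exact hg0
  obtain ⟨h', hne', he⟩ := S40G5R_abs_unit S hL hk t Td hdiv hunit g₀ hne
  refine ⟨S.red ⟨t (g₀ : F), h'⟩, hne', ?_⟩
  rw [← he]
  refine S40G5R_abs_congr S hL hk t Td C hdiv hnn hdeg hone hg hLat D _ ?_
  rw [hD, S40G5R_rdiv_unit S hL hk g₀ hne, hg₀]

end Abstract

section X0

variable (N : ℕ) [NeZero N] (A : ValuationSubring (AlgebraicClosure ℚ)) {p : ℕ}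
  {ℓ : ℕ} [NeZero ℓ]

/-- STAB from (H1), `ℓ ∤ N`. -/
theorem S40G5R_stab (hℓN : ¬ ℓ ∣ N) (ζ : (AlgebraicClosure ℚ)ˣ)
    (hH : ∀ f : ↥(modularFunctionFieldBar N), f ≠ 0 →
      qExpand (AlgebraicClosure ℚ) ℓ (S37_t N ℓ f : LaurentSeries (AlgebraicClosure ℚ)) =
        ES_rhs ℓ ζ (f : LaurentSeries (AlgebraicClosure ℚ))) :
    GRS_Stab N ℓ ζ := by
  intro f
  by_cases hf : f = 0
  · refine ⟨0, ?_⟩
    rw [hf]
    show qExpand (AlgebraicClosure ℚ) ℓ 0 = GRS_rhs N ℓ ζ 0
    rw [map_zero, GRS_rhs_zero]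
  · refine ⟨S37_t N ℓ f, ?_⟩
    rw [GRS_rhs_of_not_dvd N ℓ hℓN]
    exact hH f hf

/-- `GRS_t = S37_t` on the nonzero functions, `ℓ ∤ N`. -/
theorem S40G5R_t_eq (hℓN : ¬ ℓ ∣ N) (ζ : (AlgebraicClosure ℚ)ˣ)
    (hH : ∀ f : ↥(modularFunctionFieldBar N), f ≠ 0 →
      qExpand (AlgebraicClosure ℚ) ℓ (S37_t N ℓ f : LaurentSeries (AlgebraicClosure ℚ)) =
        ES_rhs ℓ ζ (f : LaurentSeries (AlgebraicClosure ℚ)))
    (hst : GRS_Stab N ℓ ζ) (f : ↥(modularFunctionFieldBar N)) (hf : f ≠ 0) :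
    GRS_t hst f = S37_t N ℓ f := by
  refine GRS_t_eq hst f _ ?_
  rw [GRS_rhs_of_not_dvd N ℓ hℓN]
  exact hH f hf

variable (hp : p.Prime) (hA : A.LiesOverPrime p) (hpN : ¬ p ∣ N) (h : ReductionInputsModL A N)
  (hℓ : ℓ.Prime) (hℓN : ¬ ℓ ∣ N)
  (hα : (heckeAlphaBar (AlgebraicClosure ℚ) N ℓ).toRingHom.IsIntegral)
  (hβ : (heckeBetaBar (AlgebraicClosure ℚ) N ℓ).toRingHom.IsIntegral)
  [HasPrincipalDivisors (AlgebraicClosure ℚ) ↥(modularFunctionFieldBar (N * ℓ))]

include hp hA hpN hℓ hℓN in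
/-- **(E1)**: `r_* (T_ℓ D)` depends on `r_* D` only, ALL divisors `D` of `X₀(N)`. -/
theorem S40G5R_congr (D D' : Divisor (AlgebraicClosure ℚ) ↥(modularFunctionFieldBar N))
    (hDD : Finsupp.mapDomain (placeReductionModL h) D =
      Finsupp.mapDomain (placeReductionModL h) D') :
    Finsupp.mapDomain (placeReductionModL h) (S37_Td hα hβ D) =
      Finsupp.mapDomain (placeReductionModL h) (S37_Td hα hβ D') := by
  obtain ⟨ζ, hζ, hH⟩ := S37_H1 N ℓ hℓ hℓN
  have hst := S40G5R_stab N hℓN ζ hH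
  have hFI : FundamentalIdentityAlong (AlgebraicClosure ℚ)
      (heckeBetaBar (AlgebraicClosure ℚ) N ℓ) hβ := S37P_fundamentalIdentity_beta N ℓ
  have hfin := S37P_finiteAlong_alpha N ℓ
  have hN : NormFormulaAlong (AlgebraicClosure ℚ) (heckeAlphaBar (AlgebraicClosure ℚ) N ℓ) hfin :=
    S37P_normFormula_alpha N ℓ
  haveI : IsAlgClosed (IsLocalRing.ResidueField A) := S18_residue_isAlgClosed A
  haveI : Infinite (IsLocalRing.ResidueField A) := IsAlgClosed.instInfinite
  haveI : Infinite (AlgebraicClosure ℚ) := IsAlgClosed.instInfinite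
  exact S40G5R_abs_congr (S18_specModL N A h) (S37_hRR N) (S18_hk N A hp hA hpN) (GRS_t hst)
    (S37_Td hα hβ)
    (finrankAlong (AlgebraicClosure ℚ) (heckeBetaBar (AlgebraicClosure ℚ) N ℓ) : ℤ)
    (fun f hf => by
      rw [S37_RR_div_eq, S37_RR_div_eq, S40G5R_t_eq N hℓN ζ hH hst f hf,
        S37_Td_div hα hβ hfin hN f hf])
    (fun E hE => S37_Td_nonneg hα hβ hE)
    (fun E => Divisor.degree_correspondence _ _ hβ hα hFI E)
    (fun u hu => S40G5H_main N A h.choose_spec.2 hζ hst u.1 u.2 hu)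
    (S19RR_genus_X0 N A hp hpN hA) (S19RR_lat_X0 N A hp hpN hA h) D D' hDD

include hℓ hℓN in
/-- **(E2)**: `r_* (T_ℓ (div f)) = div (red (t f))` for the units `f` of the Gauss ring. -/
theorem S40G5R_unit (f : ↥(modularFunctionFieldBar N)) (hf : f ∈ S18_O A N)
    (hred : S18_red A N ⟨f, hf⟩ ≠ 0) :
    ∃ w : ↥(S18_O A N), (w : ↥(modularFunctionFieldBar N)) = S37_t N ℓ f ∧
      S18_red A N w ≠ 0 ∧
      Finsupp.mapDomain (placeReductionModL h) (S37_Td hα hβ (ES_div N f)) =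
        RR_div (S18_hk N A hp hA hpN).principal
          (S18_red A N w : ↥(modularFunctionFieldFullC (IsLocalRing.ResidueField A) N)) := by
  obtain ⟨ζ, hζ, hH⟩ := S37_H1 N ℓ hℓ hℓN
  have hst := S40G5R_stab N hℓN ζ hH
  have hfin := S37P_finiteAlong_alpha N ℓ
  have hN : NormFormulaAlong (AlgebraicClosure ℚ) (heckeAlphaBar (AlgebraicClosure ℚ) N ℓ) hfin :=
    S37P_normFormula_alpha N ℓ
  obtain ⟨h', hne, he⟩ := S40G5R_abs_unit (S18_specModL N A h) (S37_hRR N)
    (S18_hk N A hp hA hpN) (GRS_t hst) (S37_Td hα hβ)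
    (fun f hf => by
      rw [S37_RR_div_eq, S37_RR_div_eq, S40G5R_t_eq N hℓN ζ hH hst f hf,
        S37_Td_div hα hβ hfin hN f hf])
    (fun u hu => S40G5H_unit N A h.choose_spec.2 hζ hst u.1 u.2 hu)
    ⟨f, hf⟩ hred
  have hf0 : f ≠ 0 := (S18_specModL N A h).ne_zero_of_red_ne_zero (x := ⟨f, hf⟩) hred
  refine ⟨⟨GRS_t hst f, h'⟩, S40G5R_t_eq N hℓN ζ hH hst f hf0, hne, ?_⟩
  rw [← S37_RR_div_eq]
  exact he

include hp hA hpN hℓ hℓN in
/-- **(E3)**: if `r_* D` is principal then so is `r_* (T_ℓ D)`. -/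
theorem S40G5R_prin (D : Divisor (AlgebraicClosure ℚ) ↥(modularFunctionFieldBar N))
    (g : ↥(modularFunctionFieldFullC (IsLocalRing.ResidueField A) N)) (hg0 : g ≠ 0)
    (hD : ∀ Q, Finsupp.mapDomain (placeReductionModL h) D Q = Q.ord g) :
    ∃ g' : ↥(modularFunctionFieldFullC (IsLocalRing.ResidueField A) N), g' ≠ 0 ∧
      ∀ Q, Finsupp.mapDomain (placeReductionModL h) (S37_Td hα hβ D) Q = Q.ord g' := by
  obtain ⟨g₀, hg₀⟩ := (S18_specModL N A h).red_surjective g
  have hne : (S18_specModL N A h).red g₀ ≠ 0 := by rw [hg₀]; exact hg0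
  obtain ⟨w, hw, hwne, he⟩ := S40G5R_unit N A hp hA hpN h hℓ hℓN hα hβ g₀.1 g₀.2 hne
  refine ⟨S18_red A N w, hwne, fun Q => ?_⟩
  have h1 : Finsupp.mapDomain (placeReductionModL h) D =
      Finsupp.mapDomain (placeReductionModL h) (ES_div N (g₀ : ↥(modularFunctionFieldBar N))) := by
    ext Q'
    rw [hD Q', ← hg₀]
    exact ((S18_specModL N A h).mapDomain_div g₀ hne _ (fun P => ES_div_apply N _ P) Q').symm
  rw [S40G5R_congr N A hp hA hpN h hℓ hℓN hα hβ D _ h1, he, RR_div_apply]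

end X0

section Classes

variable (N : ℕ) [NeZero N] (A : ValuationSubring (AlgebraicClosure ℚ)) {p : ℕ}
  {ℓ : ℕ} [NeZero ℓ]
  (hp : p.Prime) (hA : A.LiesOverPrime p) (hpN : ¬ p ∣ N) (hℓ : ℓ.Prime) (hℓN : ¬ ℓ ∣ N)

include hp hA hpN hℓ hℓN in
/-- **(E4), kernel form**: `T_ℓ` preserves the kernel of the reduction map, on ALL of `J₀(N)`
(`A | p`, `p ∤ N`, `ℓ ∤ N` prime; `ℓ = p` allowed). -/
theorem S40G5R_red_zero (y : JZero N) (hy : reductionModL A N y = 0) :
    reductionModL A N (heckeOperatorAlong (AlgebraicClosure ℚ) N ℓ y) = 0 := by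
  have h : ReductionInputsModL A N := RI_main N A hp hA hpN
  haveI := S18_hPD (N * ℓ)
  have hα : (heckeAlphaBar (AlgebraicClosure ℚ) N ℓ).toRingHom.IsIntegral :=
    S37P_alpha_integral N ℓ
  have hβ : (heckeBetaBar (AlgebraicClosure ℚ) N ℓ).toRingHom.IsIntegral :=
    S37P_beta_integral N ℓ
  have hFI := S37P_fundamentalIdentity_beta N ℓ
  have hfin := S37P_finiteAlong_alpha N ℓ
  have hN := S37P_normFormula_alpha N ℓ
  rw [heckeOperatorAlong_eq hα hβ hFI hfin hN]
  obtain ⟨D, rfl⟩ := Pic0.mk_surjective y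
  have hT : heckePic0Bar hα hβ hFI hfin hN (Pic0.mk D) =
      Pic0.mk (Pic0.degZeroCorrespondence (heckeBetaBar (AlgebraicClosure ℚ) N ℓ)
        (heckeAlphaBar (AlgebraicClosure ℚ) N ℓ) hβ hα hFI D) := rfl
  rw [hT, S37_red_mk h]
  have h2 : reductionDegZeroAlong (placeReductionModL h)
      (isPlaceReductionModL_placeReductionModL h).1 D ∈
      (Divisor.principal (K := IsLocalRing.ResidueField A)
        (F := ↥(modularFunctionFieldFullC (IsLocalRing.ResidueField A) N))).addSubgroupOf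
        Divisor.degZero := by
    have := reductionModL_mk h D
    rw [hy] at this
    exact (QuotientAddGroup.eq_zero_iff _).mp this.symm
  rw [AddSubgroup.mem_addSubgroupOf, coe_reductionDegZeroAlong] at h2
  obtain ⟨w, hw0, hw⟩ := h2
  obtain ⟨g', hg', he⟩ := S40G5R_prin N A hp hA hpN h hℓ hℓN hα hβ
    (D : Divisor (AlgebraicClosure ℚ) ↥(modularFunctionFieldBar N)) w hw0 hw
  refine (QuotientAddGroup.eq_zero_iff _).mpr (AddSubgroup.mem_addSubgroupOf.mpr ?_)
  rw [coe_reductionDegZeroAlong]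
  exact ⟨g', hg', fun Q => he Q⟩

include hp hA hpN hℓ hℓN in
/-- **(E4)**: the reduction of `T_ℓ y` depends on the reduction of `y` only. -/
theorem S40G5R_red_congr (y y' : JZero N) (hy : reductionModL A N y = reductionModL A N y') :
    reductionModL A N (heckeOperatorAlong (AlgebraicClosure ℚ) N ℓ y) =
      reductionModL A N (heckeOperatorAlong (AlgebraicClosure ℚ) N ℓ y') := by
  have h0 : reductionModL A N (y - y') = 0 := by rw [map_sub, hy, sub_self]
  have h1 := S40G5R_red_zero N A hp hA hpN hℓ hℓN (y - y') h0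
  rw [map_sub, map_sub, sub_eq_zero] at h1
  exact h1

include hp hA hpN in
/-- **(E4)** for `heckeOperatorBar`. -/
theorem S40G5R_red_zero_bar (q : Nat.Primes) (hqN : ¬ (q : ℕ) ∣ N) (y : JZero N)
    (hy : reductionModL A N y = 0) : reductionModL A N (heckeOperatorBar N q y) = 0 := by
  haveI : NeZero (q : ℕ) := ⟨q.2.ne_zero⟩
  rw [heckeOperatorBar_apply]
  exact S40G5R_red_zero N A hp hA hpN q.2 hqN y hy

include hp hA hpN in
/-- **(E4)** for `heckeOperatorBar`, congruence form. -/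
theorem S40G5R_red_congr_bar (q : Nat.Primes) (hqN : ¬ (q : ℕ) ∣ N) (y y' : JZero N)
    (hy : reductionModL A N y = reductionModL A N y') :
    reductionModL A N (heckeOperatorBar N q y) = reductionModL A N (heckeOperatorBar N q y') := by
  haveI : NeZero (q : ℕ) := ⟨q.2.ne_zero⟩
  rw [heckeOperatorBar_apply, heckeOperatorBar_apply]
  exact S40G5R_red_congr N A hp hA hpN q.2 hqN y y' hy

end Classes

end Fermat.Agent.S40
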