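import Mathlib
import Fermat.Agent.S40.Geo5Red
import Fermat.Agent.S40.Geo5Wire
import Fermat.Agent.S40.G5Res

/-!
# TRACK 13 (S40/S44, row 38), GEO-5 route 2, item (iv-b) (helper13).  Prefix `S40R4_`.

The eigen-property of the class `c = [div(ū₁)/p]` of the reduced Jacobian.
-/

set_option autoImplicit false
set_option linter.unusedSectionVars false
set_option linter.unusedVariables false
set_option linter.style.haveILetI false
set_option synthInstance.maxHeartbeats 400000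
set_option maxHeartbeats 1000000

open HahnSeries IntermediateField AlgebraicCurve ModularCurve

noncomputable section

namespace Fermat.Agent.S40

open Fermat.Agent.S17 Fermat.Agent.S18 Fermat.Agent.S19 Fermat.Agent.S24 Fermat.Agent.S32
  Fermat.Agent.S33 Fermat.Agent.S34 Fermat.Agent.S37 Fermat.Agent.GalRep Fermat.Agent.Lib

local notation "Kb" => AlgebraicClosure ℚ

section zeta

variable (N ℓ : ℕ) [NeZero N] [NeZero ℓ]

/-- a PRIMITIVE `ℓ`-th root of unity for which (H1) holds for the norm `S37_t`. -/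
theorem S40R4_exists_zeta (hℓ : ℓ.Prime) (hℓN : ¬ ℓ ∣ N) :
    ∃ ζ : Kbˣ, IsPrimitiveRoot (ζ : Kb) ℓ ∧
      ∀ f : ↥(modularFunctionFieldBar N), f ≠ 0 →
        qExpand Kb ℓ (S37_t N ℓ f : LaurentSeries Kb) = ES_rhs ℓ ζ (f : LaurentSeries Kb) := by
  obtain ⟨y, w, h⟩ := GRHP_exists_yw hℓ hℓN
  obtain ⟨u, hu, hζ⟩ := S37H_exists_root ℓ
  refine ⟨u ^ ℓ, ?_, fun f _ => ?_⟩
  · exact IsPrimitiveRoot.coe_units_iff.mpr hζ
  · exact qExpand_injective (R := Kb) ℓ
      (S37H_norm_formula N ℓ y w h hℓ hℓN u hu (S37H_fam_injective N ℓ y w h hℓ u hu hζ) f)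

end zeta

section redt

variable (N : ℕ) [NeZero N] (A : ValuationSubring Kb) {ℓ : ℕ} [NeZero ℓ] {ζ : Kbˣ}

/-- the `q`-expansion of the reduction of `t f`, `f` in the Gauss ring. -/
theorem S40R4_red_t (hgen : PrincipalGeneratedByIntegral A (IsLocalRing.residue A) N)
    (ζA : Aˣ) (hζA : Units.map (A.subtype : A →* Kb) ζA = ζ) (hst : GRS_Stab N ℓ ζ)
    (f : ↥(modularFunctionFieldBar N)) (hf : f ∈ S18_O A N) :
    ∃ h' : GRS_t hst f ∈ S18_O A N,
      qExpand (IsLocalRing.ResidueField A) ℓ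
        ((S18_red A N ⟨GRS_t hst f, h'⟩ :
          ↥(modularFunctionFieldFullC (IsLocalRing.ResidueField A) N)) :
            LaurentSeries (IsLocalRing.ResidueField A)) =
      GRS_rhs N ℓ (Units.map
          ((IsLocalRing.residue A : A →+* IsLocalRing.ResidueField A) : A →* _) ζA)
        ((S18_red A N ⟨f, hf⟩ :
          ↥(modularFunctionFieldFullC (IsLocalRing.ResidueField A) N)) :
            LaurentSeries (IsLocalRing.ResidueField A)) := by
  have hf' := hf
  obtain ⟨s₁, h1, s₂, h2, hne, hfs⟩ := hf'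
  obtain ⟨t₁, t₂, ht₁B, ht₂B, hρt₂, ht', hq₁, hq₂⟩ :=
    S40G5H_rep N A hgen ζA hζA hst f h1 h2 hne hfs
  refine ⟨⟨t₁, ht₁B, t₂, ht₂B, hρt₂, ht'⟩, ?_⟩
  rw [S18_red_eq A N ht₁B ht₂B hρt₂ ht', S18_red_eq A N h1 h2 hne hfs, map_div₀, hq₁, hq₂]
  have hne2 := S40G5H_rhs_ne_zero N ℓ (Units.map
      ((IsLocalRing.residue A : A →+* IsLocalRing.ResidueField A) : A →* _) ζA)
      (S18_ρ A s₂) hne
  rw [div_eq_iff hne2, ← GRS_rhs_mul, div_mul_cancel₀ _ hne]

end redt


section triv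

variable (N : ℕ) [NeZero N] (A : ValuationSubring Kb)

/-- the reduction of a trivial Kummer element `c · h ^ n` which is a unit of the Gauss ring is
a constant times an `n`-th power. -/
theorem S40R4_red_triv (hgen : PrincipalGeneratedByIntegral A (IsLocalRing.residue A) N)
    (w : ↥(modularFunctionFieldBar N)) (hw : w ∈ S18_O A N)
    (c : Kb) (h : ↥(modularFunctionFieldBar N)) (hh : h ≠ 0) (n : ℕ)
    (e : w = algebraMap Kb ↥(modularFunctionFieldBar N) c * h ^ n) :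
    ∃ (eb : IsLocalRing.ResidueField A) (h₀ : ↥(modularFunctionFieldBar N))
      (hh₀ : h₀ ∈ S18_O A N), S18_red A N ⟨h₀, hh₀⟩ ≠ 0 ∧
      S18_red A N ⟨w, hw⟩ =
        algebraMap (IsLocalRing.ResidueField A)
          ↥(modularFunctionFieldFullC (IsLocalRing.ResidueField A) N) eb *
          (S18_red A N ⟨h₀, hh₀⟩) ^ n := by
  obtain ⟨d, h₀, hh₀, hd, hred₀, rfl⟩ :=
    S18_exists_const_mul_unit A N (S18_hPD N) (S18_hconst N) hgen h hh
  have hh₀i : h₀⁻¹ ∈ S18_O A N := S18_inv_mem_O A N hh₀ hred₀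
  have hh₀0 : h₀ ≠ 0 := by
    rintro rfl
    apply hred₀
    have : (⟨0, hh₀⟩ : S18_O A N) = 0 := rfl
    rw [this, map_zero]
  have he' : algebraMap Kb ↥(modularFunctionFieldBar N) (c * d ^ n) = w * (h₀⁻¹) ^ n := by
    rw [e, map_mul, map_pow, mul_pow, inv_pow, mul_assoc, mul_assoc,
      mul_inv_cancel₀ (pow_ne_zero n hh₀0), mul_one]
  have he'O : algebraMap Kb ↥(modularFunctionFieldBar N) (c * d ^ n) ∈ S18_O A N := by
    rw [he']
    exact mul_mem hw (pow_mem hh₀i n)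
  have he'A : c * d ^ n ∈ A := (S18_algebraMap_mem_O_iff A N (c * d ^ n)).mp he'O
  refine ⟨IsLocalRing.residue A ⟨c * d ^ n, he'A⟩, h₀, hh₀, hred₀, ?_⟩
  have hprod : (⟨w, hw⟩ : S18_O A N) =
      ⟨algebraMap Kb ↥(modularFunctionFieldBar N) (c * d ^ n), he'O⟩ * ⟨h₀, hh₀⟩ ^ n := by
    apply Subtype.ext
    show w = algebraMap Kb ↥(modularFunctionFieldBar N) (c * d ^ n) * h₀ ^ n
    rw [e, map_mul, map_pow, mul_pow, mul_assoc]
  rw [hprod, map_mul, map_pow]
  congr 1
  exact S18_red_algebraMap A N ⟨c * d ^ n, he'A⟩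

end triv

section rel

variable {N : ℕ} [NeZero N]

/-- the Kummer generator of an eigen-class: `t u = c · g ^ p · u ^ a`. -/
theorem S40R4_gen_rel (q : Nat.Primes) (hqN : ¬ (q : ℕ) ∣ N) {p : ℕ} (hp : 0 < p)
    (hqp : ¬ (q : ℕ) ∣ p) {ζ : Kbˣ} (hζ : IsPrimitiveRoot (ζ : Kb) (q : ℕ))
    (hst : haveI : NeZero (q : ℕ) := ⟨q.2.ne_zero⟩; GRS_Stab N (q : ℕ) ζ)
    {x : JZero N} {u : ↥(modularFunctionFieldBar N)} (hu : S33DG_IsGen p x u)
    (a : ℤ) (hx : heckeOperatorBar N q x = a • x) :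
    haveI : NeZero (q : ℕ) := ⟨q.2.ne_zero⟩
    ∃ (m : ℕ) (c : Kb) (g : ↥(modularFunctionFieldBar N)), g ≠ 0 ∧
      ((a = (m : ℤ) ∧ GRS_t hst u =
          algebraMap Kb ↥(modularFunctionFieldBar N) c * g ^ p * u ^ m) ∨
       (a = -(m : ℤ) ∧ GRS_t hst u * u ^ m =
          algebraMap Kb ↥(modularFunctionFieldBar N) c * g ^ p)) := by
  haveI : NeZero (q : ℕ) := ⟨q.2.ne_zero⟩
  have hgen := S40G5W_hecke_gen q hqN hp hqp hζ hst hu
  rw [hx] at hgen
  have hu0 := S33DG_isGen_ne_zero hu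
  obtain ⟨m, rfl | rfl⟩ := Int.eq_nat_or_neg a
  · rw [natCast_zsmul] at hgen
    have h1 := S33DG_isGen_mul hgen (S33DG_isGen_inv (S33DG_isGen_pow hu m))
    rw [add_neg_cancel] at h1
    obtain ⟨c, g, hc, hg, e⟩ := S33DG_triv_of_isGen_zero (S18_hconst N) h1
    refine ⟨m, c, g, hg, Or.inl ⟨rfl, ?_⟩⟩
    rw [← e, mul_assoc, inv_mul_cancel₀ (pow_ne_zero m hu0), mul_one]
  · rw [neg_zsmul, natCast_zsmul] at hgen
    have h1 := S33DG_isGen_mul hgen (S33DG_isGen_pow hu m)
    rw [neg_add_cancel] at h1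
    obtain ⟨c, g, hc, hg, e⟩ := S33DG_triv_of_isGen_zero (S18_hconst N) h1
    exact ⟨m, c, g, hg, Or.inr ⟨rfl, e⟩⟩

end rel


section redrel

variable (N : ℕ) [NeZero N] (A : ValuationSubring Kb)

/-- reduction of the relation `t u = c · g ^ n · u ^ m` (resp. `t u · u ^ m = c · g ^ n`). -/
theorem S40R4_red_rel (hgen : PrincipalGeneratedByIntegral A (IsLocalRing.residue A) N)
    (u tu : ↥(modularFunctionFieldBar N)) (hu : u ∈ S18_O A N) (htu : tu ∈ S18_O A N)
    (hured : S18_red A N ⟨u, hu⟩ ≠ 0) (n m : ℕ) (c : Kb)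
    (g : ↥(modularFunctionFieldBar N)) (hg : g ≠ 0) :
    (tu = algebraMap Kb ↥(modularFunctionFieldBar N) c * g ^ n * u ^ m →
      ∃ (eb : IsLocalRing.ResidueField A) (h₀ : ↥(modularFunctionFieldBar N))
        (hh₀ : h₀ ∈ S18_O A N), S18_red A N ⟨h₀, hh₀⟩ ≠ 0 ∧
        S18_red A N ⟨tu, htu⟩ =
          algebraMap (IsLocalRing.ResidueField A)
            ↥(modularFunctionFieldFullC (IsLocalRing.ResidueField A) N) eb *
            (S18_red A N ⟨h₀, hh₀⟩) ^ n * (S18_red A N ⟨u, hu⟩) ^ m) ∧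
    (tu * u ^ m = algebraMap Kb ↥(modularFunctionFieldBar N) c * g ^ n →
      ∃ (eb : IsLocalRing.ResidueField A) (h₀ : ↥(modularFunctionFieldBar N))
        (hh₀ : h₀ ∈ S18_O A N), S18_red A N ⟨h₀, hh₀⟩ ≠ 0 ∧
        S18_red A N ⟨tu, htu⟩ * (S18_red A N ⟨u, hu⟩) ^ m =
          algebraMap (IsLocalRing.ResidueField A)
            ↥(modularFunctionFieldFullC (IsLocalRing.ResidueField A) N) eb *
            (S18_red A N ⟨h₀, hh₀⟩) ^ n) := by
  have hui : u⁻¹ ∈ S18_O A N := S18_inv_mem_O A N hu hured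
  have hu0 : u ≠ 0 := by
    rintro rfl
    apply hured
    have : (⟨0, hu⟩ : S18_O A N) = 0 := rfl
    rw [this, map_zero]
  constructor
  · intro e
    have hw : algebraMap Kb ↥(modularFunctionFieldBar N) c * g ^ n ∈ S18_O A N := by
      have e2 : algebraMap Kb ↥(modularFunctionFieldBar N) c * g ^ n = tu * (u⁻¹) ^ m := by
        rw [e, inv_pow, mul_assoc, mul_inv_cancel₀ (pow_ne_zero m hu0), mul_one]
      rw [e2]
      exact mul_mem htu (pow_mem hui m)
    obtain ⟨eb, h₀, hh₀, hred₀, hw'⟩ := S40R4_red_triv N A hgen _ hw c g hg n rfl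
    refine ⟨eb, h₀, hh₀, hred₀, ?_⟩
    have hprod : (⟨tu, htu⟩ : S18_O A N) =
        ⟨algebraMap Kb ↥(modularFunctionFieldBar N) c * g ^ n, hw⟩ * ⟨u, hu⟩ ^ m :=
      Subtype.ext e
    rw [hprod, map_mul, map_pow, hw']
  · intro e
    have hw : algebraMap Kb ↥(modularFunctionFieldBar N) c * g ^ n ∈ S18_O A N := by
      rw [← e]
      exact mul_mem htu (pow_mem hu m)
    obtain ⟨eb, h₀, hh₀, hred₀, hw'⟩ := S40R4_red_triv N A hgen _ hw c g hg n rfl
    refine ⟨eb, h₀, hh₀, hred₀, ?_⟩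
    have hprod : (⟨tu, htu⟩ : S18_O A N) * ⟨u, hu⟩ ^ m =
        ⟨algebraMap Kb ↥(modularFunctionFieldBar N) c * g ^ n, hw⟩ :=
      Subtype.ext e
    rw [← hw', ← hprod, map_mul, map_pow]

end redrel


section main

variable (M p : ℕ) [NeZero M] [NeZero p] [NeZero (M * p)] (A : ValuationSubring Kb)

/-- **the divisor relation**: `div (red_M (t_M g)) = a · div (red_M g) + p · div H`. -/
theorem S40R4_ord_rel (hp : p.Prime) (hA : A.LiesOverPrime p)
    (hgen : PrincipalGeneratedByIntegral A (IsLocalRing.residue A) (M * p))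
    (hgenM : PrincipalGeneratedByIntegral A (IsLocalRing.residue A) M)
    (q : Nat.Primes) (hq : ¬ (q : ℕ) ∣ M * p) (a : ℤ)
    (x : JZero (M * p)) (hx : heckeOperatorBar (M * p) q x = a • x)
    (u : ↥(modularFunctionFieldBar (M * p))) (hu : S33DG_IsGen p x u)
    (huO : u ∈ S18_O A (M * p)) (hured : S18_red A (M * p) ⟨u, huO⟩ ≠ 0)
    (g : ↥(modularFunctionFieldBar M)) (hg : g ∈ S18_O A M)
    (hgu : ((S18_red A (M * p) ⟨u, huO⟩ :
        ↥(modularFunctionFieldFullC (IsLocalRing.ResidueField A) (M * p))) :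
          LaurentSeries (IsLocalRing.ResidueField A)) =
      ((S18_red A M ⟨g, hg⟩ : ↥(modularFunctionFieldFullC (IsLocalRing.ResidueField A) M)) :
          LaurentSeries (IsLocalRing.ResidueField A)))
    {ζ : Kbˣ} (hζ : IsPrimitiveRoot (ζ : Kb) (q : ℕ))
    (hstM : haveI : NeZero (q : ℕ) := ⟨q.2.ne_zero⟩; GRS_Stab M (q : ℕ) ζ) :
    haveI : NeZero (q : ℕ) := ⟨q.2.ne_zero⟩
    ∃ (htg : GRS_t hstM g ∈ S18_O A M)
      (H : ↥(modularFunctionFieldFullC (IsLocalRing.ResidueField A) M)), H ≠ 0 ∧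
      ∀ Q : Place (IsLocalRing.ResidueField A)
          ↥(modularFunctionFieldFullC (IsLocalRing.ResidueField A) M),
        Q.ord (S18_red A M ⟨GRS_t hstM g, htg⟩) =
          a * Q.ord (S18_red A M ⟨g, hg⟩) + (p : ℤ) * Q.ord H := by
  haveI : NeZero (q : ℕ) := ⟨q.2.ne_zero⟩
  haveI : Fact p.Prime := ⟨hp⟩
  haveI : CharP (IsLocalRing.ResidueField A) p := S18_residue_charP A p hp hA
  have hqM : ¬ (q : ℕ) ∣ M := fun hd => hq (Dvd.dvd.mul_right hd p)
  have hqp : ¬ (q : ℕ) ∣ p := fun hd => hq (Dvd.dvd.mul_left hd M)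
  have hζ1 : ζ ^ (q : ℕ) = 1 := Units.ext (by
    rw [Units.val_pow_eq_pow_val]; exact hζ.pow_eq_one)
  obtain ⟨ζA, hζA⟩ := S40G5H_unit_of_pow A ζ (q : ℕ) (NeZero.ne _) hζ1
  have hstMp : GRS_Stab (M * p) (q : ℕ) ζ := GRHS_stab ζ hζ q.2
  -- the reductions of `t g` and of `t u`
  obtain ⟨htgO, hqM'⟩ := S40R4_red_t M A hgenM ζA hζA hstM g hg
  obtain ⟨htuO, hqMp⟩ := S40R4_red_t (M * p) A hgen ζA hζA hstMp u huO
  have hcross : ((S18_red A M ⟨GRS_t hstM g, htgO⟩ :
        ↥(modularFunctionFieldFullC (IsLocalRing.ResidueField A) M)) :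
          LaurentSeries (IsLocalRing.ResidueField A)) =
      ((S18_red A (M * p) ⟨GRS_t hstMp u, htuO⟩ :
        ↥(modularFunctionFieldFullC (IsLocalRing.ResidueField A) (M * p))) :
          LaurentSeries (IsLocalRing.ResidueField A)) := by
    apply qExpand_injective (R := IsLocalRing.ResidueField A) (q : ℕ)
    rw [hqM', hqMp, GRS_rhs_of_not_dvd _ _ hqM, GRS_rhs_of_not_dvd _ _ hq, hgu]
  have hgred : S18_red A M ⟨g, hg⟩ ≠ 0 := by
    intro h0
    apply hured
    apply Subtype.ext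
    rw [hgu, h0]
    rfl
  obtain ⟨htuO', hturedne⟩ := S40G5H_unit (M * p) A hgen hζ1 hstMp u huO hured
  -- the relation at level `M p`
  obtain ⟨m, c, g', hg', hrel⟩ := S40R4_gen_rel q hq hp.pos hqp hζ hstMp hu a hx
  have hRR := S40R4_red_rel (M * p) A hgen u (GRS_t hstMp u) huO htuO hured p m c g' hg'
  -- transport of an element of `F̄_{M p}` to `F̄_M`
  have htr : ∀ z : ↥(modularFunctionFieldFullC (IsLocalRing.ResidueField A) (M * p)),
      (z : LaurentSeries (IsLocalRing.ResidueField A)) ∈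
        modularFunctionFieldFullC (IsLocalRing.ResidueField A) M := by
    intro z
    rw [← S34FI_full_eq (IsLocalRing.ResidueField A) p M]
    exact z.2
  refine ⟨htgO, ?_⟩
  rcases hrel with ⟨ha, e⟩ | ⟨ha, e⟩
  · obtain ⟨eb, h₀, hh₀, hred₀, hr⟩ := hRR.1 e
    have heb : eb ≠ 0 := by
      rintro rfl
      apply hturedne
      rw [hr, map_zero, zero_mul, zero_mul]
    have hH0 : (⟨_, htr (S18_red A (M * p) ⟨h₀, hh₀⟩)⟩ :
        ↥(modularFunctionFieldFullC (IsLocalRing.ResidueField A) M)) ≠ 0 := by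
      intro h0
      apply hred₀
      apply Subtype.ext
      have h1 := congrArg Subtype.val h0
      exact h1
    refine ⟨⟨_, htr (S18_red A (M * p) ⟨h₀, hh₀⟩)⟩, hH0, fun Q => ?_⟩
    have hV : S18_red A M ⟨GRS_t hstM g, htgO⟩ =
        algebraMap (IsLocalRing.ResidueField A)
            ↥(modularFunctionFieldFullC (IsLocalRing.ResidueField A) M) eb *
          (⟨_, htr (S18_red A (M * p) ⟨h₀, hh₀⟩)⟩ :
            ↥(modularFunctionFieldFullC (IsLocalRing.ResidueField A) M)) ^ p *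
          (S18_red A M ⟨g, hg⟩) ^ m := by
      apply Subtype.ext
      rw [hcross, hr]
      show algebraMap (IsLocalRing.ResidueField A)
            (LaurentSeries (IsLocalRing.ResidueField A)) eb *
          ((S18_red A (M * p) ⟨h₀, hh₀⟩ :
            ↥(modularFunctionFieldFullC (IsLocalRing.ResidueField A) (M * p))) :
              LaurentSeries (IsLocalRing.ResidueField A)) ^ p *
          ((S18_red A (M * p) ⟨u, huO⟩ :
            ↥(modularFunctionFieldFullC (IsLocalRing.ResidueField A) (M * p))) :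
              LaurentSeries (IsLocalRing.ResidueField A)) ^ m = _
      rw [hgu]
      rfl
    have hc0 : algebraMap (IsLocalRing.ResidueField A)
        ↥(modularFunctionFieldFullC (IsLocalRing.ResidueField A) M) eb ≠ 0 := by
      rwa [Ne, map_eq_zero]
    rw [hV, Q.ord_mul (mul_ne_zero hc0 (pow_ne_zero p hH0)) (pow_ne_zero m hgred),
      Q.ord_mul hc0 (pow_ne_zero p hH0), S33DG_ord_algebraMap, S17ST_ord_pow, S17ST_ord_pow, ha]
    ring
  · obtain ⟨eb, h₀, hh₀, hred₀, hr⟩ := hRR.2 e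
    have hured' : (S18_red A (M * p) ⟨u, huO⟩) ^ m ≠ 0 := pow_ne_zero m hured
    have heb : eb ≠ 0 := by
      rintro rfl
      apply mul_ne_zero hturedne hured'
      rw [hr, map_zero, zero_mul]
    have hH0 : (⟨_, htr (S18_red A (M * p) ⟨h₀, hh₀⟩)⟩ :
        ↥(modularFunctionFieldFullC (IsLocalRing.ResidueField A) M)) ≠ 0 := by
      intro h0
      apply hred₀
      apply Subtype.ext
      have h1 := congrArg Subtype.val h0
      exact h1
    refine ⟨⟨_, htr (S18_red A (M * p) ⟨h₀, hh₀⟩)⟩, hH0, fun Q => ?_⟩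
    have hV : S18_red A M ⟨GRS_t hstM g, htgO⟩ * (S18_red A M ⟨g, hg⟩) ^ m =
        algebraMap (IsLocalRing.ResidueField A)
            ↥(modularFunctionFieldFullC (IsLocalRing.ResidueField A) M) eb *
          (⟨_, htr (S18_red A (M * p) ⟨h₀, hh₀⟩)⟩ :
            ↥(modularFunctionFieldFullC (IsLocalRing.ResidueField A) M)) ^ p := by
      apply Subtype.ext
      have h1 := congrArg Subtype.val hr
      show ((S18_red A M ⟨GRS_t hstM g, htgO⟩ :
            ↥(modularFunctionFieldFullC (IsLocalRing.ResidueField A) M)) :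
              LaurentSeries (IsLocalRing.ResidueField A)) *
          ((S18_red A M ⟨g, hg⟩ :
            ↥(modularFunctionFieldFullC (IsLocalRing.ResidueField A) M)) :
              LaurentSeries (IsLocalRing.ResidueField A)) ^ m = _
      rw [hcross, ← hgu]
      exact h1
    have hc0 : algebraMap (IsLocalRing.ResidueField A)
        ↥(modularFunctionFieldFullC (IsLocalRing.ResidueField A) M) eb ≠ 0 := by
      rwa [Ne, map_eq_zero]
    have hVne : S18_red A M ⟨GRS_t hstM g, htgO⟩ ≠ 0 := by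
      intro h0
      apply hturedne
      apply Subtype.ext
      rw [← hcross, h0]
      rfl
    have h2 := congrArg Q.ord hV
    rw [Q.ord_mul hVne (pow_ne_zero m hgred), Q.ord_mul hc0 (pow_ne_zero p hH0),
      S33DG_ord_algebraMap, S17ST_ord_pow, S17ST_ord_pow] at h2
    rw [ha]
    linarith

end main


section eigen

variable (M p : ℕ) [NeZero M] [NeZero p] [NeZero (M * p)] (A : ValuationSubring Kb)

/-- **route 2, (iv-b)**: the class `red y₀`, `y₀ = [D₀]`, `p · r_* D₀ = div (red_M g)`,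
`red_M g = red₁ u`, `u` a Kummer generator (unit at `V₁`) of an eigen-class `x` of level `M p`,
is an eigen-class of the reduced Jacobian of level `M` with the same eigenvalue. -/
theorem S40R4_eigen (hp : p.Prime) (hA : A.LiesOverPrime p) (hpM : ¬ p ∣ M)
    (hgen : PrincipalGeneratedByIntegral A (IsLocalRing.residue A) (M * p))
    (h : ReductionInputsModL A M)
    (q : Nat.Primes) (hq : ¬ (q : ℕ) ∣ M * p) (a : ℤ)
    (x : JZero (M * p)) (hx : heckeOperatorBar (M * p) q x = a • x)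
    (u : ↥(modularFunctionFieldBar (M * p))) (hu : S33DG_IsGen p x u)
    (huO : u ∈ S18_O A (M * p)) (hured : S18_red A (M * p) ⟨u, huO⟩ ≠ 0)
    (g : ↥(modularFunctionFieldBar M)) (hg : g ∈ S18_O A M)
    (hgu : ((S18_red A (M * p) ⟨u, huO⟩ :
        ↥(modularFunctionFieldFullC (IsLocalRing.ResidueField A) (M * p))) :
          LaurentSeries (IsLocalRing.ResidueField A)) =
      ((S18_red A M ⟨g, hg⟩ : ↥(modularFunctionFieldFullC (IsLocalRing.ResidueField A) M)) :
          LaurentSeries (IsLocalRing.ResidueField A)))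
    (D₀ : Divisor.degZero (K := Kb) (F := ↥(modularFunctionFieldBar M)))
    (hD₀ : ∀ Q, (p : ℤ) * Finsupp.mapDomain (placeReductionModL h)
        (D₀ : Divisor Kb ↥(modularFunctionFieldBar M)) Q = Q.ord (S18_red A M ⟨g, hg⟩)) :
    reductionModL A M (heckeOperatorBar M q (Pic0.mk D₀)) =
      a • reductionModL A M (Pic0.mk D₀) := by
  haveI : NeZero (q : ℕ) := ⟨q.2.ne_zero⟩
  have hqM : ¬ (q : ℕ) ∣ M := fun hd => hq (Dvd.dvd.mul_right hd p)
  obtain ⟨ζ, hζ, hH⟩ := S40R4_exists_zeta M (q : ℕ) q.2 hqM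
  have hstM : GRS_Stab M (q : ℕ) ζ := S40G5R_stab M hqM ζ hH
  obtain ⟨htg, H, hH0, hord⟩ := S40R4_ord_rel M p A hp hA hgen h.choose_spec.2 q hq a x hx u hu
    huO hured g hg hgu hζ hstM
  haveI := S18_hPD (M * (q : ℕ))
  have hα : (heckeAlphaBar Kb M (q : ℕ)).toRingHom.IsIntegral := S37P_alpha_integral M (q : ℕ)
  have hβ : (heckeBetaBar Kb M (q : ℕ)).toRingHom.IsIntegral := S37P_beta_integral M (q : ℕ)
  have hFI := S37P_fundamentalIdentity_beta M (q : ℕ)
  have hfin := S37P_finiteAlong_alpha M (q : ℕ)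
  have hN := S37P_normFormula_alpha M (q : ℕ)
  have hgred : S18_red A M ⟨g, hg⟩ ≠ 0 := by
    intro h0
    apply hured
    apply Subtype.ext
    rw [hgu, h0]
    rfl
  have hg0 : g ≠ 0 := by
    rintro rfl
    apply hgred
    have : (⟨0, hg⟩ : S18_O A M) = 0 := rfl
    rw [this, map_zero]
  -- (E2)
  obtain ⟨wM, hwM, hwMne, hE2⟩ := S40G5R_unit M A hp hA hpM h q.2 hqM hα hβ g hg hgred
  have hwMeq : wM = ⟨GRS_t hstM g, htg⟩ :=
    Subtype.ext (by rw [hwM]; exact (S40G5R_t_eq M hqM ζ hH hstM g hg0).symm)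
  rw [hwMeq] at hE2
  -- (E1)
  have hE1 := S40G5R_congr M A hp hA hpM h q.2 hqM hα hβ
    (p • (D₀ : Divisor Kb ↥(modularFunctionFieldBar M))) (ES_div M g) (by
      ext Q
      rw [Finsupp.mapDomain_smul, Finsupp.smul_apply, nsmul_eq_mul]
      have h1 := hD₀ Q
      have h2 := (S18_specModL M A h).mapDomain_div ⟨g, hg⟩ hgred _
        (fun P => ES_div_apply M _ P) Q
      exact h1.trans h2.symm)
  -- the core identity
  have hcore : ∀ Q, Finsupp.mapDomain (placeReductionModL h)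
      (S37_Td hα hβ (D₀ : Divisor Kb ↥(modularFunctionFieldBar M))) Q =
      a * Finsupp.mapDomain (placeReductionModL h)
        (D₀ : Divisor Kb ↥(modularFunctionFieldBar M)) Q + Q.ord H := by
    intro Q
    have h1 := DFunLike.congr_fun hE1 Q
    rw [hE2, RR_div_apply, hord Q, map_nsmul, Finsupp.mapDomain_smul, Finsupp.smul_apply,
      nsmul_eq_mul, ← hD₀ Q] at h1
    have hp0 : (p : ℤ) ≠ 0 := by exact_mod_cast hp.ne_zero
    apply mul_left_cancel₀ hp0
    rw [h1]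
    ring
  -- classes
  rw [heckeOperatorBar_apply, heckeOperatorAlong_eq hα hβ hFI hfin hN]
  have hT : heckePic0Bar hα hβ hFI hfin hN (Pic0.mk D₀) =
      Pic0.mk (Pic0.degZeroCorrespondence (heckeBetaBar Kb M (q : ℕ))
        (heckeAlphaBar Kb M (q : ℕ)) hβ hα hFI D₀) := rfl
  rw [hT, S37_red_mk h, S37_red_mk h, ← sub_eq_zero]
  have hmk : ∀ X Y : Divisor.degZero (K := IsLocalRing.ResidueField A)
      (F := ↥(modularFunctionFieldFullC (IsLocalRing.ResidueField A) M)),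
      Pic0.mk X - a • Pic0.mk Y = Pic0.mk (X - a • Y) := fun X Y => rfl
  rw [hmk]
  refine S17ST_mk_eq_zero _ H hH0 (fun Q => ?_)
  rw [AddSubgroup.coe_sub, AddSubgroup.coe_zsmul, Finsupp.sub_apply, Finsupp.smul_apply,
    smul_eq_mul, coe_reductionDegZeroAlong, coe_reductionDegZeroAlong,
    Pic0.coe_degZeroCorrespondence]
  have h2 := hcore Q
  rw [S37_Td_apply] at h2
  have h3 : Divisor.correspondence (heckeBetaBar Kb M (q : ℕ)) (heckeAlphaBar Kb M (q : ℕ))
      hβ hα (D₀ : Divisor Kb ↥(modularFunctionFieldBar M)) =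
      Divisor.pushforwardAlong (heckeAlphaBar Kb M (q : ℕ)) hα
        (Divisor.pullbackAlong (heckeBetaBar Kb M (q : ℕ)) hβ
          (D₀ : Divisor Kb ↥(modularFunctionFieldBar M))) := rfl
  rw [h3, h2]
  ring

end eigen

end Fermat.Agent.S40
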