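import Mathlib
import Fermat.Agent.S40.CuspJ
import Fermat.Agent.S40.JSymD
import Fermat.Agent.S40.R4Eigen
import Fermat.Agent.S40.Geo5RedI
import Fermat.Agent.S33.NewLocBridgeInst

/-!
# TRACK 13 (row 38), (D-CUSP): the Hecke operator commutes with `W_D` (helper17).
Prefix `S40CJT_`.

`W_l = S40CJ_W N l` the composition of the Atkin–Lehner involutions `w_q`, `q ∈ l`
(`S40/CuspJ.lean`), `t = GRS_t hst` / `S37_t N ℓ` the multiplicative Hecke operator at a prime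
`ℓ ∤ N`.

* `S40CJT_w`, `S40CJT_W` : `GRS_t hst (W_l f) = W_l (GRS_t hst f)` (`ℓ ∉ l`; list induction on
  helper2's `S40JSD_t_wq`);
* `S40CJT_t_zero` : `S37_t N ℓ 0 = 0`;
* **`S40CJT_W_t`** : `S37_t N ℓ (W_l f) = W_l (S37_t N ℓ f)` for ALL `f` (`ℓ ∤ N` prime, `ℓ ∉ l`):
  the shape `∀ f, t (w f) = w (t f)` of `(L1)` / `S40CP_hord_transport`.
-/

set_option autoImplicit false
set_option linter.style.haveILetI false
set_option linter.unusedSectionVars false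
set_option linter.unusedVariables false
set_option synthInstance.maxHeartbeats 400000
set_option maxHeartbeats 1000000

open HahnSeries IntermediateField AlgebraicCurve ModularCurve

noncomputable section

namespace Fermat.Agent.S40

open Fermat.Agent.S17 Fermat.Agent.S18 Fermat.Agent.S19 Fermat.Agent.S24 Fermat.Agent.S34
  Fermat.Agent.S33 Fermat.Agent.S35 Fermat.Agent.S37 Fermat.Agent.GalRep Fermat.Agent.Lib

local notation "Kb" => AlgebraicClosure ℚ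

variable (N : ℕ) [NeZero N] (ℓ : ℕ) [NeZero ℓ]

/-- `t` commutes with the total `w_q`, `q ≠ ℓ`. -/
theorem S40CJT_w (hℓ : ℓ.Prime) (q : ℕ) (hℓq : ℓ ≠ q) (ζ : Kbˣ)
    (hζ : IsPrimitiveRoot (ζ : Kb) ℓ) (hst : GRS_Stab N ℓ ζ)
    (f : ↥(modularFunctionFieldBar N)) :
    GRS_t hst (S40CJ_w N q f) = S40CJ_w N q (GRS_t hst f) := by
  by_cases h : q.Prime ∧ q ∣ N ∧ ¬ q ∣ N / q
  · rw [S40CJ_w_eq N h.1 h.2.1 h.2.2]
    exact S40JSD_t_wq h.1 h.2.2 (Nat.mul_div_cancel' h.2.1) ℓ hℓ hℓq ζ hζ hst f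
  · have e : S40CJ_w N q = AlgEquiv.refl := dif_neg h
    rw [e]
    rfl

/-- `t` commutes with `W_l`, `ℓ ∉ l`. -/
theorem S40CJT_W (hℓ : ℓ.Prime) (l : List ℕ) (hℓl : ℓ ∉ l) (ζ : Kbˣ)
    (hζ : IsPrimitiveRoot (ζ : Kb) ℓ) (hst : GRS_Stab N ℓ ζ)
    (f : ↥(modularFunctionFieldBar N)) :
    GRS_t hst (S40CJ_W N l f) = S40CJ_W N l (GRS_t hst f) := by
  induction l with
  | nil => rfl
  | cons q l ih =>
    rw [S40CJ_W_cons, S40CJ_W_cons,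
      S40CJT_w N ℓ hℓ q (fun h => hℓl (h ▸ List.mem_cons_self)) ζ hζ hst,
      ih (fun h => hℓl (List.mem_cons_of_mem q h))]

/-- `S37_t 0 = 0`. -/
theorem S40CJT_t_zero (hℓ : ℓ.Prime) (hℓN : ¬ ℓ ∣ N) : S37_t N ℓ 0 = 0 := by
  haveI : NeZero (N * ℓ) := ⟨mul_ne_zero (NeZero.ne N) (NeZero.ne ℓ)⟩
  have h := S33N0B_NA_zero N ℓ hℓ hℓN
  unfold S37_t
  rw [map_zero]
  exact h

/-- **`t` commutes with `W_l`** for the norm `t = S37_t N ℓ`, all `f`. -/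
theorem S40CJT_W_t (hℓ : ℓ.Prime) (hℓN : ¬ ℓ ∣ N) (l : List ℕ) (hℓl : ℓ ∉ l)
    (f : ↥(modularFunctionFieldBar N)) :
    S37_t N ℓ (S40CJ_W N l f) = S40CJ_W N l (S37_t N ℓ f) := by
  by_cases hf : f = 0
  · subst hf
    rw [map_zero, S40CJT_t_zero N ℓ hℓ hℓN, map_zero]
  · obtain ⟨ζ, hζ, hH⟩ := S40R4_exists_zeta N ℓ hℓ hℓN
    have hst : GRS_Stab N ℓ ζ := GRHS_stab ζ hζ hℓ
    have hWf : S40CJ_W N l f ≠ 0 := (map_ne_zero _).mpr hf
    rw [← S40G5RI_t_eq N hℓN ζ hH hst _ hWf, ← S40G5RI_t_eq N hℓN ζ hH hst f hf]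
    exact S40CJT_W N ℓ hℓ l hℓl ζ hζ hst f

end Fermat.Agent.S40
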