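import Mathlib
import Fermat.Agent.S40.CuspJT
import Fermat.Agent.S40.CuspHex
import Fermat.Agent.S40.PsiSq
import Fermat.Agent.S34.ValDeg
import Fermat.Agent.S17.Emb
import Fermat.Agent.S18.CuspKQ

/-!
# TRACK 13 (S40 / S44), (D-CUSP), route C0, leaf (L1) (helper3): the cusps of `X₀(N)`, `N`
squarefree, in characteristic `0`.  Prefix `S40CX_`.

`W_D := S40CJ_W N D.primeFactorsList` (the Atkin–Lehner involution of `D ∣ N`), `O := S17EM_O N`
(the cusp `∞`).

* `S40CX_cusp N D := W_D⁻¹ • O`, `S40CX_cusp_ord : ord_{cusp D} f = ord_O (W_D f)`;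
* `S40CX_ord_jB` : `ord_{cusp D} (j) = − D`;
* `S40CX_exhaust` : every pole of `j` is `cusp D` for a `D ∣ N` (degree count `ψ(N) = ∑_{D ∣ N} D`);
* `S40CX_L1` : **(L1)** in the shape of `hL1` of `S40CW_dvd` / `S40CW_claim`.
-/

set_option autoImplicit false
set_option linter.style.haveILetI false
set_option linter.unusedSectionVars false
set_option linter.unusedVariables false
set_option synthInstance.maxHeartbeats 400000
set_option maxHeartbeats 1000000

open HahnSeries IntermediateField AlgebraicCurve ModularCurve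

noncomputable section

namespace Fermat.Agent.S40

open Fermat.Agent.S17 Fermat.Agent.S18 Fermat.Agent.S19 Fermat.Agent.S24 Fermat.Agent.S34
  Fermat.Agent.S33 Fermat.Agent.S35 Fermat.Agent.S37 Fermat.Agent.GalRep Fermat.Agent.Lib

local notation "Kb" => AlgebraicClosure ℚ

variable (N : ℕ) [NeZero N]

/-- the cusp `W_D⁻¹ (∞)` of `X₀(N)`. -/
def S40CX_cusp (D : ℕ) : Place Kb ↥(modularFunctionFieldBar N) :=
  (S40CJ_W N D.primeFactorsList).symm • S17EM_O N

theorem S40CX_cusp_ord (D : ℕ) (f : ↥(modularFunctionFieldBar N)) :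
    (S40CX_cusp N D).ord f = (S17EM_O N).ord (S40CJ_W N D.primeFactorsList f) := by
  have h := AlgebraicCurve.Place.ord_smul (S40CJ_W N D.primeFactorsList).symm (S17EM_O N)
    (S40CJ_W N D.primeFactorsList f)
  rw [AlgEquiv.symm_apply_apply] at h
  exact h

/-- `W_D (j) = j(q^D)` for `D ∣ N`, `N` squarefree. -/
theorem S40CX_W_jB (hN : Squarefree N) (D : ℕ) [NeZero D] (hD : D ∣ N) :
    S40CJ_W N D.primeFactorsList (jB N) = jBar N D hD := by
  have hD0 : D ≠ 0 := NeZero.ne D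
  have hDsq : Squarefree D := hN.squarefree_of_dvd hD
  obtain ⟨h0, hd, e⟩ := S40CJ_W_jBar N D.primeFactorsList
    ((Nat.squarefree_iff_nodup_primeFactorsList hD0).1 hDsq)
    (fun q hq => Nat.prime_of_mem_primeFactorsList hq)
    (fun q hq => (Nat.dvd_of_mem_primeFactorsList hq).trans hD)
    (fun q hq hcon => by
      have hqp : q.Prime := Nat.prime_of_mem_primeFactorsList hq
      have hqN : q ∣ N := (Nat.dvd_of_mem_primeFactorsList hq).trans hD
      have h2 : q * q ∣ N := Nat.mul_dvd_of_dvd_div hqN hcon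
      exact hqp.not_isUnit (hN q h2))
  rw [e]
  exact S40CJ_jBar_congr N (Nat.prod_primeFactorsList hD0) _ _ _ _

/-- the `q`-order of `j(q^D)` is `− D`. -/
theorem S40CX_order_jBar (D : ℕ) [NeZero D] (hD : D ∣ N) :
    ((jBar N D hD : ↥(modularFunctionFieldBar N)) : LaurentSeries Kb).order = -(D : ℤ) := by
  rw [KE_jBar_coe, CU_order_qExpand, DG_A_order_jq]
  ring

theorem S40CX_jBar_ne_zero (D : ℕ) [NeZero D] (hD : D ∣ N) : jBar N D hD ≠ 0 := by
  intro h
  have h1 := S40CX_order_jBar N D hD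
  rw [h] at h1
  simp at h1
  exact NeZero.ne D h1

/-- `ord_{cusp D} (j) = − D`. -/
theorem S40CX_ord_jB (hN : Squarefree N) {D : ℕ} (hD : D ∣ N) :
    (S40CX_cusp N D).ord (jB N) = -(D : ℤ) := by
  haveI : NeZero D := ⟨fun h => NeZero.ne N (by rw [h] at hD; exact zero_dvd_iff.1 hD)⟩
  rw [S40CX_cusp_ord, S40CX_W_jB N hN D hD, S17EM_ord_O N (S40CX_jBar_ne_zero N D hD),
    S40CX_order_jBar]

/-- **exhaustion**: every pole of `j` on `X₀(N)`, `N` squarefree, is a cusp `W_D⁻¹ (∞)`. -/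
theorem S40CX_exhaust (hN : Squarefree N) (v : Place Kb ↥(modularFunctionFieldBar N))
    (hv : v.ord (jB N) < 0) : ∃ D ∈ N.divisors, v = S40CX_cusp N D := by
  refine S40CH_count (S18_hRR N) (jB N) N.divisors (fun D => S40CX_cusp N D)
    (fun D => (D : ℤ)) ?_ ?_ ?_ ?_ v hv
  · intro D hD D' hD' h
    have h1 := S40CX_ord_jB N hN (Nat.dvd_of_mem_divisors hD)
    have h2 := S40CX_ord_jB N hN (Nat.dvd_of_mem_divisors hD')
    have h' : S40CX_cusp N D = S40CX_cusp N D' := h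
    rw [h', h2] at h1
    exact_mod_cast (neg_injective h1).symm
  · intro D hD
    exact S40CX_ord_jB N hN (Nat.dvd_of_mem_divisors hD)
  · intro D hD
    exact_mod_cast Nat.pos_of_mem_divisors hD
  · rw [S34VD_deg_jB N (S18_hRR N).principal, S40PS_sum_divisors_int hN]

/-- **(L1)**: every pole `v` of `j` is `W⁻¹ (∞)` for an automorphism `W` of `F_N` commuting with
the Hecke norm `S37_t N ℓ` (`ℓ ∤ N` prime) — the hypothesis `hL1` of `S40CW_dvd`. -/
theorem S40CX_L1 (hN : Squarefree N) (ℓ : ℕ) [NeZero ℓ] (hℓ : ℓ.Prime) (hℓN : ¬ ℓ ∣ N) :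
    ∀ v : Place Kb ↥(modularFunctionFieldBar N), v.ord (jB N) < 0 →
      ∃ w : ↥(modularFunctionFieldBar N) ≃ₐ[Kb] ↥(modularFunctionFieldBar N),
        (∀ f, S37_t N ℓ (w f) = w (S37_t N ℓ f)) ∧ ∀ f, v.ord f = (S17EM_O N).ord (w f) := by
  intro v hv
  obtain ⟨D, hD, rfl⟩ := S40CX_exhaust N hN v hv
  refine ⟨S40CJ_W N D.primeFactorsList, fun f => ?_, fun f => S40CX_cusp_ord N D f⟩
  refine S40CJT_W_t N ℓ hℓ hℓN D.primeFactorsList ?_ f
  intro hmem
  exact hℓN ((Nat.dvd_of_mem_primeFactorsList hmem).trans (Nat.dvd_of_mem_divisors hD))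

end Fermat.Agent.S40
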