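import Mathlib
import Fermat.Agent.S18.AsmX0

/-!
# TRACK 13, (D-CUSP) route C0, leaf (L4): every cusp of the special fibre lifts

`S40CLF_cusp_lift` : every pole `c` of `j̄` on `Fk(N)` is `r(P)` for a pole `P` of `j` on `F_N`
(`r = placeReductionModL h`), from `r_* (div j) = div j̄` (`S18_Spec.mapDomain_div`).
Abstract form `S40CLF_lift` for any specialisation datum and any unit `x` of the Gauss ring.
-/

set_option autoImplicit false
set_option synthInstance.maxHeartbeats 400000
set_option maxHeartbeats 1000000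
set_option linter.unusedSectionVars false

open AlgebraicCurve ModularCurve

namespace Fermat.Agent.S40

open Fermat.Agent.S18 Fermat.Agent.S24

section abs

variable {L F k Fk : Type*} [Field L] [Field F] [Algebra L F] [Field k] [Field Fk]
  [Algebra k Fk] (S : S18_Spec L F k Fk)

/-- a negative coefficient of `r_* D` comes from a negative coefficient of `D`. -/
theorem S40CLF_mapDomain_neg {X Y : Type*} (r : X → Y) (D : X →₀ ℤ) (Q : Y)
    (h : Finsupp.mapDomain r D Q < 0) : ∃ P, r P = Q ∧ D P < 0 := by
  classical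
  by_contra hcon
  push Not at hcon
  have h0 : 0 ≤ Finsupp.mapDomain r D Q := by
    rw [Finsupp.mapDomain, Finsupp.sum_apply, Finsupp.sum]
    refine Finset.sum_nonneg fun P _ => ?_
    rw [Finsupp.single_apply]
    split_ifs with hP
    · exact hcon P hP
    · exact le_rfl
  exact absurd h (not_lt.mpr h0)

/-- a positive coefficient of `r_* D` comes from a positive coefficient of `D`. -/
theorem S40CLF_mapDomain_pos {X Y : Type*} (r : X → Y) (D : X →₀ ℤ) (Q : Y)
    (h : 0 < Finsupp.mapDomain r D Q) : ∃ P, r P = Q ∧ 0 < D P := by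
  classical
  by_contra hcon
  push Not at hcon
  have h0 : Finsupp.mapDomain r D Q ≤ 0 := by
    rw [Finsupp.mapDomain, Finsupp.sum_apply, Finsupp.sum]
    refine Finset.sum_nonpos fun P _ => ?_
    rw [Finsupp.single_apply]
    split_ifs with hP
    · exact hcon P hP
    · exact le_rfl
  exact absurd h (not_lt.mpr h0)

/-- **(L4), abstract**: every pole of `red x` is the specialisation of a pole of `x`. -/
theorem S40CLF_lift [HasPrincipalDivisors L F] (x : S.O) (hx : S.red x ≠ 0) (Q : Place k Fk)
    (hQ : Q.ord (S.red x) < 0) : ∃ P : Place L F, S.r P = Q ∧ P.ord (x : F) < 0 := by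
  have hx0 : (x : F) ≠ 0 := by
    intro h0
    apply hx
    have : x = 0 := Subtype.ext h0
    rw [this, map_zero]
  obtain ⟨D, hD, -⟩ := HasPrincipalDivisors.exists_divisor (K := L) (x : F) hx0
  have h1 := S.mapDomain_div x hx D hD Q
  rw [← h1] at hQ
  obtain ⟨P, hP, hneg⟩ := S40CLF_mapDomain_neg S.r D Q hQ
  exact ⟨P, hP, by rw [← hD P]; exact hneg⟩

/-- every zero of `red x` is the specialisation of a zero of `x`. -/
theorem S40CLF_lift_zero [HasPrincipalDivisors L F] (x : S.O) (hx : S.red x ≠ 0) (Q : Place k Fk)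
    (hQ : 0 < Q.ord (S.red x)) : ∃ P : Place L F, S.r P = Q ∧ 0 < P.ord (x : F) := by
  have hx0 : (x : F) ≠ 0 := by
    intro h0
    apply hx
    have : x = 0 := Subtype.ext h0
    rw [this, map_zero]
  obtain ⟨D, hD, -⟩ := HasPrincipalDivisors.exists_divisor (K := L) (x : F) hx0
  have h1 := S.mapDomain_div x hx D hD Q
  rw [← h1] at hQ
  obtain ⟨P, hP, hpos⟩ := S40CLF_mapDomain_pos S.r D Q hQ
  exact ⟨P, hP, by rw [← hD P]; exact hpos⟩

end abs

section inst

variable (N : ℕ) [NeZero N] (A : ValuationSubring (AlgebraicClosure ℚ))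
  (h : ReductionInputsModL A N)

/-- **(L4)**: every pole `c` of `j̄` is the reduction of a pole `P` of `j`. -/
theorem S40CLF_cusp_lift
    (c : Place (IsLocalRing.ResidueField A)
      ↥(modularFunctionFieldFullC (IsLocalRing.ResidueField A) N))
    (hc : c.ord (S18_jbar N (IsLocalRing.ResidueField A)) < 0) :
    ∃ P : Place (AlgebraicClosure ℚ) ↥(modularFunctionFieldBar N),
      placeReductionModL h P = c ∧ P.ord (jB N) < 0 := by
  have hPD := S18_hPD N
  have hred := S18_red_jO N A h
  have hne : (S18_specModL N A h).red (S18_jO N A h) ≠ 0 := by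
    rw [hred]
    intro h0
    rw [h0] at hc
    simp at hc
  have hQ : c.ord ((S18_specModL N A h).red (S18_jO N A h)) < 0 := by
    rw [hred]; exact hc
  obtain ⟨P, hP, hneg⟩ := S40CLF_lift (S18_specModL N A h) (S18_jO N A h) hne c hQ
  exact ⟨P, hP, hneg⟩

end inst

end Fermat.Agent.S40
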