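import Mathlib
import Fermat.Agent.S37.Glue
import Fermat.Agent.S34.WqInst

/-!
# TRACK 13, (D-CUSP) route C0, leaf (L5): the Hecke correspondence is symmetric

`S40CSY_hsym` : `Td (single P 1) P' ≠ 0 → Td (single P' 1) P ≠ 0` for `Td = S37_Td hα hβ`
(`= α_* β^*` on `F_N → F_{N ℓ}`), from the Atkin–Lehner involution `w_ℓ` of `F_{N ℓ}`, which swaps
`α^*` and `β^*`.
-/

set_option autoImplicit false
set_option synthInstance.maxHeartbeats 400000
set_option maxHeartbeats 1000000
set_option linter.unusedSectionVars false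
set_option linter.style.haveILetI false

open AlgebraicCurve ModularCurve

namespace Fermat.Agent.S40

open Fermat.Agent.S18 Fermat.Agent.Lib Fermat.Agent.GalRep Fermat.Agent.S37 Fermat.Agent.S34

section abs

variable {K F F' : Type*} [Field K] [Field F] [Field F'] [Algebra K F] [Algebra K F']

/-- the restriction of a place of `F'` along `φ : F → F'`. -/
noncomputable def S40CSY_restr (φ : F →ₐ[K] F') (hφ : φ.toRingHom.IsIntegral)
    (w : Place K F') : Place K F :=
  letI := algebraAlong φ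
  haveI := isScalarTower_along φ
  haveI := isIntegral_along φ hφ
  w.restrict F

theorem S40CSY_mem_restr (φ : F →ₐ[K] F') (hφ : φ.toRingHom.IsIntegral)
    (w : Place K F') (f : F) :
    f ∈ (S40CSY_restr φ hφ w).toValuationSubring ↔ φ f ∈ w.toValuationSubring :=
  Iff.rfl

/-- the ramification index along `φ`. -/
noncomputable def S40CSY_e (φ : F →ₐ[K] F') (w : Place K F') : ℤ :=
  letI := algebraAlong φ
  (w.ramificationIndex F : ℤ)

/-- the inertia degree along `ψ`. -/
noncomputable def S40CSY_f (ψ : F →ₐ[K] F') (hψ : ψ.toRingHom.IsIntegral) (w : Place K F') : ℤ :=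
  letI := algebraAlong ψ
  haveI := isScalarTower_along ψ
  haveI := isIntegral_along ψ hψ
  (w.inertiaDeg F : ℤ)

variable [HasPrincipalDivisors K F']

/-- the support of `ψ_* φ^* P`: the places `w|_ψ`, `w` over `P` along `φ`. -/
theorem S40CSY_corr_ne_zero_iff (φ ψ : F →ₐ[K] F') (hφ : φ.toRingHom.IsIntegral)
    (hψ : ψ.toRingHom.IsIntegral) (hdeg : ∀ w : Place K F', w.deg = 1) (P P' : Place K F) :
    Divisor.correspondence φ ψ hφ hψ (Finsupp.single P 1) P' ≠ 0 ↔
      ∃ w : Place K F', S40CSY_restr φ hφ w = P ∧ S40CSY_restr ψ hψ w = P' := by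
  classical
  rw [Divisor.correspondence_apply]
  -- the pull-back
  have hpull : ∀ w : Place K F', Divisor.pullbackAlong φ hφ (Finsupp.single P 1) w =
      S40CSY_e φ w *
        (Finsupp.single P (1 : ℤ)) (S40CSY_restr φ hφ w) := by
    intro w
    letI := algebraAlong φ
    haveI := isScalarTower_along φ
    haveI := isIntegral_along φ hφ
    exact Divisor.pullback_apply (Finsupp.single P 1) w
  have hepos : ∀ w : Place K F',
      0 < S40CSY_e φ w := by
    intro w
    letI := algebraAlong φ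
    haveI := isScalarTower_along φ
    haveI := isIntegral_along φ hφ
    show (0 : ℤ) < ((w.ramificationIndex F : ℕ) : ℤ)
    exact_mod_cast w.ramificationIndex_pos (F := F)
  have hfpos : ∀ w : Place K F',
      0 < S40CSY_f ψ hψ w := by
    intro w
    letI := algebraAlong ψ
    haveI := isScalarTower_along ψ
    haveI := isIntegral_along ψ hψ
    have h1 := w.deg_restrict_mul_inertiaDeg (F := F)
    rw [hdeg w] at h1
    have : w.inertiaDeg F ≠ 0 := by
      intro h0
      rw [h0, mul_zero] at h1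
      exact zero_ne_one h1
    show (0 : ℤ) < ((w.inertiaDeg F : ℕ) : ℤ)
    exact_mod_cast Nat.pos_of_ne_zero this
  have hpush : ∀ E : Divisor K F', Divisor.pushforwardAlong ψ hψ E P' =
      ∑ w ∈ E.support, if S40CSY_restr ψ hψ w = P' then
        E w * S40CSY_f ψ hψ w
        else 0 := by
    intro E
    letI := algebraAlong ψ
    haveI := isScalarTower_along ψ
    haveI := isIntegral_along ψ hψ
    exact Divisor.pushforward_apply E P'
  rw [hpush]
  constructor
  · intro hne
    obtain ⟨w, hw, hw0⟩ := Finset.exists_ne_zero_of_sum_ne_zero hne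
    by_cases hP' : S40CSY_restr ψ hψ w = P'
    · rw [if_pos hP'] at hw0
      refine ⟨w, ?_, hP'⟩
      have h1 : Divisor.pullbackAlong φ hφ (Finsupp.single P 1) w ≠ 0 := left_ne_zero_of_mul hw0
      rw [hpull w] at h1
      have h2 := right_ne_zero_of_mul h1
      by_contra hne'
      exact h2 (Finsupp.single_eq_of_ne (fun h => hne' h))
    · rw [if_neg hP'] at hw0
      exact absurd rfl hw0
  · rintro ⟨w, hP, hP'⟩
    have hEw : Divisor.pullbackAlong φ hφ (Finsupp.single P 1) w =
        S40CSY_e φ w := by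
      rw [hpull w, hP, Finsupp.single_eq_same, mul_one]
    have hEpos : 0 < Divisor.pullbackAlong φ hφ (Finsupp.single P 1) w := by
      rw [hEw]; exact hepos w
    have hwsupp : w ∈ (Divisor.pullbackAlong φ hφ (Finsupp.single P 1)).support :=
      Finsupp.mem_support_iff.mpr hEpos.ne'
    have hnn : ∀ w' ∈ (Divisor.pullbackAlong φ hφ (Finsupp.single P 1)).support,
        0 ≤ (if S40CSY_restr ψ hψ w' = P' then
          Divisor.pullbackAlong φ hφ (Finsupp.single P 1) w' *
            S40CSY_f ψ hψ w'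
          else 0) := by
      intro w' _
      split_ifs
      · refine mul_nonneg ?_ (hfpos w').le
        rw [hpull w']
        refine mul_nonneg (hepos w').le ?_
        rw [Finsupp.single_apply]
        split_ifs <;> norm_num
      · exact le_rfl
    have hle := Finset.single_le_sum hnn hwsupp
    rw [if_pos hP'] at hle
    have hpos : 0 < Divisor.pullbackAlong φ hφ (Finsupp.single P 1) w *
        S40CSY_f ψ hψ w :=
      mul_pos hEpos (hfpos w)
    exact (lt_of_lt_of_le hpos hle).ne'

/-- **symmetry from an automorphism swapping `φ` and `ψ`**. -/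
theorem S40CSY_symm_abs (φ ψ : F →ₐ[K] F') (hφ : φ.toRingHom.IsIntegral)
    (hψ : ψ.toRingHom.IsIntegral) (hdeg : ∀ w : Place K F', w.deg = 1)
    (σ : F' ≃ₐ[K] F') (h1 : ∀ f, σ (φ f) = ψ f) (h2 : ∀ f, σ (ψ f) = φ f) (P P' : Place K F)
    (h : Divisor.correspondence φ ψ hφ hψ (Finsupp.single P 1) P' ≠ 0) :
    Divisor.correspondence φ ψ hφ hψ (Finsupp.single P' 1) P ≠ 0 := by
  rw [S40CSY_corr_ne_zero_iff φ ψ hφ hψ hdeg] at h ⊢
  obtain ⟨w, hP, hP'⟩ := h
  have key : ∀ x : F', x ∈ (σ • w).toValuationSubring ↔ σ.symm x ∈ w.toValuationSubring := by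
    intro x
    rw [Place.smul_toValuationSubring, ValuationSubring.mem_pointwise_smul_iff_inv_smul_mem]
    rfl
  refine ⟨σ • w, ?_, ?_⟩
  · rw [← hP']
    apply Place.ext
    ext f
    rw [S40CSY_mem_restr, S40CSY_mem_restr, key]
    have : σ.symm (φ f) = ψ f := by
      rw [← h2 f, AlgEquiv.symm_apply_apply]
    rw [this]
  · rw [← hP]
    apply Place.ext
    ext f
    rw [S40CSY_mem_restr, S40CSY_mem_restr, key]
    have : σ.symm (ψ f) = φ f := by
      rw [← h1 f, AlgEquiv.symm_apply_apply]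
    rw [this]

end abs

section inst

variable {N ℓ : ℕ} [NeZero N] [NeZero ℓ]
variable (hα : (heckeAlphaBar (AlgebraicClosure ℚ) N ℓ).toRingHom.IsIntegral)
  (hβ : (heckeBetaBar (AlgebraicClosure ℚ) N ℓ).toRingHom.IsIntegral)
  [HasPrincipalDivisors (AlgebraicClosure ℚ) ↥(modularFunctionFieldBar (N * ℓ))]

/-- **(L5)**: the Hecke correspondence `T_ℓ` on the places of `F_N` is symmetric. -/
theorem S40CSY_hsym (hℓ : ℓ.Prime) (hℓN : ¬ ℓ ∣ N)
    (P P' : Place (AlgebraicClosure ℚ) ↥(modularFunctionFieldBar N))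
    (h : S37_Td hα hβ (Finsupp.single P 1) P' ≠ 0) :
    S37_Td hα hβ (Finsupp.single P' 1) P ≠ 0 :=
  S40CSY_symm_abs (heckeBetaBar (AlgebraicClosure ℚ) N ℓ) (heckeAlphaBar (AlgebraicClosure ℚ) N ℓ)
    hβ hα (S37_hRR (N * ℓ)).deg_one (S34WJ_wq hℓ hℓN)
    (fun f => S34WJ_wq_beta hℓ hℓN f) (fun f => S34WJ_wq_alpha hℓ hℓN f) P P' h

/-- the support of `T_ℓ P`. -/
theorem S40CSY_Td_ne_zero_iff
    (P P' : Place (AlgebraicClosure ℚ) ↥(modularFunctionFieldBar N)) :
    S37_Td hα hβ (Finsupp.single P 1) P' ≠ 0 ↔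
      ∃ w : Place (AlgebraicClosure ℚ) ↥(modularFunctionFieldBar (N * ℓ)),
        S40CSY_restr (heckeBetaBar (AlgebraicClosure ℚ) N ℓ) hβ w = P ∧
          S40CSY_restr (heckeAlphaBar (AlgebraicClosure ℚ) N ℓ) hα w = P' :=
  S40CSY_corr_ne_zero_iff _ _ hβ hα (S37_hRR (N * ℓ)).deg_one P P'

end inst

end Fermat.Agent.S40
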