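import Fermat.Agent.S40.Geo5Q

/-!
# TRACK 13 (S40/S44), (D-CUSP) at the cusp `∞` (helper10), prefix `S40G5O_`:
the `q`-order of the reduction of `t u`

Series level (`k` a field):
* `S40G5O_order_tw`      : `order (ES_tw u f) = order f`;
* `S40G5O_order_qExpand` : `order (f(q^N)) = N · order f`;
* `S40G5O_order_prodTw`  : `order (∏_{i<ℓ} f(ζ^i q)) = ℓ · order f`;
* `S40G5O_order_rhs`     : `ℓ ∤ N ⇒ order (GRS_rhs N ℓ u f) = ℓ (ℓ + 1) · order f`;
* `S40G5O_order_rhs_dvd` : `ℓ ∣ N ⇒ order (GRS_rhs N ℓ u f) = ℓ · order f`.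

Gauss ring of level `N` (`A`, `hgen`), `u ∈ O`, `red u ≠ 0`:
* `S40G5O_order_t`     : `ℓ ∤ N ⇒ order (red (t u)) = (ℓ + 1) · order (red u)` in `k((q))`;
* `S40G5O_order_t_dvd` : `ℓ ∣ N ⇒ order (red (t u)) = order (red u)`;
* `S40G5O_dvd`         : if moreover `red (t u) = ē · (red u)^a · h̄^p` in `k((q))` then
  `p ∣ (ℓ + 1 - a) · order (red u)`.
-/

set_option autoImplicit false
set_option synthInstance.maxHeartbeats 400000
set_option maxHeartbeats 1000000
set_option linter.unusedSectionVars false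
set_option linter.style.haveILetI false

open HahnSeries IntermediateField AlgebraicCurve ModularCurve

namespace Fermat.Agent.S40

open Fermat.Agent.S18 Fermat.Agent.GalRep

section series

variable {k : Type*} [Field k]

theorem S40G5O_tw_ne_zero (u : kˣ) {f : LaurentSeries k} (hf : f ≠ 0) : ES_tw u f ≠ 0 := by
  intro h0
  apply hf
  ext n
  have := congrArg (fun z => z.coeff n) h0
  simp only [ES_tw_coeff, HahnSeries.coeff_zero] at this
  rcases mul_eq_zero.1 this with h | h
  · exact absurd h (Units.ne_zero _)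
  · simpa using h

/-- twisting by a unit does not change the order. -/
theorem S40G5O_order_tw (u : kˣ) (f : LaurentSeries k) : (ES_tw u f).order = f.order := by
  by_cases hf : f = 0
  · rw [hf, map_zero]
  have hf' := S40G5O_tw_ne_zero u hf
  apply le_antisymm
  · apply HahnSeries.order_le_of_coeff_ne_zero
    rw [ES_tw_coeff]
    exact mul_ne_zero (Units.ne_zero _) (fun h0 => hf (HahnSeries.coeff_order_eq_zero.1 h0))
  · apply HahnSeries.order_le_of_coeff_ne_zero
    have h : (ES_tw u f).coeff (ES_tw u f).order ≠ 0 :=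
      fun h0 => hf' (HahnSeries.coeff_order_eq_zero.1 h0)
    rw [ES_tw_coeff] at h
    exact right_ne_zero_of_mul h

/-- the order of `f(q^N)`. -/
theorem S40G5O_order_qExpand (N : ℕ) [NeZero N] (f : LaurentSeries k) :
    (qExpand k N f).order = (N : ℤ) * f.order := by
  by_cases hf : f = 0
  · rw [hf, map_zero, HahnSeries.order_zero, mul_zero]
  have hf' : qExpand k N f ≠ 0 := fun h0 => hf (qExpand_injective N (by rw [h0, map_zero]))
  have hN : (0 : ℤ) < (N : ℤ) := by exact_mod_cast Nat.pos_of_ne_zero (NeZero.ne N)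
  apply le_antisymm
  · apply HahnSeries.order_le_of_coeff_ne_zero
    rw [qExpand_coeff_mul]
    exact fun h0 => hf (HahnSeries.coeff_order_eq_zero.1 h0)
  · have h : (qExpand k N f).coeff (qExpand k N f).order ≠ 0 :=
      fun h0 => hf' (HahnSeries.coeff_order_eq_zero.1 h0)
    by_cases hd : (N : ℤ) ∣ (qExpand k N f).order
    · obtain ⟨m, hm⟩ := hd
      rw [hm, qExpand_coeff_mul] at h
      rw [hm]
      exact mul_le_mul_of_nonneg_left (HahnSeries.order_le_of_coeff_ne_zero h) hN.le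
    · exact absurd (qExpand_coeff_of_not_dvd N f hd) h

/-- the order of a finite product of nonzero series. -/
theorem S40G5O_order_prod {ι : Type*} (s : Finset ι) (g : ι → LaurentSeries k)
    (hg : ∀ i ∈ s, g i ≠ 0) : (∏ i ∈ s, g i).order = ∑ i ∈ s, (g i).order := by
  classical
  induction s using Finset.induction_on with
  | empty => simp
  | insert j t hjt ih =>
    have h1 : g j ≠ 0 := hg j (Finset.mem_insert_self j t)
    have h2 : ∀ i ∈ t, g i ≠ 0 := fun i hi => hg i (Finset.mem_insert_of_mem hi)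
    have h3 : ∏ i ∈ t, g i ≠ 0 := Finset.prod_ne_zero_iff.2 h2
    rw [Finset.prod_insert hjt, Finset.sum_insert hjt, HahnSeries.order_mul h1 h3, ih h2]

/-- the order of `∏_{i<ℓ} f(ζ^i q)`. -/
theorem S40G5O_order_prodTw (ℓ : ℕ) (u : kˣ) (f : LaurentSeries k) (hf : f ≠ 0) :
    (GRS_prodTw ℓ u f).order = (ℓ : ℤ) * f.order := by
  rw [GRS_prodTw, S40G5O_order_prod _ _ (fun i _ => S40G5O_tw_ne_zero _ hf)]
  simp only [S40G5O_order_tw, Finset.sum_const, Finset.card_range, nsmul_eq_mul]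

/-- the order of the right-hand side of (H1), `ℓ ∤ N`. -/
theorem S40G5O_order_rhs (N ℓ : ℕ) [NeZero ℓ] (hℓN : ¬ ℓ ∣ N) (u : kˣ) (f : LaurentSeries k)
    (hf : f ≠ 0) : (GRS_rhs N ℓ u f).order = (ℓ : ℤ) * ((ℓ : ℤ) + 1) * f.order := by
  have h1 : qExpand k ℓ (qExpand k ℓ f) ≠ 0 := fun h0 =>
    hf (qExpand_injective ℓ (qExpand_injective ℓ (by rw [h0, map_zero, map_zero])))
  have h2 : GRS_prodTw ℓ u f ≠ 0 := by
    rw [GRS_prodTw]
    exact Finset.prod_ne_zero_iff.2 (fun i _ => S40G5O_tw_ne_zero _ hf)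
  rw [GRS_rhs_of_not_dvd N ℓ hℓN, GRS_rhs_eq, HahnSeries.order_mul h1 h2,
    S40G5O_order_qExpand, S40G5O_order_qExpand, S40G5O_order_prodTw ℓ u f hf]
  ring

/-- the order of the right-hand side of (H1), `ℓ ∣ N`. -/
theorem S40G5O_order_rhs_dvd (N ℓ : ℕ) [NeZero ℓ] (hℓN : ℓ ∣ N) (u : kˣ) (f : LaurentSeries k)
    (hf : f ≠ 0) : (GRS_rhs N ℓ u f).order = (ℓ : ℤ) * f.order := by
  rw [GRS_rhs_of_dvd N ℓ hℓN, S40G5O_order_prodTw ℓ u f hf]

end series

section main

variable (N : ℕ) [NeZero N] (A : ValuationSubring (AlgebraicClosure ℚ))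
  {ℓ : ℕ} [NeZero ℓ] {ζ : (AlgebraicClosure ℚ)ˣ}

/-- **the `q`-order of `red (t u)`**, `ℓ ∤ N`: `(ℓ + 1) · order (red u)`. -/
theorem S40G5O_order_t (hgen : PrincipalGeneratedByIntegral A (IsLocalRing.residue A) N)
    (hℓN : ¬ ℓ ∣ N) (hζ : ζ ^ ℓ = 1) (hst : GRS_Stab N ℓ ζ)
    (u : ↥(modularFunctionFieldBar N)) (hu : u ∈ S18_O A N)
    (hred : S18_red A N ⟨u, hu⟩ ≠ 0) (h' : GRS_t hst u ∈ S18_O A N) :
    ((S18_red A N ⟨GRS_t hst u, h'⟩ :
        ↥(modularFunctionFieldFullC (IsLocalRing.ResidueField A) N)) :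
          LaurentSeries (IsLocalRing.ResidueField A)).order =
      ((ℓ : ℤ) + 1) * ((S18_red A N ⟨u, hu⟩ :
        ↥(modularFunctionFieldFullC (IsLocalRing.ResidueField A) N)) :
          LaurentSeries (IsLocalRing.ResidueField A)).order := by
  obtain ⟨ζA, hζA⟩ := S40G5H_unit_of_pow A ζ ℓ (NeZero.ne ℓ) hζ
  have hq := S40G5Q_qexp N A hgen ζA hζA hst u hu h'
  have hne : ((S18_red A N ⟨u, hu⟩ :
        ↥(modularFunctionFieldFullC (IsLocalRing.ResidueField A) N)) :
          LaurentSeries (IsLocalRing.ResidueField A)) ≠ 0 := fun h0 => hred (Subtype.ext h0)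
  have h1 := congrArg HahnSeries.order hq
  rw [S40G5O_order_qExpand, S40G5O_order_rhs N ℓ hℓN _ _ hne, mul_assoc] at h1
  have hℓ0 : (ℓ : ℤ) ≠ 0 := by exact_mod_cast NeZero.ne ℓ
  exact mul_left_cancel₀ hℓ0 h1

/-- **the `q`-order of `red (t u)`**, `ℓ ∣ N`: `order (red u)`. -/
theorem S40G5O_order_t_dvd (hgen : PrincipalGeneratedByIntegral A (IsLocalRing.residue A) N)
    (hℓN : ℓ ∣ N) (hζ : ζ ^ ℓ = 1) (hst : GRS_Stab N ℓ ζ)
    (u : ↥(modularFunctionFieldBar N)) (hu : u ∈ S18_O A N)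
    (hred : S18_red A N ⟨u, hu⟩ ≠ 0) (h' : GRS_t hst u ∈ S18_O A N) :
    ((S18_red A N ⟨GRS_t hst u, h'⟩ :
        ↥(modularFunctionFieldFullC (IsLocalRing.ResidueField A) N)) :
          LaurentSeries (IsLocalRing.ResidueField A)).order =
      ((S18_red A N ⟨u, hu⟩ :
        ↥(modularFunctionFieldFullC (IsLocalRing.ResidueField A) N)) :
          LaurentSeries (IsLocalRing.ResidueField A)).order := by
  obtain ⟨ζA, hζA⟩ := S40G5H_unit_of_pow A ζ ℓ (NeZero.ne ℓ) hζ
  have hq := S40G5Q_qexp N A hgen ζA hζA hst u hu h'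
  have hne : ((S18_red A N ⟨u, hu⟩ :
        ↥(modularFunctionFieldFullC (IsLocalRing.ResidueField A) N)) :
          LaurentSeries (IsLocalRing.ResidueField A)) ≠ 0 := fun h0 => hred (Subtype.ext h0)
  have h1 := congrArg HahnSeries.order hq
  rw [S40G5O_order_qExpand, S40G5O_order_rhs_dvd N ℓ hℓN _ _ hne] at h1
  have hℓ0 : (ℓ : ℤ) ≠ 0 := by exact_mod_cast NeZero.ne ℓ
  exact mul_left_cancel₀ hℓ0 h1

/-- **the cusp `∞`**: if `red (t u) = ē · (red u)^a · h̄^p` in `k((q))` (`ℓ ∤ N`) then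
`p ∣ (ℓ + 1 - a) · order (red u)`. -/
theorem S40G5O_dvd (hgen : PrincipalGeneratedByIntegral A (IsLocalRing.residue A) N)
    (hℓN : ¬ ℓ ∣ N) (hζ : ζ ^ ℓ = 1) (hst : GRS_Stab N ℓ ζ)
    (u : ↥(modularFunctionFieldBar N)) (hu : u ∈ S18_O A N)
    (hred : S18_red A N ⟨u, hu⟩ ≠ 0) (h' : GRS_t hst u ∈ S18_O A N)
    (p : ℕ) (a : ℤ) (e : IsLocalRing.ResidueField A) (he : e ≠ 0)
    (h : LaurentSeries (IsLocalRing.ResidueField A)) (hh : h ≠ 0)
    (hrel : ((S18_red A N ⟨GRS_t hst u, h'⟩ :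
        ↥(modularFunctionFieldFullC (IsLocalRing.ResidueField A) N)) :
          LaurentSeries (IsLocalRing.ResidueField A)) =
      HahnSeries.C e * ((S18_red A N ⟨u, hu⟩ :
        ↥(modularFunctionFieldFullC (IsLocalRing.ResidueField A) N)) :
          LaurentSeries (IsLocalRing.ResidueField A)) ^ a * h ^ p) :
    (p : ℤ) ∣ ((ℓ : ℤ) + 1 - a) * ((S18_red A N ⟨u, hu⟩ :
        ↥(modularFunctionFieldFullC (IsLocalRing.ResidueField A) N)) :
          LaurentSeries (IsLocalRing.ResidueField A)).order := by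
  have hne : ((S18_red A N ⟨u, hu⟩ :
        ↥(modularFunctionFieldFullC (IsLocalRing.ResidueField A) N)) :
          LaurentSeries (IsLocalRing.ResidueField A)) ≠ 0 := fun h0 => hred (Subtype.ext h0)
  have h1 := S40G5O_order_t N A hgen hℓN hζ hst u hu hred h'
  have hC : (HahnSeries.C e : LaurentSeries (IsLocalRing.ResidueField A)) ≠ 0 := by
    intro h0
    exact he (HahnSeries.C_injective (by rw [h0, map_zero]))
  have hCo : (HahnSeries.C e : LaurentSeries (IsLocalRing.ResidueField A)).order = 0 :=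
    HahnSeries.order_C
  have hza : ((S18_red A N ⟨u, hu⟩ :
        ↥(modularFunctionFieldFullC (IsLocalRing.ResidueField A) N)) :
          LaurentSeries (IsLocalRing.ResidueField A)) ^ a ≠ 0 := zpow_ne_zero _ hne
  have hzo : (((S18_red A N ⟨u, hu⟩ :
        ↥(modularFunctionFieldFullC (IsLocalRing.ResidueField A) N)) :
          LaurentSeries (IsLocalRing.ResidueField A)) ^ a).order =
      a * ((S18_red A N ⟨u, hu⟩ :
        ↥(modularFunctionFieldFullC (IsLocalRing.ResidueField A) N)) :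
          LaurentSeries (IsLocalRing.ResidueField A)).order := by
    set f := ((S18_red A N ⟨u, hu⟩ :
        ↥(modularFunctionFieldFullC (IsLocalRing.ResidueField A) N)) :
          LaurentSeries (IsLocalRing.ResidueField A)) with hfdef
    have hpow : ∀ n : ℕ, (f ^ n).order = (n : ℤ) * f.order := by
      intro n
      induction n with
      | zero => simp
      | succ n ih =>
        rw [pow_succ, HahnSeries.order_mul (pow_ne_zero _ hne) hne, ih]
        push_cast
        ring
    have hinv : (f⁻¹).order = - f.order := by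
      have h2 : f * f⁻¹ = 1 := mul_inv_cancel₀ hne
      have h3 := congrArg HahnSeries.order h2
      rw [HahnSeries.order_mul hne (inv_ne_zero hne), HahnSeries.order_one] at h3
      linarith
    obtain ⟨n, rfl | rfl⟩ := Int.eq_nat_or_neg a
    · rw [zpow_natCast, hpow]
    · rw [zpow_neg, zpow_natCast, ← inv_pow]
      have hpow' : ∀ n : ℕ, (f⁻¹ ^ n).order = (n : ℤ) * (f⁻¹).order := by
        intro n
        induction n with
        | zero => simp
        | succ n ih =>
          rw [pow_succ, HahnSeries.order_mul (pow_ne_zero _ (inv_ne_zero hne)) (inv_ne_zero hne),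
            ih]
          push_cast
          ring
      rw [hpow', hinv]
      ring
  have hhp' : ∀ n : ℕ, (h ^ n).order = (n : ℤ) * h.order := by
    intro n
    induction n with
    | zero => simp
    | succ n ih =>
      rw [pow_succ, HahnSeries.order_mul (pow_ne_zero _ hh) hh, ih]
      push_cast
      ring
  have hhp : (h ^ p).order = (p : ℤ) * h.order := hhp' p
  have h2 := congrArg HahnSeries.order hrel
  rw [HahnSeries.order_mul (mul_ne_zero hC hza) (pow_ne_zero _ hh),
    HahnSeries.order_mul hC hza, hCo, zero_add, hzo, hhp, h1] at h2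
  refine ⟨h.order, ?_⟩
  linarith

end main

end Fermat.Agent.S40
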