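import Mathlib
import Fermat.Agent.S40.Geo5Ord
import Fermat.Agent.S17.Emb
import Fermat.Agent.S37.H1

/-!
# TRACK 13 (S40/S44, row 38), (D-CUSP) route C0, leaf (L2) (helper13).  Prefix `S40CL2_`.

Characteristic `0`, level `N`, `ℓ ∤ N` prime, `∞ = S17EM_O N` the cusp `∞` (the place of the
`q`-adic order): the multiplicative Hecke operator multiplies the order at `∞` by `ℓ + 1`.

* `S40CL2_order_grs` : `order (GRS_t hst f) = (ℓ + 1) · order f` (`q`-expansions);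
* `S40CL2_ord_grs`   : `ord_∞ (GRS_t hst f) = (ℓ + 1) · ord_∞ f`;
* `S40CL2_ord_t`     : `ord_∞ (S37_t N ℓ f) = (ℓ + 1) · ord_∞ f`  (`S37_t` = the norm of `β f`, the
  operator of `S37_Td_div : Td (div f) = div (S37_t f)`).
-/

set_option autoImplicit false
set_option linter.unusedSectionVars false
set_option linter.unusedVariables false
set_option synthInstance.maxHeartbeats 400000
set_option maxHeartbeats 1000000

open HahnSeries IntermediateField AlgebraicCurve ModularCurve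

noncomputable section

namespace Fermat.Agent.S40

open Fermat.Agent.S17 Fermat.Agent.S18 Fermat.Agent.S37 Fermat.Agent.GalRep

local notation "Kb" => AlgebraicClosure ℚ

variable (N : ℕ) [NeZero N] {ℓ : ℕ} [NeZero ℓ]

/-- a series whose `q ↦ q^ℓ` substitution is the right-hand side of (H1) has order
`(ℓ + 1) · order f`. -/
theorem S40CL2_order_of_spec (hℓN : ¬ ℓ ∣ N) (ζ : Kbˣ) (f g : LaurentSeries Kb) (hf : f ≠ 0)
    (h : qExpand Kb ℓ g = GRS_rhs N ℓ ζ f) : g.order = ((ℓ : ℤ) + 1) * f.order := by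
  have h2 := congrArg HahnSeries.order h
  rw [S40G5O_order_qExpand, S40G5O_order_rhs N ℓ hℓN ζ f hf, mul_assoc] at h2
  have hℓ0 : (ℓ : ℤ) ≠ 0 := by exact_mod_cast NeZero.ne ℓ
  exact mul_left_cancel₀ hℓ0 h2

/-- nonvanishing. -/
theorem S40CL2_ne_zero_of_spec (ζ : Kbˣ) (f g : LaurentSeries Kb) (hf : f ≠ 0)
    (h : qExpand Kb ℓ g = GRS_rhs N ℓ ζ f) : g ≠ 0 := by
  rintro rfl
  rw [map_zero] at h
  exact S40G5H_rhs_ne_zero N ℓ ζ f hf h.symm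

/-- `order (t f) = (ℓ + 1) · order f` for the `q`-expansions, `t = GRS_t hst`. -/
theorem S40CL2_order_grs (hℓN : ¬ ℓ ∣ N) {ζ : Kbˣ} (hst : GRS_Stab N ℓ ζ)
    (f : ↥(modularFunctionFieldBar N)) (hf : f ≠ 0) :
    ((GRS_t hst f : ↥(modularFunctionFieldBar N)) : LaurentSeries Kb).order =
      ((ℓ : ℤ) + 1) * (f : LaurentSeries Kb).order :=
  S40CL2_order_of_spec N hℓN ζ _ _ (fun h0 => hf (Subtype.ext h0)) (GRS_t_spec hst f)

/-- `ord_∞ (t f) = (ℓ + 1) · ord_∞ f`, `t = GRS_t hst`. -/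
theorem S40CL2_ord_grs (hℓN : ¬ ℓ ∣ N) {ζ : Kbˣ} (hst : GRS_Stab N ℓ ζ)
    (f : ↥(modularFunctionFieldBar N)) (hf : f ≠ 0) :
    (S17EM_O N).ord (GRS_t hst f) = ((ℓ : ℤ) + 1) * (S17EM_O N).ord f := by
  have hf' : (f : LaurentSeries Kb) ≠ 0 := fun h0 => hf (Subtype.ext h0)
  have htf : GRS_t hst f ≠ 0 := by
    intro h0
    have := S40CL2_ne_zero_of_spec N ζ _ _ hf' (GRS_t_spec hst f)
    rw [h0] at this
    exact this rfl
  rw [S17EM_ord_O N htf, S17EM_ord_O N hf]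
  exact S40CL2_order_grs N hℓN hst f hf

/-- `S37_t f ≠ 0`. -/
theorem S40CL2_t_ne_zero (hℓ : ℓ.Prime) (hℓN : ¬ ℓ ∣ N)
    (f : ↥(modularFunctionFieldBar N)) (hf : f ≠ 0) : S37_t N ℓ f ≠ 0 := by
  obtain ⟨ζ, -, hH⟩ := S37_H1 N ℓ hℓ hℓN
  have hf' : (f : LaurentSeries Kb) ≠ 0 := fun h0 => hf (Subtype.ext h0)
  have h := hH f hf
  rw [← GRS_rhs_of_not_dvd N ℓ hℓN] at h
  intro h0
  have := S40CL2_ne_zero_of_spec N ζ _ _ hf' h
  rw [h0] at this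
  exact this rfl

/-- **(L2)**: `ord_∞ (t f) = (ℓ + 1) · ord_∞ f` for the norm `t = S37_t N ℓ`, `ℓ ∤ N` prime. -/
theorem S40CL2_ord_t (hℓ : ℓ.Prime) (hℓN : ¬ ℓ ∣ N)
    (f : ↥(modularFunctionFieldBar N)) (hf : f ≠ 0) :
    (S17EM_O N).ord (S37_t N ℓ f) = ((ℓ : ℤ) + 1) * (S17EM_O N).ord f := by
  obtain ⟨ζ, -, hH⟩ := S37_H1 N ℓ hℓ hℓN
  have hf' : (f : LaurentSeries Kb) ≠ 0 := fun h0 => hf (Subtype.ext h0)
  have h := hH f hf
  rw [← GRS_rhs_of_not_dvd N ℓ hℓN] at h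
  rw [S17EM_ord_O N (S40CL2_t_ne_zero N hℓ hℓN f hf), S17EM_ord_O N hf]
  exact S40CL2_order_of_spec N hℓN ζ _ _ hf' h

end Fermat.Agent.S40
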