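import Mathlib
import Fermat.Agent.S40.CuspHex
import Fermat.Agent.S40.CuspL2
import Fermat.Agent.S40.Geo5Red
import Fermat.Agent.S37.FinrankAlpha

/-!
# TRACK 13 (S40/S44, row 38), (D-CUSP), route C0: THE WIRE (helper9).  Prefix `S40CW_`.

Level `N` with good reduction at `A ∣ p` (`p ∤ N`), `ℓ ∤ N` prime, `r = placeReductionModL h`,
`Td = S37_Td hα hβ` (the Hecke correspondence `T_ℓ` on divisors), `t = S37_t N ℓ`.

* `S40CW_Td_cusp` : `Td P = (ℓ + 1) · P` at every place `P` with an (L1)-witness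
  (an automorphism `w` commuting with `t` with `ord_P f = ord_∞ (w f)`)
  — from (L2) `S40CL2_ord_t` (helper13) and POSITIVITY `S40CH_at`;
* `S40CW_claim`   : `(r_* Td D)(c) = (ℓ + 1) · (r_* D)(c)` at every pole `c` of `j̄`, for ALL
  divisors `D` — from CONGR `S40G5R_congr` (helper10), (L4), (L5);
* `S40CW_dvd`     : **(D-CUSP)**: `ord_c (red (t g)) = a · ord_c (red g) + p · ord_c H` and
  `p ∤ ℓ + 1 - a` give `p ∣ ord_c (red g)` at every pole `c` of `j̄`.

The leaves (L1), (L4), (L5) are hypotheses (`hL1`, `hL4`, `hL5`) in the shapes agreed on the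
board.
-/

set_option autoImplicit false
set_option synthInstance.maxHeartbeats 400000
set_option maxHeartbeats 1000000
set_option linter.unusedSectionVars false
set_option linter.unusedVariables false
set_option linter.style.haveILetI false

open HahnSeries IntermediateField AlgebraicCurve ModularCurve

namespace Fermat.Agent.S40

open Fermat.Agent.S18 Fermat.Agent.Lib Fermat.Agent.GalRep Fermat.Agent.S37 Fermat.Agent.S19
  Fermat.Agent.S17 Fermat.Agent.S24

local notation "Kb" => AlgebraicClosure ℚ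

variable (N : ℕ) [NeZero N] (A : ValuationSubring (AlgebraicClosure ℚ)) {p : ℕ}
  {ℓ : ℕ} [NeZero ℓ]

variable (hp : p.Prime) (hA : A.LiesOverPrime p) (hpN : ¬ p ∣ N) (h : ReductionInputsModL A N)
  (hℓ : ℓ.Prime) (hℓN : ¬ ℓ ∣ N)
  (hα : (heckeAlphaBar (AlgebraicClosure ℚ) N ℓ).toRingHom.IsIntegral)
  (hβ : (heckeBetaBar (AlgebraicClosure ℚ) N ℓ).toRingHom.IsIntegral)
  [HasPrincipalDivisors (AlgebraicClosure ℚ) ↥(modularFunctionFieldBar (N * ℓ))]

include hℓ hℓN in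
/-- **(C1)**: `T_ℓ P = (ℓ + 1) · P` at a place with an (L1)-witness. -/
theorem S40CW_Td_cusp (P : Place Kb ↥(modularFunctionFieldBar N))
    (hL1 : ∃ w : ↥(modularFunctionFieldBar N) ≃ₐ[Kb] ↥(modularFunctionFieldBar N),
      (∀ f, S37_t N ℓ (w f) = w (S37_t N ℓ f)) ∧ ∀ f, P.ord f = (S17EM_O N).ord (w f)) :
    S37_Td hα hβ (Finsupp.single P 1) = Finsupp.single P ((ℓ : ℤ) + 1) ∧
      ∀ Q : Place Kb ↥(modularFunctionFieldBar N), Q ≠ P →
        S37_Td hα hβ (Finsupp.single Q 1) P = 0 := by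
  obtain ⟨w, hwt, hwP⟩ := hL1
  obtain ⟨ζ, hζ, hH⟩ := S37_H1 N ℓ hℓ hℓN
  have hst := S40G5R_stab N hℓN ζ hH
  have hFI : FundamentalIdentityAlong (AlgebraicClosure ℚ)
      (heckeBetaBar (AlgebraicClosure ℚ) N ℓ) hβ := S37P_fundamentalIdentity_beta N ℓ
  have hfin := S37P_finiteAlong_alpha N ℓ
  have hN : NormFormulaAlong (AlgebraicClosure ℚ) (heckeAlphaBar (AlgebraicClosure ℚ) N ℓ) hfin :=
    S37P_normFormula_alpha N ℓ
  haveI : Infinite (AlgebraicClosure ℚ) := IsAlgClosed.instInfinite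
  have hC : (finrankAlong (AlgebraicClosure ℚ) (heckeBetaBar (AlgebraicClosure ℚ) N ℓ) : ℤ)
      = (ℓ : ℤ) + 1 := by
    rw [S37P_finrankAlong_beta N ℓ hℓ hℓN]
    push_cast
    rfl
  have key := S40CH_at (S37_hRR N) (GRS_t hst) (S37_Td hα hβ) ((ℓ : ℤ) + 1)
    (fun f hf => by
      rw [S37_RR_div_eq, S37_RR_div_eq, S40G5R_t_eq N hℓN ζ hH hst f hf,
        S37_Td_div hα hβ hfin hN f hf])
    (fun E hE => S37_Td_nonneg hα hβ hE)
    (fun E => by
      rw [← hC]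
      exact Divisor.degree_correspondence _ _ hβ hα hFI E)
    P
    (fun f hf => by
      have hwf : w f ≠ 0 := by
        intro h0
        exact hf (by simpa using h0)
      rw [S40G5R_t_eq N hℓN ζ hH hst f hf, hwP, ← hwt, S40CL2_ord_t N hℓ hℓN (w f) hwf, hwP])
  exact key

include hp hA hpN hℓ hℓN in
/-- **the CLAIM**: `(r_* T_ℓ D)(c) = (ℓ + 1) · (r_* D)(c)` at the poles `c` of `j̄`. -/
theorem S40CW_claim
    (hL1 : ∀ v : Place Kb ↥(modularFunctionFieldBar N), v.ord (jB N) < 0 →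
      ∃ w : ↥(modularFunctionFieldBar N) ≃ₐ[Kb] ↥(modularFunctionFieldBar N),
        (∀ f, S37_t N ℓ (w f) = w (S37_t N ℓ f)) ∧ ∀ f, v.ord f = (S17EM_O N).ord (w f))
    (hL4 : ∀ c : Place (IsLocalRing.ResidueField A)
        ↥(modularFunctionFieldFullC (IsLocalRing.ResidueField A) N),
      c.ord (S18_jbar N (IsLocalRing.ResidueField A)) < 0 →
        ∃ P : Place Kb ↥(modularFunctionFieldBar N),
          placeReductionModL h P = c ∧ P.ord (jB N) < 0)
    (hL5 : ∀ P P' : Place Kb ↥(modularFunctionFieldBar N),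
      S37_Td hα hβ (Finsupp.single P 1) P' ≠ 0 → S37_Td hα hβ (Finsupp.single P' 1) P ≠ 0)
    (c : Place (IsLocalRing.ResidueField A)
      ↥(modularFunctionFieldFullC (IsLocalRing.ResidueField A) N))
    (hc : c.ord (S18_jbar N (IsLocalRing.ResidueField A)) < 0)
    (D : Divisor Kb ↥(modularFunctionFieldBar N)) :
    Finsupp.mapDomain (placeReductionModL h) (S37_Td hα hβ D) c =
      ((ℓ : ℤ) + 1) * Finsupp.mapDomain (placeReductionModL h) D c := by
  obtain ⟨Pc, hPc, hpole⟩ := hL4 c hc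
  rw [← hPc]
  exact S40CP_claim (placeReductionModL h) (S37_Td hα hβ) ((ℓ : ℤ) + 1)
    (fun E hE => S37_Td_nonneg hα hβ hE)
    (fun D₁ D₂ hDD => S40G5R_congr N A hp hA hpN h hℓ hℓN hα hβ D₁ D₂ hDD)
    hL5 Pc (S40CW_Td_cusp N hℓ hℓN hα hβ Pc (hL1 Pc hpole)).1 D

include hp hA hpN hℓ hℓN in
/-- **(D-CUSP), route C0**: at every pole `c` of `j̄`, `p ∣ ord_c (red g)`. -/
theorem S40CW_dvd
    (hL1 : ∀ v : Place Kb ↥(modularFunctionFieldBar N), v.ord (jB N) < 0 →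
      ∃ w : ↥(modularFunctionFieldBar N) ≃ₐ[Kb] ↥(modularFunctionFieldBar N),
        (∀ f, S37_t N ℓ (w f) = w (S37_t N ℓ f)) ∧ ∀ f, v.ord f = (S17EM_O N).ord (w f))
    (hL4 : ∀ c : Place (IsLocalRing.ResidueField A)
        ↥(modularFunctionFieldFullC (IsLocalRing.ResidueField A) N),
      c.ord (S18_jbar N (IsLocalRing.ResidueField A)) < 0 →
        ∃ P : Place Kb ↥(modularFunctionFieldBar N),
          placeReductionModL h P = c ∧ P.ord (jB N) < 0)
    (hL5 : ∀ P P' : Place Kb ↥(modularFunctionFieldBar N),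
      S37_Td hα hβ (Finsupp.single P 1) P' ≠ 0 → S37_Td hα hβ (Finsupp.single P' 1) P ≠ 0)
    (g : ↥(modularFunctionFieldBar N)) (hg : g ∈ S18_O A N)
    (hred : S18_red A N ⟨g, hg⟩ ≠ 0)
    (tg : ↥(S18_O A N)) (htg : (tg : ↥(modularFunctionFieldBar N)) = S37_t N ℓ g)
    (a : ℤ) (hpa : ¬ (p : ℤ) ∣ (ℓ : ℤ) + 1 - a)
    (H : ↥(modularFunctionFieldFullC (IsLocalRing.ResidueField A) N))
    (c : Place (IsLocalRing.ResidueField A)
      ↥(modularFunctionFieldFullC (IsLocalRing.ResidueField A) N))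
    (hc : c.ord (S18_jbar N (IsLocalRing.ResidueField A)) < 0)
    (hrel : c.ord (S18_red A N tg) = a * c.ord (S18_red A N ⟨g, hg⟩) + (p : ℤ) * c.ord H) :
    (p : ℤ) ∣ c.ord (S18_red A N ⟨g, hg⟩) := by
  obtain ⟨w, hw, hwne, he⟩ := S40G5R_unit N A hp hA hpN h hℓ hℓN hα hβ g hg hred
  have hwt : w = tg := Subtype.ext (hw.trans htg.symm)
  have h1 := S40CW_claim N A hp hA hpN h hℓ hℓN hα hβ hL1 hL4 hL5 c hc (ES_div N g)
  rw [he, RR_div_apply, hwt] at h1
  have h2 : Finsupp.mapDomain (placeReductionModL h) (ES_div N g) c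
      = c.ord (S18_red A N ⟨g, hg⟩) :=
    (S18_specModL N A h).mapDomain_div ⟨g, hg⟩ hred _ (fun P => ES_div_apply N _ P) c
  rw [h2, hrel] at h1
  have h3 : (p : ℤ) ∣ ((ℓ : ℤ) + 1 - a) * c.ord (S18_red A N ⟨g, hg⟩) := by
    refine ⟨c.ord H, ?_⟩
    linarith
  rcases (Nat.prime_iff_prime_int.mp hp).dvd_or_dvd h3 with h4 | h4
  · exact absurd h4 hpa
  · exact h4

end Fermat.Agent.S40
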