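import Mathlib
import Fermat.Agent.S40.CuspWire
import Fermat.Agent.S40.CuspLift
import Fermat.Agent.S40.CuspSym
import Fermat.Agent.S40.R4Eigen
import Fermat.Agent.S40.G5Res
import Fermat.Agent.S40.F2E
import Fermat.Agent.S40.Defs
import Fermat.Agent.S34.HexX0
import Fermat.Agent.S34.FibreIso
import Fermat.Agent.S19.Inst

/-!
# TRACK 13 (S40/S44, row 38), (D-CUSP), route C0: THE TOP (helper13).  Prefix `S40CTP_`.

Level `M' p` (`p ∤ M'`), `A ∣ p` a place of `ℚ̄`, `k` its residue field, `V₁ = S18_O A (M' p)`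
the Gauss ring, `red₁ : V₁ → F̄_{M'p} = F̄_{M'} ⊂ k((q))`.

* `S40CTP_place` : transport of a place along an equality of intermediate fields;
* `S40CTP_main`  : **(D-CUSP) at ALL cusps**, in the shape of `S40CA2_main` (helper6), with the
  ONLY hypothesis (L1) (characteristic `0`, level `M'`): for a `W`-eigen-class `x ∈ V₀`, a
  Kummer generator `u` of `x` which is a unit of `V₁`, and a pole `v` of `j̄`:
  `p ∣ ord_v (red₁ u)`.

Proof: a prime `ℓ` with `p ∤ a_ℓ − ℓ − 1` (`S40F2E_main`); `g` of level `M'` with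
`red g = red₁ u` (`S40GR_exists_red`); `ord_c (red (t g)) = a_ℓ ord_c (red g) + p ord_c H`
(`S40R4_ord_rel`); the wire `S40CW_dvd` (helper9) with (L4) `S40CLF_cusp_lift` and (L5)
`S40CSY_hsym` (helper25).
-/

set_option autoImplicit false
set_option linter.unusedSectionVars false
set_option linter.unusedVariables false
set_option linter.style.haveILetI false
set_option synthInstance.maxHeartbeats 400000
set_option maxHeartbeats 1000000

open HahnSeries IntermediateField AlgebraicCurve ModularCurve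

noncomputable section

namespace Fermat.Agent.S40

open Fermat.Agent.S17 Fermat.Agent.S18 Fermat.Agent.S19 Fermat.Agent.S24 Fermat.Agent.S32
  Fermat.Agent.S33 Fermat.Agent.S34 Fermat.Agent.S37 Fermat.Agent.GalRep Fermat.Agent.Lib

local notation "Kb" => AlgebraicClosure ℚ

section generic

variable {K L : Type} [Field K] [Field L] [Algebra K L]

/-- transport of a place along an equality of intermediate fields. -/
theorem S40CTP_place {E₁ E₂ : IntermediateField K L} (h : E₁ = E₂) (v : Place K ↥E₁) :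
    ∃ c : Place K ↥E₂, ∀ (f₁ : ↥E₁) (f₂ : ↥E₂), (f₁ : L) = (f₂ : L) → c.ord f₂ = v.ord f₁ := by
  subst h
  exact ⟨v, fun f₁ f₂ hf => by rw [Subtype.ext hf]⟩

end generic

variable (M' p : ℕ) [NeZero M'] [NeZero p] [NeZero (M' * p)] (A : ValuationSubring Kb)

/-- **(D-CUSP) at ALL cusps, route C0**: `p ∣ ord_v (red₁ u)` at every pole `v` of `j̄`. -/
theorem S40CTP_main
    (hgen : PrincipalGeneratedByIntegral A (IsLocalRing.residue A) (M' * p))
    (W : WeierstrassCurve ℤ) (hΔ : W.Δ ≠ 0) (hp : p.Prime) (hp2 : p ≠ 2)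
    (hirr : W.ModRepIsIrreducible p) (hpM : ¬ p ∣ M') (hA : A.LiesOverPrime p)
    (hL1 : ∀ (ℓ : ℕ) [NeZero ℓ], ℓ.Prime → ¬ ℓ ∣ M' →
      ∀ v : Place Kb ↥(modularFunctionFieldBar M'), v.ord (jB M') < 0 →
        ∃ w : ↥(modularFunctionFieldBar M') ≃ₐ[Kb] ↥(modularFunctionFieldBar M'),
          (∀ f, S37_t M' ℓ (w f) = w (S37_t M' ℓ f)) ∧ ∀ f, v.ord f = (S17EM_O M').ord (w f))
    (x : JZero (M' * p)) (hx : x ∈ S40D_V0 W p (M' * p))
    (u : ↥(modularFunctionFieldBar (M' * p))) (hu : S33DG_IsGen p x u)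
    (huO : u ∈ S18_O A (M' * p)) (hred : S18_red A (M' * p) ⟨u, huO⟩ ≠ 0)
    (v : Place (IsLocalRing.ResidueField A)
      ↥(modularFunctionFieldFullC (IsLocalRing.ResidueField A) (M' * p)))
    (hv : v.ord (S34M_xb M' p A) < 0) :
    (p : ℤ) ∣ v.ord (S18_red A (M' * p) ⟨u, huO⟩) := by
  haveI : CharP (IsLocalRing.ResidueField A) p := S18_residue_charP A p hp hA
  haveI : Fact p.Prime := ⟨hp⟩
  -- the prime `ℓ`
  obtain ⟨ℓ, hℓ, -, hgood, hℓMp, hℓp, hnd⟩ :=
    S40F2E_main W hΔ hp hp2 hirr (M' * p) (Nat.pos_of_ne_zero (NeZero.ne (M' * p))) ∅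
  haveI : NeZero ℓ := ⟨hℓ.ne_zero⟩
  have hℓM : ¬ ℓ ∣ M' := fun hd => hℓMp (Dvd.dvd.mul_right hd p)
  have hTx : heckeOperatorBar (M' * p) ⟨ℓ, hℓ⟩ x = W.apOfModel ℓ • x :=
    hx.2 ⟨ℓ, hℓ⟩ hgood hℓMp hℓp
  -- level `M'`
  have h : ReductionInputsModL A M' := S19IN_RI M' A hp hA hpM
  obtain ⟨g, hg, hgu⟩ := S40GR_exists_red M' p A hp hA u huO
  have hgred : S18_red A M' ⟨g, hg⟩ ≠ 0 := by
    intro h0
    apply hred
    apply Subtype.ext
    rw [hgu, h0]
    rfl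
  have hg0 : g ≠ 0 := by
    rintro rfl
    apply hgred
    have : (⟨0, hg⟩ : S18_O A M') = 0 := rfl
    rw [this, map_zero]
  obtain ⟨ζ, hζ, hH⟩ := S40R4_exists_zeta M' ℓ hℓ hℓM
  have hstM : GRS_Stab M' ℓ ζ := S40G5R_stab M' hℓM ζ hH
  obtain ⟨htg, H, hH0, hord⟩ := S40R4_ord_rel M' p A hp hA hgen h.choose_spec.2 ⟨ℓ, hℓ⟩ hℓMp
    (W.apOfModel ℓ) x hTx u hu huO hred g hg hgu hζ hstM
  have hα : (heckeAlphaBar Kb M' ℓ).toRingHom.IsIntegral := S37P_alpha_integral M' ℓ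
  have hβ : (heckeBetaBar Kb M' ℓ).toRingHom.IsIntegral := S37P_beta_integral M' ℓ
  haveI := S18_hPD (M' * ℓ)
  -- the place of level `M'`
  have hEq : modularFunctionFieldFullC (IsLocalRing.ResidueField A) (M' * p)
      = modularFunctionFieldFullC (IsLocalRing.ResidueField A) M' :=
    S34FI_full_eq (IsLocalRing.ResidueField A) p M'
  obtain ⟨c, hc⟩ := S40CTP_place hEq v
  have hcj : c.ord (S18_jbar M' (IsLocalRing.ResidueField A)) < 0 := by
    rw [hc (S34M_xb M' p A) (S18_jbar M' (IsLocalRing.ResidueField A))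
      (by rw [S34HX_xb_eq]; rfl)]
    exact hv
  have hpa : ¬ (p : ℤ) ∣ (ℓ : ℤ) + 1 - W.apOfModel ℓ := by
    intro hd
    apply hnd
    have e : W.apOfModel ℓ - (ℓ : ℤ) - 1 = -((ℓ : ℤ) + 1 - W.apOfModel ℓ) := by ring
    rw [e]
    exact (dvd_neg).mpr hd
  have key := S40CW_dvd M' A hp hA hpM h hℓ hℓM hα hβ
    (hL1 ℓ hℓ hℓM) (S40CLF_cusp_lift M' A h) (S40CSY_hsym hα hβ hℓ hℓM)
    g hg hgred ⟨GRS_t hstM g, htg⟩ (S40G5R_t_eq M' hℓM ζ hH hstM g hg0)
    (W.apOfModel ℓ) hpa H c hcj (hord c)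
  rw [hc (S18_red A (M' * p) ⟨u, huO⟩) (S18_red A M' ⟨g, hg⟩) hgu] at key
  exact key

end Fermat.Agent.S40
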