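import Mathlib
import Fermat.Agent.S40.CuspTop
import Fermat.Agent.S40.CuspEx

/-!
# TRACK 13 (S40 / S44), (D-CUSP), route C0, FINAL (helper3): `S40CTP_main` (helper13) with its last
hypothesis `hL1` discharged by `S40CX_L1` (`S40/CuspEx.lean`).  Prefix `S40CF_`.

`S40CF_main` : level `M' p`, `M'` squarefree, `p ∤ M'`, `p ≠ 2`; for `x ∈ V₀` with a Kummer
generator `u` in the Gauss ring with `red u ≠ 0`: `p ∣ ord_v (red u)` at EVERY pole `v` of `j̄`
(= the conclusion of `S40CA2_main`, without the hypothesis `hWO`).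
-/

set_option autoImplicit false
set_option linter.style.haveILetI false
set_option linter.unusedSectionVars false
set_option linter.unusedVariables false
set_option synthInstance.maxHeartbeats 400000
set_option maxHeartbeats 1000000

open HahnSeries IntermediateField AlgebraicCurve ModularCurve

noncomputable section

namespace Fermat.Agent.S40

open Fermat.Agent.S17 Fermat.Agent.S18 Fermat.Agent.S19 Fermat.Agent.S24 Fermat.Agent.S32
  Fermat.Agent.S33 Fermat.Agent.S34 Fermat.Agent.S37 Fermat.Agent.GalRep Fermat.Agent.Lib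

local notation "Kb" => AlgebraicClosure ℚ

variable (M' p : ℕ) [NeZero M'] [NeZero p] [NeZero (M' * p)] (A : ValuationSubring Kb)

/-- **(D-CUSP) at all the cusps of `C₁`**, route C0, no open hypothesis. -/
theorem S40CF_main
    (hgen : PrincipalGeneratedByIntegral A (IsLocalRing.residue A) (M' * p))
    (W : WeierstrassCurve ℤ) (hΔ : W.Δ ≠ 0) (hp : p.Prime) (hp2 : p ≠ 2)
    (hirr : W.ModRepIsIrreducible p) (hpM : ¬ p ∣ M') (hsq : Squarefree M')
    (hA : A.LiesOverPrime p)
    (x : JZero (M' * p)) (hx : x ∈ S40D_V0 W p (M' * p))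
    (u : ↥(modularFunctionFieldBar (M' * p))) (hu : S33DG_IsGen p x u)
    (huO : u ∈ S18_O A (M' * p)) (hred : S18_red A (M' * p) ⟨u, huO⟩ ≠ 0)
    (v : Place (IsLocalRing.ResidueField A)
      ↥(modularFunctionFieldFullC (IsLocalRing.ResidueField A) (M' * p)))
    (hv : v.ord (S34M_xb M' p A) < 0) :
    (p : ℤ) ∣ v.ord (S18_red A (M' * p) ⟨u, huO⟩) :=
  S40CTP_main M' p A hgen W hΔ hp hp2 hirr hpM hA
    (fun ℓ _ hℓ hℓN => S40CX_L1 M' hsq ℓ hℓ hℓN) x hx u hu huO hred v hv

end Fermat.Agent.S40
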