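import Mathlib
import Fermat.Agent.S18.AsmX0
import Fermat.Agent.S18.Sep
import Fermat.Agent.S18.Reduce
import Fermat.Agent.Lib.RiemannBasic

/-!
# TRACK 13 (S40/S44, row 38), (D-CUSP), route C0, leaf (L4) (helper19).  Prefix `S40CL4_`.

Level `N` with reduction data `h : ReductionInputsModL A N`, `r = placeReductionModL h`.

* `S40CL4_exists_neg` : a negative value of a push-forward `r_* D` at `c` comes from a negative
  value of `D` at a point of the fibre of `r` over `c` (Mathlib only);
* `S40CL4_main` : **(L4)**, in the exact shape of the hypothesis `hL4` of helper9's wire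
  `S40CW_claim` / `S40CW_dvd`: every pole `c` of `j̄` on the special fibre is the reduction of
  a pole `P` of `j` (`r_* div j = div j̄`, `S18_Spec.mapDomain_div` at `S18_jO`).
-/

set_option autoImplicit false
set_option synthInstance.maxHeartbeats 400000
set_option linter.unusedSectionVars false
set_option linter.unusedVariables false

open AlgebraicCurve ModularCurve IntermediateField

namespace Fermat.Agent.S40

open Fermat.Agent.S18 Fermat.Agent.Lib Fermat.Agent.S24

/-- a negative value of a push-forward comes from a negative value on the fibre. -/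
theorem S40CL4_exists_neg {X Y : Type*} (r : X → Y) (D : X →₀ ℤ) (c : Y)
    (h : Finsupp.mapDomain r D c < 0) : ∃ P, r P = c ∧ D P < 0 := by
  classical
  by_contra hne
  have hne' : ∀ P, r P = c → 0 ≤ D P := by
    intro P hP
    by_contra hlt
    exact hne ⟨P, hP, not_le.mp hlt⟩
  have h0 : 0 ≤ Finsupp.mapDomain r D c := by
    rw [Finsupp.mapDomain, Finsupp.sum_apply]
    refine Finset.sum_nonneg (fun P _ => ?_)
    show (0 : ℤ) ≤ (Finsupp.single (r P) (D P)) c
    rw [Finsupp.single_apply]
    split_ifs with hP
    · exact hne' P hP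
    · exact le_refl 0
  exact absurd h (not_lt.mpr h0)

variable (N : ℕ) [NeZero N] (A : ValuationSubring (AlgebraicClosure ℚ))

/-- **(L4) of route C0**: every pole of `j̄` is the reduction of a pole of `j`. -/
theorem S40CL4_main (h : ReductionInputsModL A N)
    (c : Place (IsLocalRing.ResidueField A)
        ↥(modularFunctionFieldFullC (IsLocalRing.ResidueField A) N))
    (hc : c.ord (S18_jbar N (IsLocalRing.ResidueField A)) < 0) :
    ∃ P : Place (AlgebraicClosure ℚ) ↥(modularFunctionFieldBar N),
      placeReductionModL h P = c ∧ P.ord (jB N) < 0 := by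
  have hred : (S18_specModL N A h).red (S18_jO N A h) ≠ 0 := by
    intro h0
    rw [S18_red_jO] at h0
    rw [h0, Place.ord_zero] at hc
    exact lt_irrefl 0 hc
  have hmd := (S18_specModL N A h).mapDomain_div (S18_jO N A h) hred
    (RR_div (S18_hPD N) (jB N)) (fun P => RR_div_apply (S18_hPD N) (jB N) P) c
  rw [S18_red_jO] at hmd
  have hneg : Finsupp.mapDomain (placeReductionModL h) (RR_div (S18_hPD N) (jB N)) c < 0 := by
    have hmd' : Finsupp.mapDomain (placeReductionModL h) (RR_div (S18_hPD N) (jB N)) c
        = c.ord (S18_jbar N (IsLocalRing.ResidueField A)) := hmd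
    rw [hmd']
    exact hc
  obtain ⟨P, hP, hlt⟩ := S40CL4_exists_neg (placeReductionModL h) _ c hneg
  refine ⟨P, hP, ?_⟩
  rwa [RR_div_apply] at hlt

end Fermat.Agent.S40
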