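import Mathlib
import Fermat.Agent.S40.JSymD
import Fermat.Agent.S40.CuspJ

/-!
# TRACK 13 (row 38), (D-CUSP): `t ∘ W_l = W_l ∘ t` (helper2).  Prefix `S40CT_`.

`S40CJ_w N q` (helper17) is `w_q` as a total function, `S40CJ_W N l` the composition over a list,
`GRS_t hst` the multiplicative Hecke operator at a prime `ℓ ∤ N`.

* `S40CT_t_w` : `t (w_q f) = w_q (t f)` (any `q`);
* `S40CT_t_W` : `t (W_l f) = W_l (t f)` (any list `l`).
-/

set_option autoImplicit false
set_option linter.style.haveILetI false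
set_option linter.unusedSectionVars false
set_option linter.unusedVariables false
set_option synthInstance.maxHeartbeats 400000
set_option maxHeartbeats 1000000

open AlgebraicCurve ModularCurve IntermediateField

noncomputable section

namespace Fermat.Agent.S40

open Fermat.Agent.S17 Fermat.Agent.S18 Fermat.Agent.S19 Fermat.Agent.S24 Fermat.Agent.S34
  Fermat.Agent.S35 Fermat.Agent.S36 Fermat.Agent.S37 Fermat.Agent.GalRep Fermat.Agent.S33

local notation "ℚbar" => AlgebraicClosure ℚ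

variable (N : ℕ) [NeZero N] (ℓ : ℕ) [NeZero ℓ] (hℓ : ℓ.Prime) (hℓN : ¬ ℓ ∣ N) (ζ : ℚbarˣ)
  (hζ : IsPrimitiveRoot (ζ : ℚbar) ℓ) (hst : GRS_Stab N ℓ ζ)

include hℓ hℓN hζ in
/-- `t` commutes with one Atkin–Lehner step. -/
theorem S40CT_t_w (q : ℕ) (f : ↥(modularFunctionFieldBar N)) :
    GRS_t hst (S40CJ_w N q f) = S40CJ_w N q (GRS_t hst f) := by
  by_cases h : q.Prime ∧ q ∣ N ∧ ¬ q ∣ N / q
  · have hN : q * (N / q) = N := Nat.mul_div_cancel' h.2.1
    have hℓq : ℓ ≠ q := fun e => hℓN (e ▸ h.2.1)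
    rw [S40CJ_w_eq N h.1 h.2.1 h.2.2]
    exact S40JSD_t_wq h.1 h.2.2 hN ℓ hℓ hℓq ζ hζ hst f
  · have e : S40CJ_w N q = AlgEquiv.refl := dif_neg h
    rw [e]
    rfl

include hℓ hℓN hζ in
/-- **`t` commutes with `W_l`.** -/
theorem S40CT_t_W (l : List ℕ) (f : ↥(modularFunctionFieldBar N)) :
    GRS_t hst (S40CJ_W N l f) = S40CJ_W N l (GRS_t hst f) := by
  induction l with
  | nil => rfl
  | cons q l ih =>
    rw [S40CJ_W_cons, S40CJ_W_cons, S40CT_t_w N ℓ hℓ hℓN ζ hζ hst q, ih]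

end Fermat.Agent.S40
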