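import Mathlib
import Fermat.Agent.S40.DefsJ2

/-!
# TRACK 13 (row 38): the J-side hole for a GENERAL integral model `W` (helper6).  Prefix `S40DJ_`.

Row 38 pays for ANY ONE of S39 / S40 / S44.  S44 (Frey form) has `5 ≤ p` built in, so the special
nodes of `p = 3` never occur; there `W` (an integral model of the Frey curve) is MULTIPLICATIVE at
`p`.  The J-side does not use the reduction type of `W` at `p`: everything it needs from `W` is
CASE B, (ALG-R), (ALG-K) and (INV).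

* `S40DJ_Hole3` : the hole of the J-side for `5 ≤ p` and any `W` with `Δ ≠ 0`, `W[p]` irreducible.
* `S40DJ_hole2_of_hole3` : `S40DJ_Hole3` gives `S40DJ_Hole2` for `5 ≤ p`.
-/

set_option autoImplicit false
set_option linter.unusedSectionVars false
set_option linter.unusedVariables false

namespace Fermat.Agent.S40

open WeierstrassCurve ModularCurve Fermat.Agent.S33

local notation "ℚbar" => AlgebraicClosure ℚ
local notation "GQ" => (AlgebraicClosure ℚ ≃ₐ[ℚ] AlgebraicClosure ℚ)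

/-- **the hole of the J-side for a general `W`**, `5 ≤ p`: (INV) form, CASE B. -/
def S40DJ_Hole3 : Prop :=
  ∀ (W : WeierstrassCurve ℤ), W.Δ ≠ 0 → ∀ (p : ℕ), p.Prime → 5 ≤ p →
    W.ModRepIsIrreducible p → ∀ (M' : ℕ) [NeZero M'] [NeZero p] [NeZero (M' * p)], ¬ p ∣ M' →
    ∀ (A : ValuationSubring ℚbar), A.LiesOverPrime p →
    ∀ V : AddSubgroup (JZero (M' * p)),
      (∀ x ∈ V, x ∈ S40D_V0 W p (M' * p)) → S40WA_Simple GQ V →
      (∀ x ∈ V, S40DJ_New M' p x) → S40DJ_CaseB W A p →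
      S40D_Rel W p (M' * p) V → S40D_Ker W p (M' * p) V → S40D_InvJ (M' * p) A p V →
      S40W_Core W p (M' * p)

/-- the hole for good `W` and `5 ≤ p` from the general hole. -/
theorem S40DJ_hole2_of_hole3 (h : S40DJ_Hole3)
    (W : WeierstrassCurve ℤ) (hΔ : W.Δ ≠ 0) (p : ℕ) (hp : p.Prime) (hp5 : 5 ≤ p)
    (hirr : W.ModRepIsIrreducible p) (M' : ℕ) [NeZero M'] [NeZero p] [NeZero (M' * p)]
    (hpM : ¬ p ∣ M') (A : ValuationSubring ℚbar) (hA : A.LiesOverPrime p)
    (V : AddSubgroup (JZero (M' * p))) (hV0 : ∀ x ∈ V, x ∈ S40D_V0 W p (M' * p))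
    (hV : S40WA_Simple GQ V) (hnew : ∀ x ∈ V, S40DJ_New M' p x) (hB : S40DJ_CaseB W A p)
    (hR : S40D_Rel W p (M' * p) V) (hK : S40D_Ker W p (M' * p) V)
    (hI : S40D_InvJ (M' * p) A p V) : S40W_Core W p (M' * p) :=
  h W hΔ p hp hp5 hirr M' hpM A hA V hV0 hV hnew hB hR hK hI

end Fermat.Agent.S40
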