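import Mathlib

/-!
# TRACK 13 (S40), GEO-6 package P4-JUMP (abstract, Mathlib only; helper29).  Prefix `S40F2J_`.

First-order gluing across a node (helper1's Step 3, helper22's algebraic form).

`F` a field (the function field), `V` a valuation of `F` (one of the two Gauss valuations `V₁`,
`V₂`), `π` a constant (uniformiser of `L`), `i ≥ 1` (the break).

* `S40F2J_Cg V π i x a` : `x ≡ 1 + a π^i  mod π^{i+1}` for `V`.
  Calculus: `S40F2J_cg_one`, `_cg_mul`, `_cg_inv`, `_cg_div`, `_cg_pow`, `_cg_zpow`, `_cg_prod`,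
  `_cg_congr`.
* the annulus factor `φ = (X − w') / (X − w)` (`w' = σ w`, `w'/w ≡ 1 + a π^i`):
  `S40F2J_phi_one` : `φ ≡ 1` at `V₁` (`V₁ X = 1`, `V₁ w ≤ V₁ π`);
  `S40F2J_phi_two` : `φ ≡ 1 + a π^i` at `V₂` (`V₂ X ≤ V₂ π * V₂ w`).
* `S40F2J_climb` : the GLUE CLIMB.  `C` the constants, `R` the functions without pole centred at
  the node, GLUE for functions with CONSTANT reductions (`hglue`).  If `h ∈ R`,
  `h ≡ c₁ (1 + γ₁ π^i)` at `V₁` and `h ≡ c₂ (1 + γ₂ π^i)` at `V₂`, then `c₂ = c₁ (1 + δ π^i)` with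
  `δ` integral and `γ₁ ≡ γ₂ + δ`.
* `S40F2J_main` : the same for `h = h' · E`, `h' ∈ R`, `E ≡ 1` at `V₁`, `E ≡ 1 + A π^i` at `V₂`
  (`E` = product of the annulus factors): `δ ≡ γ₁ − γ₂ + A`.
* `S40F2J_two_nodes` : for two nodes `A_s ≡ A_t`; `S40F2J_two_nodes_int` : if `A_s = c · N_s`,
  `N_s ∈ ℤ`, `c` a unit, residue characteristic `p`: `p ∣ N_s − N_t`.
-/

set_option autoImplicit false

namespace Fermat.Agent.S40

section one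

variable {F : Type*} [Field F] {Γ : Type*} [LinearOrderedCommGroupWithZero Γ]
variable (V : Valuation F Γ)

/-- `x ≡ 1 + a π^i  mod π^{i+1}` for the valuation `V`. -/
def S40F2J_Cg (π : F) (i : ℕ) (x a : F) : Prop :=
  V (x - (1 + a * π ^ i)) ≤ V π ^ (i + 1)

variable {V} {π : F} {i : ℕ}

theorem S40F2J_pow_succ_le (hπ : V π ≤ 1) : V π ^ (i + 1) ≤ V π ^ i :=
  pow_le_pow_right_of_le_one' hπ (Nat.le_succ i)

theorem S40F2J_val_term {a : F} (ha : V a ≤ 1) : V (a * π ^ i) ≤ V π ^ i := by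
  rw [map_mul, map_pow]
  exact mul_le_of_le_one_left' ha

theorem S40F2J_cg_val_sub_one {x a : F} (h : S40F2J_Cg V π i x a) (ha : V a ≤ 1)
    (hπ : V π ≤ 1) : V (x - 1) ≤ V π ^ i := by
  have e : x - 1 = (x - (1 + a * π ^ i)) + a * π ^ i := by ring
  rw [e]
  exact V.map_add_le (h.trans (S40F2J_pow_succ_le hπ)) (S40F2J_val_term ha)

theorem S40F2J_pow_lt_one (hπ : V π < 1) (hi : 1 ≤ i) : V π ^ i < 1 :=
  (pow_lt_one_iff (by omega)).mpr hπ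

theorem S40F2J_cg_val_eq_one {x a : F} (h : S40F2J_Cg V π i x a) (ha : V a ≤ 1)
    (hπ : V π < 1) (hi : 1 ≤ i) : V x = 1 := by
  have h1 : V (x - 1) < 1 :=
    (S40F2J_cg_val_sub_one h ha hπ.le).trans_lt (S40F2J_pow_lt_one hπ hi)
  have e : x = 1 + (x - 1) := by ring
  rw [e]
  exact V.map_one_add_of_lt h1

theorem S40F2J_cg_ne_zero {x a : F} (h : S40F2J_Cg V π i x a) (ha : V a ≤ 1)
    (hπ : V π < 1) (hi : 1 ≤ i) : x ≠ 0 := by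
  intro h0
  have := S40F2J_cg_val_eq_one h ha hπ hi
  rw [h0, map_zero] at this
  exact zero_ne_one this

theorem S40F2J_cg_one : S40F2J_Cg V π i 1 0 := by
  unfold S40F2J_Cg
  have e : (1 : F) - (1 + 0 * π ^ i) = 0 := by ring
  rw [e, map_zero]
  exact zero_le

/-- the form of helper1's Step 1–2: `h ≡ c mod π^{i+1}`, `c` a unit. -/
theorem S40F2J_cg_of_const {h c : F} (hc : V c = 1) (H : V (h - c) ≤ V π ^ (i + 1)) :
    S40F2J_Cg V π i (h / c) 0 := by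
  have hc0 : c ≠ 0 := by
    intro h0
    rw [h0, map_zero] at hc
    exact zero_ne_one hc
  unfold S40F2J_Cg
  have e : h / c - (1 + 0 * π ^ i) = (h - c) / c := by
    field_simp
    ring
  rw [e, map_div₀, hc, div_one]
  exact H

theorem S40F2J_two_mul_le (hπ : V π ≤ 1) (hi : 1 ≤ i) : V π ^ i * V π ^ i ≤ V π ^ (i + 1) := by
  rw [← pow_add]
  exact pow_le_pow_right_of_le_one' hπ (by omega)

/-- change of the coefficient modulo `π`. -/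
theorem S40F2J_cg_congr {x a b : F} (h : S40F2J_Cg V π i x a) (hab : V (a - b) ≤ V π) :
    S40F2J_Cg V π i x b := by
  unfold S40F2J_Cg at h ⊢
  have e : x - (1 + b * π ^ i) = (x - (1 + a * π ^ i)) + (a - b) * π ^ i := by ring
  rw [e]
  refine V.map_add_le h ?_
  rw [map_mul, map_pow, pow_succ, mul_comm]
  exact mul_le_mul' le_rfl hab

theorem S40F2J_cg_congr_eq {x a b : F} (h : S40F2J_Cg V π i x a) (hab : a = b) :
    S40F2J_Cg V π i x b := hab ▸ h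

theorem S40F2J_cg_mul {x y a b : F} (hx : S40F2J_Cg V π i x a) (hy : S40F2J_Cg V π i y b)
    (ha : V a ≤ 1) (hb : V b ≤ 1) (hπ : V π < 1) (hi : 1 ≤ i) :
    S40F2J_Cg V π i (x * y) (a + b) := by
  have hy1 : V y = 1 := S40F2J_cg_val_eq_one hy hb hπ hi
  unfold S40F2J_Cg at hx hy ⊢
  have e : x * y - (1 + (a + b) * π ^ i)
      = (x - (1 + a * π ^ i)) * y + ((1 + a * π ^ i) * (y - (1 + b * π ^ i))
          + (a * π ^ i) * (b * π ^ i)) := by ring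
  rw [e]
  refine V.map_add_le ?_ (V.map_add_le ?_ ?_)
  · rw [map_mul, hy1, mul_one]
    exact hx
  · rw [map_mul]
    have h1 : V (1 + a * π ^ i) ≤ 1 := by
      refine V.map_add_le (by rw [map_one]) ?_
      exact (S40F2J_val_term ha).trans (pow_le_one' hπ.le i)
    exact (mul_le_mul' h1 hy).trans (by rw [one_mul])
  · rw [map_mul]
    exact (mul_le_mul' (S40F2J_val_term ha) (S40F2J_val_term hb)).trans
      (S40F2J_two_mul_le hπ.le hi)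

theorem S40F2J_cg_inv {x a : F} (hx : S40F2J_Cg V π i x a) (ha : V a ≤ 1) (hπ : V π < 1)
    (hi : 1 ≤ i) : S40F2J_Cg V π i x⁻¹ (-a) := by
  have hx1 : V x = 1 := S40F2J_cg_val_eq_one hx ha hπ hi
  have hx0 : x ≠ 0 := S40F2J_cg_ne_zero hx ha hπ hi
  have hsub : V (x - 1) ≤ V π ^ i := S40F2J_cg_val_sub_one hx ha hπ.le
  unfold S40F2J_Cg at hx ⊢
  have e : x⁻¹ - (1 + (-a) * π ^ i)
      = x⁻¹ * (-(x - (1 + a * π ^ i)) + (a * π ^ i) * (x - 1)) := by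
    field_simp
    ring
  rw [e, map_mul, map_inv₀, hx1, inv_one, one_mul]
  refine V.map_add_le ?_ ?_
  · rw [Valuation.map_neg]
    exact hx
  · rw [map_mul]
    exact (mul_le_mul' (S40F2J_val_term ha) hsub).trans (S40F2J_two_mul_le hπ.le hi)

theorem S40F2J_cg_div {x y a b : F} (hx : S40F2J_Cg V π i x a) (hy : S40F2J_Cg V π i y b)
    (ha : V a ≤ 1) (hb : V b ≤ 1) (hπ : V π < 1) (hi : 1 ≤ i) :
    S40F2J_Cg V π i (x / y) (a - b) := by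
  rw [div_eq_mul_inv, sub_eq_add_neg]
  exact S40F2J_cg_mul hx (S40F2J_cg_inv hy hb hπ hi) ha (by rwa [Valuation.map_neg]) hπ hi

theorem S40F2J_val_natCast (n : ℕ) : V (n : F) ≤ 1 := by
  induction n with
  | zero => simp
  | succ k ih =>
    rw [Nat.cast_succ]
    exact V.map_add_le ih (by rw [map_one])

theorem S40F2J_val_intCast (n : ℤ) : V (n : F) ≤ 1 := by
  rcases Int.natAbs_eq n with h | h
  · rw [h, Int.cast_natCast]
    exact S40F2J_val_natCast _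
  · rw [h, Int.cast_neg, Int.cast_natCast, Valuation.map_neg]
    exact S40F2J_val_natCast _

theorem S40F2J_val_intCast_mul {a : F} (ha : V a ≤ 1) (n : ℤ) : V ((n : F) * a) ≤ 1 := by
  rw [map_mul]
  exact mul_le_one' (S40F2J_val_intCast n) ha

theorem S40F2J_cg_pow {x a : F} (hx : S40F2J_Cg V π i x a) (ha : V a ≤ 1) (hπ : V π < 1)
    (hi : 1 ≤ i) (n : ℕ) : S40F2J_Cg V π i (x ^ n) ((n : F) * a) := by
  induction n with
  | zero =>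
    rw [pow_zero, Nat.cast_zero, zero_mul]
    exact S40F2J_cg_one
  | succ k ih =>
    rw [pow_succ]
    have h1 : V ((k : F) * a) ≤ 1 := by
      rw [map_mul]
      exact mul_le_one' (S40F2J_val_natCast k) ha
    refine S40F2J_cg_congr_eq (S40F2J_cg_mul ih hx h1 ha hπ hi) ?_
    push_cast
    ring

theorem S40F2J_cg_zpow {x a : F} (hx : S40F2J_Cg V π i x a) (ha : V a ≤ 1) (hπ : V π < 1)
    (hi : 1 ≤ i) (n : ℤ) : S40F2J_Cg V π i (x ^ n) ((n : F) * a) := by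
  rcases Int.natAbs_eq n with h | h
  · rw [h, zpow_natCast, Int.cast_natCast]
    exact S40F2J_cg_pow hx ha hπ hi _
  · rw [h, zpow_neg, zpow_natCast, Int.cast_neg, Int.cast_natCast, neg_mul]
    refine S40F2J_cg_inv (S40F2J_cg_pow hx ha hπ hi _) ?_ hπ hi
    rw [map_mul]
    exact mul_le_one' (S40F2J_val_natCast _) ha

/-- finite products of powers. -/
theorem S40F2J_cg_prod {ι : Type*} (s : Finset ι) (φ a : ι → F) (m : ι → ℤ)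
    (hφ : ∀ P ∈ s, S40F2J_Cg V π i (φ P) (a P)) (ha : ∀ P ∈ s, V (a P) ≤ 1) (hπ : V π < 1)
    (hi : 1 ≤ i) :
    S40F2J_Cg V π i (∏ P ∈ s, φ P ^ m P) (∑ P ∈ s, (m P : F) * a P) := by
  classical
  induction s using Finset.induction_on with
  | empty =>
    rw [Finset.prod_empty, Finset.sum_empty]
    exact S40F2J_cg_one
  | insert P s hP ih =>
    rw [Finset.prod_insert hP, Finset.sum_insert hP]
    have h1 : S40F2J_Cg V π i (∏ Q ∈ s, φ Q ^ m Q) (∑ Q ∈ s, (m Q : F) * a Q) :=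
      ih (fun Q hQ => hφ Q (Finset.mem_insert_of_mem hQ))
        (fun Q hQ => ha Q (Finset.mem_insert_of_mem hQ))
    have h2 : V (∑ Q ∈ s, (m Q : F) * a Q) ≤ 1 := by
      refine V.map_sum_le (fun Q hQ => ?_)
      exact S40F2J_val_intCast_mul (ha Q (Finset.mem_insert_of_mem hQ)) _
    exact S40F2J_cg_mul
      (S40F2J_cg_zpow (hφ P (Finset.mem_insert_self P s)) (ha P (Finset.mem_insert_self P s))
        hπ hi (m P)) h1
      (S40F2J_val_intCast_mul (ha P (Finset.mem_insert_self P s)) _) h2 hπ hi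

theorem S40F2J_val_sum_le_one {ι : Type*} (s : Finset ι) (a : ι → F) (m : ι → ℤ)
    (ha : ∀ P ∈ s, V (a P) ≤ 1) : V (∑ P ∈ s, (m P : F) * a P) ≤ 1 :=
  V.map_sum_le (fun Q hQ => S40F2J_val_intCast_mul (ha Q hQ) _)

/-! ### the annulus factor -/

/-- **JUMP at `V₁`**: `V X = 1`, `0 < v(w)`: `(X − w')/(X − w) ≡ 1 mod π^{i+1}`. -/
theorem S40F2J_phi_one {X w w' a : F} (hw0 : w ≠ 0) (hww : S40F2J_Cg V π i (w' / w) a)
    (ha : V a ≤ 1) (hX : V X = 1) (hw : V w ≤ V π) (hπ : V π < 1) :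
    S40F2J_Cg V π i ((X - w') / (X - w)) 0 := by
  have hw1 : V w < V X := by
    rw [hX]
    exact hw.trans_lt hπ
  have hXw : V (X - w) = 1 := by
    rw [V.map_sub_eq_of_lt_left hw1, hX]
  have hXw0 : X - w ≠ 0 := by
    intro h0
    rw [h0, map_zero] at hXw
    exact zero_ne_one hXw
  have h1 : V (w' / w - 1) ≤ V π ^ i := S40F2J_cg_val_sub_one hww ha hπ.le
  unfold S40F2J_Cg
  have e : (X - w') / (X - w) - (1 + 0 * π ^ i) = -(w * (w' / w - 1)) / (X - w) := by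
    field_simp
    ring
  rw [e, map_div₀, hXw, div_one, Valuation.map_neg, map_mul, pow_succ, mul_comm]
  exact mul_le_mul' h1 hw

/-- **JUMP at `V₂`**: `v(X) ≥ v(π) + v(w)`: `(X − w')/(X − w) ≡ w'/w ≡ 1 + a π^i mod π^{i+1}`. -/
theorem S40F2J_phi_two {X w w' a : F} (hw0 : w ≠ 0) (hww : S40F2J_Cg V π i (w' / w) a)
    (ha : V a ≤ 1) (hX : V X ≤ V π * V w) (hπ : V π < 1) :
    S40F2J_Cg V π i ((X - w') / (X - w)) a := by
  have hVw0 : V w ≠ 0 := (Valuation.ne_zero_iff V).mpr hw0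
  have hVwpos : 0 < V w := zero_lt_iff.mpr hVw0
  have hw1 : V X < V w := by
    refine hX.trans_lt ?_
    calc V π * V w < 1 * V w := mul_lt_mul_of_pos_right hπ hVwpos
      _ = V w := one_mul _
  have hXw : V (X - w) = V w := by
    rw [V.map_sub_eq_of_lt_right hw1]
  have hXw0 : X - w ≠ 0 := by
    intro h0
    rw [h0, map_zero] at hXw
    exact hVw0 hXw.symm
  have h1 : V (w' / w - 1) ≤ V π ^ i := S40F2J_cg_val_sub_one hww ha hπ.le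
  unfold S40F2J_Cg at hww ⊢
  have e : (X - w') / (X - w) - (1 + a * π ^ i)
      = -(X * (w' / w - 1)) / (X - w) + (w' / w - (1 + a * π ^ i)) := by
    field_simp
    ring
  rw [e]
  refine V.map_add_le ?_ hww
  rw [map_div₀, hXw, Valuation.map_neg, map_mul, div_le_iff₀ hVwpos, pow_succ]
  calc V X * V (w' / w - 1) ≤ (V π * V w) * V π ^ i := mul_le_mul' hX h1
    _ = V π ^ i * V π * V w := by rw [mul_comm, ← mul_assoc]

end one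

/-! ### the GLUE climb -/

section climb

variable {F : Type*} [Field F] {Γ₁ Γ₂ : Type*} [LinearOrderedCommGroupWithZero Γ₁]
  [LinearOrderedCommGroupWithZero Γ₂]
variable (V₁ : Valuation F Γ₁) (V₂ : Valuation F Γ₂) (C : Subfield F) (R : Subring F) (π : F)

/-- the hypotheses on the constants `C`, the uniformiser `π` and the local ring `R` at the node:
`V₁`, `V₂` agree on `C`, `π` generates the maximal ideal of the constants, `C ⊂ R`, and GLUE for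
functions of `R` with constant reductions. -/
structure S40F2J_Node : Prop where
  hπC : π ∈ C
  hπ0 : π ≠ 0
  hπ1 : V₁ π < 1
  hC : ∀ a ∈ C, V₁ a ≤ 1 ↔ V₂ a ≤ 1
  hdisc : ∀ a ∈ C, V₁ a < 1 → V₁ a ≤ V₁ π
  hCR : ∀ a ∈ C, a ∈ R
  hglue : ∀ g ∈ R, ∀ a₁ ∈ C, ∀ a₂ ∈ C, V₁ a₁ ≤ 1 → V₂ a₂ ≤ 1 → V₁ (g - a₁) < 1 →
    V₂ (g - a₂) < 1 → V₁ (a₁ - a₂) < 1

variable {V₁ V₂ C R π}

theorem S40F2J_Node.lt_iff (N : S40F2J_Node V₁ V₂ C R π) {a : F} (ha : a ∈ C) :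
    V₁ a < 1 ↔ V₂ a < 1 := by
  rcases eq_or_ne a 0 with rfl | h0
  · simp
  · have h1 := N.hC a⁻¹ (C.inv_mem ha)
    rw [map_inv₀, map_inv₀] at h1
    have hV1 : V₁ a ≠ 0 := (Valuation.ne_zero_iff V₁).mpr h0
    have hV2 : V₂ a ≠ 0 := (Valuation.ne_zero_iff V₂).mpr h0
    rw [inv_le_one₀ (zero_lt_iff.mpr hV1), inv_le_one₀ (zero_lt_iff.mpr hV2)] at h1
    constructor
    · intro h
      by_contra h2
      exact absurd h (not_lt.mpr (h1.mpr (not_lt.mp h2)))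
    · intro h
      by_contra h2
      exact absurd h (not_lt.mpr (h1.mp (not_lt.mp h2)))

theorem S40F2J_Node.hπ2 (N : S40F2J_Node V₁ V₂ C R π) : V₂ π < 1 :=
  (N.lt_iff N.hπC).mp N.hπ1

/-- `V₁ a ≤ V₁ π ^ n ↔ V₂ a ≤ V₂ π ^ n` on constants. -/
theorem S40F2J_Node.le_pow_iff (N : S40F2J_Node V₁ V₂ C R π) {a : F} (ha : a ∈ C) (n : ℕ) :
    V₁ a ≤ V₁ π ^ n ↔ V₂ a ≤ V₂ π ^ n := by
  have hp1 : 0 < V₁ π ^ n := pow_pos (zero_lt_iff.mpr ((Valuation.ne_zero_iff V₁).mpr N.hπ0)) n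
  have hp2 : 0 < V₂ π ^ n := pow_pos (zero_lt_iff.mpr ((Valuation.ne_zero_iff V₂).mpr N.hπ0)) n
  have h := N.hC (a / π ^ n) (C.div_mem ha (C.pow_mem N.hπC n))
  rw [map_div₀, map_div₀, map_pow, map_pow, div_le_iff₀ hp1, div_le_iff₀ hp2, one_mul,
    one_mul] at h
  exact h

theorem S40F2J_Node.mem_R_div (N : S40F2J_Node V₁ V₂ C R π) {h : F} (hR : h ∈ R) {c : F}
    (hc : c ∈ C) : h / c ∈ R := by
  rw [div_eq_mul_inv]
  exact R.mul_mem hR (N.hCR _ (C.inv_mem hc))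

/-- the functions `(h / c − 1) / π^n` are in `R`. -/
theorem S40F2J_Node.mem_R_g (N : S40F2J_Node V₁ V₂ C R π) {h : F} (hR : h ∈ R) {c : F}
    (hc : c ∈ C) (n : ℕ) : (h / c - 1) / π ^ n ∈ R := by
  rw [div_eq_mul_inv (h / c - 1)]
  exact R.mul_mem (R.sub_mem (N.mem_R_div hR hc) R.one_mem)
    (N.hCR _ (C.inv_mem (C.pow_mem N.hπC n)))

/-- **GLUE CLIMB.**  `h ∈ R`, `h ≡ c₁ (1 + γ₁ π^i)` at `V₁`, `h ≡ c₂ (1 + γ₂ π^i)` at `V₂`
(`i ≥ 1`).  Then `c₂ = c₁ (1 + δ π^i)` with `δ` an integral constant and `γ₁ ≡ γ₂ + δ`. -/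
theorem S40F2J_climb (N : S40F2J_Node V₁ V₂ C R π) {i : ℕ} (hi : 1 ≤ i) {h c₁ c₂ γ₁ γ₂ : F}
    (hR : h ∈ R) (hc₁ : c₁ ∈ C) (hc₂ : c₂ ∈ C) (hc₁0 : c₁ ≠ 0) (hc₂0 : c₂ ≠ 0)
    (hγ₁ : γ₁ ∈ C) (hγ₂ : γ₂ ∈ C) (hγ₁1 : V₁ γ₁ ≤ 1) (hγ₂1 : V₂ γ₂ ≤ 1)
    (H1 : S40F2J_Cg V₁ π i (h / c₁) γ₁) (H2 : S40F2J_Cg V₂ π i (h / c₂) γ₂) :
    ∃ δ ∈ C, V₁ δ ≤ 1 ∧ c₂ = c₁ * (1 + δ * π ^ i) ∧ V₁ (γ₁ - γ₂ - δ) < 1 := by
  have hπ1 := N.hπ1
  have hπ2 := N.hπ2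
  have hπ0 := N.hπ0
  have hVπ1 : 0 < V₁ π := zero_lt_iff.mpr ((Valuation.ne_zero_iff V₁).mpr hπ0)
  have hVπ2 : 0 < V₂ π := zero_lt_iff.mpr ((Valuation.ne_zero_iff V₂).mpr hπ0)
  -- the two first-order units
  have hu1 : V₁ (h / c₁) = 1 := S40F2J_cg_val_eq_one H1 hγ₁1 hπ1 hi
  have hu2 : V₂ (h / c₂) = 1 := S40F2J_cg_val_eq_one H2 hγ₂1 hπ2 hi
  have hs1 : V₁ (h / c₁ - 1) ≤ V₁ π ^ i := S40F2J_cg_val_sub_one H1 hγ₁1 hπ1.le
  have hs2 : V₂ (h / c₂ - 1) ≤ V₂ π ^ i := S40F2J_cg_val_sub_one H2 hγ₂1 hπ2.le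
  have hs1' : V₁ (h / c₁ - 1) < 1 := hs1.trans_lt (S40F2J_pow_lt_one hπ1 hi)
  have hs2' : V₂ (h / c₂ - 1) < 1 := hs2.trans_lt (S40F2J_pow_lt_one hπ2 hi)
  set q : F := c₂ / c₁ with hq
  have hqC : q ∈ C := C.div_mem hc₂ hc₁
  have hq0 : q ≠ 0 := div_ne_zero hc₂0 hc₁0
  have hqh : h / c₁ = q * (h / c₂) := by
    rw [hq]
    field_simp
  have hqh' : h / c₂ = q⁻¹ * (h / c₁) := by
    rw [hq]
    field_simp
  -- Step 0: `q` is integral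
  have hq2 : V₂ q ≤ 1 := by
    by_contra hcon
    have h1 : 1 < V₂ q := not_le.mp hcon
    have h2 : V₂ q⁻¹ < 1 := by
      rw [map_inv₀]
      exact inv_lt_one_of_one_lt₀ h1
    have h3 : V₁ q⁻¹ < 1 := (N.lt_iff (C.inv_mem hqC)).mpr h2
    have h4 : V₁ (h / c₂ - 0) < 1 := by
      rw [sub_zero, hqh', map_mul, hu1, mul_one]
      exact h3
    have h5 := N.hglue (h / c₂) (N.mem_R_div hR hc₂) 0 C.zero_mem 1 C.one_mem (by simp)
      (by simp) h4 hs2'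
    rw [zero_sub, Valuation.map_neg, map_one] at h5
    exact lt_irrefl _ h5
  have hq1 : V₁ q ≤ 1 := (N.hC q hqC).mpr hq2
  -- the induction
  have hind : ∀ n : ℕ, n ≤ i → V₁ (q - 1) ≤ V₁ π ^ n := by
    intro n
    induction n with
    | zero =>
      intro _
      rw [pow_zero]
      exact V₁.map_sub_le hq1 (by rw [map_one])
    | succ n ih =>
      intro hn
      have hn' : n < i := hn
      have ih' := ih hn'.le
      -- `ε = (q − 1)/π^n`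
      have hεC : (q - 1) / π ^ n ∈ C := C.div_mem (C.sub_mem hqC C.one_mem) (C.pow_mem N.hπC n)
      have hp1 : 0 < V₁ π ^ n := pow_pos hVπ1 n
      have hp2 : 0 < V₂ π ^ n := pow_pos hVπ2 n
      have hε1 : V₁ ((q - 1) / π ^ n) ≤ 1 := by
        rw [map_div₀, map_pow, div_le_iff₀ hp1, one_mul]
        exact ih'
      have hε2 : V₂ ((q - 1) / π ^ n) ≤ 1 := (N.hC _ hεC).mp hε1
      -- `g = (h/c₁ − 1)/π^n`
      have hgR := N.mem_R_g hR hc₁ n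
      have hlt1 : V₁ π ^ i < V₁ π ^ n := pow_lt_pow_right_of_lt_one₀ hVπ1 hπ1 hn'
      have hlt2 : V₂ π ^ i < V₂ π ^ n := pow_lt_pow_right_of_lt_one₀ hVπ2 hπ2 hn'
      have hg1 : V₁ ((h / c₁ - 1) / π ^ n - 0) < 1 := by
        rw [sub_zero, map_div₀, map_pow, div_lt_iff₀ hp1, one_mul]
        exact hs1.trans_lt hlt1
      have hg2 : V₂ ((h / c₁ - 1) / π ^ n - (q - 1) / π ^ n) < 1 := by
        have e : (h / c₁ - 1) / π ^ n - (q - 1) / π ^ n = q * (h / c₂ - 1) / π ^ n := by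
          rw [hqh]
          field_simp
          ring
        rw [e, map_div₀, map_pow, div_lt_iff₀ hp2, one_mul, map_mul]
        calc V₂ q * V₂ (h / c₂ - 1) ≤ 1 * V₂ π ^ i := mul_le_mul' hq2 hs2
          _ = V₂ π ^ i := one_mul _
          _ < V₂ π ^ n := hlt2
      have h5 := N.hglue _ hgR 0 C.zero_mem _ hεC (by simp) hε2 hg1 hg2
      rw [zero_sub, Valuation.map_neg] at h5
      have h6 := N.hdisc _ hεC h5
      rw [map_div₀, map_pow, div_le_iff₀ hp1] at h6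
      rw [pow_succ, mul_comm]
      exact h6
  have hqi := hind i le_rfl
  have hp1 : 0 < V₁ π ^ i := pow_pos hVπ1 i
  have hp2 : 0 < V₂ π ^ i := pow_pos hVπ2 i
  have hπi0 : π ^ i ≠ 0 := pow_ne_zero i hπ0
  -- `δ = (q − 1)/π^i`
  have hδC : (q - 1) / π ^ i ∈ C := C.div_mem (C.sub_mem hqC C.one_mem) (C.pow_mem N.hπC i)
  have hδ1 : V₁ ((q - 1) / π ^ i) ≤ 1 := by
    rw [map_div₀, map_pow, div_le_iff₀ hp1, one_mul]
    exact hqi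
  have hδ2 : V₂ ((q - 1) / π ^ i) ≤ 1 := (N.hC _ hδC).mp hδ1
  have hq12 : V₂ (q - 1) ≤ V₂ π ^ i :=
    (N.le_pow_iff (C.sub_mem hqC C.one_mem) i).mp hqi
  refine ⟨(q - 1) / π ^ i, hδC, hδ1, ?_, ?_⟩
  · rw [hq]
    field_simp
    ring
  · have hgR := N.mem_R_g hR hc₁ i
    have hg1 : V₁ ((h / c₁ - 1) / π ^ i - γ₁) < 1 := by
      have e : (h / c₁ - 1) / π ^ i - γ₁ = (h / c₁ - (1 + γ₁ * π ^ i)) / π ^ i := by
        field_simp
        ring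
      rw [e, map_div₀, map_pow, div_lt_iff₀ hp1, one_mul]
      refine H1.trans_lt ?_
      exact pow_lt_pow_right_of_lt_one₀ hVπ1 hπ1 (Nat.lt_succ_self i)
    have hg2 : V₂ ((h / c₁ - 1) / π ^ i - ((q - 1) / π ^ i + γ₂)) < 1 := by
      have e : (h / c₁ - 1) / π ^ i - ((q - 1) / π ^ i + γ₂)
          = (q * (h / c₂ - (1 + γ₂ * π ^ i)) + (q - 1) * (γ₂ * π ^ i)) / π ^ i := by
        rw [hqh]
        field_simp
        ring
      rw [e, map_div₀, map_pow, div_lt_iff₀ hp2, one_mul]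
      refine (V₂.map_add_le (g := V₂ π ^ (i + 1)) ?_ ?_).trans_lt
        (pow_lt_pow_right_of_lt_one₀ hVπ2 hπ2 (Nat.lt_succ_self i))
      · rw [map_mul]
        calc V₂ q * V₂ (h / c₂ - (1 + γ₂ * π ^ i)) ≤ 1 * V₂ π ^ (i + 1) := mul_le_mul' hq2 H2
          _ = V₂ π ^ (i + 1) := one_mul _
      · rw [map_mul]
        exact (mul_le_mul' hq12 (S40F2J_val_term hγ₂1)).trans (S40F2J_two_mul_le hπ2.le hi)
    have hsum2 : V₂ ((q - 1) / π ^ i + γ₂) ≤ 1 := V₂.map_add_le hδ2 hγ₂1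
    have h5 := N.hglue _ hgR γ₁ hγ₁ _ (C.add_mem hδC hγ₂) hγ₁1 hsum2 hg1 hg2
    have e : γ₁ - γ₂ - (q - 1) / π ^ i = γ₁ - ((q - 1) / π ^ i + γ₂) := by ring
    rw [e]
    exact h5

/-- **JUMP, main form.**  `h = h' · E` with `h' ∈ R` (no zero or pole centred at the node) and
`E` the annulus factor: `E ≡ 1` at `V₁`, `E ≡ 1 + A π^i` at `V₂`.  If `h ≡ c₁ (1 + γ₁ π^i)` at
`V₁` and `h ≡ c₂ (1 + γ₂ π^i)` at `V₂`, then `c₂ = c₁ (1 + δ π^i)` and `δ ≡ γ₁ − γ₂ + A`. -/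
theorem S40F2J_main (N : S40F2J_Node V₁ V₂ C R π) {i : ℕ} (hi : 1 ≤ i)
    {h E c₁ c₂ γ₁ γ₂ A : F} (hR : h / E ∈ R)
    (hc₁ : c₁ ∈ C) (hc₂ : c₂ ∈ C) (hc₁0 : c₁ ≠ 0) (hc₂0 : c₂ ≠ 0)
    (hγ₁ : γ₁ ∈ C) (hγ₂ : γ₂ ∈ C) (hA : A ∈ C) (hγ₁1 : V₁ γ₁ ≤ 1) (hγ₂1 : V₂ γ₂ ≤ 1)
    (hA1 : V₂ A ≤ 1)
    (H1 : S40F2J_Cg V₁ π i (h / c₁) γ₁) (H2 : S40F2J_Cg V₂ π i (h / c₂) γ₂)
    (E1 : S40F2J_Cg V₁ π i E 0) (E2 : S40F2J_Cg V₂ π i E A) :
    ∃ δ ∈ C, V₁ δ ≤ 1 ∧ c₂ = c₁ * (1 + δ * π ^ i) ∧ V₁ (γ₁ - γ₂ + A - δ) < 1 := by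
  have hπ1 := N.hπ1
  have hπ2 := N.hπ2
  have K1 : S40F2J_Cg V₁ π i (h / E / c₁) γ₁ := by
    have := S40F2J_cg_div H1 E1 hγ₁1 (by simp) hπ1 hi
    rw [sub_zero] at this
    have e : h / E / c₁ = h / c₁ / E := by
      rw [div_div, div_div, mul_comm]
    rw [e]
    exact this
  have K2 : S40F2J_Cg V₂ π i (h / E / c₂) (γ₂ - A) := by
    have := S40F2J_cg_div H2 E2 hγ₂1 hA1 hπ2 hi
    have e : h / E / c₂ = h / c₂ / E := by
      rw [div_div, div_div, mul_comm]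
    rw [e]
    exact this
  have hγA : V₂ (γ₂ - A) ≤ 1 := V₂.map_sub_le hγ₂1 hA1
  obtain ⟨δ, hδC, hδ1, hc, hδ⟩ := S40F2J_climb N hi hR hc₁ hc₂ hc₁0 hc₂0 hγ₁
    (C.sub_mem hγ₂ hA) hγ₁1 hγA K1 K2
  refine ⟨δ, hδC, hδ1, hc, ?_⟩
  have e : γ₁ - γ₂ + A - δ = γ₁ - (γ₂ - A) - δ := by ring
  rw [e]
  exact hδ

/-- **two nodes**: the total jumps `A_s`, `A_t` of the annulus factors at two nodes `s`, `t` (local
rings `R`, `R'`) are congruent. -/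
theorem S40F2J_two_nodes {R' : Subring F} (N : S40F2J_Node V₁ V₂ C R π)
    (N' : S40F2J_Node V₁ V₂ C R' π) {i : ℕ} (hi : 1 ≤ i)
    {h E E' c₁ c₂ γ₁ γ₂ A A' : F} (hR : h / E ∈ R) (hR' : h / E' ∈ R')
    (hc₁ : c₁ ∈ C) (hc₂ : c₂ ∈ C) (hc₁0 : c₁ ≠ 0) (hc₂0 : c₂ ≠ 0)
    (hγ₁ : γ₁ ∈ C) (hγ₂ : γ₂ ∈ C) (hA : A ∈ C) (hA' : A' ∈ C) (hγ₁1 : V₁ γ₁ ≤ 1)
    (hγ₂1 : V₂ γ₂ ≤ 1) (hA1 : V₂ A ≤ 1) (hA'1 : V₂ A' ≤ 1)
    (H1 : S40F2J_Cg V₁ π i (h / c₁) γ₁) (H2 : S40F2J_Cg V₂ π i (h / c₂) γ₂)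
    (E1 : S40F2J_Cg V₁ π i E 0) (E2 : S40F2J_Cg V₂ π i E A)
    (E1' : S40F2J_Cg V₁ π i E' 0) (E2' : S40F2J_Cg V₂ π i E' A') :
    V₁ (A - A') < 1 := by
  obtain ⟨δ, -, -, hc, hδ⟩ := S40F2J_main N hi hR hc₁ hc₂ hc₁0 hc₂0 hγ₁ hγ₂ hA hγ₁1 hγ₂1 hA1
    H1 H2 E1 E2
  obtain ⟨δ', -, -, hc', hδ'⟩ := S40F2J_main N' hi hR' hc₁ hc₂ hc₁0 hc₂0 hγ₁ hγ₂ hA' hγ₁1
    hγ₂1 hA'1 H1 H2 E1' E2'
  have hπi0 : π ^ i ≠ 0 := pow_ne_zero i N.hπ0
  have hδδ : δ = δ' := by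
    have h1 : c₁ * (1 + δ * π ^ i) = c₁ * (1 + δ' * π ^ i) := by rw [← hc, ← hc']
    have h2 := mul_left_cancel₀ hc₁0 h1
    have h3 : δ * π ^ i = δ' * π ^ i := add_left_cancel h2
    exact mul_right_cancel₀ hπi0 h3
  subst hδδ
  have e : A - A' = (γ₁ - γ₂ + A - δ) - (γ₁ - γ₂ + A' - δ) := by ring
  rw [e]
  exact (V₁.map_sub_le (g := max (V₁ (γ₁ - γ₂ + A - δ)) (V₁ (γ₁ - γ₂ + A' - δ)))
    (le_max_left _ _) (le_max_right _ _)).trans_lt (max_lt hδ hδ')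

/-- **two nodes, integer form**: `A_s = c · N_s`, `A_t = c · N_t` with integers `N_s`, `N_t` (the
total depths `Σ m_P v_L(w_P)`), `c` a unit (the constant of the break), residue characteristic
`p`: then `p ∣ N_s − N_t`. -/
theorem S40F2J_two_nodes_int {R' : Subring F} (N : S40F2J_Node V₁ V₂ C R π)
    (N' : S40F2J_Node V₁ V₂ C R' π) {i : ℕ} (hi : 1 ≤ i) (p : ℕ)
    (hp : ∀ n : ℤ, V₁ (n : F) < 1 → (p : ℤ) ∣ n)
    {h E E' c₁ c₂ γ₁ γ₂ c : F} (Ns Nt : ℤ) (hR : h / E ∈ R) (hR' : h / E' ∈ R')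
    (hc₁ : c₁ ∈ C) (hc₂ : c₂ ∈ C) (hc₁0 : c₁ ≠ 0) (hc₂0 : c₂ ≠ 0)
    (hγ₁ : γ₁ ∈ C) (hγ₂ : γ₂ ∈ C) (hcC : c ∈ C) (hc1 : V₁ c = 1) (hγ₁1 : V₁ γ₁ ≤ 1)
    (hγ₂1 : V₂ γ₂ ≤ 1)
    (H1 : S40F2J_Cg V₁ π i (h / c₁) γ₁) (H2 : S40F2J_Cg V₂ π i (h / c₂) γ₂)
    (E1 : S40F2J_Cg V₁ π i E 0) (E2 : S40F2J_Cg V₂ π i E (c * (Ns : F)))
    (E1' : S40F2J_Cg V₁ π i E' 0) (E2' : S40F2J_Cg V₂ π i E' (c * (Nt : F))) :
    (p : ℤ) ∣ Ns - Nt := by
  have hc2 : V₂ c ≤ 1 := (N.hC c hcC).mp hc1.le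
  have hA : c * (Ns : F) ∈ C := C.mul_mem hcC (C.intCast_mem Ns)
  have hA' : c * (Nt : F) ∈ C := C.mul_mem hcC (C.intCast_mem Nt)
  have hA1 : V₂ (c * (Ns : F)) ≤ 1 := by
    rw [map_mul]
    exact mul_le_one' hc2 (S40F2J_val_intCast Ns)
  have hA'1 : V₂ (c * (Nt : F)) ≤ 1 := by
    rw [map_mul]
    exact mul_le_one' hc2 (S40F2J_val_intCast Nt)
  have key := S40F2J_two_nodes N N' hi hR hR' hc₁ hc₂ hc₁0 hc₂0 hγ₁ hγ₂ hA hA' hγ₁1 hγ₂1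
    hA1 hA'1 H1 H2 E1 E2 E1' E2'
  apply hp
  have e : c * (Ns : F) - c * (Nt : F) = c * ((Ns - Nt : ℤ) : F) := by
    push_cast
    ring
  rw [e, map_mul, hc1, one_mul] at key
  exact key

end climb

end Fermat.Agent.S40
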