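import Mathlib

/-!
# S40 (TRACK 13), GEO-6 packages P2 + P3, abstract form (helper26).  Prefix `S40NA_`.  Mathlib only.

Setting (the two Gauss valuations of T7/T11, no interior of the annulus):
`L ⊂ F` fields (`L = ℚ̄`, `F` the function field), `A ⊂ L` a valuation ring with residue map
`res : A → k`, `O₁, O₂ ⊂ F` valuation rings containing the constants of `A`, `U` a set of rational
places of `F / L` (`S40NA_Pt`: valuation ring + evaluation map).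

* `S40NA_Lam` : `Λ = O₁ ∩ O₂ ∩ ⋂_{Q ∈ U} Q` (functions regular on the chart, integral at both
  components).
* `S40NA_Node` : a **node** `s` = a ring homomorphism `ε : Λ → k` (value at `s`) which is `res` on
  the constants and kills the functions vanishing identically on `C₁`, and those vanishing
  identically on `C₂` (`ε = e₁ ∘ red₁ = e₂ ∘ red₂`: the GLUE property of T7 for REGULAR functions).
* `S40NA_Centred` : the place `Q ∈ U` **specialises to the node**: `f(Q) ∈ A` and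
  `res (f(Q)) = ε f` for all `f ∈ Λ`.
* `S40NA_exists_sep` : a place of `U` which does NOT specialise to `s` is separated from `s` by a
  function `b ∈ Λ`: `b(Q) = 0`, `ε b ≠ 0`.  (Formal: `b = f − f(Q)` or `b = 1 − f / f(Q)`.)
* `S40NA_hartogs` (**G3**) : `g ∈ O₁ ∩ O₂` with finitely many poles in `U`, none specialising to
  `s`, is a quotient `a / b` with `a, b ∈ Λ`, `ε b ≠ 0`.
* `S40NA_const_glue` (**GLUE for constants**, the JUMP step) : if moreover `g ≡ c₁` at `O₁` and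
  `g ≡ c₂` at `O₂` with constants `c₁, c₂ ∈ A`, then `res c₁ = res c₂`.
* `S40NA_zero_glue`, `S40NA_slope` (**SLOPE**) : `g` a unit at `O₁`, a unit at `s` on `C₁`
  (`S40NA_UnitAt`), without zeros and poles specialising to `s`, is a unit at `O₂`.
-/

set_option autoImplicit false

namespace Fermat.Agent.S40

/-- a rational place of `F / L`: a valuation ring of `F` containing `L`, with its evaluation map;
rank one in the weak form `arch`. -/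
structure S40NA_Pt (L F : Type*) [Field L] [Field F] [Algebra L F] where
  /-- the valuation ring -/
  P : ValuationSubring F
  /-- the evaluation map -/
  ev : ↥P →+* L
  alg_mem : ∀ c : L, algebraMap L F c ∈ P
  ev_alg : ∀ c : L, ev ⟨algebraMap L F c, alg_mem c⟩ = c
  ev_eq_zero : ∀ x : ↥P, ev x = 0 → (x : F) ∈ P.nonunits
  arch : ∀ g b : F, b ∈ P.nonunits → ∃ m : ℕ, g * b ^ m ∈ P

section

variable {L F k : Type*} [Field L] [Field F] [Algebra L F] [Field k]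

/-- `Λ = O₁ ∩ O₂ ∩ ⋂_{Q ∈ U} Q`. -/
def S40NA_Lam (O₁ O₂ : ValuationSubring F) (U : Set (S40NA_Pt L F)) : Subring F :=
  O₁.toSubring ⊓ O₂.toSubring ⊓ ⨅ Q ∈ U, Q.P.toSubring

theorem S40NA_mem_Lam {O₁ O₂ : ValuationSubring F} {U : Set (S40NA_Pt L F)} {f : F} :
    f ∈ S40NA_Lam O₁ O₂ U ↔ f ∈ O₁ ∧ f ∈ O₂ ∧ ∀ Q ∈ U, f ∈ Q.P := by
  simp only [S40NA_Lam, Subring.mem_inf, Subring.mem_iInf, ValuationSubring.mem_toSubring,
    and_assoc]

/-- the data of a node. -/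
structure S40NA_Node (L F k : Type*) [Field L] [Field F] [Algebra L F] [Field k] where
  /-- the valuation ring of the constants -/
  A : ValuationSubring L
  /-- its residue map -/
  res : ↥A →+* k
  res_nonunit : ∀ a : ↥A, (a : L) ∈ A.nonunits → res a = 0
  /-- first Gauss valuation ring -/
  O₁ : ValuationSubring F
  /-- second Gauss valuation ring -/
  O₂ : ValuationSubring F
  const₁ : ∀ a : L, a ∈ A → algebraMap L F a ∈ O₁
  const₂ : ∀ a : L, a ∈ A → algebraMap L F a ∈ O₂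
  /-- the places of the chart -/
  U : Set (S40NA_Pt L F)
  /-- the value at the node -/
  ε : ↥(S40NA_Lam O₁ O₂ U) →+* k
  ε_const : ∀ (a : L) (ha : a ∈ A) (h : algebraMap L F a ∈ S40NA_Lam O₁ O₂ U),
    ε ⟨algebraMap L F a, h⟩ = res ⟨a, ha⟩
  ε_zero₁ : ∀ f : ↥(S40NA_Lam O₁ O₂ U), (f : F) ∈ O₁.nonunits → ε f = 0
  ε_zero₂ : ∀ f : ↥(S40NA_Lam O₁ O₂ U), (f : F) ∈ O₂.nonunits → ε f = 0

namespace S40NA_Node

variable (N : S40NA_Node L F k)

/-- `Λ` of the node. -/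
abbrev Lam : Subring F := S40NA_Lam N.O₁ N.O₂ N.U

theorem const_mem {a : L} (ha : a ∈ N.A) : algebraMap L F a ∈ N.Lam :=
  S40NA_mem_Lam.2 ⟨N.const₁ a ha, N.const₂ a ha, fun Q _ => Q.alg_mem a⟩

theorem mem_pt {f : F} (hf : f ∈ N.Lam) {Q : S40NA_Pt L F} (hQ : Q ∈ N.U) : f ∈ Q.P :=
  (S40NA_mem_Lam.1 hf).2.2 Q hQ

theorem mem_O₁ {f : F} (hf : f ∈ N.Lam) : f ∈ N.O₁ := (S40NA_mem_Lam.1 hf).1

theorem mem_O₂ {f : F} (hf : f ∈ N.Lam) : f ∈ N.O₂ := (S40NA_mem_Lam.1 hf).2.1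

end S40NA_Node

/-- the place `Q` of the chart specialises to the node. -/
def S40NA_Centred (N : S40NA_Node L F k) (Q : S40NA_Pt L F) (hQ : Q ∈ N.U) : Prop :=
  ∀ (f : F) (hf : f ∈ N.Lam), ∃ h : Q.ev ⟨f, N.mem_pt hf hQ⟩ ∈ N.A,
    N.res ⟨Q.ev ⟨f, N.mem_pt hf hQ⟩, h⟩ = N.ε ⟨f, hf⟩

/-- **separation**: a place of the chart which does not specialise to the node is a zero of a
function `b ∈ Λ` with `b(s) ≠ 0`. -/
theorem S40NA_exists_sep (N : S40NA_Node L F k) (Q : S40NA_Pt L F) (hQ : Q ∈ N.U)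
    (hnc : ¬ S40NA_Centred N Q hQ) :
    ∃ (b : F) (hb : b ∈ N.Lam), b ∈ Q.P.nonunits ∧ N.ε ⟨b, hb⟩ ≠ 0 := by
  classical
  unfold S40NA_Centred at hnc
  push Not at hnc
  obtain ⟨f, hf, hbad⟩ := hnc
  set c : L := Q.ev ⟨f, N.mem_pt hf hQ⟩ with hc
  by_cases hcA : c ∈ N.A
  · -- `b = f − c`
    have hcΛ : algebraMap L F c ∈ N.Lam := N.const_mem hcA
    have hb : f - algebraMap L F c ∈ N.Lam := N.Lam.sub_mem hf hcΛ
    refine ⟨f - algebraMap L F c, hb, ?_, ?_⟩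
    · have h0 : Q.ev ⟨f - algebraMap L F c, N.mem_pt hb hQ⟩ = 0 := by
        have e : (⟨f - algebraMap L F c, N.mem_pt hb hQ⟩ : ↥Q.P) =
            ⟨f, N.mem_pt hf hQ⟩ - ⟨algebraMap L F c, Q.alg_mem c⟩ := rfl
        rw [e, map_sub, Q.ev_alg, ← hc, sub_self]
      exact Q.ev_eq_zero _ h0
    · have e : (⟨f - algebraMap L F c, hb⟩ : ↥N.Lam) = ⟨f, hf⟩ - ⟨algebraMap L F c, hcΛ⟩ := rfl
      rw [e, map_sub, N.ε_const c hcA hcΛ, sub_ne_zero]
      exact fun h => hbad hcA h.symm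
  · -- `b = 1 − c⁻¹ f`
    have hcin : c⁻¹ ∈ N.A.nonunits := (ValuationSubring.inv_mem_nonunits_iff _).2 (Or.inr hcA)
    have hciA : c⁻¹ ∈ N.A := ValuationSubring.nonunits_subset hcin
    have hc0 : c ≠ 0 := fun h => hcA (h ▸ N.A.zero_mem)
    have hciΛ : algebraMap L F c⁻¹ ∈ N.Lam := N.const_mem hciA
    have hpΛ : algebraMap L F c⁻¹ * f ∈ N.Lam := N.Lam.mul_mem hciΛ hf
    have hb : 1 - algebraMap L F c⁻¹ * f ∈ N.Lam := N.Lam.sub_mem N.Lam.one_mem hpΛ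
    refine ⟨1 - algebraMap L F c⁻¹ * f, hb, ?_, ?_⟩
    · have h0 : Q.ev ⟨1 - algebraMap L F c⁻¹ * f, N.mem_pt hb hQ⟩ = 0 := by
        have e : (⟨1 - algebraMap L F c⁻¹ * f, N.mem_pt hb hQ⟩ : ↥Q.P) =
            1 - ⟨algebraMap L F c⁻¹, Q.alg_mem c⁻¹⟩ * ⟨f, N.mem_pt hf hQ⟩ := rfl
        rw [e, map_sub, map_one, map_mul, Q.ev_alg, ← hc, inv_mul_cancel₀ hc0, sub_self]
      exact Q.ev_eq_zero _ h0
    · have e : (⟨1 - algebraMap L F c⁻¹ * f, hb⟩ : ↥N.Lam) =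
          1 - ⟨algebraMap L F c⁻¹, hciΛ⟩ * ⟨f, hf⟩ := rfl
      rw [e, map_sub, map_one, map_mul, N.ε_const c⁻¹ hciA hciΛ, N.res_nonunit ⟨c⁻¹, hciA⟩ hcin,
        zero_mul, sub_zero]
      exact one_ne_zero

/-- the nonunits of a valuation ring form an ideal. -/
theorem S40NA_nonunits_mul (O : ValuationSubring F) {x y : F} (hx : x ∈ O.nonunits)
    (hy : y ∈ O) : x * y ∈ O.nonunits := by
  rw [ValuationSubring.mem_nonunits_iff_exists_mem_maximalIdeal] at hx ⊢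
  obtain ⟨hxO, hxm⟩ := hx
  exact ⟨mul_mem hxO hy, Ideal.mul_mem_right ⟨y, hy⟩ _ hxm⟩

/-- clearing finitely many poles none of which specialises to the node. -/
theorem S40NA_clear (N : S40NA_Node L F k) (g : F) (S : Finset (S40NA_Pt L F))
    (hS : ∀ Q ∈ S, ∃ hQ : Q ∈ N.U, ¬ S40NA_Centred N Q hQ) :
    ∃ (b : F) (hb : b ∈ N.Lam), N.ε ⟨b, hb⟩ ≠ 0 ∧ ∀ Q ∈ S, g * b ∈ Q.P := by
  classical
  induction S using Finset.induction_on with
  | empty =>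
    exact ⟨1, N.Lam.one_mem, by
      have e : (⟨1, N.Lam.one_mem⟩ : ↥N.Lam) = 1 := rfl
      rw [e, map_one]; exact one_ne_zero, fun Q hQ => absurd hQ (Finset.notMem_empty Q)⟩
  | insert Q S' hQS ih =>
    obtain ⟨b', hb', hεb', hS'⟩ := ih (fun Q' hQ' => hS Q' (Finset.mem_insert_of_mem hQ'))
    obtain ⟨hQU, hQnc⟩ := hS Q (Finset.mem_insert_self Q S')
    obtain ⟨bQ, hbQ, hbQn, hεbQ⟩ := S40NA_exists_sep N Q hQU hQnc
    obtain ⟨m, hm⟩ := Q.arch (g * b') bQ hbQn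
    have hpow : bQ ^ m ∈ N.Lam := N.Lam.pow_mem hbQ m
    have hb : b' * bQ ^ m ∈ N.Lam := N.Lam.mul_mem hb' hpow
    refine ⟨b' * bQ ^ m, hb, ?_, ?_⟩
    · have e : (⟨b' * bQ ^ m, hb⟩ : ↥N.Lam) = ⟨b', hb'⟩ * ⟨bQ, hbQ⟩ ^ m := rfl
      rw [e, map_mul, map_pow]
      exact mul_ne_zero hεb' (pow_ne_zero m hεbQ)
    · intro Q' hQ'
      rcases Finset.mem_insert.1 hQ' with rfl | hQ'S
      · rw [← mul_assoc]; exact hm
      · obtain ⟨hQ'U, -⟩ := hS Q' hQ'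
        rw [← mul_assoc]
        exact mul_mem (hS' Q' hQ'S) (N.mem_pt hpow hQ'U)

/-- **G3 (Hartogs at a node)**: a function integral for both Gauss valuations, with finitely many
poles on the chart none of which specialises to the node `s`, is a quotient `a / b` of functions
regular on the chart with `b(s) ≠ 0`. -/
theorem S40NA_hartogs (N : S40NA_Node L F k) (g : F) (hg₁ : g ∈ N.O₁) (hg₂ : g ∈ N.O₂)
    (hfin : {Q : S40NA_Pt L F | Q ∈ N.U ∧ g ∉ Q.P}.Finite)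
    (hnc : ∀ (Q : S40NA_Pt L F) (hQ : Q ∈ N.U), g ∉ Q.P → ¬ S40NA_Centred N Q hQ) :
    ∃ (a b : F) (ha : a ∈ N.Lam) (hb : b ∈ N.Lam), g * b = a ∧ N.ε ⟨b, hb⟩ ≠ 0 := by
  classical
  obtain ⟨b, hb, hεb, hS⟩ := S40NA_clear N g hfin.toFinset (fun Q hQ => by
    have h := (Set.Finite.mem_toFinset hfin).1 hQ
    exact ⟨h.1, hnc Q h.1 h.2⟩)
  refine ⟨g * b, b, ?_, hb, rfl, hεb⟩
  refine S40NA_mem_Lam.2 ⟨mul_mem hg₁ (N.mem_O₁ hb), mul_mem hg₂ (N.mem_O₂ hb), ?_⟩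
  intro Q hQ
  by_cases hgQ : g ∈ Q.P
  · exact mul_mem hgQ (N.mem_pt hb hQ)
  · exact hS Q ((Set.Finite.mem_toFinset hfin).2 ⟨hQ, hgQ⟩)

/-- **GLUE for constants** (the JUMP step): `g` integral for both Gauss valuations, without pole
specialising to the node, `g ≡ c₁` on `C₁` and `g ≡ c₂` on `C₂` with constants `c₁, c₂ ∈ A`:
then `c₁ ≡ c₂` modulo the maximal ideal of `A`. -/
theorem S40NA_const_glue (N : S40NA_Node L F k) (g : F)
    (hfin : {Q : S40NA_Pt L F | Q ∈ N.U ∧ g ∉ Q.P}.Finite)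
    (hnc : ∀ (Q : S40NA_Pt L F) (hQ : Q ∈ N.U), g ∉ Q.P → ¬ S40NA_Centred N Q hQ)
    (c₁ c₂ : L) (hc₁ : c₁ ∈ N.A) (hc₂ : c₂ ∈ N.A)
    (h₁ : g - algebraMap L F c₁ ∈ N.O₁.nonunits) (h₂ : g - algebraMap L F c₂ ∈ N.O₂.nonunits) :
    N.res ⟨c₁, hc₁⟩ = N.res ⟨c₂, hc₂⟩ := by
  have hg₁ : g ∈ N.O₁ := by
    have := add_mem (ValuationSubring.nonunits_subset h₁) (N.const₁ c₁ hc₁)
    simpa using this
  have hg₂ : g ∈ N.O₂ := by
    have := add_mem (ValuationSubring.nonunits_subset h₂) (N.const₂ c₂ hc₂)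
    simpa using this
  obtain ⟨a, b, ha, hb, hab, hεb⟩ := S40NA_hartogs N g hg₁ hg₂ hfin hnc
  have key : ∀ (c : L) (hc : c ∈ N.A) (O : ValuationSubring F), b ∈ O →
      (∀ f : ↥N.Lam, (f : F) ∈ O.nonunits → N.ε f = 0) →
      g - algebraMap L F c ∈ O.nonunits → N.ε ⟨a, ha⟩ = N.res ⟨c, hc⟩ * N.ε ⟨b, hb⟩ := by
    intro c hc O hbO hz h
    have hcΛ : algebraMap L F c ∈ N.Lam := N.const_mem hc
    have hd : a - algebraMap L F c * b ∈ N.Lam := N.Lam.sub_mem ha (N.Lam.mul_mem hcΛ hb)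
    have hdn : a - algebraMap L F c * b ∈ O.nonunits := by
      have e : a - algebraMap L F c * b = (g - algebraMap L F c) * b := by rw [← hab]; ring
      rw [e]; exact S40NA_nonunits_mul O h hbO
    have h0 := hz ⟨a - algebraMap L F c * b, hd⟩ hdn
    have e : (⟨a - algebraMap L F c * b, hd⟩ : ↥N.Lam) =
        ⟨a, ha⟩ - ⟨algebraMap L F c, hcΛ⟩ * ⟨b, hb⟩ := rfl
    rw [e, map_sub, map_mul, N.ε_const c hc hcΛ, sub_eq_zero] at h0
    exact h0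
  have e₁ := key c₁ hc₁ N.O₁ (N.mem_O₁ hb) N.ε_zero₁ h₁
  have e₂ := key c₂ hc₂ N.O₂ (N.mem_O₂ hb) N.ε_zero₂ h₂
  exact mul_right_cancel₀ hεb (e₁.symm.trans e₂)

/-- `g` is, on `C₁`, a unit at the node: `red₁ g = red₁ a' / red₁ b'` with `a', b'` regular on the
chart and nonzero at the node. -/
def S40NA_UnitAt (N : S40NA_Node L F k) (g : F) : Prop :=
  ∃ (a' b' : F) (ha' : a' ∈ N.Lam) (hb' : b' ∈ N.Lam),
    g * b' - a' ∈ N.O₁.nonunits ∧ N.ε ⟨a', ha'⟩ ≠ 0 ∧ N.ε ⟨b', hb'⟩ ≠ 0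

theorem S40NA_unitAt_inv (N : S40NA_Node L F k) {g : F} (hg0 : g ≠ 0) (hgi : g⁻¹ ∈ N.O₁)
    (h : S40NA_UnitAt N g) : S40NA_UnitAt N g⁻¹ := by
  obtain ⟨a', b', ha', hb', hn, hεa, hεb⟩ := h
  refine ⟨b', a', hb', ha', ?_, hεb, hεa⟩
  have e : g⁻¹ * a' - b' = -((g * b' - a') * g⁻¹) := by
    field_simp
    ring
  rw [e]
  exact N.O₁.nonunits.neg_mem (S40NA_nonunits_mul N.O₁ hn hgi)

theorem S40NA_unitAt_mul (N : S40NA_Node L F k) {g h : F} (hg₁ : g ∈ N.O₁)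
    (hg : S40NA_UnitAt N g) (hh : S40NA_UnitAt N h) : S40NA_UnitAt N (g * h) := by
  obtain ⟨a, b, ha, hb, hn, hεa, hεb⟩ := hg
  obtain ⟨a', b', ha', hb', hn', hεa', hεb'⟩ := hh
  refine ⟨a * a', b * b', N.Lam.mul_mem ha ha', N.Lam.mul_mem hb hb', ?_, ?_, ?_⟩
  · have e : g * h * (b * b') - a * a' = (g * b - a) * a' + (h * b' - a') * (g * b) := by ring
    rw [e]
    exact N.O₁.nonunits.add_mem (S40NA_nonunits_mul N.O₁ hn (N.mem_O₁ ha'))
      (S40NA_nonunits_mul N.O₁ hn' (mul_mem hg₁ (N.mem_O₁ hb)))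
  · have e : (⟨a * a', N.Lam.mul_mem ha ha'⟩ : ↥N.Lam) = ⟨a, ha⟩ * ⟨a', ha'⟩ := rfl
    rw [e, map_mul]; exact mul_ne_zero hεa hεa'
  · have e : (⟨b * b', N.Lam.mul_mem hb hb'⟩ : ↥N.Lam) = ⟨b, hb⟩ * ⟨b', hb'⟩ := rfl
    rw [e, map_mul]; exact mul_ne_zero hεb hεb'

/-- a constant which is a unit of `A` is a unit at the node. -/
theorem S40NA_unitAt_const (N : S40NA_Node L F k) {c : L} (hc : c ∈ N.A)
    (hres : N.res ⟨c, hc⟩ ≠ 0) : S40NA_UnitAt N (algebraMap L F c) := by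
  refine ⟨algebraMap L F c, 1, N.const_mem hc, N.Lam.one_mem, ?_, ?_, ?_⟩
  · rw [mul_one, sub_self]; exact N.O₁.nonunits.zero_mem
  · rw [N.ε_const c hc]; exact hres
  · have e : (⟨1, N.Lam.one_mem⟩ : ↥N.Lam) = 1 := rfl
    rw [e, map_one]; exact one_ne_zero

/-- **no zero on `C₂` through the node**: a function integral for both Gauss valuations, which is
on `C₁` a unit at the node and has no pole specialising to the node, does not vanish identically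
on `C₂`. -/
theorem S40NA_zero_glue (N : S40NA_Node L F k) (g : F) (hg₁ : g ∈ N.O₁)
    (hg₂ : g ∈ N.O₂.nonunits)
    (hfin : {Q : S40NA_Pt L F | Q ∈ N.U ∧ g ∉ Q.P}.Finite)
    (hnc : ∀ (Q : S40NA_Pt L F) (hQ : Q ∈ N.U), g ∉ Q.P → ¬ S40NA_Centred N Q hQ)
    (hu : S40NA_UnitAt N g) : False := by
  obtain ⟨a, b, ha, hb, hab, hεb⟩ :=
    S40NA_hartogs N g hg₁ (ValuationSubring.nonunits_subset hg₂) hfin hnc
  obtain ⟨a', b', ha', hb', hn, hεa', hεb'⟩ := hu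
  -- `ε a = 0`
  have hεa : N.ε ⟨a, ha⟩ = 0 := by
    apply N.ε_zero₂
    show a ∈ N.O₂.nonunits
    rw [← hab]; exact S40NA_nonunits_mul N.O₂ hg₂ (N.mem_O₂ hb)
  -- `ε (a b' − a' b) = 0`
  have hd : a * b' - a' * b ∈ N.Lam :=
    N.Lam.sub_mem (N.Lam.mul_mem ha hb') (N.Lam.mul_mem ha' hb)
  have hdn : a * b' - a' * b ∈ N.O₁.nonunits := by
    have e : a * b' - a' * b = (g * b' - a') * b := by rw [← hab]; ring
    rw [e]; exact S40NA_nonunits_mul N.O₁ hn (N.mem_O₁ hb)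
  have h0 := N.ε_zero₁ ⟨a * b' - a' * b, hd⟩ hdn
  have e : (⟨a * b' - a' * b, hd⟩ : ↥N.Lam) = ⟨a, ha⟩ * ⟨b', hb'⟩ - ⟨a', ha'⟩ * ⟨b, hb⟩ := rfl
  rw [e, map_sub, map_mul, map_mul, hεa, zero_mul, zero_sub, neg_eq_zero] at h0
  exact mul_ne_zero hεa' hεb h0

/-- **SLOPE, unit case**: `g` a unit for the first Gauss valuation, on `C₁` a unit at the node,
without zero and without pole specialising to the node, is a unit for the second Gauss valuation.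
(With the node coordinate `X` of P1 — `V₁ X = 0`, `red₁ X` a uniformiser at `s`, `V₂ X = v ϖ`, no
zero or pole of `X` specialising to `s` — applied to `g = f / (c · X ^ n)` this is the slope
formula `V₂ f − V₁ f = n · v ϖ`.) -/
theorem S40NA_slope (N : S40NA_Node L F k) (g : F) (hg0 : g ≠ 0) (hg₁ : g ∈ N.O₁)
    (hgi₁ : g⁻¹ ∈ N.O₁)
    (hfin : {Q : S40NA_Pt L F | Q ∈ N.U ∧ g ∉ Q.P}.Finite)
    (hnc : ∀ (Q : S40NA_Pt L F) (hQ : Q ∈ N.U), g ∉ Q.P → ¬ S40NA_Centred N Q hQ)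
    (hfin' : {Q : S40NA_Pt L F | Q ∈ N.U ∧ g⁻¹ ∉ Q.P}.Finite)
    (hnc' : ∀ (Q : S40NA_Pt L F) (hQ : Q ∈ N.U), g⁻¹ ∉ Q.P → ¬ S40NA_Centred N Q hQ)
    (hu : S40NA_UnitAt N g) : g ∈ N.O₂ ∧ g⁻¹ ∈ N.O₂ := by
  constructor
  · by_contra hg₂
    have hin : g⁻¹ ∈ N.O₂.nonunits := (ValuationSubring.inv_mem_nonunits_iff _).2 (Or.inr hg₂)
    exact S40NA_zero_glue N g⁻¹ hgi₁ hin hfin' hnc' (S40NA_unitAt_inv N hg0 hgi₁ hu)
  · by_contra hgi₂
    have hin : g ∈ N.O₂.nonunits := (ValuationSubring.mem_nonunits_iff_or _).2 (Or.inr hgi₂)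
    exact S40NA_zero_glue N g hg₁ hin hfin hnc hu

end

end Fermat.Agent.S40
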