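import Mathlib
import Fermat.Agent.S40.F2Jump
import Fermat.Agent.S40.NodeAbs

/-!
# TRACK 13 (S40), GEO-6: P4-JUMP at a node of `S40NA_Node` (helper29).  Prefix `S40F2K_`.

Bridge between helper26's abstract node (`S40NA_Node`, `S40NA_const_glue`, file `NodeAbs.lean`)
and the first-order gluing of `F2Jump.lean` (`S40F2J_Node`, `S40F2J_climb`, `S40F2J_main`).

* `S40F2K_R N` : the subring of the functions with finitely many poles on the chart `U`, none of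
  them specialising to the node.
* `S40F2K_node` : `S40F2J_Node N.O₁.valuation N.O₂.valuation C (S40F2K_R N) π` for a subfield `C`
  of constants on which the valuation is discrete with uniformiser `π`
  (hypotheses: `O₁ ∩ L = A = O₂ ∩ L`).
* `S40F2K_main`, `S40F2K_two_nodes_int` : `S40F2J_main`, `S40F2J_two_nodes_int` in this setting.
* `S40F2K_cg_of_mem` : the ideal form `h − d ∈ π^{i+1} O` of Step 1–2 gives `S40F2J_Cg (h/d) 0`.
-/

set_option autoImplicit false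

namespace Fermat.Agent.S40

section

variable {L F k : Type*} [Field L] [Field F] [Algebra L F] [Field k]

/-- the functions with finitely many poles on the chart, none specialising to the node. -/
def S40F2K_Reg (N : S40NA_Node L F k) (g : F) : Prop :=
  {Q : S40NA_Pt L F | Q ∈ N.U ∧ g ∉ Q.P}.Finite ∧
    ∀ (Q : S40NA_Pt L F) (hQ : Q ∈ N.U), g ∉ Q.P → ¬ S40NA_Centred N Q hQ

theorem S40F2K_reg_of_forall_mem (N : S40NA_Node L F k) {g : F}
    (h : ∀ Q : S40NA_Pt L F, Q ∈ N.U → g ∈ Q.P) : S40F2K_Reg N g := by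
  refine ⟨?_, fun Q hQ hg => absurd (h Q hQ) hg⟩
  have : {Q : S40NA_Pt L F | Q ∈ N.U ∧ g ∉ Q.P} = ∅ :=
    Set.eq_empty_iff_forall_notMem.mpr (fun Q hQ => hQ.2 (h Q hQ.1))
  rw [this]
  exact Set.finite_empty

theorem S40F2K_reg_const (N : S40NA_Node L F k) (c : L) : S40F2K_Reg N (algebraMap L F c) :=
  S40F2K_reg_of_forall_mem N (fun Q _ => Q.alg_mem c)

/-- closure under a binary operation whose poles are poles of one of the arguments. -/
theorem S40F2K_reg_op (N : S40NA_Node L F k) {g g' g'' : F}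
    (hop : ∀ Q : S40NA_Pt L F, g ∈ Q.P → g' ∈ Q.P → g'' ∈ Q.P)
    (hg : S40F2K_Reg N g) (hg' : S40F2K_Reg N g') : S40F2K_Reg N g'' := by
  have hsub : ∀ Q : S40NA_Pt L F, g'' ∉ Q.P → g ∉ Q.P ∨ g' ∉ Q.P := by
    intro Q h
    by_cases h1 : g ∈ Q.P
    · by_cases h2 : g' ∈ Q.P
      · exact absurd (hop Q h1 h2) h
      · exact Or.inr h2
    · exact Or.inl h1
  refine ⟨(hg.1.union hg'.1).subset ?_, fun Q hQ h => ?_⟩
  · intro Q hQ
    rcases hsub Q hQ.2 with h | h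
    · exact Or.inl ⟨hQ.1, h⟩
    · exact Or.inr ⟨hQ.1, h⟩
  · rcases hsub Q h with h' | h'
    · exact hg.2 Q hQ h'
    · exact hg'.2 Q hQ h'

/-- the subring `R` of the node. -/
def S40F2K_R (N : S40NA_Node L F k) : Subring F where
  carrier := {g | S40F2K_Reg N g}
  mul_mem' := fun ha hb => S40F2K_reg_op N (fun Q h h' => Q.P.mul_mem _ _ h h') ha hb
  one_mem' := S40F2K_reg_of_forall_mem N (fun Q _ => Q.P.one_mem)
  add_mem' := fun ha hb => S40F2K_reg_op N (fun Q h h' => Q.P.add_mem _ _ h h') ha hb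
  zero_mem' := S40F2K_reg_of_forall_mem N (fun Q _ => Q.P.zero_mem)
  neg_mem' := fun ha => S40F2K_reg_op N (fun Q h _ => Q.P.neg_mem _ h) ha ha

theorem S40F2K_mem_R (N : S40NA_Node L F k) {g : F} : g ∈ S40F2K_R N ↔ S40F2K_Reg N g :=
  Iff.rfl

/-- a function which is a unit at every place of the chart specialising to the node and has
finitely many zeros and poles on the chart: `g` and `g⁻¹` are in `R`. -/
theorem S40F2K_mem_R_of_unit (N : S40NA_Node L F k) {g : F}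
    (hfin : {Q : S40NA_Pt L F | Q ∈ N.U ∧ g ∉ Q.P}.Finite)
    (hnc : ∀ (Q : S40NA_Pt L F) (hQ : Q ∈ N.U), S40NA_Centred N Q hQ → g ∈ Q.P) :
    g ∈ S40F2K_R N :=
  ⟨hfin, fun Q hQ hg hc => hg (hnc Q hQ hc)⟩

/-- nonunit constants of `A` are nonunits of `O₁` (if `O₁ ∩ L = A`). -/
theorem S40F2K_nonunit (O : ValuationSubring F) (A : ValuationSubring L)
    (hA : ∀ a : L, algebraMap L F a ∈ O → a ∈ A) {a : L} (ha : a ∈ A.nonunits) :
    algebraMap L F a ∈ O.nonunits := by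
  rw [ValuationSubring.mem_nonunits_iff]
  by_contra hcon
  have h1 : 1 ≤ O.valuation (algebraMap L F a) := not_lt.mp hcon
  have ha0 : a ≠ 0 := by
    rintro rfl
    rw [map_zero, map_zero] at h1
    exact absurd h1 (not_le.mpr zero_lt_one)
  have hV0 : O.valuation (algebraMap L F a) ≠ 0 :=
    (Valuation.ne_zero_iff _).mpr ((map_ne_zero _).mpr ha0)
  have h2 : O.valuation (algebraMap L F a⁻¹) ≤ 1 := by
    rw [map_inv₀, map_inv₀]
    exact (inv_le_one₀ (zero_lt_iff.mpr hV0)).mpr h1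
  have h3 : a⁻¹ ∈ A := hA _ ((ValuationSubring.valuation_le_one_iff O _).mp h2)
  rw [ValuationSubring.mem_nonunits_iff] at ha
  have h4 : A.valuation a⁻¹ ≤ 1 := (ValuationSubring.valuation_le_one_iff A _).mpr h3
  rw [map_inv₀] at h4
  have hVa0 : A.valuation a ≠ 0 := (Valuation.ne_zero_iff _).mpr ha0
  have h5 : 1 ≤ A.valuation a := (inv_le_one₀ (zero_lt_iff.mpr hVa0)).mp h4
  exact absurd ha (not_lt.mpr h5)

/-- **the node of `NodeAbs.lean` satisfies the GLUE hypothesis of `F2Jump.lean`.** -/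
theorem S40F2K_node (N : S40NA_Node L F k) (C : Subfield F) (π : F)
    (hCL : ∀ a ∈ C, ∃ b : L, algebraMap L F b = a)
    (hA₁ : ∀ a : L, algebraMap L F a ∈ N.O₁ → a ∈ N.A)
    (hA₂ : ∀ a : L, algebraMap L F a ∈ N.O₂ → a ∈ N.A)
    (hπC : π ∈ C) (hπ0 : π ≠ 0) (hπ1 : π ∈ N.O₁.nonunits)
    (hdisc : ∀ a ∈ C, a ∈ N.O₁.nonunits → a / π ∈ N.O₁) :
    S40F2J_Node N.O₁.valuation N.O₂.valuation C (S40F2K_R N) π where
  hπC := hπC
  hπ0 := hπ0
  hπ1 := (ValuationSubring.mem_nonunits_iff _).mp hπ1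
  hC := by
    intro a ha
    obtain ⟨b, rfl⟩ := hCL a ha
    rw [ValuationSubring.valuation_le_one_iff, ValuationSubring.valuation_le_one_iff]
    exact ⟨fun h => N.const₂ b (hA₁ b h), fun h => N.const₁ b (hA₂ b h)⟩
  hdisc := by
    intro a ha h
    have h1 := hdisc a ha ((ValuationSubring.mem_nonunits_iff _).mpr h)
    have h2 := (ValuationSubring.valuation_le_one_iff _ _).mpr h1
    have hVπ : 0 < N.O₁.valuation π := zero_lt_iff.mpr ((Valuation.ne_zero_iff _).mpr hπ0)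
    rw [map_div₀, div_le_iff₀ hVπ, one_mul] at h2
    exact h2
  hCR := by
    intro a ha
    obtain ⟨b, rfl⟩ := hCL a ha
    exact S40F2K_reg_const N b
  hglue := by
    intro g hg a₁ ha₁ a₂ ha₂ h₁ h₂ hg₁ hg₂
    obtain ⟨b₁, rfl⟩ := hCL a₁ ha₁
    obtain ⟨b₂, rfl⟩ := hCL a₂ ha₂
    have hb₁ : b₁ ∈ N.A := hA₁ b₁ ((ValuationSubring.valuation_le_one_iff _ _).mp h₁)
    have hb₂ : b₂ ∈ N.A := hA₂ b₂ ((ValuationSubring.valuation_le_one_iff _ _).mp h₂)
    have key := S40NA_const_glue N g hg.1 hg.2 b₁ b₂ hb₁ hb₂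
      ((ValuationSubring.mem_nonunits_iff _).mpr hg₁)
      ((ValuationSubring.mem_nonunits_iff _).mpr hg₂)
    -- `b₁ − b₂` is a nonunit of `A`
    have hsub : b₁ - b₂ ∈ N.A := N.A.sub_mem hb₁ hb₂
    have hres : N.res ⟨b₁ - b₂, hsub⟩ = 0 := by
      have e : (⟨b₁ - b₂, hsub⟩ : ↥N.A) = ⟨b₁, hb₁⟩ - ⟨b₂, hb₂⟩ := rfl
      rw [e, map_sub, key, sub_self]
    have hnu : b₁ - b₂ ∈ N.A.nonunits := by
      rw [ValuationSubring.mem_nonunits_iff]
      rcases ValuationSubring.valuation_lt_one_or_eq_one N.A ⟨b₁ - b₂, hsub⟩ with h | h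
      · exact h
      · exfalso
        have hu : IsUnit (⟨b₁ - b₂, hsub⟩ : ↥N.A) :=
          (ValuationSubring.valuation_eq_one_iff N.A _).mpr h
        have := hu.map N.res
        rw [hres] at this
        exact not_isUnit_zero this
    have := S40F2K_nonunit N.O₁ N.A hA₁ hnu
    rw [map_sub] at this
    exact (ValuationSubring.mem_nonunits_iff _).mp this

/-- the ideal form of Step 1–2 (`h − d ∈ π^{i+1} O`, `d` a unit of `O`) in the form of
`S40F2J_Cg`. -/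
theorem S40F2K_cg_of_mem (O : ValuationSubring F) {π h d t : F} (i : ℕ) (ht : t ∈ O)
    (hd : d ∈ O) (hd' : d⁻¹ ∈ O) (hd0 : d ≠ 0) (e : h - d = π ^ (i + 1) * t) :
    S40F2J_Cg O.valuation π i (h / d) 0 := by
  have hV0 : O.valuation d ≠ 0 := (Valuation.ne_zero_iff _).mpr hd0
  have h1 : O.valuation d ≤ 1 := (ValuationSubring.valuation_le_one_iff _ _).mpr hd
  have h2 : O.valuation d⁻¹ ≤ 1 := (ValuationSubring.valuation_le_one_iff _ _).mpr hd'
  rw [map_inv₀, inv_le_one₀ (zero_lt_iff.mpr hV0)] at h2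
  refine S40F2J_cg_of_const (le_antisymm h1 h2) ?_
  rw [e, map_mul, map_pow]
  exact mul_le_of_le_one_right' ((ValuationSubring.valuation_le_one_iff _ _).mpr ht)

/-- **JUMP at a node of `NodeAbs.lean`** (`S40F2J_main`). -/
theorem S40F2K_main (N : S40NA_Node L F k) (C : Subfield F) (π : F)
    (hCL : ∀ a ∈ C, ∃ b : L, algebraMap L F b = a)
    (hA₁ : ∀ a : L, algebraMap L F a ∈ N.O₁ → a ∈ N.A)
    (hA₂ : ∀ a : L, algebraMap L F a ∈ N.O₂ → a ∈ N.A)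
    (hπC : π ∈ C) (hπ0 : π ≠ 0) (hπ1 : π ∈ N.O₁.nonunits)
    (hdisc : ∀ a ∈ C, a ∈ N.O₁.nonunits → a / π ∈ N.O₁)
    {i : ℕ} (hi : 1 ≤ i) {h E c₁ c₂ γ₁ γ₂ A : F} (hR : S40F2K_Reg N (h / E))
    (hc₁ : c₁ ∈ C) (hc₂ : c₂ ∈ C) (hc₁0 : c₁ ≠ 0) (hc₂0 : c₂ ≠ 0)
    (hγ₁ : γ₁ ∈ C) (hγ₂ : γ₂ ∈ C) (hA : A ∈ C) (hγ₁1 : γ₁ ∈ N.O₁) (hγ₂1 : γ₂ ∈ N.O₂)
    (hA1 : A ∈ N.O₂)
    (H1 : S40F2J_Cg N.O₁.valuation π i (h / c₁) γ₁)
    (H2 : S40F2J_Cg N.O₂.valuation π i (h / c₂) γ₂)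
    (E1 : S40F2J_Cg N.O₁.valuation π i E 0) (E2 : S40F2J_Cg N.O₂.valuation π i E A) :
    ∃ δ ∈ C, δ ∈ N.O₁ ∧ c₂ = c₁ * (1 + δ * π ^ i) ∧ γ₁ - γ₂ + A - δ ∈ N.O₁.nonunits := by
  obtain ⟨δ, hδC, hδ1, hc, hδ⟩ := S40F2J_main
    (S40F2K_node N C π hCL hA₁ hA₂ hπC hπ0 hπ1 hdisc) hi hR hc₁ hc₂ hc₁0 hc₂0 hγ₁ hγ₂ hA
    ((ValuationSubring.valuation_le_one_iff _ _).mpr hγ₁1)
    ((ValuationSubring.valuation_le_one_iff _ _).mpr hγ₂1)
    ((ValuationSubring.valuation_le_one_iff _ _).mpr hA1) H1 H2 E1 E2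
  exact ⟨δ, hδC, (ValuationSubring.valuation_le_one_iff _ _).mp hδ1, hc,
    (ValuationSubring.mem_nonunits_iff _).mpr hδ⟩

end

end Fermat.Agent.S40
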