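import Fermat.Agent.S40.NodeAbs

/-!
# S40 (TRACK 13), GEO-6 package P1-abs: the node coordinate (helper14).  Prefix `S40F2N_`.

Built on the abstract node of `S40/NodeAbs.lean` (`S40NA_Node`, `S40NA_Centred`, GLUE).

Data (`S40F2N_Coord`): `X, Y, H ∈ Λ`, a constant `ϖ ≠ 0` in the maximal ideal of `A`, with
`X · Y = ϖ · H`, `H(s) ≠ 0`, `X(s) = Y(s) = 0`, `X` a unit for the first Gauss valuation and `Y` a
unit for the second one.

* (i)   `S40F2N_V₂X`, `S40F2N_V₁Y` : `X / ϖ` is a unit of `O₂`, `Y / ϖ` is a unit of `O₁`.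
* (ii)  `S40F2N_no_zero` : `X` and `Y` have no zero at a place specialising to the node (and no
        pole on the chart at all, being in `Λ`).
* range `S40F2N_range` : at a place `Q` specialising to the node, `w = X(Q)` satisfies
        `0 < v(w) < v(ϖ)` (`w ≠ 0`, `w ∈ 𝔪_A`, `ϖ / w ∈ 𝔪_A`).
* (iii-a) `S40F2N_exists_zero` : for a constant `w ≠ 0` with `v(w) > 0` at `O₁` and `v(ϖ/w) > 0`
        at `O₂`, the function `X − w` has a zero at a place specialising to the node (GLUE applied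
        to `X / (X − w)`).
* (iii-b) `S40F2N_ev_unique` : under the chart hypothesis `S40F2N_Chart` (the ideal of the node is
        generated by `X`, `Y` and a constant `π`, over a set `R ∋ H` of regular functions) and the
        rank one property of `A`, two places specialising to the node at which `X` takes the same
        value have the same evaluation on `R` (contraction argument, `S40F2N_contract`).
-/

set_option autoImplicit false

namespace Fermat.Agent.S40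

section

variable {L F k : Type*} [Field L] [Field F] [Algebra L F] [Field k]

/-! ### valuation rings -/

theorem S40F2N_inv_mem_of_not_nonunit (O : ValuationSubring F) {x : F} (hx : x ∉ O.nonunits) :
    x⁻¹ ∈ O := by
  by_contra h
  exact hx ((ValuationSubring.mem_nonunits_iff_or O).2 (Or.inr h))

theorem S40F2N_inv_not_mem (O : ValuationSubring F) {x : F} (hx : x ∈ O.nonunits) (h0 : x ≠ 0) :
    x⁻¹ ∉ O := by
  rcases (ValuationSubring.mem_nonunits_iff_or O).1 hx with h | h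
  · exact absurd h h0
  · exact h

theorem S40F2N_nonunit_of_inv_not_mem (O : ValuationSubring F) {x : F} (h : x⁻¹ ∉ O) :
    x ∈ O.nonunits :=
  (ValuationSubring.mem_nonunits_iff_or O).2 (Or.inr h)

theorem S40F2N_one_not_nonunit (O : ValuationSubring F) : (1 : F) ∉ O.nonunits := fun h =>
  S40F2N_inv_not_mem O h one_ne_zero (by rw [inv_one]; exact O.one_mem)

/-- `1 + (nonunit)` is a unit. -/
theorem S40F2N_one_add_inv_mem (O : ValuationSubring F) {x : F} (hx : x ∈ O.nonunits) :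
    (1 + x)⁻¹ ∈ O := by
  apply S40F2N_inv_mem_of_not_nonunit
  intro h
  apply S40F2N_one_not_nonunit O
  have h1 := O.nonunits.sub_mem h hx
  rwa [add_sub_cancel_right] at h1

/-! ### the value of a function at a place -/

/-- value of a function at a place (junk value `0` at a pole). -/
noncomputable def S40F2N_at (Q : S40NA_Pt L F) (f : F) : L := by
  classical exact if h : f ∈ Q.P then Q.ev ⟨f, h⟩ else 0

theorem S40F2N_at_mem (Q : S40NA_Pt L F) {f : F} (h : f ∈ Q.P) :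
    S40F2N_at Q f = Q.ev ⟨f, h⟩ := by
  unfold S40F2N_at
  rw [dif_pos h]

theorem S40F2N_at_mul (Q : S40NA_Pt L F) {f g : F} (hf : f ∈ Q.P) (hg : g ∈ Q.P) :
    S40F2N_at Q (f * g) = S40F2N_at Q f * S40F2N_at Q g := by
  rw [S40F2N_at_mem Q hf, S40F2N_at_mem Q hg, S40F2N_at_mem Q (mul_mem hf hg), ← map_mul]
  rfl

theorem S40F2N_at_add (Q : S40NA_Pt L F) {f g : F} (hf : f ∈ Q.P) (hg : g ∈ Q.P) :
    S40F2N_at Q (f + g) = S40F2N_at Q f + S40F2N_at Q g := by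
  rw [S40F2N_at_mem Q hf, S40F2N_at_mem Q hg, S40F2N_at_mem Q (add_mem hf hg), ← map_add]
  rfl

theorem S40F2N_at_sub (Q : S40NA_Pt L F) {f g : F} (hf : f ∈ Q.P) (hg : g ∈ Q.P) :
    S40F2N_at Q (f - g) = S40F2N_at Q f - S40F2N_at Q g := by
  rw [S40F2N_at_mem Q hf, S40F2N_at_mem Q hg, S40F2N_at_mem Q (sub_mem hf hg), ← map_sub]
  rfl

theorem S40F2N_at_alg (Q : S40NA_Pt L F) (c : L) : S40F2N_at Q (algebraMap L F c) = c := by
  rw [S40F2N_at_mem Q (Q.alg_mem c), Q.ev_alg]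

theorem S40F2N_at_one (Q : S40NA_Pt L F) : S40F2N_at Q (1 : F) = 1 := by
  rw [S40F2N_at_mem Q Q.P.one_mem]
  exact map_one Q.ev

theorem S40F2N_at_zero (Q : S40NA_Pt L F) : S40F2N_at Q (0 : F) = 0 := by
  rw [S40F2N_at_mem Q Q.P.zero_mem]
  exact map_zero Q.ev

/-- the evaluation kills the nonunits (converse of `S40NA_Pt.ev_eq_zero`). -/
theorem S40F2N_at_nonunit (Q : S40NA_Pt L F) {f : F} (hf : f ∈ Q.P.nonunits) :
    S40F2N_at Q f = 0 := by
  by_contra h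
  have hfP : f ∈ Q.P := ValuationSubring.nonunits_subset hf
  set c : L := S40F2N_at Q f with hc
  have hd : f - algebraMap L F c ∈ Q.P := sub_mem hfP (Q.alg_mem c)
  have h0 : Q.ev ⟨f - algebraMap L F c, hd⟩ = 0 := by
    rw [← S40F2N_at_mem Q hd, S40F2N_at_sub Q hfP (Q.alg_mem c), S40F2N_at_alg, ← hc, sub_self]
  have hdn : f - algebraMap L F c ∈ Q.P.nonunits := Q.ev_eq_zero _ h0
  have hcn : algebraMap L F c ∈ Q.P.nonunits := by
    have h1 := Q.P.nonunits.sub_mem hf hdn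
    rwa [sub_sub_cancel] at h1
  have hc0 : algebraMap L F c ≠ 0 := fun h0 => h ((map_eq_zero (algebraMap L F)).1 h0)
  refine S40F2N_inv_not_mem Q.P hcn hc0 ?_
  rw [← map_inv₀]
  exact Q.alg_mem c⁻¹

theorem S40F2N_at_eq_zero_iff (Q : S40NA_Pt L F) {f : F} (hf : f ∈ Q.P) :
    S40F2N_at Q f = 0 ↔ f ∈ Q.P.nonunits := by
  constructor
  · intro h
    rw [S40F2N_at_mem Q hf] at h
    exact Q.ev_eq_zero _ h
  · exact S40F2N_at_nonunit Q

/-! ### places specialising to the node -/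

theorem S40F2N_res_ne_zero (N : S40NA_Node L F k) (a : ↥N.A) (ha : (a : L) ∉ N.A.nonunits) :
    N.res a ≠ 0 := by
  have hi : (a : L)⁻¹ ∈ N.A := S40F2N_inv_mem_of_not_nonunit N.A ha
  have ha0 : (a : L) ≠ 0 := fun h => ha (h ▸ N.A.nonunits.zero_mem)
  have e : a * ⟨(a : L)⁻¹, hi⟩ = 1 := Subtype.ext (mul_inv_cancel₀ ha0)
  intro h
  have h1 : N.res (a * ⟨(a : L)⁻¹, hi⟩) = 1 := by rw [e, map_one]
  rw [map_mul, h, zero_mul] at h1
  exact zero_ne_one h1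

theorem S40F2N_nonunit_of_res (N : S40NA_Node L F k) (a : ↥N.A) (h : N.res a = 0) :
    (a : L) ∈ N.A.nonunits := by
  by_contra hn
  exact S40F2N_res_ne_zero N a hn h

theorem S40F2N_centred_at (N : S40NA_Node L F k) (Q : S40NA_Pt L F) (hQ : Q ∈ N.U)
    (hc : S40NA_Centred N Q hQ) {f : F} (hf : f ∈ N.Lam) :
    ∃ h : S40F2N_at Q f ∈ N.A, N.res ⟨S40F2N_at Q f, h⟩ = N.ε ⟨f, hf⟩ := by
  rw [S40F2N_at_mem Q (N.mem_pt hf hQ)]
  exact hc f hf

/-- the evaluation at a place specialising to the node, as a ring homomorphism `Λ → A`. -/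
noncomputable def S40F2N_evA (N : S40NA_Node L F k) (Q : S40NA_Pt L F) (hQ : Q ∈ N.U)
    (hc : S40NA_Centred N Q hQ) : ↥N.Lam →+* ↥N.A where
  toFun f := ⟨S40F2N_at Q (f : F), (S40F2N_centred_at N Q hQ hc f.2).fst⟩
  map_one' := Subtype.ext (S40F2N_at_one Q)
  map_mul' f g := Subtype.ext (S40F2N_at_mul Q (N.mem_pt f.2 hQ) (N.mem_pt g.2 hQ))
  map_zero' := Subtype.ext (S40F2N_at_zero Q)
  map_add' f g := Subtype.ext (S40F2N_at_add Q (N.mem_pt f.2 hQ) (N.mem_pt g.2 hQ))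

theorem S40F2N_evA_coe (N : S40NA_Node L F k) (Q : S40NA_Pt L F) (hQ : Q ∈ N.U)
    (hc : S40NA_Centred N Q hQ) (f : ↥N.Lam) :
    ((S40F2N_evA N Q hQ hc f : ↥N.A) : L) = S40F2N_at Q (f : F) := rfl

theorem S40F2N_res_evA (N : S40NA_Node L F k) (Q : S40NA_Pt L F) (hQ : Q ∈ N.U)
    (hc : S40NA_Centred N Q hQ) (f : ↥N.Lam) :
    N.res (S40F2N_evA N Q hQ hc f) = N.ε f :=
  (S40F2N_centred_at N Q hQ hc f.2).snd

theorem S40F2N_evA_const (N : S40NA_Node L F k) (Q : S40NA_Pt L F) (hQ : Q ∈ N.U)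
    (hc : S40NA_Centred N Q hQ) (c : L) (h : algebraMap L F c ∈ N.Lam) :
    ((S40F2N_evA N Q hQ hc ⟨algebraMap L F c, h⟩ : ↥N.A) : L) = c :=
  S40F2N_at_alg Q c

/-! ### the node coordinate -/

/-- the data of P1: `X · Y = ϖ · H` at the node. -/
structure S40F2N_Coord (N : S40NA_Node L F k) where
  /-- coordinate on the first branch -/
  X : F
  /-- coordinate on the second branch -/
  Y : F
  /-- the unit -/
  H : F
  /-- the thickness constant -/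
  ϖ : L
  hX : X ∈ N.Lam
  hY : Y ∈ N.Lam
  hH : H ∈ N.Lam
  hϖ : ϖ ∈ N.A.nonunits
  hϖ0 : ϖ ≠ 0
  rel : X * Y = algebraMap L F ϖ * H
  εH : N.ε ⟨H, hH⟩ ≠ 0
  εX : N.ε ⟨X, hX⟩ = 0
  εY : N.ε ⟨Y, hY⟩ = 0
  X_unit : X⁻¹ ∈ N.O₁
  Y_unit : Y⁻¹ ∈ N.O₂

namespace S40F2N_Coord

variable {N : S40NA_Node L F k} (C : S40F2N_Coord N)

theorem H_ne_zero : C.H ≠ 0 := by
  intro h
  apply C.εH
  have e : (⟨C.H, C.hH⟩ : ↥N.Lam) = 0 := Subtype.ext h
  rw [e, map_zero]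

theorem ϖ_ne_zero : algebraMap L F C.ϖ ≠ 0 := fun h =>
  C.hϖ0 ((map_eq_zero (algebraMap L F)).1 h)

theorem X_ne_zero : C.X ≠ 0 := by
  intro h
  have := C.rel
  rw [h, zero_mul] at this
  exact mul_ne_zero C.ϖ_ne_zero C.H_ne_zero this.symm

theorem Y_ne_zero : C.Y ≠ 0 := by
  intro h
  have := C.rel
  rw [h, mul_zero] at this
  exact mul_ne_zero C.ϖ_ne_zero C.H_ne_zero this.symm

theorem H_unit₁ : C.H⁻¹ ∈ N.O₁ :=
  S40F2N_inv_mem_of_not_nonunit N.O₁ (fun h => C.εH (N.ε_zero₁ ⟨C.H, C.hH⟩ h))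

theorem H_unit₂ : C.H⁻¹ ∈ N.O₂ :=
  S40F2N_inv_mem_of_not_nonunit N.O₂ (fun h => C.εH (N.ε_zero₂ ⟨C.H, C.hH⟩ h))

end S40F2N_Coord

/-- **(i)** `V₂(X) = v(ϖ)`: `X / ϖ` is a unit for the second Gauss valuation. -/
theorem S40F2N_V₂X {N : S40NA_Node L F k} (C : S40F2N_Coord N) :
    C.X * (algebraMap L F C.ϖ)⁻¹ ∈ N.O₂ ∧ (C.X * (algebraMap L F C.ϖ)⁻¹)⁻¹ ∈ N.O₂ := by
  have hY0 := C.Y_ne_zero
  have hX0 := C.X_ne_zero
  have hH0 := C.H_ne_zero
  have hϖ0 := C.ϖ_ne_zero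
  have hrel := C.rel
  have e1 : C.X * (algebraMap L F C.ϖ)⁻¹ = C.H * C.Y⁻¹ := by
    field_simp
    exact hrel
  have e2 : (C.X * (algebraMap L F C.ϖ)⁻¹)⁻¹ = C.Y * C.H⁻¹ := by
    rw [e1, mul_inv, inv_inv, mul_comm]
  rw [e2, e1]
  exact ⟨mul_mem (N.mem_O₂ C.hH) C.Y_unit, mul_mem (N.mem_O₂ C.hY) C.H_unit₂⟩

/-- **(i')** `V₁(Y) = v(ϖ)`: `Y / ϖ` is a unit for the first Gauss valuation. -/
theorem S40F2N_V₁Y {N : S40NA_Node L F k} (C : S40F2N_Coord N) :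
    C.Y * (algebraMap L F C.ϖ)⁻¹ ∈ N.O₁ ∧ (C.Y * (algebraMap L F C.ϖ)⁻¹)⁻¹ ∈ N.O₁ := by
  have hY0 := C.Y_ne_zero
  have hX0 := C.X_ne_zero
  have hH0 := C.H_ne_zero
  have hϖ0 := C.ϖ_ne_zero
  have hrel := C.rel
  have e1 : C.Y * (algebraMap L F C.ϖ)⁻¹ = C.H * C.X⁻¹ := by
    field_simp
    linear_combination hrel
  have e2 : (C.Y * (algebraMap L F C.ϖ)⁻¹)⁻¹ = C.X * C.H⁻¹ := by
    rw [e1, mul_inv, inv_inv, mul_comm]
  rw [e2, e1]
  exact ⟨mul_mem (N.mem_O₁ C.hH) C.X_unit, mul_mem (N.mem_O₁ C.hX) C.H_unit₁⟩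

/-- the relation `X(Q) · Y(Q) = ϖ · H(Q)` at a place of the chart. -/
theorem S40F2N_rel_at {N : S40NA_Node L F k} (C : S40F2N_Coord N) (Q : S40NA_Pt L F)
    (hQ : Q ∈ N.U) :
    S40F2N_at Q C.X * S40F2N_at Q C.Y = C.ϖ * S40F2N_at Q C.H := by
  rw [← S40F2N_at_mul Q (N.mem_pt C.hX hQ) (N.mem_pt C.hY hQ), C.rel,
    S40F2N_at_mul Q (Q.alg_mem _) (N.mem_pt C.hH hQ), S40F2N_at_alg]

/-- `H(Q)` is a unit of `A` at a place specialising to the node. -/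
theorem S40F2N_H_at {N : S40NA_Node L F k} (C : S40F2N_Coord N) (Q : S40NA_Pt L F)
    (hQ : Q ∈ N.U) (hc : S40NA_Centred N Q hQ) :
    S40F2N_at Q C.H ∈ N.A ∧ S40F2N_at Q C.H ∉ N.A.nonunits ∧ S40F2N_at Q C.H ≠ 0 ∧
      (S40F2N_at Q C.H)⁻¹ ∈ N.A := by
  obtain ⟨h, e⟩ := S40F2N_centred_at N Q hQ hc C.hH
  have hn : S40F2N_at Q C.H ∉ N.A.nonunits := fun hn =>
    C.εH (e ▸ N.res_nonunit ⟨_, h⟩ hn)
  exact ⟨h, hn, fun h0 => hn (h0 ▸ N.A.nonunits.zero_mem), S40F2N_inv_mem_of_not_nonunit N.A hn⟩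

/-- **(ii)** `X` and `Y` have no zero at a place specialising to the node. -/
theorem S40F2N_no_zero {N : S40NA_Node L F k} (C : S40F2N_Coord N) (Q : S40NA_Pt L F)
    (hQ : Q ∈ N.U) (hc : S40NA_Centred N Q hQ) :
    C.X ∉ Q.P.nonunits ∧ C.Y ∉ Q.P.nonunits := by
  have hrel := S40F2N_rel_at C Q hQ
  obtain ⟨-, -, hH0, -⟩ := S40F2N_H_at C Q hQ hc
  have hne : C.ϖ * S40F2N_at Q C.H ≠ 0 := mul_ne_zero C.hϖ0 hH0
  constructor
  · intro h
    rw [S40F2N_at_nonunit Q h, zero_mul] at hrel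
    exact hne hrel.symm
  · intro h
    rw [S40F2N_at_nonunit Q h, mul_zero] at hrel
    exact hne hrel.symm

/-- **range of the coordinate**: at a place `Q` specialising to the node, `w = X(Q)` satisfies
`0 < v(w) < v(ϖ)`. -/
theorem S40F2N_range {N : S40NA_Node L F k} (C : S40F2N_Coord N) (Q : S40NA_Pt L F)
    (hQ : Q ∈ N.U) (hc : S40NA_Centred N Q hQ) :
    S40F2N_at Q C.X ≠ 0 ∧ S40F2N_at Q C.X ∈ N.A.nonunits ∧
      C.ϖ * (S40F2N_at Q C.X)⁻¹ ∈ N.A.nonunits := by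
  have hrel := S40F2N_rel_at C Q hQ
  obtain ⟨-, -, hH0, hHi⟩ := S40F2N_H_at C Q hQ hc
  have hX0 : S40F2N_at Q C.X ≠ 0 := fun h =>
    (S40F2N_no_zero C Q hQ hc).1 ((S40F2N_at_eq_zero_iff Q (N.mem_pt C.hX hQ)).1 h)
  have hXn : S40F2N_at Q C.X ∈ N.A.nonunits := by
    have := S40F2N_res_evA N Q hQ hc ⟨C.X, C.hX⟩
    rw [C.εX] at this
    exact S40F2N_nonunit_of_res N _ this
  have hYn : S40F2N_at Q C.Y ∈ N.A.nonunits := by
    have := S40F2N_res_evA N Q hQ hc ⟨C.Y, C.hY⟩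
    rw [C.εY] at this
    exact S40F2N_nonunit_of_res N _ this
  refine ⟨hX0, hXn, ?_⟩
  have e : C.ϖ * (S40F2N_at Q C.X)⁻¹ = S40F2N_at Q C.Y * (S40F2N_at Q C.H)⁻¹ := by
    field_simp
    exact hrel.symm
  rw [e]
  exact S40NA_nonunits_mul N.A hYn hHi

/-- **(iii-a) existence**: for a constant `w ≠ 0` with `v(w) > 0` (at `O₁`) and `v(ϖ / w) > 0`
(at `O₂`), the function `X − w` (finitely many zeros on the chart) has a zero at a place which
specialises to the node. -/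
theorem S40F2N_exists_zero {N : S40NA_Node L F k} (C : S40F2N_Coord N) (w : L) (hw0 : w ≠ 0)
    (hw₁ : algebraMap L F w ∈ N.O₁.nonunits)
    (hw₂ : algebraMap L F (C.ϖ * w⁻¹) ∈ N.O₂.nonunits)
    (hfin : {Q : S40NA_Pt L F | Q ∈ N.U ∧ C.X - algebraMap L F w ∈ Q.P.nonunits}.Finite) :
    ∃ (Q : S40NA_Pt L F) (hQ : Q ∈ N.U), S40NA_Centred N Q hQ ∧
      C.X - algebraMap L F w ∈ Q.P.nonunits := by
  by_contra hno
  push Not at hno
  set W : F := algebraMap L F w with hW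
  have hW0 : W ≠ 0 := fun h => hw0 ((map_eq_zero (algebraMap L F)).1 h)
  have hX0 := C.X_ne_zero
  have hϖ0 := C.ϖ_ne_zero
  have hq : W * C.X⁻¹ ∈ N.O₁.nonunits := S40NA_nonunits_mul N.O₁ hw₁ C.X_unit
  have hXW : C.X - W ≠ 0 := by
    intro h
    have hXeq : C.X = W := sub_eq_zero.1 h
    rw [← hXeq, mul_inv_cancel₀ hX0] at hq
    exact S40F2N_one_not_nonunit N.O₁ hq
  set g : F := C.X * (C.X - W)⁻¹ with hg
  have hginv : g⁻¹ = 1 + -(W * C.X⁻¹) := by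
    rw [hg]; field_simp; ring
  have hg₁ : g ∈ N.O₁ := by
    have := S40F2N_one_add_inv_mem N.O₁ (N.O₁.nonunits.neg_mem hq)
    rw [← hginv, inv_inv] at this
    exact this
  have hu : S40NA_UnitAt N g := by
    refine ⟨1, 1, N.Lam.one_mem, N.Lam.one_mem, ?_, ?_, ?_⟩
    · have e : g * 1 - 1 = W * C.X⁻¹ * g := by
        rw [hg]; field_simp; ring
      rw [e]
      exact S40NA_nonunits_mul N.O₁ hq hg₁
    · have e : (⟨1, N.Lam.one_mem⟩ : ↥N.Lam) = 1 := rfl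
      rw [e, map_one]; exact one_ne_zero
    · have e : (⟨1, N.Lam.one_mem⟩ : ↥N.Lam) = 1 := rfl
      rw [e, map_one]; exact one_ne_zero
  have hg₂ : g ∈ N.O₂.nonunits := by
    apply S40F2N_nonunit_of_inv_not_mem
    intro hgi
    -- `W / X ∈ O₂`
    have h1 : W * C.X⁻¹ ∈ N.O₂ := by
      have := sub_mem N.O₂.one_mem hgi
      rw [hginv] at this
      have e : (1 : F) - (1 + -(W * C.X⁻¹)) = W * C.X⁻¹ := by ring
      rwa [e] at this
    have h2 : W * (algebraMap L F C.ϖ)⁻¹ ∈ N.O₂ := by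
      have := mul_mem h1 (S40F2N_V₂X C).1
      have e : W * C.X⁻¹ * (C.X * (algebraMap L F C.ϖ)⁻¹) = W * (algebraMap L F C.ϖ)⁻¹ := by
        field_simp
      rwa [e] at this
    have h3 : algebraMap L F (C.ϖ * w⁻¹) ≠ 0 := fun h =>
      mul_ne_zero C.hϖ0 (inv_ne_zero hw0) ((map_eq_zero (algebraMap L F)).1 h)
    apply S40F2N_inv_not_mem N.O₂ hw₂ h3
    have e : (algebraMap L F (C.ϖ * w⁻¹))⁻¹ = W * (algebraMap L F C.ϖ)⁻¹ := by
      rw [map_mul, map_inv₀, mul_inv, inv_inv, mul_comm]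
    rw [e]
    exact h2
  have hpole : ∀ Q : S40NA_Pt L F, Q ∈ N.U → g ∉ Q.P → C.X - W ∈ Q.P.nonunits := by
    intro Q hQ hgQ
    have hgn : g⁻¹ ∈ Q.P.nonunits := (ValuationSubring.inv_mem_nonunits_iff _).2 (Or.inr hgQ)
    have := S40NA_nonunits_mul Q.P hgn (N.mem_pt C.hX hQ)
    have e : g⁻¹ * C.X = C.X - W := by
      rw [hg]; field_simp
    rwa [e] at this
  have hfin' : {Q : S40NA_Pt L F | Q ∈ N.U ∧ g ∉ Q.P}.Finite :=
    hfin.subset (fun Q hQ => ⟨hQ.1, hpole Q hQ.1 hQ.2⟩)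
  exact S40NA_zero_glue N g hg₁ hg₂ hfin'
    (fun Q hQ hgQ hcen => hno Q hQ hcen (hpole Q hQ hgQ)) hu

/-! ### uniqueness: the contraction argument -/

/-- **contraction**: two ring homomorphisms `φ, φ' : Λ → B` which agree on constants, on `x` and
on `p`, on a set `P` of functions with `f = c + x g₁ + y g₂ + p g₃`, agree on `P` modulo every
power of an ideal `I` containing `φ x`, `φ y`, `φ p`, provided `δ(y) ∈ I · J` whenever
`δ(h) ∈ J` (`h ∈ P`). -/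
theorem S40F2N_contract {Λ B : Type*} [CommRing Λ] [CommRing B] (φ φ' : Λ →+* B) (I : Ideal B)
    (P : Λ → Prop) (x y h p : Λ) (hP : P h)
    (hdec : ∀ f : Λ, P f → ∃ c g₁ g₂ g₃ : Λ, P g₁ ∧ P g₂ ∧ P g₃ ∧ φ c = φ' c ∧
      f = c + x * g₁ + y * g₂ + p * g₃)
    (hx : φ x = φ' x) (hp : φ p = φ' p)
    (hxI : φ x ∈ I) (hpI : φ p ∈ I) (hyI : φ y ∈ I)
    (hy : ∀ J : Ideal B, φ h - φ' h ∈ J → φ y - φ' y ∈ I * J)
    (n : ℕ) : ∀ f : Λ, P f → φ f - φ' f ∈ I ^ n := by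
  induction n with
  | zero =>
    intro f _
    rw [pow_zero, Ideal.one_eq_top]
    exact Submodule.mem_top
  | succ n ih =>
    intro f hf
    obtain ⟨c, g₁, g₂, g₃, h₁, h₂, h₃, hc, rfl⟩ := hdec f hf
    have e : φ (c + x * g₁ + y * g₂ + p * g₃) - φ' (c + x * g₁ + y * g₂ + p * g₃)
        = φ x * (φ g₁ - φ' g₁) + (φ y * (φ g₂ - φ' g₂) + (φ y - φ' y) * φ' g₂)
          + φ p * (φ g₃ - φ' g₃) := by
      simp only [map_add, map_mul]
      rw [hc, ← hx, ← hp]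
      ring
    rw [e, pow_succ']
    refine Ideal.add_mem _ (Ideal.add_mem _ ?_ (Ideal.add_mem _ ?_ ?_)) ?_
    · exact Ideal.mul_mem_mul hxI (ih g₁ h₁)
    · exact Ideal.mul_mem_mul hyI (ih g₂ h₂)
    · exact Ideal.mul_mem_right _ _ (hy _ (ih h hP))
    · exact Ideal.mul_mem_mul hpI (ih g₃ h₃)

/-- among three elements of a valuation ring one divides the two others. -/
theorem S40F2N_exists_gcd {B : Type*} [CommRing B] [IsDomain B] [ValuationRing B] (x y z : B) :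
    ∃ a : B, (a = x ∨ a = y ∨ a = z) ∧ a ∣ x ∧ a ∣ y ∧ a ∣ z := by
  rcases ValuationRing.dvd_total x y with hxy | hyx
  · rcases ValuationRing.dvd_total x z with hxz | hzx
    · exact ⟨x, Or.inl rfl, dvd_rfl, hxy, hxz⟩
    · exact ⟨z, Or.inr (Or.inr rfl), hzx, hzx.trans hxy, dvd_rfl⟩
  · rcases ValuationRing.dvd_total y z with hyz | hzy
    · exact ⟨y, Or.inr (Or.inl rfl), hyx, dvd_rfl, hyz⟩
    · exact ⟨z, Or.inr (Or.inr rfl), hzy.trans hyx, hzy, dvd_rfl⟩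

/-- in a valuation ring of rank one, an element divisible by all powers of a nonunit is zero. -/
theorem S40F2N_eq_zero_of_pow_dvd (A : ValuationSubring L)
    (hA : ∀ g b : L, b ∈ A.nonunits → ∃ m : ℕ, g * b ^ m ∈ A)
    (a d : ↥A) (ha : (a : L) ∈ A.nonunits) (h : ∀ n : ℕ, a ^ n ∣ d) : d = 0 := by
  by_contra hd
  have hd0 : (d : L) ≠ 0 := fun h0 => hd (Subtype.ext h0)
  obtain ⟨m, hm⟩ := hA (d : L)⁻¹ (a : L) ha
  obtain ⟨c, hc⟩ := h (m + 1)
  have hcL : (d : L) = (a : L) ^ (m + 1) * (c : L) := by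
    have := congrArg (fun t : ↥A => (t : L)) hc
    simpa using this
  have ha0 : (a : L) ≠ 0 := by
    intro h0
    rw [h0, zero_pow (Nat.succ_ne_zero m), zero_mul] at hcL
    exact hd0 hcL
  have hc0 : (c : L) ≠ 0 := by
    intro h0
    rw [h0, mul_zero] at hcL
    exact hd0 hcL
  have hac : (a : L) * (c : L) ∈ A.nonunits := S40NA_nonunits_mul A ha c.2
  have e : (d : L)⁻¹ * (a : L) ^ m = ((a : L) * (c : L))⁻¹ := by
    rw [hcL, pow_succ]
    field_simp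
  rw [e] at hm
  exact S40F2N_inv_not_mem A hac (mul_ne_zero ha0 hc0) hm

/-- **chart hypothesis (N2)** at the node: a set `R ∋ H` of functions regular on the chart, on
which the ideal of the node is generated by `X`, `Y` and one constant `π` of positive
valuation. -/
structure S40F2N_Chart (N : S40NA_Node L F k) (C : S40F2N_Coord N) where
  /-- the functions of the chart -/
  R : Set F
  le : ∀ f ∈ R, f ∈ N.Lam
  /-- the uniformiser of the (discretely valued) field of definition -/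
  π : L
  hπ : π ∈ N.A.nonunits
  H_mem : C.H ∈ R
  decomp : ∀ f ∈ R, ∃ (c : L) (g₁ g₂ g₃ : F), c ∈ N.A ∧ g₁ ∈ R ∧ g₂ ∈ R ∧ g₃ ∈ R ∧
    f = algebraMap L F c + C.X * g₁ + C.Y * g₂ + algebraMap L F π * g₃

/-- **(iii-b) uniqueness**: under the chart hypothesis, and `A` of rank one, two places
specialising to the node at which the coordinate `X` takes the same value have the same
evaluation on the chart. -/
theorem S40F2N_ev_unique {N : S40NA_Node L F k} (C : S40F2N_Coord N) (Ch : S40F2N_Chart N C)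
    (hA : ∀ g b : L, b ∈ N.A.nonunits → ∃ m : ℕ, g * b ^ m ∈ N.A)
    (Q Q' : S40NA_Pt L F) (hQ : Q ∈ N.U) (hQ' : Q' ∈ N.U)
    (hc : S40NA_Centred N Q hQ) (hc' : S40NA_Centred N Q' hQ')
    (hX : S40F2N_at Q C.X = S40F2N_at Q' C.X) :
    ∀ f ∈ Ch.R, S40F2N_at Q f = S40F2N_at Q' f := by
  classical
  set φ := S40F2N_evA N Q hQ hc with hφ
  set φ' := S40F2N_evA N Q' hQ' hc' with hφ'
  have hπΛ : algebraMap L F Ch.π ∈ N.Lam := N.const_mem (ValuationSubring.nonunits_subset Ch.hπ)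
  set x : ↥N.Lam := ⟨C.X, C.hX⟩ with hx
  set y : ↥N.Lam := ⟨C.Y, C.hY⟩ with hy
  set h : ↥N.Lam := ⟨C.H, C.hH⟩ with hh
  set p : ↥N.Lam := ⟨algebraMap L F Ch.π, hπΛ⟩ with hp
  -- the three values at `Q` are nonunits of `A`
  obtain ⟨hw0, hwn, -⟩ := S40F2N_range C Q hQ hc
  have hyn : ((φ y : ↥N.A) : L) ∈ N.A.nonunits := by
    have := S40F2N_res_evA N Q hQ hc y
    rw [hy, C.εY] at this
    exact S40F2N_nonunit_of_res N _ this
  have hpv : ((φ p : ↥N.A) : L) = Ch.π := S40F2N_evA_const N Q hQ hc Ch.π hπΛ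
  have hpv' : ((φ' p : ↥N.A) : L) = Ch.π := S40F2N_evA_const N Q' hQ' hc' Ch.π hπΛ
  obtain ⟨a, ha, hax, hay, hap⟩ := S40F2N_exists_gcd (φ x) (φ y) (φ p)
  have han : (a : L) ∈ N.A.nonunits := by
    rcases ha with rfl | rfl | rfl
    · exact hwn
    · exact hyn
    · rw [hpv]; exact Ch.hπ
  set I : Ideal ↥N.A := Ideal.span {a} with hI
  have hxx : φ x = φ' x := Subtype.ext hX
  have hpp : φ p = φ' p := Subtype.ext (hpv.trans hpv'.symm)
  -- the unit `H(Q)`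
  obtain ⟨hHA, -, hH0, hHi⟩ := S40F2N_H_at C Q hQ hc
  -- `e = Y(Q) / H(Q)`
  set e : ↥N.A := φ y * ⟨(S40F2N_at Q C.H)⁻¹, hHi⟩ with he
  have heI : e ∈ I := Ideal.mul_mem_right _ _ (Ideal.mem_span_singleton.2 hay)
  have hrel := S40F2N_rel_at C Q hQ
  have hrel' := S40F2N_rel_at C Q' hQ'
  have hδ : φ y - φ' y = e * (φ h - φ' h) := by
    apply Subtype.ext
    show S40F2N_at Q C.Y - S40F2N_at Q' C.Y
      = S40F2N_at Q C.Y * (S40F2N_at Q C.H)⁻¹ * (S40F2N_at Q C.H - S40F2N_at Q' C.H)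
    rw [← hX] at hrel'
    have e1 : S40F2N_at Q C.Y = C.ϖ * S40F2N_at Q C.H * (S40F2N_at Q C.X)⁻¹ := by
      rw [← hrel]; field_simp
    have e2 : S40F2N_at Q' C.Y = C.ϖ * S40F2N_at Q' C.H * (S40F2N_at Q C.X)⁻¹ := by
      rw [← hrel']; field_simp
    rw [e1, e2]
    field_simp
  have key := fun n => S40F2N_contract φ φ' I (fun f => (f : F) ∈ Ch.R) x y h p Ch.H_mem
    (by
      intro f hf
      obtain ⟨c, g₁, g₂, g₃, hcA, h₁, h₂, h₃, hdec⟩ := Ch.decomp f hf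
      refine ⟨⟨algebraMap L F c, N.const_mem hcA⟩, ⟨g₁, Ch.le g₁ h₁⟩, ⟨g₂, Ch.le g₂ h₂⟩,
        ⟨g₃, Ch.le g₃ h₃⟩, h₁, h₂, h₃, ?_, Subtype.ext hdec⟩
      exact Subtype.ext ((S40F2N_evA_const N Q hQ hc c _).trans
        (S40F2N_evA_const N Q' hQ' hc' c _).symm))
    hxx hpp (Ideal.mem_span_singleton.2 hax) (Ideal.mem_span_singleton.2 hap)
    (Ideal.mem_span_singleton.2 hay)
    (fun J hJ => by rw [hδ]; exact Ideal.mul_mem_mul heI hJ) n
  intro f hf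
  have hz : φ ⟨f, Ch.le f hf⟩ - φ' ⟨f, Ch.le f hf⟩ = 0 := by
    apply S40F2N_eq_zero_of_pow_dvd N.A hA a _ han
    intro n
    have := key n ⟨f, Ch.le f hf⟩ hf
    rw [hI, Ideal.span_singleton_pow] at this
    exact Ideal.mem_span_singleton.1 this
  have := congrArg (fun t : ↥N.A => (t : L)) (sub_eq_zero.1 hz)
  exact this

end

end Fermat.Agent.S40
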