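import Fermat.Agent.S40.F2SlopeNA
import Fermat.Agent.S40.F2N
import Fermat.Agent.S40.F2JumpNode

/-!
# TRACK 13 (S40), (F2'), gap (A1), instance layer 1 (helper1).  Prefix `S40F2YI_`.

Setting: helper26's node `S40NA_Node L F k` with its places `S40NA_Pt L F`, a function `X`
(the node coordinate of `S40F2N_Coord`) such that at every place `Q` of the chart specialising to
the node

* `hunif` : `t_Q := X − X(Q)` divides every function vanishing at `Q`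
  (conclusion of `S40F2N2_uniformiser`),
* `hsep`  : `X(Q) = X(Q')` implies `Q = Q'` (conclusion of `S40F2N2_place_unique` +
  `S40F2YI_pt_ext`).

Results:

* `S40F2YI_pt_ext` : a place is determined by its valuation ring;
* `S40F2YI_exists_ord` : the order of a function at a place with a uniformiser;
* `S40F2YI_factor_gen`, `S40F2YI_factor`, `S40F2YI_factor_pow` : **factorisation at the node**:
  `u = u' · ∏_{Q ∈ s} (X − X(Q))^(m_Q)` with `u'` without zero and pole specialising to the node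
  (`S40F2SN_NoZP N u'`), `s` = the finite set of the places specialising to the node at which `u`
  is not a unit; if `u` is locally a `p`-th power up to a unit, the exponents are `p · m_Q`.
  This is the input `hu`, `hu'P` of `S40F2SN_slope_gen`.
* `S40F2YI_isU_of_pow`, `S40F2YI_noZP_of_pow` : `g ^ p` without zero/pole ⇒ `g` without zero/pole.
* `S40F2YI_noZP_quot` : `u = u' Ψ^p`, `h^p = r · σ u / u`, `r` and `u'` without zero/pole at the
  node, `σ` preserving `NoZP` ⇒ `h / (σ Ψ / Ψ)` has no zero/pole at the node;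
  `S40F2YI_reg` : hence `S40F2K_Reg N (h / E)`, the hypothesis `hR` of `S40F2K_main`.
-/

set_option autoImplicit false

namespace Fermat.Agent.S40

section

variable {L F k : Type*} [Field L] [Field F] [Algebra L F] [Field k]

/-- the evaluation at a place kills the nonunits. -/
theorem S40F2YI_ev_nonunit (Q : S40NA_Pt L F) (x : ↥Q.P) (hx : (x : F) ∈ Q.P.nonunits) :
    Q.ev x = 0 := by
  have h := S40F2N_at_nonunit Q hx
  rwa [S40F2N_at_mem Q x.2] at h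

/-- **a place is determined by its valuation ring.** -/
theorem S40F2YI_pt_ext (Q Q' : S40NA_Pt L F) (h : Q.P = Q'.P) : Q = Q' := by
  obtain ⟨P, ev, h1, h2, h3, h4⟩ := Q
  obtain ⟨P', ev', h1', h2', h3', h4'⟩ := Q'
  simp only at h
  subst h
  have hev : ev = ev' := by
    ext x
    -- `y = x − ev' x` is killed by `ev'`, hence a nonunit, hence killed by `ev`
    set c : L := ev' x with hc
    set y : ↥P := x - ⟨algebraMap L F c, h1' c⟩ with hy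
    have hy' : ev' y = 0 := by rw [hy, map_sub, h2', ← hc, sub_self]
    have hyn : (y : F) ∈ P.nonunits := h3' y hy'
    have hy0 : ev y = 0 :=
      S40F2YI_ev_nonunit ⟨P, ev, h1, h2, h3, h4⟩ y hyn
    have e : ev y = ev x - c := by
      rw [hy, map_sub]
      congr 1
      exact h2 c
    rw [e, sub_eq_zero] at hy0
    exact hy0
  subst hev
  rfl

/-- **order at a place**: if `t ≠ 0` vanishes at `Q` and divides every function vanishing at `Q`,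
every `u ≠ 0` is `t ^ m` times a unit at `Q`. -/
theorem S40F2YI_exists_ord (Q : S40NA_Pt L F) {t : F} (ht : t ∈ Q.P.nonunits) (ht0 : t ≠ 0)
    (hunif : ∀ f ∈ Q.P.nonunits, f * t⁻¹ ∈ Q.P) {u : F} (hu : u ≠ 0) :
    ∃ m : ℤ, S40F2S_IsU Q.P (u / t ^ m) := by
  classical
  -- the case `u ∈ Q.P`
  have key : ∀ v : F, v ≠ 0 → v ∈ Q.P → ∃ n : ℕ, S40F2S_IsU Q.P (v / t ^ n) := by
    intro v hv0 hvP
    have hex : ∃ n : ℕ, v⁻¹ * t ^ n ∈ Q.P := Q.arch v⁻¹ t ht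
    refine ⟨Nat.find hex, ?_⟩
    have hmem : v⁻¹ * t ^ Nat.find hex ∈ Q.P := Nat.find_spec hex
    rw [S40F2S_isU_iff]
    refine ⟨?_, ?_, div_ne_zero hv0 (pow_ne_zero _ ht0)⟩
    · rcases Nat.eq_zero_or_pos (Nat.find hex) with h0 | hpos
      · rw [h0, pow_zero, div_one]
        exact hvP
      · obtain ⟨n', hn'⟩ : ∃ n', Nat.find hex = n' + 1 := ⟨Nat.find hex - 1, by omega⟩
        have hnot : ¬ (v⁻¹ * t ^ n' ∈ Q.P) := Nat.find_min hex (by omega)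
        have hnu : v / t ^ n' ∈ Q.P.nonunits := by
          apply S40F2N_nonunit_of_inv_not_mem
          have e : (v / t ^ n')⁻¹ = v⁻¹ * t ^ n' := by
            rw [inv_div, div_eq_mul_inv, mul_comm]
          rw [e]
          exact hnot
        have := hunif _ hnu
        have e : v / t ^ Nat.find hex = v / t ^ n' * t⁻¹ := by
          rw [hn', pow_succ, div_mul_eq_div_div, div_eq_mul_inv (v / t ^ n')]
        rw [e]
        exact this
    · have e : (v / t ^ Nat.find hex)⁻¹ = v⁻¹ * t ^ Nat.find hex := by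
        rw [inv_div, div_eq_mul_inv, mul_comm]
      rw [e]
      exact hmem
  by_cases huP : u ∈ Q.P
  · obtain ⟨n, hn⟩ := key u hu huP
    exact ⟨(n : ℤ), by simpa using hn⟩
  · have huiP : u⁻¹ ∈ Q.P := by
      rcases Q.P.mem_or_inv_mem u with h | h
      · exact absurd h huP
      · exact h
    obtain ⟨n, hn⟩ := key u⁻¹ (inv_ne_zero hu) huiP
    refine ⟨-(n : ℤ), ?_⟩
    have e : u / t ^ (-(n : ℤ)) = (u⁻¹ / t ^ n)⁻¹ := by
      rw [zpow_neg, zpow_natCast, inv_div, div_eq_mul_inv, inv_inv, div_eq_mul_inv, inv_inv,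
        mul_comm]
    rw [e]
    exact hn.inv

/-- `g ^ p` a unit ⇒ `g` a unit. -/
theorem S40F2YI_isU_of_pow {O : ValuationSubring F} {g : F} {p : ℕ} (hp : p ≠ 0)
    (h : S40F2S_IsU O (g ^ p)) : S40F2S_IsU O g := by
  unfold S40F2S_IsU at h ⊢
  rw [map_pow] at h
  rcases lt_trichotomy (O.valuation g) 1 with h1 | h1 | h1
  · exact absurd h (ne_of_lt (pow_lt_one₀ zero_le h1 hp))
  · exact h1
  · exact absurd h (ne_of_gt (one_lt_pow₀ h1 hp))

theorem S40F2YI_noZP_of_pow (N : S40NA_Node L F k) {g : F} {p : ℕ} (hp : p ≠ 0)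
    (h : S40F2SN_NoZP N (g ^ p)) : S40F2SN_NoZP N g :=
  fun Q hQ hc => S40F2YI_isU_of_pow hp (h Q hQ hc)

/-- a function without zero and pole specialising to the node is in the ring `R` of the node. -/
theorem S40F2YI_reg (N : S40NA_Node L F k) {g : F}
    (hfin : {Q : S40NA_Pt L F | Q ∈ N.U ∧ g ∉ Q.P}.Finite) (h : S40F2SN_NoZP N g) :
    S40F2K_Reg N g :=
  ⟨hfin, fun Q hQ hg hc => hg (h Q hQ hc).mem⟩

/-- the local parameter `X − X(Q)`. -/
noncomputable def S40F2YI_t (X : F) (Q : S40NA_Pt L F) : F :=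
  X - algebraMap L F (S40F2N_at Q X)

theorem S40F2YI_t_nonunit {X : F} (Q : S40NA_Pt L F) (hX : X ∈ Q.P) :
    S40F2YI_t X Q ∈ Q.P.nonunits := by
  have hmem : S40F2YI_t X Q ∈ Q.P := sub_mem hX (Q.alg_mem _)
  rw [← S40F2N_at_eq_zero_iff Q hmem]
  unfold S40F2YI_t
  rw [S40F2N_at_sub Q hX (Q.alg_mem _), S40F2N_at_alg, sub_self]

/-- `X − X(Q)` is a unit at every place `Q₀` with `X(Q₀) ≠ X(Q)`. -/
theorem S40F2YI_t_isU {X : F} (Q Q₀ : S40NA_Pt L F) (hX : X ∈ Q₀.P)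
    (hne : S40F2N_at Q₀ X ≠ S40F2N_at Q X) : S40F2S_IsU Q₀.P (S40F2YI_t X Q) := by
  have hmem : S40F2YI_t X Q ∈ Q₀.P := sub_mem hX (Q₀.alg_mem _)
  refine S40F2S_isU_of_not_nonunits hmem ?_
  intro h
  rw [← S40F2N_at_eq_zero_iff Q₀ hmem] at h
  unfold S40F2YI_t at h
  rw [S40F2N_at_sub Q₀ hX (Q₀.alg_mem _), S40F2N_at_alg, sub_eq_zero] at h
  exact hne h

/-- a finite product of units is a unit. -/
theorem S40F2YI_isU_prod {O : ValuationSubring F} {ι : Type*} (s : Finset ι) (f : ι → F)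
    (h : ∀ j ∈ s, S40F2S_IsU O (f j)) : S40F2S_IsU O (∏ j ∈ s, f j) := by
  classical
  induction s using Finset.induction_on with
  | empty => simpa using S40F2S_isU_one O
  | insert j t hjt ih =>
    rw [Finset.prod_insert hjt]
    exact (h j (Finset.mem_insert_self j t)).mul
      (ih (fun j' hj' => h j' (Finset.mem_insert_of_mem hj')))

/-- the hypotheses on the coordinate `X` at the node (all of them conclusions of P1:
`S40F2N_Coord.hX`, `S40F2N2_uniformiser`, `S40F2N2_place_unique`). -/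
structure S40F2YI_Hyp (N : S40NA_Node L F k) (X : F) : Prop where
  hfin : ∀ g : F, {Q : S40NA_Pt L F | Q ∈ N.U ∧ g ∉ Q.P}.Finite
  hXmem : ∀ (Q : S40NA_Pt L F) (hQ : Q ∈ N.U), S40NA_Centred N Q hQ → X ∈ Q.P
  ht0 : ∀ (Q : S40NA_Pt L F) (hQ : Q ∈ N.U), S40NA_Centred N Q hQ → S40F2YI_t X Q ≠ 0
  hunif : ∀ (Q : S40NA_Pt L F) (hQ : Q ∈ N.U), S40NA_Centred N Q hQ →
    ∀ f ∈ Q.P.nonunits, f * (S40F2YI_t X Q)⁻¹ ∈ Q.P
  hsep : ∀ (Q Q' : S40NA_Pt L F) (hQ : Q ∈ N.U) (hQ' : Q' ∈ N.U), S40NA_Centred N Q hQ →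
    S40NA_Centred N Q' hQ' → S40F2N_at Q X = S40F2N_at Q' X → Q = Q'

/-- the places specialising to the node at which `u` is not a unit. -/
def S40F2YI_supp (N : S40NA_Node L F k) (u : F) : Set (S40NA_Pt L F) :=
  {Q | ∃ hQ : Q ∈ N.U, S40NA_Centred N Q hQ ∧ ¬ S40F2S_IsU Q.P u}

theorem S40F2YI_supp_finite (N : S40NA_Node L F k)
    (hfin : ∀ g : F, {Q : S40NA_Pt L F | Q ∈ N.U ∧ g ∉ Q.P}.Finite) {u : F} (hu : u ≠ 0) :
    (S40F2YI_supp N u).Finite := by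
  refine ((hfin u).union (hfin u⁻¹)).subset ?_
  rintro Q ⟨hQ, -, hnu⟩
  by_cases h1 : u ∈ Q.P
  · by_cases h2 : u⁻¹ ∈ Q.P
    · exact absurd (S40F2S_isU_iff.2 ⟨h1, h2, hu⟩) hnu
    · exact Or.inr ⟨hQ, h2⟩
  · exact Or.inl ⟨hQ, h1⟩

/-- **factorisation at the node, general exponent**: if at every place `Q` specialising to the
node `u` is `t_Q ^ (e · m)` times a unit, then `u = u' · ∏_{Q ∈ s} t_Q ^ (e · m_Q)` with `u'`
without zero and pole specialising to the node; `s` is the set of these places at which `u` is not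
a unit. -/
theorem S40F2YI_factor_gen {N : S40NA_Node L F k} {X : F} (H : S40F2YI_Hyp N X) {u : F}
    (hu : u ≠ 0) (e : ℤ)
    (hord : ∀ (Q : S40NA_Pt L F) (hQ : Q ∈ N.U), S40NA_Centred N Q hQ →
      ∃ m : ℤ, S40F2S_IsU Q.P (u / S40F2YI_t X Q ^ (e * m))) :
    ∃ (s : Finset (S40NA_Pt L F)) (m : S40NA_Pt L F → ℤ),
      (∀ Q, Q ∈ s ↔ ∃ hQ : Q ∈ N.U, S40NA_Centred N Q hQ ∧ ¬ S40F2S_IsU Q.P u) ∧
      (∀ (Q : S40NA_Pt L F) (hQ : Q ∈ N.U), S40NA_Centred N Q hQ →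
        S40F2S_IsU Q.P (u / S40F2YI_t X Q ^ (e * m Q))) ∧
      S40F2SN_NoZP N (u / ∏ Q ∈ s, S40F2YI_t X Q ^ (e * m Q)) := by
  classical
  set s : Finset (S40NA_Pt L F) := (S40F2YI_supp_finite N H.hfin hu).toFinset with hs
  have hmem : ∀ Q, Q ∈ s ↔ ∃ hQ : Q ∈ N.U, S40NA_Centred N Q hQ ∧ ¬ S40F2S_IsU Q.P u := by
    intro Q
    rw [hs, Set.Finite.mem_toFinset]
    rfl
  have hex : ∀ Q : S40NA_Pt L F, ∃ m : ℤ, ∀ (hQ : Q ∈ N.U), S40NA_Centred N Q hQ →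
      S40F2S_IsU Q.P (u / S40F2YI_t X Q ^ (e * m)) := by
    intro Q
    by_cases h : ∃ hQ : Q ∈ N.U, S40NA_Centred N Q hQ
    · obtain ⟨hQ, hc⟩ := h
      obtain ⟨m, hm⟩ := hord Q hQ hc
      exact ⟨m, fun _ _ => hm⟩
    · exact ⟨0, fun hQ hc => absurd ⟨hQ, hc⟩ h⟩
  choose m hm using hex
  refine ⟨s, m, hmem, fun Q hQ hc => hm Q hQ hc, ?_⟩
  intro Q₀ hQ₀ hc₀
  -- the factors at the other places are units at `Q₀`
  have hother : ∀ Q ∈ s, Q ≠ Q₀ → S40F2S_IsU Q₀.P (S40F2YI_t X Q ^ (e * m Q)) := by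
    intro Q hQs hne
    obtain ⟨hQ, hc, -⟩ := (hmem Q).1 hQs
    refine (S40F2YI_t_isU Q Q₀ (H.hXmem Q₀ hQ₀ hc₀) ?_).zpow _
    intro h
    exact hne (H.hsep Q₀ Q hQ₀ hQ hc₀ hc h).symm
  by_cases hQ₀s : Q₀ ∈ s
  · rw [← Finset.mul_prod_erase s _ hQ₀s, ← div_div]
    refine (hm Q₀ hQ₀ hc₀).div (S40F2YI_isU_prod _ _ ?_)
    intro Q hQ
    exact hother Q (Finset.mem_of_mem_erase hQ) (Finset.ne_of_mem_erase hQ)
  · have hu₀ : S40F2S_IsU Q₀.P u := by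
      by_contra h
      exact hQ₀s ((hmem Q₀).2 ⟨hQ₀, hc₀, h⟩)
    refine hu₀.div (S40F2YI_isU_prod _ _ ?_)
    intro Q hQ
    exact hother Q hQ (fun h => hQ₀s (h ▸ hQ))

/-- **factorisation at the node**: `u = u' · ∏_{Q ∈ s} (X − X(Q)) ^ (m_Q)`, `u'` without zero
and pole specialising to the node. -/
theorem S40F2YI_factor {N : S40NA_Node L F k} {X : F} (H : S40F2YI_Hyp N X) {u : F}
    (hu : u ≠ 0) :
    ∃ (s : Finset (S40NA_Pt L F)) (m : S40NA_Pt L F → ℤ),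
      (∀ Q, Q ∈ s ↔ ∃ hQ : Q ∈ N.U, S40NA_Centred N Q hQ ∧ ¬ S40F2S_IsU Q.P u) ∧
      (∀ (Q : S40NA_Pt L F) (hQ : Q ∈ N.U), S40NA_Centred N Q hQ →
        S40F2S_IsU Q.P (u / S40F2YI_t X Q ^ m Q)) ∧
      S40F2SN_NoZP N (u / ∏ Q ∈ s, S40F2YI_t X Q ^ m Q) := by
  have := S40F2YI_factor_gen H hu 1 (fun Q hQ hc => by
    obtain ⟨m, hm⟩ := S40F2YI_exists_ord Q (S40F2YI_t_nonunit Q (H.hXmem Q hQ hc))
      (H.ht0 Q hQ hc) (H.hunif Q hQ hc) hu
    exact ⟨m, by rwa [one_mul]⟩)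
  simpa only [one_mul] using this

/-- **factorisation at the node of a function which is locally a `p`-th power up to a unit**
(a Kummer generator of a `p`-torsion class): `u = u' · (∏_{Q ∈ s} (X − X(Q)) ^ (m_Q)) ^ p`. -/
theorem S40F2YI_factor_pow {N : S40NA_Node L F k} {X : F} (H : S40F2YI_Hyp N X) {u : F}
    (hu : u ≠ 0) (p : ℕ)
    (hp : ∀ (Q : S40NA_Pt L F) (hQ : Q ∈ N.U), S40NA_Centred N Q hQ →
      ∃ g : F, g ≠ 0 ∧ S40F2S_IsU Q.P (u / g ^ p)) :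
    ∃ (s : Finset (S40NA_Pt L F)) (m : S40NA_Pt L F → ℤ),
      (∀ Q, Q ∈ s ↔ ∃ hQ : Q ∈ N.U, S40NA_Centred N Q hQ ∧ ¬ S40F2S_IsU Q.P u) ∧
      (∀ (Q : S40NA_Pt L F) (hQ : Q ∈ N.U), S40NA_Centred N Q hQ →
        S40F2S_IsU Q.P (u / S40F2YI_t X Q ^ ((p : ℤ) * m Q))) ∧
      S40F2SN_NoZP N (u / (∏ Q ∈ s, S40F2YI_t X Q ^ m Q) ^ p) := by
  obtain ⟨s, m, h1, h2, h3⟩ := S40F2YI_factor_gen H hu (p : ℤ) (fun Q hQ hc => by
    obtain ⟨g, hg0, hg⟩ := hp Q hQ hc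
    obtain ⟨n, hn⟩ := S40F2YI_exists_ord Q (S40F2YI_t_nonunit Q (H.hXmem Q hQ hc))
      (H.ht0 Q hQ hc) (H.hunif Q hQ hc) hg0
    refine ⟨n, ?_⟩
    have ht0 := H.ht0 Q hQ hc
    have e : u / S40F2YI_t X Q ^ ((p : ℤ) * n) = u / g ^ p * (g / S40F2YI_t X Q ^ n) ^ p := by
      rw [mul_comm (p : ℤ) n, zpow_mul, zpow_natCast, div_pow]
      have h1 : g ^ p ≠ 0 := pow_ne_zero _ hg0
      have h2 : (S40F2YI_t X Q ^ n) ^ p ≠ 0 := pow_ne_zero _ (zpow_ne_zero _ ht0)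
      field_simp
    rw [e]
    have hn' : S40F2S_IsU Q.P ((g / S40F2YI_t X Q ^ n) ^ p) := by
      have := hn.zpow (p : ℤ)
      rwa [zpow_natCast] at this
    exact hg.mul hn')
  refine ⟨s, m, h1, h2, ?_⟩
  have e : (∏ Q ∈ s, S40F2YI_t X Q ^ m Q) ^ p = ∏ Q ∈ s, S40F2YI_t X Q ^ ((p : ℤ) * m Q) := by
    rw [← Finset.prod_pow]
    refine Finset.prod_congr rfl (fun Q _ => ?_)
    rw [mul_comm (p : ℤ) (m Q), zpow_mul, zpow_natCast]
  rw [e]
  exact h3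

/-- **the quotient `h / E` has no zero and no pole at the node**: `u = u' Ψ^p`,
`h^p = r · σ u / u` with `u'`, `r` without zero and pole specialising to the node, `σ` preserving
this property, `E = σ Ψ / Ψ`. -/
theorem S40F2YI_noZP_quot (N : S40NA_Node L F k) (σ : F →+* F)
    (hσ : ∀ g : F, S40F2SN_NoZP N g → S40F2SN_NoZP N (σ g))
    {p : ℕ} (hp : p ≠ 0) {u u' Ψ h r : F} (hΨ0 : Ψ ≠ 0) (hu : u = u' * Ψ ^ p)
    (hu' : S40F2SN_NoZP N u') (hr : S40F2SN_NoZP N r) (hh : h ^ p = r * (σ u / u)) :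
    S40F2SN_NoZP N (h / (σ Ψ / Ψ)) := by
  apply S40F2YI_noZP_of_pow N hp
  intro Q hQ hc
  have hu'0 : u' ≠ 0 := (hu' Q hQ hc).ne_zero
  have hσΨ0 : σ Ψ ≠ 0 := (map_ne_zero σ).2 hΨ0
  have hσu'0 : σ u' ≠ 0 := (map_ne_zero σ).2 hu'0
  have e : (h / (σ Ψ / Ψ)) ^ p = r * (σ u' / u') := by
    rw [div_pow, hh, hu, map_mul, map_pow, div_pow]
    have h1 : Ψ ^ p ≠ 0 := pow_ne_zero _ hΨ0
    have h2 : σ Ψ ^ p ≠ 0 := pow_ne_zero _ hσΨ0
    field_simp
  rw [e]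
  exact (hr Q hQ hc).mul ((hσ u' hu' Q hQ hc).div (hu' Q hQ hc))

/-- the same in the form of the hypothesis `hR` of `S40F2K_main`. -/
theorem S40F2YI_reg_quot (N : S40NA_Node L F k)
    (hfin : ∀ g : F, {Q : S40NA_Pt L F | Q ∈ N.U ∧ g ∉ Q.P}.Finite) (σ : F →+* F)
    (hσ : ∀ g : F, S40F2SN_NoZP N g → S40F2SN_NoZP N (σ g))
    {p : ℕ} (hp : p ≠ 0) {u u' Ψ h r : F} (hΨ0 : Ψ ≠ 0) (hu : u = u' * Ψ ^ p)
    (hu' : S40F2SN_NoZP N u') (hr : S40F2SN_NoZP N r) (hh : h ^ p = r * (σ u / u)) :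
    S40F2K_Reg N (h / (σ Ψ / Ψ)) :=
  S40F2YI_reg N (hfin _) (S40F2YI_noZP_quot N σ hσ hp hΨ0 hu hu' hr hh)

end

end Fermat.Agent.S40
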