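import Fermat.Agent.S40.NodeAbs
import Fermat.Agent.S34.NodalX0Main

/-!
# S40 (TRACK 13), GEO-6 packages P2 + P3: the INSTANTIATION of `S40NA_Node` (helper26)

Prefix `S40NI_`.

* `S40NI_pt v hdeg : S40NA_Pt K F` : a place of degree one of `F / K` as a rational place
  (`ev` = value at `v`, `FD_c0`).
* generic form (two valuation data `S₁ S₂ : S18_Val`, chart function `x`, `S34P_Hyp` for `x`, nodes
  `e₁ e₂` with `hW1 : W¹ = S34B_W e₁ e₂`):  `S40NI_nodeGen … i : S40NA_Node L F k` with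
  `ε f = e₁ i (red₁ f) = e₂ i (red₂ f)` on `Λ = O₁ ∩ O₂ ∩ B`, `U` = the places where `x` is regular.
* canonical objects of TRACK 7 (level `M q`, `A ∣ q`): `S40NI_exists_nodes`.
-/

set_option autoImplicit false
set_option synthInstance.maxHeartbeats 400000
set_option maxHeartbeats 1000000
set_option linter.unusedSectionVars false
set_option linter.unusedVariables false
set_option linter.style.haveILetI false

open HahnSeries IntermediateField AlgebraicCurve ModularCurve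

noncomputable section

namespace Fermat.Agent.S40

open Fermat.Agent.Lib Fermat.Agent.S18 Fermat.Agent.S24 Fermat.Agent.S34 Fermat.Agent.GalRep

/-! ### places of degree one as rational places -/

section Pt

variable {K F : Type*} [Field K] [Field F] [Algebra K F]

/-- the value at a place of degree one. -/
def S40NI_ev (v : Place K F) (hdeg : v.deg = 1) : ↥v.toValuationSubring →+* K :=
  (PowerSeries.constantCoeff (R := K)).comp (FD_expHom v hdeg).toRingHom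

theorem S40NI_ev_apply (v : Place K F) (hdeg : v.deg = 1) (f : ↥v.toValuationSubring) :
    S40NI_ev v hdeg f = FD_c0 v (f : F) := by
  show PowerSeries.constantCoeff (FD_expHom v hdeg f) = _
  rw [FD_expHom_apply, FD_constantCoeff]

theorem S40NI_nonunit_of_val_lt (v : Place K F) {f : F} (hf : v.adicValuation f < 1) :
    f ∈ v.toValuationSubring.nonunits := by
  have hmem : f ∈ v.toValuationSubring := (BL_adicValuation_le_one_iff v f).1 hf.le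
  rw [ValuationSubring.mem_nonunits_iff_exists_mem_maximalIdeal]
  refine ⟨hmem, ?_⟩
  rw [IsLocalRing.mem_maximalIdeal, mem_nonunits_iff]
  intro hu
  have := (v.adicValuation_coe_eq_one_iff ⟨f, hmem⟩).2 hu
  exact absurd this hf.ne

theorem S40NI_val_lt_of_nonunit (v : Place K F) {f : F}
    (hf : f ∈ v.toValuationSubring.nonunits) : v.adicValuation f < 1 := by
  rw [ValuationSubring.mem_nonunits_iff_exists_mem_maximalIdeal] at hf
  obtain ⟨hmem, hm⟩ := hf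
  rw [IsLocalRing.mem_maximalIdeal, mem_nonunits_iff] at hm
  have hle : v.adicValuation f ≤ 1 := (BL_adicValuation_le_one_iff v f).2 hmem
  refine lt_of_le_of_ne hle ?_
  intro h1
  exact hm ((v.adicValuation_coe_eq_one_iff ⟨f, hmem⟩).1 h1)

/-- rank one: a power of a nonunit clears every denominator. -/
theorem S40NI_arch (v : Place K F) (g b : F) (hb : b ∈ v.toValuationSubring.nonunits) :
    ∃ m : ℕ, g * b ^ m ∈ v.toValuationSubring := by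
  by_cases hb0 : b = 0
  · exact ⟨1, by rw [hb0, pow_one, mul_zero]; exact v.toValuationSubring.zero_mem⟩
  by_cases hg0 : g = 0
  · exact ⟨0, by rw [hg0, zero_mul]; exact v.toValuationSubring.zero_mem⟩
  have hbl := S40NI_val_lt_of_nonunit v hb
  rw [v.adicValuation_eq_exp_neg_ord hb0, ← WithZero.exp_zero, WithZero.exp_lt_exp] at hbl
  have hob : 1 ≤ v.ord b := by omega
  refine ⟨(-(v.ord g)).toNat, ?_⟩
  have hne : g * b ^ (-(v.ord g)).toNat ≠ 0 := mul_ne_zero hg0 (pow_ne_zero _ hb0)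
  rw [BG_mem_iff_ord_nonneg v hne, v.ord_mul hg0 (pow_ne_zero _ hb0), ← zpow_natCast,
    v.ord_zpow]
  have h1 : (-(v.ord g)) ≤ ((-(v.ord g)).toNat : ℤ) := Int.self_le_toNat _
  have h2 : (0 : ℤ) ≤ ((-(v.ord g)).toNat : ℤ) := Int.natCast_nonneg _
  nlinarith

/-- a place of degree one as a rational place. -/
def S40NI_pt (v : Place K F) (hdeg : v.deg = 1) : S40NA_Pt K F where
  P := v.toValuationSubring
  ev := S40NI_ev v hdeg
  alg_mem := v.algebraMap_mem'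
  ev_alg c := by
    rw [S40NI_ev_apply]
    exact FD_c0_unique v (by rw [sub_self, map_zero]; exact zero_lt_one)
  ev_eq_zero x hx := by
    rw [S40NI_ev_apply] at hx
    exact S40NI_nonunit_of_val_lt v
      ((FD_c0_eq_zero_iff v hdeg ((BL_adicValuation_le_one_iff v _).2 x.2)).1 hx)
  arch := S40NI_arch v

theorem S40NI_pt_P (v : Place K F) (hdeg : v.deg = 1) :
    (S40NI_pt v hdeg).P = v.toValuationSubring := rfl

theorem S40NI_pt_ev (v : Place K F) (hdeg : v.deg = 1) (f : F)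
    (hf : f ∈ (S40NI_pt v hdeg).P) : (S40NI_pt v hdeg).ev ⟨f, hf⟩ = FD_c0 v f :=
  S40NI_ev_apply v hdeg ⟨f, hf⟩

/-- the rational places where `x` is regular. -/
def S40NI_U (hdeg : ∀ v : Place K F, v.deg = 1) (x : F) : Set (S40NA_Pt K F) :=
  {Q | ∃ v : Place K F, 0 ≤ v.ord x ∧ Q = S40NI_pt v (hdeg v)}

theorem S40NI_pt_mem_U (hdeg : ∀ v : Place K F, v.deg = 1) {x : F} {v : Place K F}
    (hv : 0 ≤ v.ord x) : S40NI_pt v (hdeg v) ∈ S40NI_U hdeg x := ⟨v, hv, rfl⟩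

/-- elements integral over `K[x]` are regular where `x` is. -/
theorem S40NI_reg_of_integral {x y : F} (h : IsIntegral (Algebra.adjoin K ({x} : Set F)) y) :
    y ∈ S34SB_reg K x := by
  rw [S34SB_mem_reg]
  intro Q hQ
  have hx : x ∈ Q.toValuationSubring := by
    by_cases hx0 : x = 0
    · rw [hx0]; exact Q.toValuationSubring.zero_mem
    · exact (BG_mem_iff_ord_nonneg Q hx0).2 hQ
  exact BL_mem_of_isIntegral Q hx h

/-- the poles of a function on the chart are finite in number. -/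
theorem S40NI_poles_finite [HasPrincipalDivisors K F] (hdeg : ∀ v : Place K F, v.deg = 1)
    (x g : F) : {Q : S40NA_Pt K F | Q ∈ S40NI_U hdeg x ∧ g ∉ Q.P}.Finite := by
  by_cases hg0 : g = 0
  · have : {Q : S40NA_Pt K F | Q ∈ S40NI_U hdeg x ∧ g ∉ Q.P} = ∅ := by
      refine Set.eq_empty_iff_forall_notMem.2 ?_
      rintro Q ⟨-, hQ⟩
      exact hQ (hg0 ▸ Q.P.zero_mem)
    rw [this]; exact Set.finite_empty
  obtain ⟨D, hD, -⟩ := HasPrincipalDivisors.exists_divisor (K := K) g hg0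
  have hfin : (↑D.support : Set (Place K F)).Finite := D.support.finite_toSet
  refine (hfin.image (fun v => S40NI_pt v (hdeg v))).subset ?_
  rintro Q ⟨⟨v, hv, rfl⟩, hgQ⟩
  refine ⟨v, ?_, rfl⟩
  rw [Finset.mem_coe, Finsupp.mem_support_iff, hD v]
  intro h0
  apply hgQ
  show g ∈ v.toValuationSubring
  rw [BG_mem_iff_ord_nonneg v hg0, h0]

end Pt

/-! ### the node, generic form -/

section Gen

variable {L F k Fk₁ Fk₂ : Type*} [Field L] [Field F] [Algebra L F] [Field k] [Field Fk₁]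
  [Field Fk₂] [Algebra k Fk₁] [Algebra k Fk₂]
  (S₁ : S18_Val L F k Fk₁) (S₂ : S18_Val L F k Fk₂) (hS : S34P_Same S₁ S₂)
  (hdeg : ∀ v : Place L F, v.deg = 1) (x : S34P_O2 S₁ S₂)

/-- `Λ` of the chart `x ≠ ∞`. -/
abbrev S40NI_Lam : Subring F := S40NA_Lam S₁.O S₂.O (S40NI_U hdeg (x : F))

variable {S₁ S₂ hS hdeg x}

theorem S40NI_mem_Lam {f : F} :
    f ∈ S40NI_Lam S₁ S₂ hdeg x ↔ f ∈ S₁.O ∧ f ∈ S₂.O ∧ f ∈ S34SB_reg L (x : F) := by
  rw [S40NA_mem_Lam, S34SB_mem_reg]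
  refine and_congr_right fun _ => and_congr_right fun _ => ?_
  constructor
  · intro h v hv
    exact h _ (S40NI_pt_mem_U hdeg hv)
  · rintro h Q ⟨v, hv, rfl⟩
    exact h v hv

theorem S40NI_mem_O2 {f : F} (hf : f ∈ S40NI_Lam S₁ S₂ hdeg x) : f ∈ S34P_O2 S₁ S₂ :=
  ⟨(S40NI_mem_Lam.1 hf).1, (S40NI_mem_Lam.1 hf).2.1⟩

variable {x₁ : Fk₁} {x₂ : Fk₂}

/-- the reductions of a function of `Λ` are regular on the two components. -/
theorem S40NI_red_mem (hx : S34P_Hyp S₁ S₂ hS x) (hred : S34P_red S₁ S₂ x = (x₁, x₂)) {f : F}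
    (hf : f ∈ S40NI_Lam S₁ S₂ hdeg x) :
    S₁.red ⟨f, (S40NI_mem_Lam.1 hf).1⟩ ∈ S34SB_reg k x₁ ∧
      S₂.red ⟨f, (S40NI_mem_Lam.1 hf).2.1⟩ ∈ S34SB_reg k x₂ := by
  have hint : IsIntegral (Algebra.adjoin L ({(x : F)} : Set F)) f := by
    by_cases hf0 : f = 0
    · rw [hf0]; exact isIntegral_zero
    · refine hx.reg f (fun P hP => ?_)
      exact (BG_mem_iff_ord_nonneg P hf0).1 ((S34SB_mem_reg.1 (S40NI_mem_Lam.1 hf).2.2) P hP)
  have h := hx.int ⟨f, S40NI_mem_O2 hf⟩ hint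
  rw [hred] at h
  exact ⟨S40NI_reg_of_integral h.1, S40NI_reg_of_integral h.2⟩

variable (n : ℕ) (hn : 0 < n) {ι : Type*}

/-- the pair of reductions of `f ∈ Λ`, in `Rb₁ × Rb₂`. -/
def S40NI_pair (hx : S34P_Hyp S₁ S₂ hS x) (hred : S34P_red S₁ S₂ x = (x₁, x₂)) (f : F)
    (hf : f ∈ S40NI_Lam S₁ S₂ hdeg x) :
    ↥(S34SB_chart L k (x : F) x₁ x₂ n hn).Rb₁ × ↥(S34SB_chart L k (x : F) x₁ x₂ n hn).Rb₂ :=
  (⟨S₁.red ⟨f, (S40NI_mem_Lam.1 hf).1⟩, (S40NI_red_mem hx hred hf).1⟩,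
    ⟨S₂.red ⟨f, (S40NI_mem_Lam.1 hf).2.1⟩, (S40NI_red_mem hx hred hf).2⟩)

/-- the pair of reductions of `f ∈ Λ` lies in `W¹`. -/
theorem S40NI_pair_mem_W (hx : S34P_Hyp S₁ S₂ hS x) (hred : S34P_red S₁ S₂ x = (x₁, x₂))
    (f : F) (hf : f ∈ S40NI_Lam S₁ S₂ hdeg x) :
    S40NI_pair n hn hx hred f hf ∈ S34K_W hS (S34SB_chart L k (x : F) x₁ x₂ n hn) 1 := by
  rw [S34K_mem_W]
  refine ⟨⟨f, S40NI_mem_O2 hf⟩, ?_, rfl⟩
  rw [mul_one]
  exact (S34SB_reg L (x : F)).pow_mem (S40NI_mem_Lam.1 hf).2.2 n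

/-- **(B) for all of `Λ`**: the two reductions of a function of `Λ` have the same value at every
node. -/
theorem S40NI_glue (hx : S34P_Hyp S₁ S₂ hS x) (hred : S34P_red S₁ S₂ x = (x₁, x₂))
    (e₁ : ι → ↥(S34SB_chart L k (x : F) x₁ x₂ n hn).Rb₁ →ₐ[k] k)
    (e₂ : ι → ↥(S34SB_chart L k (x : F) x₁ x₂ n hn).Rb₂ →ₐ[k] k)
    (hW1 : S34K_W hS (S34SB_chart L k (x : F) x₁ x₂ n hn) 1 = S34B_W e₁ e₂)
    (f : F) (hf : f ∈ S40NI_Lam S₁ S₂ hdeg x) (i : ι) :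
    e₁ i (S40NI_pair n hn hx hred f hf).1 = e₂ i (S40NI_pair n hn hx hred f hf).2 := by
  have h := S40NI_pair_mem_W n hn hx hred f hf
  rw [hW1, S34B_mem_W] at h
  exact h i

variable (hdeg)

/-- the first reduction `Λ → Rb₁` as a ring homomorphism. -/
def S40NI_red₁ (hx : S34P_Hyp S₁ S₂ hS x) (hred : S34P_red S₁ S₂ x = (x₁, x₂)) :
    ↥(S40NI_Lam S₁ S₂ hdeg x) →+* ↥(S34SB_chart L k (x : F) x₁ x₂ n hn).Rb₁ where
  toFun f := (S40NI_pair n hn hx hred f f.2).1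
  map_one' := Subtype.ext (map_one S₁.red)
  map_zero' := Subtype.ext (map_zero S₁.red)
  map_mul' f g := Subtype.ext (map_mul S₁.red (⟨(f : F), (S40NI_mem_Lam.1 f.2).1⟩ : ↥S₁.O)
    (⟨(g : F), (S40NI_mem_Lam.1 g.2).1⟩ : ↥S₁.O))
  map_add' f g := Subtype.ext (map_add S₁.red (⟨(f : F), (S40NI_mem_Lam.1 f.2).1⟩ : ↥S₁.O)
    (⟨(g : F), (S40NI_mem_Lam.1 g.2).1⟩ : ↥S₁.O))

theorem S40NI_nonunit_red (S : S18_Val L F k Fk₁) {f : F} (hf : f ∈ S.O.nonunits) :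
    S.red ⟨f, ValuationSubring.nonunits_subset hf⟩ = 0 := by
  by_contra h
  have hu := (S.red_ne_zero_iff _).1 h
  rw [ValuationSubring.mem_nonunits_iff_exists_mem_maximalIdeal] at hf
  obtain ⟨hmem, hm⟩ := hf
  rw [IsLocalRing.mem_maximalIdeal, mem_nonunits_iff] at hm
  exact hm hu

theorem S40NI_nonunit_red' (S : S18_Val L F k Fk₂) {f : F} (hf : f ∈ S.O.nonunits) :
    S.red ⟨f, ValuationSubring.nonunits_subset hf⟩ = 0 := by
  by_contra h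
  have hu := (S.red_ne_zero_iff _).1 h
  rw [ValuationSubring.mem_nonunits_iff_exists_mem_maximalIdeal] at hf
  obtain ⟨hmem, hm⟩ := hf
  rw [IsLocalRing.mem_maximalIdeal, mem_nonunits_iff] at hm
  exact hm hu

/-- **the node `i`** as an `S40NA_Node`: `ε f = e₁ i (red₁ f) = e₂ i (red₂ f)`. -/
def S40NI_nodeGen (hx : S34P_Hyp S₁ S₂ hS x) (hred : S34P_red S₁ S₂ x = (x₁, x₂))
    (e₁ : ι → ↥(S34SB_chart L k (x : F) x₁ x₂ n hn).Rb₁ →ₐ[k] k)
    (e₂ : ι → ↥(S34SB_chart L k (x : F) x₁ x₂ n hn).Rb₂ →ₐ[k] k)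
    (hW1 : S34K_W hS (S34SB_chart L k (x : F) x₁ x₂ n hn) 1 = S34B_W e₁ e₂) (i : ι) :
    S40NA_Node L F k where
  A := S₁.A
  res := S₁.res
  res_nonunit a ha := by
    rw [S₁.res_eq_zero_iff]
    rw [ValuationSubring.mem_nonunits_iff_exists_mem_maximalIdeal] at ha
    obtain ⟨hmem, hm⟩ := ha
    rw [IsLocalRing.mem_maximalIdeal, mem_nonunits_iff] at hm
    exact hm
  O₁ := S₁.O
  O₂ := S₂.O
  const₁ a ha := (S₁.algebraMap_mem_iff a).2 ha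
  const₂ a ha := (S₂.algebraMap_mem_iff a).2 (hS.A_eq ▸ ha)
  U := S40NI_U hdeg (x : F)
  ε := (e₁ i : ↥(S34SB_chart L k (x : F) x₁ x₂ n hn).Rb₁ →+* k).comp
    (S40NI_red₁ hdeg n hn hx hred)
  ε_const a ha h := by
    show e₁ i (S40NI_pair n hn hx hred (algebraMap L F a) h).1 = S₁.res ⟨a, ha⟩
    have e : (S40NI_pair n hn hx hred (algebraMap L F a) h).1 =
        algebraMap k ↥(S34SB_chart L k (x : F) x₁ x₂ n hn).Rb₁ (S₁.res ⟨a, ha⟩) :=
      Subtype.ext (S₁.red_algebraMap a ha _)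
    rw [e, AlgHom.commutes]
    rfl
  ε_zero₁ f hf := by
    show e₁ i (S40NI_pair n hn hx hred f f.2).1 = 0
    have e : (S40NI_pair n hn hx hred f f.2).1 = 0 := Subtype.ext (S40NI_nonunit_red S₁ hf)
    rw [e, map_zero]
  ε_zero₂ f hf := by
    show e₁ i (S40NI_pair n hn hx hred f f.2).1 = 0
    rw [S40NI_glue n hn hx hred e₁ e₂ hW1 f f.2 i]
    have e : (S40NI_pair n hn hx hred f f.2).2 = 0 := Subtype.ext (S40NI_nonunit_red' S₂ hf)
    rw [e, map_zero]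

variable {hdeg}

/-- **centred places** in terms of values: `Q = v` specialises to the node `i` iff for every
`f ∈ Λ` the value `f(v)` is `A`-integral and reduces to `e₁ i (red₁ f)`. -/
theorem S40NI_centred_iff (hx : S34P_Hyp S₁ S₂ hS x) (hred : S34P_red S₁ S₂ x = (x₁, x₂))
    (e₁ : ι → ↥(S34SB_chart L k (x : F) x₁ x₂ n hn).Rb₁ →ₐ[k] k)
    (e₂ : ι → ↥(S34SB_chart L k (x : F) x₁ x₂ n hn).Rb₂ →ₐ[k] k)
    (hW1 : S34K_W hS (S34SB_chart L k (x : F) x₁ x₂ n hn) 1 = S34B_W e₁ e₂) (i : ι)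
    (v : Place L F) (hv : 0 ≤ v.ord (x : F)) :
    S40NA_Centred (S40NI_nodeGen hdeg n hn hx hred e₁ e₂ hW1 i) (S40NI_pt v (hdeg v))
        (S40NI_pt_mem_U hdeg hv) ↔
      ∀ (f : F) (hf : f ∈ S40NI_Lam S₁ S₂ hdeg x), ∃ h : FD_c0 v f ∈ S₁.A,
        S₁.res ⟨FD_c0 v f, h⟩ = e₁ i (S40NI_pair n hn hx hred f hf).1 := by
  constructor
  · intro hc f hf
    obtain ⟨h, he⟩ := hc f hf
    have e : (S40NI_pt v (hdeg v)).ev ⟨f, (S40NI_nodeGen hdeg n hn hx hred e₁ e₂ hW1 i).mem_pt hf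
        (S40NI_pt_mem_U hdeg hv)⟩ = FD_c0 v f := S40NI_pt_ev v (hdeg v) f _
    have h' : FD_c0 v f ∈ S₁.A := e ▸ h
    refine ⟨h', ?_⟩
    have e2 : (⟨FD_c0 v f, h'⟩ : ↥S₁.A) = ⟨_, h⟩ := Subtype.ext e.symm
    rw [e2]
    exact he
  · intro hc f hf
    obtain ⟨h, he⟩ := hc f hf
    have e : (S40NI_pt v (hdeg v)).ev ⟨f, (S40NI_nodeGen hdeg n hn hx hred e₁ e₂ hW1 i).mem_pt hf
        (S40NI_pt_mem_U hdeg hv)⟩ = FD_c0 v f := S40NI_pt_ev v (hdeg v) f _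
    have h' : (S40NI_pt v (hdeg v)).ev ⟨f,
        (S40NI_nodeGen hdeg n hn hx hred e₁ e₂ hW1 i).mem_pt hf (S40NI_pt_mem_U hdeg hv)⟩ ∈
          (S40NI_nodeGen hdeg n hn hx hred e₁ e₂ hW1 i).A := by
      rw [e]; exact h
    refine ⟨h', ?_⟩
    have e2 : (⟨_, h'⟩ : ↥(S40NI_nodeGen hdeg n hn hx hred e₁ e₂ hW1 i).A) =
        (⟨FD_c0 v f, h⟩ : ↥S₁.A) := Subtype.ext e
    rw [e2]
    exact he

/-- the value of `ε` in terms of the SECOND reduction. -/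
theorem S40NI_eps_eq₂ (hx : S34P_Hyp S₁ S₂ hS x) (hred : S34P_red S₁ S₂ x = (x₁, x₂))
    (e₁ : ι → ↥(S34SB_chart L k (x : F) x₁ x₂ n hn).Rb₁ →ₐ[k] k)
    (e₂ : ι → ↥(S34SB_chart L k (x : F) x₁ x₂ n hn).Rb₂ →ₐ[k] k)
    (hW1 : S34K_W hS (S34SB_chart L k (x : F) x₁ x₂ n hn) 1 = S34B_W e₁ e₂) (i : ι)
    (f : F) (hf : f ∈ S40NI_Lam S₁ S₂ hdeg x) :
    (S40NI_nodeGen hdeg n hn hx hred e₁ e₂ hW1 i).ε ⟨f, hf⟩ =
      e₂ i (S40NI_pair n hn hx hred f hf).2 :=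
  S40NI_glue n hn hx hred e₁ e₂ hW1 f hf i

/-- the value of `ε` in terms of the FIRST reduction. -/
theorem S40NI_eps_eq₁ (hx : S34P_Hyp S₁ S₂ hS x) (hred : S34P_red S₁ S₂ x = (x₁, x₂))
    (e₁ : ι → ↥(S34SB_chart L k (x : F) x₁ x₂ n hn).Rb₁ →ₐ[k] k)
    (e₂ : ι → ↥(S34SB_chart L k (x : F) x₁ x₂ n hn).Rb₂ →ₐ[k] k)
    (hW1 : S34K_W hS (S34SB_chart L k (x : F) x₁ x₂ n hn) 1 = S34B_W e₁ e₂) (i : ι)
    (f : F) (hf : f ∈ S40NI_Lam S₁ S₂ hdeg x) :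
    (S40NI_nodeGen hdeg n hn hx hred e₁ e₂ hW1 i).ε ⟨f, hf⟩ =
      e₁ i (S40NI_pair n hn hx hred f hf).1 := rfl

/-- **UnitAt from the reduction**: `g ∈ O₁` whose first reduction is `ā / b̄` with `ā, b̄` the
reductions of functions `a, b ∈ Λ` not vanishing at the node `i`. -/
theorem S40NI_unitAt (hx : S34P_Hyp S₁ S₂ hS x) (hred : S34P_red S₁ S₂ x = (x₁, x₂))
    (e₁ : ι → ↥(S34SB_chart L k (x : F) x₁ x₂ n hn).Rb₁ →ₐ[k] k)
    (e₂ : ι → ↥(S34SB_chart L k (x : F) x₁ x₂ n hn).Rb₂ →ₐ[k] k)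
    (hW1 : S34K_W hS (S34SB_chart L k (x : F) x₁ x₂ n hn) 1 = S34B_W e₁ e₂) (i : ι)
    (g : F) (hg : g ∈ S₁.O) (a b : F) (ha : a ∈ S40NI_Lam S₁ S₂ hdeg x)
    (hb : b ∈ S40NI_Lam S₁ S₂ hdeg x)
    (hab : S₁.red ⟨g, hg⟩ * S₁.red ⟨b, (S40NI_mem_Lam.1 hb).1⟩ =
      S₁.red ⟨a, (S40NI_mem_Lam.1 ha).1⟩)
    (hea : e₁ i (S40NI_pair n hn hx hred a ha).1 ≠ 0)
    (heb : e₁ i (S40NI_pair n hn hx hred b hb).1 ≠ 0) :
    S40NA_UnitAt (S40NI_nodeGen hdeg n hn hx hred e₁ e₂ hW1 i) g := by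
  refine ⟨a, b, ha, hb, ?_, hea, heb⟩
  show g * b - a ∈ S₁.O.nonunits
  have hmem : g * b - a ∈ S₁.O :=
    sub_mem (mul_mem hg (S40NI_mem_Lam.1 hb).1) (S40NI_mem_Lam.1 ha).1
  rw [ValuationSubring.mem_nonunits_iff_exists_mem_maximalIdeal]
  refine ⟨hmem, ?_⟩
  rw [IsLocalRing.mem_maximalIdeal, mem_nonunits_iff]
  intro hu
  have hne := (S₁.red_ne_zero_iff _).2 hu
  apply hne
  have e : (⟨g * b - a, hmem⟩ : ↥S₁.O) =
      ⟨g, hg⟩ * ⟨b, (S40NI_mem_Lam.1 hb).1⟩ - ⟨a, (S40NI_mem_Lam.1 ha).1⟩ := rfl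
  rw [e, map_sub, map_mul, hab, sub_self]

end Gen

/-! ### the canonical objects of TRACK 7 -/

section Canon

variable (M q : ℕ) [NeZero (M * q)] (hq : q.Prime) (hqM : ¬ q ∣ M)
  (A : ValuationSubring (AlgebraicClosure ℚ))
  (hgen : PrincipalGeneratedByIntegral A (IsLocalRing.residue A) (M * q))

/-- `Λ` on the canonical objects: `O₁ ∩ O₂ ∩ B`, `B` = regular off the cusps. -/
abbrev S40NI_LamX : Subring ↥(modularFunctionFieldBar (M * q)) :=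
  S40NI_Lam (S34M_T1 M q A hgen) (S34M_T2 M q hq hqM A hgen) (S18_hRR (M * q)).deg_one
    (S34PX_j M q hq hqM A hgen)

theorem S40NI_mem_LamX {f : ↥(modularFunctionFieldBar (M * q))} :
    f ∈ S40NI_LamX M q hq hqM A hgen ↔
      f ∈ (S34M_T1 M q A hgen).O ∧ f ∈ (S34M_T2 M q hq hqM A hgen).O ∧
        f ∈ (S34M_chart M q A 1 Nat.one_pos).B :=
  S40NI_mem_Lam

/-- **the nodes of `X₀(M q)` over `A ∣ q` as abstract nodes** (`S40NA_Node`): there are finitely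
many `N i`, with `A`, `O₁ = V₁`, `O₂ = V₂ = V₁ ∘ w_q`, `U` = the non-cuspidal places, and the
values `ε_i` on `Λ` are `e₁ i ∘ red₁ = e₂ i ∘ red₂` for the nodes `e₁ e₂` of TRACK 7 (G1), which
are jointly surjective (`hE`) and cut out `W¹` (`hW1`). -/
theorem S40NI_exists_nodes (hA : A.LiesOverPrime q) :
    ∃ (s : ℕ) (e₁ : Fin s → ↥(S34M_chart M q A 1 Nat.one_pos).Rb₁ →ₐ[IsLocalRing.ResidueField A]
        IsLocalRing.ResidueField A)
      (e₂ : Fin s → ↥(S34M_chart M q A 1 Nat.one_pos).Rb₂ →ₐ[IsLocalRing.ResidueField A]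
        IsLocalRing.ResidueField A)
      (N : Fin s → S40NA_Node (AlgebraicClosure ℚ) ↥(modularFunctionFieldBar (M * q))
        (IsLocalRing.ResidueField A)),
      Function.Surjective (S34B_E e₁ e₂) ∧
      S34K_W (S34M_same M q hq hqM A hgen) (S34M_chart M q A 1 Nat.one_pos) 1 = S34B_W e₁ e₂ ∧
      ∀ i, (N i).A = (S34M_T1 M q A hgen).A ∧
        (N i).O₁ = (S34M_T1 M q A hgen).O ∧ (N i).O₂ = (S34M_T2 M q hq hqM A hgen).O ∧
        (N i).U = S40NI_U (S18_hRR (M * q)).deg_one (jB (M * q)) ∧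
        ∃ hΛ : (N i).Lam = S40NI_LamX M q hq hqM A hgen,
          ∀ (f : ↥(modularFunctionFieldBar (M * q))) (hf : f ∈ (N i).Lam)
            (h₁ : (S34M_T1 M q A hgen).red ⟨f, (S40NI_mem_Lam.1 (hΛ ▸ hf)).1⟩ ∈
              (S34M_chart M q A 1 Nat.one_pos).Rb₁)
            (h₂ : (S34M_T2 M q hq hqM A hgen).red ⟨f, (S40NI_mem_Lam.1 (hΛ ▸ hf)).2.1⟩ ∈
              (S34M_chart M q A 1 Nat.one_pos).Rb₂),
            (N i).ε ⟨f, hf⟩ = e₁ i ⟨_, h₁⟩ ∧ (N i).ε ⟨f, hf⟩ = e₂ i ⟨_, h₂⟩ := by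
  haveI : NeZero M := ⟨fun h => NeZero.ne (M * q) (by rw [h, zero_mul])⟩
  obtain ⟨s, e₁, e₂, hE, hW1⟩ := S34NX_nodes M q hq hqM A hA hgen 1 Nat.one_pos
  have hx : S34P_Hyp (S34M_T1 M q A hgen) (S34M_T2 M q hq hqM A hgen)
      (S34M_same M q hq hqM A hgen) (S34PX_j M q hq hqM A hgen) :=
    S34PX_hyp (S34VW_cart M q hq hqM A hgen hA)
  have hred := S34HX_red_j M q hq hqM A hgen hA
  refine ⟨s, e₁, e₂, fun i => S40NI_nodeGen (S18_hRR (M * q)).deg_one 1 Nat.one_pos hx hred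
    e₁ e₂ hW1 i, hE, hW1, fun i => ⟨rfl, rfl, rfl, rfl, rfl, fun f hf h₁ h₂ => ⟨rfl, ?_⟩⟩⟩
  exact S40NI_glue 1 Nat.one_pos hx hred e₁ e₂ hW1 f hf i

end Canon

end Fermat.Agent.S40
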