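import Fermat.Agent.S40.F2N4
import Fermat.Agent.S40.F2PolyInst
import Fermat.Agent.S40.NodeInst
import Fermat.Agent.S34.ValArch

/-!
# S40 (TRACK 13), GEO-6 package P1: the bridge to `S40F2YI_Hyp` and the instance facts (I-b), (I-d)
(helper14).  Prefix `S40F2N5_`.

* `S40F2N5_X_sub_ne` : the coordinate `X` is not a constant.
* `S40F2N5_zeros_finite` : the zeros of `X − w'` on the chart are finite in number.
* `S40F2N5_hex` : existence of nearby places (the hypothesis `hex` of `S40F2N4_uniformiser`).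
* `S40F2N5_hyp` : **the five fields of `S40F2YI_Hyp N C.X`** (helper1's (A1) layer) from the chart
  `S40F2N3_Chart`, rank one of `A`, finiteness of poles, `𝔪_A ⊂ 𝔪_{O_j}` and the local rings.
* (I-b) `S40F2N5_arch` : a valuation ring of `ℚ̄` over a prime is of rank one, in the shape `hA`.
* (I-d) `S40F2N5_hm`, `S40F2N5_hmem` : `𝔪_A ⊂ 𝔪_O` and `O ∩ L = A` for an `S18_Val`.
* `S40F2N5_hyp_node` : `S40F2YI_Hyp` at the node `i` of `S40NI_nodeGen`.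
-/

set_option autoImplicit false
set_option synthInstance.maxHeartbeats 400000
set_option maxHeartbeats 1000000

open AlgebraicCurve

namespace Fermat.Agent.S40

open Fermat.Agent.S18 Fermat.Agent.S34

section Abs

variable {L F k : Type*} [Field L] [Field F] [Algebra L F] [Field k]

/-- the coordinate is not a constant. -/
theorem S40F2N5_X_sub_ne {N : S40NA_Node L F k} (C : S40F2N_Coord N)
    (hm₁ : ∀ c : L, c ∈ N.A.nonunits → algebraMap L F c ∈ N.O₁.nonunits)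
    (hmem : ∀ c : L, algebraMap L F c ∈ N.O₁ → c ∈ N.A) (w' : L) :
    C.X - algebraMap L F w' ≠ 0 := by
  intro h
  have hX : C.X = algebraMap L F w' := sub_eq_zero.1 h
  have hw'A : w' ∈ N.A := hmem w' (hX ▸ N.mem_O₁ C.hX)
  have hΛ : algebraMap L F w' ∈ N.Lam := hX ▸ C.hX
  have e : (⟨C.X, C.hX⟩ : ↥N.Lam) = ⟨algebraMap L F w', hΛ⟩ := Subtype.ext hX
  have hε := C.εX
  rw [e, N.ε_const w' hw'A hΛ] at hε
  have hn : w' ∈ N.A.nonunits := S40F2N_nonunit_of_res N ⟨w', hw'A⟩ hε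
  have hXn : C.X ∈ N.O₁.nonunits := hX ▸ hm₁ w' hn
  exact S40F2N_inv_not_mem N.O₁ hXn C.X_ne_zero C.X_unit

/-- the zeros of `X − w'` on the chart are finite in number. -/
theorem S40F2N5_zeros_finite {N : S40NA_Node L F k} (C : S40F2N_Coord N)
    (hfin : ∀ g : F, {Q : S40NA_Pt L F | Q ∈ N.U ∧ g ∉ Q.P}.Finite)
    (hm₁ : ∀ c : L, c ∈ N.A.nonunits → algebraMap L F c ∈ N.O₁.nonunits)
    (hmem : ∀ c : L, algebraMap L F c ∈ N.O₁ → c ∈ N.A) (w' : L) :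
    {Q : S40NA_Pt L F | Q ∈ N.U ∧ C.X - algebraMap L F w' ∈ Q.P.nonunits}.Finite :=
  (hfin (C.X - algebraMap L F w')⁻¹).subset (fun Q hQ =>
    ⟨hQ.1, S40F2N_inv_not_mem Q.P hQ.2 (S40F2N5_X_sub_ne C hm₁ hmem w')⟩)

/-- **existence of nearby places.** -/
theorem S40F2N5_hex {N : S40NA_Node L F k} (C : S40F2N_Coord N)
    (hfin : ∀ g : F, {Q : S40NA_Pt L F | Q ∈ N.U ∧ g ∉ Q.P}.Finite)
    (hm₁ : ∀ c : L, c ∈ N.A.nonunits → algebraMap L F c ∈ N.O₁.nonunits)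
    (hm₂ : ∀ c : L, c ∈ N.A.nonunits → algebraMap L F c ∈ N.O₂.nonunits)
    (hmem : ∀ c : L, algebraMap L F c ∈ N.O₁ → c ∈ N.A)
    (Q : S40NA_Pt L F) (hQ : Q ∈ N.U) (hc : S40NA_Centred N Q hQ) :
    ∀ θ : L, θ ∈ N.A.nonunits → θ ≠ 0 → ∃ (Q' : S40NA_Pt L F) (hQ' : Q' ∈ N.U),
      S40NA_Centred N Q' hQ' ∧
        S40F2N_at Q C.X - S40F2N_at Q' C.X = θ * S40F2N_at Q C.X :=
  S40F2N4_hex C Q hQ hc hm₁ hm₂ (S40F2N5_zeros_finite C hfin hm₁ hmem)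

/-- **the hypotheses of (A1)** (`S40F2YI_Hyp`) from the chart. -/
theorem S40F2N5_hyp {N : S40NA_Node L F k} (C : S40F2N_Coord N) (Ch : S40F2N3_Chart N C)
    (hA : ∀ g b : L, b ∈ N.A.nonunits → ∃ m : ℕ, g * b ^ m ∈ N.A)
    (hfin : ∀ g : F, {Q : S40NA_Pt L F | Q ∈ N.U ∧ g ∉ Q.P}.Finite)
    (hm₁ : ∀ c : L, c ∈ N.A.nonunits → algebraMap L F c ∈ N.O₁.nonunits)
    (hm₂ : ∀ c : L, c ∈ N.A.nonunits → algebraMap L F c ∈ N.O₂.nonunits)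
    (hmem : ∀ c : L, algebraMap L F c ∈ N.O₁ → c ∈ N.A)
    (hloc : ∀ (Q : S40NA_Pt L F) (hQ : Q ∈ N.U), S40NA_Centred N Q hQ → S40F2N4_Loc Ch Q) :
    S40F2YI_Hyp N C.X where
  hfin := hfin
  hXmem _ hQ _ := N.mem_pt C.hX hQ
  ht0 _ _ _ := S40F2N5_X_sub_ne C hm₁ hmem _
  hunif Q hQ hc := S40F2N4_uniformiser C Ch hA Q hQ hc (hloc Q hQ hc)
    (S40F2N5_hex C hfin hm₁ hm₂ hmem Q hQ hc)
  hsep Q Q' hQ hQ' hc hc' hX := S40F2YI_pt_ext Q Q'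
    (S40F2N4_place_unique C Ch hA Q Q' hQ hQ' hc hc' hX (hloc Q hQ hc) (hloc Q' hQ' hc'))

end Abs

/-! ### instance facts -/

/-- **(I-b)** a valuation ring of `ℚ̄` over a prime `q` is of rank one. -/
theorem S40F2N5_arch (q : ℕ) (hq : q.Prime) (A : ValuationSubring (AlgebraicClosure ℚ))
    (hA : A.LiesOverPrime q) :
    ∀ g b : AlgebraicClosure ℚ, b ∈ A.nonunits → ∃ m : ℕ, g * b ^ m ∈ A := by
  intro g b hb
  by_cases hb0 : b = 0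
  · exact ⟨1, by rw [hb0, pow_one, mul_zero]; exact A.zero_mem⟩
  by_cases hg0 : g = 0
  · exact ⟨0, by rw [hg0, zero_mul]; exact A.zero_mem⟩
  obtain ⟨n, hn⟩ := S34VA_arch q hq A hA g hg0
  obtain ⟨m, hm⟩ := S34VA_arch' q hq A hA b (ValuationSubring.nonunits_subset hb)
    (S40F2N_inv_not_mem A hb hb0) n
  refine ⟨m, ?_⟩
  have hq0 : (q : AlgebraicClosure ℚ) ≠ 0 := Nat.cast_ne_zero.2 hq.ne_zero
  have e : g * b ^ m = (q : AlgebraicClosure ℚ) ^ n * g *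
      (b ^ m * ((q : AlgebraicClosure ℚ) ^ n)⁻¹) := by
    field_simp
  rw [e]
  exact mul_mem hn hm

section Val

variable {L F k Fk : Type*} [Field L] [Field F] [Algebra L F] [Field k] [Field Fk]
  [Algebra k Fk]

/-- **(I-d)** `𝔪_A ⊂ 𝔪_O`. -/
theorem S40F2N5_hm (S : S18_Val L F k Fk) (c : L) (hc : c ∈ S.A.nonunits) :
    algebraMap L F c ∈ S.O.nonunits := by
  by_cases hc0 : c = 0
  · rw [hc0, map_zero]
    exact S.O.nonunits.zero_mem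
  apply S40F2N_nonunit_of_inv_not_mem
  rw [← map_inv₀, S.algebraMap_mem_iff]
  exact S40F2N_inv_not_mem S.A hc hc0

/-- `O ∩ L = A`. -/
theorem S40F2N5_hmem (S : S18_Val L F k Fk) (c : L) (hc : algebraMap L F c ∈ S.O) : c ∈ S.A :=
  (S.algebraMap_mem_iff c).1 hc

end Val

/-! ### the node `i` of `S40NI_nodeGen` -/

section Node

variable {L F k Fk₁ Fk₂ : Type*} [Field L] [Field F] [Algebra L F] [Field k] [Field Fk₁]
  [Field Fk₂] [Algebra k Fk₁] [Algebra k Fk₂]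
  {S₁ : S18_Val L F k Fk₁} {S₂ : S18_Val L F k Fk₂} {hS : S34P_Same S₁ S₂}
  (hdeg : ∀ v : Place L F, v.deg = 1) {x : S34P_O2 S₁ S₂} {x₁ : Fk₁} {x₂ : Fk₂}
  (n : ℕ) (hn : 0 < n) {ι : Type*}

/-- **`S40F2YI_Hyp` at the node `i`**: what is left is the chart (`S40NS_chart`), rank one of the
base and the local rings (`S40F2N4_Loc`). -/
theorem S40F2N5_hyp_node [HasPrincipalDivisors L F] (hx : S34P_Hyp S₁ S₂ hS x)
    (hred : S34P_red S₁ S₂ x = (x₁, x₂))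
    (e₁ : ι → ↥(S34SB_chart L k (x : F) x₁ x₂ n hn).Rb₁ →ₐ[k] k)
    (e₂ : ι → ↥(S34SB_chart L k (x : F) x₁ x₂ n hn).Rb₂ →ₐ[k] k)
    (hW1 : S34K_W hS (S34SB_chart L k (x : F) x₁ x₂ n hn) 1 = S34B_W e₁ e₂) (i : ι)
    (C : S40F2N_Coord (S40NI_nodeGen hdeg n hn hx hred e₁ e₂ hW1 i))
    (Ch : S40F2N3_Chart (S40NI_nodeGen hdeg n hn hx hred e₁ e₂ hW1 i) C)
    (hA : ∀ g b : L, b ∈ S₁.A.nonunits → ∃ m : ℕ, g * b ^ m ∈ S₁.A)
    (hloc : ∀ (Q : S40NA_Pt L F)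
      (hQ : Q ∈ (S40NI_nodeGen hdeg n hn hx hred e₁ e₂ hW1 i).U),
      S40NA_Centred (S40NI_nodeGen hdeg n hn hx hred e₁ e₂ hW1 i) Q hQ → S40F2N4_Loc Ch Q) :
    S40F2YI_Hyp (S40NI_nodeGen hdeg n hn hx hred e₁ e₂ hW1 i) C.X :=
  S40F2N5_hyp C Ch hA (fun g => S40NI_poles_finite hdeg (x : F) g) (S40F2N5_hm S₁)
    (fun c hc => S40F2N5_hm S₂ c (hS.A_eq ▸ hc)) (S40F2N5_hmem S₁) hloc

end Node

end Fermat.Agent.S40
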