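import Fermat.Agent.S40.F2SlopeNA

/-!
# TRACK 13 (S40/S44), P4-SLOPE, integer form = the inputs `hx`, `hf` of `EndGame.lean` (helper22) — prefix `S40F2SI_`

`S40F2SI_Val O Lc vL` : an integer valuation `vL : F → ℤ` on the nonzero elements of a subfield `Lc` of constants
(additive on products, `0` on the elements of `Lc` which are units of `O`).

* `S40F2SI_slope_val` : (Step 6, e.g. for the modular unit `f₀`) `f` without zero/pole specialising to the node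
  ⇒ `vL c₂ − vL c₁ = n · vL ϖ`;
* `S40F2SI_slope_gen_val` : (Step 5) `u = u' · ∏ (X − w i)^(p · m i)` ⇒
  `vL c₂ − vL c₁ = n · vL ϖ + p · (vL W − (Σ m i) · vL ϖ)`, `W = ∏ w i ^ m i ∈ Lc`;
* `S40F2SI_hx` : with `vL ϖ = p · e'`: `∃ K, vL c₂ − vL c₁ = p · K ∧ p ∣ K − (n · e' + vL W)`   (= `hx` of `S40EG_star`).
-/

set_option autoImplicit false

namespace Fermat.Agent.S40

variable {F : Type*} [Field F]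

/-- an integer valuation on the nonzero elements of the subfield `Lc`, trivial on the units of `O` in `Lc`. -/
structure S40F2SI_Val (O : ValuationSubring F) (Lc : Subfield F) (vL : F → ℤ) : Prop where
  mul : ∀ x ∈ Lc, ∀ y ∈ Lc, x ≠ 0 → y ≠ 0 → vL (x * y) = vL x + vL y
  unit : ∀ x ∈ Lc, S40F2S_IsU O x → vL x = 0

namespace S40F2SI_Val

variable {O : ValuationSubring F} {Lc : Subfield F} {vL : F → ℤ}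

theorem one (h : S40F2SI_Val O Lc vL) : vL 1 = 0 :=
  h.unit 1 Lc.one_mem (S40F2S_isU_one O)

theorem inv (h : S40F2SI_Val O Lc vL) {x : F} (hx : x ∈ Lc) (hx0 : x ≠ 0) : vL x⁻¹ = -vL x := by
  have h1 := h.mul x hx x⁻¹ (Lc.inv_mem hx) hx0 (inv_ne_zero hx0)
  rw [mul_inv_cancel₀ hx0, h.one] at h1
  linarith

theorem div (h : S40F2SI_Val O Lc vL) {x y : F} (hx : x ∈ Lc) (hy : y ∈ Lc) (hx0 : x ≠ 0)
    (hy0 : y ≠ 0) : vL (x / y) = vL x - vL y := by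
  rw [div_eq_mul_inv, h.mul x hx y⁻¹ (Lc.inv_mem hy) hx0 (inv_ne_zero hy0), h.inv hy hy0]
  ring

theorem pow (h : S40F2SI_Val O Lc vL) {x : F} (hx : x ∈ Lc) (hx0 : x ≠ 0) (n : ℕ) :
    vL (x ^ n) = n * vL x := by
  induction n with
  | zero => simp [h.one]
  | succ n ih =>
    rw [pow_succ, h.mul _ (Lc.pow_mem hx n) x hx (pow_ne_zero n hx0) hx0, ih]
    push_cast
    ring

theorem zpow (h : S40F2SI_Val O Lc vL) {x : F} (hx : x ∈ Lc) (hx0 : x ≠ 0) (n : ℤ) :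
    vL (x ^ n) = n * vL x := by
  cases n with
  | ofNat n =>
    simp only [Int.ofNat_eq_natCast, zpow_natCast]
    exact h.pow hx hx0 n
  | negSucc n =>
    rw [zpow_negSucc, h.inv (Lc.pow_mem hx _) (pow_ne_zero _ hx0), h.pow hx hx0]
    rw [Int.negSucc_eq]
    push_cast
    ring

end S40F2SI_Val

/-- `∏ (w i / ϖ)^(p · m i) = (∏ w i ^ m i)^p / ϖ^(p · Σ m i)`. -/
theorem S40F2SI_prod_eq {ι : Type*} (s : Finset ι) (w : ι → F) (m : ι → ℤ) {ϖ : F} (hϖ0 : ϖ ≠ 0)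
    (p : ℕ) :
    ∏ i ∈ s, (w i / ϖ) ^ ((p : ℤ) * m i) =
      (∏ i ∈ s, w i ^ m i) ^ p / ϖ ^ ((p : ℤ) * ∑ i ∈ s, m i) := by
  classical
  induction s using Finset.induction_on with
  | empty => simp
  | insert j t hjt ih =>
    rw [Finset.prod_insert hjt, Finset.prod_insert hjt, Finset.sum_insert hjt, ih, mul_add,
      zpow_add₀ hϖ0, mul_pow, div_zpow]
    have e : w j ^ ((p : ℤ) * m j) = (w j ^ m j) ^ p := by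
      rw [mul_comm, zpow_mul, zpow_natCast]
    rw [e]
    have h1 : ϖ ^ ((p : ℤ) * m j) ≠ 0 := zpow_ne_zero _ hϖ0
    have h2 : ϖ ^ ((p : ℤ) * ∑ i ∈ t, m i) ≠ 0 := zpow_ne_zero _ hϖ0
    field_simp

variable {L k : Type*} [Field L] [Algebra L F] [Field k]

/-- **Step 6** (unit case, e.g. `f₀`): `vL c₂ − vL c₁ = n · vL ϖ`. -/
theorem S40F2SI_slope_val (N : S40NA_Node L F k)
    (hfin : ∀ g : F, {Q : S40NA_Pt L F | Q ∈ N.U ∧ g ∉ Q.P}.Finite)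
    {X Y ϖ : F} (hXY : X * Y = ϖ) (hX : S40F2S_IsU N.O₁ X) (hY : S40F2S_IsU N.O₂ Y)
    (hXP : S40F2SN_NoZP N X)
    {Lc : Subfield F} {vL : F → ℤ} (hv : S40F2SI_Val N.O₂ Lc vL)
    {f c₁ c₂ : F} (hc₁ : c₁ ∈ (algebraMap L F).fieldRange) (hc₁0 : c₁ ≠ 0) (hc₂0 : c₂ ≠ 0) (n : ℤ)
    (hf₁ : S40F2SN_U1 N (f / (c₁ * X ^ n)))
    (hf₂ : S40F2S_IsU N.O₂ (f / c₂))
    (hfP : S40F2SN_NoZP N f)
    (hc₁L : c₁ ∈ Lc) (hc₂L : c₂ ∈ Lc) (hϖL : ϖ ∈ Lc) :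
    vL c₂ - vL c₁ = n * vL ϖ := by
  have hϖ0 : ϖ ≠ 0 := by rw [← hXY]; exact mul_ne_zero hX.ne_zero hY.ne_zero
  have key := S40F2SN_slope N hfin hXY hX hY hXP hc₁ hc₁0 hc₂0 n hf₁ hf₂ hfP
  have h0 := hv.unit _ (Lc.div_mem hc₂L (Lc.mul_mem hc₁L (Lc.zpow_mem hϖL n))) key
  rw [hv.div hc₂L (Lc.mul_mem hc₁L (Lc.zpow_mem hϖL n)) hc₂0
    (mul_ne_zero hc₁0 (zpow_ne_zero _ hϖ0)),
    hv.mul c₁ hc₁L _ (Lc.zpow_mem hϖL n) hc₁0 (zpow_ne_zero _ hϖ0), hv.zpow hϖL hϖ0] at h0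
  linarith

/-- **Step 5**: `vL c₂ − vL c₁ = n · vL ϖ + p · (vL W − (Σ m i) · vL ϖ)`, `W = ∏ w i ^ m i`. -/
theorem S40F2SI_slope_gen_val (N : S40NA_Node L F k)
    (hfin : ∀ g : F, {Q : S40NA_Pt L F | Q ∈ N.U ∧ g ∉ Q.P}.Finite)
    {X Y ϖ : F} (hXY : X * Y = ϖ) (hX : S40F2S_IsU N.O₁ X) (hY : S40F2S_IsU N.O₂ Y)
    (hXP : S40F2SN_NoZP N X)
    {Lc : Subfield F} {vL : F → ℤ} (hv : S40F2SI_Val N.O₂ Lc vL)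
    {ι : Type*} (s : Finset ι) (w : ι → F) (m : ι → ℤ)
    (hw0 : ∀ i ∈ s, w i ≠ 0)
    (hw₁ : ∀ i ∈ s, w i ∈ N.O₁.nonunits) (hw₂ : ∀ i ∈ s, ϖ / w i ∈ N.O₂.nonunits)
    {u' c₁ : F} (hc₁ : c₁ ∈ (algebraMap L F).fieldRange) (hc₁0 : c₁ ≠ 0)
    (hu'P : S40F2SN_NoZP N u')
    {u c₂ : F} (p : ℕ) (hu : u = u' * ∏ i ∈ s, (X - w i) ^ ((p : ℤ) * m i))
    (hc₂0 : c₂ ≠ 0) (n : ℤ)
    (hu₁ : S40F2SN_U1 N (u / (c₁ * X ^ n)))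
    (hu₂ : S40F2S_IsU N.O₂ (u / c₂))
    (hc₁L : c₁ ∈ Lc) (hc₂L : c₂ ∈ Lc) (hϖL : ϖ ∈ Lc) (hWL : ∏ i ∈ s, w i ^ m i ∈ Lc) :
    vL c₂ - vL c₁ =
      n * vL ϖ + p * (vL (∏ i ∈ s, w i ^ m i) - (∑ i ∈ s, m i) * vL ϖ) := by
  have hϖ0 : ϖ ≠ 0 := by rw [← hXY]; exact mul_ne_zero hX.ne_zero hY.ne_zero
  have hW0 : ∏ i ∈ s, w i ^ m i ≠ 0 :=
    Finset.prod_ne_zero_iff.2 (fun i hi => zpow_ne_zero _ (hw0 i hi))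
  have key := S40F2SN_slope_gen N hfin hXY hX hY hXP s w (fun i => (p : ℤ) * m i) hw0 hw₁ hw₂
    hc₁ hc₁0 hu'P hu hc₂0 n hu₁ hu₂
  rw [S40F2SI_prod_eq s w m hϖ0 p] at key
  have hA : (∏ i ∈ s, w i ^ m i) ^ p ∈ Lc := Lc.pow_mem hWL p
  have hB : ϖ ^ ((p : ℤ) * ∑ i ∈ s, m i) ∈ Lc := Lc.zpow_mem hϖL _
  have hA0 : (∏ i ∈ s, w i ^ m i) ^ p ≠ 0 := pow_ne_zero _ hW0
  have hB0 : ϖ ^ ((p : ℤ) * ∑ i ∈ s, m i) ≠ 0 := zpow_ne_zero _ hϖ0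
  have hD : c₁ * ϖ ^ n ∈ Lc := Lc.mul_mem hc₁L (Lc.zpow_mem hϖL n)
  have hD0 : c₁ * ϖ ^ n ≠ 0 := mul_ne_zero hc₁0 (zpow_ne_zero _ hϖ0)
  have h0 := hv.unit _ (Lc.div_mem hc₂L (Lc.mul_mem hD (Lc.div_mem hA hB))) key
  rw [hv.div hc₂L (Lc.mul_mem hD (Lc.div_mem hA hB)) hc₂0
      (mul_ne_zero hD0 (div_ne_zero hA0 hB0)),
    hv.mul _ hD _ (Lc.div_mem hA hB) hD0 (div_ne_zero hA0 hB0),
    hv.mul c₁ hc₁L _ (Lc.zpow_mem hϖL n) hc₁0 (zpow_ne_zero _ hϖ0), hv.zpow hϖL hϖ0,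
    hv.div hA hB hA0 hB0, hv.pow hWL hW0, hv.zpow hϖL hϖ0] at h0
  linear_combination h0

/-- **`hx` of `S40EG_star`**: with `vL ϖ = p · e'` the integer `K = (vL c₂ − vL c₁) / p` satisfies
`p ∣ K − (n · e' + vL W)`. -/
theorem S40F2SI_hx (N : S40NA_Node L F k)
    (hfin : ∀ g : F, {Q : S40NA_Pt L F | Q ∈ N.U ∧ g ∉ Q.P}.Finite)
    {X Y ϖ : F} (hXY : X * Y = ϖ) (hX : S40F2S_IsU N.O₁ X) (hY : S40F2S_IsU N.O₂ Y)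
    (hXP : S40F2SN_NoZP N X)
    {Lc : Subfield F} {vL : F → ℤ} (hv : S40F2SI_Val N.O₂ Lc vL)
    {ι : Type*} (s : Finset ι) (w : ι → F) (m : ι → ℤ)
    (hw0 : ∀ i ∈ s, w i ≠ 0)
    (hw₁ : ∀ i ∈ s, w i ∈ N.O₁.nonunits) (hw₂ : ∀ i ∈ s, ϖ / w i ∈ N.O₂.nonunits)
    {u' c₁ : F} (hc₁ : c₁ ∈ (algebraMap L F).fieldRange) (hc₁0 : c₁ ≠ 0)
    (hu'P : S40F2SN_NoZP N u')
    {u c₂ : F} (p : ℕ) (hu : u = u' * ∏ i ∈ s, (X - w i) ^ ((p : ℤ) * m i))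
    (hc₂0 : c₂ ≠ 0) (n : ℤ)
    (hu₁ : S40F2SN_U1 N (u / (c₁ * X ^ n)))
    (hu₂ : S40F2S_IsU N.O₂ (u / c₂))
    (hc₁L : c₁ ∈ Lc) (hc₂L : c₂ ∈ Lc) (hϖL : ϖ ∈ Lc) (hWL : ∏ i ∈ s, w i ^ m i ∈ Lc)
    (e' : ℤ) (hϖe : vL ϖ = p * e') :
    ∃ K : ℤ, vL c₂ - vL c₁ = p * K ∧
      (p : ℤ) ∣ K - (n * e' + vL (∏ i ∈ s, w i ^ m i)) := by
  have key := S40F2SI_slope_gen_val N hfin hXY hX hY hXP hv s w m hw0 hw₁ hw₂ hc₁ hc₁0 hu'P p hu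
    hc₂0 n hu₁ hu₂ hc₁L hc₂L hϖL hWL
  refine ⟨n * e' + vL (∏ i ∈ s, w i ^ m i) - (∑ i ∈ s, m i) * vL ϖ, ?_, ?_⟩
  · rw [key, hϖe]; ring
  · refine ⟨-((∑ i ∈ s, m i) * e'), ?_⟩
    rw [hϖe]; ring

end Fermat.Agent.S40
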