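import Mathlib
import Fermat.Agent.S36.ModUnitFinal
import Fermat.Agent.S34.Asm3

/-!
# TRACK 13 (S40), package EG-f₀ (helper3), prefix `S40F2U_`: the modular unit at the nodes

`f₀ = Δ(pz)/Δ(z) = S36F0_f0 M p ∈ F_{Mp}` (TRACK 10, package F0), `V₁ = (S34M_T1 …).O`,
`V₂ = (S34M_T2 …).O = V₁ ∘ w_p`.

* `S40F2U_ne_zero`  : `f₀ ≠ 0`;
* `S40F2U_ord_fin`  : **(a)** `f₀` has no zero and no pole at a place where `j` is regular (in
  particular at no place centred at a node);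
* `S40F2U_mem_O1`, `S40F2U_inv_mem_O1` : **(b1)** `f₀` is a unit of `V₁`;
* `S40F2U_c`, `S40F2U_mem_O2`, `S40F2U_inv_mem_O2` : **(b2)** `p¹² f₀` is a unit of `V₂`
  (so `V₂(f₀) − V₁(f₀) = − 12 v(p)`);
* `S40F2U_wq_mul` : `w_p (p¹² f₀) = f₀⁻¹` (the reduction of `p¹² f₀` along `V₂` is the reduction
  of `f₀⁻¹` along `V₁`);
* `S40F2U_red_inv` : **(r)** the reduction of `f₀⁻¹` along `V₁` is `P(j̄)`, `deg P = p − 1`.
-/

set_option autoImplicit false
set_option synthInstance.maxHeartbeats 400000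
set_option maxHeartbeats 1000000
set_option linter.unusedSectionVars false
set_option linter.style.haveILetI false

open AlgebraicCurve ModularCurve Polynomial

noncomputable section

namespace Fermat.Agent.S40

open Fermat.Agent.S18 Fermat.Agent.S24 Fermat.Agent.S34 Fermat.Agent.S36

variable (M p : ℕ) [NeZero (M * p)] [NeZero p] (hp : p.Prime) (hpM : ¬ p ∣ M)
  (A : ValuationSubring (AlgebraicClosure ℚ)) (hA : A.LiesOverPrime p)
  (hgen : PrincipalGeneratedByIntegral A (IsLocalRing.residue A) (M * p))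

theorem S40F2U_ne_zero : S36F0_f0 M p ≠ 0 := S36F0_f0_ne_zero M p

/-- **(a)**: `f₀` has no zero and no pole where `j` is regular. -/
theorem S40F2U_ord_fin
    (v : Place (AlgebraicClosure ℚ) ↥(modularFunctionFieldBar (M * p)))
    (hv : 0 ≤ v.ord (jB (M * p))) : v.ord (S36F0_f0 M p) = 0 :=
  S36F0_f0_ord_fin M p v hv

include hp hpM hA in
/-- **(b1)**: `f₀ ∈ V₁`. -/
theorem S40F2U_mem_O1 : S36F0_f0 M p ∈ (S34M_T1 M p A hgen).O := by
  rw [S34M_T1_O, S34DF_mem_O1]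
  exact (S36F0_unit M p hp hpM A hA).mem_O

include hp hpM hA in
/-- **(b1)**: `f₀⁻¹ ∈ V₁`. -/
theorem S40F2U_inv_mem_O1 : (S36F0_f0 M p)⁻¹ ∈ (S34M_T1 M p A hgen).O := by
  rw [S34M_T1_O, S34DF_mem_O1]
  exact (S36F0_unit M p hp hpM A hA).inv_mem_O

/-- the constant `p¹²`. -/
def S40F2U_c : ↥(modularFunctionFieldBar (M * p)) :=
  algebraMap (AlgebraicClosure ℚ) ↥(modularFunctionFieldBar (M * p))
    ((p : AlgebraicClosure ℚ) ^ 12)

theorem S40F2U_c_ne_zero : S40F2U_c M p ≠ 0 := by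
  unfold S40F2U_c
  rw [Ne, map_eq_zero]
  exact pow_ne_zero _ (Nat.cast_ne_zero.2 (NeZero.ne p))

/-- `w_p (p¹² f₀) = f₀⁻¹`. -/
theorem S40F2U_wq_mul :
    S34DF_wq M p hp hpM (S40F2U_c M p * S36F0_f0 M p) = (S36F0_f0 M p)⁻¹ := by
  have hc : (p : AlgebraicClosure ℚ) ^ 12 ≠ 0 := pow_ne_zero _ (Nat.cast_ne_zero.2 (NeZero.ne p))
  rw [map_mul, S36F0_f0_wq M p hp hpM]
  unfold S40F2U_c
  rw [AlgEquiv.commutes, ← mul_assoc, ← map_mul, mul_inv_cancel₀ hc, map_one, one_mul]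

/-- `w_p ((p¹² f₀)⁻¹) = f₀`. -/
theorem S40F2U_wq_inv :
    S34DF_wq M p hp hpM (S40F2U_c M p * S36F0_f0 M p)⁻¹ = S36F0_f0 M p := by
  rw [map_inv₀, S40F2U_wq_mul, inv_inv]

include hA in
/-- **(b2)**: `p¹² f₀ ∈ V₂`. -/
theorem S40F2U_mem_O2 :
    S40F2U_c M p * S36F0_f0 M p ∈ (S34M_T2 M p hp hpM A hgen).O := by
  rw [S34M_T2_O, S34DF_mem_O2, S40F2U_wq_mul]
  exact (S36F0_unit M p hp hpM A hA).inv_mem_O

include hA in
/-- **(b2)**: `(p¹² f₀)⁻¹ ∈ V₂`. -/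
theorem S40F2U_inv_mem_O2 :
    (S40F2U_c M p * S36F0_f0 M p)⁻¹ ∈ (S34M_T2 M p hp hpM A hgen).O := by
  rw [S34M_T2_O, S34DF_mem_O2, S40F2U_wq_inv]
  exact (S36F0_unit M p hp hpM A hA).mem_O

include hp hpM hA in
/-- **(r)**: the reduction of `f₀⁻¹` along `V₁` is a polynomial of degree `p − 1` in `j̄`. -/
theorem S40F2U_red_inv :
    ∃ P : Polynomial (IsLocalRing.ResidueField A), P.natDegree = p - 1 ∧
      ((S18_red A (M * p) ⟨(S36F0_f0 M p)⁻¹, (S36F0_unit M p hp hpM A hA).inv_mem_O⟩ :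
          ↥(modularFunctionFieldFullC (IsLocalRing.ResidueField A) (M * p))) :
            LaurentSeries (IsLocalRing.ResidueField A)) =
        Polynomial.aeval
          ((S18_red A (M * p) ⟨jB (M * p), S34VW_jB_mem M p A⟩ :
            ↥(modularFunctionFieldFullC (IsLocalRing.ResidueField A) (M * p))) :
              LaurentSeries (IsLocalRing.ResidueField A)) P :=
  (S36F0_unit M p hp hpM A hA).red_inv

end Fermat.Agent.S40
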