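import Fermat.Agent.S40.NodeSlope
import Fermat.Agent.S40.F2SlopeInt
import Fermat.Agent.S40.F2U

/-!
# TRACK 13 (S40), package EG-f₀ (helper3), part 3: Step 6 — the slope of the modular unit `f₀` at
the nodes of `X₀(M p)`.  Prefix `S40F2US_`.

`f₀ = S36F0_f0 M p = Δ(pz)/Δ(z)`, `c = S40F2U_c M p = p¹²`, `V₁ = (S34M_T1 …).O`,
`V₂ = (S34M_T2 …).O`; nodes and places `P i` as in `S40NP_canon` (`S40/NodePl.lean`); the node `i`
is `S40NI_nodeGen (S18_hRR (M p)).deg_one 1 Nat.one_pos hx hred e₁ e₂ hW1 i`.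

* `S40F2US_isU_place` : `f₀` is a unit at every place where `j` is regular;
* `S40F2US_noZP` : `f₀` has no zero and no pole specialising to a node (any `S40NA_Node` whose
  chart is `j ≠ ∞`), `S40F2US_noZP_canon` for the canonical nodes;
* `S40F2US_isU₁` : `f₀` is a unit of `V₁`;  `S40F2US_isU₂` : `f₀ / c⁻¹ = p¹² f₀` is a unit of `V₂`;
* `S40F2US_slope` : **Step 6** (unit form): for a coordinate pair `X Y = ϖ` at the node `i`
  (`X` a unit of `V₁` with `ord_{P i} (red₁ X) = 1`, `Y` a unit of `V₂`, `X` without zero and pole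
  specialising to the node) and `m = ord_{P i} (red₁ f₀)`:  `c⁻¹ / ϖ ^ m` is a unit of `V₂`,
  i.e. `− 12 v(p) = n₀(i) · v(ϖ)`;
* `S40F2US_slope_val` : the same for an integer valuation `vL` (`S40F2SI_Val`):
  `− vL c = m · vL ϖ`;  `S40F2US_slope_val'` : `− 12 · vL p = m · vL ϖ`.
-/

set_option autoImplicit false
set_option synthInstance.maxHeartbeats 400000
set_option maxHeartbeats 1000000
set_option linter.unusedSectionVars false
set_option linter.unusedVariables false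
set_option linter.style.haveILetI false

open HahnSeries IntermediateField AlgebraicCurve ModularCurve

noncomputable section

namespace Fermat.Agent.S40

open Fermat.Agent.Lib Fermat.Agent.S18 Fermat.Agent.S24 Fermat.Agent.S34 Fermat.Agent.S36
  Fermat.Agent.GalRep

variable (M p : ℕ) [NeZero (M * p)] [NeZero p] (hp : p.Prime) (hpM : ¬ p ∣ M)
  (A : ValuationSubring (AlgebraicClosure ℚ)) (hA : A.LiesOverPrime p)
  (hgen : PrincipalGeneratedByIntegral A (IsLocalRing.residue A) (M * p))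

/-- `f₀` is a unit at every place where `j` is regular. -/
theorem S40F2US_isU_place
    (v : Place (AlgebraicClosure ℚ) ↥(modularFunctionFieldBar (M * p)))
    (hv : 0 ≤ v.ord (jB (M * p))) :
    S40F2S_IsU v.toValuationSubring (S36F0_f0 M p) := by
  have h0 := S40F2U_ord_fin M p v hv
  have hne := S40F2U_ne_zero M p
  refine S40F2S_isU_iff.2 ⟨?_, ?_, hne⟩
  · rw [BG_mem_iff_ord_nonneg v hne, h0]
  · rw [BG_mem_iff_ord_nonneg v (inv_ne_zero hne), v.ord_inv, h0, neg_zero]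

/-- `f₀` has no zero and no pole specialising to a node of the chart `j ≠ ∞`. -/
theorem S40F2US_noZP {k : Type*} [Field k]
    (N : S40NA_Node (AlgebraicClosure ℚ) ↥(modularFunctionFieldBar (M * p)) k)
    (hU : N.U = S40NI_U (S18_hRR (M * p)).deg_one (jB (M * p))) :
    S40F2SN_NoZP N (S36F0_f0 M p) := by
  intro Q hQ _
  have hQ' : Q ∈ S40NI_U (S18_hRR (M * p)).deg_one (jB (M * p)) := hU ▸ hQ
  obtain ⟨v, hv, rfl⟩ := hQ'
  exact S40F2US_isU_place M p v hv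

include hp hpM hA in
/-- `f₀` is a unit of `V₁`. -/
theorem S40F2US_isU₁ : S40F2S_IsU (S34M_T1 M p A hgen).O (S36F0_f0 M p) :=
  S40F2S_isU_iff.2 ⟨S40F2U_mem_O1 M p hp hpM A hA hgen, S40F2U_inv_mem_O1 M p hp hpM A hA hgen,
    S40F2U_ne_zero M p⟩

include hA in
/-- `f₀ / (p¹²)⁻¹ = p¹² f₀` is a unit of `V₂`. -/
theorem S40F2US_isU₂ :
    S40F2S_IsU (S34M_T2 M p hp hpM A hgen).O (S36F0_f0 M p / (S40F2U_c M p)⁻¹) := by
  rw [div_inv_eq_mul, mul_comm (S36F0_f0 M p)]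
  exact S40F2S_isU_iff.2 ⟨S40F2U_mem_O2 M p hp hpM A hA hgen,
    S40F2U_inv_mem_O2 M p hp hpM A hA hgen,
    mul_ne_zero (S40F2U_c_ne_zero M p) (S40F2U_ne_zero M p)⟩

section Canon

variable {s : ℕ}
  (e₁ : Fin s → ↥(S34M_chart M p A 1 Nat.one_pos).Rb₁ →ₐ[IsLocalRing.ResidueField A]
    IsLocalRing.ResidueField A)
  (e₂ : Fin s → ↥(S34M_chart M p A 1 Nat.one_pos).Rb₂ →ₐ[IsLocalRing.ResidueField A]
    IsLocalRing.ResidueField A)
  (P : Fin s → Place (IsLocalRing.ResidueField A)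
    ↥(modularFunctionFieldFullC (IsLocalRing.ResidueField A) (M * p)))
  (hE : Function.Surjective (S34B_E e₁ e₂))
  (hW1 : S34K_W (S34M_same M p hp hpM A hgen) (S34M_chart M p A 1 Nat.one_pos) 1 = S34B_W e₁ e₂)
  (hx : S34P_Hyp (S34M_T1 M p A hgen) (S34M_T2 M p hp hpM A hgen) (S34M_same M p hp hpM A hgen)
    (S34PX_j M p hp hpM A hgen))
  (hred : S34P_red (S34M_T1 M p A hgen) (S34M_T2 M p hp hpM A hgen) (S34PX_j M p hp hpM A hgen) =
    (S34M_xb M p A, S34M_xb M p A ^ p))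
  (hP : ∀ i, 0 ≤ (P i).ord (S34M_xb M p A))
  (he₁ : ∀ i (a : ↥(S34M_chart M p A 1 Nat.one_pos).Rb₁), e₁ i a = FD_c0 (P i) (a : _))

/-- `f₀` has no zero and no pole specialising to a canonical node. -/
theorem S40F2US_noZP_canon (i : Fin s) :
    S40F2SN_NoZP (S40NI_nodeGen (S18_hRR (M * p)).deg_one 1 Nat.one_pos hx hred e₁ e₂ hW1 i)
      (S36F0_f0 M p) :=
  S40F2US_noZP M p _ rfl

include hA hE hP he₁ in
/-- **Step 6** (unit form): `(p¹²)⁻¹ / ϖ ^ m` is a unit of `V₂`, `m = ord_{P i} (red₁ f₀)`. -/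
theorem S40F2US_slope (i : Fin s)
    {X Y ϖ : ↥(modularFunctionFieldBar (M * p))} (hXY : X * Y = ϖ)
    (hX : S40F2S_IsU (S34M_T1 M p A hgen).O X)
    (hY : S40F2S_IsU (S34M_T2 M p hp hpM A hgen).O Y)
    (hXP : S40F2SN_NoZP
      (S40NI_nodeGen (S18_hRR (M * p)).deg_one 1 Nat.one_pos hx hred e₁ e₂ hW1 i) X)
    (hordX : (P i).ord ((S34M_T1 M p A hgen).red ⟨X, hX.mem⟩) = 1) (m : ℤ)
    (hm : (P i).ord ((S34M_T1 M p A hgen).red
      ⟨S36F0_f0 M p, (S40F2US_isU₁ M p hp hpM A hA hgen).mem⟩) = m) :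
    S40F2S_IsU (S34M_T2 M p hp hpM A hgen).O ((S40F2U_c M p)⁻¹ / ϖ ^ m) := by
  haveI : NeZero M := ⟨fun h => NeZero.ne (M * p) (by rw [h, zero_mul])⟩
  haveI : IsAlgClosed (IsLocalRing.ResidueField A) := S18_residue_isAlgClosed A
  haveI : Infinite (IsLocalRing.ResidueField A) := IsAlgClosed.instInfinite
  haveI : HasPrincipalDivisors (AlgebraicClosure ℚ) ↥(modularFunctionFieldBar (M * p)) :=
    (S18_hRR (M * p)).principal
  have hf₁ : S40F2S_IsU (S34M_T1 M p A hgen).O (S36F0_f0 M p / 1) := by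
    rw [div_one]
    exact S40F2US_isU₁ M p hp hpM A hA hgen
  have hordf : (P i).ord ((S34M_T1 M p A hgen).red ⟨S36F0_f0 M p / 1, hf₁.mem⟩) = m := by
    have e : (⟨S36F0_f0 M p / 1, hf₁.mem⟩ : ↥(S34M_T1 M p A hgen).O) =
        ⟨S36F0_f0 M p, (S40F2US_isU₁ M p hp hpM A hA hgen).mem⟩ := Subtype.ext (div_one _)
    rw [e]
    exact hm
  have key := S40NS_slope (hdeg := (S18_hRR (M * p)).deg_one) 1 Nat.one_pos hx hred e₁ e₂ hW1
    (S34VF_hk M A hp hA hpM) P hP he₁ hE (S40NP_pole₁ M p hp hpM A hA) i hXY hX hY hXP hordX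
    (⟨1, map_one _⟩ : (1 : ↥(modularFunctionFieldBar (M * p))) ∈
      (algebraMap (AlgebraicClosure ℚ) ↥(modularFunctionFieldBar (M * p))).fieldRange)
    one_ne_zero (inv_ne_zero (S40F2U_c_ne_zero M p)) hf₁
    (S40F2US_isU₂ M p hp hpM A hA hgen) m hordf
    (S40F2US_noZP_canon M p hp hpM A hgen e₁ e₂ hW1 hx hred i)
  rwa [one_mul] at key

include hA hE hP he₁ in
/-- **Step 6** (valuation form): `− vL (p¹²) = m · vL ϖ`, `m = ord_{P i} (red₁ f₀)`. -/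
theorem S40F2US_slope_val (i : Fin s)
    {X Y ϖ : ↥(modularFunctionFieldBar (M * p))} (hXY : X * Y = ϖ)
    (hX : S40F2S_IsU (S34M_T1 M p A hgen).O X)
    (hY : S40F2S_IsU (S34M_T2 M p hp hpM A hgen).O Y)
    (hXP : S40F2SN_NoZP
      (S40NI_nodeGen (S18_hRR (M * p)).deg_one 1 Nat.one_pos hx hred e₁ e₂ hW1 i) X)
    (hordX : (P i).ord ((S34M_T1 M p A hgen).red ⟨X, hX.mem⟩) = 1) (m : ℤ)
    (hm : (P i).ord ((S34M_T1 M p A hgen).red
      ⟨S36F0_f0 M p, (S40F2US_isU₁ M p hp hpM A hA hgen).mem⟩) = m)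
    {Lc : Subfield ↥(modularFunctionFieldBar (M * p))}
    {vL : ↥(modularFunctionFieldBar (M * p)) → ℤ}
    (hv : S40F2SI_Val (S34M_T2 M p hp hpM A hgen).O Lc vL)
    (hcL : S40F2U_c M p ∈ Lc) (hϖL : ϖ ∈ Lc) :
    - vL (S40F2U_c M p) = m * vL ϖ := by
  have key := S40F2US_slope M p hp hpM A hA hgen e₁ e₂ P hE hW1 hx hred hP he₁ i hXY hX hY hXP
    hordX m hm
  have hϖ0 : ϖ ≠ 0 := by rw [← hXY]; exact mul_ne_zero hX.ne_zero hY.ne_zero
  have hc0 := S40F2U_c_ne_zero M p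
  have h0 := hv.unit _ (Lc.div_mem (Lc.inv_mem hcL) (Lc.zpow_mem hϖL m)) key
  rw [hv.div (Lc.inv_mem hcL) (Lc.zpow_mem hϖL m) (inv_ne_zero hc0) (zpow_ne_zero _ hϖ0),
    hv.inv hcL hc0, hv.zpow hϖL hϖ0] at h0
  linarith

include hA hE hP he₁ in
/-- **Step 6** (valuation form, `p` explicit): `− 12 · vL p = m · vL ϖ`. -/
theorem S40F2US_slope_val' (i : Fin s)
    {X Y ϖ : ↥(modularFunctionFieldBar (M * p))} (hXY : X * Y = ϖ)
    (hX : S40F2S_IsU (S34M_T1 M p A hgen).O X)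
    (hY : S40F2S_IsU (S34M_T2 M p hp hpM A hgen).O Y)
    (hXP : S40F2SN_NoZP
      (S40NI_nodeGen (S18_hRR (M * p)).deg_one 1 Nat.one_pos hx hred e₁ e₂ hW1 i) X)
    (hordX : (P i).ord ((S34M_T1 M p A hgen).red ⟨X, hX.mem⟩) = 1) (m : ℤ)
    (hm : (P i).ord ((S34M_T1 M p A hgen).red
      ⟨S36F0_f0 M p, (S40F2US_isU₁ M p hp hpM A hA hgen).mem⟩) = m)
    {Lc : Subfield ↥(modularFunctionFieldBar (M * p))}
    {vL : ↥(modularFunctionFieldBar (M * p)) → ℤ}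
    (hv : S40F2SI_Val (S34M_T2 M p hp hpM A hgen).O Lc vL)
    (hpL : algebraMap (AlgebraicClosure ℚ) ↥(modularFunctionFieldBar (M * p))
      (p : AlgebraicClosure ℚ) ∈ Lc) (hϖL : ϖ ∈ Lc) :
    - (12 * vL (algebraMap (AlgebraicClosure ℚ) ↥(modularFunctionFieldBar (M * p))
      (p : AlgebraicClosure ℚ))) = m * vL ϖ := by
  have hp0 : algebraMap (AlgebraicClosure ℚ) ↥(modularFunctionFieldBar (M * p))
      (p : AlgebraicClosure ℚ) ≠ 0 := by
    rw [Ne, map_eq_zero]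
    exact Nat.cast_ne_zero.2 (NeZero.ne p)
  have hc : S40F2U_c M p = (algebraMap (AlgebraicClosure ℚ) ↥(modularFunctionFieldBar (M * p))
      (p : AlgebraicClosure ℚ)) ^ 12 := by
    unfold S40F2U_c
    rw [map_pow]
  have hcL : S40F2U_c M p ∈ Lc := by rw [hc]; exact Lc.pow_mem hpL 12
  have key := S40F2US_slope_val M p hp hpM A hA hgen e₁ e₂ P hE hW1 hx hred hP he₁ i hXY hX hY
    hXP hordX m hm hv hcL hϖL
  rw [hc, hv.pow hpL hp0] at key
  have h12 : ((12 : ℕ) : ℤ) = 12 := rfl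
  rw [h12] at key
  exact key

end Canon

end Fermat.Agent.S40
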