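import Fermat.Agent.S40.F2SmEps
import Fermat.Agent.S40.F2US
import Fermat.Agent.S34.ValArch

/-!
# TRACK 13 (S40/S44, row 38), gap (SM): the degenerate node at an ORDINARY point of `C₁`,
INSTANCE (helper29).  Prefix `S40F2SE_`.

Generic form (`S₁ S₂ : S18_Val`, chart function `x` with `S34P_Hyp`, as in `S40/NodeInst.lean`):
`v` a place of the first special fibre `Fk₁ / k` where `x₁ = red₁ x` is regular, `g₀ ∈ Λ` with
`red₁ g₀` a unit at `v`, and (arch) `∀ f ∈ O₁, ∃ m, f g₀ ^ m ∈ O₂`.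

* `S40F2SE_mem_Lam₁` : `Λ₁ = S40NA_Lam O₁ O₁ U = O₁ ∩ reg(U)`;
* `S40F2SE_hreg` : **(hreg)** the reduction `red₁ f` of `f ∈ Λ₁` is REGULAR at `v`;
* `S40F2SE_red₁` : `Λ₁ →+* 𝒪_v`, `f ↦ red₁ f`;
* `S40F2SE_ptNode … : S40NA_Node L F k` : the degenerate node at `v` (`O₂ = O₁`, same chart `U`),
  `ε f = (red₁ f)(v)` (`S40F2SE_ptNode_ε`), `S40F2SE_ptNode_unit` (`ε f ≠ 0 ↔ ord_v (red₁ f) = 0`
  in the form `red₁ f ∉ 𝔪_v`).

Canonical objects of TRACK 7 (level `M p`, `A ∣ p`), `g₀ = f₀⁻¹` (`f₀ = S36F0_f0 M p`):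

* `S40F2SE_g₀_mem` : `f₀⁻¹ ∈ Λ`;  `S40F2SE_arch` : `∀ f, ∃ m, f · (f₀⁻¹) ^ m ∈ V₂`;
* `S40F2SE_canonPhi … v hv h hord : S40NA_Node` for every place `v` of the special fibre with
  `j̄` regular at `v` and `ord_v (red₁ f₀⁻¹) = 0` (an ORDINARY point: the third case of
  `S40OC_trichotomy`), with `S40F2SE_canonPhi_ε` (`ε f = (red₁ f)(v)`), `_mem`, `_reg`,
  `_ε_ne_zero`, `_noZP`, `_hfin`, `_O₁`, `_O₂` (`rfl`), `_U`;  `S40F2SE_canon` : the same with the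
  hypothesis `ord_v (red₁ f₀) = 0`.
-/

set_option autoImplicit false
set_option synthInstance.maxHeartbeats 400000
set_option maxHeartbeats 1000000
set_option linter.unusedSectionVars false
set_option linter.unusedVariables false
set_option linter.style.haveILetI false

open HahnSeries IntermediateField AlgebraicCurve ModularCurve

noncomputable section

namespace Fermat.Agent.S40

open Fermat.Agent.Lib Fermat.Agent.S18 Fermat.Agent.S24 Fermat.Agent.S34 Fermat.Agent.S36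
  Fermat.Agent.GalRep

/-! ### generic form -/

section Gen

variable {L F k Fk₁ Fk₂ : Type*} [Field L] [Field F] [Algebra L F] [Field k] [Field Fk₁]
  [Field Fk₂] [Algebra k Fk₁] [Algebra k Fk₂]
  {S₁ : S18_Val L F k Fk₁} {S₂ : S18_Val L F k Fk₂} {hS : S34P_Same S₁ S₂}
  {hdeg : ∀ v : Place L F, v.deg = 1} {x : S34P_O2 S₁ S₂} {x₁ : Fk₁} {x₂ : Fk₂}

/-- `Λ₁ = O₁ ∩ reg(U)`. -/
theorem S40F2SE_mem_Lam₁ {f : F} :
    f ∈ S40NA_Lam S₁.O S₁.O (S40NI_U hdeg (x : F)) ↔ f ∈ S₁.O ∧ f ∈ S34SB_reg L (x : F) := by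
  rw [S40NA_mem_Lam, S34SB_mem_reg]
  constructor
  · rintro ⟨h1, -, h3⟩
    exact ⟨h1, fun v hv => h3 _ (S40NI_pt_mem_U hdeg hv)⟩
  · rintro ⟨h1, h3⟩
    refine ⟨h1, h1, ?_⟩
    rintro Q ⟨v, hv, rfl⟩
    exact h3 v hv

/-- **(hreg)**: the reduction along `V₁` of a function of `Λ₁ = O₁ ∩ reg(U)` is regular at every
place `v` of the special fibre where `x₁` is regular and `red₁ g₀` is a unit. -/
theorem S40F2SE_hreg (hx : S34P_Hyp S₁ S₂ hS x) (hred : S34P_red S₁ S₂ x = (x₁, x₂))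
    (v : Place k Fk₁) (hv : 0 ≤ v.ord x₁)
    {g₀ : F} (hg₀ : g₀ ∈ S40NI_Lam S₁ S₂ hdeg x)
    (hg₀ne : S₁.red ⟨g₀, (S40NI_mem_Lam.1 hg₀).1⟩ ≠ 0)
    (hg₀v : v.ord (S₁.red ⟨g₀, (S40NI_mem_Lam.1 hg₀).1⟩) = 0)
    (harch : ∀ f : F, f ∈ S₁.O → ∃ m : ℕ, f * g₀ ^ m ∈ S₂.O)
    {f : F} (hf : f ∈ S40NA_Lam S₁.O S₁.O (S40NI_U hdeg (x : F))) :
    S₁.red ⟨f, (S40NA_mem_Lam.1 hf).1⟩ ∈ v.toValuationSubring := by
  obtain ⟨hf₁, hfr⟩ := S40F2SE_mem_Lam₁.1 hf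
  obtain ⟨hg1, hg2, hg3⟩ := S40NI_mem_Lam.1 hg₀
  obtain ⟨m, hm⟩ := harch f hf₁
  have hΛ : f * g₀ ^ m ∈ S40NI_Lam S₁ S₂ hdeg x :=
    S40NI_mem_Lam.2 ⟨S₁.O.mul_mem _ _ hf₁ (S₁.O.pow_mem hg1 m), hm,
      (S34SB_reg L (x : F)).mul_mem hfr ((S34SB_reg L (x : F)).pow_mem hg3 m)⟩
  have h1 := (S40NI_red_mem hx hred hΛ).1
  rw [S34SB_mem_reg] at h1
  have h2 := h1 v hv
  -- `red (f g₀^m) = red f · (red g₀)^m`
  have e : (⟨f * g₀ ^ m, (S40NI_mem_Lam.1 hΛ).1⟩ : ↥S₁.O) =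
      ⟨f, hf₁⟩ * ⟨g₀, hg1⟩ ^ m := Subtype.ext rfl
  rw [e, map_mul, map_pow] at h2
  -- `(red g₀)⁻¹` is regular at `v`
  have hinv : (S₁.red ⟨g₀, hg1⟩)⁻¹ ∈ v.toValuationSubring := by
    rw [BG_mem_iff_ord_nonneg v (inv_ne_zero hg₀ne), v.ord_inv, hg₀v, neg_zero]
  have e2 : S₁.red ⟨f, hf₁⟩ =
      S₁.red ⟨f, hf₁⟩ * S₁.red ⟨g₀, hg1⟩ ^ m * ((S₁.red ⟨g₀, hg1⟩)⁻¹) ^ m := by
    rw [mul_assoc, ← mul_pow, mul_inv_cancel₀ hg₀ne, one_pow, mul_one]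
  rw [e2]
  exact v.toValuationSubring.mul_mem _ _ h2 (v.toValuationSubring.pow_mem hinv m)

variable (hdeg)

/-- the reduction `Λ₁ → 𝒪_v`. -/
def S40F2SE_red₁ (hx : S34P_Hyp S₁ S₂ hS x) (hred : S34P_red S₁ S₂ x = (x₁, x₂))
    (v : Place k Fk₁) (hv : 0 ≤ v.ord x₁)
    {g₀ : F} (hg₀ : g₀ ∈ S40NI_Lam S₁ S₂ hdeg x)
    (hg₀ne : S₁.red ⟨g₀, (S40NI_mem_Lam.1 hg₀).1⟩ ≠ 0)
    (hg₀v : v.ord (S₁.red ⟨g₀, (S40NI_mem_Lam.1 hg₀).1⟩) = 0)
    (harch : ∀ f : F, f ∈ S₁.O → ∃ m : ℕ, f * g₀ ^ m ∈ S₂.O) :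
    ↥(S40NA_Lam S₁.O S₁.O (S40NI_U hdeg (x : F))) →+* ↥v.toValuationSubring where
  toFun f := ⟨S₁.red ⟨(f : F), (S40NA_mem_Lam.1 f.2).1⟩,
    S40F2SE_hreg hx hred v hv hg₀ hg₀ne hg₀v harch f.2⟩
  map_one' := Subtype.ext (map_one S₁.red)
  map_zero' := Subtype.ext (map_zero S₁.red)
  map_mul' f g := Subtype.ext (map_mul S₁.red (⟨(f : F), (S40NA_mem_Lam.1 f.2).1⟩ : ↥S₁.O)
    (⟨(g : F), (S40NA_mem_Lam.1 g.2).1⟩ : ↥S₁.O))
  map_add' f g := Subtype.ext (map_add S₁.red (⟨(f : F), (S40NA_mem_Lam.1 f.2).1⟩ : ↥S₁.O)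
    (⟨(g : F), (S40NA_mem_Lam.1 g.2).1⟩ : ↥S₁.O))

/-- **the degenerate node at the ordinary point `v`** of `C₁`: `O₂ := O₁`, `ε f = (red₁ f)(v)`. -/
def S40F2SE_ptNode (hx : S34P_Hyp S₁ S₂ hS x) (hred : S34P_red S₁ S₂ x = (x₁, x₂))
    (hk : ∀ w : Place k Fk₁, w.deg = 1)
    (v : Place k Fk₁) (hv : 0 ≤ v.ord x₁)
    {g₀ : F} (hg₀ : g₀ ∈ S40NI_Lam S₁ S₂ hdeg x)
    (hg₀ne : S₁.red ⟨g₀, (S40NI_mem_Lam.1 hg₀).1⟩ ≠ 0)
    (hg₀v : v.ord (S₁.red ⟨g₀, (S40NI_mem_Lam.1 hg₀).1⟩) = 0)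
    (harch : ∀ f : F, f ∈ S₁.O → ∃ m : ℕ, f * g₀ ^ m ∈ S₂.O) : S40NA_Node L F k where
  A := S₁.A
  res := S₁.res
  res_nonunit a ha := by
    rw [S₁.res_eq_zero_iff]
    rw [ValuationSubring.mem_nonunits_iff_exists_mem_maximalIdeal] at ha
    obtain ⟨hmem, hm⟩ := ha
    rw [IsLocalRing.mem_maximalIdeal, mem_nonunits_iff] at hm
    exact hm
  O₁ := S₁.O
  O₂ := S₁.O
  const₁ a ha := (S₁.algebraMap_mem_iff a).2 ha
  const₂ a ha := (S₁.algebraMap_mem_iff a).2 ha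
  U := S40NI_U hdeg (x : F)
  ε := (S40NI_ev v (hk v)).comp (S40F2SE_red₁ hdeg hx hred v hv hg₀ hg₀ne hg₀v harch)
  ε_const a ha h := by
    show S40NI_ev v (hk v) (S40F2SE_red₁ hdeg hx hred v hv hg₀ hg₀ne hg₀v harch
      ⟨algebraMap L F a, h⟩) = S₁.res ⟨a, ha⟩
    have e : S40F2SE_red₁ hdeg hx hred v hv hg₀ hg₀ne hg₀v harch ⟨algebraMap L F a, h⟩ =
        ⟨algebraMap k Fk₁ (S₁.res ⟨a, ha⟩), v.algebraMap_mem' _⟩ :=
      Subtype.ext (S₁.red_algebraMap a ha _)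
    rw [e]
    exact (S40NI_pt v (hk v)).ev_alg (S₁.res ⟨a, ha⟩)
  ε_zero₁ f hf := by
    show S40NI_ev v (hk v) (S40F2SE_red₁ hdeg hx hred v hv hg₀ hg₀ne hg₀v harch f) = 0
    have e : S40F2SE_red₁ hdeg hx hred v hv hg₀ hg₀ne hg₀v harch f = 0 :=
      Subtype.ext (S40NI_nonunit_red S₁ hf)
    rw [e, map_zero]
  ε_zero₂ f hf := by
    show S40NI_ev v (hk v) (S40F2SE_red₁ hdeg hx hred v hv hg₀ hg₀ne hg₀v harch f) = 0
    have e : S40F2SE_red₁ hdeg hx hred v hv hg₀ hg₀ne hg₀v harch f = 0 :=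
      Subtype.ext (S40NI_nonunit_red S₁ hf)
    rw [e, map_zero]

variable {hdeg}

section Facts

variable (hx : S34P_Hyp S₁ S₂ hS x) (hred : S34P_red S₁ S₂ x = (x₁, x₂))
  (hk : ∀ w : Place k Fk₁, w.deg = 1) (v : Place k Fk₁) (hv : 0 ≤ v.ord x₁)
  {g₀ : F} (hg₀ : g₀ ∈ S40NI_Lam S₁ S₂ hdeg x)
  (hg₀ne : S₁.red ⟨g₀, (S40NI_mem_Lam.1 hg₀).1⟩ ≠ 0)
  (hg₀v : v.ord (S₁.red ⟨g₀, (S40NI_mem_Lam.1 hg₀).1⟩) = 0)
  (harch : ∀ f : F, f ∈ S₁.O → ∃ m : ℕ, f * g₀ ^ m ∈ S₂.O)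

theorem S40F2SE_ptNode_O₁ :
    (S40F2SE_ptNode hdeg hx hred hk v hv hg₀ hg₀ne hg₀v harch).O₁ = S₁.O := rfl

/-- the node is degenerate. -/
theorem S40F2SE_ptNode_O₂ :
    (S40F2SE_ptNode hdeg hx hred hk v hv hg₀ hg₀ne hg₀v harch).O₂ =
      (S40F2SE_ptNode hdeg hx hred hk v hv hg₀ hg₀ne hg₀v harch).O₁ := rfl

theorem S40F2SE_ptNode_U :
    (S40F2SE_ptNode hdeg hx hred hk v hv hg₀ hg₀ne hg₀v harch).U = S40NI_U hdeg (x : F) := rfl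

theorem S40F2SE_ptNode_A :
    (S40F2SE_ptNode hdeg hx hred hk v hv hg₀ hg₀ne hg₀v harch).A = S₁.A := rfl

/-- `ε f = (red₁ f)(v)`. -/
theorem S40F2SE_ptNode_ε (f : F)
    (hf : f ∈ (S40F2SE_ptNode hdeg hx hred hk v hv hg₀ hg₀ne hg₀v harch).Lam) :
    (S40F2SE_ptNode hdeg hx hred hk v hv hg₀ hg₀ne hg₀v harch).ε ⟨f, hf⟩ =
      FD_c0 v (S₁.red ⟨f, (S40NA_mem_Lam.1 hf).1⟩) :=
  S40NI_ev_apply v (hk v) _

/-- the reduction of a function of `Λ₁` is regular at `v`. -/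
theorem S40F2SE_ptNode_reg (f : F)
    (hf : f ∈ (S40F2SE_ptNode hdeg hx hred hk v hv hg₀ hg₀ne hg₀v harch).Lam) :
    S₁.red ⟨f, (S40NA_mem_Lam.1 hf).1⟩ ∈ v.toValuationSubring :=
  S40F2SE_hreg hx hred v hv hg₀ hg₀ne hg₀v harch hf

/-- `ε f = 0` iff `red₁ f` vanishes at `v`. -/
theorem S40F2SE_ptNode_ε_eq_zero (f : F)
    (hf : f ∈ (S40F2SE_ptNode hdeg hx hred hk v hv hg₀ hg₀ne hg₀v harch).Lam) :
    (S40F2SE_ptNode hdeg hx hred hk v hv hg₀ hg₀ne hg₀v harch).ε ⟨f, hf⟩ = 0 ↔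
      v.adicValuation (S₁.red ⟨f, (S40NA_mem_Lam.1 hf).1⟩) < 1 := by
  rw [S40F2SE_ptNode_ε]
  exact FD_c0_eq_zero_iff v (hk v) ((BL_adicValuation_le_one_iff v _).2
    (S40F2SE_hreg hx hred v hv hg₀ hg₀ne hg₀v harch hf))

/-- `ε f ≠ 0` for `f ∈ Λ₁` with `red₁ f ≠ 0` iff `ord_v (red₁ f) = 0`. -/
theorem S40F2SE_ptNode_ε_ne_zero (f : F)
    (hf : f ∈ (S40F2SE_ptNode hdeg hx hred hk v hv hg₀ hg₀ne hg₀v harch).Lam)
    (hne : S₁.red ⟨f, (S40NA_mem_Lam.1 hf).1⟩ ≠ 0) :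
    (S40F2SE_ptNode hdeg hx hred hk v hv hg₀ hg₀ne hg₀v harch).ε ⟨f, hf⟩ ≠ 0 ↔
      v.ord (S₁.red ⟨f, (S40NA_mem_Lam.1 hf).1⟩) = 0 := by
  have hreg := S40F2SE_hreg hx hred v hv hg₀ hg₀ne hg₀v harch hf
  have h0 : 0 ≤ v.ord (S₁.red ⟨f, (S40NA_mem_Lam.1 hf).1⟩) :=
    (BG_mem_iff_ord_nonneg v hne).1 hreg
  rw [Ne, S40F2SE_ptNode_ε_eq_zero, v.adicValuation_eq_exp_neg_ord hne, ← WithZero.exp_zero,
    WithZero.exp_lt_exp]
  constructor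
  · intro h
    omega
  · intro h
    omega

/-- `g₀` is a unit at the point. -/
theorem S40F2SE_ptNode_ε_g₀
    (h : g₀ ∈ (S40F2SE_ptNode hdeg hx hred hk v hv hg₀ hg₀ne hg₀v harch).Lam) :
    (S40F2SE_ptNode hdeg hx hred hk v hv hg₀ hg₀ne hg₀v harch).ε ⟨g₀, h⟩ ≠ 0 :=
  (S40F2SE_ptNode_ε_ne_zero hx hred hk v hv hg₀ hg₀ne hg₀v harch g₀ h hg₀ne).2 hg₀v

/-- **centred places** in terms of values: `Q = w` specialises to the point `v` iff for every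
`f ∈ Λ₁` the value `f(w)` is `A`-integral and reduces to `(red₁ f)(v)`. -/
theorem S40F2SE_centred_iff (w : Place L F) (hw : 0 ≤ w.ord (x : F)) :
    S40NA_Centred (S40F2SE_ptNode hdeg hx hred hk v hv hg₀ hg₀ne hg₀v harch)
        (S40NI_pt w (hdeg w)) (S40NI_pt_mem_U hdeg hw) ↔
      ∀ (f : F) (hf : f ∈ S40NA_Lam S₁.O S₁.O (S40NI_U hdeg (x : F))),
        ∃ h : FD_c0 w f ∈ S₁.A,
          S₁.res ⟨FD_c0 w f, h⟩ = FD_c0 v (S₁.red ⟨f, (S40NA_mem_Lam.1 hf).1⟩) := by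
  constructor
  · intro hc f hf
    obtain ⟨h, he⟩ := hc f hf
    have e : (S40NI_pt w (hdeg w)).ev ⟨f,
        (S40F2SE_ptNode hdeg hx hred hk v hv hg₀ hg₀ne hg₀v harch).mem_pt hf
          (S40NI_pt_mem_U hdeg hw)⟩ = FD_c0 w f := S40NI_pt_ev w (hdeg w) f _
    have h' : FD_c0 w f ∈ S₁.A := e ▸ h
    refine ⟨h', ?_⟩
    have e2 : (⟨FD_c0 w f, h'⟩ : ↥S₁.A) = ⟨_, h⟩ := Subtype.ext e.symm
    rw [e2, ← S40F2SE_ptNode_ε hx hred hk v hv hg₀ hg₀ne hg₀v harch f hf]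
    exact he
  · intro hc f hf
    obtain ⟨h, he⟩ := hc f hf
    have e : (S40NI_pt w (hdeg w)).ev ⟨f,
        (S40F2SE_ptNode hdeg hx hred hk v hv hg₀ hg₀ne hg₀v harch).mem_pt hf
          (S40NI_pt_mem_U hdeg hw)⟩ = FD_c0 w f := S40NI_pt_ev w (hdeg w) f _
    have h' : (S40NI_pt w (hdeg w)).ev ⟨f,
        (S40F2SE_ptNode hdeg hx hred hk v hv hg₀ hg₀ne hg₀v harch).mem_pt hf
          (S40NI_pt_mem_U hdeg hw)⟩ ∈
          (S40F2SE_ptNode hdeg hx hred hk v hv hg₀ hg₀ne hg₀v harch).A := by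
      rw [e]; exact h
    refine ⟨h', ?_⟩
    have e2 : (⟨_, h'⟩ : ↥(S40F2SE_ptNode hdeg hx hred hk v hv hg₀ hg₀ne hg₀v harch).A) =
        (⟨FD_c0 w f, h⟩ : ↥S₁.A) := Subtype.ext e
    rw [e2, S40F2SE_ptNode_ε hx hred hk v hv hg₀ hg₀ne hg₀v harch f hf]
    exact he

end Facts

end Gen

/-! ### the canonical objects: level `M p`, `g₀ = f₀⁻¹` -/

section Canon

variable (M p : ℕ) [NeZero (M * p)] [NeZero p] (hp : p.Prime) (hpM : ¬ p ∣ M)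
  (A : ValuationSubring (AlgebraicClosure ℚ)) (hA : A.LiesOverPrime p)
  (hgen : PrincipalGeneratedByIntegral A (IsLocalRing.residue A) (M * p))

include hA in
/-- `f₀⁻¹ = p¹² · (p¹² f₀)⁻¹ ∈ V₂`. -/
theorem S40F2SE_g₀_mem_O2 : (S36F0_f0 M p)⁻¹ ∈ (S34M_T2 M p hp hpM A hgen).O := by
  have hc0 := S40F2U_c_ne_zero M p
  have hf0 := S40F2U_ne_zero M p
  have e : (S36F0_f0 M p)⁻¹ = S40F2U_c M p * (S40F2U_c M p * S36F0_f0 M p)⁻¹ := by
    field_simp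
  rw [e]
  refine (S34M_T2 M p hp hpM A hgen).O.mul_mem _ _ ?_ (S40F2U_inv_mem_O2 M p hp hpM A hA hgen)
  refine ((S34M_T2 M p hp hpM A hgen).algebraMap_mem_iff _).2 ?_
  have hpA : (p : AlgebraicClosure ℚ) ∈ A := ValuationSubring.nonunits_subset hA
  have : (p : AlgebraicClosure ℚ) ^ 12 ∈ A := A.pow_mem hpA 12
  exact (S34M_same M p hp hpM A hgen).A_eq ▸ this

include hp hpM hA in
/-- `f₀⁻¹ ∈ Λ = V₁ ∩ V₂ ∩ reg(j ≠ ∞)`. -/
theorem S40F2SE_g₀_mem :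
    (S36F0_f0 M p)⁻¹ ∈ S40NI_Lam (S34M_T1 M p A hgen) (S34M_T2 M p hp hpM A hgen)
      (S18_hRR (M * p)).deg_one (S34PX_j M p hp hpM A hgen) := by
  refine S40NI_mem_Lam.2 ⟨S40F2U_inv_mem_O1 M p hp hpM A hA hgen,
    S40F2SE_g₀_mem_O2 M p hp hpM A hA hgen, ?_⟩
  rw [S34SB_mem_reg]
  intro Q hQ
  exact (S40F2US_isU_place M p Q hQ).inv_mem

include hp hA in
/-- **(arch)**: a power of `f₀⁻¹` clears every pole along `C₂`. -/
theorem S40F2SE_arch (f : ↥(modularFunctionFieldBar (M * p))) :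
    ∃ m : ℕ, f * (S36F0_f0 M p)⁻¹ ^ m ∈ (S34M_T2 M p hp hpM A hgen).O := by
  by_cases hf : f = 0
  · exact ⟨0, by rw [hf, zero_mul]; exact (S34M_T2 M p hp hpM A hgen).O.zero_mem⟩
  have hc0 := S40F2U_c_ne_zero M p
  have hf0 := S40F2U_ne_zero M p
  -- `f = c' · u` with `u ∈ V₂`... via `w_p`
  have hwf : S34DF_wq M p hp hpM f ≠ 0 := (map_ne_zero _).mpr hf
  obtain ⟨c', u, hc', -, hcu⟩ :=
    (S18_gaussModL (M * p) A hgen).exists_const_mul_unit (S34DF_wq M p hp hpM f) hwf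
  obtain ⟨n, hn⟩ := S34VA_arch p hp A hA c' hc'
  refine ⟨n, ?_⟩
  rw [S34M_T2_O, S34DF_mem_O2, map_mul, map_pow, map_inv₀, S36F0_f0_wq M p hp hpM, hcu]
  have hp0 : (p : AlgebraicClosure ℚ) ≠ 0 := Nat.cast_ne_zero.2 hp.ne_zero
  have hp12 : ((p : AlgebraicClosure ℚ) ^ 12) ≠ 0 := pow_ne_zero _ hp0
  have hpA : (p : AlgebraicClosure ℚ) ∈ A := ValuationSubring.nonunits_subset hA
  have hfO : S36F0_f0 M p ∈ S18_O A (M * p) := (S36F0_unit M p hp hpM A hA).mem_O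
  have e : algebraMap (AlgebraicClosure ℚ) ↥(modularFunctionFieldBar (M * p)) c' * (u : _) *
      (algebraMap (AlgebraicClosure ℚ) ↥(modularFunctionFieldBar (M * p))
        (((p : AlgebraicClosure ℚ)) ^ 12)⁻¹ * (S36F0_f0 M p)⁻¹)⁻¹ ^ n =
      algebraMap (AlgebraicClosure ℚ) ↥(modularFunctionFieldBar (M * p))
        ((p : AlgebraicClosure ℚ) ^ n * c' * (p : AlgebraicClosure ℚ) ^ (11 * n)) *
        ((u : _) * S36F0_f0 M p ^ n) := by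
    rw [mul_inv, inv_inv, ← map_inv₀, inv_inv, mul_pow, ← map_pow, map_mul, map_mul, ← pow_mul]
    have h12 : (12 : ℕ) * n = n + 11 * n := by ring
    rw [h12, _root_.pow_add, map_mul]
    ring
  rw [e]
  refine (S18_O A (M * p)).mul_mem ?_ ((S18_O A (M * p)).mul_mem u.2
    ((S18_O A (M * p)).pow_mem hfO n))
  exact ((S18_gaussModL (M * p) A hgen).algebraMap_mem_iff _).2
    (A.mul_mem _ _ hn (A.pow_mem hpA _))

/-- **the degenerate node at an ORDINARY point** `v` of `C₁` (level `M p`), `φ₀`-form: `j̄`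
regular at `v`, `red₁ φ₀` a unit at `v` (`φ₀ = f₀⁻¹`; the third case of helper18's
`S40OC_trichotomy`). -/
def S40F2SE_canonPhi
    (hx : S34P_Hyp (S34M_T1 M p A hgen) (S34M_T2 M p hp hpM A hgen) (S34M_same M p hp hpM A hgen)
      (S34PX_j M p hp hpM A hgen))
    (hred : S34P_red (S34M_T1 M p A hgen) (S34M_T2 M p hp hpM A hgen)
      (S34PX_j M p hp hpM A hgen) = (S34M_xb M p A, S34M_xb M p A ^ p))
    (v : Place (IsLocalRing.ResidueField A)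
      ↥(modularFunctionFieldFullC (IsLocalRing.ResidueField A) (M * p)))
    (hv : 0 ≤ v.ord (S34M_xb M p A))
    (h : (S36F0_f0 M p)⁻¹ ∈ (S34M_T1 M p A hgen).O)
    (hord : v.ord ((S34M_T1 M p A hgen).red ⟨(S36F0_f0 M p)⁻¹, h⟩) = 0) :
    S40NA_Node (AlgebraicClosure ℚ) ↥(modularFunctionFieldBar (M * p))
      (IsLocalRing.ResidueField A) :=
  haveI : NeZero M := ⟨fun h => NeZero.ne (M * p) (by rw [h, zero_mul])⟩
  have hU := S40F2US_isU₁ M p hp hpM A hA hgen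
  have hmul : (S34M_T1 M p A hgen).red ⟨S36F0_f0 M p, hU.mem⟩ *
      (S34M_T1 M p A hgen).red ⟨(S36F0_f0 M p)⁻¹, h⟩ = 1 := by
    rw [← map_mul, ← map_one (S34M_T1 M p A hgen).red]
    exact congrArg _ (Subtype.ext (mul_inv_cancel₀ hU.ne_zero))
  S40F2SE_ptNode (S18_hRR (M * p)).deg_one hx hred (S34VF_hk M A hp hA hpM).deg_one v hv
    (S40F2SE_g₀_mem M p hp hpM A hA hgen) (right_ne_zero_of_mul_eq_one hmul) hord
    (fun f _ => S40F2SE_arch M p hp hpM A hA hgen f)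

include hp hpM hA in
/-- `ord_v (red₁ f₀) = 0 ⇒ ord_v (red₁ f₀⁻¹) = 0`. -/
theorem S40F2SE_ord_inv
    (v : Place (IsLocalRing.ResidueField A)
      ↥(modularFunctionFieldFullC (IsLocalRing.ResidueField A) (M * p)))
    (hord : v.ord ((S34M_T1 M p A hgen).red
      ⟨S36F0_f0 M p, (S40F2US_isU₁ M p hp hpM A hA hgen).mem⟩) = 0) :
    v.ord ((S34M_T1 M p A hgen).red
      ⟨(S36F0_f0 M p)⁻¹, (S40F2US_isU₁ M p hp hpM A hA hgen).inv_mem⟩) = 0 := by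
  have hU := S40F2US_isU₁ M p hp hpM A hA hgen
  have hmul : (S34M_T1 M p A hgen).red ⟨S36F0_f0 M p, hU.mem⟩ *
      (S34M_T1 M p A hgen).red ⟨(S36F0_f0 M p)⁻¹, hU.inv_mem⟩ = 1 := by
    rw [← map_mul, ← map_one (S34M_T1 M p A hgen).red]
    exact congrArg _ (Subtype.ext (mul_inv_cancel₀ hU.ne_zero))
  have h1 := congrArg v.ord hmul
  rw [v.ord_mul (left_ne_zero_of_mul_eq_one hmul) (right_ne_zero_of_mul_eq_one hmul), hord,
    zero_add] at h1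
  rw [h1]
  exact v.ord_one

/-- **the degenerate node at an ORDINARY point**, `f₀`-form: `ord_v (red₁ f₀) = 0`. -/
def S40F2SE_canon
    (hx : S34P_Hyp (S34M_T1 M p A hgen) (S34M_T2 M p hp hpM A hgen) (S34M_same M p hp hpM A hgen)
      (S34PX_j M p hp hpM A hgen))
    (hred : S34P_red (S34M_T1 M p A hgen) (S34M_T2 M p hp hpM A hgen)
      (S34PX_j M p hp hpM A hgen) = (S34M_xb M p A, S34M_xb M p A ^ p))
    (v : Place (IsLocalRing.ResidueField A)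
      ↥(modularFunctionFieldFullC (IsLocalRing.ResidueField A) (M * p)))
    (hv : 0 ≤ v.ord (S34M_xb M p A))
    (hord : v.ord ((S34M_T1 M p A hgen).red
      ⟨S36F0_f0 M p, (S40F2US_isU₁ M p hp hpM A hA hgen).mem⟩) = 0) :
    S40NA_Node (AlgebraicClosure ℚ) ↥(modularFunctionFieldBar (M * p))
      (IsLocalRing.ResidueField A) :=
  S40F2SE_canonPhi M p hp hpM A hA hgen hx hred v hv
    (S40F2US_isU₁ M p hp hpM A hA hgen).inv_mem (S40F2SE_ord_inv M p hp hpM A hA hgen v hord)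

section CanonFacts

variable
    (hx : S34P_Hyp (S34M_T1 M p A hgen) (S34M_T2 M p hp hpM A hgen) (S34M_same M p hp hpM A hgen)
      (S34PX_j M p hp hpM A hgen))
    (hred : S34P_red (S34M_T1 M p A hgen) (S34M_T2 M p hp hpM A hgen)
      (S34PX_j M p hp hpM A hgen) = (S34M_xb M p A, S34M_xb M p A ^ p))
    (v : Place (IsLocalRing.ResidueField A)
      ↥(modularFunctionFieldFullC (IsLocalRing.ResidueField A) (M * p)))
    (hv : 0 ≤ v.ord (S34M_xb M p A))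
    (h : (S36F0_f0 M p)⁻¹ ∈ (S34M_T1 M p A hgen).O)
    (hord : v.ord ((S34M_T1 M p A hgen).red ⟨(S36F0_f0 M p)⁻¹, h⟩) = 0)

theorem S40F2SE_canonPhi_A :
    (S40F2SE_canonPhi M p hp hpM A hA hgen hx hred v hv h hord).A = (S34M_T1 M p A hgen).A := rfl

theorem S40F2SE_canonPhi_O₁ :
    (S40F2SE_canonPhi M p hp hpM A hA hgen hx hred v hv h hord).O₁ = (S34M_T1 M p A hgen).O :=
  rfl

/-- the node is degenerate. -/
theorem S40F2SE_canonPhi_O₂ :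
    (S40F2SE_canonPhi M p hp hpM A hA hgen hx hred v hv h hord).O₂ =
      (S40F2SE_canonPhi M p hp hpM A hA hgen hx hred v hv h hord).O₁ := rfl

theorem S40F2SE_canonPhi_U :
    (S40F2SE_canonPhi M p hp hpM A hA hgen hx hred v hv h hord).U =
      S40NI_U (S18_hRR (M * p)).deg_one (jB (M * p)) := rfl

/-- `ε f = (red₁ f)(v)`. -/
theorem S40F2SE_canonPhi_ε (f : ↥(modularFunctionFieldBar (M * p)))
    (hf : f ∈ (S40F2SE_canonPhi M p hp hpM A hA hgen hx hred v hv h hord).Lam) :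
    (S40F2SE_canonPhi M p hp hpM A hA hgen hx hred v hv h hord).ε ⟨f, hf⟩ =
      FD_c0 v ((S34M_T1 M p A hgen).red ⟨f, (S40NA_mem_Lam.1 hf).1⟩) := by
  haveI : NeZero M := ⟨fun h => NeZero.ne (M * p) (by rw [h, zero_mul])⟩
  exact S40NI_ev_apply v ((S34VF_hk M A hp hA hpM).deg_one v) _

/-- the reduction of `f ∈ Λ₁` is regular at `v`. -/
theorem S40F2SE_canonPhi_mem (f : ↥(modularFunctionFieldBar (M * p)))
    (hf : f ∈ (S40F2SE_canonPhi M p hp hpM A hA hgen hx hred v hv h hord).Lam) :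
    (S34M_T1 M p A hgen).red ⟨f, (S40NA_mem_Lam.1 hf).1⟩ ∈ v.toValuationSubring := by
  haveI : NeZero M := ⟨fun h => NeZero.ne (M * p) (by rw [h, zero_mul])⟩
  have hU := S40F2US_isU₁ M p hp hpM A hA hgen
  have hmul : (S34M_T1 M p A hgen).red ⟨S36F0_f0 M p, hU.mem⟩ *
      (S34M_T1 M p A hgen).red ⟨(S36F0_f0 M p)⁻¹, h⟩ = 1 := by
    rw [← map_mul, ← map_one (S34M_T1 M p A hgen).red]
    exact congrArg _ (Subtype.ext (mul_inv_cancel₀ hU.ne_zero))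
  exact S40F2SE_hreg hx hred v hv (S40F2SE_g₀_mem M p hp hpM A hA hgen)
    (right_ne_zero_of_mul_eq_one hmul) hord (fun f _ => S40F2SE_arch M p hp hpM A hA hgen f) hf

/-- the reduction of `f ∈ Λ₁` is regular at `v`, `ord` form. -/
theorem S40F2SE_canonPhi_reg (f : ↥(modularFunctionFieldBar (M * p)))
    (hf : f ∈ (S40F2SE_canonPhi M p hp hpM A hA hgen hx hred v hv h hord).Lam) :
    0 ≤ v.ord ((S34M_T1 M p A hgen).red ⟨f, (S40NA_mem_Lam.1 hf).1⟩) := by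
  by_cases h0 : (S34M_T1 M p A hgen).red ⟨f, (S40NA_mem_Lam.1 hf).1⟩ = 0
  · rw [h0, v.ord_zero]
  · exact (BG_mem_iff_ord_nonneg v h0).1
      (S40F2SE_canonPhi_mem M p hp hpM A hA hgen hx hred v hv h hord f hf)

/-- `ε f ≠ 0 ↔ ord_v (red₁ f) = 0` for `f ∈ Λ₁` with `red₁ f ≠ 0`. -/
theorem S40F2SE_canonPhi_ε_ne_zero (f : ↥(modularFunctionFieldBar (M * p)))
    (hf : f ∈ (S40F2SE_canonPhi M p hp hpM A hA hgen hx hred v hv h hord).Lam)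
    (hne : (S34M_T1 M p A hgen).red ⟨f, (S40NA_mem_Lam.1 hf).1⟩ ≠ 0) :
    (S40F2SE_canonPhi M p hp hpM A hA hgen hx hred v hv h hord).ε ⟨f, hf⟩ ≠ 0 ↔
      v.ord ((S34M_T1 M p A hgen).red ⟨f, (S40NA_mem_Lam.1 hf).1⟩) = 0 := by
  haveI : NeZero M := ⟨fun h => NeZero.ne (M * p) (by rw [h, zero_mul])⟩
  have hreg := S40F2SE_canonPhi_mem M p hp hpM A hA hgen hx hred v hv h hord f hf
  have h0 : 0 ≤ v.ord ((S34M_T1 M p A hgen).red ⟨f, (S40NA_mem_Lam.1 hf).1⟩) :=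
    (BG_mem_iff_ord_nonneg v hne).1 hreg
  rw [Ne, S40F2SE_canonPhi_ε,
    FD_c0_eq_zero_iff v ((S34VF_hk M A hp hA hpM).deg_one v)
      ((BL_adicValuation_le_one_iff v _).2 hreg),
    v.adicValuation_eq_exp_neg_ord hne, ← WithZero.exp_zero, WithZero.exp_lt_exp]
  constructor
  · intro h
    omega
  · intro h
    omega

/-- `f₀` has no zero and no pole specialising to the point. -/
theorem S40F2SE_canonPhi_noZP :
    S40F2SN_NoZP (S40F2SE_canonPhi M p hp hpM A hA hgen hx hred v hv h hord) (S36F0_f0 M p) :=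
  S40F2US_noZP M p _ rfl

/-- the poles of a function on the chart are finite in number (`hfin` of `S40F2SM_unitAt`). -/
theorem S40F2SE_canonPhi_hfin (g : ↥(modularFunctionFieldBar (M * p))) :
    {Q : S40NA_Pt (AlgebraicClosure ℚ) ↥(modularFunctionFieldBar (M * p)) |
      Q ∈ (S40F2SE_canonPhi M p hp hpM A hA hgen hx hred v hv h hord).U ∧ g ∉ Q.P}.Finite := by
  haveI : HasPrincipalDivisors (AlgebraicClosure ℚ) ↥(modularFunctionFieldBar (M * p)) :=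
    (S18_hRR (M * p)).principal
  exact S40NI_poles_finite (S18_hRR (M * p)).deg_one (jB (M * p)) g

end CanonFacts

/-! ### hypothesis-free forms (the inputs of `S40/DiscOrd.lean`) -/

include hp hpM hA in
/-- **(hreg), canonical, hypothesis-free** (= `S40DO_Reg` of `S40/DiscOrd.lean` unfolded): at an
ordinary place `v` of `C₁` (`j̄` regular, `red₁ φ₀` a unit: the third case of `S40OC_trichotomy`)
the reduction of EVERY `f ∈ V₁` regular on `j ≠ ∞` is regular at `v`. -/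
theorem S40F2SE_reg_canon
    (v : Place (IsLocalRing.ResidueField A)
      ↥(modularFunctionFieldFullC (IsLocalRing.ResidueField A) (M * p)))
    (hv : 0 ≤ v.ord (S34M_xb M p A))
    (h : (S36F0_f0 M p)⁻¹ ∈ (S34M_T1 M p A hgen).O)
    (hord : v.ord ((S34M_T1 M p A hgen).red ⟨(S36F0_f0 M p)⁻¹, h⟩) = 0) :
    ∀ (f : ↥(modularFunctionFieldBar (M * p)))
      (hf : f ∈ S40NA_Lam (S34M_T1 M p A hgen).O (S34M_T1 M p A hgen).O
        (S40NI_U (S18_hRR (M * p)).deg_one (jB (M * p)))),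
      (S34M_T1 M p A hgen).red ⟨f, (S40NA_mem_Lam.1 hf).1⟩ ∈ v.toValuationSubring := by
  intro f hf
  haveI : NeZero M := ⟨fun h => NeZero.ne (M * p) (by rw [h, zero_mul])⟩
  have hx : S34P_Hyp (S34M_T1 M p A hgen) (S34M_T2 M p hp hpM A hgen)
      (S34M_same M p hp hpM A hgen) (S34PX_j M p hp hpM A hgen) :=
    S34PX_hyp (S34VW_cart M p hp hpM A hgen hA)
  have hred := S34HX_red_j M p hp hpM A hgen hA
  exact S40F2SE_canonPhi_mem M p hp hpM A hA hgen hx hred v hv h hord f hf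

include hp hpM hA in
/-- **the degenerate node at an ordinary place, hypothesis-free existence form**: a node with
`O₁ = O₂ = V₁`, chart `j ≠ ∞`, `A`, `res` of `V₁` and `ε f = (red₁ f)(v)`. -/
theorem S40F2SE_exists_node
    (v : Place (IsLocalRing.ResidueField A)
      ↥(modularFunctionFieldFullC (IsLocalRing.ResidueField A) (M * p)))
    (hv : 0 ≤ v.ord (S34M_xb M p A))
    (h : (S36F0_f0 M p)⁻¹ ∈ (S34M_T1 M p A hgen).O)
    (hord : v.ord ((S34M_T1 M p A hgen).red ⟨(S36F0_f0 M p)⁻¹, h⟩) = 0) :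
    ∃ N : S40NA_Node (AlgebraicClosure ℚ) ↥(modularFunctionFieldBar (M * p))
        (IsLocalRing.ResidueField A),
      N.O₁ = (S34M_T1 M p A hgen).O ∧ N.O₂ = N.O₁ ∧ N.A = (S34M_T1 M p A hgen).A ∧
      N.U = S40NI_U (S18_hRR (M * p)).deg_one (jB (M * p)) ∧
      ∀ (f : ↥(modularFunctionFieldBar (M * p))) (hf : f ∈ N.Lam)
        (hf₁ : f ∈ (S34M_T1 M p A hgen).O),
        N.ε ⟨f, hf⟩ = FD_c0 v ((S34M_T1 M p A hgen).red ⟨f, hf₁⟩) := by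
  haveI : NeZero M := ⟨fun h => NeZero.ne (M * p) (by rw [h, zero_mul])⟩
  have hx : S34P_Hyp (S34M_T1 M p A hgen) (S34M_T2 M p hp hpM A hgen)
      (S34M_same M p hp hpM A hgen) (S34PX_j M p hp hpM A hgen) :=
    S34PX_hyp (S34VW_cart M p hp hpM A hgen hA)
  have hred := S34HX_red_j M p hp hpM A hgen hA
  exact ⟨S40F2SE_canonPhi M p hp hpM A hA hgen hx hred v hv h hord, rfl, rfl, rfl, rfl,
    fun f hf _ => S40F2SE_canonPhi_ε M p hp hpM A hA hgen hx hred v hv h hord f hf⟩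

end Canon

end Fermat.Agent.S40
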