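import Mathlib
import Fermat.Agent.S36.RegCountRR

/-!
# TRACK 13 (S40/S44), (F2') package P1-INST (b) (helper13).  Prefix `S40F2PE_`.

The existence hypotheses `ex_t`, `ex_s`, `ex_den` (on BOTH components) of the abstract node
theorem P1-EXIST (helper20, `S40/F2P.lean`), produced from

* the **fibre product** in the weak form `lift₁`, `lift₁'`, `lift₂`, `lift₂'` (P1-INST (a), helper18):
  a function on `C₁` regular off the cusps and vanishing at all nodes is the reduction of an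
  element of the ideal of `C₂` (and symmetrically); every function on `C_j` regular off the cusps
  is a `red_j`;
* **Riemann–Roch** `RR_Hyp k F₁`, `RR_Hyp k F₂` (`k` infinite), in the form `S36RC_interp`,
  `S36RC_denom` of `S36/RegCountRR.lean`.

No count (`hcusp`), no `V2`, no `φ₀`: the proofs are those of `S36RC_Fib_ex₁`, `S36RC_Fib_ex₂`,
`S36RC_Fib.toHyp` with explicit hypotheses.

* `S40F2PE_ex₁` / `S40F2PE_ex₂` : an element of the ideal of the other component with the minimal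
  order (`1` at the nodes, `0` elsewhere) at a given non-cuspidal place;
* `S40F2PE_ex_t`, `S40F2PE_ex_s` : simple zero at the node `i`;
* `S40F2PE_ex_ord₁`, `S40F2PE_ex_ord₂` : order `0` at a non-cuspidal place which is not a node;
* `S40F2PE_ex_den₂`, `S40F2PE_ex_den₁` : denominators on `C₂`, on `C₁`.
-/

set_option autoImplicit false
set_option linter.unusedSectionVars false
set_option linter.unusedVariables false

open AlgebraicCurve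

namespace Fermat.Agent.S40

open Fermat.Agent.Lib Fermat.Agent.S17 Fermat.Agent.S36

section

variable {k F₁ F₂ Λ ι : Type*} [Field k] [Field F₁] [Field F₂] [Algebra k F₁]
  [Algebra k F₂] [CommRing Λ] [Fintype ι] [Infinite k]
  (red₁ : Λ →+* F₁) (red₂ : Λ →+* F₂)

/-- **first component**: an element of the ideal of `C₂` (`red₂ t = 0`) whose reduction on `C₁`
has the minimal order (`1` at a node, `0` elsewhere) at a given non-cuspidal place `Q`. -/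
theorem S40F2PE_ex₁ (rr₁ : RR_Hyp k F₁) (cusps₁ : Finset (Place k F₁)) (c₁ : Place k F₁)
    (hc₁ : c₁ ∈ cusps₁) (P : ι → Place k F₁) (hPc : ∀ i, P i ∉ cusps₁)
    (lift₁ : ∀ a : F₁, (∀ Q : Place k F₁, Q ∉ cusps₁ → 0 ≤ Q.ord a) →
      (∀ i, S36RC_van (P i) a) → ∃ t : Λ, red₁ t = a ∧ red₂ t = 0)
    (Q : Place k F₁) (hQ : Q ∉ cusps₁) :
    ∃ t : Λ, red₂ t = 0 ∧ red₁ t ≠ 0 ∧ Q.ord (red₁ t) = S36RC_nodeDiv P Q := by
  have hne : ∀ {v : Place k F₁}, v ∉ cusps₁ → v ≠ c₁ := fun hv h => hv (h ▸ hc₁)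
  obtain ⟨a, ha0, ha, haQ⟩ := S36RC_interp rr₁ c₁ (S36RC_nodeDiv P) Q (hne hQ)
  obtain ⟨t, ht₁, ht₂⟩ := lift₁ a
    (fun v hv => le_trans (S36RC_nodeDiv_nonneg _ v) (ha v (hne hv)))
    (fun i => Or.inr (by
      have := ha (P i) (hne (hPc i))
      rw [S36RC_nodeDiv_node] at this
      linarith))
  exact ⟨t, ht₂, by rw [ht₁]; exact ha0, by rw [ht₁]; exact haQ⟩

/-- **second component**: the symmetric statement. -/
theorem S40F2PE_ex₂ (rr₂ : RR_Hyp k F₂) (cusps₂ : Finset (Place k F₂)) (c₂ : Place k F₂)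
    (hc₂ : c₂ ∈ cusps₂) (P' : ι → Place k F₂) (hP'c : ∀ i, P' i ∉ cusps₂)
    (lift₁' : ∀ b : F₂, (∀ Q : Place k F₂, Q ∉ cusps₂ → 0 ≤ Q.ord b) →
      (∀ i, S36RC_van (P' i) b) → ∃ s : Λ, red₁ s = 0 ∧ red₂ s = b)
    (Q : Place k F₂) (hQ : Q ∉ cusps₂) :
    ∃ s : Λ, red₁ s = 0 ∧ red₂ s ≠ 0 ∧ Q.ord (red₂ s) = S36RC_nodeDiv P' Q := by
  have hne : ∀ {v : Place k F₂}, v ∉ cusps₂ → v ≠ c₂ := fun hv h => hv (h ▸ hc₂)
  obtain ⟨a, ha0, ha, haQ⟩ := S36RC_interp rr₂ c₂ (S36RC_nodeDiv P') Q (hne hQ)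
  obtain ⟨s, hs₁, hs₂⟩ := lift₁' a
    (fun v hv => le_trans (S36RC_nodeDiv_nonneg _ v) (ha v (hne hv)))
    (fun i => Or.inr (by
      have := ha (P' i) (hne (hP'c i))
      rw [S36RC_nodeDiv_node] at this
      linarith))
  exact ⟨s, hs₁, by rw [hs₂]; exact ha0, by rw [hs₂]; exact haQ⟩

/-- **`ex_t`**: at the node `i`, an element of the ideal of `C₂` with a simple zero on `C₁`. -/
theorem S40F2PE_ex_t (rr₁ : RR_Hyp k F₁) (cusps₁ : Finset (Place k F₁)) (c₁ : Place k F₁)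
    (hc₁ : c₁ ∈ cusps₁) (P : ι → Place k F₁) (hPc : ∀ i, P i ∉ cusps₁)
    (lift₁ : ∀ a : F₁, (∀ Q : Place k F₁, Q ∉ cusps₁ → 0 ≤ Q.ord a) →
      (∀ i, S36RC_van (P i) a) → ∃ t : Λ, red₁ t = a ∧ red₂ t = 0) (i : ι) :
    ∃ t : Λ, red₂ t = 0 ∧ red₁ t ≠ 0 ∧ (P i).ord (red₁ t) = 1 := by
  obtain ⟨t, ht₂, ht₁, ht⟩ := S40F2PE_ex₁ red₁ red₂ rr₁ cusps₁ c₁ hc₁ P hPc lift₁ (P i) (hPc i)
  exact ⟨t, ht₂, ht₁, by rw [ht]; exact S36RC_nodeDiv_node P i⟩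

/-- **`ex_s`**: at the node `i`, an element of the ideal of `C₁` with a simple zero on `C₂`. -/
theorem S40F2PE_ex_s (rr₂ : RR_Hyp k F₂) (cusps₂ : Finset (Place k F₂)) (c₂ : Place k F₂)
    (hc₂ : c₂ ∈ cusps₂) (P' : ι → Place k F₂) (hP'c : ∀ i, P' i ∉ cusps₂)
    (lift₁' : ∀ b : F₂, (∀ Q : Place k F₂, Q ∉ cusps₂ → 0 ≤ Q.ord b) →
      (∀ i, S36RC_van (P' i) b) → ∃ s : Λ, red₁ s = 0 ∧ red₂ s = b) (i : ι) :
    ∃ s : Λ, red₁ s = 0 ∧ red₂ s ≠ 0 ∧ (P' i).ord (red₂ s) = 1 := by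
  obtain ⟨s, hs₁, hs₂, hs⟩ :=
    S40F2PE_ex₂ red₁ red₂ rr₂ cusps₂ c₂ hc₂ P' hP'c lift₁' (P' i) (hP'c i)
  exact ⟨s, hs₁, hs₂, by rw [hs]; exact S36RC_nodeDiv_node P' i⟩

/-- **`ex_ord`**, first component: at a non-cuspidal place which is not a node, an element of
the ideal of `C₂` which does not vanish there. -/
theorem S40F2PE_ex_ord₁ (rr₁ : RR_Hyp k F₁) (cusps₁ : Finset (Place k F₁)) (c₁ : Place k F₁)
    (hc₁ : c₁ ∈ cusps₁) (P : ι → Place k F₁) (hPc : ∀ i, P i ∉ cusps₁)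
    (lift₁ : ∀ a : F₁, (∀ Q : Place k F₁, Q ∉ cusps₁ → 0 ≤ Q.ord a) →
      (∀ i, S36RC_van (P i) a) → ∃ t : Λ, red₁ t = a ∧ red₂ t = 0)
    (Q : Place k F₁) (hQ : Q ∉ cusps₁) (hQn : ∀ i, Q ≠ P i) :
    ∃ t : Λ, red₂ t = 0 ∧ red₁ t ≠ 0 ∧ Q.ord (red₁ t) = 0 := by
  obtain ⟨t, ht₂, ht₁, ht⟩ := S40F2PE_ex₁ red₁ red₂ rr₁ cusps₁ c₁ hc₁ P hPc lift₁ Q hQ
  exact ⟨t, ht₂, ht₁, by rw [ht]; exact S36RC_nodeDiv_of_ne P hQn⟩

/-- **`ex_ord`**, second component. -/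
theorem S40F2PE_ex_ord₂ (rr₂ : RR_Hyp k F₂) (cusps₂ : Finset (Place k F₂)) (c₂ : Place k F₂)
    (hc₂ : c₂ ∈ cusps₂) (P' : ι → Place k F₂) (hP'c : ∀ i, P' i ∉ cusps₂)
    (lift₁' : ∀ b : F₂, (∀ Q : Place k F₂, Q ∉ cusps₂ → 0 ≤ Q.ord b) →
      (∀ i, S36RC_van (P' i) b) → ∃ s : Λ, red₁ s = 0 ∧ red₂ s = b)
    (Q : Place k F₂) (hQ : Q ∉ cusps₂) (hQn : ∀ i, Q ≠ P' i) :
    ∃ s : Λ, red₁ s = 0 ∧ red₂ s ≠ 0 ∧ Q.ord (red₂ s) = 0 := by
  obtain ⟨s, hs₁, hs₂, hs⟩ := S40F2PE_ex₂ red₁ red₂ rr₂ cusps₂ c₂ hc₂ P' hP'c lift₁' Q hQ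
  exact ⟨s, hs₁, hs₂, by rw [hs]; exact S36RC_nodeDiv_of_ne P' hQn⟩

end

section den

variable {k F Λ : Type*} [Field k] [Field F] [Algebra k F] [CommRing Λ] [Infinite k]
  (red : Λ →+* F)

/-- **`ex_den`** (one component, `red` onto the functions regular off the cusps): a function
`ρ` regular at a non-cuspidal place `Q` is a fraction of reductions, with a denominator that does
not vanish at `Q`. -/
theorem S40F2PE_ex_den (rr : RR_Hyp k F) (cusps : Finset (Place k F)) (c : Place k F)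
    (hc : c ∈ cusps)
    (lift₂ : ∀ b : F, (∀ Q : Place k F, Q ∉ cusps → 0 ≤ Q.ord b) → ∃ x : Λ, red x = b)
    (Q : Place k F) (hQ : Q ∉ cusps) (ρ : F) (hρ : 0 ≤ Q.ord ρ) :
    ∃ H r : Λ, red r = red H * ρ ∧ ¬ S36RC_van Q (red H) := by
  have hne : ∀ {v : Place k F}, v ∉ cusps → v ≠ c := fun hv h => hv (h ▸ hc)
  obtain ⟨g, hg0, hgQ, hg, hgρ⟩ := S36RC_denom rr c ρ Q (hne hQ) hρ
  obtain ⟨Hh, hHh⟩ := lift₂ g (fun v hv => hg v (hne hv))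
  obtain ⟨r, hr⟩ := lift₂ (g * ρ) (fun v hv => hgρ v (hne hv))
  refine ⟨Hh, r, by rw [hr, hHh], ?_⟩
  rw [hHh]
  rintro (h0 | hpos)
  · exact hg0 h0
  · rw [hgQ] at hpos
    exact lt_irrefl _ hpos

/-- the same with the value of the denominator normalised: `ord_Q (red H) = 0`, `red H ≠ 0`. -/
theorem S40F2PE_ex_den' (rr : RR_Hyp k F) (cusps : Finset (Place k F)) (c : Place k F)
    (hc : c ∈ cusps)
    (lift₂ : ∀ b : F, (∀ Q : Place k F, Q ∉ cusps → 0 ≤ Q.ord b) → ∃ x : Λ, red x = b)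
    (Q : Place k F) (hQ : Q ∉ cusps) (ρ : F) (hρ : 0 ≤ Q.ord ρ) :
    ∃ H r : Λ, red r = red H * ρ ∧ red H ≠ 0 ∧ Q.ord (red H) = 0 := by
  have hne : ∀ {v : Place k F}, v ∉ cusps → v ≠ c := fun hv h => hv (h ▸ hc)
  obtain ⟨g, hg0, hgQ, hg, hgρ⟩ := S36RC_denom rr c ρ Q (hne hQ) hρ
  obtain ⟨Hh, hHh⟩ := lift₂ g (fun v hv => hg v (hne hv))
  obtain ⟨r, hr⟩ := lift₂ (g * ρ) (fun v hv => hgρ v (hne hv))
  exact ⟨Hh, r, by rw [hr, hHh], by rw [hHh]; exact hg0, by rw [hHh]; exact hgQ⟩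

end den

end Fermat.Agent.S40
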