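import Fermat.Agent.S40.NodeInst
import Fermat.Agent.S40.F2N
import Fermat.Agent.S40.F2PEx
import Fermat.Agent.S36.Spec3Pts

/-!
# S40 (TRACK 13), GEO-6: the nodes as PLACES of the two components, and the bridge P1 → `S40F2N_Coord`
(helper26).  Prefix `S40NP_`.

* `S40NP_exists_place` : a `K`-point `e : S34SB_reg K x →ₐ[K] K` of the chart `x ≠ ∞` of a function
  field with `RR_Hyp` is the evaluation at a unique place `P` with `0 ≤ P.ord x`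
  (`S36SP_pt_surjective`).
* `S40NP_eval_eq_zero_iff` : `FD_c0 P a = 0 ↔ S36RC_van P a` for `a` regular at `P`.
* generic node (`S₁ S₂ x hx hred e₁ e₂ hW1` as in `S40/NodeInst.lean`, `P i`, `P' i` with
  `e₁ i = ev_{P i}`, `e₂ i = ev_{P' i}`):
  `S40NP_reg₁/₂`, `S40NP_eps_eq_zero_iff₁/₂`, `S40NP_compat` (the fields `reg`, `compat` of
  `S40F2PB_Fib`), `S40NP_lift₁` (`red₁ : Λ → Rb₁` is onto), `S40NP_unitAt_of_ord`
  (`ord_{P i} (red₁ g) = 0 ⇒ S40NA_UnitAt`), and the BRIDGE `S40NP_coord : S40F2N_Coord (node i)`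
  from a coordinate pair `X Y = ϖ H` in the shape of the output of `S40F2P_main`.
-/

set_option autoImplicit false
set_option synthInstance.maxHeartbeats 400000
set_option maxHeartbeats 1000000
set_option linter.unusedSectionVars false
set_option linter.unusedVariables false
set_option linter.style.haveILetI false

open HahnSeries IntermediateField AlgebraicCurve ModularCurve

noncomputable section

namespace Fermat.Agent.S40

open Fermat.Agent.Lib Fermat.Agent.S18 Fermat.Agent.S24 Fermat.Agent.S34 Fermat.Agent.S36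
  Fermat.Agent.GalRep

/-! ### points of the chart as places -/

section Pl

variable {K F : Type*} [Field K] [Field F] [Algebra K F]

theorem S40NP_hR {x : F} (hx0 : x ≠ 0) (y : F) :
    y ∈ S34SB_reg K x ↔
      ∀ Q : Place K F, Q.adicValuation x ≤ 1 → Q.adicValuation y ≤ 1 := by
  rw [S34SB_mem_reg]
  refine forall_congr' fun Q => ?_
  rw [BL_adicValuation_le_one_iff, BL_adicValuation_le_one_iff, BG_mem_iff_ord_nonneg Q hx0]

/-- **every point of the chart is a place.** -/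
theorem S40NP_exists_place [Infinite K] (h : RR_Hyp K F) (x : F)
    (hpole : ∃ c₀ : Place K F, c₀.ord x < 0) (e : ↥(S34SB_reg K x) →ₐ[K] K) :
    ∃ P : Place K F, 0 ≤ P.ord x ∧ ∀ f : ↥(S34SB_reg K x), e f = FD_c0 P (f : F) := by
  obtain ⟨c₀, hc₀⟩ := hpole
  have hx0 : x ≠ 0 := S36SP_x_ne_zero x c₀ hc₀
  obtain ⟨P, hP, hPe⟩ := S36SP_pt_surjective h x c₀ hc₀ (S34SB_reg K x) (S40NP_hR hx0) e
  refine ⟨P, ?_, hPe⟩
  rw [BL_adicValuation_le_one_iff, BG_mem_iff_ord_nonneg P hx0] at hP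
  exact hP

/-- the value at a place vanishes iff the function does. -/
theorem S40NP_eval_eq_zero_iff (h : RR_Hyp K F) (P : Place K F) {a : F}
    (ha : a ∈ P.toValuationSubring) : FD_c0 P a = 0 ↔ S36RC_van P a := by
  rw [FD_c0_eq_zero_iff P (h.deg_one P) ((BL_adicValuation_le_one_iff P a).2 ha),
    S36SP_val_lt_one_iff]
  rfl

theorem S40NP_ord_nonneg (P : Place K F) {a : F} (ha : a ∈ P.toValuationSubring) :
    0 ≤ P.ord a := by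
  by_cases h0 : a = 0
  · rw [h0, Place.ord_zero]
  · exact (BG_mem_iff_ord_nonneg P h0).1 ha

theorem S40NP_mem_of_reg {x a : F} (ha : a ∈ S34SB_reg K x) (P : Place K F)
    (hP : 0 ≤ P.ord x) : a ∈ P.toValuationSubring :=
  S34SB_mem_reg.1 ha P hP

/-- the poles of `x` are finite in number. -/
theorem S40NP_poles_finite (h : RR_Hyp K F) (x : F) : {Q : Place K F | Q.ord x < 0}.Finite := by
  by_cases hx0 : x = 0
  · have : {Q : Place K F | Q.ord x < 0} = ∅ := by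
      refine Set.eq_empty_iff_forall_notMem.2 ?_
      intro Q hQ
      have h1 : Q.ord x < 0 := hQ
      rw [hx0, Place.ord_zero] at h1
      exact lt_irrefl _ h1
    rw [this]; exact Set.finite_empty
  obtain ⟨D, hD, -⟩ := h.principal.exists_divisor x hx0
  refine D.support.finite_toSet.subset ?_
  intro Q hQ
  have h1 : Q.ord x < 0 := hQ
  rw [Finset.mem_coe, Finsupp.mem_support_iff, hD Q]
  omega

/-- the cusps of the chart `x ≠ ∞`. -/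
def S40NP_cusps (h : RR_Hyp K F) (x : F) : Finset (Place K F) :=
  (S40NP_poles_finite h x).toFinset

theorem S40NP_mem_cusps (h : RR_Hyp K F) (x : F) {Q : Place K F} :
    Q ∈ S40NP_cusps h x ↔ Q.ord x < 0 := by
  unfold S40NP_cusps
  rw [Set.Finite.mem_toFinset]
  rfl

theorem S40NP_reg_of_off_cusps (h : RR_Hyp K F) (x : F) {b : F}
    (hb : ∀ Q : Place K F, Q ∉ S40NP_cusps h x → 0 ≤ Q.ord b) : b ∈ S34SB_reg K x := by
  by_cases hb0 : b = 0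
  · rw [hb0]; exact (S34SB_reg K x).zero_mem
  rw [S34SB_mem_reg_iff hb0]
  intro Q hQ
  exact hb Q (fun hc => by rw [S40NP_mem_cusps] at hc; omega)

end Pl

/-! ### the nodes as places, generic form -/

section Gen

variable {L F k Fk₁ Fk₂ : Type*} [Field L] [Field F] [Algebra L F] [Field k] [Field Fk₁]
  [Field Fk₂] [Algebra k Fk₁] [Algebra k Fk₂]
  {S₁ : S18_Val L F k Fk₁} {S₂ : S18_Val L F k Fk₂} {hS : S34P_Same S₁ S₂}
  {hdeg : ∀ v : Place L F, v.deg = 1} {x : S34P_O2 S₁ S₂} {x₁ : Fk₁} {x₂ : Fk₂}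
  (n : ℕ) (hn : 0 < n) {ι : Type*}
  (hx : S34P_Hyp S₁ S₂ hS x) (hred : S34P_red S₁ S₂ x = (x₁, x₂))
  (e₁ : ι → ↥(S34SB_chart L k (x : F) x₁ x₂ n hn).Rb₁ →ₐ[k] k)
  (e₂ : ι → ↥(S34SB_chart L k (x : F) x₁ x₂ n hn).Rb₂ →ₐ[k] k)
  (hW1 : S34K_W hS (S34SB_chart L k (x : F) x₁ x₂ n hn) 1 = S34B_W e₁ e₂)

/-- **the nodes are places** of the two components. -/
theorem S40NP_exists_places [Infinite k] (h₁ : RR_Hyp k Fk₁) (h₂ : RR_Hyp k Fk₂)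
    (hp₁ : ∃ c₀ : Place k Fk₁, c₀.ord x₁ < 0) (hp₂ : ∃ c₀ : Place k Fk₂, c₀.ord x₂ < 0) :
    ∃ (P : ι → Place k Fk₁) (P' : ι → Place k Fk₂),
      (∀ i, 0 ≤ (P i).ord x₁) ∧ (∀ i, 0 ≤ (P' i).ord x₂) ∧
      (∀ i (a : ↥(S34SB_chart L k (x : F) x₁ x₂ n hn).Rb₁), e₁ i a = FD_c0 (P i) (a : Fk₁)) ∧
      (∀ i (b : ↥(S34SB_chart L k (x : F) x₁ x₂ n hn).Rb₂), e₂ i b = FD_c0 (P' i) (b : Fk₂)) := by
  choose P hP hPe using fun i => S40NP_exists_place h₁ x₁ hp₁ (e₁ i)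
  choose P' hP' hPe' using fun i => S40NP_exists_place h₂ x₂ hp₂ (e₂ i)
  exact ⟨P, P', hP, hP', hPe, hPe'⟩

variable (h₁ : RR_Hyp k Fk₁) (h₂ : RR_Hyp k Fk₂)
  (P : ι → Place k Fk₁) (P' : ι → Place k Fk₂)
  (hP : ∀ i, 0 ≤ (P i).ord x₁) (hP' : ∀ i, 0 ≤ (P' i).ord x₂)
  (he₁ : ∀ i (a : ↥(S34SB_chart L k (x : F) x₁ x₂ n hn).Rb₁), e₁ i a = FD_c0 (P i) (a : Fk₁))
  (he₂ : ∀ i (b : ↥(S34SB_chart L k (x : F) x₁ x₂ n hn).Rb₂), e₂ i b = FD_c0 (P' i) (b : Fk₂))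

include hx hred hP in
/-- `reg₁`: the first reduction of `f ∈ Λ` is regular at the nodes. -/
theorem S40NP_reg₁ (i : ι) {f : F} (hf : f ∈ S40NI_Lam S₁ S₂ hdeg x) :
    0 ≤ (P i).ord (S₁.red ⟨f, (S40NI_mem_Lam.1 hf).1⟩) :=
  S40NP_ord_nonneg (P i) (S40NP_mem_of_reg (S40NI_red_mem hx hred hf).1 (P i) (hP i))

include hx hred hP' in
/-- `reg₂`: the second reduction of `f ∈ Λ` is regular at the nodes. -/
theorem S40NP_reg₂ (i : ι) {f : F} (hf : f ∈ S40NI_Lam S₁ S₂ hdeg x) :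
    0 ≤ (P' i).ord (S₂.red ⟨f, (S40NI_mem_Lam.1 hf).2.1⟩) :=
  S40NP_ord_nonneg (P' i) (S40NP_mem_of_reg (S40NI_red_mem hx hred hf).2 (P' i) (hP' i))

include h₁ hP he₁ in
/-- `ε_i f = 0` iff the first reduction vanishes at `P i`. -/
theorem S40NP_eps_eq_zero_iff₁ (i : ι) {f : F} (hf : f ∈ S40NI_Lam S₁ S₂ hdeg x) :
    (S40NI_nodeGen hdeg n hn hx hred e₁ e₂ hW1 i).ε ⟨f, hf⟩ = 0 ↔
      S36RC_van (P i) (S₁.red ⟨f, (S40NI_mem_Lam.1 hf).1⟩) := by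
  rw [S40NI_eps_eq₁, he₁ i]
  exact S40NP_eval_eq_zero_iff h₁ (P i)
    (S40NP_mem_of_reg (S40NI_red_mem hx hred hf).1 (P i) (hP i))

include h₂ hP' he₂ in
/-- `ε_i f = 0` iff the second reduction vanishes at `P' i`. -/
theorem S40NP_eps_eq_zero_iff₂ (i : ι) {f : F} (hf : f ∈ S40NI_Lam S₁ S₂ hdeg x) :
    (S40NI_nodeGen hdeg n hn hx hred e₁ e₂ hW1 i).ε ⟨f, hf⟩ = 0 ↔
      S36RC_van (P' i) (S₂.red ⟨f, (S40NI_mem_Lam.1 hf).2.1⟩) := by
  rw [S40NI_eps_eq₂, he₂ i]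
  exact S40NP_eval_eq_zero_iff h₂ (P' i)
    (S40NP_mem_of_reg (S40NI_red_mem hx hred hf).2 (P' i) (hP' i))

include hx hred hW1 h₁ h₂ hP hP' he₁ he₂ in
/-- `compat`: the value at a node is well defined. -/
theorem S40NP_compat (i : ι) {f : F} (hf : f ∈ S40NI_Lam S₁ S₂ hdeg x) :
    S36RC_van (P i) (S₁.red ⟨f, (S40NI_mem_Lam.1 hf).1⟩) ↔
      S36RC_van (P' i) (S₂.red ⟨f, (S40NI_mem_Lam.1 hf).2.1⟩) :=
  (S40NP_eps_eq_zero_iff₁ n hn hx hred e₁ e₂ hW1 h₁ P hP he₁ i hf).symm.trans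
    (S40NP_eps_eq_zero_iff₂ n hn hx hred e₁ e₂ hW1 h₂ P' hP' he₂ i hf)

include hW1 in
/-- **fibre product**: a pair of regular functions with the same values at the nodes is the pair
of reductions of a function of `Λ`. -/
theorem S40NP_lift_pair (a : ↥(S34SB_chart L k (x : F) x₁ x₂ n hn).Rb₁)
    (b : ↥(S34SB_chart L k (x : F) x₁ x₂ n hn).Rb₂) (hab : ∀ i, e₁ i a = e₂ i b) :
    ∃ (f : F) (hf : f ∈ S40NI_Lam S₁ S₂ hdeg x),
      S₁.red ⟨f, (S40NI_mem_Lam.1 hf).1⟩ = (a : Fk₁) ∧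
        S₂.red ⟨f, (S40NI_mem_Lam.1 hf).2.1⟩ = (b : Fk₂) := by
  have hmem : ((a, b) : ↥(S34SB_chart L k (x : F) x₁ x₂ n hn).Rb₁ ×
      ↥(S34SB_chart L k (x : F) x₁ x₂ n hn).Rb₂) ∈
      S34K_W hS (S34SB_chart L k (x : F) x₁ x₂ n hn) 1 := by
    rw [hW1, S34B_mem_W]
    exact hab
  rw [S34K_mem_W] at hmem
  obtain ⟨f, hfB, hfr⟩ := hmem
  rw [mul_one] at hfB
  have hfB' : (f : F) ∈ S34SB_reg L (x : F) := S34SB_reg_root (x : F) hn (f : F) hfB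
  have hf : (f : F) ∈ S40NI_Lam S₁ S₂ hdeg x := S40NI_mem_Lam.2 ⟨f.2.1, f.2.2, hfB'⟩
  exact ⟨f, hf, congrArg Prod.fst hfr, congrArg Prod.snd hfr⟩

include hW1 in
/-- `lift₂'`: `red₁ : Λ → Rb₁` is onto. -/
theorem S40NP_lift₁ (hE : Function.Surjective (S34B_E e₁ e₂))
    (a : ↥(S34SB_chart L k (x : F) x₁ x₂ n hn).Rb₁) :
    ∃ (f : F) (hf : f ∈ S40NI_Lam S₁ S₂ hdeg x),
      S₁.red ⟨f, (S40NI_mem_Lam.1 hf).1⟩ = (a : Fk₁) := by
  obtain ⟨⟨a', b⟩, hb⟩ := hE (0, fun i => e₁ i a)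
  have hb2 : ∀ i, e₂ i b = e₁ i a := fun i => congrFun (congrArg Prod.snd hb) i
  obtain ⟨f, hf, h1, -⟩ := S40NP_lift_pair n hn e₁ e₂ hW1 (hdeg := hdeg) a b
    (fun i => (hb2 i).symm)
  exact ⟨f, hf, h1⟩

include hW1 in
/-- `lift₂`: `red₂ : Λ → Rb₂` is onto. -/
theorem S40NP_lift₂ (hE : Function.Surjective (S34B_E e₁ e₂))
    (b : ↥(S34SB_chart L k (x : F) x₁ x₂ n hn).Rb₂) :
    ∃ (f : F) (hf : f ∈ S40NI_Lam S₁ S₂ hdeg x),
      S₂.red ⟨f, (S40NI_mem_Lam.1 hf).2.1⟩ = (b : Fk₂) := by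
  obtain ⟨⟨a, b'⟩, ha⟩ := hE (fun i => e₂ i b, 0)
  have ha2 : ∀ i, e₁ i a = e₂ i b := fun i => congrFun (congrArg Prod.fst ha) i
  obtain ⟨f, hf, -, h2⟩ := S40NP_lift_pair n hn e₁ e₂ hW1 (hdeg := hdeg) a b ha2
  exact ⟨f, hf, h2⟩

/-- the first reduction as a ring homomorphism `Λ → Fk₁`. -/
def S40NP_red₁ (S₁ : S18_Val L F k Fk₁) (S₂ : S18_Val L F k Fk₂)
    (hdeg : ∀ v : Place L F, v.deg = 1) (x : S34P_O2 S₁ S₂) :
    ↥(S40NI_Lam S₁ S₂ hdeg x) →+* Fk₁ :=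
  S₁.red.comp (Subring.inclusion (fun f hf => (S40NI_mem_Lam.1 hf).1 :
    S40NI_Lam S₁ S₂ hdeg x ≤ S₁.O.toSubring))

theorem S40NP_red₁_apply (f : ↥(S40NI_Lam S₁ S₂ hdeg x)) :
    S40NP_red₁ S₁ S₂ hdeg x f = S₁.red ⟨f, (S40NI_mem_Lam.1 f.2).1⟩ := rfl

include hx hred hW1 h₁ hP he₁ in
/-- **UnitAt from the order at the node**: `g ∈ O₁` whose first reduction has order `0` at `P i`
is a unit at the node `i`. -/
theorem S40NP_unitAt_of_ord [Infinite k] (hE : Function.Surjective (S34B_E e₁ e₂))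
    (hp₁ : ∃ c₀ : Place k Fk₁, c₀.ord x₁ < 0) (i : ι) (g : F) (hg : g ∈ S₁.O)
    (hg0 : S₁.red ⟨g, hg⟩ ≠ 0) (hord : (P i).ord (S₁.red ⟨g, hg⟩) = 0) :
    S40NA_UnitAt (S40NI_nodeGen hdeg n hn hx hred e₁ e₂ hW1 i) g := by
  obtain ⟨c₀, hc₀⟩ := hp₁
  have hc₀' : c₀ ∈ S40NP_cusps h₁ x₁ := (S40NP_mem_cusps h₁ x₁).2 hc₀
  have hPi : P i ∉ S40NP_cusps h₁ x₁ := fun hc => by
    rw [S40NP_mem_cusps] at hc
    have := hP i
    omega
  obtain ⟨H, r, hr, hH⟩ := S40F2PE_ex_den (Λ := ↥(S40NI_Lam S₁ S₂ hdeg x))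
    (red := S40NP_red₁ S₁ S₂ hdeg x) h₁ (S40NP_cusps h₁ x₁) c₀ hc₀'
    (fun b hb => by
      obtain ⟨f, hf, hfr⟩ := S40NP_lift₁ n hn e₁ e₂ hW1 (hdeg := hdeg) hE
        ⟨b, S40NP_reg_of_off_cusps h₁ x₁ hb⟩
      exact ⟨⟨f, hf⟩, hfr⟩)
    (P i) hPi (S₁.red ⟨g, hg⟩) (le_of_eq hord.symm)
  rw [S40NP_red₁_apply, S40NP_red₁_apply] at hr
  rw [S40NP_red₁_apply] at hH
  have hεH : (S40NI_nodeGen hdeg n hn hx hred e₁ e₂ hW1 i).ε ⟨H, H.2⟩ ≠ 0 := fun h0 =>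
    hH ((S40NP_eps_eq_zero_iff₁ n hn hx hred e₁ e₂ hW1 h₁ P hP he₁ i H.2).1 h0)
  have hεr : (S40NI_nodeGen hdeg n hn hx hred e₁ e₂ hW1 i).ε ⟨r, r.2⟩ ≠ 0 := by
    intro h0
    have hv := (S40NP_eps_eq_zero_iff₁ n hn hx hred e₁ e₂ hW1 h₁ P hP he₁ i r.2).1 h0
    rw [hr] at hv
    have hH0 : S₁.red ⟨H, (S40NI_mem_Lam.1 H.2).1⟩ ≠ 0 := fun h => hH (Or.inl h)
    have hHord : (P i).ord (S₁.red ⟨H, (S40NI_mem_Lam.1 H.2).1⟩) = 0 := by
      have h1 := S40NP_reg₁ hx hred P hP i H.2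
      by_contra hne
      exact hH (Or.inr (lt_of_le_of_ne h1 (Ne.symm hne)))
    rcases hv with hv | hv
    · exact (mul_ne_zero hH0 hg0) hv
    · rw [(P i).ord_mul hH0 hg0, hHord, hord] at hv
      exact lt_irrefl _ hv
  refine S40NI_unitAt n hn hx hred e₁ e₂ hW1 i g hg r H r.2 H.2 ?_ hεr hεH
  rw [hr, mul_comm]

include hx hred hW1 h₁ hP he₁ in
/-- **BRIDGE P1 → `S40F2N_Coord`**: a coordinate pair `X Y = ϖ H` in the shape of the output of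
`S40F2P_main` (`X = t`, `Y = s`, `H = w`, `ϖ = π ^ e`) is a node coordinate at the node `i`. -/
def S40NP_coord (i : ι) (X Y H : F) (hX : X ∈ S40NI_Lam S₁ S₂ hdeg x)
    (hY : Y ∈ S40NI_Lam S₁ S₂ hdeg x) (hH : H ∈ S40NI_Lam S₁ S₂ hdeg x)
    (ϖ : L) (hϖ : ϖ ∈ S₁.A.nonunits) (hϖ0 : ϖ ≠ 0) (rel : X * Y = algebraMap L F ϖ * H)
    (hX₂ : S₂.red ⟨X, (S40NI_mem_Lam.1 hX).2.1⟩ = 0)
    (hX₁ : S₁.red ⟨X, (S40NI_mem_Lam.1 hX).1⟩ ≠ 0)
    (hY₁ : S₁.red ⟨Y, (S40NI_mem_Lam.1 hY).1⟩ = 0)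
    (hY₂ : S₂.red ⟨Y, (S40NI_mem_Lam.1 hY).2.1⟩ ≠ 0)
    (hH₁ : ¬ S36RC_van (P i) (S₁.red ⟨H, (S40NI_mem_Lam.1 hH).1⟩)) :
    S40F2N_Coord (S40NI_nodeGen hdeg n hn hx hred e₁ e₂ hW1 i) where
  X := X
  Y := Y
  H := H
  ϖ := ϖ
  hX := hX
  hY := hY
  hH := hH
  hϖ := hϖ
  hϖ0 := hϖ0
  rel := rel
  εH := fun h0 => hH₁ ((S40NP_eps_eq_zero_iff₁ n hn hx hred e₁ e₂ hW1 h₁ P hP he₁ i hH).1 h0)
  εX := by
    rw [S40NI_eps_eq₂]
    have e : (S40NI_pair n hn hx hred X hX).2 = 0 := Subtype.ext hX₂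
    rw [e, map_zero]
  εY := by
    rw [S40NI_eps_eq₁]
    have e : (S40NI_pair n hn hx hred Y hY).1 = 0 := Subtype.ext hY₁
    rw [e, map_zero]
  X_unit := by
    have hu := (S₁.red_ne_zero_iff _).1 hX₁
    obtain ⟨u, hu'⟩ := hu
    have h1 : (((u⁻¹ : S₁.Oˣ) : S₁.O) : F) * X = 1 := by
      have := congrArg (fun z : S₁.O => (z : F)) u.inv_mul
      simp only [hu'] at this
      simpa using this
    have : X⁻¹ = (((u⁻¹ : S₁.Oˣ) : S₁.O) : F) := (eq_inv_of_mul_eq_one_left h1).symm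
    show X⁻¹ ∈ S₁.O
    rw [this]
    exact ((u⁻¹ : S₁.Oˣ) : S₁.O).2
  Y_unit := by
    have hu := (S₂.red_ne_zero_iff _).1 hY₂
    obtain ⟨u, hu'⟩ := hu
    have h1 : (((u⁻¹ : S₂.Oˣ) : S₂.O) : F) * Y = 1 := by
      have := congrArg (fun z : S₂.O => (z : F)) u.inv_mul
      simp only [hu'] at this
      simpa using this
    have : Y⁻¹ = (((u⁻¹ : S₂.Oˣ) : S₂.O) : F) := (eq_inv_of_mul_eq_one_left h1).symm
    show Y⁻¹ ∈ S₂.O
    rw [this]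
    exact ((u⁻¹ : S₂.Oˣ) : S₂.O).2

end Gen


/-! ### the canonical objects of TRACK 7 -/

section Canon

variable (M q : ℕ) [NeZero (M * q)] (hq : q.Prime) (hqM : ¬ q ∣ M)
  (A : ValuationSubring (AlgebraicClosure ℚ))
  (hgen : PrincipalGeneratedByIntegral A (IsLocalRing.residue A) (M * q))

/-- a function with a pole divisor of positive degree has a pole. -/
theorem S40NP_exists_pole_of_deg {K F : Type*} [Field K] [Field F] [Algebra K F]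
    (hP : HasPrincipalDivisors K F) (x : F) (hd : 0 < (RR_poleDiv hP x).degree) :
    ∃ v : Place K F, v.ord x < 0 := by
  by_contra hno
  simp only [not_exists, not_lt] at hno
  have h0 : RR_poleDiv hP x = 0 := by
    ext v
    rw [RR_poleDiv_apply, Finsupp.zero_apply]
    exact max_eq_right (by have := hno v; omega)
  rw [h0, map_zero] at hd
  exact lt_irrefl _ hd

include hq hqM in
/-- `j̄` has a pole. -/
theorem S40NP_pole₁ (hA : A.LiesOverPrime q) :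
    ∃ c₀ : Place (IsLocalRing.ResidueField A)
      ↥(modularFunctionFieldFullC (IsLocalRing.ResidueField A) (M * q)),
      c₀.ord (S34M_xb M q A) < 0 := by
  haveI : NeZero M := ⟨fun h => NeZero.ne (M * q) (by rw [h, zero_mul])⟩
  rw [S34HX_xb_eq]
  exact S40NP_exists_pole_of_deg (S34VF_hk M A hq hA hqM).principal _
    (S34PX_pole (M := M) (hq := hq) (hqM := hqM) hA)

include hq hqM in
/-- `j̄ ^ q` has a pole. -/
theorem S40NP_pole₂ (hA : A.LiesOverPrime q) :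
    ∃ c₀ : Place (IsLocalRing.ResidueField A)
      ↥(modularFunctionFieldFullC (IsLocalRing.ResidueField A) (M * q)),
      c₀.ord (S34M_xb M q A ^ q) < 0 := by
  obtain ⟨c₀, hc₀⟩ := S40NP_pole₁ M q hq hqM A hA
  refine ⟨c₀, ?_⟩
  rw [S36RC_ord_pow]
  have hq0 : (0 : ℤ) < (q : ℤ) := by exact_mod_cast hq.pos
  exact mul_neg_of_pos_of_neg hq0 hc₀

/-- **the nodes of `X₀(M q)` over `A ∣ q`, as algebra homomorphisms AND as places** of the two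
components, with the hypotheses `hx`, `hred` of the generic lemmas of this file and of
`S40/NodeInst.lean`. -/
theorem S40NP_canon (hA : A.LiesOverPrime q) :
    ∃ (s : ℕ) (e₁ : Fin s → ↥(S34M_chart M q A 1 Nat.one_pos).Rb₁ →ₐ[IsLocalRing.ResidueField A]
        IsLocalRing.ResidueField A)
      (e₂ : Fin s → ↥(S34M_chart M q A 1 Nat.one_pos).Rb₂ →ₐ[IsLocalRing.ResidueField A]
        IsLocalRing.ResidueField A)
      (P P' : Fin s → Place (IsLocalRing.ResidueField A)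
        ↥(modularFunctionFieldFullC (IsLocalRing.ResidueField A) (M * q))),
      Function.Surjective (S34B_E e₁ e₂) ∧
      S34K_W (S34M_same M q hq hqM A hgen) (S34M_chart M q A 1 Nat.one_pos) 1 = S34B_W e₁ e₂ ∧
      S34P_Hyp (S34M_T1 M q A hgen) (S34M_T2 M q hq hqM A hgen) (S34M_same M q hq hqM A hgen)
        (S34PX_j M q hq hqM A hgen) ∧
      S34P_red (S34M_T1 M q A hgen) (S34M_T2 M q hq hqM A hgen) (S34PX_j M q hq hqM A hgen) =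
        (S34M_xb M q A, S34M_xb M q A ^ q) ∧
      (∀ i, 0 ≤ (P i).ord (S34M_xb M q A)) ∧ (∀ i, 0 ≤ (P' i).ord (S34M_xb M q A ^ q)) ∧
      (∀ i (a : ↥(S34M_chart M q A 1 Nat.one_pos).Rb₁), e₁ i a = FD_c0 (P i) (a : _)) ∧
      (∀ i (b : ↥(S34M_chart M q A 1 Nat.one_pos).Rb₂), e₂ i b = FD_c0 (P' i) (b : _)) := by
  haveI : NeZero M := ⟨fun h => NeZero.ne (M * q) (by rw [h, zero_mul])⟩
  haveI : IsAlgClosed (IsLocalRing.ResidueField A) := S18_residue_isAlgClosed A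
  haveI : Infinite (IsLocalRing.ResidueField A) := IsAlgClosed.instInfinite
  obtain ⟨s, e₁, e₂, hE, hW1⟩ := S34NX_nodes M q hq hqM A hA hgen 1 Nat.one_pos
  have hx : S34P_Hyp (S34M_T1 M q A hgen) (S34M_T2 M q hq hqM A hgen)
      (S34M_same M q hq hqM A hgen) (S34PX_j M q hq hqM A hgen) :=
    S34PX_hyp (S34VW_cart M q hq hqM A hgen hA)
  have hred := S34HX_red_j M q hq hqM A hgen hA
  obtain ⟨P, P', hP, hP', he₁, he₂⟩ := S40NP_exists_places (L := AlgebraicClosure ℚ)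
    (x := S34PX_j M q hq hqM A hgen) 1 Nat.one_pos e₁ e₂
    (S34VF_hk M A hq hA hqM) (S34VF_hk M A hq hA hqM) (S40NP_pole₁ M q hq hqM A hA)
    (S40NP_pole₂ M q hq hqM A hA)
  exact ⟨s, e₁, e₂, P, P', hE, hW1, hx, hred, hP, hP', he₁, he₂⟩

end Canon

end Fermat.Agent.S40
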