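import Fermat.Agent.S40.DiscHyp
import Fermat.Agent.S40.F2SmEpsI
import Fermat.Agent.S40.F2N5
import Fermat.Agent.S40.NodePl
import Fermat.Agent.S24.EvDeg
import Fermat.Agent.Lib.DescExt

/-!
# TRACK 13 (S40/S44, row 38), hole (D-ORD): the ASSEMBLY on the first chart (helper5).
Prefix `S40DA_`.

Level `M p`, `p ∤ M`, `A ⊂ ℚ̄` over `p`, `T₁ = S34M_T1` the first Gauss valuation.

* `S40DA_ord` : **(D-ORD) at the ordinary places of `C₁`**: if `u` is a unit of `T₁` whose orders
  at the non-cuspidal places of `X₀(M p)` are divisible by `p`, then `p ∣ ord_v (red₁ u)` at every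
  place `v` of the fibre field with `j̄` regular at `v` and `red₁ φ₀` a unit at `v`
  (`φ₀ = f₀⁻¹`; by helper18's `S40OC_trichotomy` these are exactly the non-cuspidal places which
  are not nodes).
  = helper8's generic theorem `S40DO_main'` with the two instance inputs
  `S40F2SE_reg_canon` (helper29) and `S40DH_hyp_inertia` (helper5).
-/

set_option autoImplicit false
set_option synthInstance.maxHeartbeats 400000
set_option maxHeartbeats 1000000
set_option linter.unusedSectionVars false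
set_option linter.unusedVariables false
set_option linter.style.haveILetI false

open HahnSeries IntermediateField AlgebraicCurve ModularCurve

noncomputable section

namespace Fermat.Agent.S40

open Fermat.Agent.Lib Fermat.Agent.S18 Fermat.Agent.S24 Fermat.Agent.S34 Fermat.Agent.S36
  Fermat.Agent.GalRep Fermat.Agent.S33

local notation "Ω" => AlgebraicClosure ℚ

/-- `j` has a pole on `X₀(N)` (characteristic `0`). -/
theorem S40DA_pole (N : ℕ) [NeZero N] :
    ∃ c₀ : Place Ω ↥(modularFunctionFieldBar N), c₀.ord (jB N) < 0 := by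
  refine DSC_exists_pole (S18_hRR N) _ ?_
  rintro ⟨c, hc⟩
  exact transcendental_jB N (hc ▸ isAlgebraic_algebraMap c)

/-- **(D-ORD) at the ordinary places of `C₁`.** -/
theorem S40DA_ord (M p : ℕ) [NeZero (M * p)] [NeZero p] (hp : p.Prime) (hpM : ¬ p ∣ M)
    (A : ValuationSubring Ω) (hA : A.LiesOverPrime p)
    (hgen : PrincipalGeneratedByIntegral A (IsLocalRing.residue A) (M * p))
    (v : Place (IsLocalRing.ResidueField A)
      ↥(modularFunctionFieldFullC (IsLocalRing.ResidueField A) (M * p)))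
    (hv : 0 ≤ v.ord (S34M_xb M p A))
    (h : (S36F0_f0 M p)⁻¹ ∈ (S34M_T1 M p A hgen).O)
    (hord : v.ord ((S34M_T1 M p A hgen).red ⟨(S36F0_f0 M p)⁻¹, h⟩) = 0)
    {u : ↥(modularFunctionFieldBar (M * p))} (hu : S40F2S_IsU (S34M_T1 M p A hgen).O u)
    (hdiv : ∀ w : Place Ω ↥(modularFunctionFieldBar (M * p)),
      0 ≤ w.ord (jB (M * p)) → (p : ℤ) ∣ w.ord u) :
    (p : ℤ) ∣ v.ord ((S34M_T1 M p A hgen).red ⟨u, hu.mem⟩) := by
  haveI : NeZero M := ⟨fun h0 => NeZero.ne (M * p) (by rw [h0, zero_mul])⟩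
  haveI : IsAlgClosed (IsLocalRing.ResidueField A) := S18_residue_isAlgClosed A
  haveI : Infinite (IsLocalRing.ResidueField A) := IsAlgClosed.instInfinite
  have rr : RR_Hyp (IsLocalRing.ResidueField A)
      ↥(modularFunctionFieldFullC (IsLocalRing.ResidueField A) (M * p)) :=
    S34VF_hk M A hp hA hpM
  obtain ⟨c₁, hc₁⟩ := S40NP_pole₁ M p hp hpM A hA
  obtain ⟨c₀, hc₀⟩ := S40DA_pole (M * p)
  exact S40DO_main' (S := S34M_T1 M p A hgen) (hdeg := (S18_hRR (M * p)).deg_one)
    (x := (jB (M * p) : ↥(modularFunctionFieldBar (M * p)))) (v := v)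
    (R := S40SL_R M p hp hpM A hgen (A.inertiaSubgroupIn ℚ)) (π := (p : Ω))
    (xb := S34M_xb M p A) (rr.deg_one v) rr c₁ hc₁ hv
    (S40F2SE_reg_canon M p hp hpM A hA hgen v hv h hord)
    (S40DH_hyp_inertia M p hp hpM A hA hgen) (S18_hRR (M * p)) c₀ hc₀
    (S40F2N5_arch p hp A hA) p hu hdiv

end Fermat.Agent.S40
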