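import Fermat.Agent.S33.NewLift
import Fermat.Agent.S33.NewDisc
import Fermat.Agent.S33.NewLatT

/-!
# TRACK 13 (S40/S44), (F2') package P1-INST (a) (helper18).  Prefix `S40F2PI_`.

The geometric fields of `S40F2PB_Fib` (`S40/F2PBuild.lean`) on the concrete objects of TRACK 11:

* `Λ := ↥(S33NX_Lam M p hp hpM A hgen H)` (rational lattice on `U = {j ≠ ∞}`, `H ≤ I_A`),
  `F₁ = F₂ = modularFunctionFieldFullC k (M p)`, `k = κ(A)`;
* `S40F2PI_pi`   : `π` := a uniformiser `ϖ₀` of `A ∩ fixK(H)` (`S33NL2_Unif A H ϖ₀`; `ϖ₀ = p` when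
  `H = I_A`), as an element of `Λ`;
* `S40F2PI_red₁`, `S40F2PI_red₂` : the two reductions `Λ →+* F̄`;
* `S40F2PI_red₁_pi`, `S40F2PI_red₂_pi`, `S40F2PI_cart` (`ker red₁ ∩ ker red₂ = π Λ`);
* `S40F2PI_red_mem` : the reductions are regular off the poles of `j̄`, `j̄ ^ p`;
* `S40F2PI_img`  : `e₁ i (red₁ x) = e₂ i (red₂ x)` at every node (`e₁, e₂` as in `S34NX_nodes`);
* `S40F2PI_lift` : **fibre product**: `(a, b) ∈ R̄₁ × R̄₂` with `e₁ i a = e₂ i b` for all `i` is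
  `(red₁ x, red₂ x)`, `x ∈ Λ`;
* `S40F2PI_lift₁`, `S40F2PI_lift₁'`, `S40F2PI_lift₂'`, `S40F2PI_lift₂` : the four lifts of
  `S40F2PB_Fib`, in `e`-form;
* `S40F2PI_cusps`, `S40F2PI_mem_cusps`, `S40F2PI_reg_of_off` : the cusps as a `Finset` of places,
  and "regular off the cusps" = membership in `S34SB_reg`.
-/

set_option autoImplicit false
set_option synthInstance.maxHeartbeats 400000
set_option maxHeartbeats 1000000
set_option linter.unusedSectionVars false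
set_option linter.unusedVariables false
set_option linter.style.haveILetI false

open HahnSeries IntermediateField AlgebraicCurve ModularCurve

noncomputable section

namespace Fermat.Agent.S40

open Fermat.Agent.Lib Fermat.Agent.S18 Fermat.Agent.S24 Fermat.Agent.S34 Fermat.Agent.S36
  Fermat.Agent.GalRep Fermat.Agent.S33

local notation "Ω" => AlgebraicClosure ℚ

/-! ### the cusps as a finset of places (generic) -/

section cusps

variable {K F : Type*} [Field K] [Field F] [Algebra K F]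

theorem S40F2PI_poles_finite (hP : HasPrincipalDivisors K F) (x : F) :
    {Q : Place K F | Q.ord x < 0}.Finite := by
  by_cases hx0 : x = 0
  · have : {Q : Place K F | Q.ord x < 0} = ∅ := by
      refine Set.eq_empty_iff_forall_notMem.2 ?_
      intro Q hQ
      have h1 : Q.ord x < 0 := hQ
      rw [hx0, Place.ord_zero] at h1
      exact lt_irrefl _ h1
    rw [this]; exact Set.finite_empty
  obtain ⟨D, hD, -⟩ := hP.exists_divisor x hx0
  refine (D.support.finite_toSet).subset ?_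
  intro Q hQ
  have h1 : Q.ord x < 0 := hQ
  rw [Finset.mem_coe, Finsupp.mem_support_iff, hD Q]
  exact ne_of_lt h1

/-- the poles of `x`, as a finset. -/
def S40F2PI_cusps (hP : HasPrincipalDivisors K F) (x : F) : Finset (Place K F) :=
  (S40F2PI_poles_finite hP x).toFinset

theorem S40F2PI_mem_cusps (hP : HasPrincipalDivisors K F) (x : F) (Q : Place K F) :
    Q ∈ S40F2PI_cusps hP x ↔ Q.ord x < 0 := by
  rw [S40F2PI_cusps, Set.Finite.mem_toFinset]
  exact Iff.rfl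

theorem S40F2PI_not_mem_cusps (hP : HasPrincipalDivisors K F) (x : F) (Q : Place K F) :
    Q ∉ S40F2PI_cusps hP x ↔ 0 ≤ Q.ord x := by
  rw [S40F2PI_mem_cusps, not_lt]

/-- regular off the cusps ⇒ in the coordinate ring of the chart. -/
theorem S40F2PI_reg_of_off (hP : HasPrincipalDivisors K F) (x a : F)
    (ha : ∀ Q : Place K F, Q ∉ S40F2PI_cusps hP x → 0 ≤ Q.ord a) : a ∈ S34SB_reg K x := by
  rcases eq_or_ne a 0 with rfl | ha0
  · exact zero_mem _
  rw [S34SB_mem_reg_iff ha0]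
  intro Q hQ
  exact ha Q ((S40F2PI_not_mem_cusps hP x Q).2 hQ)

/-- in the coordinate ring of the chart ⇒ regular off the cusps. -/
theorem S40F2PI_off_of_reg (hP : HasPrincipalDivisors K F) (x a : F) (ha : a ∈ S34SB_reg K x)
    (Q : Place K F) (hQ : Q ∉ S40F2PI_cusps hP x) : 0 ≤ Q.ord a := by
  rcases eq_or_ne a 0 with rfl | ha0
  · rw [Place.ord_zero]
  exact (S34SB_mem_reg_iff ha0).1 ha Q ((S40F2PI_not_mem_cusps hP x Q).1 hQ)

end cusps

/-! ### the concrete objects -/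

section inst

variable (M p : ℕ) [NeZero (M * p)] (hp : p.Prime) (hpM : ¬ p ∣ M)
  (A : ValuationSubring Ω) (hA : A.LiesOverPrime p)
  (hgen : PrincipalGeneratedByIntegral A (IsLocalRing.residue A) (M * p))
  (H : Subgroup (Ω ≃ₐ[ℚ] Ω)) (hH : H ≤ A.inertiaSubgroupIn ℚ)

/-- `Λ → O₁ ∩ O₂` (over `ℚ̄`). -/
def S40F2PI_toO2 : ↥(S33NX_Lam M p hp hpM A hgen H) →+*
    ↥(S34P_O2 (S34M_T1 M p A hgen) (S34M_T2 M p hp hpM A hgen)) where
  toFun x := ⟨((x : S33NX_F M p H) : ↥(modularFunctionFieldBar (M * p))),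
    ⟨(S33NX_mem_O_zero M p hp hpM A hgen H x).1 x.2.1.1,
      (S33NX_mem_O_one M p hp hpM A hgen H x).1 x.2.1.2⟩⟩
  map_one' := rfl
  map_mul' _ _ := rfl
  map_zero' := rfl
  map_add' _ _ := rfl

theorem S40F2PI_toO2_coe (x : ↥(S33NX_Lam M p hp hpM A hgen H)) :
    ((S40F2PI_toO2 M p hp hpM A hgen H x : ↥(S34P_O2 (S34M_T1 M p A hgen)
      (S34M_T2 M p hp hpM A hgen))) : ↥(modularFunctionFieldBar (M * p))) =
      ((x : S33NX_F M p H) : ↥(modularFunctionFieldBar (M * p))) := rfl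

theorem S40F2PI_toO2_mem_B (x : ↥(S33NX_Lam M p hp hpM A hgen H)) :
    ((x : S33NX_F M p H) : ↥(modularFunctionFieldBar (M * p))) ∈
      S34SB_reg Ω (jB (M * p) : ↥(modularFunctionFieldBar (M * p))) := by
  rw [S34IW_reg_eq]
  exact x.2.2

/-- the pair of reductions `Λ →+* F̄ × F̄`. -/
def S40F2PI_red : ↥(S33NX_Lam M p hp hpM A hgen H) →+*
    ↥(modularFunctionFieldFullC (IsLocalRing.ResidueField A) (M * p)) ×
      ↥(modularFunctionFieldFullC (IsLocalRing.ResidueField A) (M * p)) :=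
  (S34P_red (S34M_T1 M p A hgen) (S34M_T2 M p hp hpM A hgen)).comp
    (S40F2PI_toO2 M p hp hpM A hgen H)

/-- the reduction along the first component. -/
def S40F2PI_red₁ : ↥(S33NX_Lam M p hp hpM A hgen H) →+*
    ↥(modularFunctionFieldFullC (IsLocalRing.ResidueField A) (M * p)) :=
  (RingHom.fst _ _).comp (S40F2PI_red M p hp hpM A hgen H)

/-- the reduction along the second component. -/
def S40F2PI_red₂ : ↥(S33NX_Lam M p hp hpM A hgen H) →+*
    ↥(modularFunctionFieldFullC (IsLocalRing.ResidueField A) (M * p)) :=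
  (RingHom.snd _ _).comp (S40F2PI_red M p hp hpM A hgen H)

theorem S40F2PI_red₁_apply (x : ↥(S33NX_Lam M p hp hpM A hgen H)) :
    S40F2PI_red₁ M p hp hpM A hgen H x =
      (S34M_T1 M p A hgen).red ⟨((x : S33NX_F M p H) : ↥(modularFunctionFieldBar (M * p))),
        (S33NX_mem_O_zero M p hp hpM A hgen H x).1 x.2.1.1⟩ := rfl

theorem S40F2PI_red₂_apply (x : ↥(S33NX_Lam M p hp hpM A hgen H)) :
    S40F2PI_red₂ M p hp hpM A hgen H x =
      (S34M_T2 M p hp hpM A hgen).red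
        ⟨((x : S33NX_F M p H) : ↥(modularFunctionFieldBar (M * p))),
          (S33NX_mem_O_one M p hp hpM A hgen H x).1 x.2.1.2⟩ := rfl

theorem S40F2PI_red_eq (x : ↥(S33NX_Lam M p hp hpM A hgen H)) :
    S34P_red (S34M_T1 M p A hgen) (S34M_T2 M p hp hpM A hgen)
        (S40F2PI_toO2 M p hp hpM A hgen H x) =
      (S40F2PI_red₁ M p hp hpM A hgen H x, S40F2PI_red₂ M p hp hpM A hgen H x) := rfl

/-! ### `π`, `red π = 0`, `cart` -/

section pi

variable (ϖ₀ : Ω) (h : S33NL2_Unif A H ϖ₀)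

/-- the uniformiser, as an element of `Λ`. -/
def S40F2PI_pi : ↥(S33NX_Lam M p hp hpM A hgen H) :=
  ⟨S33NX_const M p H ϖ₀ ((S36FI_mem_fixK (M * p) H).2 h.fixed), by
    haveI : NeZero p := ⟨hp.ne_zero⟩
    haveI : NeZero M := ⟨fun h0 => NeZero.ne (M * p) (by rw [h0, zero_mul])⟩
    refine ⟨⟨?_, ?_⟩, ?_⟩
    · exact (S33ND_isDV_zero M p hp hpM A hA hgen H h).π_mem
    · exact (S33ND_isDV_one M p hp hpM A hA hgen H h).π_mem
    · show algebraMap Ω ↥(modularFunctionFieldBar (M * p)) ϖ₀ ∈ S33NX_B M p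
      exact Subalgebra.algebraMap_mem _ _⟩

theorem S40F2PI_pi_coe :
    ((S40F2PI_pi M p hp hpM A hA hgen H ϖ₀ h : ↥(S33NX_Lam M p hp hpM A hgen H)) :
      S33NX_F M p H) = S33NX_const M p H ϖ₀ ((S36FI_mem_fixK (M * p) H).2 h.fixed) := rfl

include hA in
theorem S40F2PI_red₁_pi :
    S40F2PI_red₁ M p hp hpM A hgen H (S40F2PI_pi M p hp hpM A hA hgen H ϖ₀ h) = 0 := by
  obtain ⟨hm, h0⟩ := S33LF_red_pi (S34M_T1 M p A hgen) _ _
    (S33LF_hO_zero M p hp hpM A hgen H) _ (S33ND_isDV_zero M p hp hpM A hA hgen H h)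
  rw [S40F2PI_red₁_apply]
  exact h0

include hA in
theorem S40F2PI_red₂_pi :
    S40F2PI_red₂ M p hp hpM A hgen H (S40F2PI_pi M p hp hpM A hA hgen H ϖ₀ h) = 0 := by
  obtain ⟨hm, h0⟩ := S33LF_red_pi (S34M_T2 M p hp hpM A hgen) _ _
    (S33LF_hO_one M p hp hpM A hgen H) _ (S33ND_isDV_one M p hp hpM A hA hgen H h)
  rw [S40F2PI_red₂_apply]
  exact h0

include hA in
/-- **`cart`**: `ker red₁ ∩ ker red₂ = π Λ`. -/
theorem S40F2PI_cart (x : ↥(S33NX_Lam M p hp hpM A hgen H))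
    (h₁ : S40F2PI_red₁ M p hp hpM A hgen H x = 0)
    (h₂ : S40F2PI_red₂ M p hp hpM A hgen H x = 0) :
    ∃ w : ↥(S33NX_Lam M p hp hpM A hgen H),
      x = S40F2PI_pi M p hp hpM A hA hgen H ϖ₀ h * w := by
  have hsat := S33NL2_TSat M p hp hpM A hgen H ϖ₀ ((S36FI_mem_fixK (M * p) H).2 h.fixed)
    h.ne_zero
  rw [S40F2PI_red₁_apply] at h₁
  rw [S40F2PI_red₂_apply] at h₂
  have d₁ := S33LF_div_of_red (S34M_T1 M p A hgen) _ _
    (S33LF_hO_zero M p hp hpM A hgen H) _ (S33ND_isDV_zero M p hp hpM A hA hgen H h) _ h₁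
  have d₂ := S33LF_div_of_red (S34M_T2 M p hp hpM A hgen) _ _
    (S33LF_hO_one M p hp hpM A hgen H) _ (S33ND_isDV_one M p hp hpM A hA hgen H h) _ h₂
  obtain ⟨t, ht, e⟩ := hsat (x : S33NX_F M p H) x.2 (fun i => by
    fin_cases i
    · exact d₁
    · exact d₂)
  refine ⟨⟨t, ht⟩, ?_⟩
  apply Subtype.ext
  rw [e, pow_one]
  rfl

end pi

/-! ### regularity of the reductions, the fibre product -/

section lifts

include hA in
/-- the reductions are regular off the poles of `j̄`, `j̄ ^ p`. -/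
theorem S40F2PI_red_mem (x : ↥(S33NX_Lam M p hp hpM A hgen H)) :
    S40F2PI_red₁ M p hp hpM A hgen H x ∈
        S34SB_reg (IsLocalRing.ResidueField A) (S34M_xb M p A) ∧
      S40F2PI_red₂ M p hp hpM A hgen H x ∈
        S34SB_reg (IsLocalRing.ResidueField A) (S34M_xb M p A ^ p) := by
  haveI : NeZero p := ⟨hp.ne_zero⟩
  haveI : NeZero M := ⟨fun h0 => NeZero.ne (M * p) (by rw [h0, zero_mul])⟩
  exact S33LF_red_mem_U M p hp hpM A hA hgen (S40F2PI_toO2 M p hp hpM A hgen H x)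
    (S40F2PI_toO2_mem_B M p hp hpM A hgen H x)

variable (n : ℕ) (hn : 0 < n) {s : ℕ}
  (e₁ : Fin s → ↥(S34M_chart M p A n hn).Rb₁ →ₐ[IsLocalRing.ResidueField A]
    IsLocalRing.ResidueField A)
  (e₂ : Fin s → ↥(S34M_chart M p A n hn).Rb₂ →ₐ[IsLocalRing.ResidueField A]
    IsLocalRing.ResidueField A)
  (hE : Function.Surjective (S34B_E e₁ e₂))
  (hW1 : S34K_W (S34M_same M p hp hpM A hgen) (S34M_chart M p A n hn) 1 = S34B_W e₁ e₂)

include hA hW1 in
/-- **the value at a node is well defined**: `e₁ i (red₁ x) = e₂ i (red₂ x)`. -/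
theorem S40F2PI_img (x : ↥(S33NX_Lam M p hp hpM A hgen H)) (i : Fin s) :
    e₁ i ⟨S40F2PI_red₁ M p hp hpM A hgen H x, (S40F2PI_red_mem M p hp hpM A hA hgen H x).1⟩ =
      e₂ i ⟨S40F2PI_red₂ M p hp hpM A hgen H x,
        (S40F2PI_red_mem M p hp hpM A hA hgen H x).2⟩ := by
  have hmw : ((⟨_, (S40F2PI_red_mem M p hp hpM A hA hgen H x).1⟩,
      ⟨_, (S40F2PI_red_mem M p hp hpM A hA hgen H x).2⟩) :
      ↥(S34M_chart M p A n hn).Rb₁ × ↥(S34M_chart M p A n hn).Rb₂) ∈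
      S34K_W (S34M_same M p hp hpM A hgen) (S34M_chart M p A n hn) 1 := by
    rw [S34K_mem_W_one]
    exact ⟨S40F2PI_toO2 M p hp hpM A hgen H x, S40F2PI_toO2_mem_B M p hp hpM A hgen H x, rfl⟩
  rw [hW1, S34B_mem_W] at hmw
  exact hmw i

include hA hH hW1 in
/-- **fibre product**: `(a, b)` with equal values at the nodes is the reduction of an element of
`Λ`. -/
theorem S40F2PI_lift
    (a b : ↥(modularFunctionFieldFullC (IsLocalRing.ResidueField A) (M * p)))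
    (ha : a ∈ S34SB_reg (IsLocalRing.ResidueField A) (S34M_xb M p A))
    (hb : b ∈ S34SB_reg (IsLocalRing.ResidueField A) (S34M_xb M p A ^ p))
    (hab : ∀ i, e₁ i ⟨a, ha⟩ = e₂ i ⟨b, hb⟩) :
    ∃ x : ↥(S33NX_Lam M p hp hpM A hgen H),
      S40F2PI_red₁ M p hp hpM A hgen H x = a ∧ S40F2PI_red₂ M p hp hpM A hgen H x = b := by
  haveI : NeZero p := ⟨hp.ne_zero⟩
  haveI : NeZero M := ⟨fun h0 => NeZero.ne (M * p) (by rw [h0, zero_mul])⟩
  have hm : ((⟨a, ha⟩, ⟨b, hb⟩) :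
      ↥(S34M_chart M p A n hn).Rb₁ × ↥(S34M_chart M p A n hn).Rb₂) ∈
      S34K_W (S34M_same M p hp hpM A hgen) (S34M_chart M p A n hn) 1 := by
    rw [hW1, S34B_mem_W]
    exact hab
  rw [S34K_mem_W_one] at hm
  obtain ⟨f, hfB, hfred⟩ := hm
  have hfB' : (f : ↥(modularFunctionFieldBar (M * p))) ∈ S34SB_reg Ω (jB (M * p)) := hfB
  have hP := (S18_hRR (M * p)).principal
  obtain ⟨a', ha'⟩ := S36DW_exists_a hP (jB (M * p)) (0 : Ω) hfB'
  obtain ⟨g, hgV, hg, hgfix, hgred⟩ := S36DW_levJ M p hp hpM A hA hgen hP (0 : Ω)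
    (fun τ _ => map_zero τ) a' 0 (f : ↥(modularFunctionFieldBar (M * p))) ha' f.2
  have hgB : g ∈ S34SB_reg Ω (jB (M * p)) := S36DW_reg_le hP (jB (M * p)) (0 : Ω) a' hgV
  have hgF : g ∈ (S36FI_act (M * p) H).fixF :=
    (S36FI_mem_fixF (M * p) H).2 fun σ hσ => hgfix σ (hH hσ)
  have hgLam : (⟨g, hgF⟩ : S33NX_F M p H) ∈ S33NX_Lam M p hp hpM A hgen H := by
    rw [S33NX_mem_Lam]
    refine ⟨⟨(S33LF_hO_zero M p hp hpM A hgen H ⟨g, hgF⟩).2 hg.1,
      (S33LF_hO_one M p hp hpM A hgen H ⟨g, hgF⟩).2 hg.2⟩, ?_⟩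
    show g ∈ S33NX_B M p
    unfold S33NX_B
    rw [← S34IW_reg_eq]
    exact hgB
  have hgred' : S34P_red (S34M_T1 M p A hgen) (S34M_T2 M p hp hpM A hgen) ⟨g, hg⟩ = (a, b) :=
    hgred.trans hfred
  refine ⟨⟨⟨g, hgF⟩, hgLam⟩, ?_, ?_⟩
  · exact congrArg Prod.fst hgred'
  · exact congrArg Prod.snd hgred'

include hA hH hW1 in
/-- **`lift₁`** (`e`-form): `(a, 0)` lifts if `a` vanishes at the nodes. -/
theorem S40F2PI_lift₁
    (a : ↥(modularFunctionFieldFullC (IsLocalRing.ResidueField A) (M * p)))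
    (ha : a ∈ S34SB_reg (IsLocalRing.ResidueField A) (S34M_xb M p A))
    (hv : ∀ i, e₁ i ⟨a, ha⟩ = 0) :
    ∃ t : ↥(S33NX_Lam M p hp hpM A hgen H),
      S40F2PI_red₁ M p hp hpM A hgen H t = a ∧ S40F2PI_red₂ M p hp hpM A hgen H t = 0 := by
  refine S40F2PI_lift M p hp hpM A hA hgen H hH n hn e₁ e₂ hW1 a 0 ha (zero_mem _) ?_
  intro i
  rw [hv i]
  exact (map_zero (e₂ i)).symm

include hA hH hW1 in
/-- **`lift₁'`** (`e`-form): `(0, b)` lifts if `b` vanishes at the nodes. -/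
theorem S40F2PI_lift₁'
    (b : ↥(modularFunctionFieldFullC (IsLocalRing.ResidueField A) (M * p)))
    (hb : b ∈ S34SB_reg (IsLocalRing.ResidueField A) (S34M_xb M p A ^ p))
    (hv : ∀ i, e₂ i ⟨b, hb⟩ = 0) :
    ∃ t : ↥(S33NX_Lam M p hp hpM A hgen H),
      S40F2PI_red₁ M p hp hpM A hgen H t = 0 ∧ S40F2PI_red₂ M p hp hpM A hgen H t = b := by
  refine S40F2PI_lift M p hp hpM A hA hgen H hH n hn e₁ e₂ hW1 0 b (zero_mem _) hb ?_
  intro i
  rw [hv i]
  exact map_zero (e₁ i)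

include hA hH hW1 hE in
/-- **`lift₂'`**: `red₁` is onto the functions regular off the cusps. -/
theorem S40F2PI_lift₂'
    (a : ↥(modularFunctionFieldFullC (IsLocalRing.ResidueField A) (M * p)))
    (ha : a ∈ S34SB_reg (IsLocalRing.ResidueField A) (S34M_xb M p A)) :
    ∃ x : ↥(S33NX_Lam M p hp hpM A hgen H), S40F2PI_red₁ M p hp hpM A hgen H x = a := by
  obtain ⟨q, hq⟩ := hE (0, fun i => e₁ i ⟨a, ha⟩)
  have h2 : ∀ i, e₂ i q.2 = e₁ i ⟨a, ha⟩ := fun i => congrFun (congrArg Prod.snd hq) i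
  obtain ⟨x, hx, -⟩ := S40F2PI_lift M p hp hpM A hA hgen H hH n hn e₁ e₂ hW1 a (q.2 : _) ha q.2.2
    (fun i => (h2 i).symm)
  exact ⟨x, hx⟩

include hA hH hW1 hE in
/-- **`lift₂`**: `red₂` is onto the functions regular off the cusps. -/
theorem S40F2PI_lift₂
    (b : ↥(modularFunctionFieldFullC (IsLocalRing.ResidueField A) (M * p)))
    (hb : b ∈ S34SB_reg (IsLocalRing.ResidueField A) (S34M_xb M p A ^ p)) :
    ∃ x : ↥(S33NX_Lam M p hp hpM A hgen H), S40F2PI_red₂ M p hp hpM A hgen H x = b := by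
  obtain ⟨q, hq⟩ := hE (fun i => e₂ i ⟨b, hb⟩, 0)
  have h1 : ∀ i, e₁ i q.1 = e₂ i ⟨b, hb⟩ := fun i => congrFun (congrArg Prod.fst hq) i
  obtain ⟨x, -, hx⟩ := S40F2PI_lift M p hp hpM A hA hgen H hH n hn e₁ e₂ hW1 (q.1 : _) b q.1.2 hb
    (fun i => h1 i)
  exact ⟨x, hx⟩

end lifts

end inst

end Fermat.Agent.S40
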