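import Fermat.Agent.S33.NewDisc
import Fermat.Agent.S33.NewLift
import Fermat.Agent.S36.ModUnitFinal
import Fermat.Agent.S36.BaseLZeta

/-!
# TRACK 13 (S40, row 38), (F2') package P1-INST (c) (helper12): the filtration `V2` and the
modular unit `φ₀ = f₀⁻¹` on the rational lattice.  Prefix `S40F2PV_`.

Level `M p`, `p ∤ M` prime, `A ⊂ ℚ̄` a valuation ring over `p`, `H ≤ G_ℚ` a subgroup such that `p`
is a uniformiser of `A ∩ ℚ̄^H` (`S33NL2_Unif A H p`; true for the inertia group `H = I_A`: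
`S40F2PV_unif`), `F'' = fixF(H)` (`S33NX_F`), `O₁''`, `O₂''` (`S33NX_O … 0`, `S33NX_O … 1`) the
two Gauss valuation rings of `F''`, `Λ = S33NX_Lam` the lattice of the integral functions of `F''`
which are regular on `U = {j ≠ ∞}`.

These are the fields `π`, `V2`, `V2_one`, `V2_mul`, `V2_sat`, `φ₀`, `φ₀_ne`, `φ₀_red₂`, `div₀` of
helper20's `S40F2P_Hyp` (`S40/F2P.lean`):

* `S40F2PV_pi`       : `π = p` as an element of `F''`; `S40F2PV_pi_mem_Lam`, `_pi_red₁`, `_pi_red₂`;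
* `S40F2PV_V2 m x`   : `x ∈ p ^ m O₂''`;
* `S40F2PV_V2_one`   : `x ∈ O₂''` with `red₂ x = 0` ⇒ `V2 1 x`      (V-DISC of TRACK 11);
* `S40F2PV_V2_mul`, `S40F2PV_V2_sat`;
* `S40F2PV_phi`      : `φ₀ = f₀⁻¹`, `f₀ = Δ(pz)/Δ(z)` (`S36F0_f0`); `S40F2PV_phi_mem_Lam`,
  `S40F2PV_phi_red₁` (`red₁ φ₀ ≠ 0`), `S40F2PV_phi_red₂` (`red₂ φ₀ = 0`), `S40F2PV_phi_V2`
  (`V2 12 φ₀`);
* `S40F2PV_div₀`     : `h ∈ Λ`, `V2 (12 + a) h` ⇒ `h = h' φ₀` with `h' ∈ Λ`, `V2 a h'`.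
-/

set_option autoImplicit false
set_option synthInstance.maxHeartbeats 400000
set_option maxHeartbeats 1000000
set_option linter.unusedSectionVars false
set_option linter.unusedVariables false
set_option linter.style.haveILetI false

open HahnSeries IntermediateField AlgebraicCurve ModularCurve

noncomputable section

namespace Fermat.Agent.S40

open Fermat.Agent.Lib Fermat.Agent.S18 Fermat.Agent.S24 Fermat.Agent.S34 Fermat.Agent.S36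
  Fermat.Agent.GalRep Fermat.Agent.S33

local notation "Ω" => AlgebraicClosure ℚ

/-- `p` is a uniformiser of `A ∩ ℚ̄^I`, `I` the inertia group of `A`. -/
theorem S40F2PV_unif {p : ℕ} (hp : p.Prime) (A : ValuationSubring Ω) (hA : A.LiesOverPrime p) :
    S33NL2_Unif A (A.inertiaSubgroupIn ℚ) (p : Ω) where
  fixed := fun σ _ => map_natCast σ p
  lt_one := A.mem_nonunits_iff.mp hA
  ne_zero := Nat.cast_ne_zero.mpr hp.ne_zero
  dv := fun x hx hx0 => by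
    haveI : Fact p.Prime := ⟨hp⟩
    exact S36BL_val' A hA hx0 hx

section inst

variable (M p : ℕ) [NeZero (M * p)] [NeZero p] (hp : p.Prime) (hpM : ¬ p ∣ M)
  (A : ValuationSubring Ω) (hA : A.LiesOverPrime p)
  (hgen : PrincipalGeneratedByIntegral A (IsLocalRing.residue A) (M * p))
  (H : Subgroup (Ω ≃ₐ[ℚ] Ω))

theorem S40F2PV_p_fix : (p : Ω) ∈ (S36FI_act (M * p) H).fixK := by
  rw [S36FI_mem_fixK]
  intro σ _
  exact map_natCast σ p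

/-- the uniformiser `π = p` as an element of `F''`. -/
def S40F2PV_pi : S33NX_F M p H := S33NX_const M p H (p : Ω) (S40F2PV_p_fix M p H)

theorem S40F2PV_pi_coe :
    ((S40F2PV_pi M p H : S33NX_F M p H) : ↥(modularFunctionFieldBar (M * p))) =
      algebraMap Ω ↥(modularFunctionFieldBar (M * p)) (p : Ω) := rfl

/-- **`V2 m x`** : `x ∈ p ^ m O₂''`. -/
def S40F2PV_V2 (m : ℕ) (x : S33NX_F M p H) : Prop :=
  S33N1_Div (S33NX_O M p hp hpM A hgen H 1) (S40F2PV_pi M p H) m x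

include hA in
theorem S40F2PV_p_mem : (p : Ω) ∈ A :=
  (A.valuation_le_one_iff _).mp (le_of_lt (A.mem_nonunits_iff.mp hA))

include hA in
theorem S40F2PV_pi_mem_O (i : Fin 2) : S40F2PV_pi M p H ∈ S33NX_O M p hp hpM A hgen H i :=
  S33ND_const_mem_O M p hp hpM A hgen H (S40F2PV_p_fix M p H) (S40F2PV_p_mem p A hA) i

/-! ### the filtration `V2` -/

include hA in
/-- **`V2_one`**: an integral function of `F''` with `red₂ = 0` is divisible by `p` in `O₂''`. -/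
theorem S40F2PV_V2_one (hU : S33NL2_Unif A H (p : Ω)) (x : S33NX_F M p H)
    (h : (x : ↥(modularFunctionFieldBar (M * p))) ∈ (S34M_T2 M p hp hpM A hgen).O)
    (hx : (S34M_T2 M p hp hpM A hgen).red
      ⟨(x : ↥(modularFunctionFieldBar (M * p))), h⟩ = 0) :
    S40F2PV_V2 M p hp hpM A hgen H 1 x :=
  S33LF_div_of_red (S34M_T2 M p hp hpM A hgen) (S36FI_act (M * p) H).fixF
    (S33NX_O M p hp hpM A hgen H 1) (S33NX_mem_O_one M p hp hpM A hgen H) (S40F2PV_pi M p H)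
    (S33ND_isDV_one M p hp hpM A hA hgen H hU) h hx

include hA in
/-- conversely `V2 1 x` ⇒ `red₂ x = 0`. -/
theorem S40F2PV_red_of_V2 (hU : S33NL2_Unif A H (p : Ω)) {m : ℕ} (hm : 1 ≤ m)
    (x : S33NX_F M p H) (hx : S40F2PV_V2 M p hp hpM A hgen H m x) :
    ∃ h : (x : ↥(modularFunctionFieldBar (M * p))) ∈ (S34M_T2 M p hp hpM A hgen).O,
      (S34M_T2 M p hp hpM A hgen).red ⟨(x : ↥(modularFunctionFieldBar (M * p))), h⟩ = 0 :=
  S33LF_red_of_div (S34M_T2 M p hp hpM A hgen) (S36FI_act (M * p) H).fixF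
    (S33NX_O M p hp hpM A hgen H 1) (S33NX_mem_O_one M p hp hpM A hgen H) (S40F2PV_pi M p H)
    (S33ND_isDV_one M p hp hpM A hA hgen H hU)
    (S33N1_Div_mono _ _ (S40F2PV_pi_mem_O M p hp hpM A hA hgen H 1) hm hx)

/-- **`V2_mul`**. -/
theorem S40F2PV_V2_mul (a b : ℕ) (x y : S33NX_F M p H)
    (hx : S40F2PV_V2 M p hp hpM A hgen H a x) (hy : S40F2PV_V2 M p hp hpM A hgen H b y) :
    S40F2PV_V2 M p hp hpM A hgen H (a + b) (x * y) := by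
  obtain ⟨t, ht, rfl⟩ := hx
  obtain ⟨s, hs, rfl⟩ := hy
  exact ⟨t * s, Subring.mul_mem _ ht hs, by rw [_root_.pow_add]; ring⟩

include hA in
/-- `V2 m x` ⇒ `x ∈ O₂''`. -/
theorem S40F2PV_V2_mem (m : ℕ) (x : S33NX_F M p H)
    (hx : S40F2PV_V2 M p hp hpM A hgen H m x) : x ∈ S33NX_O M p hp hpM A hgen H 1 := by
  obtain ⟨t, ht, rfl⟩ := hx
  exact Subring.mul_mem _ (Subring.pow_mem _ (S40F2PV_pi_mem_O M p hp hpM A hA hgen H 1) m) ht

/-- **`V2_sat`**: a unit of `O₂` can be cancelled. -/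
theorem S40F2PV_V2_sat (m : ℕ) (x y : S33NX_F M p H)
    (h : (x : ↥(modularFunctionFieldBar (M * p))) ∈ (S34M_T2 M p hp hpM A hgen).O)
    (hx : (S34M_T2 M p hp hpM A hgen).red
      ⟨(x : ↥(modularFunctionFieldBar (M * p))), h⟩ ≠ 0)
    (hxy : S40F2PV_V2 M p hp hpM A hgen H m (x * y)) :
    S40F2PV_V2 M p hp hpM A hgen H m y := by
  obtain ⟨t, ht, e⟩ := hxy
  have hu := ((S34M_T2 M p hp hpM A hgen).red_ne_zero_iff _).1 hx
  obtain ⟨v, hv⟩ := hu.exists_right_inv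
  have h1 : (x : ↥(modularFunctionFieldBar (M * p))) * (v : ↥(modularFunctionFieldBar (M * p))) = 1 :=
    congrArg Subtype.val hv
  have hx0 : x ≠ 0 := by
    rintro rfl
    rw [ZeroMemClass.coe_zero, zero_mul] at h1
    exact zero_ne_one h1
  have hinv : x⁻¹ ∈ S33NX_O M p hp hpM A hgen H 1 := by
    rw [S33NX_mem_O_one]
    have e2 : ((x⁻¹ : S33NX_F M p H) : ↥(modularFunctionFieldBar (M * p))) =
        (v : ↥(modularFunctionFieldBar (M * p))) := by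
      push_cast
      exact inv_eq_of_mul_eq_one_right h1
    rw [e2]
    exact v.2
  refine ⟨x⁻¹ * t, Subring.mul_mem _ hinv ht, ?_⟩
  have e3 : y = x⁻¹ * (x * y) := by
    rw [← mul_assoc, inv_mul_cancel₀ hx0, one_mul]
  rw [e3, e]
  ring

/-! ### the modular unit -/

theorem S40F2PV_f0_fix : S36F0_f0 M p ∈ (S36FI_act (M * p) H).fixF := by
  rw [S36FI_mem_fixF_iff_coeff]
  intro k
  rw [S36FI_mem_fixK]
  intro σ _
  rw [S36F0_f0_coe, ← S36F0_coeffMap_ser (Int.castRingHom Ω) p, coeffMap_coeff]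
  exact map_intCast σ _

/-- `f₀ = Δ(pz)/Δ(z)` as an element of `F''`. -/
def S40F2PV_f0 : S33NX_F M p H := ⟨S36F0_f0 M p, S40F2PV_f0_fix M p H⟩

/-- `φ₀ = f₀⁻¹` as an element of `F''`. -/
def S40F2PV_phi : S33NX_F M p H := (S40F2PV_f0 M p H)⁻¹

theorem S40F2PV_f0_coe :
    ((S40F2PV_f0 M p H : S33NX_F M p H) : ↥(modularFunctionFieldBar (M * p))) =
      S36F0_f0 M p := rfl

theorem S40F2PV_phi_coe :
    ((S40F2PV_phi M p H : S33NX_F M p H) : ↥(modularFunctionFieldBar (M * p))) =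
      (S36F0_f0 M p)⁻¹ := rfl

theorem S40F2PV_f0_ne : S40F2PV_f0 M p H ≠ 0 := fun h =>
  S36F0_f0_ne_zero M p (congrArg Subtype.val h)

theorem S40F2PV_f0_mul_phi : S40F2PV_f0 M p H * S40F2PV_phi M p H = 1 :=
  mul_inv_cancel₀ (S40F2PV_f0_ne M p H)

theorem S40F2PV_phi_mul_f0 : S40F2PV_phi M p H * S40F2PV_f0 M p H = 1 :=
  inv_mul_cancel₀ (S40F2PV_f0_ne M p H)

theorem S40F2PV_p12_ne : ((p : Ω) ^ 12) ≠ 0 :=
  pow_ne_zero _ (Nat.cast_ne_zero.mpr (NeZero.ne p))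

include hA in
/-- `w_p (p ^ 12 f₀) = f₀⁻¹`. -/
theorem S40F2PV_wq_p12_f0 :
    S34DF_wq M p hp hpM (algebraMap Ω ↥(modularFunctionFieldBar (M * p)) ((p : Ω) ^ 12) *
      S36F0_f0 M p) = (S36F0_f0 M p)⁻¹ := by
  rw [map_mul, AlgEquiv.commutes, (S36F0_unit M p hp hpM A hA).wq, ← mul_assoc, ← map_mul,
    mul_inv_cancel₀ (S40F2PV_p12_ne p), map_one, one_mul]

include hA in
/-- `w_p ((p ^ 12)⁻¹ f₀⁻¹) = f₀`. -/
theorem S40F2PV_wq_p12_phi :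
    S34DF_wq M p hp hpM (algebraMap Ω ↥(modularFunctionFieldBar (M * p)) ((p : Ω) ^ 12)⁻¹ *
      (S36F0_f0 M p)⁻¹) = S36F0_f0 M p := by
  have h0 : S36F0_f0 M p ≠ 0 := S36F0_f0_ne_zero M p
  have hc : algebraMap Ω ↥(modularFunctionFieldBar (M * p)) ((p : Ω) ^ 12)⁻¹ ≠ 0 :=
    (map_ne_zero _).mpr (inv_ne_zero (S40F2PV_p12_ne p))
  have e1 : S34DF_wq M p hp hpM (S36F0_f0 M p)⁻¹ = (S34DF_wq M p hp hpM (S36F0_f0 M p))⁻¹ :=
    map_inv₀ _ _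
  rw [map_mul, AlgEquiv.commutes, e1, (S36F0_unit M p hp hpM A hA).wq, mul_inv, inv_inv,
    ← mul_assoc, mul_inv_cancel₀ hc, one_mul]

include hA in
theorem S40F2PV_f0_mem_O₁ : S40F2PV_f0 M p H ∈ S33NX_O M p hp hpM A hgen H 0 :=
  (S33ND_mem_O_zero' M p hp hpM A hgen H _).2 (S36F0_unit M p hp hpM A hA).mem_O

include hA in
theorem S40F2PV_phi_mem_O₁ : S40F2PV_phi M p H ∈ S33NX_O M p hp hpM A hgen H 0 :=
  (S33ND_mem_O_zero' M p hp hpM A hgen H _).2 (S36F0_unit M p hp hpM A hA).inv_mem_O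

/-- `p ^ 12 f₀` as an element of `F''`. -/
def S40F2PV_g : S33NX_F M p H := S40F2PV_pi M p H ^ 12 * S40F2PV_f0 M p H

/-- `(p ^ 12)⁻¹ f₀⁻¹` as an element of `F''`. -/
def S40F2PV_g' : S33NX_F M p H := (S40F2PV_pi M p H ^ 12)⁻¹ * S40F2PV_phi M p H

include hA in
theorem S40F2PV_g_mem_O₂ : S40F2PV_g M p H ∈ S33NX_O M p hp hpM A hgen H 1 := by
  rw [S33ND_mem_O_one']
  have e : ((S40F2PV_g M p H : S33NX_F M p H) : ↥(modularFunctionFieldBar (M * p))) =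
      algebraMap Ω ↥(modularFunctionFieldBar (M * p)) ((p : Ω) ^ 12) * S36F0_f0 M p := by
    rw [map_pow]
    rfl
  rw [e, S40F2PV_wq_p12_f0 M p hp hpM A hA]
  exact (S36F0_unit M p hp hpM A hA).inv_mem_O

include hA in
theorem S40F2PV_g'_mem_O₂ : S40F2PV_g' M p H ∈ S33NX_O M p hp hpM A hgen H 1 := by
  rw [S33ND_mem_O_one']
  have e : ((S40F2PV_g' M p H : S33NX_F M p H) : ↥(modularFunctionFieldBar (M * p))) =
      algebraMap Ω ↥(modularFunctionFieldBar (M * p)) ((p : Ω) ^ 12)⁻¹ * (S36F0_f0 M p)⁻¹ := by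
    rw [map_inv₀, map_pow]
    rfl
  rw [e, S40F2PV_wq_p12_phi M p hp hpM A hA]
  exact (S36F0_unit M p hp hpM A hA).mem_O

theorem S40F2PV_pi_ne : S40F2PV_pi M p H ≠ 0 := by
  intro h
  have h1 := congrArg Subtype.val h
  rw [S40F2PV_pi_coe] at h1
  exact (map_ne_zero (algebraMap Ω ↥(modularFunctionFieldBar (M * p)))).mpr
    (Nat.cast_ne_zero.mpr (NeZero.ne p)) h1

include hA in
/-- **`V₂(φ₀) ≥ 12`**. -/
theorem S40F2PV_phi_V2 : S40F2PV_V2 M p hp hpM A hgen H 12 (S40F2PV_phi M p H) := by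
  refine ⟨S40F2PV_g' M p H, S40F2PV_g'_mem_O₂ M p hp hpM A hA hgen H, ?_⟩
  have h0 : S40F2PV_pi M p H ^ 12 ≠ 0 := pow_ne_zero _ (S40F2PV_pi_ne M p H)
  rw [S40F2PV_g', ← mul_assoc, mul_inv_cancel₀ h0, one_mul]

include hA in
theorem S40F2PV_phi_mem_O₂ : S40F2PV_phi M p H ∈ S33NX_O M p hp hpM A hgen H 1 :=
  S40F2PV_V2_mem M p hp hpM A hA hgen H 12 _ (S40F2PV_phi_V2 M p hp hpM A hA hgen H)

/-- `f₀` and `f₀⁻¹` are regular on `U`. -/
theorem S40F2PV_f0_mem_B : S36F0_f0 M p ∈ S33NX_B M p := by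
  show S36F0_f0 M p ∈ S34IX_reg (S34IX_TU (jB (M * p)))
  rw [S34IX_mem_reg_iff_ord]
  intro v hv
  rw [S36F0_f0_ord_fin M p v hv]

theorem S40F2PV_phi_mem_B : (S36F0_f0 M p)⁻¹ ∈ S33NX_B M p := by
  show (S36F0_f0 M p)⁻¹ ∈ S34IX_reg (S34IX_TU (jB (M * p)))
  rw [S34IX_mem_reg_iff_ord]
  intro v hv
  rw [Place.ord_inv, S36F0_f0_ord_fin M p v hv, neg_zero]

include hA in
/-- **`φ₀ ∈ Λ`**. -/
theorem S40F2PV_phi_mem_Lam : S40F2PV_phi M p H ∈ S33NX_Lam M p hp hpM A hgen H :=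
  (S33NX_mem_Lam M p hp hpM A hgen H _).2
    ⟨⟨S40F2PV_phi_mem_O₁ M p hp hpM A hA hgen H, S40F2PV_phi_mem_O₂ M p hp hpM A hA hgen H⟩,
      S40F2PV_phi_mem_B M p⟩

include hA in
/-- **`π ∈ Λ`**. -/
theorem S40F2PV_pi_mem_Lam : S40F2PV_pi M p H ∈ S33NX_Lam M p hp hpM A hgen H :=
  (S33NX_mem_Lam M p hp hpM A hgen H _).2
    ⟨⟨S40F2PV_pi_mem_O M p hp hpM A hA hgen H 0, S40F2PV_pi_mem_O M p hp hpM A hA hgen H 1⟩,
      Subalgebra.algebraMap_mem _ _⟩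

include hp hpM hA in
/-- **`red₁ φ₀ ≠ 0`**. -/
theorem S40F2PV_phi_red₁
    (h : ((S40F2PV_phi M p H : S33NX_F M p H) : ↥(modularFunctionFieldBar (M * p))) ∈
      (S34M_T1 M p A hgen).O) :
    (S34M_T1 M p A hgen).red
      ⟨((S40F2PV_phi M p H : S33NX_F M p H) : ↥(modularFunctionFieldBar (M * p))), h⟩ ≠ 0 := by
  rw [(S34M_T1 M p A hgen).red_ne_zero_iff]
  have h' : ((S40F2PV_f0 M p H : S33NX_F M p H) : ↥(modularFunctionFieldBar (M * p))) ∈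
      (S34M_T1 M p A hgen).O :=
    (S33NX_mem_O_zero M p hp hpM A hgen H _).1 (S40F2PV_f0_mem_O₁ M p hp hpM A hA hgen H)
  refine isUnit_iff_exists_inv.2 ⟨⟨_, h'⟩, ?_⟩
  apply Subtype.ext
  have e := congrArg (fun z : S33NX_F M p H => (z : ↥(modularFunctionFieldBar (M * p))))
    (S40F2PV_phi_mul_f0 M p H)
  exact e

include hA in
/-- **`red₂ φ₀ = 0`**. -/
theorem S40F2PV_phi_red₂ (hU : S33NL2_Unif A H (p : Ω))
    (h : ((S40F2PV_phi M p H : S33NX_F M p H) : ↥(modularFunctionFieldBar (M * p))) ∈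
      (S34M_T2 M p hp hpM A hgen).O) :
    (S34M_T2 M p hp hpM A hgen).red
      ⟨((S40F2PV_phi M p H : S33NX_F M p H) : ↥(modularFunctionFieldBar (M * p))), h⟩ = 0 := by
  obtain ⟨h2, e⟩ := S40F2PV_red_of_V2 M p hp hpM A hA hgen H hU (by norm_num : 1 ≤ 12) _
    (S40F2PV_phi_V2 M p hp hpM A hA hgen H)
  exact e

include hA in
/-- **`div₀`**: `h ∈ Λ` with `V₂(h) ≥ 12 + a` is `h' φ₀` with `h' ∈ Λ`, `V₂(h') ≥ a`. -/
theorem S40F2PV_div₀ (a : ℕ) (h : S33NX_F M p H) (hh : h ∈ S33NX_Lam M p hp hpM A hgen H)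
    (hV : S40F2PV_V2 M p hp hpM A hgen H (12 + a) h) :
    ∃ h' : S33NX_F M p H, h' ∈ S33NX_Lam M p hp hpM A hgen H ∧
      h = h' * S40F2PV_phi M p H ∧ S40F2PV_V2 M p hp hpM A hgen H a h' := by
  have hV' : S40F2PV_V2 M p hp hpM A hgen H a (h * S40F2PV_f0 M p H) := by
    obtain ⟨t, ht, e⟩ := hV
    refine ⟨S40F2PV_g M p H * t,
      Subring.mul_mem _ (S40F2PV_g_mem_O₂ M p hp hpM A hA hgen H) ht, ?_⟩
    rw [e, S40F2PV_g, _root_.pow_add]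
    ring
  obtain ⟨⟨hO1, hO2⟩, hB⟩ := (S33NX_mem_Lam M p hp hpM A hgen H h).1 hh
  refine ⟨h * S40F2PV_f0 M p H, ?_, ?_, hV'⟩
  · refine (S33NX_mem_Lam M p hp hpM A hgen H _).2 ⟨⟨?_, ?_⟩, ?_⟩
    · exact Subring.mul_mem _ hO1 (S40F2PV_f0_mem_O₁ M p hp hpM A hA hgen H)
    · exact S40F2PV_V2_mem M p hp hpM A hA hgen H a _ hV'
    · exact Subalgebra.mul_mem _ hB (S40F2PV_f0_mem_B M p)
  · rw [mul_assoc, S40F2PV_f0_mul_phi, mul_one]

/-! ### the fields of `S40F2PB_Fib` / `S40F2P_Hyp` on `Λ = ↥S33NX_Lam` -/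

/-- `Λ → O₁`. -/
def S40F2PV_toO₁ : ↥(S33NX_Lam M p hp hpM A hgen H) →+* ↥(S34M_T1 M p A hgen).O where
  toFun x := ⟨((x : S33NX_F M p H) : ↥(modularFunctionFieldBar (M * p))),
    (S33NX_mem_O_zero M p hp hpM A hgen H _).1
      ((S33NX_mem_Lam M p hp hpM A hgen H _).1 x.2).1.1⟩
  map_one' := rfl
  map_mul' _ _ := rfl
  map_zero' := rfl
  map_add' _ _ := rfl

/-- `Λ → O₂`. -/
def S40F2PV_toO₂ : ↥(S33NX_Lam M p hp hpM A hgen H) →+* ↥(S34M_T2 M p hp hpM A hgen).O where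
  toFun x := ⟨((x : S33NX_F M p H) : ↥(modularFunctionFieldBar (M * p))),
    (S33NX_mem_O_one M p hp hpM A hgen H _).1
      ((S33NX_mem_Lam M p hp hpM A hgen H _).1 x.2).1.2⟩
  map_one' := rfl
  map_mul' _ _ := rfl
  map_zero' := rfl
  map_add' _ _ := rfl

/-- **`red₁`** on `Λ`. -/
def S40F2PV_red₁ : ↥(S33NX_Lam M p hp hpM A hgen H) →+*
    ↥(modularFunctionFieldFullC (IsLocalRing.ResidueField A) (M * p)) :=
  (S34M_T1 M p A hgen).red.comp (S40F2PV_toO₁ M p hp hpM A hgen H)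

/-- **`red₂`** on `Λ`. -/
def S40F2PV_red₂ : ↥(S33NX_Lam M p hp hpM A hgen H) →+*
    ↥(modularFunctionFieldFullC (IsLocalRing.ResidueField A) (M * p)) :=
  (S34M_T2 M p hp hpM A hgen).red.comp (S40F2PV_toO₂ M p hp hpM A hgen H)

theorem S40F2PV_red₁_apply (x : ↥(S33NX_Lam M p hp hpM A hgen H))
    (h : ((x : S33NX_F M p H) : ↥(modularFunctionFieldBar (M * p))) ∈ (S34M_T1 M p A hgen).O) :
    S40F2PV_red₁ M p hp hpM A hgen H x = (S34M_T1 M p A hgen).red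
      ⟨((x : S33NX_F M p H) : ↥(modularFunctionFieldBar (M * p))), h⟩ := rfl

theorem S40F2PV_red₂_apply (x : ↥(S33NX_Lam M p hp hpM A hgen H))
    (h : ((x : S33NX_F M p H) : ↥(modularFunctionFieldBar (M * p))) ∈
      (S34M_T2 M p hp hpM A hgen).O) :
    S40F2PV_red₂ M p hp hpM A hgen H x = (S34M_T2 M p hp hpM A hgen).red
      ⟨((x : S33NX_F M p H) : ↥(modularFunctionFieldBar (M * p))), h⟩ := rfl

/-- **`π`** in `Λ`. -/
def S40F2PV_piL : ↥(S33NX_Lam M p hp hpM A hgen H) :=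
  ⟨S40F2PV_pi M p H, S40F2PV_pi_mem_Lam M p hp hpM A hA hgen H⟩

/-- **`φ₀`** in `Λ`. -/
def S40F2PV_phiL : ↥(S33NX_Lam M p hp hpM A hgen H) :=
  ⟨S40F2PV_phi M p H, S40F2PV_phi_mem_Lam M p hp hpM A hA hgen H⟩

/-- **`V2`** on `Λ`. -/
def S40F2PV_V2L (m : ℕ) (x : ↥(S33NX_Lam M p hp hpM A hgen H)) : Prop :=
  S40F2PV_V2 M p hp hpM A hgen H m (x : S33NX_F M p H)

/-- field `red₁_π`. -/
theorem S40F2PV_L_red₁_π (hU : S33NL2_Unif A H (p : Ω)) :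
    S40F2PV_red₁ M p hp hpM A hgen H (S40F2PV_piL M p hp hpM A hA hgen H) = 0 := by
  obtain ⟨h, e⟩ := S33LF_red_pi (S34M_T1 M p A hgen) (S36FI_act (M * p) H).fixF
    (S33NX_O M p hp hpM A hgen H 0) (S33NX_mem_O_zero M p hp hpM A hgen H) (S40F2PV_pi M p H)
    (S33ND_isDV_zero M p hp hpM A hA hgen H hU)
  exact e

/-- field `red₂_π`. -/
theorem S40F2PV_L_red₂_π (hU : S33NL2_Unif A H (p : Ω)) :
    S40F2PV_red₂ M p hp hpM A hgen H (S40F2PV_piL M p hp hpM A hA hgen H) = 0 := by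
  obtain ⟨h, e⟩ := S33LF_red_pi (S34M_T2 M p hp hpM A hgen) (S36FI_act (M * p) H).fixF
    (S33NX_O M p hp hpM A hgen H 1) (S33NX_mem_O_one M p hp hpM A hgen H) (S40F2PV_pi M p H)
    (S33ND_isDV_one M p hp hpM A hA hgen H hU)
  exact e

include hA in
/-- field `V2_one`. -/
theorem S40F2PV_L_V2_one (hU : S33NL2_Unif A H (p : Ω))
    (x : ↥(S33NX_Lam M p hp hpM A hgen H)) (hx : S40F2PV_red₂ M p hp hpM A hgen H x = 0) :
    S40F2PV_V2L M p hp hpM A hgen H 1 x :=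
  S40F2PV_V2_one M p hp hpM A hA hgen H hU _ _ hx

/-- field `V2_mul`. -/
theorem S40F2PV_L_V2_mul (a b : ℕ) (x y : ↥(S33NX_Lam M p hp hpM A hgen H))
    (hx : S40F2PV_V2L M p hp hpM A hgen H a x) (hy : S40F2PV_V2L M p hp hpM A hgen H b y) :
    S40F2PV_V2L M p hp hpM A hgen H (a + b) (x * y) :=
  S40F2PV_V2_mul M p hp hpM A hgen H a b _ _ hx hy

/-- field `V2_sat`. -/
theorem S40F2PV_L_V2_sat (m : ℕ) (x y : ↥(S33NX_Lam M p hp hpM A hgen H))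
    (hxy : S40F2PV_V2L M p hp hpM A hgen H m (x * y))
    (hx : S40F2PV_red₂ M p hp hpM A hgen H x ≠ 0) :
    S40F2PV_V2L M p hp hpM A hgen H m y :=
  S40F2PV_V2_sat M p hp hpM A hgen H m _ _ _ hx hxy

/-- field `φ₀_ne`. -/
theorem S40F2PV_L_φ₀_ne :
    S40F2PV_red₁ M p hp hpM A hgen H (S40F2PV_phiL M p hp hpM A hA hgen H) ≠ 0 :=
  S40F2PV_phi_red₁ M p hp hpM A hA hgen H
    (S40F2PV_toO₁ M p hp hpM A hgen H (S40F2PV_phiL M p hp hpM A hA hgen H)).2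

/-- field `φ₀_red₂`. -/
theorem S40F2PV_L_φ₀_red₂ (hU : S33NL2_Unif A H (p : Ω)) :
    S40F2PV_red₂ M p hp hpM A hgen H (S40F2PV_phiL M p hp hpM A hA hgen H) = 0 :=
  S40F2PV_phi_red₂ M p hp hpM A hA hgen H hU
    (S40F2PV_toO₂ M p hp hpM A hgen H (S40F2PV_phiL M p hp hpM A hA hgen H)).2

/-- field `div₀`. -/
theorem S40F2PV_L_div₀ (a : ℕ) (h : ↥(S33NX_Lam M p hp hpM A hgen H))
    (hV : S40F2PV_V2L M p hp hpM A hgen H (12 + a) h) :
    ∃ h' : ↥(S33NX_Lam M p hp hpM A hgen H),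
      h = h' * S40F2PV_phiL M p hp hpM A hA hgen H ∧ S40F2PV_V2L M p hp hpM A hgen H a h' := by
  obtain ⟨h', hh', e, hV'⟩ := S40F2PV_div₀ M p hp hpM A hA hgen H a _ h.2 hV
  exact ⟨⟨h', hh'⟩, Subtype.ext e, hV'⟩

end inst

end Fermat.Agent.S40
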