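import Fermat.Agent.S40.F2PBuild
import Fermat.Agent.S40.F2PV
import Fermat.Agent.S40.NodePl
import Fermat.Agent.S40.F2PInst

/-!
# TRACK 13 (S40/S44), (F2') package P1-INST, THE TERM (helper18).  Prefix `S40F2PF_`.

`S40F2PF_fib … : S40F2PB_Fib k F̄ F̄ Λ (Fin s)` on the concrete objects
(`Λ = S33NX_Lam M p hp hpM A hgen H`, `H ≤ I_A`, `p` a uniformiser of `A ∩ Ω^H`, e.g. `H = I_A`),
for the nodes `e₁, e₂, P, P'` of `S40NP_canon` (helper26):

* (a) `cart`, lifts, `reg`, cusps : `S40/F2PInst.lean` (helper18);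
* nodes as places, `compat` : `S40/NodePl.lean` (helper26);
* (c) `V2`, `φ₀`, `div₀` : `S40/F2PV.lean` (helper12).

`S40F2PF_node` : **P1 at every node** = the conclusion of `S40F2P_main` (helper20) at the node `i`.
`S40F2PF_main` : the same with the nodes of `S40NP_canon` (all data existential).
-/

set_option autoImplicit false
set_option synthInstance.maxHeartbeats 400000
set_option maxHeartbeats 1000000
set_option linter.unusedSectionVars false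
set_option linter.unusedVariables false
set_option linter.style.haveILetI false

open HahnSeries IntermediateField AlgebraicCurve ModularCurve

noncomputable section

namespace Fermat.Agent.S40

open Fermat.Agent.Lib Fermat.Agent.S17 Fermat.Agent.S18 Fermat.Agent.S24 Fermat.Agent.S34
  Fermat.Agent.S36 Fermat.Agent.GalRep Fermat.Agent.S33

local notation "Ω" => AlgebraicClosure ℚ

section inst

variable (M p : ℕ) [NeZero (M * p)] [NeZero p] (hp : p.Prime) (hpM : ¬ p ∣ M)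
  (A : ValuationSubring Ω) (hA : A.LiesOverPrime p)
  (hgen : PrincipalGeneratedByIntegral A (IsLocalRing.residue A) (M * p))
  (H : Subgroup (Ω ≃ₐ[ℚ] Ω)) (hH : H ≤ A.inertiaSubgroupIn ℚ)
  (hU : S33NL2_Unif A H (p : Ω))

/-! ### the two sets of definitions agree -/

theorem S40F2PF_red₁_eq :
    S40F2PV_red₁ M p hp hpM A hgen H = S40F2PI_red₁ M p hp hpM A hgen H :=
  RingHom.ext fun _ => rfl

theorem S40F2PF_red₂_eq :
    S40F2PV_red₂ M p hp hpM A hgen H = S40F2PI_red₂ M p hp hpM A hgen H :=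
  RingHom.ext fun _ => rfl

theorem S40F2PF_pi_eq :
    S40F2PV_piL M p hp hpM A hA hgen H = S40F2PI_pi M p hp hpM A hA hgen H (p : Ω) hU :=
  Subtype.ext rfl

include hp hpM hA

/-- `RR_Hyp` of the residue function field. -/
theorem S40F2PF_hk : RR_Hyp (IsLocalRing.ResidueField A)
    ↥(modularFunctionFieldFullC (IsLocalRing.ResidueField A) (M * p)) := by
  haveI : NeZero M := ⟨fun h0 => NeZero.ne (M * p) (by rw [h0, zero_mul])⟩
  exact S34VF_hk M A hp hA hpM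

/-! ### the fields -/

include hU in
theorem S40F2PF_cart (x : ↥(S33NX_Lam M p hp hpM A hgen H))
    (h₁ : S40F2PV_red₁ M p hp hpM A hgen H x = 0)
    (h₂ : S40F2PV_red₂ M p hp hpM A hgen H x = 0) :
    ∃ w : ↥(S33NX_Lam M p hp hpM A hgen H),
      x = S40F2PV_piL M p hp hpM A hA hgen H * w := by
  rw [S40F2PF_red₁_eq] at h₁
  rw [S40F2PF_red₂_eq] at h₂
  rw [S40F2PF_pi_eq M p hp hpM A hA hgen H hU]
  exact S40F2PI_cart M p hp hpM A hA hgen H (p : Ω) hU x h₁ h₂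

theorem S40F2PF_reg₁ (x : ↥(S33NX_Lam M p hp hpM A hgen H))
    (Q : Place (IsLocalRing.ResidueField A)
      ↥(modularFunctionFieldFullC (IsLocalRing.ResidueField A) (M * p)))
    (hQ : Q ∉ S40F2PI_cusps (S40F2PF_hk M p hp hpM A hA).principal (S34M_xb M p A)) :
    0 ≤ Q.ord (S40F2PV_red₁ M p hp hpM A hgen H x) := by
  rw [S40F2PF_red₁_eq]
  exact S40F2PI_off_of_reg _ _ _ (S40F2PI_red_mem M p hp hpM A hA hgen H x).1 Q hQ

theorem S40F2PF_reg₂ (x : ↥(S33NX_Lam M p hp hpM A hgen H))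
    (Q : Place (IsLocalRing.ResidueField A)
      ↥(modularFunctionFieldFullC (IsLocalRing.ResidueField A) (M * p)))
    (hQ : Q ∉ S40F2PI_cusps (S40F2PF_hk M p hp hpM A hA).principal (S34M_xb M p A ^ p)) :
    0 ≤ Q.ord (S40F2PV_red₂ M p hp hpM A hgen H x) := by
  rw [S40F2PF_red₂_eq]
  exact S40F2PI_off_of_reg _ _ _ (S40F2PI_red_mem M p hp hpM A hA hgen H x).2 Q hQ

section nodes

variable {s : ℕ}
  (e₁ : Fin s → ↥(S34M_chart M p A 1 Nat.one_pos).Rb₁ →ₐ[IsLocalRing.ResidueField A]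
    IsLocalRing.ResidueField A)
  (e₂ : Fin s → ↥(S34M_chart M p A 1 Nat.one_pos).Rb₂ →ₐ[IsLocalRing.ResidueField A]
    IsLocalRing.ResidueField A)
  (P P' : Fin s → Place (IsLocalRing.ResidueField A)
    ↥(modularFunctionFieldFullC (IsLocalRing.ResidueField A) (M * p)))
  (hE : Function.Surjective (S34B_E e₁ e₂))
  (hW1 : S34K_W (S34M_same M p hp hpM A hgen) (S34M_chart M p A 1 Nat.one_pos) 1 =
    S34B_W e₁ e₂)
  (hP : ∀ i, 0 ≤ (P i).ord (S34M_xb M p A))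
  (hP' : ∀ i, 0 ≤ (P' i).ord (S34M_xb M p A ^ p))
  (he₁ : ∀ i (a : ↥(S34M_chart M p A 1 Nat.one_pos).Rb₁), e₁ i a = FD_c0 (P i) (a : _))
  (he₂ : ∀ i (b : ↥(S34M_chart M p A 1 Nat.one_pos).Rb₂), e₂ i b = FD_c0 (P' i) (b : _))

include hP he₁ in
/-- the dictionary on the first component: `e₁ i a = 0 ↔ a` vanishes at `P i`. -/
theorem S40F2PF_dict₁ (i : Fin s)
    (a : ↥(modularFunctionFieldFullC (IsLocalRing.ResidueField A) (M * p)))
    (ha : a ∈ S34SB_reg (IsLocalRing.ResidueField A) (S34M_xb M p A)) :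
    e₁ i ⟨a, ha⟩ = 0 ↔ S36RC_van (P i) a := by
  rw [he₁ i ⟨a, ha⟩]
  exact S40NP_eval_eq_zero_iff (S40F2PF_hk M p hp hpM A hA) (P i)
    (S40NP_mem_of_reg ha (P i) (hP i))

include hP' he₂ in
/-- the dictionary on the second component. -/
theorem S40F2PF_dict₂ (i : Fin s)
    (b : ↥(modularFunctionFieldFullC (IsLocalRing.ResidueField A) (M * p)))
    (hb : b ∈ S34SB_reg (IsLocalRing.ResidueField A) (S34M_xb M p A ^ p)) :
    e₂ i ⟨b, hb⟩ = 0 ↔ S36RC_van (P' i) b := by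
  rw [he₂ i ⟨b, hb⟩]
  exact S40NP_eval_eq_zero_iff (S40F2PF_hk M p hp hpM A hA) (P' i)
    (S40NP_mem_of_reg hb (P' i) (hP' i))

include hW1 hP hP' he₁ he₂ in
/-- field `compat`. -/
theorem S40F2PF_compat (i : Fin s) (f : ↥(S33NX_Lam M p hp hpM A hgen H)) :
    S36RC_van (P i) (S40F2PV_red₁ M p hp hpM A hgen H f) ↔
      S36RC_van (P' i) (S40F2PV_red₂ M p hp hpM A hgen H f) := by
  rw [S40F2PF_red₁_eq, S40F2PF_red₂_eq]
  have hm := S40F2PI_red_mem M p hp hpM A hA hgen H f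
  have himg := S40F2PI_img M p hp hpM A hA hgen H 1 Nat.one_pos e₁ e₂ hW1 f i
  rw [← S40F2PF_dict₁ M p hp hpM A hA e₁ P hP he₁ i _ hm.1,
    ← S40F2PF_dict₂ M p hp hpM A hA e₂ P' hP' he₂ i _ hm.2, himg]

include hH hW1 hP he₁ in
/-- field `lift₁`. -/
theorem S40F2PF_lift₁
    (a : ↥(modularFunctionFieldFullC (IsLocalRing.ResidueField A) (M * p)))
    (ha : ∀ Q : Place (IsLocalRing.ResidueField A)
      ↥(modularFunctionFieldFullC (IsLocalRing.ResidueField A) (M * p)),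
      Q ∉ S40F2PI_cusps (S40F2PF_hk M p hp hpM A hA).principal (S34M_xb M p A) → 0 ≤ Q.ord a)
    (hv : ∀ i, S36RC_van (P i) a) :
    ∃ t : ↥(S33NX_Lam M p hp hpM A hgen H),
      S40F2PV_red₁ M p hp hpM A hgen H t = a ∧ S40F2PV_red₂ M p hp hpM A hgen H t = 0 := by
  rw [S40F2PF_red₁_eq, S40F2PF_red₂_eq]
  have hreg := S40F2PI_reg_of_off _ _ a ha
  exact S40F2PI_lift₁ M p hp hpM A hA hgen H hH 1 Nat.one_pos e₁ e₂ hW1 a hreg
    (fun i => (S40F2PF_dict₁ M p hp hpM A hA e₁ P hP he₁ i a hreg).2 (hv i))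

include hH hW1 hP' he₂ in
/-- field `lift₁'`. -/
theorem S40F2PF_lift₁'
    (b : ↥(modularFunctionFieldFullC (IsLocalRing.ResidueField A) (M * p)))
    (hb : ∀ Q : Place (IsLocalRing.ResidueField A)
      ↥(modularFunctionFieldFullC (IsLocalRing.ResidueField A) (M * p)),
      Q ∉ S40F2PI_cusps (S40F2PF_hk M p hp hpM A hA).principal (S34M_xb M p A ^ p) →
        0 ≤ Q.ord b)
    (hv : ∀ i, S36RC_van (P' i) b) :
    ∃ t : ↥(S33NX_Lam M p hp hpM A hgen H),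
      S40F2PV_red₁ M p hp hpM A hgen H t = 0 ∧ S40F2PV_red₂ M p hp hpM A hgen H t = b := by
  rw [S40F2PF_red₁_eq, S40F2PF_red₂_eq]
  have hreg := S40F2PI_reg_of_off _ _ b hb
  exact S40F2PI_lift₁' M p hp hpM A hA hgen H hH 1 Nat.one_pos e₁ e₂ hW1 b hreg
    (fun i => (S40F2PF_dict₂ M p hp hpM A hA e₂ P' hP' he₂ i b hreg).2 (hv i))

include hH hE hW1 in
/-- field `lift₂'`. -/
theorem S40F2PF_lift₂'
    (a : ↥(modularFunctionFieldFullC (IsLocalRing.ResidueField A) (M * p)))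
    (ha : ∀ Q : Place (IsLocalRing.ResidueField A)
      ↥(modularFunctionFieldFullC (IsLocalRing.ResidueField A) (M * p)),
      Q ∉ S40F2PI_cusps (S40F2PF_hk M p hp hpM A hA).principal (S34M_xb M p A) → 0 ≤ Q.ord a) :
    ∃ x : ↥(S33NX_Lam M p hp hpM A hgen H), S40F2PV_red₁ M p hp hpM A hgen H x = a := by
  rw [S40F2PF_red₁_eq]
  exact S40F2PI_lift₂' M p hp hpM A hA hgen H hH 1 Nat.one_pos e₁ e₂ hE hW1 a
    (S40F2PI_reg_of_off _ _ a ha)

include hH hE hW1 in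
/-- field `lift₂`. -/
theorem S40F2PF_lift₂
    (b : ↥(modularFunctionFieldFullC (IsLocalRing.ResidueField A) (M * p)))
    (hb : ∀ Q : Place (IsLocalRing.ResidueField A)
      ↥(modularFunctionFieldFullC (IsLocalRing.ResidueField A) (M * p)),
      Q ∉ S40F2PI_cusps (S40F2PF_hk M p hp hpM A hA).principal (S34M_xb M p A ^ p) →
        0 ≤ Q.ord b) :
    ∃ x : ↥(S33NX_Lam M p hp hpM A hgen H), S40F2PV_red₂ M p hp hpM A hgen H x = b := by
  rw [S40F2PF_red₂_eq]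
  exact S40F2PI_lift₂ M p hp hpM A hA hgen H hH 1 Nat.one_pos e₁ e₂ hE hW1 b
    (S40F2PI_reg_of_off _ _ b hb)

/-- **THE TERM**: the inputs of P1-INST on the concrete objects. -/
def S40F2PF_fib
    (c₁ c₂ : Place (IsLocalRing.ResidueField A)
      ↥(modularFunctionFieldFullC (IsLocalRing.ResidueField A) (M * p)))
    (hc₁ : c₁.ord (S34M_xb M p A) < 0) (hc₂ : c₂.ord (S34M_xb M p A ^ p) < 0) :
    S40F2PB_Fib (IsLocalRing.ResidueField A)
      ↥(modularFunctionFieldFullC (IsLocalRing.ResidueField A) (M * p))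
      ↥(modularFunctionFieldFullC (IsLocalRing.ResidueField A) (M * p))
      ↥(S33NX_Lam M p hp hpM A hgen H) (Fin s) where
  π := S40F2PV_piL M p hp hpM A hA hgen H
  red₁ := S40F2PV_red₁ M p hp hpM A hgen H
  red₂ := S40F2PV_red₂ M p hp hpM A hgen H
  red₁_π := S40F2PV_L_red₁_π M p hp hpM A hA hgen H hU
  red₂_π := S40F2PV_L_red₂_π M p hp hpM A hA hgen H hU
  cart := S40F2PF_cart M p hp hpM A hA hgen H hU
  cusps₁ := S40F2PI_cusps (S40F2PF_hk M p hp hpM A hA).principal (S34M_xb M p A)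
  cusps₂ := S40F2PI_cusps (S40F2PF_hk M p hp hpM A hA).principal (S34M_xb M p A ^ p)
  c₁ := c₁
  c₂ := c₂
  hc₁ := (S40F2PI_mem_cusps _ _ _).2 hc₁
  hc₂ := (S40F2PI_mem_cusps _ _ _).2 hc₂
  reg₁ := S40F2PF_reg₁ M p hp hpM A hA hgen H
  reg₂ := S40F2PF_reg₂ M p hp hpM A hA hgen H
  P := P
  P' := P'
  P_not_cusp := fun i => (S40F2PI_not_mem_cusps _ _ _).2 (hP i)
  P'_not_cusp := fun i => (S40F2PI_not_mem_cusps _ _ _).2 (hP' i)
  compat := S40F2PF_compat M p hp hpM A hA hgen H e₁ e₂ P P' hW1 hP hP' he₁ he₂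
  lift₁ := S40F2PF_lift₁ M p hp hpM A hA hgen H hH e₁ e₂ P hW1 hP he₁
  lift₁' := S40F2PF_lift₁' M p hp hpM A hA hgen H hH e₁ e₂ P' hW1 hP' he₂
  lift₂' := S40F2PF_lift₂' M p hp hpM A hA hgen H hH e₁ e₂ hE hW1
  lift₂ := S40F2PF_lift₂ M p hp hpM A hA hgen H hH e₁ e₂ hE hW1
  rr₁ := S40F2PF_hk M p hp hpM A hA
  rr₂ := S40F2PF_hk M p hp hpM A hA
  V2 := S40F2PV_V2L M p hp hpM A hgen H
  V2_one := S40F2PV_L_V2_one M p hp hpM A hA hgen H hU
  V2_mul := S40F2PV_L_V2_mul M p hp hpM A hgen H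
  V2_sat := S40F2PV_L_V2_sat M p hp hpM A hgen H
  φ₀ := S40F2PV_phiL M p hp hpM A hA hgen H
  φ₀_ne := S40F2PV_L_φ₀_ne M p hp hpM A hA hgen H
  φ₀_red₂ := S40F2PV_L_φ₀_red₂ M p hp hpM A hA hgen H hU
  div₀ := S40F2PV_L_div₀ M p hp hpM A hA hgen H

include hH hU hE hW1 hP hP' he₁ he₂ in
/-- **P1 at the node `i`** (node coordinates `t = X`, `s = Y`, `ϖ = p ^ e`, `w = H`). -/
theorem S40F2PF_node (i : Fin s) :
    ∃ e : ℕ, 1 ≤ e ∧ e < 24 ∧ ∃ y t w : ↥(S33NX_Lam M p hp hpM A hgen H),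
      y * t = S40F2PV_piL M p hp hpM A hA hgen H ^ e * w ∧
      S40F2PV_red₁ M p hp hpM A hgen H y = 0 ∧ S40F2PV_red₂ M p hp hpM A hgen H y ≠ 0 ∧
      (P' i).ord (S40F2PV_red₂ M p hp hpM A hgen H y) = 1 ∧
      S40F2PV_red₂ M p hp hpM A hgen H t = 0 ∧ S40F2PV_red₁ M p hp hpM A hgen H t ≠ 0 ∧
      (P i).ord (S40F2PV_red₁ M p hp hpM A hgen H t) = 1 ∧
      S40F2PV_V2L M p hp hpM A hgen H e t ∧
      ¬ S36RC_van (P i) (S40F2PV_red₁ M p hp hpM A hgen H w) ∧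
      ¬ S36RC_van (P' i) (S40F2PV_red₂ M p hp hpM A hgen H w) := by
  haveI : IsAlgClosed (IsLocalRing.ResidueField A) := S18_residue_isAlgClosed A
  haveI : Infinite (IsLocalRing.ResidueField A) := IsAlgClosed.instInfinite
  obtain ⟨c₁, hc₁⟩ := S40NP_pole₁ M p hp hpM A hA
  obtain ⟨c₂, hc₂⟩ := S40NP_pole₂ M p hp hpM A hA
  exact S40F2PB_main (S40F2PF_fib M p hp hpM A hA hgen H hH hU e₁ e₂ P P' hE hW1 hP hP'
    he₁ he₂ c₁ c₂ hc₁ hc₂) i

end nodes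

include hH hU in
/-- **P1-INST, all data existential**: the nodes of `S40NP_canon` (helper26), and at every node
the coordinates of `S40F2P_main` (helper20). -/
theorem S40F2PF_main :
    ∃ (s : ℕ) (e₁ : Fin s → ↥(S34M_chart M p A 1 Nat.one_pos).Rb₁ →ₐ[IsLocalRing.ResidueField A]
        IsLocalRing.ResidueField A)
      (e₂ : Fin s → ↥(S34M_chart M p A 1 Nat.one_pos).Rb₂ →ₐ[IsLocalRing.ResidueField A]
        IsLocalRing.ResidueField A)
      (P P' : Fin s → Place (IsLocalRing.ResidueField A)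
        ↥(modularFunctionFieldFullC (IsLocalRing.ResidueField A) (M * p))),
      Function.Surjective (S34B_E e₁ e₂) ∧
      S34K_W (S34M_same M p hp hpM A hgen) (S34M_chart M p A 1 Nat.one_pos) 1 = S34B_W e₁ e₂ ∧
      S34P_Hyp (S34M_T1 M p A hgen) (S34M_T2 M p hp hpM A hgen) (S34M_same M p hp hpM A hgen)
        (S34PX_j M p hp hpM A hgen) ∧
      S34P_red (S34M_T1 M p A hgen) (S34M_T2 M p hp hpM A hgen) (S34PX_j M p hp hpM A hgen) =
        (S34M_xb M p A, S34M_xb M p A ^ p) ∧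
      (∀ i, 0 ≤ (P i).ord (S34M_xb M p A)) ∧ (∀ i, 0 ≤ (P' i).ord (S34M_xb M p A ^ p)) ∧
      (∀ i (a : ↥(S34M_chart M p A 1 Nat.one_pos).Rb₁), e₁ i a = FD_c0 (P i) (a : _)) ∧
      (∀ i (b : ↥(S34M_chart M p A 1 Nat.one_pos).Rb₂), e₂ i b = FD_c0 (P' i) (b : _)) ∧
      ∀ i : Fin s, ∃ e : ℕ, 1 ≤ e ∧ e < 24 ∧ ∃ y t w : ↥(S33NX_Lam M p hp hpM A hgen H),
        y * t = S40F2PV_piL M p hp hpM A hA hgen H ^ e * w ∧
        S40F2PV_red₁ M p hp hpM A hgen H y = 0 ∧ S40F2PV_red₂ M p hp hpM A hgen H y ≠ 0 ∧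
        (P' i).ord (S40F2PV_red₂ M p hp hpM A hgen H y) = 1 ∧
        S40F2PV_red₂ M p hp hpM A hgen H t = 0 ∧ S40F2PV_red₁ M p hp hpM A hgen H t ≠ 0 ∧
        (P i).ord (S40F2PV_red₁ M p hp hpM A hgen H t) = 1 ∧
        S40F2PV_V2L M p hp hpM A hgen H e t ∧
        ¬ S36RC_van (P i) (S40F2PV_red₁ M p hp hpM A hgen H w) ∧
        ¬ S36RC_van (P' i) (S40F2PV_red₂ M p hp hpM A hgen H w) := by
  obtain ⟨s, e₁, e₂, P, P', hE, hW1, hx, hred, hP, hP', he₁, he₂⟩ :=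
    S40NP_canon M p hp hpM A hgen hA
  exact ⟨s, e₁, e₂, P, P', hE, hW1, hx, hred, hP, hP', he₁, he₂, fun i =>
    S40F2PF_node M p hp hpM A hA hgen H hH hU e₁ e₂ P P' hE hW1 hP hP' he₁ he₂ i⟩

include hH in
/-- **P1-INST for `H = I_A`** (`p` is a uniformiser of the maximal unramified extension). -/
theorem S40F2PF_main_inertia (hHI : H = A.inertiaSubgroupIn ℚ) :
    ∃ (s : ℕ) (P P' : Fin s → Place (IsLocalRing.ResidueField A)
        ↥(modularFunctionFieldFullC (IsLocalRing.ResidueField A) (M * p))),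
      (∀ i, 0 ≤ (P i).ord (S34M_xb M p A)) ∧ (∀ i, 0 ≤ (P' i).ord (S34M_xb M p A ^ p)) ∧
      ∀ i : Fin s, ∃ e : ℕ, 1 ≤ e ∧ e < 24 ∧ ∃ y t w : ↥(S33NX_Lam M p hp hpM A hgen H),
        y * t = S40F2PV_piL M p hp hpM A hA hgen H ^ e * w ∧
        S40F2PV_red₁ M p hp hpM A hgen H y = 0 ∧ S40F2PV_red₂ M p hp hpM A hgen H y ≠ 0 ∧
        (P' i).ord (S40F2PV_red₂ M p hp hpM A hgen H y) = 1 ∧
        S40F2PV_red₂ M p hp hpM A hgen H t = 0 ∧ S40F2PV_red₁ M p hp hpM A hgen H t ≠ 0 ∧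
        (P i).ord (S40F2PV_red₁ M p hp hpM A hgen H t) = 1 ∧
        S40F2PV_V2L M p hp hpM A hgen H e t ∧
        ¬ S36RC_van (P i) (S40F2PV_red₁ M p hp hpM A hgen H w) ∧
        ¬ S36RC_van (P' i) (S40F2PV_red₂ M p hp hpM A hgen H w) := by
  have hU : S33NL2_Unif A H (p : Ω) := by
    rw [hHI]
    exact S40F2PV_unif hp A hA
  obtain ⟨s, e₁, e₂, P, P', -, -, -, -, hP, hP', -, -, h⟩ :=
    S40F2PF_main M p hp hpM A hA hgen H hH hU
  exact ⟨s, P, P', hP, hP', h⟩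

end inst

end Fermat.Agent.S40
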