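import Fermat.Agent.S40.DiscOrd
import Fermat.Agent.S40.F2SmEpsI
import Fermat.Agent.S40.F2PFib
import Fermat.Agent.S34.NodalX0Fin
import Fermat.Agent.S36.RegCountRR
import Fermat.Agent.S36.OrdQHj

/-!
# TRACK 13 (S40/S44, row 38), hole (D-CUSP): the CUSPS of `C₁` on the SECOND chart `1/x`
(helper7).  Prefix `S40DC_`.

helper8's generic theorem `S40DO_main'` is chart-agnostic; at a cusp `v` of `C₁` (a pole of
`x₁ = red₁ x`, `x = j`) we use the chart function `x⁻¹` (all cusps and all places with `x ≠ 0`).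
No cusp classification, no Atkin–Lehner `w_d`, no order of the modular unit at the cusps of
characteristic `0`: the only tool is TRACK 7's CHAIN (`S34S_Chain.iSup_inf`).

* `S40DC_hyp_inv` : `S34P_Hyp` for `x⁻¹` from `S34P_Hyp` for `x`;
* `S40DC_lift` : **(L0) pole-controlled glued lift**: `z ∈ O₁ ∩ O₂ ∩ reg(x)` whose two reductions
  lie in `L(N (x₁)_∞) × L(N (x₂)_∞)`, `N ≥ m₀`, has the same reductions as some
  `t ∈ O₁ ∩ O₂ ∩ L(N (x)_∞)`;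
* `S40DC_div_pow` : `t ∈ L(N (x)_∞) ⇒ t / x ^ N` is regular on the chart `x⁻¹`;
* `S40DC_exists_g₀` : the LOCALISER at the cusps: from `φ ∈ O₁ ∩ O₂ ∩ reg(x)` with
  `red₁ φ = P(x₁)`, `P ≠ 0`, `red₂ φ = 0`, a function `g₀ ∈ O₁ ∩ O₂ ∩ reg(x⁻¹)` with `red₂ g₀ = 0`
  and `red₁ g₀` a UNIT at every pole of `x₁`;
* `S40DC_reg_gen` : **hreg** (`S40DO_Reg S₁ hdeg x⁻¹ v`) at every pole `v` of `x₁`, generic form;
* `S40DC_reg` : **hreg on the canonical objects** (level `M p`, `φ = f₀⁻¹`): the first input of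
  `S40DO_main'` at EVERY cusp of `C₁`.
-/

set_option autoImplicit false
set_option synthInstance.maxHeartbeats 400000
set_option maxHeartbeats 1000000
set_option linter.unusedSectionVars false
set_option linter.unusedVariables false
set_option linter.style.haveILetI false

open HahnSeries IntermediateField AlgebraicCurve ModularCurve Polynomial

noncomputable section

namespace Fermat.Agent.S40

open Fermat.Agent.Lib Fermat.Agent.S17 Fermat.Agent.S18 Fermat.Agent.S24 Fermat.Agent.S34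
  Fermat.Agent.S36 Fermat.Agent.GalRep Fermat.Agent.S33

/-! ### generic form -/

section Gen

variable {L F k Fk₁ Fk₂ : Type*} [Field L] [Field F] [Algebra L F] [Field k] [Field Fk₁]
  [Field Fk₂] [Algebra k Fk₁] [Algebra k Fk₂]
  {S₁ : S18_Val L F k Fk₁} {S₂ : S18_Val L F k Fk₂} {hS : S34P_Same S₁ S₂}

/-- the reductions of `x⁻¹`. -/
theorem S40DC_red_inv {x : S34P_O2 S₁ S₂} (hx : S34P_Hyp S₁ S₂ hS x) :
    S34P_red S₁ S₂ ⟨(x : F)⁻¹, hx.inv_mem⟩ =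
      (((S34P_red S₁ S₂ x).1)⁻¹, ((S34P_red S₁ S₂ x).2)⁻¹) := by
  have hx0 : (x : F) ≠ 0 := by
    intro h0
    apply hx.red_ne₁
    have : x = 0 := Subtype.ext h0
    rw [this, map_zero]
    rfl
  have e : x * (⟨(x : F)⁻¹, hx.inv_mem⟩ : S34P_O2 S₁ S₂) = 1 :=
    Subtype.ext (mul_inv_cancel₀ hx0)
  have h := congrArg (S34P_red S₁ S₂) e
  rw [map_mul, map_one] at h
  have h1 : (S34P_red S₁ S₂ x).1 * (S34P_red S₁ S₂ ⟨(x : F)⁻¹, hx.inv_mem⟩).1 = 1 :=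
    congrArg Prod.fst h
  have h2 : (S34P_red S₁ S₂ x).2 * (S34P_red S₁ S₂ ⟨(x : F)⁻¹, hx.inv_mem⟩).2 = 1 :=
    congrArg Prod.snd h
  exact Prod.ext (eq_inv_of_mul_eq_one_right h1) (eq_inv_of_mul_eq_one_right h2)

/-- **`S34P_Hyp` for `x⁻¹`**. -/
theorem S40DC_hyp_inv {x : S34P_O2 S₁ S₂} (hx : S34P_Hyp S₁ S₂ hS x) :
    S34P_Hyp S₁ S₂ hS ⟨(x : F)⁻¹, hx.inv_mem⟩ := by
  have hr := S40DC_red_inv hx
  refine ⟨?_, ?_, ?_, ?_, ?_, ?_, hx.lattice⟩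
  · rw [hr]; exact inv_ne_zero hx.red_ne₁
  · rw [hr]; exact inv_ne_zero hx.red_ne₂
  · intro z hz
    rw [hr]
    exact hx.int_inv z hz
  · intro z hz
    rw [hr]
    have hz' : IsIntegral (Algebra.adjoin L ({((x : F)⁻¹)⁻¹} : Set F)) (z : F) := hz
    rw [inv_inv] at hz'
    have h := hx.int z hz'
    show IsIntegral (Algebra.adjoin k ({(((S34P_red S₁ S₂ x).1)⁻¹)⁻¹} : Set Fk₁)) _ ∧
      IsIntegral (Algebra.adjoin k ({(((S34P_red S₁ S₂ x).2)⁻¹)⁻¹} : Set Fk₂)) _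
    rw [inv_inv, inv_inv]
    exact h
  · intro f hf
    refine hx.reg_inv f (fun P hP => hf P ?_)
    show 0 ≤ P.ord ((x : F)⁻¹)
    rw [P.ord_inv]
    omega
  · intro f hf
    show IsIntegral (Algebra.adjoin L ({((x : F)⁻¹)⁻¹} : Set F)) f
    rw [inv_inv]
    refine hx.reg f (fun P hP => hf P ?_)
    show P.ord ((x : F)⁻¹) ≤ 0
    rw [P.ord_inv]
    omega

variable (hP : HasPrincipalDivisors L F) (hP₁ : HasPrincipalDivisors k Fk₁)
  (hP₂ : HasPrincipalDivisors k Fk₂)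

/-- **(L0) pole-controlled glued lift.** -/
theorem S40DC_lift (x : S34P_O2 S₁ S₂) (x₁ : Fk₁) (x₂ : Fk₂) {s m₀ : ℕ}
    (hchain : S34S_Chain
      (fun m => S34P_redSub S₁ S₂ hS (riemannRochSpace (m • RR_poleDiv hP (x : F))))
      (fun m => (riemannRochSpace (m • RR_poleDiv hP₁ x₁)).prod
        (riemannRochSpace (m • RR_poleDiv hP₂ x₂))) s m₀)
    (z : S34P_O2 S₁ S₂) (hz : (z : F) ∈ S34SB_reg L (x : F)) (N : ℕ) (hN : m₀ ≤ N)
    (h₁ : (S34P_red S₁ S₂ z).1 ∈ riemannRochSpace (N • RR_poleDiv hP₁ x₁))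
    (h₂ : (S34P_red S₁ S₂ z).2 ∈ riemannRochSpace (N • RR_poleDiv hP₂ x₂)) :
    ∃ t : S34P_O2 S₁ S₂, (t : F) ∈ riemannRochSpace (N • RR_poleDiv hP (x : F)) ∧
      S34P_red S₁ S₂ t = S34P_red S₁ S₂ z := by
  obtain ⟨m₁, hm₁⟩ := S34SB_reg_ex hP (x : F) hz
  have hW : S34P_red S₁ S₂ z ∈
      S34P_redSub S₁ S₂ hS (riemannRochSpace (m₁ • RR_poleDiv hP (x : F))) :=
    (S34P_mem_redSub S₁ S₂ hS).2 ⟨z, hm₁ m₁ le_rfl, rfl⟩
  have hsup : S34P_red S₁ S₂ z ∈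
      ⨆ i, S34P_redSub S₁ S₂ hS (riemannRochSpace (i • RR_poleDiv hP (x : F))) :=
    (le_iSup (fun i => S34P_redSub S₁ S₂ hS (riemannRochSpace (i • RR_poleDiv hP (x : F))))
      m₁) hW
  have hR : S34P_red S₁ S₂ z ∈ (riemannRochSpace (N • RR_poleDiv hP₁ x₁)).prod
      (riemannRochSpace (N • RR_poleDiv hP₂ x₂)) := ⟨h₁, h₂⟩
  have hmem : S34P_red S₁ S₂ z ∈
      (⨆ i, S34P_redSub S₁ S₂ hS (riemannRochSpace (i • RR_poleDiv hP (x : F)))) ⊓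
        (riemannRochSpace (N • RR_poleDiv hP₁ x₁)).prod
          (riemannRochSpace (N • RR_poleDiv hP₂ x₂)) := ⟨hsup, hR⟩
  rw [hchain.iSup_inf hN] at hmem
  obtain ⟨t, ht, e⟩ := (S34P_mem_redSub S₁ S₂ hS).1 hmem
  exact ⟨t, ht, e⟩

/-- `t ∈ L(N (x)_∞) ⇒ t · (x⁻¹) ^ N` is regular where `x⁻¹` is. -/
theorem S40DC_div_pow {x t : F} (hx0 : x ≠ 0) (N : ℕ)
    (ht : t ∈ riemannRochSpace (N • RR_poleDiv hP x)) :
    t * x⁻¹ ^ N ∈ S34SB_reg L x⁻¹ := by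
  rw [S34SB_mem_reg]
  intro Q hQ
  rw [Q.ord_inv] at hQ
  by_cases ht0 : t = 0
  · rw [ht0, zero_mul]; exact Q.toValuationSubring.zero_mem
  have hxi : x⁻¹ ^ N ≠ 0 := pow_ne_zero _ (inv_ne_zero hx0)
  rw [BG_mem_iff_ord_nonneg Q (mul_ne_zero ht0 hxi), Q.ord_mul ht0 hxi, S36RC_ord_pow,
    Q.ord_inv]
  rcases mem_riemannRochSpace_iff.mp ht Q with h1 | h1
  · exact absurd h1 ht0
  · rw [S34SB_nsmul_poleDiv_apply, max_eq_left (by omega)] at h1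
    linarith

/-- a polynomial of degree `≤ N` in `y` lies in `L(N (y)_∞)`. -/
theorem S40DC_aeval_mem {K E : Type*} [Field K] [Field E] [Algebra K E]
    (hE : HasPrincipalDivisors K E) (y : E) (P : K[X]) (N : ℕ) (hN : P.natDegree ≤ N) :
    aeval y P ∈ riemannRochSpace (N • RR_poleDiv hE y) := by
  rw [mem_riemannRochSpace_iff]
  intro Q
  by_cases hP0 : P = 0
  · left; rw [hP0, map_zero]
  right
  rw [S34SB_nsmul_poleDiv_apply]
  rcases lt_or_ge (Q.ord y) 0 with hy | hy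
  · rw [S36RC_ord_aeval Q hy hP0, max_eq_left (by omega)]
    have h1 : (P.natDegree : ℤ) ≤ N := by exact_mod_cast hN
    nlinarith
  · rw [max_eq_right (by omega), mul_zero, neg_zero]
    exact S18_Val.RIG5_reg_aeval y P Q hy

/-- `x` is regular where `x` is regular. -/
theorem S40DC_self_mem_reg (x : F) : x ∈ S34SB_reg L x := by
  rw [S34SB_mem_reg]
  intro Q hQ
  by_cases hx0 : x = 0
  · rw [hx0]; exact Q.toValuationSubring.zero_mem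
  · exact (BG_mem_iff_ord_nonneg Q hx0).2 hQ

/-- an element of `O` with reduction `0` is a nonunit. -/
theorem S40DC_nonunit_of_red {Fk : Type*} [Field Fk] [Algebra k Fk] (S : S18_Val L F k Fk)
    {f : F} (hf : f ∈ S.O) (h : S.red ⟨f, hf⟩ = 0) : f ∈ S.O.nonunits := by
  rw [ValuationSubring.mem_nonunits_iff_exists_mem_maximalIdeal]
  refine ⟨hf, ?_⟩
  rw [IsLocalRing.mem_maximalIdeal, mem_nonunits_iff]
  intro hu
  exact (S.red_ne_zero_iff _).2 hu h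

/-- **the localiser at the cusps**: a function `g₀ ∈ O₁ ∩ O₂ ∩ reg(x⁻¹)` which vanishes
identically on the second component and is a unit at every pole of `x₁` on the first one. -/
theorem S40DC_exists_g₀ (hdeg : ∀ v : Place L F, v.deg = 1) {x : S34P_O2 S₁ S₂}
    (hx : S34P_Hyp S₁ S₂ hS x) {x₁ : Fk₁} {x₂ : Fk₂}
    (hred : S34P_red S₁ S₂ x = (x₁, x₂)) {s m₀ : ℕ}
    (hchain : S34S_Chain
      (fun m => S34P_redSub S₁ S₂ hS (riemannRochSpace (m • RR_poleDiv hP (x : F))))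
      (fun m => (riemannRochSpace (m • RR_poleDiv hP₁ x₁)).prod
        (riemannRochSpace (m • RR_poleDiv hP₂ x₂))) s m₀)
    (φ : S34P_O2 S₁ S₂) (hφ : (φ : F) ∈ S34SB_reg L (x : F)) (P : k[X]) (hP0 : P ≠ 0)
    (hφ₁ : (S34P_red S₁ S₂ φ).1 = aeval x₁ P) (hφ₂ : (S34P_red S₁ S₂ φ).2 = 0) :
    ∃ (g₀ : F) (hg₀ : g₀ ∈ S40NI_Lam S₁ S₂ hdeg ⟨(x : F)⁻¹, hx.inv_mem⟩),
      g₀ ∈ S₂.O.nonunits ∧
      ∀ v : Place k Fk₁, v.ord x₁ < 0 →
        S₁.red ⟨g₀, (S40NI_mem_Lam.1 hg₀).1⟩ ≠ 0 ∧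
          v.ord (S₁.red ⟨g₀, (S40NI_mem_Lam.1 hg₀).1⟩) = 0 := by
  classical
  have hx0 : (x : F) ≠ 0 := by
    intro h0
    apply hx.red_ne₁
    have : x = 0 := Subtype.ext h0
    rw [this, map_zero]
    rfl
  set N : ℕ := m₀ + P.natDegree with hN
  set z : S34P_O2 S₁ S₂ := x ^ m₀ * φ with hz
  have hzreg : (z : F) ∈ S34SB_reg L (x : F) :=
    (S34SB_reg L (x : F)).mul_mem ((S34SB_reg L (x : F)).pow_mem (S40DC_self_mem_reg _) m₀) hφ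
  have hQ0 : (X ^ m₀ * P : k[X]) ≠ 0 := mul_ne_zero (pow_ne_zero _ X_ne_zero) hP0
  have hQdeg : (X ^ m₀ * P : k[X]).natDegree = N := by
    rw [Polynomial.natDegree_X_pow_mul m₀ hP0, hN, add_comm]
  have hzred : S34P_red S₁ S₂ z = (aeval x₁ (X ^ m₀ * P : k[X]), 0) := by
    rw [hz, map_mul, map_pow, hred]
    refine Prod.ext ?_ ?_
    · show x₁ ^ m₀ * (S34P_red S₁ S₂ φ).1 = _
      rw [hφ₁, map_mul, map_pow, aeval_X]
    · show x₂ ^ m₀ * (S34P_red S₁ S₂ φ).2 = 0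
      rw [hφ₂, mul_zero]
  have h₁ : (S34P_red S₁ S₂ z).1 ∈ riemannRochSpace (N • RR_poleDiv hP₁ x₁) := by
    rw [hzred]
    exact S40DC_aeval_mem hP₁ x₁ _ N hQdeg.le
  have h₂ : (S34P_red S₁ S₂ z).2 ∈ riemannRochSpace (N • RR_poleDiv hP₂ x₂) := by
    rw [hzred]
    exact Submodule.zero_mem _
  obtain ⟨t, ht, hte⟩ := S40DC_lift hP hP₁ hP₂ x x₁ x₂ hchain z hzreg N (by omega) h₁ h₂
  rw [hzred] at hte
  have hxi : (x : F)⁻¹ ∈ S34P_O2 S₁ S₂ := hx.inv_mem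
  have hg₁ : (t : F) * (x : F)⁻¹ ^ N ∈ S₁.O := S₁.O.mul_mem _ _ t.2.1 (S₁.O.pow_mem hxi.1 N)
  have hg₂ : (t : F) * (x : F)⁻¹ ^ N ∈ S₂.O := S₂.O.mul_mem _ _ t.2.2 (S₂.O.pow_mem hxi.2 N)
  have hg₃ : (t : F) * (x : F)⁻¹ ^ N ∈ S34SB_reg L ((x : F)⁻¹) := S40DC_div_pow hP hx0 N ht
  have hg₀ : (t : F) * (x : F)⁻¹ ^ N ∈ S40NI_Lam S₁ S₂ hdeg ⟨(x : F)⁻¹, hx.inv_mem⟩ :=
    S40NI_mem_Lam.2 ⟨hg₁, hg₂, hg₃⟩
  have hri := S40DC_red_inv hx
  rw [hred] at hri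
  have e₁ : S₁.red ⟨(t : F) * (x : F)⁻¹ ^ N, hg₁⟩ =
      aeval x₁ (X ^ m₀ * P : k[X]) * x₁⁻¹ ^ N := by
    have e : (⟨(t : F) * (x : F)⁻¹ ^ N, hg₁⟩ : ↥S₁.O) =
        ⟨(t : F), t.2.1⟩ * ⟨(x : F)⁻¹, hxi.1⟩ ^ N := Subtype.ext rfl
    rw [e, map_mul, map_pow]
    have h1 : S₁.red ⟨(t : F), t.2.1⟩ = aeval x₁ (X ^ m₀ * P : k[X]) := congrArg Prod.fst hte
    have h2 : S₁.red ⟨(x : F)⁻¹, hxi.1⟩ = x₁⁻¹ := congrArg Prod.fst hri
    rw [h1, h2]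
  have e₂ : S₂.red ⟨(t : F) * (x : F)⁻¹ ^ N, hg₂⟩ = 0 := by
    have e : (⟨(t : F) * (x : F)⁻¹ ^ N, hg₂⟩ : ↥S₂.O) =
        ⟨(t : F), t.2.2⟩ * ⟨(x : F)⁻¹, hxi.2⟩ ^ N := Subtype.ext rfl
    rw [e, map_mul]
    have h1 : S₂.red ⟨(t : F), t.2.2⟩ = 0 := congrArg Prod.snd hte
    rw [h1, zero_mul]
  refine ⟨(t : F) * (x : F)⁻¹ ^ N, hg₀, S40DC_nonunit_of_red S₂ hg₂ e₂, fun v hv => ?_⟩
  have hx₁0 : x₁ ≠ 0 := by
    rintro rfl
    simp at hv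
  have ha0 : aeval x₁ (X ^ m₀ * P : k[X]) ≠ 0 := S36OQ_aeval_ne_zero v hv hQ0
  have hi0 : x₁⁻¹ ^ N ≠ 0 := pow_ne_zero _ (inv_ne_zero hx₁0)
  have e₁' : S₁.red ⟨(t : F) * (x : F)⁻¹ ^ N, (S40NI_mem_Lam.1 hg₀).1⟩ =
      aeval x₁ (X ^ m₀ * P : k[X]) * x₁⁻¹ ^ N := e₁
  rw [e₁']
  refine ⟨mul_ne_zero ha0 hi0, ?_⟩
  rw [v.ord_mul ha0 hi0, S36RC_ord_aeval v hv hQ0, S36RC_ord_pow, v.ord_inv, hQdeg]
  ring

/-- **hreg at the cusps, generic form**: the reduction of a function of `O₁ ∩ reg(x⁻¹)` is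
regular at every pole `v` of `x₁`. -/
theorem S40DC_reg_gen (hdeg : ∀ v : Place L F, v.deg = 1) {x : S34P_O2 S₁ S₂}
    (hx : S34P_Hyp S₁ S₂ hS x) {x₁ : Fk₁} {x₂ : Fk₂}
    (hred : S34P_red S₁ S₂ x = (x₁, x₂)) {s m₀ : ℕ}
    (hchain : S34S_Chain
      (fun m => S34P_redSub S₁ S₂ hS (riemannRochSpace (m • RR_poleDiv hP (x : F))))
      (fun m => (riemannRochSpace (m • RR_poleDiv hP₁ x₁)).prod
        (riemannRochSpace (m • RR_poleDiv hP₂ x₂))) s m₀)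
    (φ : S34P_O2 S₁ S₂) (hφ : (φ : F) ∈ S34SB_reg L (x : F)) (P : k[X]) (hP0 : P ≠ 0)
    (hφ₁ : (S34P_red S₁ S₂ φ).1 = aeval x₁ P) (hφ₂ : (S34P_red S₁ S₂ φ).2 = 0)
    (harch : ∀ f b : F, b ∈ S₂.O.nonunits → ∃ m : ℕ, f * b ^ m ∈ S₂.O)
    (v : Place k Fk₁) (hv : v.ord x₁ < 0) :
    S40DO_Reg S₁ hdeg ((x : F)⁻¹) v := by
  obtain ⟨g₀, hg₀, hg₀n, hg₀v⟩ :=
    S40DC_exists_g₀ hP hP₁ hP₂ hdeg hx hred hchain φ hφ P hP0 hφ₁ hφ₂
  obtain ⟨hne, hord⟩ := hg₀v v hv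
  have hri := S40DC_red_inv hx
  rw [hred] at hri
  intro f hf
  have hv' : 0 ≤ v.ord x₁⁻¹ := by rw [v.ord_inv]; omega
  exact S40F2SE_hreg (S40DC_hyp_inv hx) hri v hv' hg₀ hne hord
    (fun f _ => harch f g₀ hg₀n) hf

end Gen

/-! ### the canonical objects: level `M p`, `φ = f₀⁻¹` -/

section Canon

variable (M p : ℕ) [NeZero (M * p)] [NeZero p] (hp : p.Prime) (hpM : ¬ p ∣ M)
  (A : ValuationSubring (AlgebraicClosure ℚ)) (hA : A.LiesOverPrime p)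
  (hgen : PrincipalGeneratedByIntegral A (IsLocalRing.residue A) (M * p))

include hp hA in
/-- **(arch) for `V₂`**: a power of a nonunit of `V₂` clears every pole along `C₂`. -/
theorem S40DC_arch (f b : ↥(modularFunctionFieldBar (M * p)))
    (hb : b ∈ (S34M_T2 M p hp hpM A hgen).O.nonunits) :
    ∃ m : ℕ, f * b ^ m ∈ (S34M_T2 M p hp hpM A hgen).O := by
  by_cases hb0 : b = 0
  · exact ⟨1, by rw [hb0, pow_one, mul_zero]; exact (S34M_T2 M p hp hpM A hgen).O.zero_mem⟩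
  by_cases hf0 : f = 0
  · exact ⟨0, by rw [hf0, zero_mul]; exact (S34M_T2 M p hp hpM A hgen).O.zero_mem⟩
  have hwf : S34DF_wq M p hp hpM f ≠ 0 := (_root_.map_ne_zero _).mpr hf0
  have hwb : S34DF_wq M p hp hpM b ≠ 0 := (_root_.map_ne_zero _).mpr hb0
  obtain ⟨c, u, hc, -, hcu⟩ :=
    (S18_gaussModL (M * p) A hgen).exists_const_mul_unit (S34DF_wq M p hp hpM f) hwf
  obtain ⟨d, w, hd, hw, hdw⟩ :=
    (S18_gaussModL (M * p) A hgen).exists_const_mul_unit (S34DF_wq M p hp hpM b) hwb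
  -- `d` is a nonunit of `A`
  have hbi : b⁻¹ ∉ (S34M_T2 M p hp hpM A hgen).O := S40F2N_inv_not_mem _ hb hb0
  rw [S34M_T2_O, S34DF_mem_O2, map_inv₀, hdw] at hbi
  have hwu : IsUnit w := ((S18_gaussModL (M * p) A hgen).red_ne_zero_iff w).1 hw
  obtain ⟨w', hw'⟩ := hwu
  have hwi : ((w : ↥(modularFunctionFieldBar (M * p))))⁻¹ ∈ S18_O A (M * p) := by
    have h1 : ((↑(w'⁻¹) : ↥(S18_gaussModL (M * p) A hgen).O) :
        ↥(modularFunctionFieldBar (M * p))) * (w : ↥(modularFunctionFieldBar (M * p))) = 1 := by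
      rw [← hw']
      have := w'.inv_mul
      exact_mod_cast congrArg Subtype.val this
    rw [inv_eq_of_mul_eq_one_left h1]
    exact (↑(w'⁻¹) : ↥(S18_gaussModL (M * p) A hgen).O).2
  have hdA : d ∈ A.nonunits := by
    apply S40F2N_nonunit_of_inv_not_mem
    intro hdi
    apply hbi
    rw [mul_inv, ← map_inv₀]
    exact (S18_O A (M * p)).mul_mem
      (((S18_gaussModL (M * p) A hgen).algebraMap_mem_iff _).2 hdi) hwi
  obtain ⟨m, hm⟩ := S40F2N5_arch p hp A hA c d hdA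
  refine ⟨m, ?_⟩
  rw [S34M_T2_O, S34DF_mem_O2, map_mul, map_pow, hcu, hdw]
  have e : algebraMap (AlgebraicClosure ℚ) ↥(modularFunctionFieldBar (M * p)) c * (u : _) *
      (algebraMap (AlgebraicClosure ℚ) ↥(modularFunctionFieldBar (M * p)) d * (w : _)) ^ m =
      algebraMap (AlgebraicClosure ℚ) ↥(modularFunctionFieldBar (M * p)) (c * d ^ m) *
        ((u : _) * (w : ↥(modularFunctionFieldBar (M * p))) ^ m) := by
    rw [map_mul, map_pow]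
    ring
  rw [e]
  exact (S18_O A (M * p)).mul_mem
    (((S18_gaussModL (M * p) A hgen).algebraMap_mem_iff _).2 hm)
    ((S18_O A (M * p)).mul_mem u.2 ((S18_O A (M * p)).pow_mem w.2 m))

include hA in
/-- `f₀⁻¹` is a NONUNIT of `V₂` (`V₂(f₀⁻¹) = 12 v(p) > 0`). -/
theorem S40DC_phi_nonunit :
    (S36F0_f0 M p)⁻¹ ∈ (S34M_T2 M p hp hpM A hgen).O.nonunits := by
  have hc0 := S40F2U_c_ne_zero M p
  have hf0 := S40F2U_ne_zero M p
  have e : (S36F0_f0 M p)⁻¹ = S40F2U_c M p * (S40F2U_c M p * S36F0_f0 M p)⁻¹ := by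
    field_simp
  rw [e]
  refine S40NA_nonunits_mul _ ?_ (S40F2U_inv_mem_O2 M p hp hpM A hA hgen)
  refine S40F2N5_hm (S34M_T2 M p hp hpM A hgen) _ ?_
  have hpn : (p : AlgebraicClosure ℚ) ∈ A.nonunits := hA
  have h12 : (p : AlgebraicClosure ℚ) ^ 12 = (p : AlgebraicClosure ℚ) * (p : AlgebraicClosure ℚ) ^ 11 := by
    ring
  have : (p : AlgebraicClosure ℚ) ^ 12 ∈ A.nonunits := by
    rw [h12]
    exact S40NA_nonunits_mul A hpn (A.pow_mem (ValuationSubring.nonunits_subset hpn) 11)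
  exact (S34M_same M p hp hpM A hgen).A_eq ▸ this

include hp hpM hA in
/-- **hreg at EVERY cusp of `C₁`** (the first input of `S40DO_main'` on the chart `1/j`): the
reduction along `V₁` of a function of `V₁ ∩ reg(1/j)` is regular at every pole `v` of `j̄`. -/
theorem S40DC_reg (v : Place (IsLocalRing.ResidueField A)
      ↥(modularFunctionFieldFullC (IsLocalRing.ResidueField A) (M * p)))
    (hv : v.ord (S34M_xb M p A) < 0) :
    S40DO_Reg (S34M_T1 M p A hgen) (S18_hRR (M * p)).deg_one (jB (M * p))⁻¹ v := by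
  haveI : NeZero M := ⟨fun h => NeZero.ne (M * p) (by rw [h, zero_mul])⟩
  obtain ⟨s, m₀, -, hchain⟩ := S34NXF_chain M p hp hpM A hgen hA (S18_hRR (M * p))
    (S40F2PF_hk M p hp hpM A hA)
  obtain ⟨P, hPdeg, hPred⟩ := S40F2U_red_inv M p hp hpM A hA
  have hx : S34P_Hyp (S34M_T1 M p A hgen) (S34M_T2 M p hp hpM A hgen)
      (S34M_same M p hp hpM A hgen) (S34PX_j M p hp hpM A hgen) :=
    S34PX_hyp (S34VW_cart M p hp hpM A hgen hA)
  have hred := S34HX_red_j M p hp hpM A hgen hA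
  have hφ := S40F2SE_g₀_mem M p hp hpM A hA hgen
  obtain ⟨hφ₁, hφ₂, hφ₃⟩ := S40NI_mem_Lam.1 hφ
  have hP0 : P ≠ 0 := by
    rintro rfl
    have h0 : (S18_red A (M * p) ⟨(S36F0_f0 M p)⁻¹,
        (S36F0_unit M p hp hpM A hA).inv_mem_O⟩ :
          ↥(modularFunctionFieldFullC (IsLocalRing.ResidueField A) (M * p))) = 0 := by
      apply Subtype.ext
      rw [hPred, map_zero]
      rfl
    have hu : IsUnit (⟨(S36F0_f0 M p)⁻¹, hφ₁⟩ : ↥(S34M_T1 M p A hgen).O) := by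
      refine ⟨⟨⟨(S36F0_f0 M p)⁻¹, hφ₁⟩,
        ⟨S36F0_f0 M p, S40F2U_mem_O1 M p hp hpM A hA hgen⟩, ?_, ?_⟩, rfl⟩
      · exact Subtype.ext (inv_mul_cancel₀ (S40F2U_ne_zero M p))
      · exact Subtype.ext (mul_inv_cancel₀ (S40F2U_ne_zero M p))
    exact ((S34M_T1 M p A hgen).red_ne_zero_iff _).2 hu h0
  refine S40DC_reg_gen (S18_hRR (M * p)).principal (S40F2PF_hk M p hp hpM A hA).principal
    (S40F2PF_hk M p hp hpM A hA).principal (S18_hRR (M * p)).deg_one hx hred hchain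
    ⟨(S36F0_f0 M p)⁻¹, hφ₁, hφ₂⟩ hφ₃ P hP0 ?_ ?_
    (fun f b hb => S40DC_arch M p hp hpM A hA hgen f b hb) v hv
  · -- `red₁ f₀⁻¹ = P(j̄)`
    apply Subtype.ext
    have e := Polynomial.aeval_algebraMap_apply
      (LaurentSeries (IsLocalRing.ResidueField A)) (S34M_xb M p A) P
    exact hPred.trans e
  · exact S40NI_nonunit_red' (S34M_T2 M p hp hpM A hgen)
      (S40DC_phi_nonunit M p hp hpM A hA hgen)

end Canon

end Fermat.Agent.S40
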