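import Fermat.Agent.S40.DiscSpan
import Fermat.Agent.S40.F2PInst
import Fermat.Agent.S34.NodalX0Fin
import Fermat.Agent.S33.NewLiftA

/-!
# TRACK 13 (S40/S44, row 38), hole (D-CUSP), leaf (L2): the LIFT on the chart `1 / j`
(helper8).  Prefix `S40DLF_`.

* `S40DLF_node_interp` : values at the nodes of `C₂` are interpolated by functions with bounded
  poles at the cusps;
* `S40DLF_glue` : **pole-controlled glued lift**: for `N ≫ 0` every `a₁ ∈ L(N (j̄)_∞)` is `red₁ t`
  with `t ∈ L(N (j)_∞) ∩ O₁ ∩ O₂` (T7's chain `S34NXF_chain` + `S34S_Chain.iSup_inf`);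
* `S40DLF_lift` : **lift on the chart `1 / j`**: every function of `C₁` regular off the zeros of
  `j̄` (in particular at the cusps) is `red₁ t` with `t ∈ R_{1/j} = S40DL_R … (jB)⁻¹`.
-/

set_option autoImplicit false
set_option synthInstance.maxHeartbeats 400000
set_option maxHeartbeats 1000000
set_option linter.unusedSectionVars false
set_option linter.unusedVariables false
set_option linter.style.haveILetI false

open HahnSeries IntermediateField AlgebraicCurve ModularCurve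

noncomputable section

namespace Fermat.Agent.S40

open Fermat.Agent.Lib Fermat.Agent.S17 Fermat.Agent.S18 Fermat.Agent.S24 Fermat.Agent.S34
  Fermat.Agent.S36 Fermat.Agent.GalRep Fermat.Agent.S33

local notation "Ω" => AlgebraicClosure ℚ

section inst

variable (M p : ℕ) [NeZero (M * p)] [NeZero p] (hp : p.Prime) (hpM : ¬ p ∣ M)
  (A : ValuationSubring Ω) (hA : A.LiesOverPrime p)
  (hgen : PrincipalGeneratedByIntegral A (IsLocalRing.residue A) (M * p))
  (H : Subgroup (Ω ≃ₐ[ℚ] Ω)) (hH : H ≤ A.inertiaSubgroupIn ℚ)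
  (n : ℕ) (hn : 0 < n) {s : ℕ}
  (e₁ : Fin s → ↥(S34M_chart M p A n hn).Rb₁ →ₐ[IsLocalRing.ResidueField A]
    IsLocalRing.ResidueField A)
  (e₂ : Fin s → ↥(S34M_chart M p A n hn).Rb₂ →ₐ[IsLocalRing.ResidueField A]
    IsLocalRing.ResidueField A)
  (hE : Function.Surjective (S34B_E e₁ e₂))
  (hW1 : S34K_W (S34M_same M p hp hpM A hgen) (S34M_chart M p A n hn) 1 = S34B_W e₁ e₂)

include hE in
/-- values at the nodes of `C₂` are interpolated by functions with bounded poles at the cusps. -/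
theorem S40DLF_node_interp
    (hPk : HasPrincipalDivisors (IsLocalRing.ResidueField A)
      ↥(modularFunctionFieldFullC (IsLocalRing.ResidueField A) (M * p))) :
    ∃ N' : ℕ, ∀ N : ℕ, N' ≤ N → ∀ γ : Fin s → IsLocalRing.ResidueField A,
      ∃ (b : ↥(modularFunctionFieldFullC (IsLocalRing.ResidueField A) (M * p)))
        (hb : b ∈ S34SB_reg (IsLocalRing.ResidueField A) (S34M_xb M p A ^ p)),
        b ∈ riemannRochSpace (N • RR_poleDiv hPk (S34M_xb M p A ^ p)) ∧
          ∀ i, e₂ i ⟨b, hb⟩ = γ i := by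
  classical
  have hq : ∀ i : Fin s, ∃ q : ↥(S34M_chart M p A n hn).Rb₁ × ↥(S34M_chart M p A n hn).Rb₂,
      S34B_E e₁ e₂ q = (0, Pi.single i 1) := fun i => hE _
  choose q hq using hq
  have hth : ∀ i : Fin s, ∃ m₀ : ℕ, ∀ m, m₀ ≤ m →
      (((q i).2 : ↥(S34M_chart M p A n hn).Rb₂) :
        ↥(modularFunctionFieldFullC (IsLocalRing.ResidueField A) (M * p))) ∈
        riemannRochSpace (m • RR_poleDiv hPk (S34M_xb M p A ^ p)) :=
    fun i => S34SB_reg_ex hPk _ (q i).2.2
  choose th hth using hth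
  refine ⟨Finset.univ.sup th, fun N hN γ => ?_⟩
  set b : ↥(S34M_chart M p A n hn).Rb₂ := ∑ i, γ i • (q i).2 with hb
  have hcoe : ((b : ↥(S34M_chart M p A n hn).Rb₂) :
      ↥(modularFunctionFieldFullC (IsLocalRing.ResidueField A) (M * p))) =
      ∑ i, γ i • (((q i).2 : ↥(S34M_chart M p A n hn).Rb₂) :
        ↥(modularFunctionFieldFullC (IsLocalRing.ResidueField A) (M * p))) := by
    rw [hb]
    simp only [AddSubmonoidClass.coe_finsetSum, Subalgebra.coe_smul]
  refine ⟨_, b.2, ?_, ?_⟩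
  · rw [hcoe]
    exact Submodule.sum_mem _ (fun i _ => Submodule.smul_mem _ _
      (hth i N (le_trans (Finset.le_sup (Finset.mem_univ i)) hN)))
  · intro j
    have e : (⟨(b : ↥(modularFunctionFieldFullC (IsLocalRing.ResidueField A) (M * p))), b.2⟩ :
        ↥(S34M_chart M p A n hn).Rb₂) = b := rfl
    rw [e, hb, map_sum]
    have h2 : ∀ i, e₂ j (q i).2 = (Pi.single i (1 : IsLocalRing.ResidueField A) :
        Fin s → IsLocalRing.ResidueField A) j :=
      fun i => congrFun (congrArg Prod.snd (hq i)) j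
    simp only [map_smul, h2, smul_eq_mul, Pi.single_apply, mul_ite, mul_one, mul_zero]
    rw [Finset.sum_ite_eq]
    simp


include hA hE hW1 in
/-- **pole-controlled glued lift**: for `N ≫ 0` every `a₁ ∈ L(N (j̄)_∞)` is the first reduction
of some `t ∈ L(N (j)_∞) ∩ O₁ ∩ O₂`. -/
theorem S40DLF_glue
    (hk : RR_Hyp (IsLocalRing.ResidueField A)
      ↥(modularFunctionFieldFullC (IsLocalRing.ResidueField A) (M * p))) :
    ∃ N₁ : ℕ, ∀ N : ℕ, N₁ ≤ N →
      ∀ a₁ : ↥(modularFunctionFieldFullC (IsLocalRing.ResidueField A) (M * p)),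
        a₁ ∈ riemannRochSpace (N • RR_poleDiv hk.principal (S34M_xb M p A)) →
        ∃ t : S34P_O2 (S34M_T1 M p A hgen) (S34M_T2 M p hp hpM A hgen),
          (t : ↥(modularFunctionFieldBar (M * p))) ∈
            riemannRochSpace (N • RR_poleDiv (S18_hRR (M * p)).principal (jB (M * p))) ∧
          (S34M_T1 M p A hgen).red ⟨t, t.2.1⟩ = a₁ := by
  classical
  haveI : NeZero M := ⟨fun h0 => NeZero.ne (M * p) (by rw [h0, zero_mul])⟩
  have hF := S18_hRR (M * p)
  obtain ⟨s', m₀, -, hchain⟩ := S34NXF_chain M p hp hpM A hgen hA hF hk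
  obtain ⟨N', hN'⟩ := S40DLF_node_interp M p A n hn e₁ e₂ hE hk.principal
  refine ⟨max m₀ N', fun N hN a₁ ha₁ => ?_⟩
  have hm₀ : m₀ ≤ N := le_trans (le_max_left _ _) hN
  have hN'N : N' ≤ N := le_trans (le_max_right _ _) hN
  have ha₁R : a₁ ∈ S34SB_reg (IsLocalRing.ResidueField A) (S34M_xb M p A) :=
    S34SB_RR_le_reg hk.principal _ N ha₁
  obtain ⟨b, hbR, hbL, hbe⟩ := hN' N hN'N (fun i => e₁ i ⟨a₁, ha₁R⟩)
  -- the pair is glued: it is the reduction of a function of `Λ`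
  have hm : ((⟨a₁, ha₁R⟩, ⟨b, hbR⟩) :
      ↥(S34M_chart M p A n hn).Rb₁ × ↥(S34M_chart M p A n hn).Rb₂) ∈
      S34K_W (S34M_same M p hp hpM A hgen) (S34M_chart M p A n hn) 1 := by
    rw [hW1, S34B_mem_W]
    intro i
    exact (hbe i).symm
  rw [S34K_mem_W_one] at hm
  obtain ⟨f, hfB, hfred⟩ := hm
  have hfB' : (f : ↥(modularFunctionFieldBar (M * p))) ∈ S34SB_reg Ω (jB (M * p)) := hfB
  obtain ⟨m, hfm⟩ := (S34SB_mem_reg_iff_exists hF.principal (jB (M * p))).1 hfB'
  -- membership in `⨆ Wf ⊓ Rf N`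
  have hW : ((a₁, b) : ↥(modularFunctionFieldFullC (IsLocalRing.ResidueField A) (M * p)) ×
      ↥(modularFunctionFieldFullC (IsLocalRing.ResidueField A) (M * p))) ∈
      (⨆ i : ℕ, S34P_redSub (S34PX_S1 M p A hgen) (S34PX_S2 M p hp hpM A hgen)
        (S34PX_same M p hp hpM A hgen)
        (riemannRochSpace (i • RR_poleDiv hF.principal (jB (M * p))))) ⊓
      ((riemannRochSpace (N • RR_poleDiv hk.principal (S34M_xb M p A))).prod
        (riemannRochSpace (N • RR_poleDiv hk.principal (S34M_xb M p A ^ p)))) := by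
    refine ⟨?_, ha₁, hbL⟩
    refine Submodule.mem_iSup_of_mem m ?_
    exact ⟨f, hfm, hfred⟩
  rw [hchain.iSup_inf hm₀] at hW
  obtain ⟨t, htL, htred⟩ := hW
  exact ⟨t, htL, congrArg Prod.fst htred⟩


/-- the order of a natural power. -/
theorem S40DLF_ord_pow {K E : Type*} [Field K] [Field E] [Algebra K E] (w : Place K E) (y : E)
    (m : ℕ) : w.ord (y ^ m) = (m : ℤ) * w.ord y := by
  rw [← zpow_natCast, w.ord_zpow]

include hA hH hE hW1 in
/-- **(L2) the lift on the chart `1 / j`**: every function of `C₁` regular where `1 / j̄` is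
regular (off the zeros of `j̄`; in particular at the cusps) is the first reduction of a function
of `R_{1/j}` (`H`-fixed, `V₁`-integral, regular where `1 / j` is regular). -/
theorem S40DLF_lift
    (a : ↥(modularFunctionFieldFullC (IsLocalRing.ResidueField A) (M * p)))
    (ha : a ∈ S34SB_reg (IsLocalRing.ResidueField A) (S34M_xb M p A)⁻¹) :
    ∃ (t : ↥(modularFunctionFieldBar (M * p)))
      (ht : t ∈ S40DL_R M p hp hpM A hgen H (jB (M * p))⁻¹)
      (htO : t ∈ (S34M_T1 M p A hgen).O), (S34M_T1 M p A hgen).red ⟨t, htO⟩ = a := by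
  classical
  haveI : NeZero M := ⟨fun h0 => NeZero.ne (M * p) (by rw [h0, zero_mul])⟩
  have hF := S18_hRR (M * p)
  have hk := S34VF_hk M A hp hA hpM
  rcases eq_or_ne a 0 with rfl | ha0
  · refine ⟨0, Subring.zero_mem _, (S34M_T1 M p A hgen).O.zero_mem, ?_⟩
    exact map_zero (S34M_T1 M p A hgen).red
  obtain ⟨N₁, hN₁⟩ := S40DLF_glue M p hp hpM A hA hgen n hn e₁ e₂ hE hW1 hk
  obtain ⟨N₀, hN₀⟩ := S36DW_ord_bound hk.principal ha0
  set N : ℕ := max N₁ N₀ with hN
  -- `j̄ ≠ 0`, `j` a unit of `O₁`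
  obtain ⟨c₁, hc₁⟩ := S40NP_pole₁ M p hp hpM A hA
  have hxb0 : S34M_xb M p A ≠ 0 := by
    intro h0
    rw [h0, Place.ord_zero] at hc₁
    exact lt_irrefl _ hc₁
  have hjO : jB (M * p) ∈ (S34M_T1 M p A hgen).O := S34VW_jB_mem M p A
  have hjred : (S34M_T1 M p A hgen).red ⟨jB (M * p), hjO⟩ = S34M_xb M p A := rfl
  have hjU : S40F2S_IsU (S34M_T1 M p A hgen).O (jB (M * p)) :=
    S40DO_isU_of_red_ne hjO (by rw [hjred]; exact hxb0)
  have hj0 : jB (M * p) ≠ 0 := hjU.ne_zero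
  -- the numerator `ā₁ = j̄ ^ N · a`
  set a₁ : ↥(modularFunctionFieldFullC (IsLocalRing.ResidueField A) (M * p)) :=
    S34M_xb M p A ^ N * a with ha₁
  have ha₁0 : a₁ ≠ 0 := mul_ne_zero (pow_ne_zero _ hxb0) ha0
  have ha₁L : a₁ ∈ riemannRochSpace (N • RR_poleDiv hk.principal (S34M_xb M p A)) := by
    rw [S17RS_mem_iff_ord ha₁0]
    intro v
    rw [S34SB_nsmul_poleDiv_apply, ha₁, v.ord_mul (pow_ne_zero _ hxb0) ha0, S40DLF_ord_pow]
    have hNN : (N₀ : ℤ) ≤ (N : ℤ) := by exact_mod_cast le_max_right N₁ N₀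
    have hb := hN₀ v
    rcases lt_trichotomy (v.ord (S34M_xb M p A)) 0 with hlt | heq | hgt
    · have hreg : 0 ≤ v.ord a := by
        have := (S34SB_mem_reg_iff ha0).1 ha v (by rw [Place.ord_inv]; omega)
        exact this
      rw [max_eq_left (by omega)]
      nlinarith
    · have hreg : 0 ≤ v.ord a := by
        have := (S34SB_mem_reg_iff ha0).1 ha v (by rw [Place.ord_inv]; omega)
        exact this
      rw [heq]
      simpa using hreg
    · rw [max_eq_right (by omega), mul_zero, neg_zero]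
      have h1 : (1 : ℤ) ≤ v.ord (S34M_xb M p A) := by omega
      have h2 : (0 : ℤ) ≤ (N : ℤ) := Int.natCast_nonneg _
      nlinarith
  obtain ⟨t₀, ht₀L, ht₀red⟩ := hN₁ N (le_max_left _ _) a₁ ha₁L
  -- an `I`-fixed lift with the same reduction
  have hlat : (t₀ : ↥(modularFunctionFieldBar (M * p))) ∈ (S34DF_lat M p hp hpM A).O := t₀.2
  obtain ⟨g, hgL, hgfix, hglat, hgred⟩ := S33NFA_lift_D M p hp hpM A hA
    (N • RR_poleDiv hF.principal (jB (M * p)))
    (fun τ hτ v => by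
      rw [S34SB_nsmul_poleDiv_apply, S34SB_nsmul_poleDiv_apply]
      have h1 := S36LD_ord_gal (M * p) τ v (jB (M * p))
      rw [S34SW_gal_jB] at h1
      rw [h1])
    (t₀ : ↥(modularFunctionFieldBar (M * p))) ht₀L hlat
  have hgO₁ : g ∈ (S34M_T1 M p A hgen).O := hglat.1
  have hgred₁ : (S34M_T1 M p A hgen).red ⟨g, hgO₁⟩ = a₁ := by
    have := congrArg Prod.fst hgred
    exact this.trans ht₀red
  -- `s = g / j ^ N`
  set sN : ↥(modularFunctionFieldBar (M * p)) := g * ((jB (M * p))⁻¹) ^ N with hs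
  have hinvO : (jB (M * p))⁻¹ ∈ (S34M_T1 M p A hgen).O := hjU.inv_mem
  have hsO : sN ∈ (S34M_T1 M p A hgen).O := mul_mem hgO₁ (pow_mem hinvO N)
  have hinvred : (S34M_T1 M p A hgen).red ⟨(jB (M * p))⁻¹, hinvO⟩ = (S34M_xb M p A)⁻¹ := by
    have e : (⟨jB (M * p), hjO⟩ : ↥(S34M_T1 M p A hgen).O) * ⟨(jB (M * p))⁻¹, hinvO⟩ = 1 :=
      Subtype.ext (mul_inv_cancel₀ hj0)
    have := congrArg (S34M_T1 M p A hgen).red e
    rw [map_mul, map_one, hjred] at this
    exact eq_inv_of_mul_eq_one_right this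
  refine ⟨sN, ?_, hsO, ?_⟩
  · rw [S40DL_mem_R]
    refine ⟨?_, hsO, ?_⟩
    · -- `H`-fixed
      rw [S36FI_mem_fixF]
      intro σ hσ
      have h1 : GR_gal (M * p) σ g = g := hgfix σ (hH hσ)
      have h2 : GR_gal (M * p) σ (jB (M * p)) = jB (M * p) := S34SW_gal_jB (M * p) σ
      show GR_gal (M * p) σ sN = sN
      rw [hs, map_mul, map_pow, map_inv₀, h1, h2]
    · -- regular where `1 / j` is regular
      rcases eq_or_ne g 0 with hg0 | hg0
      · rw [hs, hg0, zero_mul]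
        exact Subalgebra.zero_mem _
      have hs0 : sN ≠ 0 := mul_ne_zero hg0 (pow_ne_zero _ (inv_ne_zero hj0))
      rw [S34SB_mem_reg_iff hs0]
      intro Q hQ
      rw [Place.ord_inv] at hQ
      have hg1 := (S17RS_mem_iff_ord hg0).1 hgL Q
      rw [S34SB_nsmul_poleDiv_apply, max_eq_left (by omega)] at hg1
      rw [hs, Q.ord_mul hg0 (pow_ne_zero _ (inv_ne_zero hj0)), S40DLF_ord_pow, Place.ord_inv]
      nlinarith
  · have e : (⟨sN, hsO⟩ : ↥(S34M_T1 M p A hgen).O) =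
        ⟨g, hgO₁⟩ * ⟨(jB (M * p))⁻¹, hinvO⟩ ^ N := rfl
    rw [e, map_mul, map_pow, hgred₁, hinvred, ha₁, inv_pow]
    field_simp

end inst

end Fermat.Agent.S40
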