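import Fermat.Agent.S40.DiscCuspMain
import Fermat.Agent.S40.DiscLift
import Fermat.Agent.S34.NodalX0Main
import Fermat.Agent.S33.Degen

/-!
# TRACK 13 (S40/S44, row 38), hole (D-CUSP): the UNCONDITIONAL statement at the cusps of `C₁`,
route (B) = disc package on the chart `1/j` (helper7).  Prefix `S40DCF_`.

* `S40DCF_lift` : (L2) `S40DCM_Lift` from helper8's `S40DLF_lift` and TRACK 7's nodes
  (`S34NX_nodes`);
* **`S40DCF_cusp`** : **(D-CUSP)**, no hypothesis left: for a unit `u` of `T₁` whose orders at the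
  places of `X₀(M p)` where `1/j` is regular are divisible by `n`, `n ∣ ord_v (red₁ u)` at EVERY
  pole `v` of `j̄` (every cusp of `C₁`);
* `S40DCF_cusp_gen` : the same for a Kummer generator `u` of a class `x` (`S33DG_IsGen n x u`).

No cusp classification, no Atkin–Lehner involution `w_d`, no `q`-expansion at the other cusps.
-/

set_option autoImplicit false
set_option synthInstance.maxHeartbeats 400000
set_option maxHeartbeats 1000000
set_option linter.unusedSectionVars false
set_option linter.unusedVariables false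
set_option linter.style.haveILetI false

open HahnSeries IntermediateField AlgebraicCurve ModularCurve

noncomputable section

namespace Fermat.Agent.S40

open Fermat.Agent.Lib Fermat.Agent.S17 Fermat.Agent.S18 Fermat.Agent.S24 Fermat.Agent.S34
  Fermat.Agent.S36 Fermat.Agent.GalRep Fermat.Agent.S33

local notation "Ω" => AlgebraicClosure ℚ

section inst

variable (M p : ℕ) [NeZero (M * p)] [NeZero p] (hp : p.Prime) (hpM : ¬ p ∣ M)
  (A : ValuationSubring Ω) (hA : A.LiesOverPrime p)
  (hgen : PrincipalGeneratedByIntegral A (IsLocalRing.residue A) (M * p))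

include hA in
/-- **(L2)** on the canonical objects. -/
theorem S40DCF_lift : S40DCM_Lift M p hp hpM A hgen := by
  obtain ⟨s, e₁, e₂, hE, hW1⟩ := S34NX_nodes M p hp hpM A hA hgen 1 Nat.one_pos
  intro a ha
  exact S40DLF_lift M p hp hpM A hA hgen (A.inertiaSubgroupIn ℚ) le_rfl 1 Nat.one_pos e₁ e₂
    hE hW1 a ha

include hp hpM hA in
/-- **(D-CUSP)**: divisibility of the order of `red₁ u` at EVERY cusp of `C₁`. -/
theorem S40DCF_cusp
    (v : Place (IsLocalRing.ResidueField A)
      ↥(modularFunctionFieldFullC (IsLocalRing.ResidueField A) (M * p)))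
    (hv : v.ord (S34M_xb M p A) < 0) (n : ℕ)
    {u : ↥(modularFunctionFieldBar (M * p))} (hu : S40F2S_IsU (S34M_T1 M p A hgen).O u)
    (hdiv : ∀ w : Place Ω ↥(modularFunctionFieldBar (M * p)),
      0 ≤ w.ord ((jB (M * p) : ↥(modularFunctionFieldBar (M * p))))⁻¹ → (n : ℤ) ∣ w.ord u) :
    (n : ℤ) ∣ v.ord ((S34M_T1 M p A hgen).red ⟨u, hu.mem⟩) :=
  S40DCM_cusp M p hp hpM A hA hgen (S40DCF_lift M p hp hpM A hA hgen) v hv n hu hdiv

include hp hpM hA in
/-- **(D-CUSP) for a Kummer generator**: if `u ∈ T₁.O` has non-zero reduction and is a Kummer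
generator of exponent `n` of a class `x`, then `n ∣ ord_v (red₁ u)` at every cusp `v` of `C₁`. -/
theorem S40DCF_cusp_gen
    (v : Place (IsLocalRing.ResidueField A)
      ↥(modularFunctionFieldFullC (IsLocalRing.ResidueField A) (M * p)))
    (hv : v.ord (S34M_xb M p A) < 0) (n : ℕ)
    (x : Pic0 Ω ↥(modularFunctionFieldBar (M * p)))
    {u : ↥(modularFunctionFieldBar (M * p))} (hgenu : S33DG_IsGen n x u)
    (h : u ∈ (S34M_T1 M p A hgen).O) (hne : (S34M_T1 M p A hgen).red ⟨u, h⟩ ≠ 0) :
    (n : ℤ) ∣ v.ord ((S34M_T1 M p A hgen).red ⟨u, h⟩) := by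
  have hu : S40F2S_IsU (S34M_T1 M p A hgen).O u := S40DO_isU_of_red_ne h hne
  obtain ⟨D, -, -, hD⟩ := hgenu
  exact S40DCF_cusp M p hp hpM A hA hgen v hv n hu (fun w _ => ⟨_, (hD w).symm⟩)

end inst

end Fermat.Agent.S40
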