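import Fermat.Agent.S33.NewLift
import Fermat.Agent.S33.NewLiftA
import Fermat.Agent.S33.NewDisc

/-!
# TRACK 13 (S40/S44), GEO-6, (I-c)(2) of the instance of `S40F2YI_Hyp` (helper18).
Prefix `S40F2NL2_`.

`Λ = S33NX_Lam M p hp hpM A hgen H` (rational lattice on `U = {j ≠ ∞}`, `H ≤ I_A`),
`ϖ` a uniformiser of `A ∩ Ω^H` (`S33NL2_Unif A H ϖ`; `ϖ = p` for `H = I_A`).

* `S40F2NL2_scale` : every `H`-fixed `x` has `x · ϖ ^ m ∈ O₁ ∩ O₂` for some `m : ℕ`;
* `S40F2NL2_fixed_mem_span` : every `I_A`-fixed function regular on `U` lies in the `ℚ̄`-span of `Λ`;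
* **`S40F2NL2_span`** : every function regular on `U` (over `ℚ̄`) lies in the `ℚ̄`-span of the
  image of `Λ`   (`B = ℚ̄ · Λ`);
* `S40F2NL2_span_map` : the same with the image written as `Subring.map`.
-/

set_option autoImplicit false
set_option synthInstance.maxHeartbeats 400000
set_option maxHeartbeats 1000000
set_option linter.unusedSectionVars false
set_option linter.unusedVariables false
set_option linter.style.haveILetI false

open HahnSeries IntermediateField AlgebraicCurve ModularCurve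

noncomputable section

namespace Fermat.Agent.S40

open Fermat.Agent.Lib Fermat.Agent.S18 Fermat.Agent.S24 Fermat.Agent.S34 Fermat.Agent.S36
  Fermat.Agent.GalRep Fermat.Agent.S33

local notation "Ω" => AlgebraicClosure ℚ

section inst

variable (M p : ℕ) [NeZero (M * p)] (hp : p.Prime) (hpM : ¬ p ∣ M)
  (A : ValuationSubring Ω) (hA : A.LiesOverPrime p)
  (hgen : PrincipalGeneratedByIntegral A (IsLocalRing.residue A) (M * p))
  (H : Subgroup (Ω ≃ₐ[ℚ] Ω)) (hH : H ≤ A.inertiaSubgroupIn ℚ)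
  (ϖ : Ω) (h : S33NL2_Unif A H ϖ)

/-- the image of `Λ` in `F`. -/
def S40F2NL2_R : Set ↥(modularFunctionFieldBar (M * p)) :=
  Set.range fun x : ↥(S33NX_Lam M p hp hpM A hgen H) =>
    ((x : S33NX_F M p H) : ↥(modularFunctionFieldBar (M * p)))

theorem S40F2NL2_mem_R {f : ↥(modularFunctionFieldBar (M * p))} :
    f ∈ S40F2NL2_R M p hp hpM A hgen H ↔
      ∃ hf : f ∈ (S36FI_act (M * p) H).fixF,
        (⟨f, hf⟩ : S33NX_F M p H) ∈ S33NX_Lam M p hp hpM A hgen H := by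
  constructor
  · rintro ⟨x, rfl⟩
    exact ⟨x.1.2, x.2⟩
  · rintro ⟨hf, hx⟩
    exact ⟨⟨⟨f, hf⟩, hx⟩, rfl⟩

include hp hpM hA h in
/-- scaling at `V₁`. -/
theorem S40F2NL2_scale₁ (x : ↥(modularFunctionFieldBar (M * p)))
    (hx : x ∈ (S36FI_act (M * p) H).fixF) :
    ∃ m₀ : ℕ, ∀ m : ℕ, m₀ ≤ m →
      x * algebraMap Ω ↥(modularFunctionFieldBar (M * p)) ϖ ^ m ∈ S34DF_O1 M p A hgen := by
  haveI : NeZero p := ⟨hp.ne_zero⟩
  haveI : NeZero M := ⟨fun h0 => NeZero.ne (M * p) (by rw [h0, zero_mul])⟩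
  have hcO : algebraMap Ω ↥(modularFunctionFieldBar (M * p)) ϖ ∈ S34DF_O1 M p A hgen :=
    (S33ND_const_O1_iff M p A hgen).2 (S33ND_unif_mem A H h)
  have hc0 : algebraMap Ω ↥(modularFunctionFieldBar (M * p)) ϖ ≠ 0 :=
    (map_ne_zero _).mpr h.ne_zero
  rcases eq_or_ne x 0 with rfl | hx0
  · exact ⟨0, fun m _ => by rw [zero_mul]; exact zero_mem _⟩
  obtain ⟨k, hk1, -⟩ := S33NL2_dv_F M p hp A hA H h x hx hx0
  rw [map_zpow₀] at hk1
  have hk1' : x * algebraMap Ω ↥(modularFunctionFieldBar (M * p)) ϖ ^ k ∈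
      S34DF_O1 M p A hgen := S36NR_G_le_S18 M p hp hpM A hA hk1
  refine ⟨k.toNat, fun m hm => ?_⟩
  obtain ⟨d, hd⟩ : ∃ d : ℕ, (m : ℤ) = k + d := by
    have h1 : k ≤ (m : ℤ) := le_trans (Int.self_le_toNat k) (by exact_mod_cast hm)
    exact ⟨((m : ℤ) - k).toNat, by rw [Int.toNat_of_nonneg (by omega)]; ring⟩
  have e : x * algebraMap Ω ↥(modularFunctionFieldBar (M * p)) ϖ ^ m =
      (x * algebraMap Ω ↥(modularFunctionFieldBar (M * p)) ϖ ^ k) *
        algebraMap Ω ↥(modularFunctionFieldBar (M * p)) ϖ ^ d := by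
    rw [← zpow_natCast _ m, hd, zpow_add₀ hc0, zpow_natCast, mul_assoc]
  rw [e]
  exact mul_mem hk1' (pow_mem hcO d)

include hA h in
/-- scaling at `V₂`. -/
theorem S40F2NL2_scale₂ (x : ↥(modularFunctionFieldBar (M * p)))
    (hx : x ∈ (S36FI_act (M * p) H).fixF) :
    ∃ m₀ : ℕ, ∀ m : ℕ, m₀ ≤ m →
      x * algebraMap Ω ↥(modularFunctionFieldBar (M * p)) ϖ ^ m ∈
        S34DF_O2 M p hp hpM A hgen := by
  haveI : NeZero p := ⟨hp.ne_zero⟩
  haveI : NeZero M := ⟨fun h0 => NeZero.ne (M * p) (by rw [h0, zero_mul])⟩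
  have hwx : S34DF_wq M p hp hpM x ∈ (S36FI_act (M * p) H).fixF :=
    S33NL2_wq_fix M p hp hpM H x hx
  obtain ⟨m₀, hm₀⟩ := S40F2NL2_scale₁ M p hp hpM A hA hgen H ϖ h _ hwx
  refine ⟨m₀, fun m hm => ?_⟩
  show S34DF_wq M p hp hpM _ ∈ S18_O A (M * p)
  have e : S34DF_wq M p hp hpM (x * algebraMap Ω ↥(modularFunctionFieldBar (M * p)) ϖ ^ m) =
      S34DF_wq M p hp hpM x * algebraMap Ω ↥(modularFunctionFieldBar (M * p)) ϖ ^ m := by
    rw [map_mul, map_pow, AlgEquiv.commutes]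
  rw [e]
  exact hm₀ m hm

include hA h in
/-- **scaling**: every `H`-fixed function is integral at `V₁` and `V₂` after multiplication by
a power of the uniformiser. -/
theorem S40F2NL2_scale (x : ↥(modularFunctionFieldBar (M * p)))
    (hx : x ∈ (S36FI_act (M * p) H).fixF) :
    ∃ m : ℕ, x * algebraMap Ω ↥(modularFunctionFieldBar (M * p)) ϖ ^ m ∈ S34DF_O1 M p A hgen ∧
      x * algebraMap Ω ↥(modularFunctionFieldBar (M * p)) ϖ ^ m ∈
        S34DF_O2 M p hp hpM A hgen := by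
  obtain ⟨m₁, h₁⟩ := S40F2NL2_scale₁ M p hp hpM A hA hgen H ϖ h x hx
  obtain ⟨m₂, h₂⟩ := S40F2NL2_scale₂ M p hp hpM A hA hgen H ϖ h x hx
  exact ⟨max m₁ m₂, h₁ _ (le_max_left _ _), h₂ _ (le_max_right _ _)⟩

include hA h in
/-- an `H`-fixed function regular on `U` lies in the `ℚ̄`-span of `Λ`. -/
theorem S40F2NL2_fixed_mem_span (w : ↥(modularFunctionFieldBar (M * p)))
    (hwF : w ∈ (S36FI_act (M * p) H).fixF)
    (hwB : w ∈ S34SB_reg Ω (jB (M * p) : ↥(modularFunctionFieldBar (M * p)))) :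
    w ∈ Submodule.span Ω (S40F2NL2_R M p hp hpM A hgen H) := by
  obtain ⟨m, hm₁, hm₂⟩ := S40F2NL2_scale M p hp hpM A hA hgen H ϖ h w hwF
  have hϖF : ϖ ∈ (S36FI_act (M * p) H).fixK := (S36FI_mem_fixK (M * p) H).2 h.fixed
  have hcF : algebraMap Ω ↥(modularFunctionFieldBar (M * p)) ϖ ∈ (S36FI_act (M * p) H).fixF :=
    (S36FI_act (M * p) H).algebraMap_mem_fixF hϖF
  have hyF : w * algebraMap Ω ↥(modularFunctionFieldBar (M * p)) ϖ ^ m ∈
      (S36FI_act (M * p) H).fixF := mul_mem hwF (pow_mem hcF m)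
  have hyR : w * algebraMap Ω ↥(modularFunctionFieldBar (M * p)) ϖ ^ m ∈
      S40F2NL2_R M p hp hpM A hgen H := by
    rw [S40F2NL2_mem_R]
    refine ⟨hyF, ?_⟩
    rw [S33NX_mem_Lam]
    refine ⟨⟨(S33ND_mem_O_zero M p hp hpM A hgen H _).2 hm₁,
      (S33ND_mem_O_one M p hp hpM A hgen H _).2 hm₂⟩, ?_⟩
    show w * algebraMap Ω ↥(modularFunctionFieldBar (M * p)) ϖ ^ m ∈ S33NX_B M p
    unfold S33NX_B
    rw [← S34IW_reg_eq]
    exact mul_mem hwB (pow_mem (Subalgebra.algebraMap_mem _ _) m)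
  have e : w = (ϖ ^ m)⁻¹ • (w * algebraMap Ω ↥(modularFunctionFieldBar (M * p)) ϖ ^ m) := by
    rw [Algebra.smul_def, map_inv₀, map_pow]
    have hc0 : algebraMap Ω ↥(modularFunctionFieldBar (M * p)) ϖ ^ m ≠ 0 :=
      pow_ne_zero _ ((map_ne_zero _).mpr h.ne_zero)
    field_simp
  rw [e]
  exact Submodule.smul_mem _ _ (Submodule.subset_span hyR)

include hA hH h in
/-- **`B = ℚ̄ · Λ`**: every function regular on `U` lies in the `ℚ̄`-span of the image of `Λ`. -/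
theorem S40F2NL2_span (s : ↥(modularFunctionFieldBar (M * p)))
    (hs : s ∈ S34SB_reg Ω (jB (M * p) : ↥(modularFunctionFieldBar (M * p)))) :
    s ∈ Submodule.span Ω (S40F2NL2_R M p hp hpM A hgen H) := by
  have hP := (S36LD_hRR (M * p)).principal
  obtain ⟨a, ha⟩ := S36DW_exists_a hP (jB (M * p) : ↥(modularFunctionFieldBar (M * p)))
    (0 : Ω) hs
  have hspan := S36SH_rr_span (M * p) (A.inertiaSubgroupIn ℚ : Set (Ω ≃ₐ[ℚ] Ω)) _
    (fun τ hτ v => S36DW_E_stable (M * p) hP (jB (M * p)) _ a 0 τ (S34SW_gal_jB (M * p) τ)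
      (S36DW_sub_fixed (M * p) τ (S34SW_gal_jB (M * p) τ) (map_zero τ)) v)
  refine (Submodule.span_le.2 ?_) (hspan ha)
  rintro w ⟨hw1, hw2⟩
  have hwF : w ∈ (S36FI_act (M * p) H).fixF :=
    (S36FI_mem_fixF (M * p) H).2 fun σ hσ => hw2 ⟨σ, hH hσ⟩
  exact S40F2NL2_fixed_mem_span M p hp hpM A hA hgen H ϖ h w hwF
    (S36DW_reg_le hP (jB (M * p)) (0 : Ω) a hw1)

/-- the image of `Λ` as a subring of `F`. -/
theorem S40F2NL2_R_eq_map :
    S40F2NL2_R M p hp hpM A hgen H =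
      ((S33NX_Lam M p hp hpM A hgen H).map (S33NX_incl M p H) :
        Set ↥(modularFunctionFieldBar (M * p))) := by
  ext f
  constructor
  · rintro ⟨x, rfl⟩
    exact ⟨x.1, x.2, rfl⟩
  · rintro ⟨x, hx, rfl⟩
    exact ⟨⟨x, hx⟩, rfl⟩

include hA hH h in
/-- **`B = ℚ̄ · Λ`**, `Subring.map` form. -/
theorem S40F2NL2_span_map (s : ↥(modularFunctionFieldBar (M * p)))
    (hs : s ∈ S34SB_reg Ω (jB (M * p) : ↥(modularFunctionFieldBar (M * p)))) :
    s ∈ Submodule.span Ω (((S33NX_Lam M p hp hpM A hgen H).map (S33NX_incl M p H) :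
      Subring ↥(modularFunctionFieldBar (M * p))) : Set ↥(modularFunctionFieldBar (M * p))) := by
  rw [← S40F2NL2_R_eq_map]
  exact S40F2NL2_span M p hp hpM A hA hgen H hH ϖ h s hs

end inst

end Fermat.Agent.S40
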