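import Fermat.Agent.S40.DiscLat
import Fermat.Agent.S40.F2NLoc2
import Fermat.Agent.S34.ValArch

/-!
# TRACK 13 (S40/S44, row 38), hole (D-CUSP), piece (L3): `span` on the SECOND chart `1/j`
(helper7).  Prefix `S40DCS_`.

`R_x = S40DL_R … x` (helper8, `S40/DiscLat.lean`) is the lattice of the `H`-fixed functions which
are `V₁`-integral and regular where `x` is regular.  For `x = (jB)⁻¹` (the chart of the cusps):

* `S40DCS_regZ_of_reg` : `reg(1/j) ⊆ regZ(j − 0)`, `S40DCS_reg_of_regZ` : the converse;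
* `S40DCS_scale` : an `H`-fixed function `w` becomes `V₁`-integral after multiplication by a power
  of `p`;
* `S40DCS_fixed_mem_span` : an `H`-fixed function regular on the chart lies in `Ω · R_x`;
* **`S40DCS_span`** : `∀ s ∈ S34SB_reg Ω (jB)⁻¹, s ∈ span Ω R_{1/j}` — the input `hspan` of
  `S40DL_hyp` on the chart `1/j`.
-/

set_option autoImplicit false
set_option synthInstance.maxHeartbeats 400000
set_option maxHeartbeats 1000000
set_option linter.unusedSectionVars false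
set_option linter.unusedVariables false
set_option linter.style.haveILetI false

open HahnSeries IntermediateField AlgebraicCurve ModularCurve

noncomputable section

namespace Fermat.Agent.S40

open Fermat.Agent.Lib Fermat.Agent.S17 Fermat.Agent.S18 Fermat.Agent.S24 Fermat.Agent.S34
  Fermat.Agent.S36 Fermat.Agent.GalRep Fermat.Agent.S33

local notation "Ω" => AlgebraicClosure ℚ

section grid

variable {K F : Type*} [Field K] [Field F] [Algebra K F]

/-- `reg(1/x) ⊆ regZ(x − 0)`. -/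
theorem S40DCS_regZ_of_reg {x s : F} (hs : s ∈ S34SB_reg K x⁻¹) :
    s ∈ S34SB_regZ K (x - algebraMap K F 0) := by
  unfold S34SB_regZ
  rw [S34SB_mem_regOff]
  intro Q hQ
  rw [S34SB_mem_zeros, not_lt, map_zero, sub_zero] at hQ
  refine (S34SB_mem_reg.1 hs) Q ?_
  rw [Q.ord_inv]
  omega

/-- `regZ(x − 0) ⊆ reg(1/x)`. -/
theorem S40DCS_reg_of_regZ {x s : F} (hs : s ∈ S34SB_regZ K (x - algebraMap K F 0)) :
    s ∈ S34SB_reg K x⁻¹ := by
  unfold S34SB_regZ at hs
  rw [S34SB_mem_regOff] at hs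
  rw [S34SB_mem_reg]
  intro Q hQ
  refine hs Q ?_
  rw [S34SB_mem_zeros, not_lt, map_zero, sub_zero]
  rw [Q.ord_inv] at hQ
  omega

end grid

section inst

variable (M p : ℕ) [NeZero (M * p)] [NeZero p] (hp : p.Prime) (hpM : ¬ p ∣ M)
  (A : ValuationSubring Ω) (hA : A.LiesOverPrime p)
  (hgen : PrincipalGeneratedByIntegral A (IsLocalRing.residue A) (M * p))
  (H : Subgroup (Ω ≃ₐ[ℚ] Ω)) (hH : H ≤ A.inertiaSubgroupIn ℚ)

include hp hA in
/-- a power of `p` makes every function `V₁`-integral. -/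
theorem S40DCS_scale (w : ↥(modularFunctionFieldBar (M * p))) :
    ∃ n : ℕ, w * algebraMap Ω ↥(modularFunctionFieldBar (M * p)) (p : Ω) ^ n ∈
      (S34M_T1 M p A hgen).O := by
  by_cases hw0 : w = 0
  · exact ⟨0, by rw [hw0, zero_mul]; exact (S34M_T1 M p A hgen).O.zero_mem⟩
  obtain ⟨c, u, hc, -, hcu⟩ := (S18_gaussModL (M * p) A hgen).exists_const_mul_unit w hw0
  obtain ⟨n, hn⟩ := S34VA_arch p hp A hA c hc
  refine ⟨n, ?_⟩
  have e : w * algebraMap Ω ↥(modularFunctionFieldBar (M * p)) (p : Ω) ^ n =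
      algebraMap Ω ↥(modularFunctionFieldBar (M * p)) ((p : Ω) ^ n * c) * (u : _) := by
    rw [hcu, map_mul, map_pow]
    ring
  rw [e]
  exact (S34M_T1 M p A hgen).O.mul_mem _ _
    (((S34M_T1 M p A hgen).algebraMap_mem_iff _).2 hn) u.2

include hp hA in
/-- an `H`-fixed function regular on the chart `x` lies in the `ℚ̄`-span of `R_x`. -/
theorem S40DCS_fixed_mem_span (x w : ↥(modularFunctionFieldBar (M * p)))
    (hwF : w ∈ (S36FI_act (M * p) H).fixF) (hwB : w ∈ S34SB_reg Ω x) :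
    w ∈ Submodule.span Ω (S40DL_R M p hp hpM A hgen H x : Set _) := by
  obtain ⟨n, hn⟩ := S40DCS_scale M p hp A hA hgen w
  have hp0 : (p : Ω) ≠ 0 := Nat.cast_ne_zero.2 hp.ne_zero
  have hpF : (p : Ω) ∈ (S36FI_act (M * p) H).fixK :=
    (S36FI_mem_fixK (M * p) H).2 (fun σ _ => map_natCast σ p)
  have hcF : algebraMap Ω ↥(modularFunctionFieldBar (M * p)) (p : Ω) ∈
      (S36FI_act (M * p) H).fixF := (S36FI_act (M * p) H).algebraMap_mem_fixF hpF
  have hyR : w * algebraMap Ω ↥(modularFunctionFieldBar (M * p)) (p : Ω) ^ n ∈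
      S40DL_R M p hp hpM A hgen H x := by
    rw [S40DL_mem_R]
    exact ⟨mul_mem hwF (pow_mem hcF n), hn,
      mul_mem hwB (pow_mem (Subalgebra.algebraMap_mem _ _) n)⟩
  have e : w = ((p : Ω) ^ n)⁻¹ •
      (w * algebraMap Ω ↥(modularFunctionFieldBar (M * p)) (p : Ω) ^ n) := by
    rw [Algebra.smul_def, map_inv₀, map_pow]
    have hc0 : algebraMap Ω ↥(modularFunctionFieldBar (M * p)) (p : Ω) ^ n ≠ 0 :=
      pow_ne_zero _ ((map_ne_zero _).mpr hp0)
    field_simp
  rw [e]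
  exact Submodule.smul_mem _ _ (Submodule.subset_span hyR)

include hp hA hH in
/-- **(L3) `span` on the chart `1/j`**: every function regular where `1/j` is regular lies in the
`ℚ̄`-span of `R_{1/j}`. -/
theorem S40DCS_span (s : ↥(modularFunctionFieldBar (M * p)))
    (hs : s ∈ S34SB_reg Ω ((jB (M * p) : ↥(modularFunctionFieldBar (M * p))))⁻¹) :
    s ∈ Submodule.span Ω (S40DL_R M p hp hpM A hgen H
      ((jB (M * p) : ↥(modularFunctionFieldBar (M * p))))⁻¹ : Set _) := by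
  have hP := (S36LD_hRR (M * p)).principal
  obtain ⟨b, hb⟩ := S36DW_exists_b hP (jB (M * p) : ↥(modularFunctionFieldBar (M * p)))
    (0 : Ω) (S40DCS_regZ_of_reg hs)
  have hspan := S36SH_rr_span (M * p) (A.inertiaSubgroupIn ℚ : Set (Ω ≃ₐ[ℚ] Ω)) _
    (fun τ hτ v => S36DW_E_stable (M * p) hP (jB (M * p)) _ 0 b τ (S34SW_gal_jB (M * p) τ)
      (S36DW_sub_fixed (M * p) τ (S34SW_gal_jB (M * p) τ) (map_zero τ)) v)
  refine (Submodule.span_le.2 ?_) (hspan hb)
  rintro w ⟨hw1, hw2⟩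
  have hwF : w ∈ (S36FI_act (M * p) H).fixF :=
    (S36FI_mem_fixF (M * p) H).2 fun σ hσ => hw2 ⟨σ, hH hσ⟩
  exact S40DCS_fixed_mem_span M p hp hpM A hA hgen H _ w hwF
    (S40DCS_reg_of_regZ (S36DW_regZ_le hP (jB (M * p)) (0 : Ω) b hw1))

end inst

end Fermat.Agent.S40
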