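import Fermat.Agent.S40.DiscCusp
import Fermat.Agent.S40.DiscCuspSpan
import Fermat.Agent.S40.DiscAsm
import Fermat.Agent.S36.Spec3Pts

/-!
# TRACK 13 (S40/S44, row 38), hole (D-CUSP): the ASSEMBLY at the cusps of `C₁` (helper7).
Prefix `S40DCM_`.

Level `M p`, `p ∤ M`, `A ⊂ ℚ̄` over `p`, `T₁ = S34M_T1` the first Gauss valuation, chart `1/j`.

* `S40DCM_Lift` : the ONLY remaining input (L2): the reduction `R_{1/j} → reg(1/j̄)` is onto
  (`R_{1/j} = S40DL_R … (jB)⁻¹` for `H` = the inertia group of `A`);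
* `S40DCM_hyp` : `S40DO_Hyp` on the chart `1/j` from (L2) (+ `S40DCS_span`, `S40DL_hyp`);
* **`S40DCM_cusp`** : **(D-CUSP)**: if `u` is a unit of `T₁` whose orders at the places of
  `X₀(M p)` where `1/j` is regular (all cusps and all places with `j ≠ 0`) are divisible by `n`,
  then `n ∣ ord_v (red₁ u)` at EVERY cusp `v` of `C₁` (every pole of `j̄`).
  = helper8's generic `S40DO_main'` with `hreg := S40DC_reg`.
-/

set_option autoImplicit false
set_option synthInstance.maxHeartbeats 400000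
set_option maxHeartbeats 1000000
set_option linter.unusedSectionVars false
set_option linter.unusedVariables false
set_option linter.style.haveILetI false

open HahnSeries IntermediateField AlgebraicCurve ModularCurve

noncomputable section

namespace Fermat.Agent.S40

open Fermat.Agent.Lib Fermat.Agent.S17 Fermat.Agent.S18 Fermat.Agent.S24 Fermat.Agent.S34
  Fermat.Agent.S36 Fermat.Agent.GalRep Fermat.Agent.S33

local notation "Ω" => AlgebraicClosure ℚ

section inst

variable (M p : ℕ) [NeZero (M * p)] [NeZero p] (hp : p.Prime) (hpM : ¬ p ∣ M)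
  (A : ValuationSubring Ω) (hA : A.LiesOverPrime p)
  (hgen : PrincipalGeneratedByIntegral A (IsLocalRing.residue A) (M * p))

/-- **(L2)**: the reduction of the lattice of the chart `1/j` is onto the functions of `C₁`
regular where `1/j̄` is regular. -/
def S40DCM_Lift : Prop :=
  ∀ a : ↥(modularFunctionFieldFullC (IsLocalRing.ResidueField A) (M * p)),
    a ∈ S34SB_reg (IsLocalRing.ResidueField A) (S34M_xb M p A)⁻¹ →
      ∃ (t : ↥(modularFunctionFieldBar (M * p)))
        (ht : t ∈ S40DL_R M p hp hpM A hgen (A.inertiaSubgroupIn ℚ)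
          ((jB (M * p) : ↥(modularFunctionFieldBar (M * p))))⁻¹)
        (htO : t ∈ (S34M_T1 M p A hgen).O), (S34M_T1 M p A hgen).red ⟨t, htO⟩ = a

include hA in
/-- **`S40DO_Hyp` on the chart `1/j`**, from (L2). -/
theorem S40DCM_hyp (hlift : S40DCM_Lift M p hp hpM A hgen) :
    S40DO_Hyp (S34M_T1 M p A hgen) (S18_hRR (M * p)).deg_one
      ((jB (M * p) : ↥(modularFunctionFieldBar (M * p))))⁻¹
      (S40DL_R M p hp hpM A hgen (A.inertiaSubgroupIn ℚ)
        ((jB (M * p) : ↥(modularFunctionFieldBar (M * p))))⁻¹) (p : Ω) (S34M_xb M p A)⁻¹ :=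
  S40DL_hyp M p hp hpM A hA hgen (A.inertiaSubgroupIn ℚ) le_rfl _ (S40F2PV_unif hp A hA)
    (S18_hRR (M * p)).deg_one (S34M_xb M p A)⁻¹ hlift
    (fun s hs => S40DCS_span M p hp hpM A hA hgen (A.inertiaSubgroupIn ℚ) le_rfl s hs)

include hA in
/-- **(D-CUSP)**: divisibility of the order of `red₁ u` at every cusp of `C₁`. -/
theorem S40DCM_cusp (hlift : S40DCM_Lift M p hp hpM A hgen)
    (v : Place (IsLocalRing.ResidueField A)
      ↥(modularFunctionFieldFullC (IsLocalRing.ResidueField A) (M * p)))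
    (hv : v.ord (S34M_xb M p A) < 0) (n : ℕ)
    {u : ↥(modularFunctionFieldBar (M * p))} (hu : S40F2S_IsU (S34M_T1 M p A hgen).O u)
    (hdiv : ∀ w : Place Ω ↥(modularFunctionFieldBar (M * p)),
      0 ≤ w.ord ((jB (M * p) : ↥(modularFunctionFieldBar (M * p))))⁻¹ → (n : ℤ) ∣ w.ord u) :
    (n : ℤ) ∣ v.ord ((S34M_T1 M p A hgen).red ⟨u, hu.mem⟩) := by
  haveI : NeZero M := ⟨fun h0 => NeZero.ne (M * p) (by rw [h0, zero_mul])⟩
  haveI : IsAlgClosed (IsLocalRing.ResidueField A) := S18_residue_isAlgClosed A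
  haveI : Infinite (IsLocalRing.ResidueField A) := IsAlgClosed.instInfinite
  have rr : RR_Hyp (IsLocalRing.ResidueField A)
      ↥(modularFunctionFieldFullC (IsLocalRing.ResidueField A) (M * p)) :=
    S34VF_hk M A hp hA hpM
  obtain ⟨cb, hcb⟩ := S36SP_exists_zero rr hv
  obtain ⟨c₁, hc₁⟩ := S40DA_pole (M * p)
  obtain ⟨c₀, hc₀⟩ := S36SP_exists_zero (S18_hRR (M * p)) hc₁
  have hcb' : cb.ord (S34M_xb M p A)⁻¹ < 0 := by rw [cb.ord_inv]; omega
  have hc₀' : c₀.ord ((jB (M * p) : ↥(modularFunctionFieldBar (M * p))))⁻¹ < 0 := by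
    rw [c₀.ord_inv]; omega
  have hv' : 0 ≤ v.ord (S34M_xb M p A)⁻¹ := by rw [v.ord_inv]; omega
  exact S40DO_main' (S := S34M_T1 M p A hgen) (hdeg := (S18_hRR (M * p)).deg_one)
    (x := ((jB (M * p) : ↥(modularFunctionFieldBar (M * p))))⁻¹) (v := v)
    (R := S40DL_R M p hp hpM A hgen (A.inertiaSubgroupIn ℚ)
      ((jB (M * p) : ↥(modularFunctionFieldBar (M * p))))⁻¹) (π := (p : Ω))
    (xb := (S34M_xb M p A)⁻¹) (rr.deg_one v) rr cb hcb' hv'
    (S40DC_reg M p hp hpM A hA hgen v hv)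
    (S40DCM_hyp M p hp hpM A hA hgen hlift) (S18_hRR (M * p)) c₀ hc₀'
    (S40F2N5_arch p hp A hA) n hu hdiv

end inst

end Fermat.Agent.S40
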