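import Fermat.Agent.S40.NodeSlope
import Fermat.Agent.S40.F2PInst
import Fermat.Agent.S36.BaseLDvr

/-!
# TRACK 13 (S40/S44), (F2') instance (I-a) (helper26): the chart at the canonical nodes.
Prefix `S40NX2_`.

Setting: level `M p`, `A ∣ p`, `H ≤ I_A`, `ϖ₀` a uniformiser of `A ∩ Ω^H` (`S33NL2_Unif`),
the nodes `e₁ e₂ P P'` of `S40NP_canon`, `N i := S40NI_nodeGen … i`.

* `S40NX2_R` : the chart ring `R` = the image in `F` of the rational lattice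
  `Λ' = S33NX_Lam M p hp hpM A hgen H` (functions fixed by `H`, integral at `V₁`, `V₂`, regular
  off the cusps).
* `S40NX2_le` : `R ≤ Λ`.
* `S40NX2_const`, `S40NX2_cart`, `S40NX2_den₁`, `S40NX2_den₂` : the hypotheses of `S40NS_chart`.
* `S40NX2_chart` : **`S40F2N3_Chart (N i) C`** for every node coordinate `C` with
  `X, Y, H ∈ R`, `red₂ X = 0`, `red₁ Y = 0`, `ord_{P i} (red₁ X) = 1`, `ord_{P' i} (red₂ Y) = 1`.
-/

set_option autoImplicit false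
set_option synthInstance.maxHeartbeats 400000
set_option maxHeartbeats 1000000
set_option linter.unusedSectionVars false
set_option linter.unusedVariables false
set_option linter.style.haveILetI false

open HahnSeries IntermediateField AlgebraicCurve ModularCurve

noncomputable section

namespace Fermat.Agent.S40

open Fermat.Agent.Lib Fermat.Agent.S17 Fermat.Agent.S18 Fermat.Agent.S24 Fermat.Agent.S34
  Fermat.Agent.S36 Fermat.Agent.GalRep Fermat.Agent.S33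

local notation "Ω" => AlgebraicClosure ℚ

section inst

variable (M p : ℕ) [NeZero (M * p)] (hp : p.Prime) (hpM : ¬ p ∣ M)
  (A : ValuationSubring Ω) (hA : A.LiesOverPrime p)
  (hgen : PrincipalGeneratedByIntegral A (IsLocalRing.residue A) (M * p))
  (H : Subgroup (Ω ≃ₐ[ℚ] Ω)) (hH : H ≤ A.inertiaSubgroupIn ℚ)

/-- the chart ring: the image of the rational lattice in `F`. -/
def S40NX2_R : Subring ↥(modularFunctionFieldBar (M * p)) :=
  (S33NX_Lam M p hp hpM A hgen H).map (S33NX_incl M p H)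

theorem S40NX2_mem_R {f : ↥(modularFunctionFieldBar (M * p))} :
    f ∈ S40NX2_R M p hp hpM A hgen H ↔
      ∃ x : ↥(S33NX_Lam M p hp hpM A hgen H),
        ((x : S33NX_F M p H) : ↥(modularFunctionFieldBar (M * p))) = f := by
  constructor
  · rintro ⟨y, hy, rfl⟩
    exact ⟨⟨y, hy⟩, rfl⟩
  · rintro ⟨x, rfl⟩
    exact ⟨(x : S33NX_F M p H), x.2, rfl⟩

theorem S40NX2_coe_mem_R (x : ↥(S33NX_Lam M p hp hpM A hgen H)) :
    ((x : S33NX_F M p H) : ↥(modularFunctionFieldBar (M * p))) ∈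
      S40NX2_R M p hp hpM A hgen H :=
  (S40NX2_mem_R M p hp hpM A hgen H).2 ⟨x, rfl⟩

/-- `R ≤ Λ`. -/
theorem S40NX2_le (f : ↥(modularFunctionFieldBar (M * p)))
    (hf : f ∈ S40NX2_R M p hp hpM A hgen H) : f ∈ S40NI_LamX M p hp hpM A hgen := by
  obtain ⟨x, rfl⟩ := (S40NX2_mem_R M p hp hpM A hgen H).1 hf
  rw [S40NI_mem_LamX]
  exact ⟨(S40F2PI_toO2 M p hp hpM A hgen H x).2.1, (S40F2PI_toO2 M p hp hpM A hgen H x).2.2,
    S40F2PI_toO2_mem_B M p hp hpM A hgen H x⟩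

/-- the first reduction of `x ∈ Λ'`, in the shape of `S40NS_chart`. -/
theorem S40NX2_red₁ (x : ↥(S33NX_Lam M p hp hpM A hgen H))
    (h : ((x : S33NX_F M p H) : ↥(modularFunctionFieldBar (M * p))) ∈ (S34M_T1 M p A hgen).O) :
    (S34M_T1 M p A hgen).red ⟨((x : S33NX_F M p H) : ↥(modularFunctionFieldBar (M * p))), h⟩ =
      S40F2PI_red₁ M p hp hpM A hgen H x := rfl

/-- the second reduction of `x ∈ Λ'`, in the shape of `S40NS_chart`. -/
theorem S40NX2_red₂ (x : ↥(S33NX_Lam M p hp hpM A hgen H))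
    (h : ((x : S33NX_F M p H) : ↥(modularFunctionFieldBar (M * p))) ∈
      (S34M_T2 M p hp hpM A hgen).O) :
    (S34M_T2 M p hp hpM A hgen).red
        ⟨((x : S33NX_F M p H) : ↥(modularFunctionFieldBar (M * p))), h⟩ =
      S40F2PI_red₂ M p hp hpM A hgen H x := rfl

/-- a constant of `A ∩ Ω^H` lies in `R`. -/
theorem S40NX2_const_mem {c : Ω} (hc : ∀ σ ∈ H, σ c = c) (hcA : c ∈ A) :
    algebraMap Ω ↥(modularFunctionFieldBar (M * p)) c ∈ S40NX2_R M p hp hpM A hgen H :=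
  (S40NX2_mem_R M p hp hpM A hgen H).2
    ⟨⟨S33NX_const M p H c ((S36FI_mem_fixK (M * p) H).2 hc),
      S33ND_const_mem_Lam M p hp hpM A hgen H ((S36FI_mem_fixK (M * p) H).2 hc) hcA⟩, rfl⟩

include hA hH in
/-- **`const`**: every residue is the residue of a constant of `R`. -/
theorem S40NX2_const (y : IsLocalRing.ResidueField A) :
    ∃ (c : Ω) (hc : c ∈ A),
      algebraMap Ω ↥(modularFunctionFieldBar (M * p)) c ∈ S40NX2_R M p hp hpM A hgen H ∧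
        IsLocalRing.residue A ⟨c, hc⟩ = y := by
  haveI : Fact p.Prime := ⟨hp⟩
  obtain ⟨a, haL, ha⟩ := S36BL_hres (q := p) A (S36FI_act (M * p) H).fixK hA
    (fun c hc => (S36FI_mem_fixK (M * p) H).2 (fun σ hσ => hc σ (hH hσ))) y
  exact ⟨(a : Ω), a.2,
    S40NX2_const_mem M p hp hpM A hgen H ((S36FI_mem_fixK (M * p) H).1 haL) a.2, ha⟩

section pi

variable (ϖ₀ : Ω) (hU : S33NL2_Unif A H ϖ₀)

include hA hU in
/-- **`cart`**: `R ∩ 𝔪₁ ∩ 𝔪₂ = ϖ₀ R`. -/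
theorem S40NX2_cart (f : ↥(modularFunctionFieldBar (M * p)))
    (hf : f ∈ S40NX2_R M p hp hpM A hgen H)
    (h₁ : (S34M_T1 M p A hgen).red
      ⟨f, (S40NI_mem_Lam.1 (S40NX2_le M p hp hpM A hgen H f hf)).1⟩ = 0)
    (h₂ : (S34M_T2 M p hp hpM A hgen).red
      ⟨f, (S40NI_mem_Lam.1 (S40NX2_le M p hp hpM A hgen H f hf)).2.1⟩ = 0) :
    ∃ g ∈ S40NX2_R M p hp hpM A hgen H,
      f = algebraMap Ω ↥(modularFunctionFieldBar (M * p)) ϖ₀ * g := by
  obtain ⟨x, rfl⟩ := (S40NX2_mem_R M p hp hpM A hgen H).1 hf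
  obtain ⟨w, hw⟩ := S40F2PI_cart M p hp hpM A hA hgen H ϖ₀ hU x h₁ h₂
  refine ⟨((w : S33NX_F M p H) : ↥(modularFunctionFieldBar (M * p))),
    S40NX2_coe_mem_R M p hp hpM A hgen H w, ?_⟩
  rw [hw]
  rfl

include hU in
/-- the uniformiser is a nonunit of `A`. -/
theorem S40NX2_pi_nonunit : ϖ₀ ∈ A.nonunits :=
  (ValuationSubring.mem_nonunits_iff A).2 hU.lt_one

end pi

section nodes

variable {s : ℕ}
  (e₁ : Fin s → ↥(S34M_chart M p A 1 Nat.one_pos).Rb₁ →ₐ[IsLocalRing.ResidueField A]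
    IsLocalRing.ResidueField A)
  (e₂ : Fin s → ↥(S34M_chart M p A 1 Nat.one_pos).Rb₂ →ₐ[IsLocalRing.ResidueField A]
    IsLocalRing.ResidueField A)
  (P P' : Fin s → Place (IsLocalRing.ResidueField A)
    ↥(modularFunctionFieldFullC (IsLocalRing.ResidueField A) (M * p)))
  (hE : Function.Surjective (S34B_E e₁ e₂))
  (hW1 : S34K_W (S34M_same M p hp hpM A hgen) (S34M_chart M p A 1 Nat.one_pos) 1 =
    S34B_W e₁ e₂)
  (hx : S34P_Hyp (S34M_T1 M p A hgen) (S34M_T2 M p hp hpM A hgen) (S34M_same M p hp hpM A hgen)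
    (S34PX_j M p hp hpM A hgen))
  (hred : S34P_red (S34M_T1 M p A hgen) (S34M_T2 M p hp hpM A hgen)
    (S34PX_j M p hp hpM A hgen) = (S34M_xb M p A, S34M_xb M p A ^ p))
  (hP : ∀ i, 0 ≤ (P i).ord (S34M_xb M p A))
  (hP' : ∀ i, 0 ≤ (P' i).ord (S34M_xb M p A ^ p))
  (he₁ : ∀ i (a : ↥(S34M_chart M p A 1 Nat.one_pos).Rb₁), e₁ i a = FD_c0 (P i) (a : _))
  (he₂ : ∀ i (b : ↥(S34M_chart M p A 1 Nat.one_pos).Rb₂), e₂ i b = FD_c0 (P' i) (b : _))

include hA hH hE hW1 hP in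
/-- **`den₁`**: a function regular at `P i` is a fraction of first reductions of `R`. -/
theorem S40NX2_den₁ (i : Fin s)
    (ρ : ↥(modularFunctionFieldFullC (IsLocalRing.ResidueField A) (M * p)))
    (hρ : 0 ≤ (P i).ord ρ) :
    ∃ (h r : ↥(modularFunctionFieldBar (M * p))) (hh : h ∈ S40NX2_R M p hp hpM A hgen H)
      (hr : r ∈ S40NX2_R M p hp hpM A hgen H),
      (S34M_T1 M p A hgen).red
          ⟨r, (S40NI_mem_Lam.1 (S40NX2_le M p hp hpM A hgen H r hr)).1⟩ =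
        (S34M_T1 M p A hgen).red
          ⟨h, (S40NI_mem_Lam.1 (S40NX2_le M p hp hpM A hgen H h hh)).1⟩ * ρ ∧
      ¬ S36RC_van (P i) ((S34M_T1 M p A hgen).red
          ⟨h, (S40NI_mem_Lam.1 (S40NX2_le M p hp hpM A hgen H h hh)).1⟩) := by
  haveI : NeZero M := ⟨fun h0 => NeZero.ne (M * p) (by rw [h0, zero_mul])⟩
  haveI : IsAlgClosed (IsLocalRing.ResidueField A) := S18_residue_isAlgClosed A
  haveI : Infinite (IsLocalRing.ResidueField A) := IsAlgClosed.instInfinite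
  have rr : RR_Hyp (IsLocalRing.ResidueField A)
      ↥(modularFunctionFieldFullC (IsLocalRing.ResidueField A) (M * p)) :=
    S34VF_hk M A hp hA hpM
  obtain ⟨c₁, hc₁⟩ := S40NP_pole₁ M p hp hpM A hA
  obtain ⟨Hh, r, hrel, hnv⟩ := S40F2PE_ex_den (S40F2PI_red₁ M p hp hpM A hgen H) rr
    (S40F2PI_cusps rr.principal (S34M_xb M p A)) c₁ ((S40F2PI_mem_cusps _ _ _).2 hc₁)
    (fun b hb => S40F2PI_lift₂' M p hp hpM A hA hgen H hH 1 Nat.one_pos e₁ e₂ hE hW1 b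
      (S40F2PI_reg_of_off _ _ b hb))
    (P i) ((S40F2PI_not_mem_cusps _ _ _).2 (hP i)) ρ hρ
  exact ⟨_, _, S40NX2_coe_mem_R M p hp hpM A hgen H Hh, S40NX2_coe_mem_R M p hp hpM A hgen H r,
    hrel, hnv⟩

include hA hH hE hW1 hP' in
/-- **`den₂`**: a function regular at `P' i` is a fraction of second reductions of `R`. -/
theorem S40NX2_den₂ (i : Fin s)
    (ρ : ↥(modularFunctionFieldFullC (IsLocalRing.ResidueField A) (M * p)))
    (hρ : 0 ≤ (P' i).ord ρ) :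
    ∃ (h r : ↥(modularFunctionFieldBar (M * p))) (hh : h ∈ S40NX2_R M p hp hpM A hgen H)
      (hr : r ∈ S40NX2_R M p hp hpM A hgen H),
      (S34M_T2 M p hp hpM A hgen).red
          ⟨r, (S40NI_mem_Lam.1 (S40NX2_le M p hp hpM A hgen H r hr)).2.1⟩ =
        (S34M_T2 M p hp hpM A hgen).red
          ⟨h, (S40NI_mem_Lam.1 (S40NX2_le M p hp hpM A hgen H h hh)).2.1⟩ * ρ ∧
      ¬ S36RC_van (P' i) ((S34M_T2 M p hp hpM A hgen).red
          ⟨h, (S40NI_mem_Lam.1 (S40NX2_le M p hp hpM A hgen H h hh)).2.1⟩) := by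
  haveI : NeZero M := ⟨fun h0 => NeZero.ne (M * p) (by rw [h0, zero_mul])⟩
  haveI : IsAlgClosed (IsLocalRing.ResidueField A) := S18_residue_isAlgClosed A
  haveI : Infinite (IsLocalRing.ResidueField A) := IsAlgClosed.instInfinite
  have rr : RR_Hyp (IsLocalRing.ResidueField A)
      ↥(modularFunctionFieldFullC (IsLocalRing.ResidueField A) (M * p)) :=
    S34VF_hk M A hp hA hpM
  obtain ⟨c₂, hc₂⟩ := S40NP_pole₂ M p hp hpM A hA
  obtain ⟨Hh, r, hrel, hnv⟩ := S40F2PE_ex_den (S40F2PI_red₂ M p hp hpM A hgen H) rr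
    (S40F2PI_cusps rr.principal (S34M_xb M p A ^ p)) c₂ ((S40F2PI_mem_cusps _ _ _).2 hc₂)
    (fun b hb => S40F2PI_lift₂ M p hp hpM A hA hgen H hH 1 Nat.one_pos e₁ e₂ hE hW1 b
      (S40F2PI_reg_of_off _ _ b hb))
    (P' i) ((S40F2PI_not_mem_cusps _ _ _).2 (hP' i)) ρ hρ
  exact ⟨_, _, S40NX2_coe_mem_R M p hp hpM A hgen H Hh, S40NX2_coe_mem_R M p hp hpM A hgen H r,
    hrel, hnv⟩

variable (ϖ₀ : Ω) (hU : S33NL2_Unif A H ϖ₀)

include hA hH hU hE in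
/-- **(I-a) THE CHART at the node `i`**: `S40F2N3_Chart (N i) C` with `R` the image of the
rational lattice and `π = ϖ₀`, for every node coordinate `C` with `X, Y, H ∈ R`. -/
def S40NX2_chart (i : Fin s)
    (C : S40F2N_Coord (S40NI_nodeGen (S18_hRR (M * p)).deg_one 1 Nat.one_pos hx hred e₁ e₂ hW1 i))
    (hXR : C.X ∈ S40NX2_R M p hp hpM A hgen H) (hYR : C.Y ∈ S40NX2_R M p hp hpM A hgen H)
    (hHR : C.H ∈ S40NX2_R M p hp hpM A hgen H)
    (hX₂ : (S34M_T2 M p hp hpM A hgen).red ⟨C.X, (S40NI_mem_Lam.1 C.hX).2.1⟩ = 0)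
    (hY₁ : (S34M_T1 M p A hgen).red ⟨C.Y, (S40NI_mem_Lam.1 C.hY).1⟩ = 0)
    (hX₁ : (S34M_T1 M p A hgen).red ⟨C.X, (S40NI_mem_Lam.1 C.hX).1⟩ ≠ 0)
    (hY₂ : (S34M_T2 M p hp hpM A hgen).red ⟨C.Y, (S40NI_mem_Lam.1 C.hY).2.1⟩ ≠ 0)
    (hordX : (P i).ord ((S34M_T1 M p A hgen).red ⟨C.X, (S40NI_mem_Lam.1 C.hX).1⟩) = 1)
    (hordY : (P' i).ord ((S34M_T2 M p hp hpM A hgen).red
      ⟨C.Y, (S40NI_mem_Lam.1 C.hY).2.1⟩) = 1) :
    S40F2N3_Chart (S40NI_nodeGen (S18_hRR (M * p)).deg_one 1 Nat.one_pos hx hred e₁ e₂ hW1 i) C :=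
  haveI : NeZero M := ⟨fun h0 => NeZero.ne (M * p) (by rw [h0, zero_mul])⟩
  S40NS_chart 1 Nat.one_pos hx hred e₁ e₂ hW1 (S34VF_hk M A hp hA hpM) (S34VF_hk M A hp hA hpM)
    P P' hP hP' he₁ he₂ i C (S40NX2_R M p hp hpM A hgen H) (S40NX2_le M p hp hpM A hgen H)
    ϖ₀ (S40NX2_pi_nonunit A H ϖ₀ hU) hXR hYR hHR hX₂ hY₁ hX₁ hY₂ hordX hordY
    (fun f hf => S40NX2_const M p hp hpM A hA hgen H hH _)
    (S40NX2_cart M p hp hpM A hA hgen H ϖ₀ hU)
    (S40NX2_den₁ M p hp hpM A hA hgen H hH e₁ e₂ P hE hW1 hP i)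
    (S40NX2_den₂ M p hp hpM A hA hgen H hH e₁ e₂ P' hE hW1 hP' i)

end nodes

end inst

end Fermat.Agent.S40
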