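import Mathlib

/-!
# TRACK 13 (S40), package P7 (helper17), part (c'): a rational `p`-th root of a `1`-unit is a
constant times a `1`-unit

Abstract setting: `F` a field, `O` a valuation ring of `F` of residue characteristic `p`,
`Fs ⊂ F` a subfield on which `O` is DISCRETE with uniformiser `ϖ` (every `x ≠ 0` of `Fs` is
`ϖ ^ (-k) ·` unit), `C ⊂ Fs` a subfield of constants containing `ϖ` whose unit residues have finite
order prime to `p` (residue field algebraic over `𝔽_p`).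

* `S40F2C_frob`  : `Xᵖ ≡ bᵖ` modulo `𝔪_O` ⇒ `X ≡ b` modulo `𝔪_O` (Frobenius is injective);
* `S40F2C_root`  : a unit constant `c₁` has a constant `b` with `c₁ bᵖ ≡ 1` modulo `𝔪_O`
                   (a power of `c₁`: no root extraction, so `b` stays in `C`);
* `S40F2C_div`   : an element of `𝔪_O ∩ Fs` is `ϖ ·` (element of `O ∩ Fs`);
* `S40F2C_main`  : **(c')**: `h ∈ Fs`, `c ∈ C`, `c hᵖ ≡ 1` modulo `𝔪_O`  ⇒
                   `h = a₀ (1 + ϖ g)` with `a₀ ∈ C`, `g ∈ O ∩ Fs`, and `c a₀ᵖ ≡ 1` modulo `𝔪_O`.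

Mathlib only.
-/

set_option autoImplicit false
set_option linter.style.haveILetI false

namespace Fermat.Agent.S40

section abs

variable {F : Type*} [Field F] (O : ValuationSubring F)

theorem S40F2C_lt_one_iff_mem (x : F) (hx : x ∈ O) :
    O.valuation x < 1 ↔ (⟨x, hx⟩ : O) ∈ IsLocalRing.maximalIdeal O :=
  (ValuationSubring.valuation_lt_one_iff O ⟨x, hx⟩).symm

/-- Frobenius is injective on the residue field. -/
theorem S40F2C_frob {p : ℕ} (hp : p.Prime) (hpO : O.valuation (p : F) < 1) {X b : F}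
    (hX : X ∈ O) (hb : b ∈ O) (hXb : O.valuation (X ^ p - b ^ p) < 1) :
    O.valuation (X - b) < 1 := by
  haveI : Fact p.Prime := ⟨hp⟩
  have hpm : ((p : ℕ) : O) ∈ IsLocalRing.maximalIdeal O := by
    rw [ValuationSubring.valuation_lt_one_iff]
    simpa using hpO
  have hp0 : ((p : ℕ) : IsLocalRing.ResidueField O) = 0 := by
    have := (IsLocalRing.residue_eq_zero_iff ((p : ℕ) : O)).2 hpm
    simpa using this
  haveI : CharP (IsLocalRing.ResidueField O) p := (CharP.charP_iff_prime_eq_zero hp).mpr hp0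
  have h1 : IsLocalRing.residue O ⟨X, hX⟩ ^ p = IsLocalRing.residue O ⟨b, hb⟩ ^ p := by
    rw [← sub_eq_zero, ← map_pow, ← map_pow, ← map_sub, IsLocalRing.residue_eq_zero_iff,
      ValuationSubring.valuation_lt_one_iff]
    simpa using hXb
  have h2 : IsLocalRing.residue O ⟨X, hX⟩ = IsLocalRing.residue O ⟨b, hb⟩ :=
    frobenius_inj (IsLocalRing.ResidueField O) p h1
  have h3 : IsLocalRing.residue O (⟨X, hX⟩ - ⟨b, hb⟩) = 0 := by rw [map_sub, h2, sub_self]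
  rw [IsLocalRing.residue_eq_zero_iff, ValuationSubring.valuation_lt_one_iff] at h3
  simpa using h3

/-- `y ≡ 1` ⇒ `yʳ ≡ 1`. -/
theorem S40F2C_pow_one {y : F} (hy : O.valuation (y - 1) < 1) (r : ℕ) :
    O.valuation (y ^ r - 1) < 1 := by
  induction r with
  | zero => simp
  | succ r ih =>
    have hy1 : O.valuation y ≤ 1 := by
      have : y = (y - 1) + 1 := by ring
      rw [this]
      exact le_trans (O.valuation.map_add _ _) (max_le hy.le (by simp))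
    have e : y ^ (r + 1) - 1 = (y ^ r - 1) * y + (y - 1) := by ring
    rw [e]
    refine lt_of_le_of_lt (O.valuation.map_add _ _) (max_lt ?_ hy)
    rw [map_mul]
    exact lt_of_le_of_lt (mul_le_of_le_one_right' hy1) ih

/-- a unit whose residue has finite order `M` prime to `p` has a power `b` with
`c₁ bᵖ ≡ 1`. -/
theorem S40F2C_root {p : ℕ} (hp : p.Prime) {c₁ : F} {M : ℕ} (hM : 0 < M) (hMp : M.Coprime p)
    (hc : O.valuation (c₁ ^ M - 1) < 1) :
    ∃ e : ℕ, O.valuation (c₁ * (c₁ ^ e) ^ p - 1) < 1 := by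
  have h1 : p ^ Nat.totient M ≡ 1 [MOD M] := Nat.ModEq.pow_totient hMp.symm
  have hpos : 1 ≤ p ^ Nat.totient M := Nat.one_le_pow _ _ hp.pos
  have h2 : M ∣ p ^ Nat.totient M - 1 := (Nat.modEq_iff_dvd' hpos).mp h1.symm
  obtain ⟨j, hj⟩ := h2
  have hn : 0 < Nat.totient M := Nat.totient_pos.mpr hM
  obtain ⟨n', hn'⟩ : ∃ n', Nat.totient M = n' + 1 := ⟨Nat.totient M - 1, by omega⟩
  obtain ⟨M', hM'⟩ : ∃ M', M = M' + 1 := ⟨M - 1, by omega⟩
  refine ⟨M' * p ^ n', ?_⟩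
  have hpn : p ^ (n' + 1) = M * j + 1 := by
    rw [← hn']
    omega
  have e : c₁ * (c₁ ^ (M' * p ^ n')) ^ p = (c₁ ^ M) ^ (1 + M' * j) := by
    rw [← pow_mul, ← pow_succ', ← pow_mul]
    congr 1
    have : M' * p ^ n' * p = M' * p ^ (n' + 1) := by ring
    rw [this, hpn, hM']
    ring
  rw [e]
  exact S40F2C_pow_one O hc _

/-- an element of `𝔪_O ∩ Fs` is divisible by `ϖ` in `O ∩ Fs`. -/
theorem S40F2C_div (Fs : Subfield F) (ϖ : F) (hϖFs : ϖ ∈ Fs) (hϖ0 : ϖ ≠ 0)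
    (hϖ1 : O.valuation ϖ < 1)
    (hdv : ∀ x ∈ Fs, x ≠ 0 → ∃ k : ℤ, O.valuation (x * ϖ ^ k) = 1)
    {x : F} (hx : x ∈ Fs) (hx1 : O.valuation x < 1) :
    ∃ t ∈ Fs, O.valuation t ≤ 1 ∧ x = ϖ * t := by
  rcases eq_or_ne x 0 with rfl | hx0
  · exact ⟨0, Fs.zero_mem, by simp, by simp⟩
  obtain ⟨k, hk⟩ := hdv x hx hx0
  have hv0 : O.valuation ϖ ≠ 0 := (map_ne_zero _).mpr hϖ0
  refine ⟨x * ϖ⁻¹, Fs.mul_mem hx (Fs.inv_mem hϖFs), ?_, by field_simp⟩
  obtain ⟨n, rfl | rfl⟩ := Int.eq_nat_or_neg k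
  · -- impossible
    exfalso
    rw [zpow_natCast, map_mul, map_pow] at hk
    have h1 : O.valuation x * O.valuation ϖ ^ n ≤ O.valuation x :=
      mul_le_of_le_one_right' (pow_le_one' hϖ1.le n)
    rw [hk] at h1
    exact absurd hx1 (not_lt.mpr h1)
  · rw [zpow_neg, zpow_natCast, map_mul, map_inv₀, map_pow] at hk
    have hvx : O.valuation x = O.valuation ϖ ^ n := by
      have hne : O.valuation ϖ ^ n ≠ 0 := pow_ne_zero _ hv0
      calc O.valuation x = O.valuation x * (O.valuation ϖ ^ n)⁻¹ * O.valuation ϖ ^ n := by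
            rw [mul_assoc, inv_mul_cancel₀ hne, mul_one]
        _ = O.valuation ϖ ^ n := by rw [hk, one_mul]
    rcases n with _ | m
    · rw [pow_zero] at hvx
      rw [hvx] at hx1
      exact absurd hx1 (lt_irrefl _)
    · rw [map_mul, map_inv₀, hvx, pow_succ, mul_assoc, mul_inv_cancel₀ hv0, mul_one]
      exact pow_le_one' hϖ1.le m

/-- **(c')**: a rational `p`-th root of a `1`-unit (up to a constant) is a constant times a
`1`-unit of level `ϖ`. -/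
theorem S40F2C_main (Fs C : Subfield F) (hCFs : C ≤ Fs) (ϖ : F) (hϖC : ϖ ∈ C) (hϖ0 : ϖ ≠ 0)
    (hϖ1 : O.valuation ϖ < 1) {p : ℕ} (hp : p.Prime) (hpO : O.valuation (p : F) < 1)
    (hdv : ∀ x ∈ Fs, x ≠ 0 → ∃ k : ℤ, O.valuation (x * ϖ ^ k) = 1)
    (hfin : ∀ c ∈ C, O.valuation c = 1 →
      ∃ M : ℕ, 0 < M ∧ M.Coprime p ∧ O.valuation (c ^ M - 1) < 1)
    (h c : F) (hh : h ∈ Fs) (hc : c ∈ C) (hch : O.valuation (c * h ^ p - 1) < 1) :
    ∃ a₀ ∈ C, ∃ g ∈ Fs, O.valuation g ≤ 1 ∧ h = a₀ * (1 + ϖ * g) ∧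
      O.valuation (c * a₀ ^ p - 1) < 1 := by
  have hv1 : O.valuation (c * h ^ p) = 1 := by
    have e : c * h ^ p = 1 + (c * h ^ p - 1) := by ring
    rw [e]
    exact Valuation.map_one_add_of_lt _ hch
  have hh0 : h ≠ 0 := by
    rintro rfl
    rw [zero_pow hp.ne_zero, mul_zero, map_zero] at hv1
    exact zero_ne_one hv1
  obtain ⟨k, hk⟩ := hdv h hh hh0
  have hϖk0 : ϖ ^ k ≠ 0 := zpow_ne_zero _ hϖ0
  have hϖkC : ϖ ^ k ∈ C := zpow_mem hϖC k
  obtain ⟨X, hX⟩ : ∃ X, X = h * ϖ ^ k := ⟨_, rfl⟩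
  obtain ⟨c₁, hc₁⟩ : ∃ c₁, c₁ = c * (ϖ ^ k)⁻¹ ^ p := ⟨_, rfl⟩
  have hvX : O.valuation X = 1 := by rw [hX]; exact hk
  have e1 : c₁ * X ^ p = c * h ^ p := by
    rw [hc₁, hX, mul_pow, inv_pow]
    field_simp
  have hc₁C : c₁ ∈ C := by
    rw [hc₁]
    exact C.mul_mem hc (C.pow_mem (C.inv_mem hϖkC) p)
  have hvc₁ : O.valuation c₁ = 1 := by
    have h2 := hv1
    rw [← e1, map_mul, map_pow, hvX, one_pow, mul_one] at h2
    exact h2
  have hc₁0 : c₁ ≠ 0 := by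
    rintro rfl
    rw [map_zero] at hvc₁
    exact zero_ne_one hvc₁
  obtain ⟨M, hM, hMp, hcM⟩ := hfin c₁ hc₁C hvc₁
  obtain ⟨e, he⟩ := S40F2C_root O hp hM hMp hcM
  obtain ⟨b, hb⟩ : ∃ b, b = c₁ ^ e := ⟨_, rfl⟩
  rw [← hb] at he
  have hbC : b ∈ C := by
    rw [hb]
    exact C.pow_mem hc₁C e
  have hvb : O.valuation b = 1 := by rw [hb, map_pow, hvc₁, one_pow]
  have hb0 : b ≠ 0 := by
    rintro rfl
    rw [map_zero] at hvb
    exact zero_ne_one hvb
  have hXb : O.valuation (X ^ p - b ^ p) < 1 := by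
    have e2 : X ^ p - b ^ p = c₁⁻¹ * ((c₁ * X ^ p - 1) - (c₁ * b ^ p - 1)) := by
      field_simp
      ring
    rw [e2, map_mul, map_inv₀, hvc₁, inv_one, one_mul]
    refine lt_of_le_of_lt (Valuation.map_sub _ _ _) (max_lt ?_ he)
    rw [e1]
    exact hch
  have hXO : X ∈ O := (ValuationSubring.valuation_le_one_iff O X).mp hvX.le
  have hbO : b ∈ O := (ValuationSubring.valuation_le_one_iff O b).mp hvb.le
  have hd := S40F2C_frob O hp hpO hXO hbO hXb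
  have hXFs : X ∈ Fs := by
    rw [hX]
    exact Fs.mul_mem hh (hCFs hϖkC)
  obtain ⟨t, ht, hvt, et⟩ := S40F2C_div O Fs ϖ (hCFs hϖC) hϖ0 hϖ1 hdv
    (Fs.sub_mem hXFs (hCFs hbC)) hd
  refine ⟨(ϖ ^ k)⁻¹ * b, C.mul_mem (C.inv_mem hϖkC) hbC, t * b⁻¹,
    Fs.mul_mem ht (Fs.inv_mem (hCFs hbC)), ?_, ?_, ?_⟩
  · rw [map_mul, map_inv₀, hvb, inv_one, mul_one]
    exact hvt
  · have e3 : X = b + ϖ * t := by rw [← et]; ring
    have e4 : h = (ϖ ^ k)⁻¹ * X := by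
      rw [hX, mul_comm h, ← mul_assoc, inv_mul_cancel₀ hϖk0, one_mul]
    rw [e4, e3]
    field_simp
  · have e5 : c * ((ϖ ^ k)⁻¹ * b) ^ p = c₁ * b ^ p := by
      rw [hc₁]
      ring
    rw [e5]
    exact he

end abs

end Fermat.Agent.S40
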