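import Mathlib
import Fermat.Agent.S36.LDesc

/-!
# TRACK 13 (S40), package P7 (helper17): `H`-rational trivialisation  (R1)

`F = modularFunctionFieldBar N ⊂ ℚ̄((q))`, `H` a set of Galois automorphisms (an inertia group).

If `f ≠ 0` is fixed by `H` and is a trivial Kummer generator of exponent `p` over `ℚ̄`
(`f = c₀ · gᵖ`), then the trivialisation can be chosen `H`-RATIONAL:
`f = c · hᵖ` with `c ∈ ℚ̄^H`, `h ∈ F^H`.  No Hilbert 90 is used: `h` is `g` normalised to have
leading `q`-coefficient `1`; then `τ h / h` is a constant `p`-th root of a constant, so it is a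
constant, and its leading coefficient is `1`.

* `S40F2T_const_of_isIntegral` : an element of a `ℚ̄`-field which is integral over `ℚ̄` is constant;
* `S40F2T_const_of_pow`        : `yᵖ` constant, `p > 0`  ⇒  `y` constant;
* `S40F2T_rat`                 : the `H`-rational trivialisation, with the normalisation
                                 (leading coefficient of `h` equal to `1`);
* `S40F2T_rat'`                : the same without the normalisation clause;
-/

set_option autoImplicit false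
set_option linter.unusedSectionVars false

open AlgebraicCurve ModularCurve HahnSeries

namespace Fermat.Agent.S40

open Fermat.Agent.Lib Fermat.Agent.GalRep Fermat.Agent.S24 Fermat.Agent.S36

noncomputable section

local notation "ℚbar" => AlgebraicClosure ℚ

/-- an element of a field over `ℚ̄` which is integral over `ℚ̄` is a constant. -/
theorem S40F2T_const_of_isIntegral {F : Type*} [Field F] [Algebra ℚbar F] (y : F)
    (hy : IsIntegral ℚbar y) : ∃ ζ : ℚbar, y = algebraMap ℚbar F ζ := by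
  have h1 := IsAlgClosed.degree_eq_one_of_irreducible ℚbar (minpoly.irreducible hy)
  obtain ⟨ζ, hζ⟩ := minpoly.mem_range_of_degree_eq_one ℚbar y h1
  exact ⟨ζ, hζ.symm⟩

/-- if `yᵖ` is a constant (`p > 0`) then `y` is a constant. -/
theorem S40F2T_const_of_pow {F : Type*} [Field F] [Algebra ℚbar F] {p : ℕ} (hp : 0 < p)
    (y : F) (d : ℚbar) (hy : y ^ p = algebraMap ℚbar F d) :
    ∃ ζ : ℚbar, y = algebraMap ℚbar F ζ ∧ ζ ^ p = d := by
  have hint : IsIntegral ℚbar y := by
    refine ⟨Polynomial.X ^ p - Polynomial.C d, Polynomial.monic_X_pow_sub_C d hp.ne', ?_⟩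
    simp [hy]
  obtain ⟨ζ, hζ⟩ := S40F2T_const_of_isIntegral y hint
  refine ⟨ζ, hζ, ?_⟩
  have h2 : algebraMap ℚbar F (ζ ^ p) = algebraMap ℚbar F d := by
    rw [map_pow, ← hζ, hy]
  exact (algebraMap ℚbar F).injective h2

variable (N : ℕ) [NeZero N]

/-- **(R1), `H`-rational trivialisation**: an `H`-fixed function which is `c₀ · gᵖ` over `ℚ̄` is
`c · hᵖ` with `c` and `h` fixed by `H`; moreover `h` has leading `q`-coefficient `1`. -/
theorem S40F2T_rat (p : ℕ) (hp : 0 < p) (H : Set GQ)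
    (f : ↥(modularFunctionFieldBar N)) (hf0 : f ≠ 0)
    (hfix : ∀ τ ∈ H, GR_gal N τ f = f)
    (htriv : GR_IsTriv N p f) :
    ∃ (c : ℚbar) (h : ↥(modularFunctionFieldBar N)), c ≠ 0 ∧ h ≠ 0 ∧
      f = algebraMap ℚbar ↥(modularFunctionFieldBar N) c * h ^ p ∧
      (∀ τ ∈ H, τ c = c) ∧ (∀ τ ∈ H, GR_gal N τ h = h) ∧
      (h : LaurentSeries ℚbar).coeff (h : LaurentSeries ℚbar).order = 1 := by
  classical
  obtain ⟨c₀, g, hc₀, hg, hfg⟩ := htriv
  have hcoe0 : ((g : ↥(modularFunctionFieldBar N)) : LaurentSeries ℚbar) ≠ 0 := by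
    intro h0
    exact hg (Subtype.ext h0)
  set k₀ : ℤ := ((g : ↥(modularFunctionFieldBar N)) : LaurentSeries ℚbar).order with hk₀
  set a₀ : ℚbar := ((g : ↥(modularFunctionFieldBar N)) : LaurentSeries ℚbar).coeff k₀ with ha₀
  have ha₀0 : a₀ ≠ 0 := mt HahnSeries.coeff_order_eq_zero.mp hcoe0
  have hc0 : algebraMap ℚbar ↥(modularFunctionFieldBar N) a₀⁻¹ ≠ 0 := by
    rw [Ne, map_eq_zero]
    exact inv_ne_zero ha₀0
  set h : ↥(modularFunctionFieldBar N) :=
    algebraMap ℚbar ↥(modularFunctionFieldBar N) a₀⁻¹ * g with hh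
  have hh0 : h ≠ 0 := mul_ne_zero hc0 hg
  have hhp : h ^ p ≠ 0 := pow_ne_zero _ hh0
  set c : ℚbar := c₀ * a₀ ^ p with hc
  have hcne : c ≠ 0 := mul_ne_zero hc₀ (pow_ne_zero _ ha₀0)
  have hfch : f = algebraMap ℚbar ↥(modularFunctionFieldBar N) c * h ^ p := by
    rw [hfg, hc, hh, mul_pow, ← map_pow, ← mul_assoc, ← map_mul]
    congr 2
    rw [inv_pow, mul_assoc, mul_inv_cancel₀ (pow_ne_zero _ ha₀0), mul_one]
  -- the `q`-order and the leading coefficient of `h`
  have hcoeffh : ∀ k : ℤ, ((h : ↥(modularFunctionFieldBar N)) : LaurentSeries ℚbar).coeff k =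
      a₀⁻¹ * ((g : ↥(modularFunctionFieldBar N)) : LaurentSeries ℚbar).coeff k := fun k => by
    rw [hh, S36LD_coeff_const_mul]
  have hhcoe0 : ((h : ↥(modularFunctionFieldBar N)) : LaurentSeries ℚbar) ≠ 0 := by
    intro h0
    exact hh0 (Subtype.ext h0)
  have hlead : ((h : ↥(modularFunctionFieldBar N)) : LaurentSeries ℚbar).coeff k₀ = 1 := by
    rw [hcoeffh, ← ha₀, inv_mul_cancel₀ ha₀0]
  have hord : ((h : ↥(modularFunctionFieldBar N)) : LaurentSeries ℚbar).order = k₀ := by
    apply le_antisymm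
    · apply HahnSeries.order_le_of_coeff_ne_zero
      rw [hlead]
      exact one_ne_zero
    · by_contra hlt
      rw [not_le] at hlt
      have h1 : ((h : ↥(modularFunctionFieldBar N)) : LaurentSeries ℚbar).coeff
          ((h : ↥(modularFunctionFieldBar N)) : LaurentSeries ℚbar).order ≠ 0 :=
        mt HahnSeries.coeff_order_eq_zero.mp hhcoe0
      apply h1
      rw [hcoeffh, HahnSeries.coeff_eq_zero_of_lt_order (by rw [← hk₀]; exact hlt), mul_zero]
  clear_value h c
  -- invariance of `h`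
  have hhfix : ∀ τ ∈ H, GR_gal N τ h = h := by
    intro τ hτ
    have hτh0 : GR_gal N τ h ≠ 0 :=
      fun h0 => hh0 ((map_eq_zero_iff (GR_gal N τ) (GR_gal N τ).injective).mp h0)
    have hτc0 : τ c ≠ 0 := by
      rw [Ne, map_eq_zero]
      exact hcne
    have h1 : algebraMap ℚbar ↥(modularFunctionFieldBar N) (τ c) * (GR_gal N τ h) ^ p =
        algebraMap ℚbar ↥(modularFunctionFieldBar N) c * h ^ p := by
      rw [← hfch, ← S36LD_gal_algebraMap, ← map_pow, ← map_mul, ← hfch]
      exact hfix τ hτ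
    have hτc0' : algebraMap ℚbar ↥(modularFunctionFieldBar N) (τ c) ≠ 0 := by
      rw [Ne, map_eq_zero]
      exact hτc0
    have h2 : (GR_gal N τ h * h⁻¹) ^ p =
        algebraMap ℚbar ↥(modularFunctionFieldBar N) (c * (τ c)⁻¹) := by
      have h1' : (GR_gal N τ h) ^ p =
          (algebraMap ℚbar ↥(modularFunctionFieldBar N) (τ c))⁻¹ *
            (algebraMap ℚbar ↥(modularFunctionFieldBar N) c * h ^ p) := by
        rw [← h1, ← mul_assoc, inv_mul_cancel₀ hτc0', one_mul]
      rw [mul_pow, inv_pow, h1', map_mul (algebraMap ℚbar ↥(modularFunctionFieldBar N)),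
        map_inv₀, mul_assoc, mul_assoc, mul_inv_cancel₀ hhp, mul_one, mul_comm]
    obtain ⟨ζ, hζ, -⟩ := S40F2T_const_of_pow hp _ _ h2
    have h3 : GR_gal N τ h = algebraMap ℚbar ↥(modularFunctionFieldBar N) ζ * h := by
      rw [← hζ, mul_assoc, inv_mul_cancel₀ hh0, mul_one]
    have hcoef := congrArg (fun x : ↥(modularFunctionFieldBar N) =>
      ((x : ↥(modularFunctionFieldBar N)) : LaurentSeries ℚbar).coeff k₀) h3
    simp only [S36LD_coeff_gal, S36LD_coeff_const_mul] at hcoef
    rw [hlead, map_one, mul_one] at hcoef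
    rw [h3, ← hcoef, map_one, one_mul]
  refine ⟨c, h, hcne, hh0, hfch, ?_, hhfix, ?_⟩
  · intro τ hτ
    have h1 : algebraMap ℚbar ↥(modularFunctionFieldBar N) (τ c) * h ^ p =
        algebraMap ℚbar ↥(modularFunctionFieldBar N) c * h ^ p := by
      have h2 := hfix τ hτ
      rw [hfch, map_mul, map_pow, S36LD_gal_algebraMap, hhfix τ hτ] at h2
      exact h2
    exact (algebraMap ℚbar ↥(modularFunctionFieldBar N)).injective (mul_right_cancel₀ hhp h1)
  · rw [hord, hlead]

/-- **(R1)** without the normalisation clause. -/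
theorem S40F2T_rat' (p : ℕ) (hp : 0 < p) (H : Set GQ)
    (f : ↥(modularFunctionFieldBar N)) (hf0 : f ≠ 0)
    (hfix : ∀ τ ∈ H, GR_gal N τ f = f)
    (htriv : GR_IsTriv N p f) :
    ∃ (c : ℚbar) (h : ↥(modularFunctionFieldBar N)), c ≠ 0 ∧ h ≠ 0 ∧
      f = algebraMap ℚbar ↥(modularFunctionFieldBar N) c * h ^ p ∧
      (∀ τ ∈ H, τ c = c) ∧ (∀ τ ∈ H, GR_gal N τ h = h) := by
  obtain ⟨c, h, h1, h2, h3, h4, h5, -⟩ := S40F2T_rat N p hp H f hf0 hfix htriv
  exact ⟨c, h, h1, h2, h3, h4, h5⟩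

end

end Fermat.Agent.S40
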