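import Fermat.Agent.S33.NewDisc
import Fermat.Agent.S33.NewLocBridgeInst
import Fermat.Agent.S19.Teich
import Fermat.Agent.S40.F2C
import Fermat.Agent.S40.F2T

/-!
# TRACK 13 (S40), package P7 (helper17): the hypothesis (R1) of `S40/PTInst.lean`, INSTANCE

Level `M p`, `p ∤ M` prime, `A ⊂ Ω = ℚ̄` a valuation ring over `p`, `H ≤ Gal(Ω/ℚ)` any subgroup
with a uniformiser `ϖ` of `A ∩ Ω^H` (`S33NL2_Unif A H ϖ`), `O₁ = (S34M_T1 …).O`,
`O₂ = (S34M_T2 …).O` the two Gauss valuation rings of `F = ℚ̄(X₀(Mp))`.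

* `S40F2CI_val_const` : `v_O(const a) < 1 ↔ v_A(a) < 1`;
* `S40F2CI_fin`       : unit constants have residues of finite order prime to `p`
                        (`S19TE_exists_order`);
* `S40F2CI_gen`       : (c') for any `S18_Val` over `A` which is discrete on `F^H`;
* `S40F2CI_dv1`, `S40F2CI_dv2` : `O₁`, `O₂` are discrete on `F^H` (valuation form);
* `S40F2CI_V1`, `S40F2CI_V2`   : **(c')** at `V₁`, `V₂`: `h ∈ F^H`, `c ∈ Ω^H`, `c hᵖ ≡ 1` mod `𝔪`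
                        ⇒ `h = a₀ (1 + ϖ g)`, `a₀ ∈ Ω^H`, `g ∈ O_i ∩ F^H`, `c a₀ᵖ ∈ A`, `≡ 1`;
* `S40F2CI_R1_V1`, `S40F2CI_R1_V2` : **(R1)**: an `H`-fixed `f ≡ 1` mod `𝔪_{O_i}` which is a
                        trivial Kummer generator over `ℚ̄` is `c · hᵖ` with `h = a₀ (1 + ϖ g)` as
                        above: exactly the hypotheses `hN`, `hH`, `hg`, `hca` of `S40PTI_V1/_V2`
                        (with `π := ϖ`, `f := N₁₂ u` resp. `N₂₁ u`).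
-/

set_option autoImplicit false
set_option linter.unusedSectionVars false
set_option linter.unusedVariables false
set_option linter.style.haveILetI false
set_option synthInstance.maxHeartbeats 400000
set_option maxHeartbeats 1000000

open HahnSeries ModularCurve IntermediateField

namespace Fermat.Agent.S40

open Fermat.Agent.S18 Fermat.Agent.S24 Fermat.Agent.S34 Fermat.Agent.S36 Fermat.Agent.GalRep
  Fermat.Agent.S33 Fermat.Agent.S19

local notation "Ω" => AlgebraicClosure ℚ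

section inst

variable (M p : ℕ) [NeZero (M * p)] (hp : p.Prime) (hpM : ¬ p ∣ M)
  (A : ValuationSubring Ω) (hA : A.LiesOverPrime p)
  (hgen : PrincipalGeneratedByIntegral A (IsLocalRing.residue A) (M * p))
  (H : Subgroup (Ω ≃ₐ[ℚ] Ω)) {ϖ : Ω}

/-- the `H`-fixed constants as a subfield of `F`. -/
noncomputable def S40F2CI_C : Subfield ↥(modularFunctionFieldBar (M * p)) :=
  ((S36FI_act (M * p) H).fixK).map (algebraMap Ω ↥(modularFunctionFieldBar (M * p)))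

theorem S40F2CI_C_le : S40F2CI_C M p H ≤ (S36FI_act (M * p) H).fixF := by
  rintro x ⟨c, hc, rfl⟩
  have hc' : c ∈ (S36FI_act (M * p) H).fixK := hc
  rw [S36FI_mem_fixK] at hc'
  rw [S36FI_mem_fixF]
  intro σ hσ
  rw [arithmeticRingAut_algebraMap, hc' σ hσ]

theorem S40F2CI_mem_C {c : Ω} (hc : c ∈ (S36FI_act (M * p) H).fixK) :
    algebraMap Ω ↥(modularFunctionFieldBar (M * p)) c ∈ S40F2CI_C M p H :=
  ⟨c, hc, rfl⟩

/-- `v_O(a) < 1 ↔ v_A(a) < 1` for a constant `a`. -/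
theorem S40F2CI_val_const {k Fk : Type*} [Field k] [Field Fk] [Algebra k Fk]
    (T : S18_Val Ω ↥(modularFunctionFieldBar (M * p)) k Fk) (hT : T.A = A) (a : Ω) :
    T.O.valuation (algebraMap Ω ↥(modularFunctionFieldBar (M * p)) a) < 1 ↔
      A.valuation a < 1 := by
  subst hT
  rw [S33N0B_val_lt_one_iff, S33N0B_val_lt_one_iff, ← map_inv₀, T.algebraMap_mem_iff,
    map_eq_zero]

/-- `v_O(a) = 1 → a, a⁻¹ ∈ A` for a constant `a`. -/
theorem S40F2CI_unit_const {k Fk : Type*} [Field k] [Field Fk] [Algebra k Fk]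
    (T : S18_Val Ω ↥(modularFunctionFieldBar (M * p)) k Fk) (hT : T.A = A) (a : Ω)
    (ha : T.O.valuation (algebraMap Ω ↥(modularFunctionFieldBar (M * p)) a) = 1) :
    a ∈ A ∧ A.valuation a = 1 := by
  subst hT
  have h1 : a ∈ T.A := (T.algebraMap_mem_iff a).1 ((T.O.valuation_le_one_iff _).mp ha.le)
  refine ⟨h1, ?_⟩
  rcases lt_or_eq_of_le ((T.A.valuation_le_one_iff a).mpr h1) with h | h
  · have := (S40F2CI_val_const M p T.A T rfl a).2 h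
    rw [ha] at this
    exact absurd this (lt_irrefl _)
  · exact h

include hp hA in
/-- unit constants have residues of finite order prime to `p`. -/
theorem S40F2CI_fin {k Fk : Type*} [Field k] [Field Fk] [Algebra k Fk]
    (T : S18_Val Ω ↥(modularFunctionFieldBar (M * p)) k Fk) (hT : T.A = A)
    (c : ↥(modularFunctionFieldBar (M * p))) (hcC : c ∈ S40F2CI_C M p H)
    (hc1 : T.O.valuation c = 1) :
    ∃ m : ℕ, 0 < m ∧ m.Coprime p ∧ T.O.valuation (c ^ m - 1) < 1 := by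
  obtain ⟨c, -, rfl⟩ := hcC
  obtain ⟨hcA, hvc⟩ := S40F2CI_unit_const M p A T hT c hc1
  have hres : IsLocalRing.residue A ⟨c, hcA⟩ ≠ 0 := by
    intro h0
    rw [IsLocalRing.residue_eq_zero_iff, ValuationSubring.valuation_lt_one_iff] at h0
    have h1 : A.valuation c < 1 := h0
    rw [hvc] at h1
    exact absurd h1 (lt_irrefl _)
  haveI : Algebra.IsAlgebraic ℚ Ω := AlgebraicClosure.isAlgebraic ℚ
  obtain ⟨m, hm, hmk, hcm⟩ := S19TE_exists_order A hp hA _ hres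
  have hp0 : ((p : ℕ) : IsLocalRing.ResidueField A) = 0 := S19TE_cast_eq_zero A hA
  refine ⟨m, hm, ?_, ?_⟩
  · refine ((Nat.Prime.coprime_iff_not_dvd hp).2 ?_).symm
    rintro ⟨j, rfl⟩
    apply hmk
    rw [Nat.cast_mul, hp0, zero_mul]
  · have h1 : A.valuation (c ^ m - 1) < 1 := by
      have h2 : IsLocalRing.residue A (⟨c, hcA⟩ ^ m - 1) = 0 := by
        rw [map_sub, map_pow, map_one]
        exact sub_eq_zero.mpr hcm
      rw [IsLocalRing.residue_eq_zero_iff, ValuationSubring.valuation_lt_one_iff] at h2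
      exact h2
    have h3 := (S40F2CI_val_const M p A T hT (c ^ m - 1)).2 h1
    rwa [map_sub, map_pow, map_one] at h3

include hp hA in
/-- **(c')** for any `S18_Val` over `A` which is discrete on `F^H` with uniformiser `ϖ`. -/
theorem S40F2CI_gen {k Fk : Type*} [Field k] [Field Fk] [Algebra k Fk]
    (T : S18_Val Ω ↥(modularFunctionFieldBar (M * p)) k Fk) (hT : T.A = A)
    (hU : S33NL2_Unif A H ϖ)
    (hdv : ∀ x ∈ (S36FI_act (M * p) H).fixF, x ≠ 0 → ∃ k : ℤ,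
      T.O.valuation (x * algebraMap Ω ↥(modularFunctionFieldBar (M * p)) ϖ ^ k) = 1)
    (h : ↥(modularFunctionFieldBar (M * p))) (c : Ω)
    (hh : h ∈ (S36FI_act (M * p) H).fixF) (hc : c ∈ (S36FI_act (M * p) H).fixK)
    (hch : T.O.valuation
      (algebraMap Ω ↥(modularFunctionFieldBar (M * p)) c * h ^ p - 1) < 1) :
    ∃ (a₀ : Ω) (g : ↥(modularFunctionFieldBar (M * p))),
      a₀ ∈ (S36FI_act (M * p) H).fixK ∧ g ∈ (S36FI_act (M * p) H).fixF ∧ g ∈ T.O ∧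
      h = algebraMap Ω ↥(modularFunctionFieldBar (M * p)) a₀ *
        (1 + algebraMap Ω ↥(modularFunctionFieldBar (M * p)) ϖ * g) ∧
      c * a₀ ^ p ∈ A ∧ A.valuation (c * a₀ ^ p - 1) < 1 := by
  have hϖK : ϖ ∈ (S36FI_act (M * p) H).fixK := (S36FI_mem_fixK (M * p) H).2 hU.fixed
  have hϖ0 : algebraMap Ω ↥(modularFunctionFieldBar (M * p)) ϖ ≠ 0 :=
    (map_ne_zero _).mpr hU.ne_zero
  have hϖ1 : T.O.valuation (algebraMap Ω ↥(modularFunctionFieldBar (M * p)) ϖ) < 1 :=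
    (S40F2CI_val_const M p A T hT ϖ).2 hU.lt_one
  have hpO : T.O.valuation ((p : ℕ) : ↥(modularFunctionFieldBar (M * p))) < 1 := by
    have h1 : A.valuation ((p : ℕ) : Ω) < 1 := by
      have h2 : ((p : ℕ) : Ω) ∈ A.nonunits := hA
      exact (ValuationSubring.mem_nonunits_iff _).mp h2
    have h3 := (S40F2CI_val_const M p A T hT ((p : ℕ) : Ω)).2 h1
    rwa [map_natCast] at h3
  obtain ⟨a₀F, ha₀C, g, hg, hvg, hhg, hca⟩ := S40F2C_main T.O (S36FI_act (M * p) H).fixF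
    (S40F2CI_C M p H) (S40F2CI_C_le M p H)
    (algebraMap Ω ↥(modularFunctionFieldBar (M * p)) ϖ) (S40F2CI_mem_C M p H hϖK) hϖ0 hϖ1 hp hpO
    hdv (fun c hc hc1 => S40F2CI_fin M p hp A hA H T hT c hc hc1) h
    (algebraMap Ω ↥(modularFunctionFieldBar (M * p)) c) hh (S40F2CI_mem_C M p H hc) hch
  obtain ⟨a₀, ha₀, rfl⟩ := ha₀C
  have hca' : A.valuation (c * a₀ ^ p - 1) < 1 := by
    rw [← S40F2CI_val_const M p A T hT, map_sub, map_mul, map_pow, map_one]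
    exact hca
  refine ⟨a₀, g, ha₀, hg, (T.O.valuation_le_one_iff g).mp hvg, hhg, ?_, hca'⟩
  have e : c * a₀ ^ p = (c * a₀ ^ p - 1) + 1 := by ring
  rw [e]
  exact A.add_mem _ _ ((A.valuation_le_one_iff _).mp hca'.le) A.one_mem

/-- `y, y⁻¹ ∈ O`, `y ≠ 0` ⇒ `v(y) = 1`. -/
theorem S40F2CI_val_one {F : Type*} [Field F] (O : ValuationSubring F) {y : F} (hy0 : y ≠ 0)
    (h1 : y ∈ O) (h2 : y⁻¹ ∈ O) : O.valuation y = 1 := by
  refine le_antisymm ((O.valuation_le_one_iff y).mpr h1) ?_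
  have h3 : O.valuation y⁻¹ ≤ 1 := (O.valuation_le_one_iff _).mpr h2
  rw [map_inv₀] at h3
  have h0 : O.valuation y ≠ 0 := (map_ne_zero _).mpr hy0
  exact (inv_le_one₀ (zero_lt_iff.mpr h0)).mp h3

include hp hpM hA in
/-- `O₁` is discrete on `F^H` (valuation form). -/
theorem S40F2CI_dv1 (hU : S33NL2_Unif A H ϖ) :
    ∀ x ∈ (S36FI_act (M * p) H).fixF, x ≠ 0 → ∃ k : ℤ,
      (S34M_T1 M p A hgen).O.valuation
        (x * algebraMap Ω ↥(modularFunctionFieldBar (M * p)) ϖ ^ k) = 1 := by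
  intro x hx hx0
  haveI : NeZero p := ⟨hp.ne_zero⟩
  haveI : NeZero M := ⟨fun h0 => NeZero.ne (M * p) (by rw [h0, zero_mul])⟩
  have hϖ0 : algebraMap Ω ↥(modularFunctionFieldBar (M * p)) ϖ ≠ 0 :=
    (map_ne_zero _).mpr hU.ne_zero
  obtain ⟨k, hk1, hk2⟩ := S33NL2_dv_F M p hp A hA H hU x hx hx0
  rw [map_zpow₀] at hk1 hk2
  refine ⟨k, S40F2CI_val_one _ (mul_ne_zero hx0 (zpow_ne_zero _ hϖ0)) ?_ ?_⟩
  · rw [S34M_T1_O]
    exact S36NR_G_le_S18 M p hp hpM A hA hk1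
  · rw [S34M_T1_O]
    exact S36NR_G_le_S18 M p hp hpM A hA hk2

include hA in
/-- `O₂` is discrete on `F^H` (valuation form). -/
theorem S40F2CI_dv2 (hU : S33NL2_Unif A H ϖ) :
    ∀ x ∈ (S36FI_act (M * p) H).fixF, x ≠ 0 → ∃ k : ℤ,
      (S34M_T2 M p hp hpM A hgen).O.valuation
        (x * algebraMap Ω ↥(modularFunctionFieldBar (M * p)) ϖ ^ k) = 1 := by
  intro x hx hx0
  haveI : NeZero p := ⟨hp.ne_zero⟩
  haveI : NeZero M := ⟨fun h0 => NeZero.ne (M * p) (by rw [h0, zero_mul])⟩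
  have hϖ0 : algebraMap Ω ↥(modularFunctionFieldBar (M * p)) ϖ ≠ 0 :=
    (map_ne_zero _).mpr hU.ne_zero
  have hwx : S34DF_wq M p hp hpM x ∈ (S36FI_act (M * p) H).fixF :=
    S33NL2_wq_fix M p hp hpM H x hx
  have hwx0 : S34DF_wq M p hp hpM x ≠ 0 := (map_ne_zero _).mpr hx0
  obtain ⟨k, hk1, hk2⟩ := S33NL2_dv_F M p hp A hA H hU _ hwx hwx0
  rw [map_zpow₀] at hk1 hk2
  have e : S34DF_wq M p hp hpM (x * algebraMap Ω ↥(modularFunctionFieldBar (M * p)) ϖ ^ k) =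
      S34DF_wq M p hp hpM x * algebraMap Ω ↥(modularFunctionFieldBar (M * p)) ϖ ^ k := by
    rw [map_mul, map_zpow₀, AlgEquiv.commutes]
  refine ⟨k, S40F2CI_val_one _ (mul_ne_zero hx0 (zpow_ne_zero _ hϖ0)) ?_ ?_⟩
  · rw [S34M_T2_O]
    show S34DF_wq M p hp hpM _ ∈ S18_O A (M * p)
    rw [e]
    exact S36NR_G_le_S18 M p hp hpM A hA hk1
  · rw [S34M_T2_O]
    show S34DF_wq M p hp hpM _ ∈ S18_O A (M * p)
    rw [map_inv₀, e]
    exact S36NR_G_le_S18 M p hp hpM A hA hk2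

include hp hpM hA in
/-- **(c') at `V₁`**. -/
theorem S40F2CI_V1 (hU : S33NL2_Unif A H ϖ)
    (h : ↥(modularFunctionFieldBar (M * p))) (c : Ω)
    (hh : ∀ τ ∈ H, GR_gal (M * p) τ h = h) (hc : ∀ τ ∈ H, τ c = c)
    (hch : (S34M_T1 M p A hgen).O.valuation
      (algebraMap Ω ↥(modularFunctionFieldBar (M * p)) c * h ^ p - 1) < 1) :
    ∃ (a₀ : Ω) (g : ↥(modularFunctionFieldBar (M * p))),
      (∀ τ ∈ H, τ a₀ = a₀) ∧ (∀ τ ∈ H, GR_gal (M * p) τ g = g) ∧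
      g ∈ (S34M_T1 M p A hgen).O ∧
      h = algebraMap Ω ↥(modularFunctionFieldBar (M * p)) a₀ *
        (1 + algebraMap Ω ↥(modularFunctionFieldBar (M * p)) ϖ * g) ∧
      c * a₀ ^ p ∈ A ∧ A.valuation (c * a₀ ^ p - 1) < 1 := by
  obtain ⟨a₀, g, h1, h2, h3, h4, h5, h6⟩ := S40F2CI_gen M p hp A hA H (S34M_T1 M p A hgen) rfl hU
    (S40F2CI_dv1 M p hp hpM A hA hgen H hU) h c ((S36FI_mem_fixF (M * p) H).2 hh)
    ((S36FI_mem_fixK (M * p) H).2 hc) hch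
  exact ⟨a₀, g, (S36FI_mem_fixK (M * p) H).1 h1, (S36FI_mem_fixF (M * p) H).1 h2, h3, h4, h5, h6⟩

include hA in
/-- **(c') at `V₂`**. -/
theorem S40F2CI_V2 (hU : S33NL2_Unif A H ϖ)
    (h : ↥(modularFunctionFieldBar (M * p))) (c : Ω)
    (hh : ∀ τ ∈ H, GR_gal (M * p) τ h = h) (hc : ∀ τ ∈ H, τ c = c)
    (hch : (S34M_T2 M p hp hpM A hgen).O.valuation
      (algebraMap Ω ↥(modularFunctionFieldBar (M * p)) c * h ^ p - 1) < 1) :
    ∃ (a₀ : Ω) (g : ↥(modularFunctionFieldBar (M * p))),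
      (∀ τ ∈ H, τ a₀ = a₀) ∧ (∀ τ ∈ H, GR_gal (M * p) τ g = g) ∧
      g ∈ (S34M_T2 M p hp hpM A hgen).O ∧
      h = algebraMap Ω ↥(modularFunctionFieldBar (M * p)) a₀ *
        (1 + algebraMap Ω ↥(modularFunctionFieldBar (M * p)) ϖ * g) ∧
      c * a₀ ^ p ∈ A ∧ A.valuation (c * a₀ ^ p - 1) < 1 := by
  obtain ⟨a₀, g, h1, h2, h3, h4, h5, h6⟩ := S40F2CI_gen M p hp A hA H
    (S34M_T2 M p hp hpM A hgen) rfl hU
    (S40F2CI_dv2 M p hp hpM A hA hgen H hU) h c ((S36FI_mem_fixF (M * p) H).2 hh)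
    ((S36FI_mem_fixK (M * p) H).2 hc) hch
  exact ⟨a₀, g, (S36FI_mem_fixK (M * p) H).1 h1, (S36FI_mem_fixF (M * p) H).1 h2, h3, h4, h5, h6⟩

/-- `v(f - 1) < 1` ⇒ `f ≠ 0`. -/
theorem S40F2CI_ne_zero {F : Type*} [Field F] (O : ValuationSubring F) {f : F}
    (hf : O.valuation (f - 1) < 1) : f ≠ 0 := by
  rintro rfl
  rw [zero_sub, Valuation.map_neg, map_one] at hf
  exact absurd hf (lt_irrefl _)

include hp hpM hA in
/-- **(R1) at `V₁`**: an `H`-fixed `f ≡ 1` modulo `𝔪_{O₁}` which is a trivial Kummer generator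
of exponent `p` over `ℚ̄` is `c · hᵖ`, `h = a₀ (1 + ϖ g)`, everything `H`-rational, `g ∈ O₁`,
`c a₀ᵖ ∈ A`, `c a₀ᵖ ≡ 1`: the hypotheses `hN`, `hH`, `hg`, `hca` of `S40PTI_V1` for
`f = N₁₂ u`, `π = ϖ`. -/
theorem S40F2CI_R1_V1 (hU : S33NL2_Unif A H ϖ)
    (f : ↥(modularFunctionFieldBar (M * p)))
    (hfix : ∀ τ ∈ H, GR_gal (M * p) τ f = f) (htriv : GR_IsTriv (M * p) p f)
    (hf1 : (S34M_T1 M p A hgen).O.valuation (f - 1) < 1) :
    ∃ (c a₀ : Ω) (h g : ↥(modularFunctionFieldBar (M * p))),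
      f = algebraMap Ω ↥(modularFunctionFieldBar (M * p)) c * h ^ p ∧
      h = algebraMap Ω ↥(modularFunctionFieldBar (M * p)) a₀ *
        (1 + algebraMap Ω ↥(modularFunctionFieldBar (M * p)) ϖ * g) ∧
      g ∈ (S34M_T1 M p A hgen).O ∧ c * a₀ ^ p ∈ A ∧ A.valuation (c * a₀ ^ p - 1) < 1 ∧
      (∀ τ ∈ H, τ c = c) ∧ (∀ τ ∈ H, τ a₀ = a₀) ∧ (∀ τ ∈ H, GR_gal (M * p) τ h = h) ∧
      (∀ τ ∈ H, GR_gal (M * p) τ g = g) := by
  obtain ⟨c, h, -, -, hfch, hcfix, hhfix, -⟩ := S40F2T_rat (M * p) p hp.pos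
    (H : Set (Ω ≃ₐ[ℚ] Ω)) f (S40F2CI_ne_zero _ hf1) (fun τ hτ => hfix τ hτ) htriv
  have hcfix' : ∀ τ ∈ H, τ c = c := fun τ hτ => hcfix τ hτ
  have hhfix' : ∀ τ ∈ H, GR_gal (M * p) τ h = h := fun τ hτ => hhfix τ hτ
  rw [hfch] at hf1
  obtain ⟨a₀, g, h1, h2, h3, h4, h5, h6⟩ :=
    S40F2CI_V1 M p hp hpM A hA hgen H hU h c hhfix' hcfix' hf1
  exact ⟨c, a₀, h, g, hfch, h4, h3, h5, h6, hcfix', h1, hhfix', h2⟩

include hA in
/-- **(R1) at `V₂`**. -/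
theorem S40F2CI_R1_V2 (hU : S33NL2_Unif A H ϖ)
    (f : ↥(modularFunctionFieldBar (M * p)))
    (hfix : ∀ τ ∈ H, GR_gal (M * p) τ f = f) (htriv : GR_IsTriv (M * p) p f)
    (hf1 : (S34M_T2 M p hp hpM A hgen).O.valuation (f - 1) < 1) :
    ∃ (c a₀ : Ω) (h g : ↥(modularFunctionFieldBar (M * p))),
      f = algebraMap Ω ↥(modularFunctionFieldBar (M * p)) c * h ^ p ∧
      h = algebraMap Ω ↥(modularFunctionFieldBar (M * p)) a₀ *
        (1 + algebraMap Ω ↥(modularFunctionFieldBar (M * p)) ϖ * g) ∧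
      g ∈ (S34M_T2 M p hp hpM A hgen).O ∧ c * a₀ ^ p ∈ A ∧ A.valuation (c * a₀ ^ p - 1) < 1 ∧
      (∀ τ ∈ H, τ c = c) ∧ (∀ τ ∈ H, τ a₀ = a₀) ∧ (∀ τ ∈ H, GR_gal (M * p) τ h = h) ∧
      (∀ τ ∈ H, GR_gal (M * p) τ g = g) := by
  obtain ⟨c, h, -, -, hfch, hcfix, hhfix, -⟩ := S40F2T_rat (M * p) p hp.pos
    (H : Set (Ω ≃ₐ[ℚ] Ω)) f (S40F2CI_ne_zero _ hf1) (fun τ hτ => hfix τ hτ) htriv
  have hcfix' : ∀ τ ∈ H, τ c = c := fun τ hτ => hcfix τ hτ
  have hhfix' : ∀ τ ∈ H, GR_gal (M * p) τ h = h := fun τ hτ => hhfix τ hτ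
  rw [hfch] at hf1
  obtain ⟨a₀, g, h1, h2, h3, h4, h5, h6⟩ :=
    S40F2CI_V2 M p hp hpM A hA hgen H hU h c hhfix' hcfix' hf1
  exact ⟨c, a₀, h, g, hfch, h4, h3, h5, h6, hcfix', h1, hhfix', h2⟩

end inst

end Fermat.Agent.S40
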