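import Fermat.Agent.S40.F2PV
import Fermat.Agent.S40.F2CInst

/-!
# TRACK 13 (S40, row 38), hole (D-ORD): the SMOOTH lattice `R₁` of the first component
(helper12).  Prefix `S40SL_`.

Level `M p`, `p ∤ M` prime, `A ⊂ ℚ̄` a valuation ring over `p`, `H ≤ G_ℚ` with `p` a uniformiser of
`A ∩ ℚ̄^H` (`hU : S33NL2_Unif A H p`; true for `H = I_A`: `S40F2PV_unif`), `F'' = fixF(H)`
(`S33NX_F`), `O₁''` (`S33NX_O … 0`) the first Gauss valuation ring of `F''`, `U = {j ≠ ∞}`.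

* `S40SL_R1` : `R₁ = O₁'' ∩ B` — the functions of `F''` which are `V₁`-integral and regular on `U`
  (NO condition at `V₂`): the chart ring of the smooth locus of the first component.
* `S40SL_Lam_le` : `Λ ≤ R₁`;  `S40SL_const_mem`, `S40SL_pi_mem`, `S40SL_f0_mem`, `S40SL_phi_mem`.
* `S40SL_cart` (**cart₁**): `x ∈ R₁`, `red₁ x = 0` ⇒ `x = p · t` with `t ∈ R₁`.
* `S40SL_trick` (**`φ₀`-trick**): `∀ x ∈ R₁, ∃ m, x · φ₀ ^ m ∈ Λ`  (`φ₀ = f₀⁻¹`, `V₂(φ₀) = 12`).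
* the same in the FULL function field `F`: `S40SL_R` (`= R₁` as a subring of `F`),
  `S40SL_mem_R`, `S40SL_R_const`, `S40SL_R_cart` (shape of `cart` of `S40F2N7_Disc` for the
  degenerate node `O₂ := O₁`), `S40SL_R_trick`.
-/

set_option autoImplicit false
set_option synthInstance.maxHeartbeats 400000
set_option maxHeartbeats 1000000
set_option linter.unusedSectionVars false
set_option linter.unusedVariables false
set_option linter.style.haveILetI false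

open HahnSeries IntermediateField AlgebraicCurve ModularCurve

noncomputable section

namespace Fermat.Agent.S40

open Fermat.Agent.Lib Fermat.Agent.S18 Fermat.Agent.S24 Fermat.Agent.S34 Fermat.Agent.S36
  Fermat.Agent.GalRep Fermat.Agent.S33

local notation "Ω" => AlgebraicClosure ℚ

section inst

variable (M p : ℕ) [NeZero (M * p)] [NeZero p] (hp : p.Prime) (hpM : ¬ p ∣ M)
  (A : ValuationSubring Ω) (hA : A.LiesOverPrime p)
  (hgen : PrincipalGeneratedByIntegral A (IsLocalRing.residue A) (M * p))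
  (H : Subgroup (Ω ≃ₐ[ℚ] Ω))

/-- **the smooth lattice `R₁`**: the functions of `F''` which are `V₁`-integral and regular on
`U = {j ≠ ∞}`. -/
def S40SL_R1 : Subring (S33NX_F M p H) :=
  S33NX_O M p hp hpM A hgen H 0 ⊓ (S33NX_B M p).toSubring.comap (S33NX_incl M p H)

theorem S40SL_mem_R1 (f : S33NX_F M p H) :
    f ∈ S40SL_R1 M p hp hpM A hgen H ↔
      (f : ↥(modularFunctionFieldBar (M * p))) ∈ (S34M_T1 M p A hgen).O ∧
        (f : ↥(modularFunctionFieldBar (M * p))) ∈ S33NX_B M p := by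
  constructor
  · rintro ⟨h1, h2⟩
    exact ⟨(S33NX_mem_O_zero M p hp hpM A hgen H f).1 h1, h2⟩
  · rintro ⟨h1, h2⟩
    exact ⟨(S33NX_mem_O_zero M p hp hpM A hgen H f).2 h1, h2⟩

theorem S40SL_mem_O₁ {f : S33NX_F M p H} (hf : f ∈ S40SL_R1 M p hp hpM A hgen H) :
    f ∈ S33NX_O M p hp hpM A hgen H 0 := hf.1

theorem S40SL_mem_T1 {f : S33NX_F M p H} (hf : f ∈ S40SL_R1 M p hp hpM A hgen H) :
    (f : ↥(modularFunctionFieldBar (M * p))) ∈ (S34M_T1 M p A hgen).O :=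
  ((S40SL_mem_R1 M p hp hpM A hgen H f).1 hf).1

theorem S40SL_mem_B {f : S33NX_F M p H} (hf : f ∈ S40SL_R1 M p hp hpM A hgen H) :
    (f : ↥(modularFunctionFieldBar (M * p))) ∈ S33NX_B M p :=
  ((S40SL_mem_R1 M p hp hpM A hgen H f).1 hf).2

/-- **`Λ ≤ R₁`**. -/
theorem S40SL_Lam_le : S33NX_Lam M p hp hpM A hgen H ≤ S40SL_R1 M p hp hpM A hgen H := by
  intro f hf
  obtain ⟨h1, h2⟩ := (S33NX_mem_Lam M p hp hpM A hgen H f).1 hf
  exact ⟨h1.1, h2⟩

/-- the `H`-fixed constants of `A` lie in `R₁`. -/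
theorem S40SL_const_mem {c : Ω} (hc : c ∈ (S36FI_act (M * p) H).fixK) (hcA : c ∈ A) :
    S33NX_const M p H c hc ∈ S40SL_R1 M p hp hpM A hgen H :=
  S40SL_Lam_le M p hp hpM A hgen H (S33ND_const_mem_Lam M p hp hpM A hgen H hc hcA)

include hA in
theorem S40SL_pi_mem : S40F2PV_pi M p H ∈ S40SL_R1 M p hp hpM A hgen H :=
  S40SL_Lam_le M p hp hpM A hgen H (S40F2PV_pi_mem_Lam M p hp hpM A hA hgen H)

include hA in
/-- `f₀ ∈ R₁` (NOT in `Λ`: `V₂(f₀) = −12`). -/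
theorem S40SL_f0_mem : S40F2PV_f0 M p H ∈ S40SL_R1 M p hp hpM A hgen H :=
  ⟨S40F2PV_f0_mem_O₁ M p hp hpM A hA hgen H, S40F2PV_f0_mem_B M p⟩

include hA in
theorem S40SL_phi_mem : S40F2PV_phi M p H ∈ S40SL_R1 M p hp hpM A hgen H :=
  S40SL_Lam_le M p hp hpM A hgen H (S40F2PV_phi_mem_Lam M p hp hpM A hA hgen H)

include hA in
/-- **cart₁**: a function of `R₁` with `red₁ = 0` is `p · t` with `t ∈ R₁`. -/
theorem S40SL_cart (hU : S33NL2_Unif A H (p : Ω)) (x : S33NX_F M p H)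
    (hx : x ∈ S40SL_R1 M p hp hpM A hgen H)
    (h : (x : ↥(modularFunctionFieldBar (M * p))) ∈ (S34M_T1 M p A hgen).O)
    (hred : (S34M_T1 M p A hgen).red ⟨(x : ↥(modularFunctionFieldBar (M * p))), h⟩ = 0) :
    ∃ t ∈ S40SL_R1 M p hp hpM A hgen H, x = S40F2PV_pi M p H * t := by
  obtain ⟨t, ht, e⟩ := S33LF_div_of_red (S34M_T1 M p A hgen) (S36FI_act (M * p) H).fixF
    (S33NX_O M p hp hpM A hgen H 0) (S33NX_mem_O_zero M p hp hpM A hgen H) (S40F2PV_pi M p H)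
    (S33ND_isDV_zero M p hp hpM A hA hgen H hU) h hred
  rw [pow_one] at e
  refine ⟨t, ⟨ht, ?_⟩, e⟩
  show (t : ↥(modularFunctionFieldBar (M * p))) ∈ S33NX_B M p
  have hπ0 : S40F2PV_pi M p H ≠ 0 := S40F2PV_pi_ne M p H
  have e1 : t = (S40F2PV_pi M p H)⁻¹ * x := by
    rw [e, ← mul_assoc, inv_mul_cancel₀ hπ0, one_mul]
  have e2 : (t : ↥(modularFunctionFieldBar (M * p))) =
      algebraMap Ω ↥(modularFunctionFieldBar (M * p)) ((p : Ω)⁻¹) *
        (x : ↥(modularFunctionFieldBar (M * p))) := by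
    rw [e1, map_inv₀]
    rfl
  rw [e2]
  exact (S33NX_B M p).mul_mem ((S33NX_B M p).algebraMap_mem _) hx.2

include hA in
/-- the converse of cart₁. -/
theorem S40SL_red_pi_mul (hU : S33NL2_Unif A H (p : Ω)) (t : S33NX_F M p H)
    (ht : t ∈ S40SL_R1 M p hp hpM A hgen H)
    (h : ((S40F2PV_pi M p H * t : S33NX_F M p H) : ↥(modularFunctionFieldBar (M * p))) ∈
      (S34M_T1 M p A hgen).O) :
    (S34M_T1 M p A hgen).red
      ⟨((S40F2PV_pi M p H * t : S33NX_F M p H) : ↥(modularFunctionFieldBar (M * p))), h⟩ = 0 := by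
  obtain ⟨h2, e⟩ := S33LF_red_of_div (S34M_T1 M p A hgen) (S36FI_act (M * p) H).fixF
    (S33NX_O M p hp hpM A hgen H 0) (S33NX_mem_O_zero M p hp hpM A hgen H) (S40F2PV_pi M p H)
    (S33ND_isDV_zero M p hp hpM A hA hgen H hU)
    (x := S40F2PV_pi M p H * t) ⟨t, ht.1, by rw [pow_one]⟩
  exact e

include hA in
/-- **the `φ₀`-trick**: every function of `R₁` becomes a function of `Λ` after multiplication by
a power of `φ₀ = f₀⁻¹` (a unit of `O₁` and of `B`, with `V₂(φ₀) = 12 > 0`). -/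
theorem S40SL_trick (hU : S33NL2_Unif A H (p : Ω)) (x : S33NX_F M p H)
    (hx : x ∈ S40SL_R1 M p hp hpM A hgen H) :
    ∃ m : ℕ, x * S40F2PV_phi M p H ^ m ∈ S33NX_Lam M p hp hpM A hgen H := by
  have hO1 : ∀ m : ℕ, x * S40F2PV_phi M p H ^ m ∈ S33NX_O M p hp hpM A hgen H 0 := fun m =>
    Subring.mul_mem _ hx.1 (Subring.pow_mem _ (S40F2PV_phi_mem_O₁ M p hp hpM A hA hgen H) m)
  have hB : ∀ m : ℕ, ((x * S40F2PV_phi M p H ^ m : S33NX_F M p H) :
      ↥(modularFunctionFieldBar (M * p))) ∈ S33NX_B M p := fun m =>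
    (S40SL_mem_B M p hp hpM A hgen H
      (Subring.mul_mem _ hx (Subring.pow_mem _ (S40SL_phi_mem M p hp hpM A hA hgen H) m)))
  have hfin : ∀ m : ℕ, x * S40F2PV_phi M p H ^ m ∈ S33NX_O M p hp hpM A hgen H 1 →
      x * S40F2PV_phi M p H ^ m ∈ S33NX_Lam M p hp hpM A hgen H := fun m h2 =>
    (S33NX_mem_Lam M p hp hpM A hgen H _).2 ⟨⟨hO1 m, h2⟩, hB m⟩
  rcases eq_or_ne x 0 with rfl | hx0
  · exact ⟨0, by rw [zero_mul]; exact Subring.zero_mem _⟩
  have hx0' : (x : ↥(modularFunctionFieldBar (M * p))) ≠ 0 := fun h0 => hx0 (Subtype.ext h0)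
  obtain ⟨k, hk⟩ := S40F2CI_dv2 M p hp hpM A hA hgen H hU
    (x : ↥(modularFunctionFieldBar (M * p))) x.2 hx0'
  have hπ0 : S40F2PV_pi M p H ≠ 0 := S40F2PV_pi_ne M p H
  -- `y = x π ^ k ∈ O₂''`
  have hy : x * S40F2PV_pi M p H ^ k ∈ S33NX_O M p hp hpM A hgen H 1 := by
    rw [S33NX_mem_O_one]
    have e : ((x * S40F2PV_pi M p H ^ k : S33NX_F M p H) :
        ↥(modularFunctionFieldBar (M * p))) =
        (x : ↥(modularFunctionFieldBar (M * p))) *
          algebraMap Ω ↥(modularFunctionFieldBar (M * p)) (p : Ω) ^ k := by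
      rw [MulMemClass.coe_mul]
      congr 1
    rw [e]
    exact (ValuationSubring.valuation_le_one_iff _ _).1 (le_of_eq hk)
  have hπO : S40F2PV_pi M p H ∈ S33NX_O M p hp hpM A hgen H 1 :=
    S40F2PV_pi_mem_O M p hp hpM A hA hgen H 1
  refine ⟨k.toNat, hfin _ ?_⟩
  rcases le_or_gt k 0 with hk0 | hk0
  · -- `x = y π ^ (-k) ∈ O₂''`, `m = 0`
    have e0 : k.toNat = 0 := Int.toNat_eq_zero.2 hk0
    rw [e0, pow_zero, mul_one]
    have e : x = x * S40F2PV_pi M p H ^ k * S40F2PV_pi M p H ^ (-k).toNat := by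
      have h1 : ((-k).toNat : ℤ) = -k := Int.toNat_of_nonneg (by omega)
      rw [← zpow_natCast, h1, mul_assoc, ← zpow_add₀ hπ0, add_neg_cancel, zpow_zero, mul_one]
    rw [e]
    exact Subring.mul_mem _ hy (Subring.pow_mem _ hπO _)
  · -- `x φ₀ ^ k = y π ^ (11 k) g' ^ k`
    have h1 : ((k.toNat : ℕ) : ℤ) = k := Int.toNat_of_nonneg hk0.le
    have hφ : S40F2PV_phi M p H = S40F2PV_pi M p H ^ 12 * S40F2PV_g' M p H := by
      have h0 : S40F2PV_pi M p H ^ 12 ≠ 0 := pow_ne_zero _ hπ0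
      rw [S40F2PV_g', ← mul_assoc, mul_inv_cancel₀ h0, one_mul]
    have e : x * S40F2PV_phi M p H ^ k.toNat =
        x * S40F2PV_pi M p H ^ k * (S40F2PV_pi M p H ^ (11 * k.toNat) *
          S40F2PV_g' M p H ^ k.toNat) := by
      have e2 : S40F2PV_pi M p H ^ k = S40F2PV_pi M p H ^ k.toNat := by
        rw [← zpow_natCast, h1]
      rw [e2, hφ, mul_pow, ← pow_mul]
      have e3 : 12 * k.toNat = k.toNat + 11 * k.toNat := by ring
      rw [e3, _root_.pow_add]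
      ring
    rw [e]
    exact Subring.mul_mem _ hy (Subring.mul_mem _ (Subring.pow_mem _ hπO _)
      (Subring.pow_mem _ (S40F2PV_g'_mem_O₂ M p hp hpM A hA hgen H) _))

/-! ### the same in the full function field -/

/-- `R₁` as a subring of the full function field `F`. -/
def S40SL_R : Subring ↥(modularFunctionFieldBar (M * p)) :=
  (S40SL_R1 M p hp hpM A hgen H).map (S33NX_incl M p H)

theorem S40SL_mem_R {f : ↥(modularFunctionFieldBar (M * p))} :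
    f ∈ S40SL_R M p hp hpM A hgen H ↔
      f ∈ (S36FI_act (M * p) H).fixF ∧ f ∈ (S34M_T1 M p A hgen).O ∧ f ∈ S33NX_B M p := by
  constructor
  · rintro ⟨x, hx, rfl⟩
    exact ⟨x.2, S40SL_mem_T1 M p hp hpM A hgen H hx, S40SL_mem_B M p hp hpM A hgen H hx⟩
  · rintro ⟨hf, h1, h2⟩
    exact ⟨⟨f, hf⟩, (S40SL_mem_R1 M p hp hpM A hgen H _).2 ⟨h1, h2⟩, rfl⟩

/-- the image of `Λ` lies in `R`. -/
theorem S40SL_R_of_Lam (x : S33NX_F M p H) (hx : x ∈ S33NX_Lam M p hp hpM A hgen H) :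
    (x : ↥(modularFunctionFieldBar (M * p))) ∈ S40SL_R M p hp hpM A hgen H :=
  ⟨x, S40SL_Lam_le M p hp hpM A hgen H hx, rfl⟩

theorem S40SL_R_const {c : Ω} (hc : ∀ σ ∈ H, σ c = c) (hcA : c ∈ A) :
    algebraMap Ω ↥(modularFunctionFieldBar (M * p)) c ∈ S40SL_R M p hp hpM A hgen H :=
  ⟨S33NX_const M p H c ((S36FI_mem_fixK (M * p) H).2 hc),
    S40SL_const_mem M p hp hpM A hgen H _ hcA, rfl⟩

include hA in
/-- **cart₁ in `F`** (the field `cart` of `S40F2N7_Disc` at the degenerate node `O₂ := O₁`):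
`f ∈ R ∩ 𝔪₁` ⇒ `f = p · g`, `g ∈ R`. -/
theorem S40SL_R_cart (hU : S33NL2_Unif A H (p : Ω))
    (f : ↥(modularFunctionFieldBar (M * p))) (hf : f ∈ S40SL_R M p hp hpM A hgen H)
    (hn : f ∈ (S34M_T1 M p A hgen).O.nonunits) :
    ∃ g ∈ S40SL_R M p hp hpM A hgen H,
      f = algebraMap Ω ↥(modularFunctionFieldBar (M * p)) (p : Ω) * g := by
  obtain ⟨x, hx, rfl⟩ := hf
  have h : (x : ↥(modularFunctionFieldBar (M * p))) ∈ (S34M_T1 M p A hgen).O :=
    S40SL_mem_T1 M p hp hpM A hgen H hx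
  have hred : (S34M_T1 M p A hgen).red ⟨(x : ↥(modularFunctionFieldBar (M * p))), h⟩ = 0 := by
    by_contra hne
    have hu := ((S34M_T1 M p A hgen).red_ne_zero_iff _).1 hne
    rw [ValuationSubring.mem_nonunits_iff_exists_mem_maximalIdeal] at hn
    obtain ⟨hmem, hm⟩ := hn
    rw [IsLocalRing.mem_maximalIdeal, mem_nonunits_iff] at hm
    exact hm hu
  obtain ⟨t, ht, e⟩ := S40SL_cart M p hp hpM A hA hgen H hU x hx h hred
  refine ⟨(t : ↥(modularFunctionFieldBar (M * p))), ⟨t, ht, rfl⟩, ?_⟩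
  show (x : ↥(modularFunctionFieldBar (M * p))) = _
  rw [e]
  rfl

include hA in
/-- **the `φ₀`-trick in `F`**: `f ∈ R` ⇒ `f · (f₀⁻¹) ^ m` is `H`-fixed, integral for `V₁` and
`V₂`, and regular on `U`. -/
theorem S40SL_R_trick (hU : S33NL2_Unif A H (p : Ω))
    (f : ↥(modularFunctionFieldBar (M * p))) (hf : f ∈ S40SL_R M p hp hpM A hgen H) :
    ∃ (m : ℕ) (y : S33NX_F M p H), y ∈ S33NX_Lam M p hp hpM A hgen H ∧
      (y : ↥(modularFunctionFieldBar (M * p))) = f * (S36F0_f0 M p)⁻¹ ^ m := by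
  obtain ⟨x, hx, rfl⟩ := hf
  obtain ⟨m, hm⟩ := S40SL_trick M p hp hpM A hA hgen H hU x hx
  exact ⟨m, _, hm, rfl⟩

end inst

end Fermat.Agent.S40
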