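import Fermat.Agent.S40.DiscOrd
import Fermat.Agent.S40.SmLat
import Fermat.Agent.S40.F2PInst
import Fermat.Agent.S40.F2NLoc2
import Fermat.Agent.S40.NodeInst
import Fermat.Agent.S40.NodeChartX

/-!
# TRACK 13 (S40/S44, row 38), hole (D-ORD): the INSTANCE of `S40DO_Hyp` on the first chart
(helper5).  Prefix `S40DH_`.

Level `M p`, `p ∤ M`, `A ⊂ ℚ̄` over `p`, `H ≤ I_A` with `p` a uniformiser of `A ∩ ℚ̄^H`
(`hU : S33NL2_Unif A H p`; for `H = I_A`: `S40F2PV_unif`).

* `S40DH_hyp` : `S40DO_Hyp T₁ hdeg j R p j̄` for `T₁ = S34M_T1`, `R = S40SL_R` (helper12's smooth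
  lattice), `π = p`, `x = j`, `xb = j̄ = S34M_xb`: the second instance input of helper8's generic
  (D-ORD) theorem `S40DO_main'` (`S40/DiscOrd.lean`).
  `le` (`S40SL_mem_R`), `const` (`S36BL_hres`), `cart` (`S40SL_R_cart`), `lift`
  (`S40F2PI_lift₂'` with the nodes of `S40NI_exists_nodes`), `span` (`S40F2NL2_span_map`).
* `S40DH_hyp_inertia` : the same for `H = I_A`.
-/

set_option autoImplicit false
set_option synthInstance.maxHeartbeats 400000
set_option maxHeartbeats 1000000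
set_option linter.unusedSectionVars false
set_option linter.unusedVariables false
set_option linter.style.haveILetI false

open HahnSeries IntermediateField AlgebraicCurve ModularCurve

noncomputable section

namespace Fermat.Agent.S40

open Fermat.Agent.Lib Fermat.Agent.S18 Fermat.Agent.S24 Fermat.Agent.S34 Fermat.Agent.S36
  Fermat.Agent.GalRep Fermat.Agent.S33

local notation "Ω" => AlgebraicClosure ℚ

section inst

variable (M p : ℕ) [NeZero (M * p)] [NeZero p] (hp : p.Prime) (hpM : ¬ p ∣ M)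
  (A : ValuationSubring Ω) (hA : A.LiesOverPrime p)
  (hgen : PrincipalGeneratedByIntegral A (IsLocalRing.residue A) (M * p))
  (H : Subgroup (Ω ≃ₐ[ℚ] Ω)) (hH : H ≤ A.inertiaSubgroupIn ℚ)
  (hU : S33NL2_Unif A H (p : Ω))

include hA hH hU in
/-- **the instance of `S40DO_Hyp` on the first chart.** -/
theorem S40DH_hyp :
    S40DO_Hyp (S34M_T1 M p A hgen) (S18_hRR (M * p)).deg_one
      (jB (M * p) : ↥(modularFunctionFieldBar (M * p)))
      (S40SL_R M p hp hpM A hgen H) (p : Ω) (S34M_xb M p A) := by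
  have hle : ∀ f ∈ S40SL_R M p hp hpM A hgen H,
      f ∈ S40DO_Lam (S34M_T1 M p A hgen) (S18_hRR (M * p)).deg_one
        (jB (M * p) : ↥(modularFunctionFieldBar (M * p))) := by
    intro f hf
    obtain ⟨-, h1, h2⟩ := (S40SL_mem_R M p hp hpM A hgen H).1 hf
    have h3 : f ∈ S34SB_reg Ω (jB (M * p) : ↥(modularFunctionFieldBar (M * p))) := by
      rw [S34IW_reg_eq]
      exact h2
    rw [S40NA_mem_Lam]
    refine ⟨h1, h1, ?_⟩
    rintro Q ⟨v, hv, rfl⟩
    exact (S34SB_mem_reg.1 h3) v hv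
  refine ⟨hle, (ValuationSubring.mem_nonunits_iff A).2 hU.lt_one, hU.ne_zero, ?_, ?_, ?_, ?_⟩
  · -- const
    intro c
    haveI : Fact p.Prime := ⟨hp⟩
    obtain ⟨a, haL, ha⟩ := S36BL_hres (q := p) A (S36FI_act (M * p) H).fixK hA
      (fun c hc => (S36FI_mem_fixK (M * p) H).2 (fun σ hσ => hc σ (hH hσ))) c
    exact ⟨(a : Ω), a.2,
      S40SL_R_const M p hp hpM A hgen H ((S36FI_mem_fixK (M * p) H).1 haL) a.2, ha⟩
  · -- cart
    intro f hf hn
    exact S40SL_R_cart M p hp hpM A hA hgen H hU f hf hn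
  · -- lift
    intro a ha
    obtain ⟨s, e₁, e₂, N, hE, hW1, -⟩ := S40NI_exists_nodes M p hp hpM A hgen hA
    obtain ⟨x, hx⟩ := S40F2PI_lift₂' M p hp hpM A hA hgen H hH 1 Nat.one_pos e₁ e₂ hE hW1 a ha
    exact ⟨((x : S33NX_F M p H) : ↥(modularFunctionFieldBar (M * p))),
      S40SL_R_of_Lam M p hp hpM A hgen H x.1 x.2, hx⟩
  · -- span
    intro s hs
    have h := S40F2NL2_span_map M p hp hpM A hA hgen H hH (p : Ω) hU s hs
    refine Submodule.span_mono ?_ h
    rintro _ ⟨x, hx, rfl⟩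
    exact S40SL_R_of_Lam M p hp hpM A hgen H x hx

end inst

/-- **the instance of `S40DO_Hyp` on the first chart, `H = I_A`.** -/
theorem S40DH_hyp_inertia (M p : ℕ) [NeZero (M * p)] [NeZero p] (hp : p.Prime)
    (hpM : ¬ p ∣ M) (A : ValuationSubring Ω) (hA : A.LiesOverPrime p)
    (hgen : PrincipalGeneratedByIntegral A (IsLocalRing.residue A) (M * p)) :
    S40DO_Hyp (S34M_T1 M p A hgen) (S18_hRR (M * p)).deg_one
      (jB (M * p) : ↥(modularFunctionFieldBar (M * p)))
      (S40SL_R M p hp hpM A hgen (A.inertiaSubgroupIn ℚ)) (p : Ω) (S34M_xb M p A) :=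
  S40DH_hyp M p hp hpM A hA hgen (A.inertiaSubgroupIn ℚ) le_rfl (S40F2PV_unif hp A hA)

end Fermat.Agent.S40
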