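import Fermat.Agent.S40.DiscOrd
import Fermat.Agent.S40.SmLat
import Fermat.Agent.S36.BaseLDvr

/-!
# TRACK 13 (S40/S44, row 38), holes (D-ORD) / (D-CUSP): the smooth lattice of the first component
on ANY chart (helper8).  Prefix `S40DL_`.

Level `M p`, `A ∣ p`, `H ≤ I_A` with `p` a uniformiser of `A ∩ ℚ̄^H`, `T₁ = S34M_T1`, `x : F` ANY
chart function (`x = j`: the chart of the ordinary points; `x = j⁻¹`: the chart of the cusps).

* `S40DL_R x` : `R_x` = the functions of `F` which are `H`-fixed, `V₁`-integral and regular where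
  `x` is regular.
* `S40DL_le`, `S40DL_pi_nonunit`, `S40DL_const`, `S40DL_cart` : the fields `le`, `hπ`, `const`,
  `cart` of `S40DO_Hyp T₁ hdeg x (R_x) p xb`.
* `S40DL_hyp` : **`S40DO_Hyp`** from the two remaining inputs `lift` and `span`.
-/

set_option autoImplicit false
set_option synthInstance.maxHeartbeats 400000
set_option maxHeartbeats 1000000
set_option linter.unusedSectionVars false
set_option linter.unusedVariables false
set_option linter.style.haveILetI false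

open HahnSeries IntermediateField AlgebraicCurve ModularCurve

noncomputable section

namespace Fermat.Agent.S40

open Fermat.Agent.Lib Fermat.Agent.S17 Fermat.Agent.S18 Fermat.Agent.S24 Fermat.Agent.S34
  Fermat.Agent.S36 Fermat.Agent.GalRep Fermat.Agent.S33

local notation "Ω" => AlgebraicClosure ℚ

section inst

variable (M p : ℕ) [NeZero (M * p)] [NeZero p] (hp : p.Prime) (hpM : ¬ p ∣ M)
  (A : ValuationSubring Ω) (hA : A.LiesOverPrime p)
  (hgen : PrincipalGeneratedByIntegral A (IsLocalRing.residue A) (M * p))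
  (H : Subgroup (Ω ≃ₐ[ℚ] Ω)) (hH : H ≤ A.inertiaSubgroupIn ℚ)
  (x : ↥(modularFunctionFieldBar (M * p)))

/-- the lattice in `F'' = fixF(H)`: `V₁`-integral, regular where `x` is regular. -/
def S40DL_R1 : Subring (S33NX_F M p H) :=
  S33NX_O M p hp hpM A hgen H 0 ⊓ (S34SB_reg Ω x).toSubring.comap (S33NX_incl M p H)

/-- **the lattice `R_x`** as a subring of the full function field. -/
def S40DL_R : Subring ↥(modularFunctionFieldBar (M * p)) :=
  (S40DL_R1 M p hp hpM A hgen H x).map (S33NX_incl M p H)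

theorem S40DL_mem_R {f : ↥(modularFunctionFieldBar (M * p))} :
    f ∈ S40DL_R M p hp hpM A hgen H x ↔
      f ∈ (S36FI_act (M * p) H).fixF ∧ f ∈ (S34M_T1 M p A hgen).O ∧ f ∈ S34SB_reg Ω x := by
  constructor
  · rintro ⟨y, ⟨h1, h2⟩, rfl⟩
    exact ⟨y.2, (S33NX_mem_O_zero M p hp hpM A hgen H y).1 h1, h2⟩
  · rintro ⟨hf, h1, h2⟩
    exact ⟨⟨f, hf⟩, ⟨(S33NX_mem_O_zero M p hp hpM A hgen H _).2 h1, h2⟩, rfl⟩

/-- **`le`**: `R_x ≤ Λ' = O₁ ∩ reg(U_x)`. -/
theorem S40DL_le (hdeg : ∀ w : Place Ω ↥(modularFunctionFieldBar (M * p)), w.deg = 1)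
    (f : ↥(modularFunctionFieldBar (M * p))) (hf : f ∈ S40DL_R M p hp hpM A hgen H x) :
    f ∈ S40DO_Lam (S34M_T1 M p A hgen) hdeg x := by
  obtain ⟨-, h1, h2⟩ := (S40DL_mem_R M p hp hpM A hgen H x).1 hf
  rw [S40NA_mem_Lam]
  refine ⟨h1, h1, ?_⟩
  rintro Q ⟨w, hw, rfl⟩
  exact (S34SB_mem_reg.1 h2) w hw

/-- the `H`-fixed constants of `A` lie in `R_x`. -/
theorem S40DL_const_mem {c : Ω} (hc : ∀ σ ∈ H, σ c = c) (hcA : c ∈ A) :
    algebraMap Ω ↥(modularFunctionFieldBar (M * p)) c ∈ S40DL_R M p hp hpM A hgen H x := by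
  rw [S40DL_mem_R]
  refine ⟨(S33NX_const M p H c ((S36FI_mem_fixK (M * p) H).2 hc)).2, ?_,
    (S34SB_reg Ω x).algebraMap_mem c⟩
  exact ((S34M_T1 M p A hgen).algebraMap_mem_iff c).2 hcA

include hA hH in
/-- **`const`**: every residue is the residue of a constant of `R_x`. -/
theorem S40DL_const (y : IsLocalRing.ResidueField A) :
    ∃ (c : Ω) (hc : c ∈ (S34M_T1 M p A hgen).A),
      algebraMap Ω ↥(modularFunctionFieldBar (M * p)) c ∈ S40DL_R M p hp hpM A hgen H x ∧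
        (S34M_T1 M p A hgen).res ⟨c, hc⟩ = y := by
  haveI : Fact p.Prime := ⟨hp⟩
  obtain ⟨a, haL, ha⟩ := S36BL_hres (q := p) A (S36FI_act (M * p) H).fixK hA
    (fun c hc => (S36FI_mem_fixK (M * p) H).2 (fun σ hσ => hc σ (hH hσ))) y
  exact ⟨(a : Ω), a.2,
    S40DL_const_mem M p hp hpM A hgen H x ((S36FI_mem_fixK (M * p) H).1 haL) a.2, ha⟩

include hA in
/-- **`cart`**: `f ∈ R_x ∩ 𝔪₁` ⇒ `f = p · g`, `g ∈ R_x`. -/
theorem S40DL_cart (hU : S33NL2_Unif A H (p : Ω))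
    (f : ↥(modularFunctionFieldBar (M * p))) (hf : f ∈ S40DL_R M p hp hpM A hgen H x)
    (hn : f ∈ (S34M_T1 M p A hgen).O.nonunits) :
    ∃ g ∈ S40DL_R M p hp hpM A hgen H x,
      f = algebraMap Ω ↥(modularFunctionFieldBar (M * p)) (p : Ω) * g := by
  obtain ⟨y, ⟨hy1, hy2⟩, rfl⟩ := hf
  have h : (y : ↥(modularFunctionFieldBar (M * p))) ∈ (S34M_T1 M p A hgen).O :=
    (S33NX_mem_O_zero M p hp hpM A hgen H y).1 hy1
  have hred : (S34M_T1 M p A hgen).red ⟨(y : ↥(modularFunctionFieldBar (M * p))), h⟩ = 0 :=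
    S40DO_red_zero_of_nonunit hn
  obtain ⟨t, ht, e⟩ := S33LF_div_of_red (S34M_T1 M p A hgen) (S36FI_act (M * p) H).fixF
    (S33NX_O M p hp hpM A hgen H 0) (S33NX_mem_O_zero M p hp hpM A hgen H) (S40F2PV_pi M p H)
    (S33ND_isDV_zero M p hp hpM A hA hgen H hU) h hred
  rw [pow_one] at e
  have hπ0 : S40F2PV_pi M p H ≠ 0 := S40F2PV_pi_ne M p H
  have e1 : t = (S40F2PV_pi M p H)⁻¹ * y := by
    rw [e, ← mul_assoc, inv_mul_cancel₀ hπ0, one_mul]
  have e2 : (t : ↥(modularFunctionFieldBar (M * p))) =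
      algebraMap Ω ↥(modularFunctionFieldBar (M * p)) ((p : Ω)⁻¹) *
        (y : ↥(modularFunctionFieldBar (M * p))) := by
    rw [e1, map_inv₀]
    rfl
  have htB : (t : ↥(modularFunctionFieldBar (M * p))) ∈ S34SB_reg Ω x := by
    rw [e2]
    exact (S34SB_reg Ω x).mul_mem ((S34SB_reg Ω x).algebraMap_mem _) hy2
  refine ⟨(t : ↥(modularFunctionFieldBar (M * p))), ⟨t, ⟨ht, htB⟩, rfl⟩, ?_⟩
  show (y : ↥(modularFunctionFieldBar (M * p))) = _
  rw [e]
  rfl

include hA hH in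
/-- **`S40DO_Hyp` for the lattice `R_x`** from the two remaining inputs: `lift` (the reduction
`R_x → reg(xb)` is onto) and `span` (`reg(x) ⊆ Ω · R_x`). -/
theorem S40DL_hyp (hU : S33NL2_Unif A H (p : Ω))
    (hdeg : ∀ w : Place Ω ↥(modularFunctionFieldBar (M * p)), w.deg = 1)
    (xb : ↥(modularFunctionFieldFullC (IsLocalRing.ResidueField A) (M * p)))
    (hlift : ∀ a : ↥(modularFunctionFieldFullC (IsLocalRing.ResidueField A) (M * p)),
      a ∈ S34SB_reg (IsLocalRing.ResidueField A) xb →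
        ∃ (t : ↥(modularFunctionFieldBar (M * p))) (ht : t ∈ S40DL_R M p hp hpM A hgen H x)
          (htO : t ∈ (S34M_T1 M p A hgen).O), (S34M_T1 M p A hgen).red ⟨t, htO⟩ = a)
    (hspan : ∀ s ∈ S34SB_reg Ω x,
      s ∈ Submodule.span Ω (S40DL_R M p hp hpM A hgen H x : Set _)) :
    S40DO_Hyp (S34M_T1 M p A hgen) hdeg x (S40DL_R M p hp hpM A hgen H x) (p : Ω) xb where
  le := S40DL_le M p hp hpM A hgen H x hdeg
  hπ := (ValuationSubring.mem_nonunits_iff A).2 hU.lt_one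
  hπ0 := hU.ne_zero
  const := S40DL_const M p hp hpM A hA hgen H hH x
  cart := S40DL_cart M p hp hpM A hA hgen H x hU
  lift a ha := by
    obtain ⟨t, ht, htO, e⟩ := hlift a ha
    exact ⟨t, ht, e⟩
  span := hspan

end inst

end Fermat.Agent.S40
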