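import Fermat.Agent.S40.F2N4
import Fermat.Agent.S40.F2PolyInst

/-!
# S40 (TRACK 13), hole (D-ORD): the DISC package (helper14).  Prefix `S40F2N7_`.

The residue DISC of a smooth point `P` of a component of the special fibre, as a node `N` (for
instance helper16's degenerate node `O₂ := O₁`, `ε := ev_P ∘ red₁`).

Data (`S40F2N7_Disc`): `X ∈ Λ`, `X ≠ 0`, `X(P) = 0`, `X` a unit for both valuations, and a subring
`R ≤ Λ` (functions over a discretely valued field, uniformiser `π ≠ 0`) with `const`, `cart`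
(`R ∩ 𝔪₁ = π R`) and `den` (`f(P) = 0 ⇒ red₁ f = red₁ X · red₁ r / red₁ h`, `h(P) ≠ 0`).

* `S40F2N7_decomp` : `h · (f − c) = X g₁ + π g₃`, `h(P) ≠ 0`.
* `S40F2N7_exists_zero` : for EVERY `w ∈ 𝔪_A` the function `X − w` has a zero at a place
  specialising to `P` (Hartogs).
* `S40F2N7_lipschitz` : `f(Q) − f(Q') ∈ (X(Q) − X(Q')) · A` for `f ∈ R` (`A` of rank one).
* `S40F2N7_uniformiser`, `S40F2N7_place_unique` : `X − X(Q)` is a uniformiser at `Q`, and `X`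
  separates the places specialising to `P`.
* `S40F2N7_hyp` : **`S40F2YI_Hyp N X`** (the hypotheses of helper1's factorisation
  `S40F2YI_factor_pow`) for the disc.
-/

set_option autoImplicit false

namespace Fermat.Agent.S40

section

variable {L F k : Type*} [Field L] [Field F] [Algebra L F] [Field k]

/-- the disc coordinate and its chart. -/
structure S40F2N7_Disc (N : S40NA_Node L F k) where
  /-- the coordinate -/
  X : F
  hX : X ∈ N.Lam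
  X_ne : X ≠ 0
  εX : N.ε ⟨X, hX⟩ = 0
  X_unit₁ : X⁻¹ ∈ N.O₁
  X_unit₂ : X⁻¹ ∈ N.O₂
  /-- the functions of the chart -/
  R : Subring F
  le : ∀ f ∈ R, f ∈ N.Lam
  /-- the uniformiser of the field of definition -/
  π : L
  hπ : π ∈ N.A.nonunits
  hπ0 : π ≠ 0
  X_mem : X ∈ R
  const : ∀ (f : F) (hf : f ∈ R), ∃ (c : L) (hc : c ∈ N.A),
    algebraMap L F c ∈ R ∧ N.res ⟨c, hc⟩ = N.ε ⟨f, le f hf⟩
  cart : ∀ f ∈ R, f ∈ N.O₁.nonunits → ∃ g ∈ R, f = algebraMap L F π * g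
  den : ∀ (f : F) (hf : f ∈ R), N.ε ⟨f, le f hf⟩ = 0 →
    ∃ (h r : F) (hh : h ∈ R), r ∈ R ∧ N.ε ⟨h, le h hh⟩ ≠ 0 ∧ h * f - X * r ∈ N.O₁.nonunits

/-- the localised chart property of the disc. -/
theorem S40F2N7_decomp {N : S40NA_Node L F k} (D : S40F2N7_Disc N) (f : F) (hf : f ∈ D.R) :
    ∃ (c : L) (hc : c ∈ N.A) (h g₁ g₃ : F) (hh : h ∈ D.R), g₁ ∈ D.R ∧ g₃ ∈ D.R ∧
      N.res ⟨c, hc⟩ = N.ε ⟨f, D.le f hf⟩ ∧ N.ε ⟨h, D.le h hh⟩ ≠ 0 ∧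
      h * (f - algebraMap L F c) = D.X * g₁ + algebraMap L F D.π * g₃ := by
  obtain ⟨c, hc, hcR, hres⟩ := D.const f hf
  have hf' : f - algebraMap L F c ∈ D.R := D.R.sub_mem hf hcR
  have hε : N.ε ⟨f - algebraMap L F c, D.le _ hf'⟩ = 0 := by
    have e : (⟨f - algebraMap L F c, D.le _ hf'⟩ : ↥N.Lam) =
        ⟨f, D.le f hf⟩ - ⟨algebraMap L F c, D.le _ hcR⟩ := rfl
    rw [e, map_sub, N.ε_const c hc, hres, sub_self]
  obtain ⟨h₁, r₁, hh₁, hr₁, hε₁, hn₁⟩ := D.den _ hf' hε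
  have hzR : h₁ * (f - algebraMap L F c) - D.X * r₁ ∈ D.R :=
    D.R.sub_mem (D.R.mul_mem hh₁ hf') (D.R.mul_mem D.X_mem hr₁)
  obtain ⟨g₃, hg₃, hz⟩ := D.cart _ hzR hn₁
  refine ⟨c, hc, h₁, r₁, g₃, hh₁, hr₁, hg₃, hres, hε₁, ?_⟩
  rw [← hz]
  ring

/-- `X − w` is a unit of a valuation ring in which `X` is a unit and `w` is not. -/
theorem S40F2N7_sub_unit {N : S40NA_Node L F k} (D : S40F2N7_Disc N) (O : ValuationSubring F)
    (hXi : D.X⁻¹ ∈ O) {W : F} (hW : W ∈ O.nonunits) :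
    D.X - W ≠ 0 ∧ (D.X - W)⁻¹ ∈ O := by
  have hX0 := D.X_ne
  have hq : W * D.X⁻¹ ∈ O.nonunits := S40NA_nonunits_mul O hW hXi
  have h1 := S40F2N_one_add_inv_mem O (O.nonunits.neg_mem hq)
  have hne : (1 + -(W * D.X⁻¹)) ≠ 0 := by
    intro h0
    have e : W * D.X⁻¹ = 1 := by linear_combination -h0
    rw [e] at hq
    exact S40F2N_one_not_nonunit O hq
  have hfac : D.X - W = D.X * (1 + -(W * D.X⁻¹)) := by
    field_simp
    ring
  refine ⟨by rw [hfac]; exact mul_ne_zero hX0 hne, ?_⟩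
  rw [hfac, mul_inv]
  exact mul_mem hXi h1

/-- the value of `X` at a place specialising to the point lies in `𝔪_A`. -/
theorem S40F2N7_at_X {N : S40NA_Node L F k} (D : S40F2N7_Disc N) (Q : S40NA_Pt L F)
    (hQ : Q ∈ N.U) (hc : S40NA_Centred N Q hQ) : S40F2N_at Q D.X ∈ N.A.nonunits := by
  have := S40F2N_res_evA N Q hQ hc ⟨D.X, D.hX⟩
  rw [D.εX] at this
  exact S40F2N_nonunit_of_res N _ this

/-- **existence**: for every `w ∈ 𝔪_A` the function `X − w` has a zero at a place specialising to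
the point (Hartogs applied to `1 / (X − w)`). -/
theorem S40F2N7_exists_zero {N : S40NA_Node L F k} (D : S40F2N7_Disc N)
    (hfin : ∀ g : F, {Q : S40NA_Pt L F | Q ∈ N.U ∧ g ∉ Q.P}.Finite)
    (hm₁ : ∀ c : L, c ∈ N.A.nonunits → algebraMap L F c ∈ N.O₁.nonunits)
    (hm₂ : ∀ c : L, c ∈ N.A.nonunits → algebraMap L F c ∈ N.O₂.nonunits)
    (w : L) (hw : w ∈ N.A.nonunits) :
    ∃ (Q : S40NA_Pt L F) (hQ : Q ∈ N.U), S40NA_Centred N Q hQ ∧ S40F2N_at Q D.X = w := by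
  by_contra hno
  push Not at hno
  set W : F := algebraMap L F w with hW
  have hwA : w ∈ N.A := ValuationSubring.nonunits_subset hw
  obtain ⟨hne, hg₁⟩ := S40F2N7_sub_unit D N.O₁ D.X_unit₁ (hm₁ w hw)
  obtain ⟨-, hg₂⟩ := S40F2N7_sub_unit D N.O₂ D.X_unit₂ (hm₂ w hw)
  have hnc : ∀ (Q : S40NA_Pt L F) (hQ : Q ∈ N.U), (D.X - W)⁻¹ ∉ Q.P →
      ¬ S40NA_Centred N Q hQ := by
    intro Q hQ hgQ hcen
    apply hno Q hQ hcen
    have hn : D.X - W ∈ Q.P.nonunits := by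
      have := (ValuationSubring.inv_mem_nonunits_iff (A := Q.P)).2 (Or.inr hgQ)
      rwa [inv_inv] at this
    have h0 := S40F2N_at_nonunit Q hn
    rw [S40F2N_at_sub Q (N.mem_pt D.hX hQ) (Q.alg_mem _), S40F2N_at_alg] at h0
    exact sub_eq_zero.1 h0
  obtain ⟨a, b, ha, hb, hab, hεb⟩ := S40NA_hartogs N _ hg₁ hg₂ (hfin _) hnc
  apply hεb
  have hWΛ : W ∈ N.Lam := N.const_mem hwA
  have e : (⟨b, hb⟩ : ↥N.Lam) = (⟨D.X, D.hX⟩ - ⟨W, hWΛ⟩) * ⟨a, ha⟩ := by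
    apply Subtype.ext
    show b = (D.X - algebraMap L F w) * a
    rw [← hab, ← mul_assoc, mul_inv_cancel₀ hne, one_mul]
  rw [e, map_mul, map_sub, D.εX, N.ε_const w hwA hWΛ, N.res_nonunit ⟨w, hwA⟩ hw, sub_self,
    zero_mul]

/-- **Lipschitz estimate on the disc**: `f(Q) − f(Q') ∈ (X(Q) − X(Q')) · A`. -/
theorem S40F2N7_lipschitz {N : S40NA_Node L F k} (D : S40F2N7_Disc N)
    (hA : ∀ g b : L, b ∈ N.A.nonunits → ∃ m : ℕ, g * b ^ m ∈ N.A)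
    (Q Q' : S40NA_Pt L F) (hQ : Q ∈ N.U) (hQ' : Q' ∈ N.U)
    (hc : S40NA_Centred N Q hQ) (hc' : S40NA_Centred N Q' hQ')
    (η : L) (hη : η ∈ N.A) (hX : S40F2N_at Q D.X - S40F2N_at Q' D.X = η) :
    ∀ f ∈ D.R, ∃ z ∈ N.A, S40F2N_at Q f - S40F2N_at Q' f = η * z := by
  classical
  set φ := S40F2N_evA N Q hQ hc with hφ
  set φ' := S40F2N_evA N Q' hQ' hc' with hφ'
  have hπΛ : algebraMap L F D.π ∈ N.Lam := N.const_mem (ValuationSubring.nonunits_subset D.hπ)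
  set x : ↥N.Lam := ⟨D.X, D.hX⟩ with hx
  set p : ↥N.Lam := ⟨algebraMap L F D.π, hπΛ⟩ with hp
  have hxn : ((φ x : ↥N.A) : L) ∈ N.A.nonunits := S40F2N7_at_X D Q hQ hc
  have hxn' : ((φ' x : ↥N.A) : L) ∈ N.A.nonunits := S40F2N7_at_X D Q' hQ' hc'
  have hpv : ((φ p : ↥N.A) : L) = D.π := S40F2N_evA_const N Q hQ hc D.π hπΛ
  have hpv' : ((φ' p : ↥N.A) : L) = D.π := S40F2N_evA_const N Q' hQ' hc' D.π hπΛ
  obtain ⟨a, ha, hax, hax', hap⟩ := S40F2N_exists_gcd (φ x) (φ' x) (φ p)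
  have han : (a : L) ∈ N.A.nonunits := by
    rcases ha with rfl | rfl | rfl
    · exact hxn
    · exact hxn'
    · rw [hpv]; exact D.hπ
  set I : Ideal ↥N.A := Ideal.span {a} with hI
  set ηA : ↥N.A := ⟨η, hη⟩ with hηA
  set T : Ideal ↥N.A := Ideal.span {ηA} with hT
  have hxT : φ x - φ' x ∈ T := by
    refine Ideal.mem_span_singleton'.2 ⟨1, Subtype.ext ?_⟩
    show 1 * η = S40F2N_at Q D.X - S40F2N_at Q' D.X
    rw [one_mul, hX]
  have hpp : φ p = φ' p := Subtype.ext (hpv.trans hpv'.symm)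
  have hap' : a ∣ φ' p := hpp ▸ hap
  have key := fun n => S40F2N3_contract φ φ' I T (fun f => (f : F) ∈ D.R) x 0 1 p D.R.one_mem
    (by
      intro f hf
      obtain ⟨c, hcA, h, g₁, g₃, hh, h₁, h₃, -, hεh, hdec⟩ := S40F2N7_decomp D (f : F) hf
      have hcc : φ ⟨algebraMap L F c, N.const_mem hcA⟩ = φ' ⟨algebraMap L F c, N.const_mem hcA⟩ :=
        Subtype.ext ((S40F2N_evA_const N Q hQ hc c _).trans
          (S40F2N_evA_const N Q' hQ' hc' c _).symm)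
      have hdecΛ : (⟨h, D.le h hh⟩ : ↥N.Lam) * (f - ⟨algebraMap L F c, N.const_mem hcA⟩) =
          x * ⟨g₁, D.le g₁ h₁⟩ + p * ⟨g₃, D.le g₃ h₃⟩ :=
        Subtype.ext hdec
      have hdecΛ' : (⟨h, D.le h hh⟩ : ↥N.Lam) * (f - ⟨algebraMap L F c, N.const_mem hcA⟩) =
          x * ⟨g₁, D.le g₁ h₁⟩ + 0 * 0 + p * ⟨g₃, D.le g₃ h₃⟩ := by
        rw [hdecΛ]; ring
      refine ⟨⟨algebraMap L F c, N.const_mem hcA⟩, ⟨h, D.le h hh⟩, ⟨g₁, D.le g₁ h₁⟩,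
        0, ⟨g₃, D.le g₃ h₃⟩, hh, h₁, D.R.zero_mem, h₃, hcc,
        S40F2N3_evA_unit N Q hQ hc _ hεh, ?_, hdecΛ'⟩
      obtain ⟨u', hu'⟩ := S40F2N3_evA_unit N Q' hQ' hc' ⟨h, D.le h hh⟩ hεh
      have e3 := congrArg φ' hdecΛ
      simp only [map_add, map_mul, map_sub] at e3
      have e4 : φ' f - φ' ⟨algebraMap L F c, N.const_mem hcA⟩ =
          u' * (φ' x * φ' ⟨g₁, D.le g₁ h₁⟩ + φ' p * φ' ⟨g₃, D.le g₃ h₃⟩) := by
        rw [← e3, ← mul_assoc, hu', one_mul]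
      rw [e4]
      refine Ideal.mul_mem_left _ _ (Ideal.add_mem _ ?_ ?_)
      · exact Ideal.mul_mem_right _ _ (Ideal.mem_span_singleton.2 hax')
      · exact Ideal.mul_mem_right _ _ (Ideal.mem_span_singleton.2 hap'))
    hxT hpp (Ideal.mem_span_singleton.2 hax) (Ideal.mem_span_singleton.2 hap)
    (by rw [map_zero]; exact I.zero_mem)
    (fun J _ => by rw [map_zero, map_zero, sub_zero]; exact (I * J ⊔ T).zero_mem) n
  intro f hf
  set d : ↥N.A := φ ⟨f, D.le f hf⟩ - φ' ⟨f, D.le f hf⟩ with hd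
  have hdn : ∀ n, d ∈ T ⊔ I ^ n := fun n => key n ⟨f, D.le f hf⟩ hf
  have hdT : d ∈ T := by
    by_cases hη0 : η = 0
    · have hTbot : T = ⊥ := by
        rw [hT, Ideal.span_singleton_eq_bot]
        exact Subtype.ext hη0
      have hd0 : d = 0 := by
        apply S40F2N_eq_zero_of_pow_dvd N.A hA a d han
        intro n
        have := hdn n
        rw [hTbot, bot_sup_eq, hI, Ideal.span_singleton_pow] at this
        exact Ideal.mem_span_singleton.1 this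
      rw [hd0]
      exact T.zero_mem
    · obtain ⟨m, hm⟩ := hA η⁻¹ (a : L) han
      have hle : I ^ m ≤ T := by
        rw [hI, Ideal.span_singleton_pow, Ideal.span_singleton_le_iff_mem]
        refine Ideal.mem_span_singleton'.2 ⟨⟨η⁻¹ * (a : L) ^ m, hm⟩, Subtype.ext ?_⟩
        have e5 : ((a ^ m : ↥N.A) : L) = (a : L) ^ m := by simp
        show η⁻¹ * (a : L) ^ m * η = ((a ^ m : ↥N.A) : L)
        rw [e5]
        field_simp
      have := hdn m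
      rwa [sup_eq_left.2 hle] at this
  obtain ⟨z, hz⟩ := Ideal.mem_span_singleton'.1 hdT
  refine ⟨z, z.2, ?_⟩
  have := congrArg (fun t : ↥N.A => (t : L)) hz
  show S40F2N_at Q f - S40F2N_at Q' f = η * z
  rw [mul_comm]
  exact this.symm

theorem S40F2N7_span_mem {N : S40NA_Node L F k} (D : S40F2N7_Disc N)
    (Q : S40NA_Pt L F) (hQ : Q ∈ N.U) : ∀ a ∈ Submodule.span L (D.R : Set F), a ∈ Q.P := by
  intro a ha
  induction ha using Submodule.span_induction with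
  | mem x hx => exact N.mem_pt (D.le x hx) hQ
  | zero => exact Q.P.zero_mem
  | add x y _ _ ihx ihy => exact add_mem ihx ihy
  | smul c x _ ih =>
    rw [Algebra.smul_def]
    exact mul_mem (Q.alg_mem c) ih

/-- the Lipschitz estimate on the `L`-span of the chart, with a uniform denominator. -/
theorem S40F2N7_lip_span {N : S40NA_Node L F k} (D : S40F2N7_Disc N)
    (hA : ∀ g b : L, b ∈ N.A.nonunits → ∃ m : ℕ, g * b ^ m ∈ N.A) :
    ∀ a ∈ Submodule.span L (D.R : Set F), ∃ κ : L, κ ∈ N.A ∧ κ ≠ 0 ∧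
      ∀ (Q Q' : S40NA_Pt L F) (hQ : Q ∈ N.U) (hQ' : Q' ∈ N.U), S40NA_Centred N Q hQ →
        S40NA_Centred N Q' hQ' → ∀ η ∈ N.A,
        S40F2N_at Q D.X - S40F2N_at Q' D.X = η →
        ∃ z ∈ N.A, κ * (S40F2N_at Q a - S40F2N_at Q' a) = η * z := by
  intro a ha
  induction ha using Submodule.span_induction with
  | mem x hx =>
    refine ⟨1, N.A.one_mem, one_ne_zero, ?_⟩
    intro Q Q' hQ hQ' hc hc' η hη hX
    obtain ⟨z, hz, e⟩ := S40F2N7_lipschitz D hA Q Q' hQ hQ' hc hc' η hη hX x hx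
    exact ⟨z, hz, by rw [one_mul, e]⟩
  | zero =>
    refine ⟨1, N.A.one_mem, one_ne_zero, ?_⟩
    intro Q Q' hQ hQ' hc hc' η hη hX
    exact ⟨0, N.A.zero_mem, by rw [S40F2N_at_zero, S40F2N_at_zero, sub_self, mul_zero, mul_zero]⟩
  | add x y hx hy ihx ihy =>
    obtain ⟨κx, hκx, hκx0, hLx⟩ := ihx
    obtain ⟨κy, hκy, hκy0, hLy⟩ := ihy
    refine ⟨κx * κy, mul_mem hκx hκy, mul_ne_zero hκx0 hκy0, ?_⟩
    intro Q Q' hQ hQ' hc hc' η hη hX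
    obtain ⟨zx, hzx, ex⟩ := hLx Q Q' hQ hQ' hc hc' η hη hX
    obtain ⟨zy, hzy, ey⟩ := hLy Q Q' hQ hQ' hc hc' η hη hX
    refine ⟨κy * zx + κx * zy, add_mem (mul_mem hκy hzx) (mul_mem hκx hzy), ?_⟩
    rw [S40F2N_at_add Q (S40F2N7_span_mem D Q hQ x hx) (S40F2N7_span_mem D Q hQ y hy),
      S40F2N_at_add Q' (S40F2N7_span_mem D Q' hQ' x hx) (S40F2N7_span_mem D Q' hQ' y hy)]
    linear_combination κy * ex + κx * ey
  | smul c x hx ih =>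
    obtain ⟨κx, hκx, hκx0, hLx⟩ := ih
    obtain ⟨c₂, hc₂, hc₂0, hcc⟩ : ∃ c₂ : L, c₂ ∈ N.A ∧ c₂ ≠ 0 ∧ c₂ * c ∈ N.A := by
      by_cases hcA : c ∈ N.A
      · exact ⟨1, N.A.one_mem, one_ne_zero, by rw [one_mul]; exact hcA⟩
      · have hc0 : c ≠ 0 := fun h0 => hcA (h0 ▸ N.A.zero_mem)
        have hci : c⁻¹ ∈ N.A := (N.A.mem_or_inv_mem c).resolve_left hcA
        exact ⟨c⁻¹, hci, inv_ne_zero hc0, by rw [inv_mul_cancel₀ hc0]; exact N.A.one_mem⟩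
    refine ⟨κx * c₂, mul_mem hκx hc₂, mul_ne_zero hκx0 hc₂0, ?_⟩
    intro Q Q' hQ hQ' hc hc' η hη hX
    obtain ⟨zx, hzx, ex⟩ := hLx Q Q' hQ hQ' hc hc' η hη hX
    refine ⟨c₂ * c * zx, mul_mem hcc hzx, ?_⟩
    rw [Algebra.smul_def, S40F2N_at_mul Q (Q.alg_mem c) (S40F2N7_span_mem D Q hQ x hx),
      S40F2N_at_mul Q' (Q'.alg_mem c) (S40F2N7_span_mem D Q' hQ' x hx), S40F2N_at_alg,
      S40F2N_at_alg]
    linear_combination c₂ * c * ex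

/-- the local ring of `L · R` at `Q` is the valuation ring of `Q`. -/
def S40F2N7_Loc {N : S40NA_Node L F k} (D : S40F2N7_Disc N) (Q : S40NA_Pt L F) : Prop :=
  ∀ f ∈ Q.P, ∃ a b : F, a ∈ Submodule.span L (D.R : Set F) ∧
    b ∈ Submodule.span L (D.R : Set F) ∧ b ∉ Q.P.nonunits ∧ f * b = a

/-- **simplicity on the disc**: `X − X(Q)` is a uniformiser at every place `Q` specialising to
the point. -/
theorem S40F2N7_uniformiser {N : S40NA_Node L F k} (D : S40F2N7_Disc N)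
    (hA : ∀ g b : L, b ∈ N.A.nonunits → ∃ m : ℕ, g * b ^ m ∈ N.A)
    (hfin : ∀ g : F, {Q : S40NA_Pt L F | Q ∈ N.U ∧ g ∉ Q.P}.Finite)
    (hm₁ : ∀ c : L, c ∈ N.A.nonunits → algebraMap L F c ∈ N.O₁.nonunits)
    (hm₂ : ∀ c : L, c ∈ N.A.nonunits → algebraMap L F c ∈ N.O₂.nonunits)
    (Q : S40NA_Pt L F) (hQ : Q ∈ N.U) (hc : S40NA_Centred N Q hQ)
    (hloc : S40F2N7_Loc D Q) :
    ∀ f ∈ Q.P.nonunits, f * (D.X - algebraMap L F (S40F2N_at Q D.X))⁻¹ ∈ Q.P := by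
  intro f hf
  by_contra hnot
  have hwn := S40F2N7_at_X D Q hQ hc
  set w : L := S40F2N_at Q D.X with hw
  set xw : F := D.X - algebraMap L F w with hxw
  have hf0 : f ≠ 0 := by
    intro h
    apply hnot
    rw [h, zero_mul]
    exact Q.P.zero_mem
  have hfP : f ∈ Q.P := ValuationSubring.nonunits_subset hf
  have hψ₀ : xw * f⁻¹ ∈ Q.P.nonunits := by
    have := (ValuationSubring.inv_mem_nonunits_iff (A := Q.P)).2 (Or.inr hnot)
    rwa [mul_inv, inv_inv, mul_comm] at this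
  obtain ⟨a, b, ha, hb, hbn, hab⟩ := hloc f hfP
  have hbP := S40F2N7_span_mem D Q hQ b hb
  have hb0 : b ≠ 0 := fun h => hbn (h ▸ Q.P.nonunits.zero_mem)
  have hbi : b⁻¹ ∈ Q.P := S40F2N_inv_mem_of_not_nonunit Q.P hbn
  have ha0 : a ≠ 0 := by rw [← hab]; exact mul_ne_zero hf0 hb0
  have han : a ∈ Q.P.nonunits := by
    rw [← hab]
    exact S40NA_nonunits_mul Q.P hf hbP
  have hψ : xw * a⁻¹ ∈ Q.P.nonunits := by
    have e : xw * a⁻¹ = xw * f⁻¹ * b⁻¹ := by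
      rw [← hab, mul_inv, mul_assoc]
    rw [e]
    exact S40NA_nonunits_mul Q.P hψ₀ hbi
  obtain ⟨a₁, b₁, ha₁, hb₁, hb₁n, hab₁⟩ := hloc _ (ValuationSubring.nonunits_subset hψ)
  have hb₁P := S40F2N7_span_mem D Q hQ b₁ hb₁
  have ha₁n : a₁ ∈ Q.P.nonunits := by
    rw [← hab₁]
    exact S40NA_nonunits_mul Q.P hψ hb₁P
  have hid : xw * b₁ = a * a₁ := by
    rw [← hab₁]
    field_simp
  obtain ⟨κa, hκa, hκa0, hLa⟩ := S40F2N7_lip_span D hA a ha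
  obtain ⟨κ₁, hκ₁, hκ₁0, hL₁⟩ := S40F2N7_lip_span D hA a₁ ha₁
  obtain ⟨κb, hκb, hκb0, hLb⟩ := S40F2N7_lip_span D hA b₁ hb₁
  set β : L := S40F2N_at Q b₁ with hβ
  have hβ0 : β ≠ 0 := fun h => hb₁n ((S40F2N_at_eq_zero_iff Q hb₁P).1 h)
  set B : L := κb * β * κa * κ₁ with hB
  have hB0 : B ≠ 0 := mul_ne_zero (mul_ne_zero (mul_ne_zero hκb0 hβ0) hκa0) hκ₁0
  obtain ⟨η, hηn, hη0, hBη⟩ : ∃ η : L, η ∈ N.A.nonunits ∧ η ≠ 0 ∧
      ∀ z ∈ N.A, B ≠ η * z := by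
    by_cases hBA : B ∈ N.A
    · refine ⟨D.π * B, S40NA_nonunits_mul N.A D.hπ hBA, mul_ne_zero D.hπ0 hB0, ?_⟩
      intro z hz h
      have h1 : D.π * z = 1 := by
        apply mul_left_cancel₀ hB0
        rw [mul_one]
        linear_combination -h
      have := S40NA_nonunits_mul N.A D.hπ hz
      rw [h1] at this
      exact S40F2N_one_not_nonunit N.A this
    · refine ⟨D.π, D.hπ, D.hπ0, ?_⟩
      intro z hz h
      apply hBA
      rw [h]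
      exact mul_mem (ValuationSubring.nonunits_subset D.hπ) hz
  -- a place `Q'` with `X(Q') = w − η`
  obtain ⟨Q', hQ', hc', hXQ'⟩ := S40F2N7_exists_zero D hfin hm₁ hm₂ (w - η)
    (N.A.nonunits.sub_mem hwn hηn)
  have hX : S40F2N_at Q D.X - S40F2N_at Q' D.X = η := by
    rw [hXQ', ← hw]
    ring
  have hηA : η ∈ N.A := ValuationSubring.nonunits_subset hηn
  obtain ⟨za, hza, eza⟩ := hLa Q Q' hQ hQ' hc hc' η hηA hX
  obtain ⟨z₁, hz₁, ez₁⟩ := hL₁ Q Q' hQ hQ' hc hc' η hηA hX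
  obtain ⟨zb, hzb, ezb⟩ := hLb Q Q' hQ hQ' hc hc' η hηA hX
  rw [S40F2N_at_nonunit Q han, zero_sub] at eza
  rw [S40F2N_at_nonunit Q ha₁n, zero_sub] at ez₁
  have haP' := S40F2N7_span_mem D Q' hQ' a ha
  have ha₁P' := S40F2N7_span_mem D Q' hQ' a₁ ha₁
  have hb₁P' := S40F2N7_span_mem D Q' hQ' b₁ hb₁
  have hXP' : D.X ∈ Q'.P := N.mem_pt D.hX hQ'
  have hev : (S40F2N_at Q' D.X - w) * S40F2N_at Q' b₁ = S40F2N_at Q' a * S40F2N_at Q' a₁ := by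
    have := congrArg (S40F2N_at Q') hid
    rw [S40F2N_at_mul Q' (sub_mem hXP' (Q'.alg_mem _)) hb₁P', S40F2N_at_mul Q' haP' ha₁P',
      S40F2N_at_sub Q' hXP' (Q'.alg_mem _), S40F2N_at_alg] at this
    exact this
  apply hBη (zb * κa * κ₁ - κb * za * z₁)
    (sub_mem (mul_mem (mul_mem hzb hκa) hκ₁) (mul_mem (mul_mem hκb hza) hz₁))
  apply mul_left_cancel₀ hη0
  linear_combination (-(κa * κ₁ * κb)) * hev + (κa * κ₁ * η) * ezb
    - (κa * κ₁ * κb * S40F2N_at Q' b₁) * hX - (κb * η * za) * ez₁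
    + (κb * κ₁ * S40F2N_at Q' a₁) * eza

/-- **uniqueness of the place on the disc**. -/
theorem S40F2N7_place_unique {N : S40NA_Node L F k} (D : S40F2N7_Disc N)
    (hA : ∀ g b : L, b ∈ N.A.nonunits → ∃ m : ℕ, g * b ^ m ∈ N.A)
    (Q Q' : S40NA_Pt L F) (hQ : Q ∈ N.U) (hQ' : Q' ∈ N.U)
    (hc : S40NA_Centred N Q hQ) (hc' : S40NA_Centred N Q' hQ')
    (hX : S40F2N_at Q D.X = S40F2N_at Q' D.X)
    (hloc : S40F2N7_Loc D Q) (hloc' : S40F2N7_Loc D Q') : Q.P = Q'.P := by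
  have key : ∀ (Q₁ Q₂ : S40NA_Pt L F) (hQ₁ : Q₁ ∈ N.U) (hQ₂ : Q₂ ∈ N.U),
      S40NA_Centred N Q₁ hQ₁ → S40NA_Centred N Q₂ hQ₂ →
      S40F2N_at Q₁ D.X = S40F2N_at Q₂ D.X → S40F2N7_Loc D Q₁ → Q₁.P ≤ Q₂.P := by
    intro Q₁ Q₂ hQ₁ hQ₂ hc₁ hc₂ hX₁₂ hloc₁ f hf
    obtain ⟨a, b, ha, hb, hbn, hab⟩ := hloc₁ f hf
    have hbP₁ := S40F2N7_span_mem D Q₁ hQ₁ b hb
    have hbP₂ := S40F2N7_span_mem D Q₂ hQ₂ b hb
    have haP₂ := S40F2N7_span_mem D Q₂ hQ₂ a ha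
    obtain ⟨κ, -, hκ0, hLip⟩ := S40F2N7_lip_span D hA b hb
    obtain ⟨z, -, hz⟩ := hLip Q₁ Q₂ hQ₁ hQ₂ hc₁ hc₂ 0 N.A.zero_mem
      (by rw [hX₁₂, sub_self])
    rw [zero_mul] at hz
    have hev : S40F2N_at Q₁ b = S40F2N_at Q₂ b := by
      rcases mul_eq_zero.1 hz with h | h
      · exact absurd h hκ0
      · exact sub_eq_zero.1 h
    have hbn₂ : b ∉ Q₂.P.nonunits := by
      intro h
      apply hbn
      rw [← S40F2N_at_eq_zero_iff Q₁ hbP₁, hev]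
      exact S40F2N_at_nonunit Q₂ h
    have hbi : b⁻¹ ∈ Q₂.P := S40F2N_inv_mem_of_not_nonunit Q₂.P hbn₂
    have hb0 : b ≠ 0 := fun h => hbn (h ▸ Q₁.P.nonunits.zero_mem)
    have e : f = a * b⁻¹ := by
      rw [← hab]
      field_simp
    rw [e]
    exact mul_mem haP₂ hbi
  exact le_antisymm (key Q Q' hQ hQ' hc hc' hX hloc) (key Q' Q hQ' hQ hc' hc hX.symm hloc')

/-- **the hypotheses of helper1's factorisation** (`S40F2YI_Hyp`) on the disc. -/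
theorem S40F2N7_hyp {N : S40NA_Node L F k} (D : S40F2N7_Disc N)
    (hA : ∀ g b : L, b ∈ N.A.nonunits → ∃ m : ℕ, g * b ^ m ∈ N.A)
    (hfin : ∀ g : F, {Q : S40NA_Pt L F | Q ∈ N.U ∧ g ∉ Q.P}.Finite)
    (hm₁ : ∀ c : L, c ∈ N.A.nonunits → algebraMap L F c ∈ N.O₁.nonunits)
    (hm₂ : ∀ c : L, c ∈ N.A.nonunits → algebraMap L F c ∈ N.O₂.nonunits)
    (hloc : ∀ (Q : S40NA_Pt L F) (hQ : Q ∈ N.U), S40NA_Centred N Q hQ → S40F2N7_Loc D Q) :
    S40F2YI_Hyp N D.X where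
  hfin := hfin
  hXmem _ hQ _ := N.mem_pt D.hX hQ
  ht0 Q hQ hc := (S40F2N7_sub_unit D N.O₁ D.X_unit₁ (hm₁ _ (S40F2N7_at_X D Q hQ hc))).1
  hunif Q hQ hc := S40F2N7_uniformiser D hA hfin hm₁ hm₂ Q hQ hc (hloc Q hQ hc)
  hsep Q Q' hQ hQ' hc hc' hX := S40F2YI_pt_ext Q Q'
    (S40F2N7_place_unique D hA Q Q' hQ hQ' hc hc' hX (hloc Q hQ hc) (hloc Q' hQ' hc'))

end

end Fermat.Agent.S40
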