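import Mathlib

/-!
# TRACK 13 (S40), package P4-SLOPE (abstract) of the first-order route for (F2') (helper22) — prefix `S40F2S_`

Mathlib only.  `K` is a field (think: the function field of `X₀(M'p)` over `ℚ̄`), and a *node datum*
`S40F2S_Node K` consists of

* `O₁ O₂ : ValuationSubring K`   — the two component valuations `V₁`, `V₂`;
* `S₁ ≤ O₁`, `S₂ ≤ O₂`           — the rank-2 composites "`V_j` followed by the place `s` on `C_j`"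
  (`g ∈ S_j` iff `g ∈ O_j` and `red_j g` is regular at `s`; `g ∈ S_j.nonunits` iff moreover its value at `s` is `0`);
* `Pts : Set (ValuationSubring K)` — the places of `K` centred at the node `s`;
* `C : Subfield K`                — the constants, contained in every place of `Pts`, with `C ∩ O_j ⊆ S_j`;
* `glue` (**GLUE = (G3)**, a hypothesis here): a function of `O₁ ∩ O₂` without pole centred at `s` is regular at `s`
  on both components, and its value at `s` on `C₁` is `0` iff its value at `s` on `C₂` is `0`.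

Results (for a coordinate pair `X * Y = ϖ`, `X` a unit of `O₁`, `Y` a unit of `O₂`, `X` without zero or pole
centred at `s`; in the application `red₁ X`, `red₂ Y` are uniformisers at `s`):

* `S40F2S_slope`  (**SLOPE**): `f` without zero/pole centred at `s`, `f = c₁ · X^n · (unit of S₁)`, `f = c₂ · (unit of O₂)`
  ⇒ `c₂ / (c₁ ϖ^n)` is a unit of `O₂` and `f = c₂ · Y^(-n) · (unit of S₂)`
  (`V₂(f) − V₁(f) = ord_s(red₁ f) · v(ϖ)` and `ord_s(red₂ f) = − ord_s(red₁ f)`);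
* `S40F2S_lin₁`, `S40F2S_lin₂`: `X − w = X · (unit of S₁) = w · (unit of S₂)` for a constant `0 < v(w) < v(ϖ)`;
* `S40F2S_slope_gen` (**Step 4**): `u = u' · ∏ (X − w i)^(m i)`, `u'` without zero/pole centred at `s`
  ⇒ `c₂ / (c₁ · ϖ^n · ∏ (w i / ϖ)^(m i))` is a unit of `O₂`
  (`V₂(u) − V₁(u) = n v(ϖ) − Σ m_i (v(ϖ) − v(w_i))`);
* `S40F2S_const_glue` (**CONST-GLUE**, the input of JUMP): `g ≡ γ₁` at `V₁`, `g ≡ γ₂` at `V₂`, `g` without pole centred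
  at `s`, `γ₁ γ₂` integral constants ⇒ `γ₁ − γ₂` is a non-unit of `O₂`.
-/

set_option autoImplicit false

namespace Fermat.Agent.S40

variable {K : Type*} [Field K]

/-- `x` is a unit of the valuation subring `O` (valuation form). -/
def S40F2S_IsU (O : ValuationSubring K) (x : K) : Prop := O.valuation x = 1

theorem S40F2S_isU_iff {O : ValuationSubring K} {x : K} :
    S40F2S_IsU O x ↔ x ∈ O ∧ x⁻¹ ∈ O ∧ x ≠ 0 := by
  unfold S40F2S_IsU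
  constructor
  · intro h
    have hx0 : x ≠ 0 := by
      rintro rfl
      simp at h
    refine ⟨(O.valuation_le_one_iff x).1 h.le, (O.valuation_le_one_iff _).1 ?_, hx0⟩
    rw [map_inv₀, h, inv_one]
  · rintro ⟨h1, h2, h0⟩
    have a1 := (O.valuation_le_one_iff x).2 h1
    have a2 := (O.valuation_le_one_iff _).2 h2
    rw [map_inv₀] at a2
    have hv0 : 0 < O.valuation x := zero_lt_iff.2 ((Valuation.ne_zero_iff _).2 h0)
    exact le_antisymm a1 ((inv_le_one₀ hv0).1 a2)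

theorem S40F2S_IsU.ne_zero {O : ValuationSubring K} {x : K} (h : S40F2S_IsU O x) : x ≠ 0 :=
  (S40F2S_isU_iff.1 h).2.2

theorem S40F2S_IsU.mem {O : ValuationSubring K} {x : K} (h : S40F2S_IsU O x) : x ∈ O :=
  (S40F2S_isU_iff.1 h).1

theorem S40F2S_IsU.inv_mem {O : ValuationSubring K} {x : K} (h : S40F2S_IsU O x) : x⁻¹ ∈ O :=
  (S40F2S_isU_iff.1 h).2.1

theorem S40F2S_IsU.mul {O : ValuationSubring K} {x y : K} (hx : S40F2S_IsU O x)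
    (hy : S40F2S_IsU O y) : S40F2S_IsU O (x * y) := by
  unfold S40F2S_IsU at *
  rw [map_mul, hx, hy, one_mul]

theorem S40F2S_IsU.inv {O : ValuationSubring K} {x : K} (hx : S40F2S_IsU O x) :
    S40F2S_IsU O x⁻¹ := by
  unfold S40F2S_IsU at *
  rw [map_inv₀, hx, inv_one]

theorem S40F2S_IsU.div {O : ValuationSubring K} {x y : K} (hx : S40F2S_IsU O x)
    (hy : S40F2S_IsU O y) : S40F2S_IsU O (x / y) := by
  rw [div_eq_mul_inv]
  exact hx.mul hy.inv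

theorem S40F2S_IsU.zpow {O : ValuationSubring K} {x : K} (hx : S40F2S_IsU O x) (n : ℤ) :
    S40F2S_IsU O (x ^ n) := by
  unfold S40F2S_IsU at *
  rw [map_zpow₀, hx, one_zpow]

theorem S40F2S_isU_one (O : ValuationSubring K) : S40F2S_IsU O (1 : K) := by
  unfold S40F2S_IsU
  exact map_one _

/-- units of a smaller valuation subring are units of the bigger one. -/
theorem S40F2S_IsU.mono {S O : ValuationSubring K} (h : S ≤ O) {x : K} (hx : S40F2S_IsU S x) :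
    S40F2S_IsU O x :=
  S40F2S_isU_iff.2 ⟨h hx.mem, h hx.inv_mem, hx.ne_zero⟩

/-- an element of `O` which is not a non-unit is a unit. -/
theorem S40F2S_isU_of_not_nonunits {O : ValuationSubring K} {x : K} (hx : x ∈ O)
    (hn : x ∉ O.nonunits) : S40F2S_IsU O x := by
  unfold S40F2S_IsU
  have a1 := (O.valuation_le_one_iff x).2 hx
  rw [ValuationSubring.mem_nonunits_iff] at hn
  exact le_antisymm a1 (not_lt.1 hn)

theorem S40F2S_IsU.not_nonunits {O : ValuationSubring K} {x : K} (hx : S40F2S_IsU O x) :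
    x ∉ O.nonunits := by
  rw [ValuationSubring.mem_nonunits_iff]
  unfold S40F2S_IsU at hx
  rw [hx]
  exact lt_irrefl _

/-- `1 − t` is a unit for a non-unit `t`. -/
theorem S40F2S_isU_one_sub {O : ValuationSubring K} {t : K} (ht : t ∈ O.nonunits) :
    S40F2S_IsU O (1 - t) := by
  rw [ValuationSubring.mem_nonunits_iff] at ht
  unfold S40F2S_IsU
  exact Valuation.map_one_sub_of_lt _ ht

/-- a unit times a non-unit is a non-unit. -/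
theorem S40F2S_nonunits_mul_isU {O : ValuationSubring K} {t x : K} (ht : t ∈ O.nonunits)
    (hx : S40F2S_IsU O x) : t * x ∈ O.nonunits := by
  rw [ValuationSubring.mem_nonunits_iff] at ht ⊢
  unfold S40F2S_IsU at hx
  rw [map_mul, hx, mul_one]
  exact ht

/-- the node datum (see the module docstring). -/
structure S40F2S_Node (K : Type*) [Field K] where
  O₁ : ValuationSubring K
  O₂ : ValuationSubring K
  S₁ : ValuationSubring K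
  S₂ : ValuationSubring K
  C : Subfield K
  Pts : Set (ValuationSubring K)
  le₁ : S₁ ≤ O₁
  le₂ : S₂ ≤ O₂
  const₁ : ∀ c ∈ C, c ∈ O₁ → c ∈ S₁
  const₂ : ∀ c ∈ C, c ∈ O₂ → c ∈ S₂
  constP : ∀ c ∈ C, ∀ Q ∈ Pts, c ∈ Q
  glue : ∀ g : K, g ∈ O₁ → g ∈ O₂ → (∀ Q ∈ Pts, g ∈ Q) →
    g ∈ S₁ ∧ g ∈ S₂ ∧ (g ∈ S₁.nonunits ↔ g ∈ S₂.nonunits)

variable (N : S40F2S_Node K)

/-- a constant which is a unit of `O₂` is a unit of `S₂`. -/
theorem S40F2S_const_isU₂ {c : K} (hc : c ∈ N.C) (h : S40F2S_IsU N.O₂ c) : S40F2S_IsU N.S₂ c :=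
  S40F2S_isU_iff.2 ⟨N.const₂ c hc h.mem, N.const₂ _ (N.C.inv_mem hc) h.inv_mem, h.ne_zero⟩

/-- a constant which is a unit of `O₁` is a unit of `S₁`. -/
theorem S40F2S_const_isU₁ {c : K} (hc : c ∈ N.C) (h : S40F2S_IsU N.O₁ c) : S40F2S_IsU N.S₁ c :=
  S40F2S_isU_iff.2 ⟨N.const₁ c hc h.mem, N.const₁ _ (N.C.inv_mem hc) h.inv_mem, h.ne_zero⟩

/-- a nonzero constant is a unit of every place centred at `s`. -/
theorem S40F2S_const_isUP {c : K} (hc : c ∈ N.C) (hc0 : c ≠ 0) {Q : ValuationSubring K}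
    (hQ : Q ∈ N.Pts) : S40F2S_IsU Q c :=
  S40F2S_isU_iff.2 ⟨N.constP c hc Q hQ, N.constP _ (N.C.inv_mem hc) Q hQ, hc0⟩

/-- **GLUE for units**: a unit of `S₁` which lies in `O₂` and has no pole centred at `s` is a unit of `S₂`. -/
theorem S40F2S_glue_unit {g : K} (h₁ : S40F2S_IsU N.S₁ g) (h₂ : g ∈ N.O₂)
    (hP : ∀ Q ∈ N.Pts, g ∈ Q) : S40F2S_IsU N.S₂ g := by
  obtain ⟨-, hS₂, hiff⟩ := N.glue g (N.le₁ h₁.mem) h₂ hP
  exact S40F2S_isU_of_not_nonunits hS₂ (fun h => h₁.not_nonunits (hiff.2 h))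

/-- **SLOPE**. -/
theorem S40F2S_slope {X Y ϖ : K} (hXY : X * Y = ϖ) (hϖ : ϖ ∈ N.C)
    (hX : S40F2S_IsU N.O₁ X) (hY : S40F2S_IsU N.O₂ Y)
    (hXP : ∀ Q ∈ N.Pts, S40F2S_IsU Q X)
    {f c₁ c₂ : K} (hc₁ : c₁ ∈ N.C) (hc₂ : c₂ ∈ N.C) (hc₁0 : c₁ ≠ 0) (hc₂0 : c₂ ≠ 0) (n : ℤ)
    (hf₁ : S40F2S_IsU N.S₁ (f / (c₁ * X ^ n)))
    (hf₂ : S40F2S_IsU N.O₂ (f / c₂))
    (hfP : ∀ Q ∈ N.Pts, S40F2S_IsU Q f) :
    S40F2S_IsU N.O₂ (c₂ / (c₁ * ϖ ^ n)) ∧ S40F2S_IsU N.S₂ (f / (c₂ * Y ^ (-n))) := by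
  have hX0 : X ≠ 0 := hX.ne_zero
  have hY0 : Y ≠ 0 := hY.ne_zero
  have hϖ0 : ϖ ≠ 0 := by rw [← hXY]; exact mul_ne_zero hX0 hY0
  have hf0 : f ≠ 0 := by
    intro h
    rw [h, zero_div] at hf₂
    exact hf₂.ne_zero rfl
  set g : K := f / (c₁ * X ^ n) with hg
  set a : K := c₂ / (c₁ * ϖ ^ n) with ha
  have haC : a ∈ N.C := N.C.div_mem hc₂ (N.C.mul_mem hc₁ (N.C.zpow_mem hϖ n))
  have ha0 : a ≠ 0 := div_ne_zero hc₂0 (mul_ne_zero hc₁0 (zpow_ne_zero _ hϖ0))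
  -- the key identity `g = (f / c₂) * a * Y ^ n`
  have hkey : g = f / c₂ * a * Y ^ n := by
    rw [hg, ha, ← hXY, mul_zpow]
    have h1 : X ^ n ≠ 0 := zpow_ne_zero _ hX0
    have h2 : Y ^ n ≠ 0 := zpow_ne_zero _ hY0
    field_simp
  have hgP : ∀ Q ∈ N.Pts, S40F2S_IsU Q g := fun Q hQ =>
    (hfP Q hQ).div ((S40F2S_const_isUP N hc₁ hc₁0 hQ).mul ((hXP Q hQ).zpow n))
  -- `g` is a unit of `S₂`
  have hgS₂ : S40F2S_IsU N.S₂ g := by
    rcases N.O₂.mem_or_inv_mem a with h | h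
    · -- `a ∈ O₂`
      have hgO₂ : g ∈ N.O₂ := by
        rw [hkey]
        exact N.O₂.mul_mem _ _ (N.O₂.mul_mem _ _ hf₂.mem h) (hY.zpow n).mem
      exact S40F2S_glue_unit N hf₁ hgO₂ (fun Q hQ => (hgP Q hQ).mem)
    · -- `a⁻¹ ∈ O₂`
      have hgO₂ : g⁻¹ ∈ N.O₂ := by
        rw [hkey, mul_inv, mul_inv]
        exact N.O₂.mul_mem _ _ (N.O₂.mul_mem _ _ hf₂.inv_mem h) (hY.zpow n).inv_mem
      have := S40F2S_glue_unit N hf₁.inv hgO₂ (fun Q hQ => (hgP Q hQ).inv_mem)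
      simpa using this.inv
  have haU : S40F2S_IsU N.O₂ a := by
    have h1 : a = g / (f / c₂ * Y ^ n) := by
      rw [hkey]
      have h2 : Y ^ n ≠ 0 := zpow_ne_zero _ hY0
      field_simp
    rw [h1]
    exact (hgS₂.mono N.le₂).div (hf₂.mul (hY.zpow n))
  refine ⟨haU, ?_⟩
  have h1 : f / (c₂ * Y ^ (-n)) = g / a := by
    rw [hkey, zpow_neg]
    have h2 : Y ^ n ≠ 0 := zpow_ne_zero _ hY0
    field_simp
  rw [h1]
  exact hgS₂.div (S40F2S_const_isU₂ N haC haU)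

/-- `X − w = X · (unit of S₁)` for a constant `w` with `v(w) > 0`. -/
theorem S40F2S_lin₁ {X w : K} (hX : S40F2S_IsU N.O₁ X) (hw : w ∈ N.O₁.nonunits) :
    S40F2S_IsU N.S₁ ((X - w) / X) := by
  have hX0 : X ≠ 0 := hX.ne_zero
  have h1 : (X - w) / X = 1 - w * X⁻¹ := by field_simp
  rw [h1]
  exact S40F2S_isU_one_sub
    (ValuationSubring.nonunits_le_nonunits.2 N.le₁ (S40F2S_nonunits_mul_isU hw hX.inv))

/-- `X − w = (−w) · (unit of S₂)` for a nonzero constant `w` with `v(w) < v(ϖ)`, written with `w`: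
`(X − w) / w` is a unit of `S₂`. -/
theorem S40F2S_lin₂ {X Y ϖ w : K} (hXY : X * Y = ϖ) (hY : S40F2S_IsU N.O₂ Y) (hw0 : w ≠ 0)
    (hw : ϖ / w ∈ N.O₂.nonunits) : S40F2S_IsU N.S₂ ((X - w) / w) := by
  have hY0 : Y ≠ 0 := hY.ne_zero
  have h1 : (X - w) / w = -(1 - ϖ / w * Y⁻¹) := by
    rw [← hXY]
    field_simp
    ring
  rw [h1]
  have h2 : S40F2S_IsU N.S₂ (1 - ϖ / w * Y⁻¹) := S40F2S_isU_one_sub
    (ValuationSubring.nonunits_le_nonunits.2 N.le₂ (S40F2S_nonunits_mul_isU hw hY.inv))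
  unfold S40F2S_IsU at h2 ⊢
  rw [Valuation.map_neg]
  exact h2

/-- **CONST-GLUE**: `g ≡ γ₁` at `V₁`, `g ≡ γ₂` at `V₂`, no pole of `g` centred at `s`, `γ₁ γ₂` integral constants
⇒ `γ₁ − γ₂` is a non-unit. -/
theorem S40F2S_const_glue {g γ₁ γ₂ : K} (hγ₁ : γ₁ ∈ N.C) (hγ₂ : γ₂ ∈ N.C)
    (hγ₁₂ : γ₁ ∈ N.O₂) (hγ₂₂ : γ₂ ∈ N.O₂)
    (h₁ : g - γ₁ ∈ N.O₁.nonunits) (h₂ : g - γ₂ ∈ N.O₂.nonunits)
    (hP : ∀ Q ∈ N.Pts, g ∈ Q) : γ₁ - γ₂ ∈ N.O₂.nonunits := by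
  have hgO₂ : g ∈ N.O₂ := by
    have : g = (g - γ₂) + γ₂ := by ring
    rw [this]
    exact N.O₂.add_mem _ _ (ValuationSubring.nonunits_subset h₂) hγ₂₂
  obtain ⟨-, -, hiff⟩ := N.glue (g - γ₁) (ValuationSubring.nonunits_subset h₁)
    (N.O₂.sub_mem hgO₂ hγ₁₂) (fun Q hQ => Q.sub_mem (hP Q hQ) (N.constP γ₁ hγ₁ Q hQ))
  have a1 : g - γ₁ ∈ N.S₂.nonunits :=
    hiff.1 (ValuationSubring.nonunits_le_nonunits.2 N.le₁ h₁)
  have a2 : g - γ₂ ∈ N.S₂.nonunits := ValuationSubring.nonunits_le_nonunits.2 N.le₂ h₂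
  have a3 : γ₁ - γ₂ ∈ N.S₂.nonunits := by
    rw [ValuationSubring.mem_nonunits_iff] at a1 a2 ⊢
    have : γ₁ - γ₂ = (g - γ₂) - (g - γ₁) := by ring
    rw [this]
    exact lt_of_le_of_lt (Valuation.map_sub _ _ _) (max_lt a2 a1)
  by_contra hcon
  have hU : S40F2S_IsU N.O₂ (γ₁ - γ₂) :=
    S40F2S_isU_of_not_nonunits (N.O₂.sub_mem hγ₁₂ hγ₂₂) hcon
  exact (S40F2S_const_isU₂ N (N.C.sub_mem hγ₁ hγ₂) hU).not_nonunits a3

/-- **SLOPE relative to a reference function** `G` (no coordinate needed, helper21's remark): `f`, `G` without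
zero/pole centred at `s`, `f^k = c₁^k · G^n · (unit of S₁)` (i.e. `k · ord_s(red₁ f) = n · ord_s(red₁ G)`, `V₁ G = 0`),
`f = c₂ · (unit of O₂)`, `G = d₂ · (unit of O₂)` ⇒ `c₂^k / (c₁^k d₂^n)` is a unit of `O₂`
(`k (V₂ f − V₁ f) = n V₂ G`), and `f^k / (c₁^k G^n)` is a unit of `S₂`. -/
theorem S40F2S_slope_rel {G d₂ : K} (hd₂ : d₂ ∈ N.C) (hd₂0 : d₂ ≠ 0)
    (hG₂ : S40F2S_IsU N.O₂ (G / d₂)) (hGP : ∀ Q ∈ N.Pts, S40F2S_IsU Q G)
    {f c₁ c₂ : K} (hc₁ : c₁ ∈ N.C) (hc₂ : c₂ ∈ N.C) (hc₁0 : c₁ ≠ 0) (hc₂0 : c₂ ≠ 0) (k n : ℤ)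
    (hf₁ : S40F2S_IsU N.S₁ (f ^ k / (c₁ ^ k * G ^ n)))
    (hf₂ : S40F2S_IsU N.O₂ (f / c₂))
    (hfP : ∀ Q ∈ N.Pts, S40F2S_IsU Q f) :
    S40F2S_IsU N.O₂ (c₂ ^ k / (c₁ ^ k * d₂ ^ n)) ∧ S40F2S_IsU N.S₂ (f ^ k / (c₁ ^ k * G ^ n)) := by
  have hG0 : G ≠ 0 := by
    intro h
    rw [h, zero_div] at hG₂
    exact hG₂.ne_zero rfl
  have hf0 : f ≠ 0 := by
    intro h
    rw [h, zero_div] at hf₂
    exact hf₂.ne_zero rfl
  set g : K := f ^ k / (c₁ ^ k * G ^ n) with hg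
  set a : K := c₂ ^ k / (c₁ ^ k * d₂ ^ n) with ha
  have haC : a ∈ N.C :=
    N.C.div_mem (N.C.zpow_mem hc₂ k) (N.C.mul_mem (N.C.zpow_mem hc₁ k) (N.C.zpow_mem hd₂ n))
  have hU : S40F2S_IsU N.O₂ ((f / c₂) ^ k / (G / d₂) ^ n) := (hf₂.zpow k).div (hG₂.zpow n)
  -- the key identity `g = (f / c₂)^k / (G / d₂)^n * a`
  have hkey : g = (f / c₂) ^ k / (G / d₂) ^ n * a := by
    rw [hg, ha, div_zpow, div_zpow]
    have h1 : c₁ ^ k ≠ 0 := zpow_ne_zero _ hc₁0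
    have h2 : c₂ ^ k ≠ 0 := zpow_ne_zero _ hc₂0
    have h3 : d₂ ^ n ≠ 0 := zpow_ne_zero _ hd₂0
    have h4 : G ^ n ≠ 0 := zpow_ne_zero _ hG0
    field_simp
  have hgP : ∀ Q ∈ N.Pts, S40F2S_IsU Q g := fun Q hQ =>
    ((hfP Q hQ).zpow k).div (((S40F2S_const_isUP N hc₁ hc₁0 hQ).zpow k).mul ((hGP Q hQ).zpow n))
  have hgS₂ : S40F2S_IsU N.S₂ g := by
    rcases N.O₂.mem_or_inv_mem a with h | h
    · have hgO₂ : g ∈ N.O₂ := by
        rw [hkey]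
        exact N.O₂.mul_mem _ _ hU.mem h
      exact S40F2S_glue_unit N hf₁ hgO₂ (fun Q hQ => (hgP Q hQ).mem)
    · have hgO₂ : g⁻¹ ∈ N.O₂ := by
        rw [hkey, mul_inv]
        exact N.O₂.mul_mem _ _ hU.inv_mem h
      have := S40F2S_glue_unit N hf₁.inv hgO₂ (fun Q hQ => (hgP Q hQ).inv_mem)
      simpa using this.inv
  refine ⟨?_, hgS₂⟩
  have h1 : a = g / ((f / c₂) ^ k / (G / d₂) ^ n) := by
    rw [hkey]
    have h2 : (f / c₂) ^ k / (G / d₂) ^ n ≠ 0 := hU.ne_zero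
    field_simp
  rw [h1]
  exact (hgS₂.mono N.le₂).div hU

/-- `X − w ≠ 0` for a non-unit `w` and a unit `X`. -/
theorem S40F2S_lin_ne_zero {X w : K} (hX : S40F2S_IsU N.O₁ X) (hw : w ∈ N.O₁.nonunits) :
    X - w ≠ 0 := by
  intro h
  have := (S40F2S_lin₁ N hX hw).ne_zero
  rw [h, zero_div] at this
  exact this rfl

/-- **SLOPE, general form (Step 4)**: `u = u' · ∏ (X − w i)^(m i)` with `u'` without zero/pole centred at `s`
and constants `0 < v(w i) < v(ϖ)`; `u = c₁ · X^n · (unit of S₁)`, `u = c₂ · (unit of O₂)`.  Then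
`c₂ / (c₁ · ϖ^n · ∏ (w i / ϖ)^(m i))` is a unit of `O₂`, i.e.
`V₂(u) − V₁(u) = n · v(ϖ) − Σ m_i · (v(ϖ) − v(w_i))`. -/
theorem S40F2S_slope_gen {X Y ϖ : K} (hXY : X * Y = ϖ) (hϖ : ϖ ∈ N.C)
    (hX : S40F2S_IsU N.O₁ X) (hY : S40F2S_IsU N.O₂ Y)
    (hXP : ∀ Q ∈ N.Pts, S40F2S_IsU Q X)
    {ι : Type*} (s : Finset ι) (w : ι → K) (m : ι → ℤ)
    (hwC : ∀ i ∈ s, w i ∈ N.C) (hw0 : ∀ i ∈ s, w i ≠ 0)
    (hw₁ : ∀ i ∈ s, w i ∈ N.O₁.nonunits) (hw₂ : ∀ i ∈ s, ϖ / w i ∈ N.O₂.nonunits)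
    {u' c₁ : K} (hc₁ : c₁ ∈ N.C) (hc₁0 : c₁ ≠ 0)
    (hu'P : ∀ Q ∈ N.Pts, S40F2S_IsU Q u')
    {u c₂ : K} (hu : u = u' * ∏ i ∈ s, (X - w i) ^ m i)
    (hc₂ : c₂ ∈ N.C) (hc₂0 : c₂ ≠ 0) (n : ℤ)
    (hu₁ : S40F2S_IsU N.S₁ (u / (c₁ * X ^ n)))
    (hu₂ : S40F2S_IsU N.O₂ (u / c₂)) :
    S40F2S_IsU N.O₂ (c₂ / (c₁ * ϖ ^ n * ∏ i ∈ s, (w i / ϖ) ^ m i)) := by
  classical
  have hX0 : X ≠ 0 := hX.ne_zero
  have hY0 : Y ≠ 0 := hY.ne_zero
  have hϖ0 : ϖ ≠ 0 := by rw [← hXY]; exact mul_ne_zero hX0 hY0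
  induction s using Finset.induction_on generalizing u c₂ n with
  | empty =>
    simp only [Finset.prod_empty, mul_one] at hu ⊢
    subst hu
    exact (S40F2S_slope N hXY hϖ hX hY hXP hc₁ hc₂ hc₁0 hc₂0 n hu₁ hu₂ hu'P).1
  | insert j t hjt ih =>
    have hwj0 : w j ≠ 0 := hw0 j (Finset.mem_insert_self j t)
    have hwjC : w j ∈ N.C := hwC j (Finset.mem_insert_self j t)
    have hl₁ := S40F2S_lin₁ N hX (hw₁ j (Finset.mem_insert_self j t))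
    have hl₂ := S40F2S_lin₂ N hXY hY hwj0 (hw₂ j (Finset.mem_insert_self j t))
    have hlin0 : X - w j ≠ 0 := S40F2S_lin_ne_zero N hX (hw₁ j (Finset.mem_insert_self j t))
    rw [Finset.prod_insert hjt] at hu ⊢
    have hA : (X - w j) ^ m j ≠ 0 := zpow_ne_zero _ hlin0
    have hB : X ^ m j ≠ 0 := zpow_ne_zero _ hX0
    have hD : X ^ n ≠ 0 := zpow_ne_zero _ hX0
    have hW : w j ^ m j ≠ 0 := zpow_ne_zero _ hwj0
    have hE : ϖ ^ n ≠ 0 := zpow_ne_zero _ hϖ0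
    have hG : ϖ ^ m j ≠ 0 := zpow_ne_zero _ hϖ0
    have key := ih (fun i hi => hwC i (Finset.mem_insert_of_mem hi))
      (fun i hi => hw0 i (Finset.mem_insert_of_mem hi))
      (fun i hi => hw₁ i (Finset.mem_insert_of_mem hi))
      (fun i hi => hw₂ i (Finset.mem_insert_of_mem hi))
      (u := u' * ∏ i ∈ t, (X - w i) ^ m i) (c₂ := c₂ / w j ^ m j) rfl
      (N.C.div_mem hc₂ (N.C.zpow_mem hwjC _)) (div_ne_zero hc₂0 hW) (n - m j) ?_ ?_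
    · have e : c₂ / (c₁ * ϖ ^ n * ((w j / ϖ) ^ m j * ∏ i ∈ t, (w i / ϖ) ^ m i)) =
          c₂ / w j ^ m j / (c₁ * ϖ ^ (n - m j) * ∏ i ∈ t, (w i / ϖ) ^ m i) := by
        rw [zpow_sub₀ hϖ0, div_zpow]
        field_simp
      rw [e]
      exact key
    · have e : (u' * ∏ i ∈ t, (X - w i) ^ m i) / (c₁ * X ^ (n - m j)) =
          u / (c₁ * X ^ n) * (((X - w j) / X) ^ m j)⁻¹ := by
        rw [hu, zpow_sub₀ hX0, div_zpow]
        field_simp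
      rw [e]
      exact hu₁.mul (hl₁.zpow _).inv
    · have e : (u' * ∏ i ∈ t, (X - w i) ^ m i) / (c₂ / w j ^ m j) =
          u / c₂ * (((X - w j) / w j) ^ m j)⁻¹ := by
        rw [hu, div_zpow]
        field_simp
      rw [e]
      exact hu₂.mul ((hl₂.mono N.le₂).zpow _).inv

end Fermat.Agent.S40
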