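import Fermat.Agent.S40.NodeAbs
import Fermat.Agent.S40.F2Slope

/-!
# TRACK 13 (S40), P4-SLOPE: bridge of `F2Slope.lean` to helper26's node datum `S40NA_Node` (helper22) — prefix `S40F2SN_`

The slope formulas of `F2Slope.lean`, re-proved in the vocabulary of `NodeAbs.lean` (`S40NA_Node L F k`, places
`S40NA_Pt`, `S40NA_Centred`, `S40NA_UnitAt`), so that they apply verbatim to the nodes of `NodeInst.lean`
(`S40NI_exists_nodes`), where the finiteness of poles `hfin` is `S40NI_poles_finite`.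

* `S40F2SN_NoZP N g` : no zero and no pole of `g` among the places of the chart specialises to the node;
* `S40F2SN_U1 N g`   : `g` is a unit for `V₁` and `red₁ g` is a unit at the node (`S40NA_UnitAt`);
* `S40F2SN_glue_unit`: `U1 g`, `NoZP g` ⇒ `g` is a unit for `V₂`                    (= `S40NA_slope`);
* `S40F2SN_slope`    : `f = c₁ X^n · (U1-unit) = c₂ · (unit of O₂)`, `NoZP f` ⇒ `c₂ / (c₁ ϖ^n)` is a unit of `O₂`;
* `S40F2SN_slope_rel`: the same against a reference function `G` instead of the coordinate `X`;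
* `S40F2SN_slope_gen`: **Step 4**: `u = u' · ∏ (X − w i)^(m i)`, `NoZP u'` ⇒
  `c₂ / (c₁ · ϖ^n · ∏ (w i / ϖ)^(m i))` is a unit of `O₂`.
Constants are the elements of `(algebraMap L F).fieldRange`.
-/

set_option autoImplicit false

namespace Fermat.Agent.S40

variable {L F k : Type*} [Field L] [Field F] [Algebra L F] [Field k]

/-- no zero and no pole of `g` among the places of the chart specialises to the node. -/
def S40F2SN_NoZP (N : S40NA_Node L F k) (g : F) : Prop :=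
  ∀ (Q : S40NA_Pt L F) (hQ : Q ∈ N.U), S40NA_Centred N Q hQ → S40F2S_IsU Q.P g

theorem S40F2SN_noZP_mul (N : S40NA_Node L F k) {g h : F} (hg : S40F2SN_NoZP N g)
    (hh : S40F2SN_NoZP N h) : S40F2SN_NoZP N (g * h) :=
  fun Q hQ hc => (hg Q hQ hc).mul (hh Q hQ hc)

theorem S40F2SN_noZP_inv (N : S40NA_Node L F k) {g : F} (hg : S40F2SN_NoZP N g) :
    S40F2SN_NoZP N g⁻¹ :=
  fun Q hQ hc => (hg Q hQ hc).inv

theorem S40F2SN_noZP_div (N : S40NA_Node L F k) {g h : F} (hg : S40F2SN_NoZP N g)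
    (hh : S40F2SN_NoZP N h) : S40F2SN_NoZP N (g / h) :=
  fun Q hQ hc => (hg Q hQ hc).div (hh Q hQ hc)

theorem S40F2SN_noZP_zpow (N : S40NA_Node L F k) {g : F} (hg : S40F2SN_NoZP N g) (n : ℤ) :
    S40F2SN_NoZP N (g ^ n) :=
  fun Q hQ hc => (hg Q hQ hc).zpow n

/-- a nonzero constant has no zero and no pole. -/
theorem S40F2SN_noZP_const (N : S40NA_Node L F k) {c : F}
    (hc : c ∈ (algebraMap L F).fieldRange) (hc0 : c ≠ 0) : S40F2SN_NoZP N c := by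
  intro Q _ _
  obtain ⟨a, rfl⟩ := hc
  refine S40F2S_isU_iff.2 ⟨Q.alg_mem a, ?_, hc0⟩
  rw [← map_inv₀]
  exact Q.alg_mem _

/-- `g` is a unit for `V₁` whose reduction on `C₁` is a unit at the node. -/
def S40F2SN_U1 (N : S40NA_Node L F k) (g : F) : Prop :=
  S40F2S_IsU N.O₁ g ∧ S40NA_UnitAt N g

theorem S40F2SN_u1_mul (N : S40NA_Node L F k) {g h : F} (hg : S40F2SN_U1 N g)
    (hh : S40F2SN_U1 N h) : S40F2SN_U1 N (g * h) :=
  ⟨hg.1.mul hh.1, S40NA_unitAt_mul N hg.1.mem hg.2 hh.2⟩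

theorem S40F2SN_u1_inv (N : S40NA_Node L F k) {g : F} (hg : S40F2SN_U1 N g) :
    S40F2SN_U1 N g⁻¹ :=
  ⟨hg.1.inv, S40NA_unitAt_inv N hg.1.ne_zero hg.1.inv_mem hg.2⟩

theorem S40F2SN_u1_div (N : S40NA_Node L F k) {g h : F} (hg : S40F2SN_U1 N g)
    (hh : S40F2SN_U1 N h) : S40F2SN_U1 N (g / h) := by
  rw [div_eq_mul_inv]
  exact S40F2SN_u1_mul N hg (S40F2SN_u1_inv N hh)

/-- `1 − t` is a `U1`-unit for a non-unit `t` of `O₁`. -/
theorem S40F2SN_u1_one_sub (N : S40NA_Node L F k) {t : F} (ht : t ∈ N.O₁.nonunits) :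
    S40F2SN_U1 N (1 - t) := by
  refine ⟨S40F2S_isU_one_sub ht, 1, 1, N.Lam.one_mem, N.Lam.one_mem, ?_, ?_, ?_⟩
  · have e : (1 - t) * 1 - 1 = -t := by ring
    rw [e]
    exact N.O₁.nonunits.neg_mem ht
  · have e : (⟨1, N.Lam.one_mem⟩ : ↥N.Lam) = 1 := rfl
    rw [e, map_one]; exact one_ne_zero
  · have e : (⟨1, N.Lam.one_mem⟩ : ↥N.Lam) = 1 := rfl
    rw [e, map_one]; exact one_ne_zero

theorem S40F2SN_u1_one (N : S40NA_Node L F k) : S40F2SN_U1 N (1 : F) := by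
  have := S40F2SN_u1_one_sub N (t := 0) N.O₁.nonunits.zero_mem
  simpa using this

theorem S40F2SN_u1_pow (N : S40NA_Node L F k) {g : F} (hg : S40F2SN_U1 N g) (n : ℕ) :
    S40F2SN_U1 N (g ^ n) := by
  induction n with
  | zero => simpa using S40F2SN_u1_one N
  | succ n ih => rw [pow_succ]; exact S40F2SN_u1_mul N ih hg

theorem S40F2SN_u1_zpow (N : S40NA_Node L F k) {g : F} (hg : S40F2SN_U1 N g) (n : ℤ) :
    S40F2SN_U1 N (g ^ n) := by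
  cases n with
  | ofNat n => simpa using S40F2SN_u1_pow N hg n
  | negSucc n =>
    rw [zpow_negSucc]
    exact S40F2SN_u1_inv N (S40F2SN_u1_pow N hg (n + 1))

/-- **GLUE for units** (`S40NA_slope`): a `U1`-unit without zero and pole specialising to the node is a unit
for `V₂`. -/
theorem S40F2SN_glue_unit (N : S40NA_Node L F k)
    (hfin : ∀ g : F, {Q : S40NA_Pt L F | Q ∈ N.U ∧ g ∉ Q.P}.Finite) {g : F}
    (h₁ : S40F2SN_U1 N g) (hP : S40F2SN_NoZP N g) : S40F2S_IsU N.O₂ g := by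
  have := S40NA_slope N g h₁.1.ne_zero h₁.1.mem h₁.1.inv_mem (hfin g)
    (fun Q hQ hg hc => hg (hP Q hQ hc).mem) (hfin g⁻¹)
    (fun Q hQ hg hc => hg (hP Q hQ hc).inv_mem) h₁.2
  exact S40F2S_isU_iff.2 ⟨this.1, this.2, h₁.1.ne_zero⟩

/-- **SLOPE**: `V₂(f) − V₁(f) = n · v(ϖ)` for `f` without zero/pole specialising to the node, `n = ord_s(red₁ f)`. -/
theorem S40F2SN_slope (N : S40NA_Node L F k)
    (hfin : ∀ g : F, {Q : S40NA_Pt L F | Q ∈ N.U ∧ g ∉ Q.P}.Finite)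
    {X Y ϖ : F} (hXY : X * Y = ϖ) (hX : S40F2S_IsU N.O₁ X) (hY : S40F2S_IsU N.O₂ Y)
    (hXP : S40F2SN_NoZP N X)
    {f c₁ c₂ : F} (hc₁ : c₁ ∈ (algebraMap L F).fieldRange) (hc₁0 : c₁ ≠ 0) (hc₂0 : c₂ ≠ 0) (n : ℤ)
    (hf₁ : S40F2SN_U1 N (f / (c₁ * X ^ n)))
    (hf₂ : S40F2S_IsU N.O₂ (f / c₂))
    (hfP : S40F2SN_NoZP N f) :
    S40F2S_IsU N.O₂ (c₂ / (c₁ * ϖ ^ n)) := by
  have hX0 : X ≠ 0 := hX.ne_zero
  have hY0 : Y ≠ 0 := hY.ne_zero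
  have hgP : S40F2SN_NoZP N (f / (c₁ * X ^ n)) :=
    S40F2SN_noZP_div N hfP
      (S40F2SN_noZP_mul N (S40F2SN_noZP_const N hc₁ hc₁0) (S40F2SN_noZP_zpow N hXP n))
  have hg := S40F2SN_glue_unit N hfin hf₁ hgP
  have h1 : c₂ / (c₁ * ϖ ^ n) = f / (c₁ * X ^ n) / (f / c₂ * Y ^ n) := by
    have hf0 : f ≠ 0 := by
      intro h
      rw [h, zero_div] at hf₂
      exact hf₂.ne_zero rfl
    rw [← hXY, mul_zpow]
    have h1 : X ^ n ≠ 0 := zpow_ne_zero _ hX0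
    have h2 : Y ^ n ≠ 0 := zpow_ne_zero _ hY0
    field_simp
  rw [h1]
  exact hg.div (hf₂.mul (hY.zpow n))

/-- **SLOPE against a reference function** `G` (no coordinate): `k (V₂ f − V₁ f) = n V₂ G` when
`f ^ k / (c₁ ^ k G ^ n)` is a `U1`-unit (`V₁ G = 0`, `k · ord_s(red₁ f) = n · ord_s(red₁ G)`). -/
theorem S40F2SN_slope_rel (N : S40NA_Node L F k)
    (hfin : ∀ g : F, {Q : S40NA_Pt L F | Q ∈ N.U ∧ g ∉ Q.P}.Finite)
    {G d₂ : F} (hd₂0 : d₂ ≠ 0)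
    (hG₂ : S40F2S_IsU N.O₂ (G / d₂)) (hGP : S40F2SN_NoZP N G)
    {f c₁ c₂ : F} (hc₁ : c₁ ∈ (algebraMap L F).fieldRange) (hc₁0 : c₁ ≠ 0) (hc₂0 : c₂ ≠ 0)
    (k' n : ℤ)
    (hf₁ : S40F2SN_U1 N (f ^ k' / (c₁ ^ k' * G ^ n)))
    (hf₂ : S40F2S_IsU N.O₂ (f / c₂))
    (hfP : S40F2SN_NoZP N f) :
    S40F2S_IsU N.O₂ (c₂ ^ k' / (c₁ ^ k' * d₂ ^ n)) := by
  have hG0 : G ≠ 0 := by
    intro h
    rw [h, zero_div] at hG₂
    exact hG₂.ne_zero rfl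
  have hf0 : f ≠ 0 := by
    intro h
    rw [h, zero_div] at hf₂
    exact hf₂.ne_zero rfl
  have hgP : S40F2SN_NoZP N (f ^ k' / (c₁ ^ k' * G ^ n)) :=
    S40F2SN_noZP_div N (S40F2SN_noZP_zpow N hfP k')
      (S40F2SN_noZP_mul N (S40F2SN_noZP_zpow N (S40F2SN_noZP_const N hc₁ hc₁0) k')
        (S40F2SN_noZP_zpow N hGP n))
  have hg := S40F2SN_glue_unit N hfin hf₁ hgP
  have hU : S40F2S_IsU N.O₂ ((f / c₂) ^ k' / (G / d₂) ^ n) := (hf₂.zpow k').div (hG₂.zpow n)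
  have h1 : c₂ ^ k' / (c₁ ^ k' * d₂ ^ n) =
      f ^ k' / (c₁ ^ k' * G ^ n) / ((f / c₂) ^ k' / (G / d₂) ^ n) := by
    rw [div_zpow, div_zpow]
    have h1 : c₁ ^ k' ≠ 0 := zpow_ne_zero _ hc₁0
    have h2 : c₂ ^ k' ≠ 0 := zpow_ne_zero _ hc₂0
    have h3 : d₂ ^ n ≠ 0 := zpow_ne_zero _ hd₂0
    have h4 : G ^ n ≠ 0 := zpow_ne_zero _ hG0
    have h5 : f ^ k' ≠ 0 := zpow_ne_zero _ hf0
    field_simp
  rw [h1]
  exact hg.div hU

/-- `X − w = X · (U1-unit)` for `w` with `V₁ w > 0`. -/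
theorem S40F2SN_lin₁ (N : S40NA_Node L F k) {X w : F} (hX : S40F2S_IsU N.O₁ X)
    (hw : w ∈ N.O₁.nonunits) : S40F2SN_U1 N ((X - w) / X) := by
  have hX0 : X ≠ 0 := hX.ne_zero
  have h1 : (X - w) / X = 1 - w * X⁻¹ := by field_simp
  rw [h1]
  exact S40F2SN_u1_one_sub N (S40F2S_nonunits_mul_isU hw hX.inv)

/-- `X − w = w · (unit of O₂)` for `w ≠ 0` with `V₂(ϖ / w) > 0`. -/
theorem S40F2SN_lin₂ (N : S40NA_Node L F k) {X Y ϖ w : F} (hXY : X * Y = ϖ)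
    (hY : S40F2S_IsU N.O₂ Y) (hw0 : w ≠ 0) (hw : ϖ / w ∈ N.O₂.nonunits) :
    S40F2S_IsU N.O₂ ((X - w) / w) := by
  have hY0 : Y ≠ 0 := hY.ne_zero
  have h1 : (X - w) / w = -(1 - ϖ / w * Y⁻¹) := by
    rw [← hXY]
    field_simp
    ring
  rw [h1]
  have h2 : S40F2S_IsU N.O₂ (1 - ϖ / w * Y⁻¹) :=
    S40F2S_isU_one_sub (S40F2S_nonunits_mul_isU hw hY.inv)
  unfold S40F2S_IsU at h2 ⊢
  rw [Valuation.map_neg]
  exact h2

/-- **SLOPE, general form (Step 4)**: `V₂(u) − V₁(u) = n · v(ϖ) − Σ m_i · (v(ϖ) − v(w_i))`. -/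
theorem S40F2SN_slope_gen (N : S40NA_Node L F k)
    (hfin : ∀ g : F, {Q : S40NA_Pt L F | Q ∈ N.U ∧ g ∉ Q.P}.Finite)
    {X Y ϖ : F} (hXY : X * Y = ϖ) (hX : S40F2S_IsU N.O₁ X) (hY : S40F2S_IsU N.O₂ Y)
    (hXP : S40F2SN_NoZP N X)
    {ι : Type*} (s : Finset ι) (w : ι → F) (m : ι → ℤ)
    (hw0 : ∀ i ∈ s, w i ≠ 0)
    (hw₁ : ∀ i ∈ s, w i ∈ N.O₁.nonunits) (hw₂ : ∀ i ∈ s, ϖ / w i ∈ N.O₂.nonunits)
    {u' c₁ : F} (hc₁ : c₁ ∈ (algebraMap L F).fieldRange) (hc₁0 : c₁ ≠ 0)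
    (hu'P : S40F2SN_NoZP N u')
    {u c₂ : F} (hu : u = u' * ∏ i ∈ s, (X - w i) ^ m i)
    (hc₂0 : c₂ ≠ 0) (n : ℤ)
    (hu₁ : S40F2SN_U1 N (u / (c₁ * X ^ n)))
    (hu₂ : S40F2S_IsU N.O₂ (u / c₂)) :
    S40F2S_IsU N.O₂ (c₂ / (c₁ * ϖ ^ n * ∏ i ∈ s, (w i / ϖ) ^ m i)) := by
  classical
  have hX0 : X ≠ 0 := hX.ne_zero
  have hY0 : Y ≠ 0 := hY.ne_zero
  have hϖ0 : ϖ ≠ 0 := by rw [← hXY]; exact mul_ne_zero hX0 hY0
  induction s using Finset.induction_on generalizing u c₂ n with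
  | empty =>
    simp only [Finset.prod_empty, mul_one] at hu ⊢
    subst hu
    exact S40F2SN_slope N hfin hXY hX hY hXP hc₁ hc₁0 hc₂0 n hu₁ hu₂ hu'P
  | insert j t hjt ih =>
    have hwj0 : w j ≠ 0 := hw0 j (Finset.mem_insert_self j t)
    have hl₁ := S40F2SN_lin₁ N hX (hw₁ j (Finset.mem_insert_self j t))
    have hl₂ := S40F2SN_lin₂ N hXY hY hwj0 (hw₂ j (Finset.mem_insert_self j t))
    have hlin0 : X - w j ≠ 0 := by
      intro h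
      have := hl₁.1.ne_zero
      rw [h, zero_div] at this
      exact this rfl
    rw [Finset.prod_insert hjt] at hu ⊢
    have hA : (X - w j) ^ m j ≠ 0 := zpow_ne_zero _ hlin0
    have hB : X ^ m j ≠ 0 := zpow_ne_zero _ hX0
    have hD : X ^ n ≠ 0 := zpow_ne_zero _ hX0
    have hW : w j ^ m j ≠ 0 := zpow_ne_zero _ hwj0
    have hE : ϖ ^ n ≠ 0 := zpow_ne_zero _ hϖ0
    have hG : ϖ ^ m j ≠ 0 := zpow_ne_zero _ hϖ0
    have key := ih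
      (fun i hi => hw0 i (Finset.mem_insert_of_mem hi))
      (fun i hi => hw₁ i (Finset.mem_insert_of_mem hi))
      (fun i hi => hw₂ i (Finset.mem_insert_of_mem hi))
      (u := u' * ∏ i ∈ t, (X - w i) ^ m i) (c₂ := c₂ / w j ^ m j) rfl
      (div_ne_zero hc₂0 hW) (n - m j) ?_ ?_
    · have e : c₂ / (c₁ * ϖ ^ n * ((w j / ϖ) ^ m j * ∏ i ∈ t, (w i / ϖ) ^ m i)) =
          c₂ / w j ^ m j / (c₁ * ϖ ^ (n - m j) * ∏ i ∈ t, (w i / ϖ) ^ m i) := by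
        rw [zpow_sub₀ hϖ0, div_zpow]
        field_simp
      rw [e]
      exact key
    · have e : (u' * ∏ i ∈ t, (X - w i) ^ m i) / (c₁ * X ^ (n - m j)) =
          u / (c₁ * X ^ n) * (((X - w j) / X) ^ m j)⁻¹ := by
        rw [hu, zpow_sub₀ hX0, div_zpow]
        field_simp
      rw [e]
      exact S40F2SN_u1_mul N hu₁ (S40F2SN_u1_inv N (S40F2SN_u1_zpow N hl₁ _))
    · have e : (u' * ∏ i ∈ t, (X - w i) ^ m i) / (c₂ / w j ^ m j) =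
          u / c₂ * (((X - w j) / w j) ^ m j)⁻¹ := by
        rw [hu, div_zpow]
        field_simp
      rw [e]
      exact hu₂.mul (hl₂.zpow _).inv

end Fermat.Agent.S40
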