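import Mathlib
import Fermat.Agent.S40.F2SlopeNA

/-!
# TRACK 13 (S40/S44, row 38): the SMOOTH points of `C₁` (gap (SM)) (helper16).
Prefix `S40F2SM_`.  Mathlib + `NodeAbs` / `F2SlopeNA` only.

A smooth point `P` of the component `C₁` of the special fibre is a DEGENERATE node: an
`S40NA_Node` with `O₂ = O₁` (the only vertical component through `P` is `C₁`) and
`ε = ev_P ∘ red₁`.  All the abstract lemmas of `NodeAbs.lean` apply, and the slope is the total
multiplicity of the divisor specialising to `P`: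

* `S40F2SM_unitAt` : (Hartogs at `P`) a unit `g` of `O₁` without zero and pole specialising to
  `P` is, on `C₁`, a unit at `P`;
* `S40F2SM_u1` : the same in the form `S40F2SN_U1`;
* `S40F2SM_lin` : `(X − w) / X` is `U1` for `X` a unit of `O₁`, `w` a nonunit;
* `S40F2SM_slope` : `u = u' · ∏ (X − w i) ^ (m i)`, `u'` without zero/pole specialising to `P`,
  `u / c` a unit of `O₁` ⇒ `u / (c' · X ^ (Σ m i))` is `U1` for a constant `c'` (`= c`): the order
  of `red₁ (u / c)` at `P` is `Σ m i` (`X` a coordinate at `P`);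
* `S40F2SM_kummer` : with exponents `p · m i` the order is divisible by `p`.
-/

set_option autoImplicit false

namespace Fermat.Agent.S40

variable {L F k : Type*} [Field L] [Field F] [Algebra L F] [Field k]

/-- **Hartogs at a smooth point**: a unit of `O₁ = O₂` without zero and pole specialising to the
point is a unit at the point. -/
theorem S40F2SM_unitAt (N : S40NA_Node L F k) (hO : N.O₂ = N.O₁)
    (hfin : ∀ g : F, {Q : S40NA_Pt L F | Q ∈ N.U ∧ g ∉ Q.P}.Finite) {g : F}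
    (hg : S40F2S_IsU N.O₁ g) (hP : S40F2SN_NoZP N g) : S40NA_UnitAt N g := by
  have hg0 : g ≠ 0 := hg.ne_zero
  obtain ⟨a, b, ha, hb, hab, hεb⟩ := S40NA_hartogs N g hg.mem (hO ▸ hg.mem) (hfin g)
    (fun Q hQ hgQ hc => hgQ (hP Q hQ hc).mem)
  obtain ⟨a', b', ha', hb', hab', hεb'⟩ := S40NA_hartogs N g⁻¹ hg.inv_mem (hO ▸ hg.inv_mem)
    (hfin g⁻¹) (fun Q hQ hgQ hc => hgQ (hP Q hQ hc).inv_mem)
  refine ⟨a, b, ha, hb, ?_, ?_, hεb⟩
  · rw [hab, sub_self]
    exact N.O₁.nonunits.zero_mem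
  · intro hεa
    have e : (⟨a, ha⟩ : ↥N.Lam) * ⟨a', ha'⟩ = ⟨b, hb⟩ * ⟨b', hb'⟩ := by
      apply Subtype.ext
      show a * a' = b * b'
      rw [← hab, ← hab']
      field_simp
    have h1 := congrArg N.ε e
    rw [map_mul, map_mul, hεa, zero_mul] at h1
    exact mul_ne_zero hεb hεb' h1.symm

/-- the same in the form `S40F2SN_U1`. -/
theorem S40F2SM_u1 (N : S40NA_Node L F k) (hO : N.O₂ = N.O₁)
    (hfin : ∀ g : F, {Q : S40NA_Pt L F | Q ∈ N.U ∧ g ∉ Q.P}.Finite) {g : F}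
    (hg : S40F2S_IsU N.O₁ g) (hP : S40F2SN_NoZP N g) : S40F2SN_U1 N g :=
  ⟨hg, S40F2SM_unitAt N hO hfin hg hP⟩

/-- `(X − w) / X = 1 − w / X` is `U1`. -/
theorem S40F2SM_lin (N : S40NA_Node L F k) {X w : F} (hX : S40F2S_IsU N.O₁ X)
    (hw : w ∈ N.O₁.nonunits) : S40F2SN_U1 N ((X - w) / X) := by
  have e : (X - w) / X = 1 - w / X := by
    have := hX.ne_zero
    field_simp
  rw [e]
  apply S40F2SN_u1_one_sub
  rw [div_eq_mul_inv]
  exact S40NA_nonunits_mul N.O₁ hw hX.inv_mem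

/-- `∏ X ^ (m i) = X ^ (Σ m i)`. -/
theorem S40F2SM_prod_zpow {ι : Type*} (s : Finset ι) (m : ι → ℤ) {X : F} (hX0 : X ≠ 0) :
    ∏ i ∈ s, X ^ (m i) = X ^ (∑ i ∈ s, m i) := by
  classical
  induction s using Finset.induction_on with
  | empty => simp
  | insert j t hjt ih =>
    rw [Finset.prod_insert hjt, Finset.sum_insert hjt, ih, zpow_add₀ hX0]

/-- **the order at a smooth point** is the total multiplicity of the divisor specialising to
it. -/
theorem S40F2SM_slope (N : S40NA_Node L F k) (hO : N.O₂ = N.O₁)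
    (hfin : ∀ g : F, {Q : S40NA_Pt L F | Q ∈ N.U ∧ g ∉ Q.P}.Finite)
    {X : F} (hX : S40F2S_IsU N.O₁ X)
    {ι : Type*} (s : Finset ι) (w : ι → F) (m : ι → ℤ)
    (hw₁ : ∀ i ∈ s, w i ∈ N.O₁.nonunits)
    {u u' c : F} (hu'P : S40F2SN_NoZP N u')
    (hu : u = u' * ∏ i ∈ s, (X - w i) ^ (m i))
    (hcL : c ∈ (algebraMap L F).fieldRange) (hc : S40F2S_IsU N.O₁ (u / c)) :
    S40F2SN_U1 N (u / (c * X ^ (∑ i ∈ s, m i))) := by
  classical
  have hX0 : X ≠ 0 := hX.ne_zero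
  have hc0 : c ≠ 0 := by
    rintro rfl
    rw [div_zero] at hc
    exact hc.ne_zero rfl
  -- the product of the linear factors over `X`
  have hprod : S40F2SN_U1 N (∏ i ∈ s, ((X - w i) / X) ^ (m i)) := by
    refine Finset.prod_induction _ (S40F2SN_U1 N) (fun a b ha hb => S40F2SN_u1_mul N ha hb)
      (S40F2SN_u1_one N) (fun i hi => S40F2SN_u1_zpow N (S40F2SM_lin N hX (hw₁ i hi)) (m i))
  have hprodeq : ∏ i ∈ s, ((X - w i) / X) ^ (m i)
      = (∏ i ∈ s, (X - w i) ^ (m i)) / X ^ (∑ i ∈ s, m i) := by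
    rw [← S40F2SM_prod_zpow s m hX0, ← Finset.prod_div_distrib]
    exact Finset.prod_congr rfl (fun i _ => div_zpow _ _ _)
  -- `u' / c` is a unit of `O₁` without zero and pole
  have hXs0 : X ^ (∑ i ∈ s, m i) ≠ 0 := zpow_ne_zero _ hX0
  have hdec : u / (c * X ^ (∑ i ∈ s, m i))
      = (u' / c) * ∏ i ∈ s, ((X - w i) / X) ^ (m i) := by
    rw [hprodeq, hu]
    field_simp
  have hdec' : u' / c
      = (u / c) / ((∏ i ∈ s, ((X - w i) / X) ^ (m i)) * X ^ (∑ i ∈ s, m i)) := by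
    have hp0 : (∏ i ∈ s, ((X - w i) / X) ^ (m i)) ≠ 0 := hprod.1.ne_zero
    have hq0 : (∏ i ∈ s, (X - w i) ^ (m i)) ≠ 0 := by
      intro h0
      rw [hprodeq, h0, zero_div] at hp0
      exact hp0 rfl
    rw [hprodeq, hu, div_mul_cancel₀ _ hXs0]
    field_simp
  have hu'c : S40F2S_IsU N.O₁ (u' / c) := by
    rw [hdec']
    exact hc.div (hprod.1.mul (hX.zpow _))
  rw [hdec]
  exact S40F2SN_u1_mul N
    (S40F2SM_u1 N hO hfin hu'c (S40F2SN_noZP_div N hu'P (S40F2SN_noZP_const N hcL hc0))) hprod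

/-- **(SM)**: with exponents `p · m i` the order at the smooth point is divisible by `p`:
`u / (c · (X ^ n) ^ p)` is `U1`. -/
theorem S40F2SM_kummer (N : S40NA_Node L F k) (hO : N.O₂ = N.O₁)
    (hfin : ∀ g : F, {Q : S40NA_Pt L F | Q ∈ N.U ∧ g ∉ Q.P}.Finite)
    {X : F} (hX : S40F2S_IsU N.O₁ X)
    {ι : Type*} (s : Finset ι) (w : ι → F) (m : ι → ℤ)
    (hw₁ : ∀ i ∈ s, w i ∈ N.O₁.nonunits)
    {u u' c : F} (hu'P : S40F2SN_NoZP N u') (p : ℕ)
    (hu : u = u' * ∏ i ∈ s, (X - w i) ^ ((p : ℤ) * m i))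
    (hcL : c ∈ (algebraMap L F).fieldRange) (hc : S40F2S_IsU N.O₁ (u / c)) :
    ∃ n : ℤ, S40F2SN_U1 N (u / (c * X ^ ((p : ℤ) * n))) := by
  refine ⟨∑ i ∈ s, m i, ?_⟩
  have := S40F2SM_slope N hO hfin hX s w (fun i => (p : ℤ) * m i) hw₁ hu'P hu hcL hc
  rw [← Finset.mul_sum] at this
  exact this

end Fermat.Agent.S40
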