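import Fermat.Agent.S40.F2N6
import Fermat.Agent.S40.F2N7
import Fermat.Agent.S40.F2Smooth

/-!
# TRACK 13 (S40/S44, row 38), hole (D-ORD): the ORDINARY points of `C₁` (helper8).
Prefix `S40DO_`.  GENERIC form (any `S : S18_Val`, any chart function `x`).

A place `v` of the residue function field `Fk` (of degree one, not a pole of the chart function
`xb`) at which the reductions of the functions of `Λ' = O ∩ reg(U)` are regular (`S40DO_Reg`,
helper29's `ε_P`) is a DEGENERATE node (`O₂ := O₁ := S.O`, `ε := ev_v ∘ red`):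

* `S40DO_node` : the degenerate `S40NA_Node`;
* `S40DO_Hyp` : the lattice `R ≤ Λ'` over a discretely valued field: `const`, `cart`
  (`R ∩ 𝔪_O = π R`), `lift` (`red : R → reg(xb)` is onto), `span` (`reg(x) ⊆ L · R`);
* `S40DO_exists_disc` : helper14's disc `S40F2N7_Disc` (the coordinate `X` is a lift of a function
  with a simple zero at `v`; `den` from Riemann–Roch `S36RC_denom` and `lift`; NO `φ₀`);
* `S40DO_hyp` : `S40F2YI_Hyp (S40DO_node …) X`;
* `S40DO_unitAt_ord` : `S40NA_UnitAt` at the degenerate node means `ord_v (red g) = 0`;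
* `S40DO_main` : **a unit `u` of `S.O` which is, at every place specialising to `v`, a `p`-th
  power up to a unit, has `p ∣ ord_v (red u)`**.
-/

set_option autoImplicit false
set_option linter.unusedSectionVars false
set_option linter.unusedVariables false
set_option linter.style.haveILetI false

open AlgebraicCurve

noncomputable section

namespace Fermat.Agent.S40

open Fermat.Agent.Lib Fermat.Agent.S18 Fermat.Agent.S24 Fermat.Agent.S34 Fermat.Agent.S36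
  Fermat.Agent.S17

section

variable {L F k Fk : Type*} [Field L] [Field F] [Algebra L F] [Field k] [Field Fk]
  [Algebra k Fk]
  (S : S18_Val L F k Fk) (hdeg : ∀ w : Place L F, w.deg = 1) (x : F)
  (v : Place k Fk) (hdegv : v.deg = 1)

/-- `Λ' = O ∩ reg(U)`: the functions of the degenerate node. -/
abbrev S40DO_Lam : Subring F := S40NA_Lam S.O S.O (S40NI_U hdeg x)

theorem S40DO_mem_O {f : F} (hf : f ∈ S40DO_Lam S hdeg x) : f ∈ S.O := (S40NA_mem_Lam.1 hf).1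

/-- the regularity hypothesis at `v`: the reduction of a function of `Λ'` is regular at `v`. -/
def S40DO_Reg : Prop :=
  ∀ (f : F) (hf : f ∈ S40DO_Lam S hdeg x),
    S.red ⟨f, S40DO_mem_O S hdeg x hf⟩ ∈ v.toValuationSubring

variable {S hdeg x v}

/-- the reduction `Λ' → O_v`. -/
def S40DO_red (hreg : S40DO_Reg S hdeg x v) :
    ↥(S40DO_Lam S hdeg x) →+* ↥v.toValuationSubring where
  toFun f := ⟨S.red ⟨(f : F), S40DO_mem_O S hdeg x f.2⟩, hreg f f.2⟩
  map_one' := Subtype.ext (map_one S.red)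
  map_zero' := Subtype.ext (map_zero S.red)
  map_mul' f g := Subtype.ext (map_mul S.red (⟨(f : F), S40DO_mem_O S hdeg x f.2⟩ : ↥S.O)
    (⟨(g : F), S40DO_mem_O S hdeg x g.2⟩ : ↥S.O))
  map_add' f g := Subtype.ext (map_add S.red (⟨(f : F), S40DO_mem_O S hdeg x f.2⟩ : ↥S.O)
    (⟨(g : F), S40DO_mem_O S hdeg x g.2⟩ : ↥S.O))

theorem S40DO_red_zero_of_nonunit {f : F} (hf : f ∈ S.O.nonunits) :
    S.red ⟨f, ValuationSubring.nonunits_subset hf⟩ = 0 := by
  by_contra h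
  have hu := (S.red_ne_zero_iff _).1 h
  rw [ValuationSubring.mem_nonunits_iff_exists_mem_maximalIdeal] at hf
  obtain ⟨hmem, hm⟩ := hf
  rw [IsLocalRing.mem_maximalIdeal, mem_nonunits_iff] at hm
  exact hm hu

theorem S40DO_nonunit_of_red_zero {f : F} (hf : f ∈ S.O) (h : S.red ⟨f, hf⟩ = 0) :
    f ∈ S.O.nonunits := by
  rw [ValuationSubring.mem_nonunits_iff_exists_mem_maximalIdeal]
  refine ⟨hf, ?_⟩
  rw [IsLocalRing.mem_maximalIdeal, mem_nonunits_iff]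
  intro hu
  exact (S.red_ne_zero_iff _).2 hu h

/-- **the degenerate node** at the point `v` of the component: `O₂ := O₁ := S.O`,
`ε := ev_v ∘ red`. -/
def S40DO_node (hreg : S40DO_Reg S hdeg x v) : S40NA_Node L F k where
  A := S.A
  res := S.res
  res_nonunit a ha := by
    rw [S.res_eq_zero_iff]
    rw [ValuationSubring.mem_nonunits_iff_exists_mem_maximalIdeal] at ha
    obtain ⟨hmem, hm⟩ := ha
    rw [IsLocalRing.mem_maximalIdeal, mem_nonunits_iff] at hm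
    exact hm
  O₁ := S.O
  O₂ := S.O
  const₁ a ha := (S.algebraMap_mem_iff a).2 ha
  const₂ a ha := (S.algebraMap_mem_iff a).2 ha
  U := S40NI_U hdeg x
  ε := (S40NI_ev v hdegv).comp (S40DO_red hreg)
  ε_const a ha h := by
    show S40NI_ev v hdegv ⟨S.red ⟨algebraMap L F a, S40DO_mem_O S hdeg x h⟩, _⟩ = S.res ⟨a, ha⟩
    have e := S.red_algebraMap a ha (S40DO_mem_O S hdeg x h)
    have h2 := (S40NI_pt v hdegv).ev_alg (S.res ⟨a, ha⟩)
    have e3 : (⟨S.red ⟨algebraMap L F a, S40DO_mem_O S hdeg x h⟩, hreg _ h⟩ :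
        ↥v.toValuationSubring) = ⟨algebraMap k Fk (S.res ⟨a, ha⟩),
          (S40NI_pt v hdegv).alg_mem _⟩ := Subtype.ext e
    rw [e3]
    exact h2
  ε_zero₁ f hf := by
    show S40NI_ev v hdegv ⟨S.red ⟨(f : F), S40DO_mem_O S hdeg x f.2⟩, _⟩ = 0
    have e3 : (⟨S.red ⟨(f : F), S40DO_mem_O S hdeg x f.2⟩, hreg _ f.2⟩ :
        ↥v.toValuationSubring) = 0 := Subtype.ext (S40DO_red_zero_of_nonunit hf)
    rw [e3, map_zero]
  ε_zero₂ f hf := by
    show S40NI_ev v hdegv ⟨S.red ⟨(f : F), S40DO_mem_O S hdeg x f.2⟩, _⟩ = 0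
    have e3 : (⟨S.red ⟨(f : F), S40DO_mem_O S hdeg x f.2⟩, hreg _ f.2⟩ :
        ↥v.toValuationSubring) = 0 := Subtype.ext (S40DO_red_zero_of_nonunit hf)
    rw [e3, map_zero]

theorem S40DO_node_O₁ (hreg : S40DO_Reg S hdeg x v) : (S40DO_node hdegv hreg).O₁ = S.O := rfl

theorem S40DO_node_O₂ (hreg : S40DO_Reg S hdeg x v) :
    (S40DO_node hdegv hreg).O₂ = (S40DO_node hdegv hreg).O₁ := rfl

theorem S40DO_eps_apply (hreg : S40DO_Reg S hdeg x v) (f : F)
    (hf : f ∈ S40DO_Lam S hdeg x) :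
    (S40DO_node hdegv hreg).ε ⟨f, hf⟩ =
      (S40NI_pt v hdegv).ev ⟨S.red ⟨f, S40DO_mem_O S hdeg x hf⟩, hreg f hf⟩ := rfl

/-- `ε f = 0` iff the reduction of `f` vanishes at `v`. -/
theorem S40DO_eps_eq_zero_iff (hreg : S40DO_Reg S hdeg x v) (f : F)
    (hf : f ∈ S40DO_Lam S hdeg x) :
    (S40DO_node hdegv hreg).ε ⟨f, hf⟩ = 0 ↔
      S.red ⟨f, S40DO_mem_O S hdeg x hf⟩ ∈ v.toValuationSubring.nonunits := by
  rw [S40DO_eps_apply, ← S40F2N_at_mem (S40NI_pt v hdegv) (hreg f hf)]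
  exact S40F2N_at_eq_zero_iff (S40NI_pt v hdegv) (hreg f hf)


/-- a function regular at `v` which is not in the maximal ideal has order `0`. -/
theorem S40DO_ord_eq_zero {y : Fk} (hy : y ∈ v.toValuationSubring)
    (hn : y ∉ v.toValuationSubring.nonunits) : y ≠ 0 ∧ v.ord y = 0 := by
  have hy0 : y ≠ 0 := by
    rintro rfl
    exact hn v.toValuationSubring.nonunits.zero_mem
  refine ⟨hy0, ?_⟩
  have h1 : 0 ≤ v.ord y := (BG_mem_iff_ord_nonneg v hy0).1 hy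
  by_contra hne
  apply hn
  apply S40NI_nonunit_of_val_lt v
  rw [v.adicValuation_eq_exp_neg_ord hy0, ← WithZero.exp_zero, WithZero.exp_lt_exp]
  omega

/-- a nonzero function of the maximal ideal at `v` has positive order. -/
theorem S40DO_ord_pos {y : Fk} (hy0 : y ≠ 0) (hn : y ∈ v.toValuationSubring.nonunits) :
    0 < v.ord y := by
  have hlt := S40NI_val_lt_of_nonunit v hn
  rw [v.adicValuation_eq_exp_neg_ord hy0, ← WithZero.exp_zero, WithZero.exp_lt_exp] at hlt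
  omega

/-- a function of positive order at `v` lies in the maximal ideal. -/
theorem S40DO_nonunit_of_ord_pos {y : Fk} (hy : 0 < v.ord y) :
    y ∈ v.toValuationSubring.nonunits := by
  have hy0 : y ≠ 0 := by
    rintro rfl
    rw [Place.ord_zero] at hy
    exact lt_irrefl _ hy
  apply S40NI_nonunit_of_val_lt v
  rw [v.adicValuation_eq_exp_neg_ord hy0, ← WithZero.exp_zero, WithZero.exp_lt_exp]
  omega

/-- the reduction of a unit of `S.O` is not zero. -/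
theorem S40DO_red_ne_zero {g : F} (hg : S40F2S_IsU S.O g) : S.red ⟨g, hg.mem⟩ ≠ 0 := by
  rw [S.red_ne_zero_iff]
  refine ⟨⟨⟨g, hg.mem⟩, ⟨g⁻¹, hg.inv_mem⟩, ?_, ?_⟩, rfl⟩
  · exact Subtype.ext (mul_inv_cancel₀ hg.ne_zero)
  · exact Subtype.ext (inv_mul_cancel₀ hg.ne_zero)

/-- an element of `S.O` with nonzero reduction is a unit. -/
theorem S40DO_isU_of_red_ne {g : F} (hg : g ∈ S.O) (h : S.red ⟨g, hg⟩ ≠ 0) :
    S40F2S_IsU S.O g := by
  have hu := (S.red_ne_zero_iff _).1 h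
  obtain ⟨w, hw⟩ := hu
  have h1 : ((w⁻¹ : (↥S.O)ˣ) : ↥S.O) * ⟨g, hg⟩ = 1 := by
    rw [← hw]
    exact w.inv_mul
  have h2 : (((w⁻¹ : (↥S.O)ˣ) : ↥S.O) : F) * g = 1 := congrArg Subtype.val h1
  have hg0 : g ≠ 0 := by
    rintro rfl
    rw [mul_zero] at h2
    exact zero_ne_one h2
  have e : g⁻¹ = (((w⁻¹ : (↥S.O)ˣ) : ↥S.O) : F) := by
    rw [eq_comm, ← mul_eq_one_iff_eq_inv₀ hg0]
    exact h2
  exact S40F2S_isU_iff.2 ⟨hg, e ▸ ((w⁻¹ : (↥S.O)ˣ) : ↥S.O).2, hg0⟩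

/-- **`UnitAt` at the degenerate node** means order `0` at `v`. -/
theorem S40DO_unitAt_ord (hreg : S40DO_Reg S hdeg x v) {g : F} (hg : S40F2S_IsU S.O g)
    (h : S40NA_UnitAt (S40DO_node hdegv hreg) g) : v.ord (S.red ⟨g, hg.mem⟩) = 0 := by
  obtain ⟨a', b', ha', hb', hn, hεa, hεb⟩ := h
  have haO : a' ∈ S.O := S40DO_mem_O S hdeg x ha'
  have hbO : b' ∈ S.O := S40DO_mem_O S hdeg x hb'
  have hmem : g * b' - a' ∈ S.O := sub_mem (mul_mem hg.mem hbO) haO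
  have h0 : S.red ⟨g * b' - a', hmem⟩ = 0 := S40DO_red_zero_of_nonunit hn
  have e : (⟨g * b' - a', hmem⟩ : ↥S.O) = ⟨g, hg.mem⟩ * ⟨b', hbO⟩ - ⟨a', haO⟩ := rfl
  rw [e, map_sub, map_mul, sub_eq_zero] at h0
  have hA := S40DO_ord_eq_zero (hreg a' ha')
    (fun hh => hεa ((S40DO_eps_eq_zero_iff hdegv hreg a' ha').2 hh))
  have hB := S40DO_ord_eq_zero (hreg b' hb')
    (fun hh => hεb ((S40DO_eps_eq_zero_iff hdegv hreg b' hb').2 hh))
  have hg0 := S40DO_red_ne_zero hg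
  have := congrArg v.ord h0
  rw [v.ord_mul hg0 hB.1, hB.2, hA.2, add_zero] at this
  exact this

/-- the lattice `R` of the disc: functions over a discretely valued field (uniformiser `π`),
with constants, the cartesian property and the lifting property for the chart function `xb` of
the residue field. -/
structure S40DO_Hyp (S : S18_Val L F k Fk) (hdeg : ∀ w : Place L F, w.deg = 1) (x : F)
    (R : Subring F) (π : L) (xb : Fk) : Prop where
  le : ∀ f ∈ R, f ∈ S40DO_Lam S hdeg x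
  hπ : π ∈ S.A.nonunits
  hπ0 : π ≠ 0
  const : ∀ c : k, ∃ (a : L) (ha : a ∈ S.A), algebraMap L F a ∈ R ∧ S.res ⟨a, ha⟩ = c
  cart : ∀ f ∈ R, f ∈ S.O.nonunits → ∃ g ∈ R, f = algebraMap L F π * g
  lift : ∀ a : Fk, a ∈ S34SB_reg k xb → ∃ (t : F) (ht : t ∈ R),
    S.red ⟨t, S40DO_mem_O S hdeg x (le t ht)⟩ = a
  span : ∀ s ∈ S34SB_reg L x, s ∈ Submodule.span L (R : Set F)

variable {R : Subring F} {π : L} {xb : Fk}

/-- functions regular off a pole of `xb` are regular on the chart. -/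
theorem S40DO_reg_of_off (cb : Place k Fk) (hcb : cb.ord xb < 0) (y : Fk)
    (hy : ∀ w : Place k Fk, w ≠ cb → 0 ≤ w.ord y) : y ∈ S34SB_reg k xb := by
  by_cases hy0 : y = 0
  · rw [hy0]; exact (S34SB_reg k xb).zero_mem
  rw [S34SB_mem_reg_iff hy0]
  intro Q hQ
  exact hy Q (by rintro rfl; omega)

/-- **the coordinate**: a function of `R` whose reduction has a simple zero at `v`. -/
theorem S40DO_exists_X [Infinite k] (rr : RR_Hyp k Fk) (cb : Place k Fk)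
    (hcb : cb.ord xb < 0) (hv : 0 ≤ v.ord xb) (H : S40DO_Hyp S hdeg x R π xb) :
    ∃ (X : F) (hX : X ∈ R), v.ord (S.red ⟨X, S40DO_mem_O S hdeg x (H.le X hX)⟩) = 1 := by
  classical
  have hvc : v ≠ cb := by
    rintro rfl
    omega
  obtain ⟨a, ha0, ha, haQ⟩ := S36RC_interp rr cb (Finsupp.single v (1 : ℤ)) v hvc
  rw [Finsupp.single_eq_same] at haQ
  obtain ⟨X, hX, hred⟩ := H.lift a (S40DO_reg_of_off cb hcb a (fun w hw => by
    have := ha w hw
    rw [Finsupp.single_apply] at this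
    split_ifs at this <;> omega))
  exact ⟨X, hX, by rw [hred]; exact haQ⟩

/-- **the disc at `v`** (helper14's `S40F2N7_Disc`) for a coordinate `X`. -/
def S40DO_disc [Infinite k] (rr : RR_Hyp k Fk) (cb : Place k Fk)
    (hcb : cb.ord xb < 0) (hv : 0 ≤ v.ord xb) (hreg : S40DO_Reg S hdeg x v)
    (H : S40DO_Hyp S hdeg x R π xb) (X : F) (hX : X ∈ R)
    (hX1 : v.ord (S.red ⟨X, S40DO_mem_O S hdeg x (H.le X hX)⟩) = 1) :
    S40F2N7_Disc (S40DO_node hdegv hreg) where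
  X := X
  hX := H.le X hX
  X_ne := by
    rintro rfl
    have e : (⟨(0 : F), S40DO_mem_O S hdeg x (H.le 0 hX)⟩ : ↥S.O) = 0 := rfl
    rw [e, map_zero, Place.ord_zero] at hX1
    exact zero_ne_one hX1
  εX := by
    rw [S40DO_eps_eq_zero_iff]
    exact S40DO_nonunit_of_ord_pos (by rw [hX1]; exact zero_lt_one)
  X_unit₁ := by
    have hne : S.red ⟨X, S40DO_mem_O S hdeg x (H.le X hX)⟩ ≠ 0 := by
      intro h0
      rw [h0, Place.ord_zero] at hX1
      exact zero_ne_one hX1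
    exact (S40DO_isU_of_red_ne _ hne).inv_mem
  X_unit₂ := by
    have hne : S.red ⟨X, S40DO_mem_O S hdeg x (H.le X hX)⟩ ≠ 0 := by
      intro h0
      rw [h0, Place.ord_zero] at hX1
      exact zero_ne_one hX1
    exact (S40DO_isU_of_red_ne _ hne).inv_mem
  R := R
  le := H.le
  π := π
  hπ := H.hπ
  hπ0 := H.hπ0
  X_mem := hX
  const f hf := by
    obtain ⟨a, ha, haR, hres⟩ := H.const ((S40DO_node hdegv hreg).ε ⟨f, H.le f hf⟩)
    exact ⟨a, ha, haR, hres⟩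
  cart := H.cart
  den f hf hε := by
    classical
    have hvc : v ≠ cb := by
      rintro rfl
      omega
    rw [S40DO_eps_eq_zero_iff] at hε
    set fb : Fk := S.red ⟨f, S40DO_mem_O S hdeg x (H.le f hf)⟩ with hfb
    set a : Fk := S.red ⟨X, S40DO_mem_O S hdeg x (H.le X hX)⟩ with ha
    have ha0 : a ≠ 0 := by
      intro h0
      rw [h0, Place.ord_zero] at hX1
      exact zero_ne_one hX1
    have hρ : 0 ≤ v.ord (fb / a) := by
      by_cases hf0 : fb = 0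
      · rw [hf0, zero_div, Place.ord_zero]
      · have h1 := S40DO_ord_pos hf0 hε
        rw [div_eq_mul_inv, v.ord_mul hf0 (inv_ne_zero ha0), v.ord_inv, hX1]
        omega
    obtain ⟨g, hg0, hgQ, hg, hgρ⟩ := S36RC_denom rr cb (fb / a) v hvc hρ
    obtain ⟨h, hh, hhred⟩ := H.lift g (S40DO_reg_of_off cb hcb g hg)
    obtain ⟨r, hr, hrred⟩ := H.lift (g * (fb / a)) (S40DO_reg_of_off cb hcb _ hgρ)
    refine ⟨h, r, hh, hr, ?_, ?_⟩
    · rw [Ne, S40DO_eps_eq_zero_iff, hhred]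
      intro hn
      have := S40DO_ord_pos hg0 hn
      omega
    · have hmem : h * f - X * r ∈ S.O :=
        sub_mem (mul_mem (S40DO_mem_O S hdeg x (H.le h hh)) (S40DO_mem_O S hdeg x (H.le f hf)))
          (mul_mem (S40DO_mem_O S hdeg x (H.le X hX)) (S40DO_mem_O S hdeg x (H.le r hr)))
      apply S40DO_nonunit_of_red_zero hmem
      have e : (⟨h * f - X * r, hmem⟩ : ↥S.O) =
          ⟨h, S40DO_mem_O S hdeg x (H.le h hh)⟩ * ⟨f, S40DO_mem_O S hdeg x (H.le f hf)⟩ -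
            ⟨X, S40DO_mem_O S hdeg x (H.le X hX)⟩ * ⟨r, S40DO_mem_O S hdeg x (H.le r hr)⟩ :=
        rfl
      rw [e, map_sub, map_mul, map_mul, hhred, hrred, ← hfb, ← ha]
      field_simp
      ring


/-- **`S40F2YI_Hyp` on the disc at `v`**: the hypotheses of helper1's factorisation for the
coordinate `X`. -/
theorem S40DO_hyp [Infinite k] [Infinite L] (rr : RR_Hyp k Fk) (cb : Place k Fk)
    (hcb : cb.ord xb < 0) (hv : 0 ≤ v.ord xb) (hreg : S40DO_Reg S hdeg x v)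
    (H : S40DO_Hyp S hdeg x R π xb) (X : F) (hX : X ∈ R)
    (hX1 : v.ord (S.red ⟨X, S40DO_mem_O S hdeg x (H.le X hX)⟩) = 1)
    (rrL : RR_Hyp L F) (c₀ : Place L F) (hc₀ : c₀.ord x < 0)
    (hA : ∀ g b : L, b ∈ S.A.nonunits → ∃ m : ℕ, g * b ^ m ∈ S.A) :
    S40F2YI_Hyp (S40DO_node hdegv hreg) X := by
  haveI : HasPrincipalDivisors L F := rrL.principal
  have hfin : ∀ g : F, {Q : S40NA_Pt L F | Q ∈ (S40DO_node hdegv hreg).U ∧ g ∉ Q.P}.Finite :=
    fun g => S40NI_poles_finite hdeg x g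
  exact S40F2N7_hyp (S40DO_disc hdegv rr cb hcb hv hreg H X hX hX1) hA hfin
    (fun c hc => S40F2N5_hm S c hc) (fun c hc => S40F2N5_hm S c hc)
    (fun Q hQ _ => by
      obtain ⟨w, hw, rfl⟩ := hQ
      intro f hf
      obtain ⟨a, b, ha, hb, hbn, hab⟩ := S40F2N6_denom rrL x c₀ hc₀ w hw f hf
      exact ⟨a, b, H.span a ha, H.span b hb, hbn, hab⟩)

/-- the order at `v` of the reduction of an integral power of a unit. -/
theorem S40DO_ord_red_zpow {X : F} (hX : S40F2S_IsU S.O X) (n : ℤ) :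
    v.ord (S.red ⟨X ^ n, (hX.zpow n).mem⟩) = n * v.ord (S.red ⟨X, hX.mem⟩) := by
  have hinv : S.red ⟨X⁻¹, hX.inv_mem⟩ = (S.red ⟨X, hX.mem⟩)⁻¹ := by
    have e : (⟨X, hX.mem⟩ : ↥S.O) * ⟨X⁻¹, hX.inv_mem⟩ = 1 :=
      Subtype.ext (mul_inv_cancel₀ hX.ne_zero)
    have := congrArg S.red e
    rw [map_mul, map_one] at this
    exact eq_inv_of_mul_eq_one_right this
  have hnat : ∀ (Y : F) (hY : Y ∈ S.O) (m : ℕ) (hm : Y ^ m ∈ S.O),
      S.red ⟨Y ^ m, hm⟩ = S.red ⟨Y, hY⟩ ^ m := by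
    intro Y hY m hm
    have e : (⟨Y ^ m, hm⟩ : ↥S.O) = ⟨Y, hY⟩ ^ m := rfl
    rw [e, map_pow]
  obtain ⟨m, rfl | rfl⟩ := Int.eq_nat_or_neg n
  · have e : S.red ⟨X ^ (m : ℤ), (hX.zpow (m : ℤ)).mem⟩ = S.red ⟨X, hX.mem⟩ ^ m := by
      rw [← hnat X hX.mem m (by simpa using (hX.zpow (m : ℤ)).mem)]
      congr 2
      exact zpow_natCast X m
    rw [e, ← zpow_natCast, v.ord_zpow]
  · have e : S.red ⟨X ^ (-(m : ℤ)), (hX.zpow (-(m : ℤ))).mem⟩ =
        ((S.red ⟨X, hX.mem⟩)⁻¹) ^ m := by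
      rw [← hinv, ← hnat X⁻¹ hX.inv_mem m (by
        have := (hX.zpow (-(m : ℤ))).mem
        rwa [zpow_neg, zpow_natCast, ← inv_pow] at this)]
      congr 2
      rw [zpow_neg, zpow_natCast, inv_pow]
    rw [e, ← zpow_natCast, v.ord_zpow, v.ord_inv]
    ring

/-- **(D-ORD), generic form**: a unit `u` of `S.O` which is, at every place of the chart
specialising to `v`, a `p`-th power up to a unit (a Kummer generator of a `p`-torsion class) has
`p ∣ ord_v (red u)`. -/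
theorem S40DO_main [Infinite k] [Infinite L] (rr : RR_Hyp k Fk) (cb : Place k Fk)
    (hcb : cb.ord xb < 0) (hv : 0 ≤ v.ord xb) (hreg : S40DO_Reg S hdeg x v)
    (H : S40DO_Hyp S hdeg x R π xb)
    (rrL : RR_Hyp L F) (c₀ : Place L F) (hc₀ : c₀.ord x < 0)
    (hA : ∀ g b : L, b ∈ S.A.nonunits → ∃ m : ℕ, g * b ^ m ∈ S.A)
    (p : ℕ) {u : F} (hu : S40F2S_IsU S.O u)
    (hp : ∀ (Q : S40NA_Pt L F) (hQ : Q ∈ (S40DO_node hdegv hreg).U),
      S40NA_Centred (S40DO_node hdegv hreg) Q hQ →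
        ∃ g : F, g ≠ 0 ∧ S40F2S_IsU Q.P (u / g ^ p)) :
    (p : ℤ) ∣ v.ord (S.red ⟨u, hu.mem⟩) := by
  classical
  haveI : HasPrincipalDivisors L F := rrL.principal
  obtain ⟨X, hX, hX1⟩ := S40DO_exists_X rr cb hcb hv H
  set N := S40DO_node hdegv hreg with hN
  have hfin : ∀ g : F, {Q : S40NA_Pt L F | Q ∈ N.U ∧ g ∉ Q.P}.Finite :=
    fun g => S40NI_poles_finite hdeg x g
  have HY := S40DO_hyp hdegv rr cb hcb hv hreg H X hX hX1 rrL c₀ hc₀ hA
  set D := S40DO_disc hdegv rr cb hcb hv hreg H X hX hX1 with hD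
  obtain ⟨s, m, h1, -, h3⟩ := S40F2YI_factor_pow HY hu.ne_zero p hp
  have hXne : S.red ⟨X, S40DO_mem_O S hdeg x (H.le X hX)⟩ ≠ 0 := by
    intro h0
    rw [h0, Place.ord_zero] at hX1
    exact zero_ne_one hX1
  have hXU : S40F2S_IsU S.O X := S40DO_isU_of_red_ne _ hXne
  -- the product of the linear factors
  have hprod : (∏ Q ∈ s, S40F2YI_t X Q ^ m Q) ^ p =
      ∏ Q ∈ s, (X - algebraMap L F (S40F2N_at Q X)) ^ ((p : ℤ) * m Q) := by
    rw [← Finset.prod_pow]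
    refine Finset.prod_congr rfl (fun Q _ => ?_)
    rw [mul_comm (p : ℤ) (m Q), zpow_mul, zpow_natCast]
    rfl
  have hP0 : (∏ Q ∈ s, S40F2YI_t X Q ^ m Q) ^ p ≠ 0 := by
    apply pow_ne_zero
    rw [Finset.prod_ne_zero_iff]
    intro Q hQs
    obtain ⟨hQ, hc, -⟩ := (h1 Q).1 hQs
    exact zpow_ne_zero _ (HY.ht0 Q hQ hc)
  obtain ⟨n, hn⟩ := S40F2SM_kummer N rfl hfin (X := X) hXU s
    (fun Q => algebraMap L F (S40F2N_at Q X)) m
    (fun Q hQs => by
      obtain ⟨hQ, hc, -⟩ := (h1 Q).1 hQs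
      exact S40F2N5_hm S _ (S40F2N7_at_X D Q hQ hc))
    (u := u) (u' := u / (∏ Q ∈ s, S40F2YI_t X Q ^ m Q) ^ p) (c := 1) h3 p
    (by rw [← hprod, div_mul_cancel₀ _ hP0])
    ⟨1, map_one _⟩ (by rw [div_one]; exact hu)
  rw [one_mul] at hn
  have hw : S40F2S_IsU S.O (u / X ^ ((p : ℤ) * n)) := hn.1
  have h0 := S40DO_unitAt_ord hdegv hreg hw hn.2
  have hXn := S40DO_ord_red_zpow (v := v) hXU ((p : ℤ) * n)
  have hXn0 : S.red ⟨X ^ ((p : ℤ) * n), (hXU.zpow _).mem⟩ ≠ 0 :=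
    S40DO_red_ne_zero (hXU.zpow _)
  have e : (⟨u, hu.mem⟩ : ↥S.O) =
      ⟨u / X ^ ((p : ℤ) * n), hw.mem⟩ * ⟨X ^ ((p : ℤ) * n), (hXU.zpow _).mem⟩ :=
    Subtype.ext (by
      show u = u / X ^ ((p : ℤ) * n) * X ^ ((p : ℤ) * n)
      rw [div_mul_cancel₀ _ (zpow_ne_zero _ hXU.ne_zero)])
  rw [e, map_mul, v.ord_mul (S40DO_red_ne_zero hw) hXn0, h0, zero_add, hXn, hX1, mul_one]
  exact Dvd.intro _ rfl


/-- a function with `ord_w = 0` is a unit at `w`. -/
theorem S40DO_isU_of_ord {K E : Type*} [Field K] [Field E] [Algebra K E] (w : Place K E)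
    {y : E} (hy0 : y ≠ 0) (h : w.ord y = 0) : S40F2S_IsU w.toValuationSubring y := by
  refine S40F2S_isU_iff.2 ⟨?_, ?_, hy0⟩
  · rw [BG_mem_iff_ord_nonneg w hy0, h]
  · rw [BG_mem_iff_ord_nonneg w (inv_ne_zero hy0), w.ord_inv, h, neg_zero]

include hdegv in
/-- **(D-ORD), generic form, divisor version**: a unit `u` of `S.O` whose divisor on the chart is
divisible by `p` has `p ∣ ord_v (red u)`. -/
theorem S40DO_main' [Infinite k] [Infinite L] (rr : RR_Hyp k Fk) (cb : Place k Fk)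
    (hcb : cb.ord xb < 0) (hv : 0 ≤ v.ord xb) (hreg : S40DO_Reg S hdeg x v)
    (H : S40DO_Hyp S hdeg x R π xb)
    (rrL : RR_Hyp L F) (c₀ : Place L F) (hc₀ : c₀.ord x < 0)
    (hA : ∀ g b : L, b ∈ S.A.nonunits → ∃ m : ℕ, g * b ^ m ∈ S.A)
    (p : ℕ) {u : F} (hu : S40F2S_IsU S.O u)
    (hdiv : ∀ w : Place L F, 0 ≤ w.ord x → (p : ℤ) ∣ w.ord u) :
    (p : ℤ) ∣ v.ord (S.red ⟨u, hu.mem⟩) := by
  classical
  refine S40DO_main hdegv rr cb hcb hv hreg H rrL c₀ hc₀ hA p hu ?_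
  rintro Q ⟨w, hw, rfl⟩ -
  obtain ⟨m, hm⟩ := hdiv w hw
  have hwc : w ≠ c₀ := by
    rintro rfl
    omega
  obtain ⟨t, ht0, -, htw⟩ := S36RC_interp rrL c₀ (Finsupp.single w (1 : ℤ)) w hwc
  rw [Finsupp.single_eq_same] at htw
  refine ⟨t ^ m, zpow_ne_zero _ ht0, ?_⟩
  have hg0 : (t ^ m) ^ p ≠ 0 := pow_ne_zero _ (zpow_ne_zero _ ht0)
  show S40F2S_IsU w.toValuationSubring (u / (t ^ m) ^ p)
  apply S40DO_isU_of_ord w (div_ne_zero hu.ne_zero hg0)
  rw [div_eq_mul_inv, w.ord_mul hu.ne_zero (inv_ne_zero hg0), w.ord_inv, ← zpow_natCast,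
    w.ord_zpow, w.ord_zpow, htw, hm]
  ring

end

end Fermat.Agent.S40
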