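import Fermat.Agent.S40.DiscLat
import Fermat.Agent.S40.F2NLoc2

/-!
# TRACK 13 (S40/S44, row 38), holes (D-ORD) / (D-CUSP), leaf (L3): `reg(x) ⊆ ℚ̄ · R_x`
(helper8).  Prefix `S40DS_`.

`R_x = S40DL_R … x` (`H`-fixed, `V₁`-integral, regular where `x` is regular), `H ≤ I_A`, `ϖ` a
uniformiser of `A ∩ ℚ̄^H`.

* `S40DS_fixed_mem_span` : an `H`-fixed function regular where `x` is regular lies in `ℚ̄ · R_x`
  (ANY chart function `x`);
* `S40DS_span_j` : **span** for the chart `x = j` (ordinary points);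
* `S40DS_span_inv` : **span** for the chart `x = j⁻¹` (cusps).
-/

set_option autoImplicit false
set_option synthInstance.maxHeartbeats 400000
set_option maxHeartbeats 1000000
set_option linter.unusedSectionVars false
set_option linter.unusedVariables false
set_option linter.style.haveILetI false

open HahnSeries IntermediateField AlgebraicCurve ModularCurve

noncomputable section

namespace Fermat.Agent.S40

open Fermat.Agent.Lib Fermat.Agent.S17 Fermat.Agent.S18 Fermat.Agent.S24 Fermat.Agent.S34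
  Fermat.Agent.S36 Fermat.Agent.GalRep Fermat.Agent.S33

local notation "Ω" => AlgebraicClosure ℚ

section inst

variable (M p : ℕ) [NeZero (M * p)] [NeZero p] (hp : p.Prime) (hpM : ¬ p ∣ M)
  (A : ValuationSubring Ω) (hA : A.LiesOverPrime p)
  (hgen : PrincipalGeneratedByIntegral A (IsLocalRing.residue A) (M * p))
  (H : Subgroup (Ω ≃ₐ[ℚ] Ω)) (hH : H ≤ A.inertiaSubgroupIn ℚ)
  (ϖ : Ω) (h : S33NL2_Unif A H ϖ)
  (x : ↥(modularFunctionFieldBar (M * p)))

include hA h in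
/-- an `H`-fixed function regular where `x` is regular lies in the `ℚ̄`-span of `R_x`. -/
theorem S40DS_fixed_mem_span (w : ↥(modularFunctionFieldBar (M * p)))
    (hwF : w ∈ (S36FI_act (M * p) H).fixF) (hwB : w ∈ S34SB_reg Ω x) :
    w ∈ Submodule.span Ω (S40DL_R M p hp hpM A hgen H x : Set _) := by
  obtain ⟨m₀, hm₀⟩ := S40F2NL2_scale₁ M p hp hpM A hA hgen H ϖ h w hwF
  have hm₁ := hm₀ m₀ le_rfl
  have hϖF : ϖ ∈ (S36FI_act (M * p) H).fixK := (S36FI_mem_fixK (M * p) H).2 h.fixed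
  have hcF : algebraMap Ω ↥(modularFunctionFieldBar (M * p)) ϖ ∈ (S36FI_act (M * p) H).fixF :=
    (S36FI_act (M * p) H).algebraMap_mem_fixF hϖF
  have hyF : w * algebraMap Ω ↥(modularFunctionFieldBar (M * p)) ϖ ^ m₀ ∈
      (S36FI_act (M * p) H).fixF := mul_mem hwF (pow_mem hcF m₀)
  have hyR : w * algebraMap Ω ↥(modularFunctionFieldBar (M * p)) ϖ ^ m₀ ∈
      S40DL_R M p hp hpM A hgen H x := by
    rw [S40DL_mem_R]
    refine ⟨hyF, ?_, mul_mem hwB (pow_mem (Subalgebra.algebraMap_mem _ _) m₀)⟩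
    rw [S34M_T1_O]
    exact hm₁
  have e : w = (ϖ ^ m₀)⁻¹ • (w * algebraMap Ω ↥(modularFunctionFieldBar (M * p)) ϖ ^ m₀) := by
    rw [Algebra.smul_def, map_inv₀, map_pow]
    have hc0 : algebraMap Ω ↥(modularFunctionFieldBar (M * p)) ϖ ^ m₀ ≠ 0 :=
      pow_ne_zero _ ((map_ne_zero _).mpr h.ne_zero)
    field_simp
  rw [e]
  exact Submodule.smul_mem _ _ (Submodule.subset_span hyR)

include hA hH h in
/-- **span on the chart `x = j`**: every function regular off the cusps lies in `ℚ̄ · R_j`. -/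
theorem S40DS_span_j (s : ↥(modularFunctionFieldBar (M * p)))
    (hs : s ∈ S34SB_reg Ω (jB (M * p) : ↥(modularFunctionFieldBar (M * p)))) :
    s ∈ Submodule.span Ω (S40DL_R M p hp hpM A hgen H (jB (M * p)) : Set _) := by
  have hP := (S36LD_hRR (M * p)).principal
  obtain ⟨a, ha⟩ := S36DW_exists_a hP (jB (M * p) : ↥(modularFunctionFieldBar (M * p)))
    (0 : Ω) hs
  have hspan := S36SH_rr_span (M * p) (A.inertiaSubgroupIn ℚ : Set (Ω ≃ₐ[ℚ] Ω)) _
    (fun τ hτ v => S36DW_E_stable (M * p) hP (jB (M * p)) _ a 0 τ (S34SW_gal_jB (M * p) τ)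
      (S36DW_sub_fixed (M * p) τ (S34SW_gal_jB (M * p) τ) (map_zero τ)) v)
  refine (Submodule.span_le.2 ?_) (hspan ha)
  rintro w ⟨hw1, hw2⟩
  have hwF : w ∈ (S36FI_act (M * p) H).fixF :=
    (S36FI_mem_fixF (M * p) H).2 fun σ hσ => hw2 ⟨σ, hH hσ⟩
  exact S40DS_fixed_mem_span M p hp hpM A hA hgen H ϖ h _ w hwF
    (S36DW_reg_le hP (jB (M * p)) (0 : Ω) a hw1)

/-- regular where `x⁻¹` is regular = regular off the zeros of `x - 0`. -/
theorem S40DS_reg_inv_iff {K F : Type*} [Field K] [Field F] [Algebra K F] (x s : F) :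
    s ∈ S34SB_reg K x⁻¹ ↔ s ∈ S34SB_regZ K (x - algebraMap K F 0) := by
  rw [map_zero, sub_zero, S34SB_mem_reg]
  unfold S34SB_regZ
  rw [S34SB_mem_regOff]
  refine forall_congr' fun Q => ?_
  rw [S34SB_mem_zeros, not_lt, Place.ord_inv]
  constructor
  · intro hh hQ
    exact hh (by omega)
  · intro hh hQ
    exact hh (by omega)

include hA hH h in
/-- **span on the chart `x = j⁻¹`** (the chart of the cusps): every function regular off the
zeros of `j` lies in `ℚ̄ · R_{1/j}`. -/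
theorem S40DS_span_inv (s : ↥(modularFunctionFieldBar (M * p)))
    (hs : s ∈ S34SB_reg Ω (jB (M * p) : ↥(modularFunctionFieldBar (M * p)))⁻¹) :
    s ∈ Submodule.span Ω (S40DL_R M p hp hpM A hgen H (jB (M * p))⁻¹ : Set _) := by
  have hP := (S36LD_hRR (M * p)).principal
  rw [S40DS_reg_inv_iff] at hs
  obtain ⟨b, hb⟩ := S36DW_exists_b hP (jB (M * p) : ↥(modularFunctionFieldBar (M * p)))
    (0 : Ω) hs
  have hspan := S36SH_rr_span (M * p) (A.inertiaSubgroupIn ℚ : Set (Ω ≃ₐ[ℚ] Ω)) _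
    (fun τ hτ v => S36DW_E_stable (M * p) hP (jB (M * p)) _ 0 b τ (S34SW_gal_jB (M * p) τ)
      (S36DW_sub_fixed (M * p) τ (S34SW_gal_jB (M * p) τ) (map_zero τ)) v)
  refine (Submodule.span_le.2 ?_) (hspan hb)
  rintro w ⟨hw1, hw2⟩
  have hwF : w ∈ (S36FI_act (M * p) H).fixF :=
    (S36FI_mem_fixF (M * p) H).2 fun σ hσ => hw2 ⟨σ, hH hσ⟩
  exact S40DS_fixed_mem_span M p hp hpM A hA hgen H ϖ h _ w hwF
    ((S40DS_reg_inv_iff _ _).2 (S36DW_regZ_le hP (jB (M * p)) (0 : Ω) b hw1))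

end inst

end Fermat.Agent.S40
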