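import Mathlib

/-!
# TRACK 13 (S40, row 38), (F2') END GAME (helper20).  Prefix `S40EG_`.  Mathlib only.

The last, purely arithmetical step of the J-side statement (F2'): from the two slope formulas
and the gluing relation to the vanishing of the slopes modulo `p`.

`ι` = the nodes (supersingular points), and for a node `s`
* `n s`  = the slope of a Kummer generator `u` of the class `x` at `s` (`ord_s (red₁ u)`),
* `n₀ s` = the slope of the modular unit `f₀ = Δ(pz)/Δ(z)` at `s`,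
* `e s`  = the thickness `v_F(ϖ_s)` of the node,
* `a s`  = `v_L(W_s)`, `W_s = ∏ w_P ^ m_P` over the points of the divisor in the annulus at `s`,
* `K`    = `(V₂(u) − V₁(u)) / p`, `K₀ = V₂(f₀) − V₁(f₀)` (`= 12 (p − 1)`, prime to `p` for `p ≥ 5`).

* `S40EG_star` : slope formula for `u` (`hx`), gluing (`ha`: `a s` is constant modulo `p`),
  slope formula for `f₀` (`hf`) `⇒` `n ≡ μ • n₀ (mod p)` for one `μ` — no thickness, no mass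
  formula is needed.
* `S40EG_zero` : a Hecke operator `T` on slope vectors with `T n₀ = (ℓ + 1) n₀`,
  `T n ≡ a_ℓ n`, `p ∤ a_ℓ − ℓ − 1` kills `n` modulo `p`.
* `S40EG_zero_of_mass` : the same from `Σ n ≡ 0` and `p ∤ Σ n₀` (no Hecke operator).
* `S40EG_main`, `S40EG_main_mass` : the two combined.
-/

set_option autoImplicit false

namespace Fermat.Agent.S40

/-- an integer prime to the prime `p` has an inverse modulo `p`. -/
theorem S40EG_exists_inv {p : ℕ} (hp : p.Prime) {K₀ : ℤ} (hK₀ : ¬ (p : ℤ) ∣ K₀) :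
    ∃ K₁ : ℤ, (p : ℤ) ∣ K₀ * K₁ - 1 := by
  have hcop : IsCoprime K₀ (p : ℤ) := by
    rw [isCoprime_comm]
    exact (Prime.coprime_iff_not_dvd (Nat.prime_iff_prime_int.mp hp)).mpr hK₀
  obtain ⟨r, s, hrs⟩ := hcop
  refine ⟨r, ⟨-s, ?_⟩⟩
  linear_combination hrs

/-- **(★)**: the slope vector of `x` is proportional to the slope vector of the modular unit
modulo `p`. -/
theorem S40EG_star {ι : Type*} {p : ℕ} (hp : p.Prime)
    (n n₀ e a : ι → ℤ) (K K₀ : ℤ) (hK₀ : ¬ (p : ℤ) ∣ K₀)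
    (hx : ∀ s, (p : ℤ) ∣ K - (n s * e s + a s))
    (ha : ∀ s t, (p : ℤ) ∣ a s - a t)
    (hf : ∀ s, n₀ s * e s = K₀) :
    ∃ μ : ℤ, ∀ s, (p : ℤ) ∣ n s - μ * n₀ s := by
  classical
  by_cases hne : Nonempty ι
  · obtain ⟨s₀⟩ := hne
    obtain ⟨K₁, hK₁⟩ := S40EG_exists_inv hp hK₀
    refine ⟨(K - a s₀) * K₁, fun s => ?_⟩
    obtain ⟨c₁, hc₁⟩ := hx s
    obtain ⟨c₂, hc₂⟩ := ha s s₀
    obtain ⟨c₃, hc₃⟩ := hK₁
    refine ⟨-(n s) * c₃ - K₁ * n₀ s * (c₁ + c₂), ?_⟩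
    have h := hf s
    linear_combination (-(n s)) * hc₃ - K₁ * n₀ s * hc₁ - K₁ * n₀ s * hc₂ - K₁ * n s * h
  · exact ⟨0, fun s => (hne ⟨s⟩).elim⟩

/-- an additive map on integer vectors preserves congruences modulo `p`. -/
theorem S40EG_map_congr {ι : Type*} (p : ℕ) (T : (ι → ℤ) →+ (ι → ℤ)) (v w : ι → ℤ)
    (h : ∀ s, (p : ℤ) ∣ v s - w s) (s : ι) : (p : ℤ) ∣ T v s - T w s := by
  classical
  choose z hz using h
  have hvw : v = w + (p : ℤ) • z := by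
    funext t
    have := hz t
    simp only [Pi.add_apply, Pi.smul_apply, smul_eq_mul]
    linarith
  rw [hvw, map_add, map_zsmul]
  refine ⟨T z s, ?_⟩
  simp only [Pi.add_apply, Pi.smul_apply, smul_eq_mul]
  ring

/-- **Hecke kills the Eisenstein line**: `n ≡ μ n₀`, `T n₀ = (ℓ + 1) n₀`, `T n ≡ a_ℓ n`,
`p ∤ a_ℓ − ℓ − 1` `⇒` `n ≡ 0 (mod p)`. -/
theorem S40EG_zero {ι : Type*} {p : ℕ} (hp : p.Prime)
    (n n₀ : ι → ℤ) (μ : ℤ) (hstar : ∀ s, (p : ℤ) ∣ n s - μ * n₀ s)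
    (T : (ι → ℤ) →+ (ι → ℤ)) (al l : ℤ)
    (hT₀ : T n₀ = (l + 1) • n₀)
    (hTn : ∀ s, (p : ℤ) ∣ T n s - al * n s)
    (hl : ¬ (p : ℤ) ∣ al - l - 1) (s : ι) : (p : ℤ) ∣ n s := by
  have h1 : (p : ℤ) ∣ T n s - T (μ • n₀) s :=
    S40EG_map_congr p T n (μ • n₀) (fun t => by
      simpa only [Pi.smul_apply, smul_eq_mul] using hstar t) s
  have h2 : T (μ • n₀) s = μ * ((l + 1) * n₀ s) := by
    rw [map_zsmul, hT₀]
    simp only [Pi.smul_apply, smul_eq_mul]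
  rw [h2] at h1
  obtain ⟨c₁, hc₁⟩ := h1
  obtain ⟨c₂, hc₂⟩ := hTn s
  obtain ⟨c₃, hc₃⟩ := hstar s
  have h3 : (p : ℤ) ∣ (al - l - 1) * n s := by
    refine ⟨c₁ - c₂ - (l + 1) * c₃, ?_⟩
    linear_combination hc₁ - hc₂ - (l + 1) * hc₃
  rcases (Nat.prime_iff_prime_int.mp hp).dvd_or_dvd h3 with h | h
  · exact (hl h).elim
  · exact h

/-- **the mass shortcut**: `n ≡ μ n₀`, `Σ n ≡ 0`, `p ∤ Σ n₀` `⇒` `n ≡ 0 (mod p)`. -/
theorem S40EG_zero_of_mass {ι : Type*} [Fintype ι] {p : ℕ} (hp : p.Prime)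
    (n n₀ : ι → ℤ) (μ : ℤ) (hstar : ∀ s, (p : ℤ) ∣ n s - μ * n₀ s)
    (hsum : (p : ℤ) ∣ ∑ s, n s) (hmass : ¬ (p : ℤ) ∣ ∑ s, n₀ s) (s : ι) : (p : ℤ) ∣ n s := by
  classical
  have h1 : (p : ℤ) ∣ ∑ t, (n t - μ * n₀ t) := Finset.dvd_sum (fun t _ => hstar t)
  rw [Finset.sum_sub_distrib, ← Finset.mul_sum] at h1
  have h2 : (p : ℤ) ∣ μ * ∑ t, n₀ t := by
    have := dvd_sub hsum h1
    simpa using this
  have hμ : (p : ℤ) ∣ μ := by
    rcases (Nat.prime_iff_prime_int.mp hp).dvd_or_dvd h2 with h | h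
    · exact h
    · exact (hmass h).elim
  have h3 : (p : ℤ) ∣ μ * n₀ s := Dvd.dvd.mul_right hμ _
  have := dvd_add (hstar s) h3
  simpa using this

/-- **END GAME** (Hecke form): slope formulas + gluing + one Hecke operator `⇒` all slopes of
`x` vanish modulo `p`. -/
theorem S40EG_main {ι : Type*} {p : ℕ} (hp : p.Prime)
    (n n₀ e a : ι → ℤ) (K K₀ : ℤ) (hK₀ : ¬ (p : ℤ) ∣ K₀)
    (hx : ∀ s, (p : ℤ) ∣ K - (n s * e s + a s))
    (ha : ∀ s t, (p : ℤ) ∣ a s - a t)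
    (hf : ∀ s, n₀ s * e s = K₀)
    (T : (ι → ℤ) →+ (ι → ℤ)) (al l : ℤ)
    (hT₀ : T n₀ = (l + 1) • n₀)
    (hTn : ∀ s, (p : ℤ) ∣ T n s - al * n s)
    (hl : ¬ (p : ℤ) ∣ al - l - 1) (s : ι) : (p : ℤ) ∣ n s := by
  obtain ⟨μ, hμ⟩ := S40EG_star hp n n₀ e a K K₀ hK₀ hx ha hf
  exact S40EG_zero hp n n₀ μ hμ T al l hT₀ hTn hl s

/-- **END GAME** (mass form). -/
theorem S40EG_main_mass {ι : Type*} [Fintype ι] {p : ℕ} (hp : p.Prime)
    (n n₀ e a : ι → ℤ) (K K₀ : ℤ) (hK₀ : ¬ (p : ℤ) ∣ K₀)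
    (hx : ∀ s, (p : ℤ) ∣ K - (n s * e s + a s))
    (ha : ∀ s t, (p : ℤ) ∣ a s - a t)
    (hf : ∀ s, n₀ s * e s = K₀)
    (hsum : (p : ℤ) ∣ ∑ s, n s) (hmass : ¬ (p : ℤ) ∣ ∑ s, n₀ s) (s : ι) : (p : ℤ) ∣ n s := by
  obtain ⟨μ, hμ⟩ := S40EG_star hp n n₀ e a K K₀ hK₀ hx ha hf
  exact S40EG_zero_of_mass hp n n₀ μ hμ hsum hmass s

end Fermat.Agent.S40
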