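import Mathlib
import Fermat.Agent.S13.AtPMain

/-!
# TRACK 13 (S40), W-side (F1)(b): depth of `p`-torsion in the kernel of reduction (helper28)

`A` a valuation subring of a field `K` of characteristic zero, `W` a Weierstrass curve with
coefficients in `A`, `p` an odd prime.  If `Q = (x, y)` is a point with `x ∉ A` (a non-zero point
of the kernel of reduction) and `p • Q = 0`, then

  `v(p) ≤ v(x⁻¹) ^ ((p − 1) / 2)`        (`S40Fb_main`),

i.e. additively `ord(t(Q)) ≤ ord(p) / (p − 1)` for the parameter `t ~ x^{-1/2}`.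

No formal group is used: the `(p − 1) / 2` points `j • Q`, `1 ≤ j ≤ (p − 1) / 2`, have pairwise
distinct `X`-coordinates, all of the value `v(x)` (`S05_par_nsmul_gen`), and their inverses are
roots of the reverse of `preΨ_p`, whose constant coefficient is `p` (`S13_atp_newton`, the
Newton count at `p`).  Ordinary and supersingular reduction are not distinguished.

Prefix `S40Fb_`.
-/

set_option autoImplicit false
set_option linter.unusedSectionVars false
set_option linter.unusedVariables false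

namespace Fermat.Agent.S40

open WeierstrassCurve WeierstrassCurve.Affine WeierstrassCurve.Affine.Point
open Fermat.Agent.S05 Fermat.Agent.S51 Fermat.Agent.S13

/-- in a group killed by nothing smaller than `p`: `i • Q = j • Q`, `i ≤ j < i + p` ⇒ `i = j`. -/
lemma S40Fb_eq_of_nsmul_eq {G : Type*} [AddCommGroup G] {p : ℕ} (hp : p.Prime) {Q : G}
    (hQ0 : Q ≠ 0) (hpQ : p • Q = 0) {i j : ℕ} (hij : i ≤ j) (hjp : j - i < p)
    (h : i • Q = j • Q) : i = j := by
  by_contra hne
  have hpos : 0 < j - i := by omega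
  have h1 : j • Q = i • Q + (j - i) • Q := by
    rw [← add_nsmul]
    congr 1
    omega
  have h2 : (j - i) • Q = 0 := by
    rw [← h, left_eq_add] at h1
    exact h1
  refine S13_atpm_ne_zero hp hQ0 hpQ ?_ h2
  intro hd
  have := Nat.le_of_dvd hpos hd
  omega

variable {K : Type*} [Field K] [CharZero K] [DecidableEq K] {W : WeierstrassCurve.Affine K}
  (A : ValuationSubring K)

/-- residue characteristic `p`: a natural number prime to `p` is a unit of `A`. -/
lemma S40Fb_val_nat {p : ℕ} (hp : p.Prime) (hpA : A.valuation (p : K) < 1) {j : ℕ}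
    (hj : ¬ p ∣ j) : A.valuation (j : K) = 1 := by
  refine le_antisymm ((A.valuation_le_one_iff _).2 (natCast_mem A j)) ?_
  by_contra hlt
  rw [not_le] at hlt
  have hcop : IsCoprime (j : ℤ) (p : ℤ) := by
    rw [Int.isCoprime_iff_gcd_eq_one]
    exact_mod_cast ((Nat.Prime.coprime_iff_not_dvd hp).2 hj).symm
  obtain ⟨a, b, hab⟩ := hcop
  have h1 : ((a : ℤ) : K) * (j : K) + ((b : ℤ) : K) * (p : K) = 1 := by
    exact_mod_cast congrArg (Int.cast : ℤ → K) hab
  have ha : A.valuation ((a : ℤ) : K) ≤ 1 := (A.valuation_le_one_iff _).2 (intCast_mem A a)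
  have hb : A.valuation ((b : ℤ) : K) ≤ 1 := (A.valuation_le_one_iff _).2 (intCast_mem A b)
  have h2 : A.valuation (((a : ℤ) : K) * (j : K) + ((b : ℤ) : K) * (p : K)) < 1 :=
    S05_v_add_lt A (S05_v_mul_lt_of_le_of_lt A ha hlt) (S05_v_mul_lt_of_le_of_lt A hb hpA)
  rw [h1, map_one] at h2
  exact lt_irrefl _ h2

/-- the multiples `j • Q`, `p ∤ j`, of a point of the kernel of reduction have `X`-coordinates of
the same value. -/
theorem S40Fb_val_nsmul (hW : S05_Integral W A) {p : ℕ} (hp : p.Prime)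
    (hpA : A.valuation (p : K) < 1) {Q : W.Point} {x : K} (hQx : S51_c_IsX Q x) (hxA : x ∉ A)
    {j : ℕ} (hj : ¬ p ∣ j) :
    ∃ xj, S51_c_IsX (j • Q) xj ∧ A.valuation xj = A.valuation x := by
  obtain ⟨c, hc, hc'⟩ := S05_par_nsmul_gen hW hQx hxA j
  have hj1 : A.valuation ((j : K) ^ 2) = 1 := by
    rw [map_pow, S40Fb_val_nat A hp hpA hj, one_pow]
  have hc1 : A.valuation c = 1 := S05_v_eq_one_of_sub_lt A hc' hj1
  have hx0 : x ≠ 0 := by
    rintro rfl
    exact hxA (zero_mem A)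
  have hvx0 : A.valuation x ≠ 0 := (Valuation.ne_zero_iff _).2 hx0
  obtain ⟨-, h | ⟨xq, hq, he⟩⟩ := hc
  · exfalso
    rw [h.2, _root_.map_zero] at hc1
    exact zero_ne_one hc1
  · refine ⟨xq, hq, ?_⟩
    have h3 := congrArg A.valuation he
    rw [map_mul, map_mul, hc1, one_mul, map_inv₀, map_one] at h3
    exact (mul_inv_eq_one₀ hvx0).1 h3

/-- **(F1)(b)**: a point `Q = (x, y)` of the kernel of reduction (`x ∉ A`) killed by the odd prime
`p` satisfies `v(p) ≤ v(x⁻¹) ^ ((p − 1) / 2)`. -/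
theorem S40Fb_main (hW : S05_Integral W A) {p : ℕ} (hp : p.Prime) (hp2 : p ≠ 2)
    {Q : W.Point} {x : K} (hQx : S51_c_IsX Q x) (hxA : x ∉ A) (hpQ : p • Q = 0) :
    A.valuation (p : K) ≤ (A.valuation x)⁻¹ ^ ((p - 1) / 2) := by
  have hQ0 : Q ≠ 0 := hQx.ne_zero
  have hpA : A.valuation (p : K) < 1 := by
    by_contra h
    have h1 : A.valuation (p : K) = 1 :=
      le_antisymm ((A.valuation_le_one_iff _).2 (natCast_mem A p)) (not_lt.1 h)
    exact S05_nsmul_ne_zero_gen A hW hQx hxA h1 hpQ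
  have hp3 : 3 ≤ p := by
    have := hp.two_le
    omega
  have hodd : Odd p := hp.odd_of_ne_two hp2
  obtain ⟨m, hm⟩ := hodd
  have hk : (p - 1) / 2 = m := by omega
  rw [hk]
  have hj : ∀ j ∈ Finset.Icc 1 m, ¬ p ∣ j := by
    intro j hj hd
    rw [Finset.mem_Icc] at hj
    have := Nat.le_of_dvd (by omega) hd
    omega
  have hj0 : ∀ j ∈ Finset.Icc 1 m, j • Q ≠ 0 := fun j hj' =>
    S13_atpm_ne_zero hp hQ0 hpQ (hj j hj')
  have hval : ∀ j ∈ Finset.Icc 1 m, A.valuation (S13_atpm_x (j • Q)) = A.valuation x := by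
    intro j hj'
    obtain ⟨xj, hxj, hv⟩ := S40Fb_val_nsmul A hW hp hpA hQx hxA (hj j hj')
    rw [S13_atpm_x_eq hxj, hv]
  have hinj : ∀ i ∈ Finset.Icc 1 m, ∀ j ∈ Finset.Icc 1 m,
      (S13_atpm_x (i • Q))⁻¹ = (S13_atpm_x (j • Q))⁻¹ → i = j := by
    intro i hi j hj' hij
    have hxe : S13_atpm_x (i • Q) = S13_atpm_x (j • Q) := inv_injective hij
    have hi' := S13_atpm_isX (hj0 i hi)
    have hj'' := S13_atpm_isX (hj0 j hj')
    rw [hxe] at hi'
    rw [Finset.mem_Icc] at hi hj'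
    rcases hi'.eq_or_eq_neg hj'' with h | h
    · rcases le_total i j with hle | hle
      · exact S40Fb_eq_of_nsmul_eq hp hQ0 hpQ hle (by omega) h
      · exact (S40Fb_eq_of_nsmul_eq hp hQ0 hpQ hle (by omega) h.symm).symm
    · exfalso
      have h0 : (i + j) • Q = 0 := by
        rw [add_nsmul, h, neg_add_cancel]
      refine S13_atpm_ne_zero hp hQ0 hpQ ?_ h0
      intro hd
      have := Nat.le_of_dvd (by omega) hd
      omega
  set s : Finset K := (Finset.Icc 1 m).image (fun j => (S13_atpm_x (j • Q))⁻¹) with hs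
  have hsN : ∀ t ∈ s, ∃ x y, ∃ h : W.Nonsingular x y,
      p • (Point.some x y h : W.Point) = 0 ∧ x ∉ A ∧ t = x⁻¹ := by
    intro t ht
    rw [hs, Finset.mem_image] at ht
    obtain ⟨j, hj', rfl⟩ := ht
    have hxA' : S13_atpm_x (j • Q) ∉ A :=
      S13_atpm_x_not_mem (hj0 j hj') (S05_inE1_nsmul_gen A hW (Or.inr ⟨x, hQx, hxA⟩) j)
    obtain ⟨y, h, hjQ⟩ := S13_atpm_isX (hj0 j hj')
    refine ⟨_, y, h, ?_, hxA', rfl⟩
    rw [← hjQ, ← mul_nsmul, mul_comm, S13_atpm_mul_p hpQ]
  have hN := S13_atp_newton A hW hp hp2 s hsN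
  rw [hs, Finset.prod_image hinj] at hN
  have hprod : ∏ j ∈ Finset.Icc 1 m, A.valuation ((S13_atpm_x (j • Q))⁻¹) =
      (A.valuation x)⁻¹ ^ m := by
    rw [Finset.prod_congr rfl (fun j hj' => by rw [map_inv₀, hval j hj']),
      Finset.prod_const, Nat.card_Icc]
    simp
  rwa [hprod] at hN

end Fermat.Agent.S40
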