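import Mathlib
import Fermat.Agent.S05.Defs
import Fermat.Agent.S05.UnitDeriv

/-!
# TRACK 13 (S40), W-side (F1), step (c): the chord formula is an isometry (helper7)

`K` a field, `A` a valuation subring, `v = A.valuation` (multiplicative), `W` a Weierstrass curve
over `K` with coefficients in `A`.  Let `P = (x, y)`, `P' = (x', y')` be integral points with
`x' ≡ x`, `y' ≡ y` modulo the maximal ideal, `x' ≠ x`, such that one of the two partial
derivatives `D_y = 2y + a₁x + a₃`, `D_x = a₁y − (3x² + 2a₂x + a₄)` at `P` is a unit (nonsingular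
reduction).  Then `Q = P' − P` has an `X`-coordinate `x_Q` with

  `max (v (x' − x)) (v (y' − y)) ^ 2 * v x_Q = 1`      (`S40Fc_chord`),

i.e. `max(v(x' − x), v(y' − y))` is the valuation of the parameter `t(Q) ~ x_Q^(-1/2)` of `Q`.

* `S40Fc_val_addX_eq`  : `1 < v l ⇒ v (l² + a₁ l − a₂ − x' − x) = v l ^ 2`;
* `S40Fc_val_chord`    : the valuation computation (two cases `D_y` unit / `D_x` unit);
* `S40Fc_val_chord_max`: in addition the value of the maximum in each case;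
* `S40Fc_chord`        : the statement on points.
-/

set_option autoImplicit false

open WeierstrassCurve

namespace Fermat.Agent.S40

open Fermat.Agent.S05 Fermat.Agent.S51

section Val

variable {K : Type*} [Field K] {Γ : Type*} [LinearOrderedCommGroupWithZero Γ] (v : Valuation K Γ)

/-- the `X`-coordinate of the chord formula has valuation `v l ^ 2` as soon as `1 < v l`. -/
theorem S40Fc_val_addX_eq {a₁ a₂ x x' l : K} (h1 : v a₁ ≤ 1) (h2 : v a₂ ≤ 1)
    (hx : v x ≤ 1) (hx' : v x' ≤ 1) (hl1 : 1 < v l) :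
    v (l ^ 2 + a₁ * l - a₂ - x' - x) = v l ^ 2 := by
  have hla : v (l + a₁) = v l := Valuation.map_add_eq_of_lt_left v (lt_of_le_of_lt h1 hl1)
  have hprod : v (l ^ 2 + a₁ * l) = v l * v l := by
    have : l ^ 2 + a₁ * l = l * (l + a₁) := by ring
    rw [this, map_mul, hla]
  have hll : 1 < v l * v l := one_lt_mul_of_lt_of_le hl1 hl1.le
  have hrest : v (a₂ + x' + x) ≤ 1 := Valuation.map_add_le v (Valuation.map_add_le v h2 hx') hx
  have heq : l ^ 2 + a₁ * l - a₂ - x' - x = (l ^ 2 + a₁ * l) - (a₂ + x' + x) := by ring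
  rw [heq, Valuation.map_sub_eq_of_lt_left v (by rw [hprod]; exact lt_of_le_of_lt hrest hll), hprod,
    sq]

/-- **(c), valuation form.**  With `d = x' − x ≠ 0`, `e = y' − y`, `N = y' + y + a₁x + a₃`,
`l = N / d`: `v l = (max (v d) (v e))⁻¹ > 1` and `v (l² + a₁l − a₂ − x' − x) = v l ^ 2`. -/
theorem S40Fc_val_slope {a₁ a₂ a₃ a₄ a₆ x y x' y' : K} (h1 : v a₁ ≤ 1) (h2 : v a₂ ≤ 1)
    (h3 : v a₃ ≤ 1) (h4 : v a₄ ≤ 1)
    (hx : v x ≤ 1) (hy : v y ≤ 1) (hx' : v x' ≤ 1)
    (hxx : v (x' - x) < 1) (hyy : v (y' - y) < 1) (hxe : x' ≠ x)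
    (hE : y ^ 2 + a₁ * x * y + a₃ * y = x ^ 3 + a₂ * x ^ 2 + a₄ * x + a₆)
    (hE' : y' ^ 2 + a₁ * x' * y' + a₃ * y' = x' ^ 3 + a₂ * x' ^ 2 + a₄ * x' + a₆)
    (hns : v (2 * y + a₁ * x + a₃) = 1 ∨ v (a₁ * y - (3 * x ^ 2 + 2 * a₂ * x + a₄)) = 1) :
    v ((y' + y + a₁ * x + a₃) / (x' - x)) * max (v (x' - x)) (v (y' - y)) = 1 := by
  set d : K := x' - x with hd
  set e : K := y' - y with he
  have hd0 : d ≠ 0 := sub_ne_zero.mpr hxe
  have hvd0 : v d ≠ 0 := (Valuation.ne_zero_iff v).mpr hd0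
  have hvdpos : 0 < v d := zero_lt_iff.mpr hvd0
  set N : K := y' + y + a₁ * x + a₃ with hN
  set N' : K := y' + y + a₁ * x' + a₃ with hN'
  set G : K := x' ^ 2 + x' * x + x ^ 2 + a₂ * (x' + x) + a₄ - a₁ * y with hG
  have hrel : e * N' = d * G := by
    rw [he, hN', hd, hG]
    linear_combination hE' - hE
  have hNN' : N' = N + a₁ * d := by rw [hN', hN, hd]; ring
  have hNe : N = (2 * y + a₁ * x + a₃) + e := by rw [hN, he]; ring
  have hGD : G = -(a₁ * y - (3 * x ^ 2 + 2 * a₂ * x + a₄)) + d * (x' + 2 * x + a₂) := by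
    rw [hG, hd]; ring
  have hva₁d' : v (a₁ * d) ≤ v d := by
    rw [map_mul]
    calc v a₁ * v d ≤ 1 * v d := mul_le_mul_left h1 _
      _ = v d := one_mul _
  have hva₁d : v (a₁ * d) < 1 := lt_of_le_of_lt hva₁d' hxx
  have hvG : v G ≤ 1 := by
    rw [hG]
    refine Valuation.map_sub_le v (Valuation.map_add_le v (Valuation.map_add_le v
      (Valuation.map_add_le v (Valuation.map_add_le v ?_ ?_) ?_) ?_) h4) ?_
    · rw [map_pow]; exact pow_le_one' hx' 2
    · rw [map_mul]; exact mul_le_one' hx' hx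
    · rw [map_pow]; exact pow_le_one' hx 2
    · rw [map_mul]; exact mul_le_one' h2 (Valuation.map_add_le v hx' hx)
    · rw [map_mul]; exact mul_le_one' h1 hy
  have hv2 : v (2 : K) ≤ 1 := by
    have h := Valuation.map_add_le v (le_of_eq v.map_one) (le_of_eq v.map_one)
    rwa [one_add_one_eq_two] at h
  -- reduce to the two cases
  by_cases hDy : v (2 * y + a₁ * x + a₃) = 1
  · -- case A: `D_y` is a unit
    have hvN : v N = 1 := by
      rw [hNe, Valuation.map_add_eq_of_lt_left v (by rw [hDy]; exact hyy), hDy]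
    have hvN' : v N' = 1 := by
      rw [hNN', Valuation.map_add_eq_of_lt_left v (by rw [hvN]; exact hva₁d), hvN]
    have hed : v e ≤ v d := by
      have h := congrArg v hrel
      rw [map_mul, map_mul, hvN', mul_one] at h
      rw [h]
      calc v d * v G ≤ v d * 1 := mul_le_mul_right hvG _
        _ = v d := mul_one _
    rw [max_eq_left hed, map_div₀, hvN, one_div, inv_mul_cancel₀ hvd0]
  · -- case B: `D_x` is a unit, `D_y` is not
    have hDx : v (a₁ * y - (3 * x ^ 2 + 2 * a₂ * x + a₄)) = 1 := hns.resolve_left hDy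
    have hDyle : v (2 * y + a₁ * x + a₃) ≤ 1 := by
      refine Valuation.map_add_le v (Valuation.map_add_le v ?_ ?_) h3
      · rw [map_mul]
        exact mul_le_one' hv2 hy
      · rw [map_mul]; exact mul_le_one' h1 hx
    have hDylt : v (2 * y + a₁ * x + a₃) < 1 := lt_of_le_of_ne hDyle hDy
    have hvG1 : v G = 1 := by
      have hsmall : v (d * (x' + 2 * x + a₂)) < 1 := by
        rw [map_mul]
        have h2x : v (x' + 2 * x + a₂) ≤ 1 := by
          refine Valuation.map_add_le v (Valuation.map_add_le v hx' ?_) h2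
          rw [map_mul]
          exact mul_le_one' hv2 hx
        calc v d * v (x' + 2 * x + a₂) ≤ v d * 1 := mul_le_mul_right h2x _
          _ = v d := mul_one _
          _ < 1 := hxx
      rw [hGD, Valuation.map_add_eq_of_lt_left v (by rw [Valuation.map_neg, hDx]; exact hsmall),
        Valuation.map_neg, hDx]
    have hvNlt : v N < 1 := by
      rw [hNe]
      exact Valuation.map_add_lt v hDylt hyy
    have hvN'lt : v N' < 1 := by
      rw [hNN']
      exact Valuation.map_add_lt v hvNlt hva₁d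
    have hvrel : v e * v N' = v d := by
      have h := congrArg v hrel
      rw [map_mul, map_mul, hvG1, mul_one] at h
      exact h
    have hve0 : v e ≠ 0 := by
      intro h0
      rw [h0, zero_mul] at hvrel
      exact hvd0 hvrel.symm
    have hvN'0 : v N' ≠ 0 := by
      intro h0
      rw [h0, mul_zero] at hvrel
      exact hvd0 hvrel.symm
    have hvepos : 0 < v e := zero_lt_iff.mpr hve0
    have hvN'pos : 0 < v N' := zero_lt_iff.mpr hvN'0
    have hde : v d < v e := by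
      rw [← hvrel]
      calc v e * v N' < v e * 1 := mul_lt_mul_of_pos_left hvN'lt hvepos
        _ = v e := mul_one _
    have hdN' : v d < v N' := by
      rw [← hvrel]
      calc v e * v N' < 1 * v N' := mul_lt_mul_of_pos_right hyy hvN'pos
        _ = v N' := one_mul _
    have hvNN' : v N = v N' := by
      have : N = N' + -(a₁ * d) := by rw [hNN']; ring
      rw [this, Valuation.map_add_eq_of_lt_left v]
      rw [Valuation.map_neg]
      exact lt_of_le_of_lt hva₁d' hdN'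
    rw [max_eq_right hde.le, map_div₀, hvNN', ← hvrel]
    field_simp

/-- **(c), valuation form**: `max (v (x' − x)) (v (y' − y)) ^ 2 * v x_Q = 1` for the
`X`-coordinate `x_Q = l² + a₁l − a₂ − x' − x`, `l = (y' + y + a₁x + a₃)/(x' − x)`, of `P' − P`. -/
theorem S40Fc_val_chord {a₁ a₂ a₃ a₄ a₆ x y x' y' : K} (h1 : v a₁ ≤ 1) (h2 : v a₂ ≤ 1)
    (h3 : v a₃ ≤ 1) (h4 : v a₄ ≤ 1)
    (hx : v x ≤ 1) (hy : v y ≤ 1) (hx' : v x' ≤ 1)
    (hxx : v (x' - x) < 1) (hyy : v (y' - y) < 1) (hxe : x' ≠ x)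
    (hE : y ^ 2 + a₁ * x * y + a₃ * y = x ^ 3 + a₂ * x ^ 2 + a₄ * x + a₆)
    (hE' : y' ^ 2 + a₁ * x' * y' + a₃ * y' = x' ^ 3 + a₂ * x' ^ 2 + a₄ * x' + a₆)
    (hns : v (2 * y + a₁ * x + a₃) = 1 ∨ v (a₁ * y - (3 * x ^ 2 + 2 * a₂ * x + a₄)) = 1) :
    max (v (x' - x)) (v (y' - y)) ^ 2 *
      v (((y' + y + a₁ * x + a₃) / (x' - x)) ^ 2 + a₁ * ((y' + y + a₁ * x + a₃) / (x' - x))
        - a₂ - x' - x) = 1 := by
  have hs := S40Fc_val_slope v h1 h2 h3 h4 hx hy hx' hxx hyy hxe hE hE' hns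
  set l : K := (y' + y + a₁ * x + a₃) / (x' - x) with hl
  set m : Γ := max (v (x' - x)) (v (y' - y)) with hm
  have hm1 : m < 1 := max_lt hxx hyy
  have hm0 : m ≠ 0 := by
    intro h0
    rw [h0, mul_zero] at hs
    exact zero_ne_one hs
  have hmpos : 0 < m := zero_lt_iff.mpr hm0
  have hl1 : 1 < v l := by
    by_contra hle
    rw [not_lt] at hle
    have : v l * m < 1 := by
      calc v l * m ≤ 1 * m := mul_le_mul_left hle _
        _ = m := one_mul _
        _ < 1 := hm1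
    rw [hs] at this
    exact lt_irrefl _ this
  rw [S40Fc_val_addX_eq v h1 h2 hx hx' hl1, ← mul_pow, mul_comm, hs, one_pow]

end Val

section Pts

variable {K : Type*} [Field K] [DecidableEq K] (A : ValuationSubring K)
  {W : WeierstrassCurve.Affine K}

/-- **(c) on points.**  `P = (x, y)` and `P' = (x', y')` integral, congruent modulo the maximal
ideal, `x' ≠ x`, one of the partial derivatives at `P` a unit.  Then `P' − P` has an
`X`-coordinate `x_Q ∉ A` with `max (v (x' − x)) (v (y' − y)) ^ 2 * v x_Q = 1`. -/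
theorem S40Fc_chord (hW : S05_Integral W A)
    {x y x' y' : K} (h : W.Nonsingular x y) (h' : W.Nonsingular x' y')
    (hx : x ∈ A) (hx' : x' ∈ A)
    (hxx : x' - x ∈ A.nonunits) (hyy : y' - y ∈ A.nonunits) (hxe : x' ≠ x)
    (hns : 2 * y + W.a₁ * x + W.a₃ ∉ A.nonunits ∨
      W.a₁ * y - (3 * x ^ 2 + 2 * W.a₂ * x + W.a₄) ∉ A.nonunits) :
    ∃ xQ, S51_c_IsX ((Affine.Point.some x' y' h' : W.Point) - Affine.Point.some x y h) xQ ∧
      xQ ∉ A ∧
      max (A.valuation (x' - x)) (A.valuation (y' - y)) ^ 2 * A.valuation xQ = 1 := by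
  have hy : y ∈ A := S05_y_mem A hW.a₁ hW.a₂ hW.a₃ hW.a₄ hW.a₆ h.1 hx
  have hneg : -(Affine.Point.some x y h : W.Point) =
      Affine.Point.some x (W.negY x y) ((Affine.nonsingular_neg ..).mpr h) :=
    Affine.Point.neg_some h
  have hxy : ¬(x' = x ∧ y' = W.negY x (W.negY x y)) := fun hh => hxe hh.1
  have hle : ∀ {z : K}, z ∈ A → A.valuation z ≤ 1 := fun hz => (A.valuation_le_one_iff _).mpr hz
  have hunit : ∀ {z : K}, z ∈ A → z ∉ A.nonunits → A.valuation z = 1 := by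
    intro z hz hzn
    rw [A.mem_nonunits_iff, not_lt] at hzn
    exact le_antisymm (hle hz) hzn
  have hDyA : 2 * y + W.a₁ * x + W.a₃ ∈ A :=
    add_mem (add_mem (mul_mem (S05_two_mem A) hy) (mul_mem hW.a₁ hx)) hW.a₃
  have hDxA : W.a₁ * y - (3 * x ^ 2 + 2 * W.a₂ * x + W.a₄) ∈ A := by
    refine sub_mem (mul_mem hW.a₁ hy) (add_mem (add_mem (mul_mem ?_ (pow_mem hx 2))
      (mul_mem (mul_mem (S05_two_mem A) hW.a₂) hx)) hW.a₄)
    exact_mod_cast natCast_mem A 3
  have hns' : A.valuation (2 * y + W.a₁ * x + W.a₃) = 1 ∨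
      A.valuation (W.a₁ * y - (3 * x ^ 2 + 2 * W.a₂ * x + W.a₄)) = 1 :=
    hns.imp (hunit hDyA) (hunit hDxA)
  have hE := (Affine.equation_iff _ _).mp h.1
  have hE' := (Affine.equation_iff _ _).mp h'.1
  have key := S40Fc_val_chord A.valuation (hle hW.a₁) (hle hW.a₂) (hle hW.a₃) (hle hW.a₄)
    (hle hx) (hle hy) (hle hx') (A.mem_nonunits_iff.mp hxx) (A.mem_nonunits_iff.mp hyy) hxe
    hE hE' hns'
  rw [sub_eq_add_neg, hneg, Affine.Point.add_some hxy]
  refine ⟨_, ⟨_, _, rfl⟩, ?_, ?_⟩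
  · rw [Affine.slope_of_X_ne hxe]
    have hN : y' - W.negY x y = y' + y + W.a₁ * x + W.a₃ := by
      simp only [Affine.negY]; ring
    have hlt := S05_val_addX_gt_one' A.valuation (hle hW.a₁) (hle hW.a₂) (hle hx) (hle hx')
      (N := y' - W.negY x y) (d := x' - x) ?_ (sub_ne_zero.mpr hxe)
    · intro hmem
      have := hle hmem
      simp only [Affine.addX] at this
      exact absurd this (not_le.mpr hlt)
    · -- `v (x' − x) < v N` follows from `v l * max = 1`
      have hs := S40Fc_val_slope A.valuation (hle hW.a₁) (hle hW.a₂) (hle hW.a₃) (hle hW.a₄)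
        (hle hx) (hle hy) (hle hx') (A.mem_nonunits_iff.mp hxx) (A.mem_nonunits_iff.mp hyy) hxe
        hE hE' hns'
      rw [hN]
      have hd0 : A.valuation (x' - x) ≠ 0 :=
        (Valuation.ne_zero_iff _).mpr (sub_ne_zero.mpr hxe)
      have hdpos : 0 < A.valuation (x' - x) := zero_lt_iff.mpr hd0
      rw [map_div₀] at hs
      by_contra hcon
      rw [not_lt] at hcon
      have h1 : A.valuation (y' + y + W.a₁ * x + W.a₃) / A.valuation (x' - x) ≤ 1 :=
        (div_le_one₀ hdpos).mpr hcon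
      have h2 : max (A.valuation (x' - x)) (A.valuation (y' - y)) < 1 :=
        max_lt (A.mem_nonunits_iff.mp hxx) (A.mem_nonunits_iff.mp hyy)
      have : A.valuation (y' + y + W.a₁ * x + W.a₃) / A.valuation (x' - x) *
          max (A.valuation (x' - x)) (A.valuation (y' - y)) < 1 := by
        calc _ ≤ 1 * max (A.valuation (x' - x)) (A.valuation (y' - y)) := mul_le_mul_left h1 _
          _ = _ := one_mul _
          _ < 1 := h2
      rw [hs] at this
      exact lt_irrefl _ this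
  · rw [Affine.slope_of_X_ne hxe]
    have hN : y' - W.negY x y = y' + y + W.a₁ * x + W.a₃ := by
      simp only [Affine.negY]; ring
    rw [hN]
    simpa only [Affine.addX] using key

omit [DecidableEq K] in
/-- `Φ₂(x) = D_x² − a₁ D_x D_y − (a₂ + 2x) D_y² + (b₂ + 8x) F(x, y)`. -/
theorem S40Fc_Φ_two_eq (W : WeierstrassCurve K) (x y : K) :
    (W.Φ 2).eval x =
      (W.a₁ * y - (3 * x ^ 2 + 2 * W.a₂ * x + W.a₄)) ^ 2
        - W.a₁ * (W.a₁ * y - (3 * x ^ 2 + 2 * W.a₂ * x + W.a₄)) * (2 * y + W.a₁ * x + W.a₃)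
        - (W.a₂ + 2 * x) * (2 * y + W.a₁ * x + W.a₃) ^ 2
        + (W.b₂ + 8 * x) * (y ^ 2 + W.a₁ * x * y + W.a₃ * y
            - (x ^ 3 + W.a₂ * x ^ 2 + W.a₄ * x + W.a₆)) := by
  simp only [Φ_two, Polynomial.eval_sub, Polynomial.eval_mul, Polynomial.eval_pow,
    Polynomial.eval_C, Polynomial.eval_X, WeierstrassCurve.b₂, WeierstrassCurve.b₄,
    WeierstrassCurve.b₆, WeierstrassCurve.b₈]
  ring

omit [DecidableEq K] in
/-- `Ψ₂²(x) = D_y² − 4 F(x, y)`. -/
theorem S40Fc_Ψ₂Sq_eq (W : WeierstrassCurve K) (x y : K) :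
    W.Ψ₂Sq.eval x =
      (2 * y + W.a₁ * x + W.a₃) ^ 2
        - 4 * (y ^ 2 + W.a₁ * x * y + W.a₃ * y - (x ^ 3 + W.a₂ * x ^ 2 + W.a₄ * x + W.a₆)) := by
  simp only [Ψ₂Sq, Polynomial.eval_add, Polynomial.eval_mul, Polynomial.eval_pow,
    Polynomial.eval_C, Polynomial.eval_X, WeierstrassCurve.b₂, WeierstrassCurve.b₄,
    WeierstrassCurve.b₆]
  ring

omit [DecidableEq K] in
/-- **good reduction ⇒ nonsingular reduction**: on an integral model with unit discriminant,
one of the two partial derivatives at an integral point is a unit (all residue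
characteristics). -/
theorem S40Fc_deriv_unit (hW : S05_Integral W A) (hΔ : W.Δ ∉ A.nonunits)
    {x y : K} (h : W.Equation x y) (hx : x ∈ A) :
    2 * y + W.a₁ * x + W.a₃ ∉ A.nonunits ∨
      W.a₁ * y - (3 * x ^ 2 + 2 * W.a₂ * x + W.a₄) ∉ A.nonunits := by
  by_contra hcon
  rw [not_or, not_not, not_not] at hcon
  obtain ⟨hDy, hDx⟩ := hcon
  rw [A.mem_nonunits_iff] at hDy hDx
  apply hΔ
  rw [A.mem_nonunits_iff]
  have hy : y ∈ A := S05_y_mem A hW.a₁ hW.a₂ hW.a₃ hW.a₄ hW.a₆ h hx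
  have hle : ∀ {z : K}, z ∈ A → A.valuation z ≤ 1 := fun hz => (A.valuation_le_one_iff _).mpr hz
  have hE := (Affine.equation_iff _ _).mp h
  have hF : y ^ 2 + W.a₁ * x * y + W.a₃ * y - (x ^ 3 + W.a₂ * x ^ 2 + W.a₄ * x + W.a₆) = 0 := by
    rw [hE]; ring
  set Dy : K := 2 * y + W.a₁ * x + W.a₃ with hDy_def
  set Dx : K := W.a₁ * y - (3 * x ^ 2 + 2 * W.a₂ * x + W.a₄) with hDx_def
  have hΨ : W.Ψ₂Sq.eval x = Dy ^ 2 := by
    rw [S40Fc_Ψ₂Sq_eq W x y, hF, mul_zero, sub_zero]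
  have hΦ : (W.Φ 2).eval x = Dx ^ 2 - W.a₁ * Dx * Dy - (W.a₂ + 2 * x) * Dy ^ 2 := by
    rw [S40Fc_Φ_two_eq W x y, hF, mul_zero, add_zero]
  have hlt_mul : ∀ {a b : K}, A.valuation a ≤ 1 → A.valuation b < 1 →
      A.valuation (a * b) < 1 := by
    intro a b ha hb
    rw [map_mul]
    calc A.valuation a * A.valuation b ≤ 1 * A.valuation b := mul_le_mul_left ha _
      _ = A.valuation b := one_mul _
      _ < 1 := hb
  have hvΨ : A.valuation (W.Ψ₂Sq.eval x) < 1 := by
    rw [hΨ, sq]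
    exact hlt_mul hDy.le hDy
  have hvΦ : A.valuation ((W.Φ 2).eval x) < 1 := by
    rw [hΦ]
    refine Valuation.map_sub_lt _ (Valuation.map_sub_lt _ ?_ ?_) ?_
    · rw [sq]; exact hlt_mul hDx.le hDx
    · exact hlt_mul (hle (mul_mem hW.a₁ (A.valuation_le_one_iff _ |>.mp hDx.le))) hDy
    · rw [sq]
      exact hlt_mul (hle (add_mem hW.a₂ (mul_mem (S05_two_mem A) hx))) (hlt_mul hDy.le hDy)
  have hU : (-48 * x ^ 2 - 8 * W.b₂ * x + W.b₂ ^ 2 - 32 * W.b₄) ∈ A := by
    refine sub_mem (add_mem (sub_mem (mul_mem ?_ (pow_mem hx 2)) (mul_mem (mul_mem ?_ hW.b₂) hx))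
      (pow_mem hW.b₂ 2)) (mul_mem ?_ hW.b₄)
    · exact neg_mem (by exact_mod_cast natCast_mem A 48)
    · exact_mod_cast natCast_mem A 8
    · exact_mod_cast natCast_mem A 32
  have hV : (12 * x ^ 3 - W.b₂ * x ^ 2 - 10 * W.b₄ * x + W.b₂ * W.b₄ - 27 * W.b₆) ∈ A := by
    refine sub_mem (add_mem (sub_mem (sub_mem (mul_mem ?_ (pow_mem hx 3))
      (mul_mem hW.b₂ (pow_mem hx 2))) (mul_mem (mul_mem ?_ hW.b₄) hx)) (mul_mem hW.b₂ hW.b₄))
      (mul_mem ?_ hW.b₆)
    · exact_mod_cast natCast_mem A 12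
    · exact_mod_cast natCast_mem A 10
    · exact_mod_cast natCast_mem A 27
  rw [← S05_bezout_two W x]
  exact Valuation.map_add_lt _ (hlt_mul (hle hU) hvΦ) (hlt_mul (hle hV) hvΨ)

/-- **(c) on points, good reduction.**  `P = (x, y)`, `P' = (x', y')` integral points of an
integral model with unit discriminant, congruent modulo the maximal ideal, `x' ≠ x`:
`P' − P` has an `X`-coordinate `x_Q ∉ A` with
`max (v (x' − x)) (v (y' − y)) ^ 2 * v x_Q = 1`. -/
theorem S40Fc_chord_good (hW : S05_Integral W A) (hΔ : W.Δ ∉ A.nonunits)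
    {x y x' y' : K} (h : W.Nonsingular x y) (h' : W.Nonsingular x' y')
    (hx : x ∈ A) (hx' : x' ∈ A)
    (hxx : x' - x ∈ A.nonunits) (hyy : y' - y ∈ A.nonunits) (hxe : x' ≠ x) :
    ∃ xQ, S51_c_IsX ((Affine.Point.some x' y' h' : W.Point) - Affine.Point.some x y h) xQ ∧
      xQ ∉ A ∧
      max (A.valuation (x' - x)) (A.valuation (y' - y)) ^ 2 * A.valuation xQ = 1 :=
  S40Fc_chord A hW h h' hx hx' hxx hyy hxe (S40Fc_deriv_unit A hW hΔ h.1 hx)

end Pts

end Fermat.Agent.S40
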