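import Mathlib
import Fermat.Agent.S58.Rel
import Fermat.Agent.S40.F1c

/-!
# TRACK 13 (S40), W-side (F1), step (c) for the inertia group (helper7)

`W : WeierstrassCurve ℤ`, `A` a valuation ring of `ℚ̄` over a prime `ℓ ∤ Δ_W`, `τ` in the inertia
group at `A`, `P = (x, y) ∈ W(ℚ̄)` with `x ∈ A` (no torsion hypothesis), `τ P ≠ ± P`.  Then
`Q = τ P − P` has an `X`-coordinate `x_Q ∉ A` and

  `max (v (τ x − x)) (v (τ y − y)) ^ 2 * v x_Q = 1`      (`S40Fc_inertia`).

* `S40Fc_Δ_unit`        : `ℓ ∤ Δ_W` ⇒ `Δ ∉ A.nonunits`;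
* `S40Fc_inertia`       : the statement above;
* `S40Fc_inertia_inv`   : the same in the shape `(v x_Q)⁻¹ = max (v (τ x − x)) (v (τ y − y)) ^ 2`
                          (to be combined with (b): `v p ≤ (v x_Q)⁻¹ ^ ((p − 1) / 2)`).
-/

set_option autoImplicit false
set_option linter.unusedSectionVars false
set_option linter.unusedVariables false

open scoped Pointwise

namespace Fermat.Agent.S40

open WeierstrassCurve Fermat.Agent.Lib Fermat.Agent.S05 Fermat.Agent.S51 Fermat.Agent.S18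
  Fermat.Agent.GalRep Fermat.Agent.S41 Fermat.Agent.S58

local notation "ℚbar" => AlgebraicClosure ℚ

variable (W : WeierstrassCurve ℤ) {ℓ : ℕ} (A : ValuationSubring ℚbar)

/-- good reduction: the discriminant is a unit of `A`. -/
theorem S40Fc_Δ_unit (hℓ : ℓ.Prime) (hA : A.LiesOverPrime ℓ) (hgood : ¬ (ℓ : ℤ) ∣ W.Δ) :
    (W.baseChange ℚbar).toAffine.Δ ∉ A.nonunits := by
  intro h
  apply hgood
  apply S41NE_dvd_of_intCast_mem_nonunits A hℓ hA
  have h2 : algebraMap ℤ ℚbar W.Δ ∈ A.nonunits := by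
    have : (W.baseChange ℚbar).toAffine.Δ = algebraMap ℤ ℚbar W.Δ := by
      show (W.map (algebraMap ℤ ℚbar)).Δ = _
      rw [WeierstrassCurve.map_Δ]
    rwa [this] at h
  rwa [eq_intCast] at h2

/-- **(c) for the inertia group at a prime of good reduction** (any residue characteristic, no
torsion hypothesis). -/
theorem S40Fc_inertia (hℓ : ℓ.Prime) (hA : A.LiesOverPrime ℓ) (hgood : ¬ (ℓ : ℤ) ∣ W.Δ)
    (τ : GQ) (hτ : τ ∈ A.inertiaSubgroupIn ℚ) {x y : ℚbar}
    (h : (W.baseChange ℚbar).toAffine.Nonsingular x y) (hx : x ∈ A)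
    (hne : τ • (Affine.Point.some x y h : (W.baseChange ℚbar).toAffine.Point) ≠
      Affine.Point.some x y h)
    (hne' : τ • (Affine.Point.some x y h : (W.baseChange ℚbar).toAffine.Point) ≠
      -Affine.Point.some x y h) :
    ∃ xQ, S51_c_IsX (τ • (Affine.Point.some x y h : (W.baseChange ℚbar).toAffine.Point) -
        Affine.Point.some x y h) xQ ∧ xQ ∉ A ∧
      max (A.valuation (τ x - x)) (A.valuation (τ y - y)) ^ 2 * A.valuation xQ = 1 := by
  classical
  have hW : S05_Integral (W.baseChange ℚbar).toAffine A := S41NE_integral W A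
  have hy : y ∈ A := S05_y_mem A hW.a₁ hW.a₂ hW.a₃ hW.a₄ hW.a₆ h.1 hx
  have hns : (W.baseChange ℚbar).toAffine.Nonsingular (τ x) (τ y) :=
    (WeierstrassCurve.Affine.baseChange_nonsingular (W := W.toAffine)
      (f := τ.toAlgHom) τ.injective x y).mpr h
  have hτP : (τ • (Affine.Point.some x y h : (W.baseChange ℚbar).toAffine.Point)) =
      Affine.Point.some (τ x) (τ y) hns := rfl
  rw [hτP] at hne hne' ⊢
  have hxe : τ x ≠ x := by
    intro hxe
    rcases Affine.Y_eq_of_X_eq hns.1 h.1 hxe with hyy | hyy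
    · exact hne (by simp only [hxe, hyy])
    · apply hne'
      rw [Affine.Point.neg_some h]
      simp only [hxe, hyy]
  exact S40Fc_chord_good A hW (S40Fc_Δ_unit W A hℓ hA hgood) h hns hx
    (S05_inertia_mem A hτ hx) (S05_inertia_sub_mem_nonunits A hτ hx)
    (S05_inertia_sub_mem_nonunits A hτ hy) hxe

/-- **(c) for the inertia group**, in the shape used with (b):
`(v x_Q)⁻¹ = max (v (τ x − x)) (v (τ y − y)) ^ 2`. -/
theorem S40Fc_inertia_inv (hℓ : ℓ.Prime) (hA : A.LiesOverPrime ℓ) (hgood : ¬ (ℓ : ℤ) ∣ W.Δ)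
    (τ : GQ) (hτ : τ ∈ A.inertiaSubgroupIn ℚ) {x y : ℚbar}
    (h : (W.baseChange ℚbar).toAffine.Nonsingular x y) (hx : x ∈ A)
    (hne : τ • (Affine.Point.some x y h : (W.baseChange ℚbar).toAffine.Point) ≠
      Affine.Point.some x y h)
    (hne' : τ • (Affine.Point.some x y h : (W.baseChange ℚbar).toAffine.Point) ≠
      -Affine.Point.some x y h) :
    ∃ xQ, S51_c_IsX (τ • (Affine.Point.some x y h : (W.baseChange ℚbar).toAffine.Point) -
        Affine.Point.some x y h) xQ ∧ xQ ∉ A ∧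
      (A.valuation xQ)⁻¹ = max (A.valuation (τ x - x)) (A.valuation (τ y - y)) ^ 2 := by
  obtain ⟨xQ, h1, h2, h3⟩ := S40Fc_inertia W A hℓ hA hgood τ hτ h hx hne hne'
  refine ⟨xQ, h1, h2, ?_⟩
  exact (eq_inv_of_mul_eq_one_left h3).symm ▸ rfl

end Fermat.Agent.S40
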