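import Mathlib

/-!
# S40 (Mazur–Ribet at `p`, row 38), local package (P-N) of the first-order route for (F2''):
the norm modulo `ϖ²` at break `1` (helper23).  Prefix `S40LN_`.  Mathlib only, abstract.

`O` a commutative ring, `σ : O →+* O` (think: `O` the ring of integers of a cyclic extension of
degree `p` with group `⟨σ⟩`, `π` its uniformiser, `ϖ` the uniformiser of the fixed ring).
`N s = ∏_{j<p} σ^j s`, `Tr s = Σ_{j<p} σ^j s`.

* `S40LN_E`, `S40LN_P`      : elementary symmetric functions and power sums of a finite family;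
* `S40LN_newton`, `S40LN_newton'` : Newton's identities for values (from Mathlib's
  `MvPolynomial.mul_esymm_eq_sum`, `MvPolynomial.psum_eq_mul_esymm_sub_sum`);
* `S40LN_E_mem`             : (forward) power sums in `𝔟`, in `𝔞` from `m = 2` on, `𝔟² ⊆ 𝔞 ⊆ 𝔟`,
  `1, …, n-1` invertible ⇒ `E_k ∈ 𝔞` for `2 ≤ k < n`;
* `S40LN_P_mem`             : (backward) `E_j ∈ 𝔟`, `j E_j ∈ 𝔞` (`j ≥ 2`) ⇒ `P_m ∈ 𝔞` for `m ≥ 2`;
* `S40LN_prod_one_add_mem`  : `∏ (1 + x i) ≡ 1 + Σ x i + ∏ x i` modulo `𝔞`;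
* **`S40LN_norm`**          : Serre's congruence `N(1 + x) ≡ 1 + Tr x + N x` modulo `𝔞`
  (Corps Locaux V §3 Lemme 5), in the form: `Tr x ∈ 𝔟`, `Tr (x^m) ∈ 𝔞` for `m ≥ 2`;
* `S40LN_tr_pi_pow`, `S40LN_tr_mem` : the hypothesis (H-tr) `Tr (π² y) ∈ 𝔞` from the
  Eisenstein-type shape of the conjugates of `π` and `O = Σ_i R π^i`;
* **`S40LN_main`**          : `N(1 + π g) ≡ 1 + ϖ (β g₀ − γ g₀^p)` modulo `ϖ²`, for `g ≡ g₀` modulo
  `π`, `σ g₀ = g₀`, `Tr π = β ϖ`, `N π = −γ ϖ`.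
-/

set_option autoImplicit false

namespace Fermat.Agent.S40

open Finset

section Newton

variable {ι : Type*} [Fintype ι] {O : Type*} [CommRing O]

/-- the `k`-th elementary symmetric function of the family `x`. -/
def S40LN_E (x : ι → O) (k : ℕ) : O :=
  ∑ t ∈ powersetCard k (univ : Finset ι), ∏ i ∈ t, x i

/-- the `m`-th power sum of the family `x`. -/
def S40LN_P (x : ι → O) (m : ℕ) : O := ∑ i, x i ^ m

theorem S40LN_aeval_esymm (x : ι → O) (k : ℕ) :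
    MvPolynomial.aeval x (MvPolynomial.esymm ι ℤ k) = S40LN_E x k := by
  simp only [MvPolynomial.esymm, S40LN_E, map_sum, map_prod, MvPolynomial.aeval_X]

theorem S40LN_aeval_psum (x : ι → O) (m : ℕ) :
    MvPolynomial.aeval x (MvPolynomial.psum ι ℤ m) = S40LN_P x m := by
  simp only [MvPolynomial.psum, S40LN_P, map_sum, map_pow, MvPolynomial.aeval_X]

/-- Newton's identity for values. -/
theorem S40LN_newton (x : ι → O) (k : ℕ) :
    (k : O) * S40LN_E x k = (-1) ^ (k + 1) *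
      ∑ a ∈ antidiagonal k with a.1 < k, (-1) ^ a.1 * S40LN_E x a.1 * S40LN_P x a.2 := by
  have h := congrArg (MvPolynomial.aeval x) (MvPolynomial.mul_esymm_eq_sum ι ℤ k)
  simpa only [map_mul, map_natCast, map_pow, map_neg, map_one, map_sum, S40LN_aeval_esymm,
    S40LN_aeval_psum] using h

/-- Newton's identity for values, solved for the power sum. -/
theorem S40LN_newton' (x : ι → O) (k : ℕ) (hk : 0 < k) :
    S40LN_P x k = (-1) ^ (k + 1) * (k : O) * S40LN_E x k -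
      ∑ a ∈ antidiagonal k with a.1 ∈ Set.Ioo 0 k,
        (-1) ^ a.1 * S40LN_E x a.1 * S40LN_P x a.2 := by
  have h := congrArg (MvPolynomial.aeval x) (MvPolynomial.psum_eq_mul_esymm_sub_sum ι ℤ k hk)
  simpa only [map_mul, map_natCast, map_pow, map_neg, map_one, map_sum, map_sub,
    S40LN_aeval_esymm, S40LN_aeval_psum] using h

theorem S40LN_E_zero (x : ι → O) : S40LN_E x 0 = 1 := by
  simp [S40LN_E]

theorem S40LN_E_one (x : ι → O) : S40LN_E x 1 = S40LN_P x 1 := by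
  simp [S40LN_E, S40LN_P, powersetCard_one]

theorem S40LN_E_card (x : ι → O) : S40LN_E x (Fintype.card ι) = ∏ i, x i := by
  simp [S40LN_E, ← Finset.card_univ]

theorem S40LN_E_of_card_lt (x : ι → O) {k : ℕ} (hk : Fintype.card ι < k) : S40LN_E x k = 0 := by
  rw [S40LN_E, powersetCard_eq_empty.2 (by rwa [Finset.card_univ]), sum_empty]

/-- `∏ (1 + x i) = Σ_k E_k`. -/
theorem S40LN_prod_one_add (x : ι → O) :
    ∏ i, (1 + x i) = ∑ k ∈ range (Fintype.card ι + 1), S40LN_E x k := by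
  rw [Finset.prod_one_add, Finset.sum_powerset, Finset.card_univ]
  rfl

/-- **Newton, forward**: power sums in `𝔟` (in `𝔞` from `m = 2` on), `𝔟² ⊆ 𝔞 ⊆ 𝔟`, and
`1, …, n - 1` invertible: the elementary symmetric functions `E_k`, `1 ≤ k < n`, lie in `𝔟`, and in
`𝔞` for `2 ≤ k`. -/
theorem S40LN_E_mem (x : ι → O) (𝔞 𝔟 : Ideal O) (hab : 𝔞 ≤ 𝔟)
    (hbb : ∀ u ∈ 𝔟, ∀ v ∈ 𝔟, u * v ∈ 𝔞) (n : ℕ) (hu : ∀ k, 0 < k → k < n → IsUnit (k : O))
    (hP1 : S40LN_P x 1 ∈ 𝔟) (hP2 : ∀ m, 2 ≤ m → S40LN_P x m ∈ 𝔞) :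
    ∀ k, 1 ≤ k → k < n → (S40LN_E x k ∈ 𝔟 ∧ (2 ≤ k → S40LN_E x k ∈ 𝔞)) := by
  intro k
  induction k using Nat.strong_induction_on with
  | _ k ih =>
    intro hk1 hkn
    have hPb : ∀ m, 1 ≤ m → S40LN_P x m ∈ 𝔟 := by
      intro m hm
      rcases Nat.lt_or_ge m 2 with h | h
      · have : m = 1 := by omega
        rw [this]
        exact hP1
      · exact hab (hP2 m h)
    have key : 2 ≤ k → S40LN_E x k ∈ 𝔞 := by
      intro hk2
      have hN := S40LN_newton x k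
      have hmem : (k : O) * S40LN_E x k ∈ 𝔞 := by
        rw [hN]
        refine 𝔞.mul_mem_left _ (Ideal.sum_mem _ fun a ha => ?_)
        rw [mem_filter, HasAntidiagonal.mem_antidiagonal] at ha
        obtain ⟨hsum, hlt⟩ := ha
        rw [mul_assoc]
        refine 𝔞.mul_mem_left _ ?_
        rcases Nat.eq_zero_or_pos a.1 with h0 | hpos
        · rw [h0, S40LN_E_zero, one_mul]
          exact hP2 _ (by omega)
        · exact hbb _ (ih a.1 hlt hpos (by omega)).1 _ (hPb a.2 (by omega))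
      obtain ⟨u, hu'⟩ := hu k (by omega) hkn
      have : S40LN_E x k = (↑u⁻¹ : O) * ((k : O) * S40LN_E x k) := by
        rw [← mul_assoc, ← hu', Units.inv_mul, one_mul]
      rw [this]
      exact 𝔞.mul_mem_left _ hmem
    refine ⟨?_, key⟩
    rcases Nat.lt_or_ge k 2 with h | h
    · have : k = 1 := by omega
      rw [this, S40LN_E_one]
      exact hP1
    · exact hab (key h)

/-- **Newton, backward**: `E_j ∈ 𝔟` for `j ≥ 1`, `j E_j ∈ 𝔞` for `j ≥ 2`, `𝔟² ⊆ 𝔞 ⊆ 𝔟`: the power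
sums `P_m`, `m ≥ 1`, lie in `𝔟`, and in `𝔞` for `m ≥ 2`. -/
theorem S40LN_P_mem (x : ι → O) (𝔞 𝔟 : Ideal O) (hab : 𝔞 ≤ 𝔟)
    (hbb : ∀ u ∈ 𝔟, ∀ v ∈ 𝔟, u * v ∈ 𝔞)
    (hE1 : ∀ j, 1 ≤ j → S40LN_E x j ∈ 𝔟)
    (hE2 : ∀ j : ℕ, 2 ≤ j → (j : O) * S40LN_E x j ∈ 𝔞) :
    ∀ m, 1 ≤ m → (S40LN_P x m ∈ 𝔟 ∧ (2 ≤ m → S40LN_P x m ∈ 𝔞)) := by
  intro m
  induction m using Nat.strong_induction_on with
  | _ m ih =>
    intro hm1
    have hsum : ∑ a ∈ antidiagonal m with a.1 ∈ Set.Ioo 0 m,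
        (-1) ^ a.1 * S40LN_E x a.1 * S40LN_P x a.2 ∈ 𝔞 := by
      refine Ideal.sum_mem _ fun a ha => ?_
      rw [mem_filter, HasAntidiagonal.mem_antidiagonal, Set.mem_Ioo] at ha
      obtain ⟨hsum, hpos, hlt⟩ := ha
      rw [mul_assoc]
      refine 𝔞.mul_mem_left _ ?_
      exact hbb _ (hE1 a.1 hpos) _ (ih a.2 (by omega) (by omega)).1
    have hN := S40LN_newton' x m hm1
    have key : 2 ≤ m → S40LN_P x m ∈ 𝔞 := by
      intro hm2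
      rw [hN]
      refine 𝔞.sub_mem ?_ hsum
      rw [mul_assoc]
      exact 𝔞.mul_mem_left _ (hE2 m hm2)
    refine ⟨?_, key⟩
    rcases Nat.lt_or_ge m 2 with h | h
    · have : m = 1 := by omega
      rw [this, ← S40LN_E_one]
      exact hE1 1 le_rfl
    · exact hab (key h)

/-- **the product formula mod `𝔞`**: if the power sums of the family `x` lie in `𝔟` (in `𝔞` from
`m = 2` on), `𝔟² ⊆ 𝔞 ⊆ 𝔟` and `1, …, #ι - 1` are invertible, then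
`∏ (1 + x i) ≡ 1 + Σ x i + ∏ x i` modulo `𝔞`. -/
theorem S40LN_prod_one_add_mem (x : ι → O) (𝔞 𝔟 : Ideal O) (hab : 𝔞 ≤ 𝔟)
    (hbb : ∀ u ∈ 𝔟, ∀ v ∈ 𝔟, u * v ∈ 𝔞) (hcard : 2 ≤ Fintype.card ι)
    (hu : ∀ k, 0 < k → k < Fintype.card ι → IsUnit (k : O))
    (hP1 : S40LN_P x 1 ∈ 𝔟) (hP2 : ∀ m, 2 ≤ m → S40LN_P x m ∈ 𝔞) :
    ∏ i, (1 + x i) - (1 + ∑ i, x i + ∏ i, x i) ∈ 𝔞 := by
  obtain ⟨n, hn⟩ : ∃ n, Fintype.card ι = n + 2 := ⟨Fintype.card ι - 2, by omega⟩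
  have hE := S40LN_E_mem x 𝔞 𝔟 hab hbb (Fintype.card ι) hu hP1 hP2
  rw [S40LN_prod_one_add, sum_range_succ, S40LN_E_card, hn, sum_range_succ', sum_range_succ',
    S40LN_E_zero]
  have h1 : S40LN_E x (0 + 1) = ∑ i, x i := by
    rw [zero_add, S40LN_E_one]
    simp [S40LN_P]
  rw [h1]
  have h2 : ∑ k ∈ range n, S40LN_E x (k + 1 + 1) ∈ 𝔞 := by
    refine Ideal.sum_mem _ fun k hk => ?_
    rw [mem_range] at hk
    exact (hE (k + 1 + 1) (by omega) (by omega)).2 (by omega)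
  have e : (∑ k ∈ range n, S40LN_E x (k + 1 + 1) + ∑ i, x i + 1 + ∏ i, x i) -
      (1 + ∑ i, x i + ∏ i, x i) = ∑ k ∈ range n, S40LN_E x (k + 1 + 1) := by ring
  rw [e]
  exact h2

end Newton

section Norm

variable {O : Type*} [CommRing O] (σ : O →+* O) (p : ℕ)

/-- the norm `∏_{j<p} σ^j s`. -/
def S40LN_Nm (s : O) : O := ∏ j ∈ range p, σ^[j] s

/-- the trace `Σ_{j<p} σ^j s`. -/
def S40LN_Tr (s : O) : O := ∑ j ∈ range p, σ^[j] s

theorem S40LN_Tr_add (s t : O) : S40LN_Tr σ p (s + t) = S40LN_Tr σ p s + S40LN_Tr σ p t := by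
  simp only [S40LN_Tr, iterate_map_add, sum_add_distrib]

theorem S40LN_Tr_sum {κ : Type*} (T : Finset κ) (f : κ → O) :
    S40LN_Tr σ p (∑ i ∈ T, f i) = ∑ i ∈ T, S40LN_Tr σ p (f i) := by
  classical
  induction T using Finset.induction_on with
  | empty => simp [S40LN_Tr, iterate_map_zero]
  | insert a T ha ih => rw [sum_insert ha, sum_insert ha, S40LN_Tr_add, ih]

theorem S40LN_iterate_fix {r : O} (hr : σ r = r) (j : ℕ) : σ^[j] r = r :=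
  Function.iterate_fixed hr j

theorem S40LN_Tr_mul_fix {r : O} (hr : σ r = r) (s : O) :
    S40LN_Tr σ p (r * s) = r * S40LN_Tr σ p s := by
  simp only [S40LN_Tr, iterate_map_mul, S40LN_iterate_fix σ hr, mul_sum]

theorem S40LN_Nm_mul (s t : O) : S40LN_Nm σ p (s * t) = S40LN_Nm σ p s * S40LN_Nm σ p t := by
  simp only [S40LN_Nm, iterate_map_mul, prod_mul_distrib]

/-- the norm is fixed by `σ` when `σ^p = 1`. -/
theorem S40LN_Nm_fix (hσp : ∀ s, σ^[p] s = s) (s : O) : σ (S40LN_Nm σ p s) = S40LN_Nm σ p s := by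
  rcases Nat.eq_zero_or_pos p with h0 | hpos
  · subst h0
    simp [S40LN_Nm]
  · obtain ⟨n, rfl⟩ : ∃ n, p = n + 1 := ⟨p - 1, by omega⟩
    have h1 : σ (S40LN_Nm σ (n + 1) s) = ∏ j ∈ range (n + 1), σ^[j + 1] s := by
      rw [S40LN_Nm, map_prod]
      refine prod_congr rfl fun j _ => ?_
      rw [Function.iterate_succ_apply']
    rw [h1, prod_range_succ, hσp, S40LN_Nm, prod_range_succ', Function.iterate_zero, id]

/-- power sums of the conjugates. -/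
theorem S40LN_P_conj (s : O) (m : ℕ) :
    S40LN_P (fun j : Fin p => σ^[(j : ℕ)] s) m = S40LN_Tr σ p (s ^ m) := by
  rw [S40LN_P, S40LN_Tr, Finset.sum_range]
  refine sum_congr rfl fun j _ => ?_
  rw [iterate_map_pow]

/-- **Serre's congruence** (CL V §3 Lemma 5) in Newton form: if `Tr x ∈ 𝔟`, `Tr (x^m) ∈ 𝔞` for
`m ≥ 2`, `𝔟² ⊆ 𝔞 ⊆ 𝔟` and `1, …, p - 1` are invertible, then
`N(1 + x) ≡ 1 + Tr x + N x` modulo `𝔞`. -/
theorem S40LN_norm (hp : 2 ≤ p) (𝔞 𝔟 : Ideal O) (hab : 𝔞 ≤ 𝔟)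
    (hbb : ∀ u ∈ 𝔟, ∀ v ∈ 𝔟, u * v ∈ 𝔞) (hu : ∀ k, 0 < k → k < p → IsUnit (k : O))
    (x : O) (h1 : S40LN_Tr σ p x ∈ 𝔟) (h2 : ∀ m, 2 ≤ m → S40LN_Tr σ p (x ^ m) ∈ 𝔞) :
    S40LN_Nm σ p (1 + x) - (1 + S40LN_Tr σ p x + S40LN_Nm σ p x) ∈ 𝔞 := by
  have key := S40LN_prod_one_add_mem (fun j : Fin p => σ^[(j : ℕ)] x) 𝔞 𝔟 hab hbb
    (by rw [Fintype.card_fin]; exact hp) (by rw [Fintype.card_fin]; exact hu)
    (by rw [S40LN_P_conj, pow_one]; exact h1)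
    (fun m hm => by rw [S40LN_P_conj]; exact h2 m hm)
  have e1 : S40LN_Nm σ p (1 + x) = ∏ j : Fin p, (1 + σ^[(j : ℕ)] x) := by
    rw [S40LN_Nm, Finset.prod_range]
    refine prod_congr rfl fun j _ => ?_
    rw [iterate_map_add, iterate_map_one]
  have e2 : S40LN_Tr σ p x = ∑ j : Fin p, σ^[(j : ℕ)] x := by
    rw [S40LN_Tr, Finset.sum_range]
  have e3 : S40LN_Nm σ p x = ∏ j : Fin p, σ^[(j : ℕ)] x := by
    rw [S40LN_Nm, Finset.prod_range]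
  rw [e1, e2, e3]
  exact key

/-- (H-tr) for the powers of `π`, from the Eisenstein-type shape of the elementary symmetric
functions of the conjugates of `π`: `E_j ∈ 𝔟` (`j ≥ 1`), `j E_j ∈ 𝔞` (`j ≥ 2`). -/
theorem S40LN_tr_pi_pow (𝔞 𝔟 : Ideal O) (hab : 𝔞 ≤ 𝔟)
    (hbb : ∀ u ∈ 𝔟, ∀ v ∈ 𝔟, u * v ∈ 𝔞) {π : O}
    (hE1 : ∀ j, 1 ≤ j → S40LN_E (fun i : Fin p => σ^[(i : ℕ)] π) j ∈ 𝔟)
    (hE2 : ∀ j : ℕ, 2 ≤ j → (j : O) * S40LN_E (fun i : Fin p => σ^[(i : ℕ)] π) j ∈ 𝔞) :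
    ∀ m, 1 ≤ m → (S40LN_Tr σ p (π ^ m) ∈ 𝔟 ∧ (2 ≤ m → S40LN_Tr σ p (π ^ m) ∈ 𝔞)) := by
  intro m hm
  have h := S40LN_P_mem (fun i : Fin p => σ^[(i : ℕ)] π) 𝔞 𝔟 hab hbb hE1 hE2 m hm
  rw [S40LN_P_conj] at h
  exact h

/-- (H-tr) on `π² O`, when `O` is generated over the fixed ring by the powers of `π`. -/
theorem S40LN_tr_mem (𝔞 : Ideal O) {π : O} (hpow : ∀ m, 2 ≤ m → S40LN_Tr σ p (π ^ m) ∈ 𝔞)
    (n : ℕ) (r : ℕ → O) (hr : ∀ i, σ (r i) = r i) :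
    S40LN_Tr σ p (π * π * ∑ i ∈ range n, r i * π ^ i) ∈ 𝔞 := by
  have e : π * π * ∑ i ∈ range n, r i * π ^ i = ∑ i ∈ range n, r i * π ^ (i + 2) := by
    rw [mul_sum]
    refine sum_congr rfl fun i _ => ?_
    ring
  rw [e, S40LN_Tr_sum]
  refine Ideal.sum_mem _ fun i _ => ?_
  rw [S40LN_Tr_mul_fix σ p (hr i)]
  exact 𝔞.mul_mem_left _ (hpow _ (by omega))

/-- `σ^j` preserves `π O` when `σ π ∈ π O`. -/
theorem S40LN_iterate_mem {π : O} (hπ : ∃ w, σ π = π * w) (j : ℕ) (z : O) :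
    σ^[j] (π * z) ∈ Ideal.span {π} := by
  induction j generalizing z with
  | zero => exact Ideal.mul_mem_right _ _ (Ideal.subset_span rfl)
  | succ j ih =>
    obtain ⟨w, hw⟩ := hπ
    rw [Function.iterate_succ_apply, map_mul, hw, mul_assoc]
    exact ih _

/-- `N(g) ≡ g₀^p` modulo `π` when `g ≡ g₀` modulo `π`, `g₀` fixed. -/
theorem S40LN_Nm_congr {π g₀ : O} (hπ : ∃ w, σ π = π * w) (hg₀ : σ g₀ = g₀) (h : O) :
    S40LN_Nm σ p (g₀ + π * h) - g₀ ^ p ∈ Ideal.span {π} := by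
  rw [← Ideal.Quotient.eq, S40LN_Nm, map_prod, map_pow]
  have : ∀ j ∈ range p, Ideal.Quotient.mk (Ideal.span {π}) (σ^[j] (g₀ + π * h)) =
      Ideal.Quotient.mk (Ideal.span {π}) g₀ := by
    intro j _
    rw [Ideal.Quotient.eq, iterate_map_add, S40LN_iterate_fix σ hg₀, add_sub_cancel_left]
    exact S40LN_iterate_mem σ hπ j h
  rw [prod_congr rfl this, prod_const, card_range]

/-- **(P-N), the norm modulo `ϖ²` at break `1`**: for `g ≡ g₀` modulo `π` (`g₀` fixed by `σ`),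
`N(1 + π g) ≡ 1 + ϖ (β g₀ − γ g₀^p)` modulo `ϖ²`, where `Tr π = β ϖ`, `N π = −γ ϖ`. -/
theorem S40LN_main (hp : 2 ≤ p) (hu : ∀ k, 0 < k → k < p → IsUnit (k : O))
    (hσp : ∀ s, σ^[p] s = s) {π ϖ β γ g g₀ : O} (hg₀ : σ g₀ = g₀)
    (hπ : ∃ w, σ π = π * w)
    (htr : ∀ y, S40LN_Tr σ p (π * π * y) ∈ Ideal.span {ϖ ^ 2})
    (hT : S40LN_Tr σ p π = β * ϖ) (hN : S40LN_Nm σ p π = -γ * ϖ)
    (hg : ∃ h, g = g₀ + π * h)
    (hdesc : ∀ r, σ r = r → r ∈ Ideal.span {π} → r ∈ Ideal.span {ϖ}) :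
    S40LN_Nm σ p (1 + π * g) - (1 + ϖ * (β * g₀ - γ * g₀ ^ p)) ∈ Ideal.span {ϖ ^ 2} := by
  obtain ⟨h, rfl⟩ := hg
  have hab : Ideal.span {ϖ ^ 2} ≤ Ideal.span {ϖ} := by
    rw [Ideal.span_singleton_le_iff_mem, pow_two]
    exact Ideal.mul_mem_left _ _ (Ideal.subset_span rfl)
  have hbb : ∀ u ∈ Ideal.span {ϖ}, ∀ v ∈ Ideal.span {ϖ}, u * v ∈ Ideal.span {ϖ ^ 2} := by
    intro u hu v hv
    rw [Ideal.mem_span_singleton'] at hu hv ⊢
    obtain ⟨a, rfl⟩ := hu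
    obtain ⟨b, rfl⟩ := hv
    exact ⟨a * b, by ring⟩
  -- the trace
  have hTr : S40LN_Tr σ p (π * (g₀ + π * h)) - g₀ * (β * ϖ) ∈ Ideal.span {ϖ ^ 2} := by
    have e : π * (g₀ + π * h) = g₀ * π + π * π * h := by ring
    rw [e, S40LN_Tr_add, S40LN_Tr_mul_fix σ p hg₀, hT, add_sub_cancel_left]
    exact htr h
  have hTrb : S40LN_Tr σ p (π * (g₀ + π * h)) ∈ Ideal.span {ϖ} := by
    have : S40LN_Tr σ p (π * (g₀ + π * h)) =
        (S40LN_Tr σ p (π * (g₀ + π * h)) - g₀ * (β * ϖ)) + g₀ * β * ϖ := by ring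
    rw [this]
    exact Ideal.add_mem _ (hab hTr) (Ideal.mul_mem_left _ _ (Ideal.subset_span rfl))
  have hTr2 : ∀ m, 2 ≤ m → S40LN_Tr σ p ((π * (g₀ + π * h)) ^ m) ∈ Ideal.span {ϖ ^ 2} := by
    intro m hm
    obtain ⟨k, rfl⟩ : ∃ k, m = k + 2 := ⟨m - 2, by omega⟩
    have e : (π * (g₀ + π * h)) ^ (k + 2) = π * π * (π ^ k * (g₀ + π * h) ^ (k + 2)) := by
      rw [mul_pow, pow_add π k 2]
      ring
    rw [e]
    exact htr _
  have key := S40LN_norm σ p hp _ _ hab hbb hu (π * (g₀ + π * h)) hTrb hTr2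
  -- the norm
  have hfix : σ (S40LN_Nm σ p (g₀ + π * h) - g₀ ^ p) = S40LN_Nm σ p (g₀ + π * h) - g₀ ^ p := by
    rw [map_sub, S40LN_Nm_fix σ p hσp, map_pow, hg₀]
  have hw := hdesc _ hfix (S40LN_Nm_congr σ p hπ hg₀ h)
  rw [Ideal.mem_span_singleton'] at hw
  obtain ⟨w, hw⟩ := hw
  have hNm : S40LN_Nm σ p (π * (g₀ + π * h)) + γ * ϖ * g₀ ^ p ∈ Ideal.span {ϖ ^ 2} := by
    rw [S40LN_Nm_mul, hN, Ideal.mem_span_singleton']
    refine ⟨-γ * w, ?_⟩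
    have : S40LN_Nm σ p (g₀ + π * h) = w * ϖ + g₀ ^ p := by rw [hw]; ring
    rw [this]
    ring
  have e : S40LN_Nm σ p (1 + π * (g₀ + π * h)) - (1 + ϖ * (β * g₀ - γ * g₀ ^ p)) =
      (S40LN_Nm σ p (1 + π * (g₀ + π * h)) -
        (1 + S40LN_Tr σ p (π * (g₀ + π * h)) + S40LN_Nm σ p (π * (g₀ + π * h)))) +
      (S40LN_Tr σ p (π * (g₀ + π * h)) - g₀ * (β * ϖ)) +
      (S40LN_Nm σ p (π * (g₀ + π * h)) + γ * ϖ * g₀ ^ p) := by ring
  rw [e]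
  exact Ideal.add_mem _ (Ideal.add_mem _ key hTr) hNm

end Norm

end Fermat.Agent.S40
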