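import Mathlib
import Fermat.Agent.S40.LocN

/-!
# TRACK 13 (S40), (F2'), package "Step 1–2" of the first-order route (helper1) — prefix `S40F2A_`

Mathlib only (+ helper23's `S40LN_Nm`), abstract ring form, GENERAL break `i`.

`O` a commutative ring (think: the valuation ring of a Gauss valuation `V_j` in the function
field `L(X)`), `σ : O →+* O` of order `p`, `R` a subring fixed by `σ` (think: `O ∩ F(X)`),
`C` the constants of `L` in `O`, `C0` the constants of `F`, `π ∈ C` a uniformiser of `L`,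
`ϖ ∈ C0` a uniformiser of `F`.

* `S40F2A_Ctx`   : the context (residue ring `O / π` "= a domain whose constants are algebraically
                   closed", in the elementary form `root`);
* `S40F2A_Norm n`: the norm congruence at level `n`:
                   `N(1 + π^n g) ≡ 1 + ϖ^n (a g₀^p + b g₀) mod ϖ^(n+1)` for `g ≡ g₀ mod π`, `g₀ ∈ R`,
                   `a, b ∈ C0` not both in `(π)`  (helper23's P-N; for `n = i = 1` it is
                   `S40LN_main`, see `S40F2A_norm_one`);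
* `S40F2A_base`  : **Step 1**: `u · N(h) = κ`, `u ≡ c_z mod π`, `h` a unit `⇒ h ≡ ĉ mod π`, `ĉ` a unit
                   constant;
* `S40F2A_step`  : **Step 2, one level**: `h ≡ ĉ mod π^n ⇒ h ≡ ĉ' mod π^(n+1)` (`1 ≤ n`, norm
                   congruence at level `n`, `u ≡ c_z mod ϖ^(n+1)`);
* **`S40F2A_main`** : `u · N(h) = κ`, `u ≡ c_z mod ϖ^(i+1)`, norm congruences at the levels
                   `1 ≤ n ≤ i`  `⇒`  `h ≡ ĉ mod π^(i+1)` for a unit constant `ĉ ∈ C`;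
* `S40F2A_root_of_isAlgClosed` : the hypothesis `root` from an algebraically closed field of
                   constants in a residue domain.
-/

set_option autoImplicit false

namespace Fermat.Agent.S40

open Finset

variable {O : Type*} [CommRing O]

/-- the context of Step 1–2. -/
structure S40F2A_Ctx (σ : O →+* O) (p : ℕ) (π ϖ : O) (R C C0 : Subring O) : Prop where
  sigma_p : ∀ s, σ^[p] s = s
  fixR : ∀ a ∈ R, σ a = a
  C0_le_R : C0 ≤ R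
  C0_le_C : C0 ≤ C
  sigma_C : ∀ c ∈ C, σ c ∈ C
  C_fix : ∀ c ∈ C, σ c = c → c ∈ C0
  pi_mem : π ∈ C
  varpi_mem : ϖ ∈ C0
  varpi_dvd : ϖ ∈ Ideal.span {π}
  one_nmem : (1 : O) ∉ Ideal.span {π}
  nzd : ∀ x : O, ϖ * x = 0 → x = 0
  int1 : ∀ z : O, σ z - z ∈ Ideal.span {π}
  res : ∀ z : O, ∃ r ∈ R, z - r ∈ Ideal.span {π}
  root : ∀ a ∈ C0, ∀ b ∈ C0, ∀ k ∈ C0, ∀ x : O,
    (a ∉ Ideal.span {π} ∨ b ∉ Ideal.span {π}) →
      a * x ^ p + b * x - k ∈ Ideal.span {π} → ∃ γ ∈ C0, x - γ ∈ Ideal.span {π}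
  unit : ∀ c ∈ C, c ∉ Ideal.span {π} → ∃ c' ∈ C, c * c' = 1
  sat : ∀ c ∈ C0, ∀ n : ℕ, c ∈ Ideal.span {ϖ ^ n} → ∃ k ∈ C0, c = ϖ ^ n * k

/-- the norm congruence at level `n`. -/
def S40F2A_Norm (σ : O →+* O) (p : ℕ) (π ϖ : O) (R C0 : Subring O) (n : ℕ) : Prop :=
  ∃ a ∈ C0, ∃ b ∈ C0, (a ∉ Ideal.span {π} ∨ b ∉ Ideal.span {π}) ∧
    ∀ g g₀ : O, g₀ ∈ R → g - g₀ ∈ Ideal.span {π} →
      S40LN_Nm σ p (1 + π ^ n * g) - (1 + ϖ ^ n * (a * g₀ ^ p + b * g₀))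
        ∈ Ideal.span {ϖ ^ (n + 1)}

section

variable {σ : O →+* O} {p : ℕ} {π ϖ : O} {R C C0 : Subring O}

theorem S40F2A_iterate_mem_C (ctx : S40F2A_Ctx σ p π ϖ R C C0) {c : O} (hc : c ∈ C) (j : ℕ) :
    σ^[j] c ∈ C := by
  induction j with
  | zero => simpa using hc
  | succ j ih =>
    rw [Function.iterate_succ_apply']
    exact ctx.sigma_C _ ih

theorem S40F2A_Nm_mem_C (ctx : S40F2A_Ctx σ p π ϖ R C C0) {c : O} (hc : c ∈ C) :
    S40LN_Nm σ p c ∈ C :=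
  Subring.prod_mem C (fun j _ => S40F2A_iterate_mem_C ctx hc j)

/-- the norm of a constant of `L` is a constant of `F`. -/
theorem S40F2A_Nm_mem_C0 (ctx : S40F2A_Ctx σ p π ϖ R C C0) {c : O} (hc : c ∈ C) :
    S40LN_Nm σ p c ∈ C0 :=
  ctx.C_fix _ (S40F2A_Nm_mem_C ctx hc) (S40LN_Nm_fix σ p ctx.sigma_p c)

theorem S40F2A_Nm_one : S40LN_Nm σ p (1 : O) = 1 := by
  unfold S40LN_Nm
  exact Finset.prod_eq_one (fun j _ => iterate_map_one σ j)

/-- `σ^j z ≡ z mod π`. -/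
theorem S40F2A_iterate_sub_mem (ctx : S40F2A_Ctx σ p π ϖ R C C0) (z : O) (j : ℕ) :
    σ^[j] z - z ∈ Ideal.span {π} := by
  induction j with
  | zero => simp
  | succ j ih =>
    rw [Function.iterate_succ_apply']
    have h1 := ctx.int1 (σ^[j] z)
    have : σ (σ^[j] z) - z = (σ (σ^[j] z) - σ^[j] z) + (σ^[j] z - z) := by ring
    rw [this]
    exact Ideal.add_mem _ h1 ih

/-- `N(z) ≡ z^p mod π`. -/
theorem S40F2A_Nm_sub_pow_mem (ctx : S40F2A_Ctx σ p π ϖ R C C0) (z : O) :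
    S40LN_Nm σ p z - z ^ p ∈ Ideal.span {π} := by
  rw [← Ideal.Quotient.eq]
  unfold S40LN_Nm
  rw [map_prod, map_pow]
  have : ∀ j ∈ range p, Ideal.Quotient.mk (Ideal.span {π}) (σ^[j] z) =
      Ideal.Quotient.mk (Ideal.span {π}) z := fun j _ =>
    Ideal.Quotient.eq.mpr (S40F2A_iterate_sub_mem ctx z j)
  rw [prod_congr rfl this, prod_const, card_range]

theorem S40F2A_span_pow_le {x : O} {m n : ℕ} (h : m ≤ n) :
    Ideal.span {x ^ n} ≤ Ideal.span {x ^ m} := by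
  rw [Ideal.span_singleton_le_iff_mem, Ideal.mem_span_singleton']
  exact ⟨x ^ (n - m), by rw [← pow_add, Nat.sub_add_cancel h]⟩

theorem S40F2A_varpi_pow_le (ctx : S40F2A_Ctx σ p π ϖ R C C0) {n : ℕ} (hn : 1 ≤ n) :
    Ideal.span {ϖ ^ n} ≤ Ideal.span {π} := by
  rw [Ideal.span_singleton_le_iff_mem]
  obtain ⟨k, rfl⟩ : ∃ k, n = k + 1 := ⟨n - 1, by omega⟩
  rw [pow_succ]
  exact Ideal.mul_mem_left _ _ ctx.varpi_dvd

theorem S40F2A_nzd_pow (ctx : S40F2A_Ctx σ p π ϖ R C C0) (n : ℕ) (x : O)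
    (h : ϖ ^ n * x = 0) : x = 0 := by
  induction n with
  | zero => simpa using h
  | succ n ih =>
    apply ih
    apply ctx.nzd
    rw [← mul_assoc, ← pow_succ']
    exact h

/-- a unit of `O` is not in `(π)`. -/
theorem S40F2A_unit_nmem (ctx : S40F2A_Ctx σ p π ϖ R C C0) {h h' : O} (hh : h * h' = 1) :
    h ∉ Ideal.span {π} := fun hm =>
  ctx.one_nmem (hh ▸ Ideal.mul_mem_right h' _ hm)

/-- **Step 1**: `h ≡ ĉ mod π` for a unit constant `ĉ`. -/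
theorem S40F2A_base (ctx : S40F2A_Ctx σ p π ϖ R C C0) {h h' u cz cz' κ : O}
    (hh : h * h' = 1) (hcz : cz ∈ C0) (hcz' : cz' ∈ C0) (hczu : cz * cz' = 1) (hκ : κ ∈ C0)
    (hu : u - cz ∈ Ideal.span {π}) (hrel : u * S40LN_Nm σ p h = κ) :
    ∃ d ∈ C, ∃ d' ∈ C, d * d' = 1 ∧ h - d ∈ Ideal.span {π ^ 1} := by
  have h1 := S40F2A_Nm_sub_pow_mem ctx h
  -- `h^p ≡ cz' κ mod π`
  have h2 : 1 * h ^ p + 0 * h - cz' * κ ∈ Ideal.span {π} := by
    have e : 1 * h ^ p + 0 * h - cz' * κ =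
        (-1) * (S40LN_Nm σ p h - h ^ p) - cz' * S40LN_Nm σ p h * (u - cz)
          + S40LN_Nm σ p h * (1 - cz * cz') := by
      rw [← hrel]
      ring
    rw [e, hczu, sub_self, mul_zero, add_zero]
    exact Ideal.sub_mem _ (Ideal.mul_mem_left _ _ h1) (Ideal.mul_mem_left _ _ hu)
  obtain ⟨γ, hγ, hγh⟩ := ctx.root 1 (Subring.one_mem _) 0 (Subring.zero_mem _) (cz' * κ)
    (Subring.mul_mem _ hcz' hκ) h (Or.inl ctx.one_nmem) h2
  have hγn : γ ∉ Ideal.span {π} := by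
    intro hm
    apply S40F2A_unit_nmem ctx hh
    have : h = (h - γ) + γ := by ring
    rw [this]
    exact Ideal.add_mem _ hγh hm
  obtain ⟨γ', hγ', hγγ'⟩ := ctx.unit γ (ctx.C0_le_C hγ) hγn
  exact ⟨γ, ctx.C0_le_C hγ, γ', hγ', hγγ', by rwa [pow_one]⟩

/-- **Step 2, one level**. -/
theorem S40F2A_step (ctx : S40F2A_Ctx σ p π ϖ R C C0) {n : ℕ} (hn : 1 ≤ n)
    (hnorm : S40F2A_Norm σ p π ϖ R C0 n) {h u cz cz' κ : O}
    (hcz : cz ∈ C0) (hcz' : cz' ∈ C0) (hczu : cz * cz' = 1) (hκ : κ ∈ C0)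
    (hu : u - cz ∈ Ideal.span {ϖ ^ (n + 1)}) (hrel : u * S40LN_Nm σ p h = κ)
    {c c' : O} (hc : c ∈ C) (hc' : c' ∈ C) (hcc' : c * c' = 1)
    (hhc : h - c ∈ Ideal.span {π ^ n}) :
    ∃ d ∈ C, ∃ d' ∈ C, d * d' = 1 ∧ h - d ∈ Ideal.span {π ^ (n + 1)} := by
  obtain ⟨e, he⟩ := Ideal.mem_span_singleton'.mp hhc
  obtain ⟨g₀, hg₀R, hgg₀⟩ := ctx.res (c' * e)
  obtain ⟨a, ha, b, hb, hab, hN⟩ := hnorm
  have hN' := hN (c' * e) g₀ hg₀R hgg₀
  obtain ⟨t₁, ht₁⟩ := Ideal.mem_span_singleton'.mp hN'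
  obtain ⟨t₂, ht₂⟩ := Ideal.mem_span_singleton'.mp hu
  -- `h = c (1 + π^n g)`
  have hh : h = c * (1 + π ^ n * (c' * e)) := by
    have : c * (1 + π ^ n * (c' * e)) = c + (c * c') * (e * π ^ n) := by ring
    rw [this, hcc', he]
    ring
  have hNh : S40LN_Nm σ p h = S40LN_Nm σ p c * S40LN_Nm σ p (1 + π ^ n * (c' * e)) := by
    rw [hh, S40LN_Nm_mul]
  have hNc' : S40LN_Nm σ p c' ∈ C0 := S40F2A_Nm_mem_C0 ctx hc'
  have hNcc' : S40LN_Nm σ p c * S40LN_Nm σ p c' = 1 := by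
    rw [← S40LN_Nm_mul, hcc', S40F2A_Nm_one]
  obtain ⟨Nc, hNc_def⟩ : ∃ Nc, Nc = S40LN_Nm σ p c := ⟨_, rfl⟩
  obtain ⟨Nc', hNc'_def⟩ : ∃ Nc', Nc' = S40LN_Nm σ p c' := ⟨_, rfl⟩
  obtain ⟨T, hT_def⟩ : ∃ T, T = S40LN_Nm σ p (1 + π ^ n * (c' * e)) := ⟨_, rfl⟩
  obtain ⟨Φ, hΦ_def⟩ : ∃ Φ, Φ = a * g₀ ^ p + b * g₀ := ⟨_, rfl⟩
  rw [← hNc_def, ← hT_def] at hNh
  rw [← hNc_def, ← hNc'_def] at hNcc'
  rw [← hNc'_def] at hNc'
  rw [← hT_def, ← hΦ_def] at ht₁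
  rw [hNh] at hrel
  -- the constant `K' = κ cz' Nc'`
  have hK' : κ * cz' * Nc' - 1 ∈ C0 :=
    Subring.sub_mem _ (Subring.mul_mem _ (Subring.mul_mem _ hκ hcz') hNc') (Subring.one_mem _)
  have hT : T = 1 + ϖ ^ n * Φ + t₁ * ϖ ^ (n + 1) := by
    rw [ht₁]
    ring
  have hu' : u = cz + t₂ * ϖ ^ (n + 1) := by
    rw [ht₂]
    ring
  obtain ⟨S, hS⟩ : ∃ S, S = t₁ + cz' * t₂ * T := ⟨_, rfl⟩
  have hKeq : κ * cz' * Nc' - 1 = ϖ ^ n * (Φ + ϖ * S) := by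
    have e1 : κ * cz' * Nc' = (cz * cz') * (Nc * Nc') * T
        + cz' * t₂ * ϖ ^ (n + 1) * ((Nc * Nc') * T) := by
      rw [← hrel, hu']
      ring
    rw [e1, hczu, hNcc', hS]
    have e2 : (1 : O) * 1 * T + cz' * t₂ * ϖ ^ (n + 1) * (1 * T) - 1
        = (T - 1) + cz' * t₂ * ϖ ^ (n + 1) * T := by ring
    rw [e2]
    have e3 : T - 1 = ϖ ^ n * Φ + t₁ * ϖ ^ (n + 1) := by rw [hT]; ring
    rw [e3]
    ring
  obtain ⟨k, hk, hkeq⟩ := ctx.sat _ hK' n (Ideal.mem_span_singleton'.mpr ⟨Φ + ϖ * S, by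
    rw [hKeq]; ring⟩)
  have hkΦ : k - Φ = ϖ * S := by
    have h0 : ϖ ^ n * (k - Φ - ϖ * S) = 0 := by
      have h3 : ϖ ^ n * k = ϖ ^ n * (Φ + ϖ * S) := hkeq.symm.trans hKeq
      have h4 : ϖ ^ n * (k - Φ - ϖ * S) = ϖ ^ n * k - ϖ ^ n * (Φ + ϖ * S) := by ring
      rw [h4, h3, sub_self]
    have := S40F2A_nzd_pow ctx n _ h0
    rw [sub_eq_zero] at this
    exact this
  have hroot : a * g₀ ^ p + b * g₀ - k ∈ Ideal.span {π} := by
    have : a * g₀ ^ p + b * g₀ - k = -(k - Φ) := by rw [hΦ_def]; ring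
    rw [this, hkΦ]
    exact neg_mem (Ideal.mul_mem_right _ _ ctx.varpi_dvd)
  obtain ⟨γ, hγ, hγg⟩ := ctx.root a ha b hb k hk g₀ hab hroot
  -- the new constant
  have hd : c * (1 + π ^ n * γ) ∈ C :=
    Subring.mul_mem _ hc (Subring.add_mem _ (Subring.one_mem _)
      (Subring.mul_mem _ (Subring.pow_mem _ ctx.pi_mem n) (ctx.C0_le_C hγ)))
  have hdn : c * (1 + π ^ n * γ) ∉ Ideal.span {π} := by
    intro hm
    apply S40F2A_unit_nmem ctx hcc'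
    obtain ⟨m, rfl⟩ : ∃ m, n = m + 1 := ⟨n - 1, by omega⟩
    have : c = c * (1 + π ^ (m + 1) * γ) - c * π ^ m * γ * π := by ring
    rw [this]
    exact Ideal.sub_mem _ hm (Ideal.mul_mem_left _ _ (Ideal.subset_span rfl))
  obtain ⟨d', hd', hdd'⟩ := ctx.unit _ hd hdn
  refine ⟨_, hd, d', hd', hdd', ?_⟩
  have hgγ : c' * e - γ ∈ Ideal.span {π} := by
    have : c' * e - γ = (c' * e - g₀) + (g₀ - γ) := by ring
    rw [this]
    exact Ideal.add_mem _ hgg₀ hγg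
  obtain ⟨w, hw⟩ := Ideal.mem_span_singleton'.mp hgγ
  rw [Ideal.mem_span_singleton']
  refine ⟨c * w, ?_⟩
  have : h - c * (1 + π ^ n * γ) = c * π ^ n * (c' * e - γ) := by
    rw [hh]
    ring
  rw [this, ← hw]
  ring

/-- **Step 1–2**: `h ≡ ĉ mod π^(i+1)` for a unit constant `ĉ` of `L`. -/
theorem S40F2A_main (ctx : S40F2A_Ctx σ p π ϖ R C C0) (i : ℕ)
    (hnorm : ∀ n, 1 ≤ n → n ≤ i → S40F2A_Norm σ p π ϖ R C0 n) {h h' u cz cz' κ : O}
    (hh : h * h' = 1) (hcz : cz ∈ C0) (hcz' : cz' ∈ C0) (hczu : cz * cz' = 1) (hκ : κ ∈ C0)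
    (hu : u - cz ∈ Ideal.span {ϖ ^ (i + 1)}) (hrel : u * S40LN_Nm σ p h = κ) :
    ∃ d ∈ C, ∃ d' ∈ C, d * d' = 1 ∧ h - d ∈ Ideal.span {π ^ (i + 1)} := by
  have key : ∀ n, n ≤ i → ∃ d ∈ C, ∃ d' ∈ C, d * d' = 1 ∧ h - d ∈ Ideal.span {π ^ (n + 1)} := by
    intro n
    induction n with
    | zero =>
      intro _
      have hu1 : u - cz ∈ Ideal.span {π} :=
        S40F2A_varpi_pow_le ctx (Nat.le_add_left 1 i) hu
      simpa using S40F2A_base ctx hh hcz hcz' hczu hκ hu1 hrel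
    | succ n ih =>
      intro hn
      obtain ⟨c, hc, c', hc', hcc', hhc⟩ := ih (by omega)
      have hu' : u - cz ∈ Ideal.span {ϖ ^ (n + 1 + 1)} :=
        S40F2A_span_pow_le (by omega) hu
      exact S40F2A_step ctx (Nat.le_add_left 1 n) (hnorm (n + 1) (Nat.le_add_left 1 n) hn)
        hcz hcz' hczu hκ hu' hrel hc hc' hcc' hhc
  exact key i le_rfl

end

/-- the norm congruence at level `1` for break `1`, from helper23's `S40LN_main`:
`a = -γ`, `b = β` with `Tr π = β ϖ`, `N π = -γ ϖ`. -/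
theorem S40F2A_norm_one {σ : O →+* O} {p : ℕ} {π ϖ : O} {R C0 : Subring O} (hp : 2 ≤ p)
    (hu : ∀ k, 0 < k → k < p → IsUnit (k : O)) (hσp : ∀ s, σ^[p] s = s)
    (hfixR : ∀ a ∈ R, σ a = a) {β γ : O} (hβ : β ∈ C0) (hγ : γ ∈ C0)
    (hβγ : γ ∉ Ideal.span {π} ∨ β ∉ Ideal.span {π})
    (hπ : ∃ w, σ π = π * w)
    (htr : ∀ y, S40LN_Tr σ p (π * π * y) ∈ Ideal.span {ϖ ^ 2})
    (hT : S40LN_Tr σ p π = β * ϖ) (hN : S40LN_Nm σ p π = -γ * ϖ)
    (hdesc : ∀ r, σ r = r → r ∈ Ideal.span {π} → r ∈ Ideal.span {ϖ}) :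
    S40F2A_Norm σ p π ϖ R C0 1 := by
  refine ⟨-γ, Subring.neg_mem _ hγ, β, hβ, ?_, fun g g₀ hg₀ hgg₀ => ?_⟩
  · rcases hβγ with h | h
    · left
      intro hm
      apply h
      have : γ = -(-γ) := by ring
      rw [this]
      exact neg_mem hm
    · exact Or.inr h
  · obtain ⟨w, hw⟩ := Ideal.mem_span_singleton'.mp hgg₀
    have hg : ∃ h, g = g₀ + π * h := ⟨w, by
      have : g = (g - g₀) + g₀ := by ring
      rw [this, ← hw]
      ring⟩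
    have key := S40LN_main σ p hp hu hσp (hfixR g₀ hg₀) hπ htr hT hN hg hdesc
    have e : S40LN_Nm σ p (1 + π ^ 1 * g) - (1 + ϖ ^ 1 * (-γ * g₀ ^ p + β * g₀)) =
        S40LN_Nm σ p (1 + π * g) - (1 + ϖ * (β * g₀ - γ * g₀ ^ p)) := by
      rw [pow_one, pow_one]
      ring
    rw [e]
    exact key

/-- the hypothesis `root` of the context from an algebraically closed field of constants `k`
in a residue domain `D` (`res : O → D` with kernel `(π)`, `C0 ↠ k`). -/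
theorem S40F2A_root_of_isAlgClosed {D : Type*} [CommRing D] [IsDomain D] {k : Type*} [Field k]
    [IsAlgClosed k] (ι : k →+* D) (res : O →+* D) {π : O}
    (hker : ∀ x, res x = 0 ↔ x ∈ Ideal.span {π}) (C0 : Subring O)
    (hC0 : ∀ c ∈ C0, ∃ y : k, ι y = res c) (hsurj : ∀ y : k, ∃ c ∈ C0, res c = ι y)
    {p : ℕ} (hp : 2 ≤ p) :
    ∀ a ∈ C0, ∀ b ∈ C0, ∀ k₀ ∈ C0, ∀ x : O,
      (a ∉ Ideal.span {π} ∨ b ∉ Ideal.span {π}) →
        a * x ^ p + b * x - k₀ ∈ Ideal.span {π} → ∃ γ ∈ C0, x - γ ∈ Ideal.span {π} := by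
  intro a ha b hb k₀ hk₀ x hab hx
  obtain ⟨a', ha'⟩ := hC0 a ha
  obtain ⟨b', hb'⟩ := hC0 b hb
  obtain ⟨k', hk'⟩ := hC0 k₀ hk₀
  set P : Polynomial k := Polynomial.C a' * Polynomial.X ^ p + Polynomial.C b' * Polynomial.X
    - Polynomial.C k' with hP
  have hcp : P.coeff p = a' := by
    have h1 : p ≠ 1 := by omega
    have h0 : p ≠ 0 := by omega
    simp [hP, Polynomial.coeff_X, Polynomial.coeff_C, h1, h0, h1.symm]
  have hc1 : P.coeff 1 = b' := by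
    have h1 : (1 : ℕ) ≠ p := by omega
    simp [hP, Polynomial.coeff_X_pow, Polynomial.coeff_C, h1]
  have hP0 : P ≠ 0 := by
    intro h0
    rcases hab with h | h
    · apply h
      rw [← hker, ← ha']
      have : a' = 0 := by rw [← hcp, h0, Polynomial.coeff_zero]
      rw [this, map_zero]
    · apply h
      rw [← hker, ← hb']
      have : b' = 0 := by rw [← hc1, h0, Polynomial.coeff_zero]
      rw [this, map_zero]
  have hroot : (P.map ι).IsRoot (res x) := by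
    rw [Polynomial.IsRoot.def, hP]
    simp only [Polynomial.map_sub, Polynomial.map_add, Polynomial.map_mul, Polynomial.map_pow,
      Polynomial.map_C, Polynomial.map_X, Polynomial.eval_sub, Polynomial.eval_add,
      Polynomial.eval_mul, Polynomial.eval_pow, Polynomial.eval_C, Polynomial.eval_X]
    rw [ha', hb', hk', ← map_pow, ← map_mul, ← map_mul, ← map_add, ← map_sub]
    exact (hker _).mpr hx
  obtain ⟨y, hy⟩ := (IsAlgClosed.splits P).mem_range_of_isRoot hP0 hroot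
  obtain ⟨γ, hγ, hγy⟩ := hsurj y
  refine ⟨γ, hγ, (hker _).mp ?_⟩
  rw [map_sub, hγy, hy, sub_self]

end Fermat.Agent.S40
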