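import Mathlib

/-!
# TRACK 13 (S40), local package (P-B) of the first-order route for (F2'') (helper23) — prefix `S40LB_`

Mathlib only, abstract ring form.  `O` is a commutative ring (think: the valuation ring of a totally
ramified extension `L / F`, or of the Gauss valuation on `L(X)`), `R ≤ O` a subring fixed by a ring
endomorphism `σ` (think: `O_F`), `π ∈ O` (a uniformiser of `L`) with

* `res`  : every `z : O` is `a + π z'` with `a ∈ R`   (same residue ring),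
* `unif` : `σ π = π (1 + c π^t) + π^(t+2) r`          (ramification break `t ≥ 1`).

Results:

* `S40LB_int`  : `σ z ≡ z mod π^(t+1)` for every `z : O`;
* `S40LB_pi_pow` : `σ (π^a) ≡ π^a (1 + a c π^t) mod π^(a+t+1)`;
* `S40LB_pow`  : `σ (π^a ε) ≡ π^a ε (1 + a c π^t) mod π^(a+t+1)`  — formula **(B)**;
* `S40LB_Rel`, `S40LB_rel_mul`, `S40LB_rel_prod` : the same for products `∏ w_i`, `w_i = π^(a_i) ε_i`:
  `σ (∏ w_i) ≡ (∏ w_i) (1 + (Σ a_i) c π^t)`.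
-/

set_option autoImplicit false

namespace Fermat.Agent.S40

variable {O : Type*} [CommRing O]

/-- the break datum: `σ` fixes `R`, `O = R + π O`, `σ π = π (1 + c π^t) + π^(t+2) r`. -/
structure S40LB_Break (R : Subring O) (σ : O →+* O) (π c : O) (t : ℕ) : Prop where
  fix : ∀ a ∈ R, σ a = a
  res : ∀ z : O, ∃ a ∈ R, ∃ z' : O, z = a + π * z'
  unif : ∃ r : O, σ π = π * (1 + c * π ^ t) + π ^ (t + 2) * r

variable {R : Subring O} {σ : O →+* O} {π c : O} {t : ℕ}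

/-- `σ ≡ id mod π^n` for every `n ≤ t + 1`. -/
theorem S40LB_int_aux (h : S40LB_Break R σ π c t) (n : ℕ) (hn : n ≤ t + 1) (z : O) :
    ∃ r : O, σ z = z + π ^ n * r := by
  induction n generalizing z with
  | zero => exact ⟨σ z - z, by ring⟩
  | succ n ih =>
    obtain ⟨a, ha, z', rfl⟩ := h.res z
    obtain ⟨r₀, hr₀⟩ := h.unif
    obtain ⟨r', hr'⟩ := ih (by omega) z'
    obtain ⟨k, hk⟩ : ∃ k, t = n + k := ⟨t - n, by omega⟩
    refine ⟨r' + π ^ k * (c + π * r₀) * (z' + π ^ n * r'), ?_⟩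
    rw [map_add, map_mul, h.fix a ha, hr₀, hr', hk]
    ring

/-- **`σ ≡ id mod π^(t+1)`**. -/
theorem S40LB_int (h : S40LB_Break R σ π c t) (z : O) : ∃ r : O, σ z = z + π ^ (t + 1) * r :=
  S40LB_int_aux h (t + 1) le_rfl z

/-- `σ (π^a) ≡ π^a (1 + a c π^t) mod π^(a+t+1)` (needs `t ≥ 1`). -/
theorem S40LB_pi_pow (h : S40LB_Break R σ π c t) (ht : 1 ≤ t) (a : ℕ) :
    ∃ r : O, σ (π ^ a) = π ^ a * (1 + a * c * π ^ t) + π ^ (a + t + 1) * r := by
  obtain ⟨r₀, hr₀⟩ := h.unif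
  obtain ⟨k, hk⟩ : ∃ k, t = k + 1 := ⟨t - 1, by omega⟩
  induction a with
  | zero => exact ⟨0, by simp⟩
  | succ a ih =>
    obtain ⟨r, hr⟩ := ih
    refine ⟨(1 + a * c * π ^ t) * r₀ + r * (1 + c * π ^ t + π ^ (t + 1) * r₀)
      + a * c ^ 2 * π ^ k, ?_⟩
    rw [pow_succ, map_mul, hr, hr₀, hk]
    push_cast
    ring

/-- **formula (B)**: `σ (π^a ε) ≡ π^a ε (1 + a c π^t) mod π^(a+t+1)`. -/
theorem S40LB_pow (h : S40LB_Break R σ π c t) (ht : 1 ≤ t) (a : ℕ) (ε : O) :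
    ∃ r : O, σ (π ^ a * ε) = π ^ a * ε * (1 + a * c * π ^ t) + π ^ (a + t + 1) * r := by
  obtain ⟨r₁, hr₁⟩ := S40LB_pi_pow h ht a
  obtain ⟨r₂, hr₂⟩ := S40LB_int h ε
  refine ⟨r₁ * (ε + π ^ (t + 1) * r₂) + (1 + a * c * π ^ t) * r₂, ?_⟩
  rw [map_mul, hr₁, hr₂]
  ring

/-- `w` has `π`-order `a` (`w = π^a ε`) and `σ w ≡ w (1 + a c π^t) mod π^(a+t+1)`. -/
def S40LB_Rel (σ : O →+* O) (π c : O) (t : ℕ) (a : ℕ) (w : O) : Prop :=
  (∃ ε : O, w = π ^ a * ε) ∧ ∃ r : O, σ w = w * (1 + a * c * π ^ t) + π ^ (a + t + 1) * r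

theorem S40LB_rel_of (h : S40LB_Break R σ π c t) (ht : 1 ≤ t) (a : ℕ) (ε : O) :
    S40LB_Rel σ π c t a (π ^ a * ε) :=
  ⟨⟨ε, rfl⟩, S40LB_pow h ht a ε⟩

theorem S40LB_rel_one : S40LB_Rel σ π c t 0 (1 : O) :=
  ⟨⟨1, by simp⟩, ⟨0, by simp⟩⟩

/-- the relation is multiplicative: the orders add. -/
theorem S40LB_rel_mul (ht : 1 ≤ t) {a b : ℕ} {w w' : O} (hw : S40LB_Rel σ π c t a w)
    (hw' : S40LB_Rel σ π c t b w') : S40LB_Rel σ π c t (a + b) (w * w') := by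
  obtain ⟨⟨ε, hε⟩, r, hr⟩ := hw
  obtain ⟨⟨ε', hε'⟩, r', hr'⟩ := hw'
  obtain ⟨k, hk⟩ : ∃ k, t = k + 1 := ⟨t - 1, by omega⟩
  refine ⟨⟨ε * ε', by rw [hε, hε', pow_add]; ring⟩, ?_⟩
  refine ⟨ε * ε' * a * b * c ^ 2 * π ^ k + ε * (1 + a * c * π ^ t) * r'
    + r * ε' * (1 + b * c * π ^ t) + r * π ^ (t + 1) * r', ?_⟩
  rw [map_mul, hr, hr', hε, hε', hk]
  push_cast
  ring

/-- the relation for finite products. -/
theorem S40LB_rel_prod (ht : 1 ≤ t) {ι : Type*} (s : Finset ι) (a : ι → ℕ) (w : ι → O)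
    (hw : ∀ i ∈ s, S40LB_Rel σ π c t (a i) (w i)) :
    S40LB_Rel σ π c t (∑ i ∈ s, a i) (∏ i ∈ s, w i) := by
  classical
  induction s using Finset.induction_on with
  | empty => simpa using (S40LB_rel_one (σ := σ) (π := π) (c := c) (t := t))
  | insert i s hi ih =>
    rw [Finset.sum_insert hi, Finset.prod_insert hi]
    exact S40LB_rel_mul ht (hw i (Finset.mem_insert_self i s))
      (ih (fun j hj => hw j (Finset.mem_insert_of_mem hj)))

end Fermat.Agent.S40
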