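import Mathlib
import Fermat.Agent.S40.LocN

/-!
# S40 (row 38), local package (P-N), general depth `n ≤ i` (break `i`) (helper23).
Prefix `S40LN_`.  Mathlib + `S40/LocN.lean` only.

* `S40LN_Nm_pow`    : `N(s^n) = N(s)^n`;
* **`S40LN_main_pow`** : for `n ≥ 1`, `g ≡ g₀` modulo `π` (`σ g₀ = g₀`), `Tr (π^n) = β ϖ^n`,
  `N π = δ ϖ`, and (H-tr) `Tr (π^(n+1) y) ∈ (ϖ^(n+1))`:
  `N(1 + π^n g) ≡ 1 + ϖ^n (β g₀ + δ^n g₀^p)` modulo `ϖ^(n+1)`.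
  (At depth `n <` break, `β ∈ (ϖ)`: `N(1 + π^n g) ≡ 1 + ϖ^n δ^n g₀^p`; at `n =` break `β` is a
  unit: the jump.)
* `S40LN_main_pow_lt` : the case `β = ϖ β'` (depth below the break).
* `S40LN_tr_mem_pow` : (H-tr) on `π^(n+1) O` from the traces of the powers of `π`, when `O` is
  generated over the fixed ring by the powers of `π`.
-/

set_option autoImplicit false

namespace Fermat.Agent.S40

open Finset

variable {O : Type*} [CommRing O] (σ : O →+* O) (p : ℕ)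

theorem S40LN_Nm_pow (s : O) (n : ℕ) : S40LN_Nm σ p (s ^ n) = S40LN_Nm σ p s ^ n := by
  simp only [S40LN_Nm, iterate_map_pow, prod_pow]

/-- (H-tr) on `π^(n+1) O`, when `O` is generated over the fixed ring by the powers of `π`. -/
theorem S40LN_tr_mem_pow (𝔞 : Ideal O) {π : O} (n : ℕ)
    (hpow : ∀ m, n + 1 ≤ m → S40LN_Tr σ p (π ^ m) ∈ 𝔞)
    (N : ℕ) (r : ℕ → O) (hr : ∀ i, σ (r i) = r i) :
    S40LN_Tr σ p (π ^ (n + 1) * ∑ i ∈ range N, r i * π ^ i) ∈ 𝔞 := by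
  have e : π ^ (n + 1) * ∑ i ∈ range N, r i * π ^ i =
      ∑ i ∈ range N, r i * π ^ (i + (n + 1)) := by
    rw [mul_sum]
    refine sum_congr rfl fun i _ => ?_
    rw [pow_add]
    ring
  rw [e, S40LN_Tr_sum]
  refine Ideal.sum_mem _ fun i _ => ?_
  rw [S40LN_Tr_mul_fix σ p (hr i)]
  exact 𝔞.mul_mem_left _ (hpow _ (by omega))

/-- **(P-N) at depth `n`**: `N(1 + π^n g) ≡ 1 + ϖ^n (β g₀ + δ^n g₀^p)` modulo `ϖ^(n+1)`. -/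
theorem S40LN_main_pow (hp : 2 ≤ p) (hu : ∀ k, 0 < k → k < p → IsUnit (k : O))
    (hσp : ∀ s, σ^[p] s = s) {π ϖ β δ g g₀ : O} (n : ℕ) (hn : 1 ≤ n) (hg₀ : σ g₀ = g₀)
    (hπ : ∃ w, σ π = π * w)
    (htr : ∀ y, S40LN_Tr σ p (π ^ (n + 1) * y) ∈ Ideal.span {ϖ ^ (n + 1)})
    (hT : S40LN_Tr σ p (π ^ n) = β * ϖ ^ n) (hN : S40LN_Nm σ p π = δ * ϖ)
    (hg : ∃ h, g = g₀ + π * h)
    (hdesc : ∀ r, σ r = r → r ∈ Ideal.span {π} → r ∈ Ideal.span {ϖ}) :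
    S40LN_Nm σ p (1 + π ^ n * g) - (1 + ϖ ^ n * (β * g₀ + δ ^ n * g₀ ^ p)) ∈
      Ideal.span {ϖ ^ (n + 1)} := by
  obtain ⟨h, rfl⟩ := hg
  have hab : Ideal.span {ϖ ^ (n + 1)} ≤ Ideal.span {ϖ ^ n} := by
    rw [Ideal.span_singleton_le_iff_mem, pow_succ]
    exact Ideal.mul_mem_right _ _ (Ideal.subset_span rfl)
  have hbb : ∀ u ∈ Ideal.span {ϖ ^ n}, ∀ v ∈ Ideal.span {ϖ ^ n},
      u * v ∈ Ideal.span {ϖ ^ (n + 1)} := by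
    intro u hu v hv
    rw [Ideal.mem_span_singleton'] at hu hv ⊢
    obtain ⟨a, rfl⟩ := hu
    obtain ⟨b, rfl⟩ := hv
    obtain ⟨k, rfl⟩ : ∃ k, n = k + 1 := ⟨n - 1, by omega⟩
    refine ⟨a * b * ϖ ^ k, ?_⟩
    ring
  -- the trace
  have hTr : S40LN_Tr σ p (π ^ n * (g₀ + π * h)) - g₀ * (β * ϖ ^ n) ∈
      Ideal.span {ϖ ^ (n + 1)} := by
    have e : π ^ n * (g₀ + π * h) = g₀ * π ^ n + π ^ (n + 1) * h := by
      rw [pow_succ]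
      ring
    rw [e, S40LN_Tr_add, S40LN_Tr_mul_fix σ p hg₀, hT, add_sub_cancel_left]
    exact htr h
  have hTrb : S40LN_Tr σ p (π ^ n * (g₀ + π * h)) ∈ Ideal.span {ϖ ^ n} := by
    have : S40LN_Tr σ p (π ^ n * (g₀ + π * h)) =
        (S40LN_Tr σ p (π ^ n * (g₀ + π * h)) - g₀ * (β * ϖ ^ n)) + g₀ * β * ϖ ^ n := by ring
    rw [this]
    exact Ideal.add_mem _ (hab hTr) (Ideal.mul_mem_left _ _ (Ideal.subset_span rfl))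
  have hTr2 : ∀ m, 2 ≤ m → S40LN_Tr σ p ((π ^ n * (g₀ + π * h)) ^ m) ∈
      Ideal.span {ϖ ^ (n + 1)} := by
    intro m hm
    have hle : n + 1 ≤ n * m := by
      calc n + 1 ≤ n + n := by omega
        _ = n * 2 := by ring
        _ ≤ n * m := Nat.mul_le_mul_left n hm
    obtain ⟨k, hk⟩ : ∃ k, n * m = (n + 1) + k := ⟨n * m - (n + 1), by omega⟩
    have e : (π ^ n * (g₀ + π * h)) ^ m = π ^ (n + 1) * (π ^ k * (g₀ + π * h) ^ m) := by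
      rw [mul_pow, ← pow_mul, hk, pow_add]
      ring
    rw [e]
    exact htr _
  have key := S40LN_norm σ p hp _ _ hab hbb hu (π ^ n * (g₀ + π * h)) hTrb hTr2
  -- the norm
  have hfix : σ (S40LN_Nm σ p (g₀ + π * h) - g₀ ^ p) = S40LN_Nm σ p (g₀ + π * h) - g₀ ^ p := by
    rw [map_sub, S40LN_Nm_fix σ p hσp, map_pow, hg₀]
  have hw := hdesc _ hfix (S40LN_Nm_congr σ p hπ hg₀ h)
  rw [Ideal.mem_span_singleton'] at hw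
  obtain ⟨w, hw⟩ := hw
  have hNm : S40LN_Nm σ p (π ^ n * (g₀ + π * h)) - δ ^ n * ϖ ^ n * g₀ ^ p ∈
      Ideal.span {ϖ ^ (n + 1)} := by
    rw [S40LN_Nm_mul, S40LN_Nm_pow, hN, Ideal.mem_span_singleton']
    refine ⟨δ ^ n * w, ?_⟩
    have : S40LN_Nm σ p (g₀ + π * h) = w * ϖ + g₀ ^ p := by rw [hw]; ring
    rw [this, mul_pow, pow_succ]
    ring
  have e : S40LN_Nm σ p (1 + π ^ n * (g₀ + π * h)) - (1 + ϖ ^ n * (β * g₀ + δ ^ n * g₀ ^ p)) =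
      (S40LN_Nm σ p (1 + π ^ n * (g₀ + π * h)) -
        (1 + S40LN_Tr σ p (π ^ n * (g₀ + π * h)) + S40LN_Nm σ p (π ^ n * (g₀ + π * h)))) +
      (S40LN_Tr σ p (π ^ n * (g₀ + π * h)) - g₀ * (β * ϖ ^ n)) +
      (S40LN_Nm σ p (π ^ n * (g₀ + π * h)) - δ ^ n * ϖ ^ n * g₀ ^ p) := by ring
  rw [e]
  exact Ideal.add_mem _ (Ideal.add_mem _ key hTr) hNm

/-- **(P-N) below the break**: if moreover `Tr (π^n) ∈ (ϖ^(n+1))`, then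
`N(1 + π^n g) ≡ 1 + ϖ^n δ^n g₀^p` modulo `ϖ^(n+1)`. -/
theorem S40LN_main_pow_lt (hp : 2 ≤ p) (hu : ∀ k, 0 < k → k < p → IsUnit (k : O))
    (hσp : ∀ s, σ^[p] s = s) {π ϖ β' δ g g₀ : O} (n : ℕ) (hn : 1 ≤ n) (hg₀ : σ g₀ = g₀)
    (hπ : ∃ w, σ π = π * w)
    (htr : ∀ y, S40LN_Tr σ p (π ^ (n + 1) * y) ∈ Ideal.span {ϖ ^ (n + 1)})
    (hT : S40LN_Tr σ p (π ^ n) = β' * ϖ ^ (n + 1)) (hN : S40LN_Nm σ p π = δ * ϖ)
    (hg : ∃ h, g = g₀ + π * h)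
    (hdesc : ∀ r, σ r = r → r ∈ Ideal.span {π} → r ∈ Ideal.span {ϖ}) :
    S40LN_Nm σ p (1 + π ^ n * g) - (1 + ϖ ^ n * (δ ^ n * g₀ ^ p)) ∈
      Ideal.span {ϖ ^ (n + 1)} := by
  have hT' : S40LN_Tr σ p (π ^ n) = (β' * ϖ) * ϖ ^ n := by
    rw [hT, pow_succ]
    ring
  have key := S40LN_main_pow σ p hp hu hσp n hn hg₀ hπ htr hT' hN hg hdesc
  have e : S40LN_Nm σ p (1 + π ^ n * g) - (1 + ϖ ^ n * (δ ^ n * g₀ ^ p)) =
      (S40LN_Nm σ p (1 + π ^ n * g) - (1 + ϖ ^ n * (β' * ϖ * g₀ + δ ^ n * g₀ ^ p))) +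
        (β' * g₀) * ϖ ^ (n + 1) := by
    rw [pow_succ]
    ring
  rw [e]
  exact Ideal.add_mem _ key (Ideal.mul_mem_left _ _ (Ideal.subset_span rfl))

end Fermat.Agent.S40
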