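import Mathlib
import Fermat.Agent.S40.LocB
import Fermat.Agent.S40.LocN
import Fermat.Agent.S40.LocN2

/-!
# S40 / S44 (row 38), local package (P-D): TRACES AND NORMS FROM THE BREAK (helper23).
Prefix `S40LD_`.  Mathlib + `S40/LocB.lean`, `S40/LocN.lean`, `S40/LocN2.lean` only.

`h : S40LB_Break R σ π c t` (`σ` fixes `R`, `O = R + π O`, `σ π = π (1 + c π^t) + π^(t+2) r`),
`D = σ − 1`, `Tr = Σ_{j<p} σ^j`, `N = ∏_{j<p} σ^j`.  No valuation, no descent, no `σ^p = 1`.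

* `S40LD_geom`     : `Σ_{j<n} (1 + D)^j = Σ_{k<n} C(n,k+1) D^k` in any ring;
* `S40LD_Tr_eq`    : `Tr x = Σ_{k<p} C(p,k+1) D^k x`;
* `S40LD_iter`     : `D^k (π^a ε) ≡ π^(a+kt) (∏_{j<k} (a + j t)) c^k ε` modulo `π^(a+kt+1)`;
* **`S40LD_tr`**   : if `p ∈ π^((p-1)t+1) O`:
  `Tr (π^a ε) ≡ π^(a+(p-1)t) (∏_{j<p-1} (a + j t)) c^(p-1) ε` modulo `π^(a+(p-1)t+1)`
  (so `Tr (π^a O) ⊆ π^(a+(p-1)t) O`: the different has exponent `(t+1)(p-1)`);
* `S40LD_wilson`   : `∏_{j<p-1} (t + j t) ≡ −1` modulo `p` for `p ∤ t`;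
* `S40LD_nm_pi`, `S40LD_nm_congr` : `N π = π^p (1 + π^t r)`, `N z ≡ z^p` modulo `π^(t+1)`;
* **`S40LD_main`** : **the norm from the break**: for `1 ≤ n ≤ t` and EVERY `g : O`
  `N(1 + π^n g) ≡ 1 + π^(pn) (g^p − [n = t] c^(p-1) g)` modulo `π^(pn+1)`
  (hypotheses: the break datum, `p` prime, `p ∤ t`, `1, …, p-1` invertible, `p ∈ π^((p-1)t+1) O`).
  Below the break the norm is `g ↦ g^p` on the graded pieces, at the break it is the
  Artin–Schreier-type map `g ↦ g^p − c^(p-1) g`, whose kernel is the line `𝔽_p · c`.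
-/

set_option autoImplicit false

namespace Fermat.Agent.S40

open Finset

section Ring

/-- `Σ_{j<n} (1 + D)^j = Σ_{k<n} C(n, k+1) D^k` in any ring. -/
theorem S40LD_geom {A : Type*} [Ring A] (D : A) (n : ℕ) :
    ∑ j ∈ range n, (1 + D) ^ j = ∑ k ∈ range n, (n.choose (k + 1) : A) * D ^ k := by
  induction n with
  | zero => simp
  | succ n ih =>
    rw [sum_range_succ, ih, add_comm 1 D, (Commute.one_right D).add_pow]
    have h1 : ∑ k ∈ range n, (n.choose (k + 1) : A) * D ^ k =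
        ∑ k ∈ range (n + 1), (n.choose (k + 1) : A) * D ^ k := by
      rw [sum_range_succ, Nat.choose_succ_self, Nat.cast_zero, zero_mul, add_zero]
    rw [h1, ← sum_add_distrib]
    refine sum_congr rfl fun k _ => ?_
    rw [one_pow, mul_one, Nat.choose_succ_succ n k, Nat.cast_add]
    have : (D ^ k) * (n.choose k : A) = (n.choose k : A) * D ^ k := (Nat.cast_commute _ _).symm.eq
    rw [this, add_mul, add_comm]

end Ring

end Fermat.Agent.S40

namespace Fermat.Agent.S40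

open Finset

section Break

variable {O : Type*} [CommRing O]

/-- `σ` as a `ℤ`-linear endomorphism of `O`. -/
noncomputable def S40LD_s (σ : O →+* O) : Module.End ℤ O := σ.toAddMonoidHom.toIntLinearMap

/-- `D = σ − 1`. -/
noncomputable def S40LD_D (σ : O →+* O) : Module.End ℤ O := S40LD_s σ - 1

theorem S40LD_s_apply (σ : O →+* O) (x : O) : S40LD_s σ x = σ x := rfl

theorem S40LD_D_apply (σ : O →+* O) (x : O) : S40LD_D σ x = σ x - x := rfl

theorem S40LD_s_pow_apply (σ : O →+* O) (j : ℕ) (x : O) : (S40LD_s σ ^ j) x = σ^[j] x := by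
  rw [Module.End.pow_apply]
  rfl

theorem S40LD_s_eq (σ : O →+* O) : S40LD_s σ = 1 + S40LD_D σ := by
  rw [S40LD_D]
  abel

/-- the trace as a binomial sum in `D = σ − 1`. -/
theorem S40LD_Tr_eq (σ : O →+* O) (p : ℕ) (x : O) :
    S40LN_Tr σ p x = ∑ k ∈ range p, (p.choose (k + 1) : O) * (S40LD_D σ ^ k) x := by
  have h := congrArg (fun f : Module.End ℤ O => f x) (S40LD_geom (S40LD_D σ) p)
  simp only [← S40LD_s_eq, LinearMap.sum_apply, S40LD_s_pow_apply] at h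
  rw [S40LN_Tr, h]
  refine sum_congr rfl fun k _ => ?_
  rw [Module.End.mul_apply, Module.End.natCast_apply, nsmul_eq_mul]

variable {R : Subring O} {σ : O →+* O} {π c : O} {t : ℕ}

/-- `D (π^a ε) = π^(a+t) (a c ε) + π^(a+t+1) r`. -/
theorem S40LD_D_pow (h : S40LB_Break R σ π c t) (ht : 1 ≤ t) (a : ℕ) (ε : O) :
    ∃ r : O, S40LD_D σ (π ^ a * ε) = π ^ (a + t) * ((a : O) * c * ε) + π ^ (a + t + 1) * r := by
  obtain ⟨r, hr⟩ := S40LB_pow h ht a ε
  refine ⟨r, ?_⟩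
  rw [S40LD_D_apply, hr, pow_add]
  ring

/-- `D^k (π^a ε) = π^(a+kt) (∏_{j<k} (a + j t) · c^k ε) + π^(a+kt+1) r`. -/
theorem S40LD_iter (h : S40LB_Break R σ π c t) (ht : 1 ≤ t) (k : ℕ) :
    ∀ (a : ℕ) (ε : O), ∃ r : O, (S40LD_D σ ^ k) (π ^ a * ε) =
      π ^ (a + k * t) * ((∏ j ∈ range k, ((a + j * t : ℕ) : O)) * c ^ k * ε) +
        π ^ (a + k * t + 1) * r := by
  induction k with
  | zero =>
    intro a ε
    exact ⟨0, by simp⟩
  | succ k ih =>
    intro a ε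
    obtain ⟨r₀, hr₀⟩ := S40LD_D_pow h ht a ε
    obtain ⟨r₁, hr₁⟩ := ih (a + t) ((a : O) * c * ε)
    obtain ⟨r₂, hr₂⟩ := ih (a + t + 1) r₀
    have e1 : a + t + k * t = a + (k + 1) * t := by ring
    have e2 : a + t + 1 + k * t = a + (k + 1) * t + 1 := by ring
    rw [e1] at hr₁
    rw [e2] at hr₂
    refine ⟨r₁ + (∏ j ∈ range k, ((a + t + 1 + j * t : ℕ) : O)) * c ^ k * r₀ + π * r₂, ?_⟩
    rw [pow_succ, Module.End.mul_apply, hr₀, map_add, hr₁, hr₂, prod_range_succ']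
    have e3 : ∀ j, a + (j + 1) * t = a + t + j * t := fun j => by ring
    simp only [e3, Nat.zero_mul, Nat.add_zero]
    ring

/-- `D^k (π^a ε) ∈ π^(a+kt) O`. -/
theorem S40LD_iter_mem (h : S40LB_Break R σ π c t) (ht : 1 ≤ t) (k a : ℕ) (ε : O) :
    ∃ r : O, (S40LD_D σ ^ k) (π ^ a * ε) = π ^ (a + k * t) * r := by
  obtain ⟨r, hr⟩ := S40LD_iter h ht k a ε
  refine ⟨(∏ j ∈ range k, ((a + j * t : ℕ) : O)) * c ^ k * ε + π * r, ?_⟩
  rw [hr, pow_succ]
  ring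

/-- **the trace from the break**: `Tr (π^a ε) = π^(a+(p-1)t) (∏_{j<p-1} (a + j t) · c^(p-1) ε)`
modulo `π^(a+(p-1)t+1)`, if `p ∈ π^((p-1)t+1) O`. -/
theorem S40LD_tr (h : S40LB_Break R σ π c t) (ht : 1 ≤ t) {p : ℕ} (hp : p.Prime)
    (hpπ : ∃ w : O, (p : O) = π ^ ((p - 1) * t + 1) * w) (a : ℕ) (ε : O) :
    ∃ r : O, S40LN_Tr σ p (π ^ a * ε) =
      π ^ (a + (p - 1) * t) * ((∏ j ∈ range (p - 1), ((a + j * t : ℕ) : O)) * c ^ (p - 1) * ε) +
        π ^ (a + (p - 1) * t + 1) * r := by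
  obtain ⟨n, rfl⟩ : ∃ n, p = n + 1 := ⟨p - 1, by have := hp.pos; omega⟩
  obtain ⟨w, hw⟩ := hpπ
  rw [Nat.add_sub_cancel] at hw ⊢
  have hlow : ∀ k ∈ range n, ∃ r : O,
      ((n + 1).choose (k + 1) : O) * (S40LD_D σ ^ k) (π ^ a * ε) = π ^ (a + n * t + 1) * r := by
    intro k hk
    rw [mem_range] at hk
    obtain ⟨m, hm⟩ := hp.dvd_choose_self (Nat.succ_ne_zero k) (by omega : k + 1 < n + 1)
    obtain ⟨r, hr⟩ := S40LD_iter_mem h ht k a ε
    refine ⟨w * m * π ^ (k * t) * r, ?_⟩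
    rw [hm, hr, Nat.cast_mul, hw, pow_add π a (k * t), pow_add π (a + n * t) 1,
      pow_add π a (n * t), pow_add π (n * t) 1]
    ring
  choose! f hf using hlow
  obtain ⟨r, hr⟩ := S40LD_iter h ht n a ε
  refine ⟨(∑ k ∈ range n, f k) + r, ?_⟩
  rw [S40LD_Tr_eq, sum_range_succ, Nat.choose_self, Nat.cast_one, one_mul, hr,
    sum_congr rfl hf, ← mul_sum]
  ring

end Break

end Fermat.Agent.S40

namespace Fermat.Agent.S40

open Finset

section Main

variable {O : Type*} [CommRing O]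

/-- `∏_{j ∈ s} (u + v r_j) = u^#s + v r'`. -/
theorem S40LD_prod_add {ι : Type*} (s : Finset ι) (u v : O) (r : ι → O) :
    ∃ r' : O, ∏ j ∈ s, (u + v * r j) = u ^ s.card + v * r' := by
  classical
  induction s using Finset.induction_on with
  | empty => exact ⟨0, by simp⟩
  | insert i s hi ih =>
    obtain ⟨r', hr'⟩ := ih
    refine ⟨u * r' + r i * u ^ s.card + v * r i * r', ?_⟩
    rw [prod_insert hi, hr', card_insert_of_notMem hi, pow_succ]
    ring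

variable {R : Subring O} {σ : O →+* O} {π c : O} {t : ℕ}

/-- `σ^j ≡ id` modulo `π^(t+1)`. -/
theorem S40LD_iterate_int (h : S40LB_Break R σ π c t) (j : ℕ) (z : O) :
    ∃ r : O, σ^[j] z = z + π ^ (t + 1) * r := by
  induction j with
  | zero => exact ⟨0, by simp⟩
  | succ j ih =>
    obtain ⟨r, hr⟩ := ih
    obtain ⟨r', hr'⟩ := S40LB_int h (σ^[j] z)
    refine ⟨r + r', ?_⟩
    rw [Function.iterate_succ_apply', hr', hr]
    ring

/-- `N z ≡ z^p` modulo `π^(t+1)`. -/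
theorem S40LD_nm_congr (h : S40LB_Break R σ π c t) (p : ℕ) (z : O) :
    ∃ r : O, S40LN_Nm σ p z = z ^ p + π ^ (t + 1) * r := by
  choose f hf using fun j => S40LD_iterate_int h j z
  obtain ⟨r', hr'⟩ := S40LD_prod_add (range p) z (π ^ (t + 1)) f
  refine ⟨r', ?_⟩
  rw [S40LN_Nm, prod_congr rfl (fun j _ => hf j), hr', card_range]

/-- `N π = π^p (1 + π^t r)`. -/
theorem S40LD_nm_pi (h : S40LB_Break R σ π c t) (p : ℕ) :
    ∃ r : O, S40LN_Nm σ p π = π ^ p * (1 + π ^ t * r) := by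
  choose f hf using fun j => S40LD_iterate_int h j π
  obtain ⟨r', hr'⟩ := S40LD_prod_add (range p) 1 (π ^ t) f
  refine ⟨r', ?_⟩
  have e : ∀ j ∈ range p, σ^[j] π = π * (1 + π ^ t * f j) := by
    intro j _
    rw [hf j, pow_succ]
    ring
  rw [S40LN_Nm, prod_congr rfl e, prod_mul_distrib, prod_const, card_range, hr', one_pow]

/-- `Tr (π^a ε) ∈ π^(a+(p-1)t) O`. -/
theorem S40LD_tr_mem (h : S40LB_Break R σ π c t) (ht : 1 ≤ t) {p : ℕ} (hp : p.Prime)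
    (hpπ : ∃ w : O, (p : O) = π ^ ((p - 1) * t + 1) * w) (a : ℕ) (ε : O) :
    ∃ r : O, S40LN_Tr σ p (π ^ a * ε) = π ^ (a + (p - 1) * t) * r := by
  obtain ⟨r, hr⟩ := S40LD_tr h ht hp hpπ a ε
  refine ⟨(∏ j ∈ range (p - 1), ((a + j * t : ℕ) : O)) * c ^ (p - 1) * ε + π * r, ?_⟩
  rw [hr, pow_succ]
  ring

/-- Wilson + Fermat: `∏_{j<p-1} (t + j t) ≡ −1` modulo `p` when `p ∤ t`. -/
theorem S40LD_wilson {p : ℕ} (hp : p.Prime) {t : ℕ} (hpt : ¬ p ∣ t) :
    ∃ m : ℤ, ((∏ j ∈ range (p - 1), (t + j * t) : ℕ) : ℤ) = -1 + p * m := by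
  have hfact : Fact p.Prime := ⟨hp⟩
  have h1 : ((∏ j ∈ range (p - 1), (t + j * t) : ℕ) : ZMod p) = -1 := by
    have e : ∀ j ∈ range (p - 1), t + j * t = (j + 1) * t := fun j _ => by ring
    rw [prod_congr rfl e, prod_mul_distrib, prod_const, card_range, prod_range_add_one_eq_factorial,
      Nat.cast_mul, Nat.cast_pow, ZMod.wilsons_lemma,
      ZMod.pow_card_sub_one_eq_one (by rwa [Ne, ZMod.natCast_eq_zero_iff]), mul_one]
  have h2 : (((∏ j ∈ range (p - 1), (t + j * t) : ℕ) : ℤ) + 1 : ZMod p) = 0 := by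
    push_cast at h1 ⊢
    rw [h1]
    ring
  have h3 : (p : ℤ) ∣ ((∏ j ∈ range (p - 1), (t + j * t) : ℕ) : ℤ) + 1 := by
    rw [← ZMod.intCast_zmod_eq_zero_iff_dvd]
    push_cast at h2 ⊢
    exact h2
  obtain ⟨m, hm⟩ := h3
  exact ⟨m, by linarith⟩

end Main

end Fermat.Agent.S40

namespace Fermat.Agent.S40

open Finset

section Final

variable {O : Type*} [CommRing O] {R : Subring O} {σ : O →+* O} {π c : O} {t : ℕ}

/-- `(1 + π^t r)^n = 1 + π r'` for `t ≥ 1`. -/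
theorem S40LD_one_add_pow (π r : O) {t : ℕ} (ht : 1 ≤ t) (n : ℕ) :
    ∃ r' : O, (1 + π ^ t * r) ^ n = 1 + π * r' := by
  obtain ⟨k, rfl⟩ : ∃ k, t = k + 1 := ⟨t - 1, by omega⟩
  induction n with
  | zero => exact ⟨0, by simp⟩
  | succ n ih =>
    obtain ⟨r', hr'⟩ := ih
    refine ⟨r' + π ^ k * r + π ^ (k + 1) * r * r', ?_⟩
    rw [pow_succ, hr']
    ring

/-- **the norm from the break**: for `1 ≤ n ≤ t` and every `g : O`,
`N(1 + π^n g) ≡ 1 + π^(pn) (g^p − [n = t] c^(p-1) g)` modulo `π^(pn+1)`. -/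
theorem S40LD_main (h : S40LB_Break R σ π c t) {p : ℕ} (hp : p.Prime) (hpt : ¬ p ∣ t)
    (hu : ∀ k, 0 < k → k < p → IsUnit (k : O))
    (hpπ : ∃ w : O, (p : O) = π ^ ((p - 1) * t + 1) * w) (n : ℕ) (hn : 1 ≤ n) (hnt : n ≤ t)
    (g : O) :
    ∃ r : O, S40LN_Nm σ p (1 + π ^ n * g) =
      1 + π ^ (p * n) * (g ^ p - (if n = t then c ^ (p - 1) * g else 0)) +
        π ^ (p * n + 1) * r := by
  have ht : 1 ≤ t := le_trans hn hnt
  obtain ⟨s, rfl⟩ : ∃ s, t = n + s := ⟨t - n, by omega⟩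
  obtain ⟨q, hq⟩ : ∃ q, p = q + 1 := ⟨p - 1, by have := hp.pos; omega⟩
  have hq1 : 1 ≤ q := by have := hp.two_le; omega
  have hp1 : p - 1 = q := by omega
  -- the ideals
  have hab : Ideal.span {π ^ (p * n + 1)} ≤ Ideal.span {π ^ (p * n)} := by
    rw [Ideal.span_singleton_le_iff_mem, pow_succ]
    exact Ideal.mul_mem_right _ _ (Ideal.subset_span rfl)
  have hbb : ∀ u ∈ Ideal.span {π ^ (p * n)}, ∀ v ∈ Ideal.span {π ^ (p * n)},
      u * v ∈ Ideal.span {π ^ (p * n + 1)} := by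
    intro u hu v hv
    rw [Ideal.mem_span_singleton'] at hu hv ⊢
    obtain ⟨a, rfl⟩ := hu
    obtain ⟨b, rfl⟩ := hv
    obtain ⟨k, hk⟩ : ∃ k, p * n = k + 1 := ⟨p * n - 1, by
      have : 1 ≤ p * n := Nat.mul_pos hp.pos hn
      omega⟩
    refine ⟨a * b * π ^ k, ?_⟩
    rw [hk, pow_succ, pow_succ]
    ring
  -- traces
  have hTrgen : ∀ (a : ℕ) (ε : O), p * n + 1 ≤ a + (p - 1) * (n + s) →
      S40LN_Tr σ p (π ^ a * ε) ∈ Ideal.span {π ^ (p * n + 1)} := by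
    intro a ε ha
    obtain ⟨r, hr⟩ := S40LD_tr_mem h ht hp hpπ a ε
    obtain ⟨k, hk⟩ : ∃ k, a + (p - 1) * (n + s) = (p * n + 1) + k := ⟨_, (Nat.add_sub_cancel' ha).symm⟩
    rw [hr, hk, pow_add π (p * n + 1) k, mul_assoc]
    exact Ideal.mul_mem_right _ _ (Ideal.subset_span rfl)
  have hexp : n + (p - 1) * (n + s) = p * n + q * s := by
    rw [hp1, hq]
    ring
  have hTr2 : ∀ m, 2 ≤ m → S40LN_Tr σ p ((π ^ n * g) ^ m) ∈ Ideal.span {π ^ (p * n + 1)} := by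
    intro m hm
    rw [mul_pow, ← pow_mul]
    refine hTrgen _ _ ?_
    have h2 : n * 2 ≤ n * m := Nat.mul_le_mul_left n hm
    have h3 : n + (p - 1) * (n + s) = p * n + q * s := hexp
    omega
  obtain ⟨rT, hrT⟩ := S40LD_tr h ht hp hpπ n g
  have hTrb : S40LN_Tr σ p (π ^ n * g) ∈ Ideal.span {π ^ (p * n)} := by
    obtain ⟨r, hr⟩ := S40LD_tr_mem h ht hp hpπ n g
    rw [hr, hexp, pow_add π (p * n) (q * s), mul_assoc]
    exact Ideal.mul_mem_right _ _ (Ideal.subset_span rfl)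
  have key := S40LN_norm σ p hp.two_le _ _ hab hbb hu (π ^ n * g) hTrb hTr2
  -- the trace term
  have hTr : S40LN_Tr σ p (π ^ n * g) +
      π ^ (p * n) * (if n = n + s then c ^ (p - 1) * g else 0) ∈
        Ideal.span {π ^ (p * n + 1)} := by
    by_cases hs : s = 0
    · subst hs
      rw [if_pos (Nat.add_zero n).symm]
      obtain ⟨m, hm⟩ := S40LD_wilson hp hpt
      obtain ⟨w, hw⟩ := hpπ
      have hP : ((∏ j ∈ range (p - 1), ((n + 0 + j * (n + 0) : ℕ) : O))) = -1 + (p : O) * (m : O) := by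
        have := congrArg (Int.cast : ℤ → O) hm
        push_cast at this ⊢
        exact this
      have hexp' : n + 0 + (p - 1) * (n + 0) = p * n := by
        rw [hp1, hq]
        ring
      simp only [Nat.add_zero] at hrT hP hexp' hw
      rw [hrT, hP, hexp', hw, Ideal.mem_span_singleton']
      refine ⟨rT + π ^ ((p - 1) * n) * w * (m : O) * c ^ (p - 1) * g, ?_⟩
      rw [pow_succ π (p * n), pow_succ π ((p - 1) * n)]
      ring
    · have hne : n ≠ n + s := by omega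
      rw [if_neg hne, mul_zero, add_zero]
      refine hTrgen n g ?_
      have : 1 ≤ q * s := Nat.mul_pos (by omega) (by omega)
      omega
  -- the norm term
  have hNm : S40LN_Nm σ p (π ^ n * g) - π ^ (p * n) * g ^ p ∈ Ideal.span {π ^ (p * n + 1)} := by
    obtain ⟨r₁, hr₁⟩ := S40LD_nm_pi h p
    obtain ⟨r₂, hr₂⟩ := S40LD_nm_congr h p g
    obtain ⟨r₃, hr₃⟩ := S40LD_one_add_pow π r₁ ht n
    rw [S40LN_Nm_mul, S40LN_Nm_pow, hr₁, hr₂, mul_pow, hr₃, ← pow_mul, Ideal.mem_span_singleton']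
    refine ⟨π ^ (n + s) * r₂ + r₃ * (g ^ p + π ^ (n + s + 1) * r₂), ?_⟩
    rw [pow_succ π (p * n), pow_succ π (n + s)]
    ring
  have e : S40LN_Nm σ p (1 + π ^ n * g) -
      (1 + π ^ (p * n) * (g ^ p - (if n = n + s then c ^ (p - 1) * g else 0))) =
      (S40LN_Nm σ p (1 + π ^ n * g) -
        (1 + S40LN_Tr σ p (π ^ n * g) + S40LN_Nm σ p (π ^ n * g))) +
      (S40LN_Tr σ p (π ^ n * g) + π ^ (p * n) * (if n = n + s then c ^ (p - 1) * g else 0)) +
      (S40LN_Nm σ p (π ^ n * g) - π ^ (p * n) * g ^ p) := by ring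
  have hfin := Ideal.add_mem _ (Ideal.add_mem _ key hTr) hNm
  rw [← e, Ideal.mem_span_singleton'] at hfin
  obtain ⟨r, hr⟩ := hfin
  refine ⟨r, ?_⟩
  linear_combination -hr

end Final

end Fermat.Agent.S40
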