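import Mathlib
import Fermat.Agent.S40.LocD
import Fermat.Agent.S40.F2A

/-!
# TRACK 13 (S40/S44), (F2'), "Step 1–2" in the `π`-adic form, FROM THE BREAK DATUM (helper1)

Prefix `S40F2AB_`.  Mathlib + helper23's `LocB`, `LocN`, `LocD`.  No `ϖ`, no fixed ring, no
descent: everything is a statement in `O` modulo powers of `π`.

`O` a commutative ring (the valuation ring of a Gauss valuation `V_j` in `L(X)`), `σ : O →+* O`,
`C` the constants of `L` in `O`, `π ∈ C`.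

* `S40F2AB_Ctx σ p π C` : the context (`root`: a root in `O / π` of `X^p + b X − k`, `b, k ∈ C`,
  is a constant; `sat`: `C ∩ π^n O = π^n C`; `unit`: `C` is local);
* `S40F2AB_Norm σ p π C n` : `N(1 + π^n g) = 1 + π^(pn) (g^p + b g) + π^(pn+1) r` for all `g`
  (some `b ∈ C`);
* `S40F2AB_norm_of_break` : this holds for `1 ≤ n ≤ t` from `S40LB_Break R σ π c t`
  (helper23's `S40LD_main`);
* **`S40F2AB_main`** : `u · N(h) = κ`, `h` a unit, `u ≡ c_z mod π^(p t + 1)`, `κ, c_z ∈ C`,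
  `c_z` a unit of `C`  `⇒`  `h ≡ ĉ mod π^(t+1)` for a unit constant `ĉ ∈ C`;
* `S40F2AB_main_break` : the same with the norm congruences from the break datum.
-/

set_option autoImplicit false

namespace Fermat.Agent.S40

open Finset

variable {O : Type*} [CommRing O]

/-- the context of Step 1–2, `π`-adic form. -/
structure S40F2AB_Ctx (σ : O →+* O) (p : ℕ) (π : O) (C : Subring O) : Prop where
  sigma_C : ∀ c ∈ C, σ c ∈ C
  pi_mem : π ∈ C
  one_nmem : (1 : O) ∉ Ideal.span {π}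
  nzd : ∀ x : O, π * x = 0 → x = 0
  int1 : ∀ z : O, σ z - z ∈ Ideal.span {π}
  root : ∀ b ∈ C, ∀ k ∈ C, ∀ x : O,
    x ^ p + b * x - k ∈ Ideal.span {π} → ∃ γ ∈ C, x - γ ∈ Ideal.span {π}
  unit : ∀ c ∈ C, c ∉ Ideal.span {π} → ∃ c' ∈ C, c * c' = 1
  sat : ∀ c ∈ C, ∀ n : ℕ, c ∈ Ideal.span {π ^ n} → ∃ k ∈ C, c = π ^ n * k

/-- the norm congruence at level `n`, `π`-adic form. -/
def S40F2AB_Norm (σ : O →+* O) (p : ℕ) (π : O) (C : Subring O) (n : ℕ) : Prop :=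
  ∃ b ∈ C, ∀ g : O, ∃ r : O,
    S40LN_Nm σ p (1 + π ^ n * g) = 1 + π ^ (p * n) * (g ^ p + b * g) + π ^ (p * n + 1) * r

/-- the norm congruences from the break datum (helper23's `S40LD_main`). -/
theorem S40F2AB_norm_of_break {R : Subring O} {σ : O →+* O} {π c : O} {t : ℕ} {C : Subring O}
    (h : S40LB_Break R σ π c t) (hc : c ∈ C) {p : ℕ} (hp : p.Prime) (hpt : ¬ p ∣ t)
    (hu : ∀ k, 0 < k → k < p → IsUnit (k : O))
    (hpπ : ∃ w : O, (p : O) = π ^ ((p - 1) * t + 1) * w) (n : ℕ) (hn : 1 ≤ n) (hnt : n ≤ t) :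
    S40F2AB_Norm σ p π C n := by
  by_cases hnt' : n = t
  · refine ⟨-c ^ (p - 1), Subring.neg_mem _ (Subring.pow_mem _ hc _), fun g => ?_⟩
    obtain ⟨r, hr⟩ := S40LD_main h hp hpt hu hpπ n hn hnt g
    refine ⟨r, ?_⟩
    rw [hr, if_pos hnt']
    ring
  · refine ⟨0, Subring.zero_mem _, fun g => ?_⟩
    obtain ⟨r, hr⟩ := S40LD_main h hp hpt hu hpπ n hn hnt g
    refine ⟨r, ?_⟩
    rw [hr, if_neg hnt']
    ring

section

variable {σ : O →+* O} {p : ℕ} {π : O} {C : Subring O}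

theorem S40F2AB_iterate_mem_C (ctx : S40F2AB_Ctx σ p π C) {c : O} (hc : c ∈ C) (j : ℕ) :
    σ^[j] c ∈ C := by
  induction j with
  | zero => simpa using hc
  | succ j ih =>
    rw [Function.iterate_succ_apply']
    exact ctx.sigma_C _ ih

/-- the norm of a constant is a constant. -/
theorem S40F2AB_Nm_mem_C (ctx : S40F2AB_Ctx σ p π C) {c : O} (hc : c ∈ C) :
    S40LN_Nm σ p c ∈ C :=
  Subring.prod_mem C (fun j _ => S40F2AB_iterate_mem_C ctx hc j)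

theorem S40F2AB_iterate_sub_mem (ctx : S40F2AB_Ctx σ p π C) (z : O) (j : ℕ) :
    σ^[j] z - z ∈ Ideal.span {π} := by
  induction j with
  | zero => simp
  | succ j ih =>
    rw [Function.iterate_succ_apply']
    have h1 := ctx.int1 (σ^[j] z)
    have : σ (σ^[j] z) - z = (σ (σ^[j] z) - σ^[j] z) + (σ^[j] z - z) := by ring
    rw [this]
    exact Ideal.add_mem _ h1 ih

/-- `N(z) ≡ z^p mod π`. -/
theorem S40F2AB_Nm_sub_pow_mem (ctx : S40F2AB_Ctx σ p π C) (z : O) :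
    S40LN_Nm σ p z - z ^ p ∈ Ideal.span {π} := by
  rw [← Ideal.Quotient.eq]
  unfold S40LN_Nm
  rw [map_prod, map_pow]
  have : ∀ j ∈ range p, Ideal.Quotient.mk (Ideal.span {π}) (σ^[j] z) =
      Ideal.Quotient.mk (Ideal.span {π}) z := fun j _ =>
    Ideal.Quotient.eq.mpr (S40F2AB_iterate_sub_mem ctx z j)
  rw [prod_congr rfl this, prod_const, card_range]

theorem S40F2AB_nzd_pow (ctx : S40F2AB_Ctx σ p π C) (n : ℕ) (x : O)
    (h : π ^ n * x = 0) : x = 0 := by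
  induction n with
  | zero => simpa using h
  | succ n ih =>
    apply ih
    apply ctx.nzd
    rw [← mul_assoc, ← pow_succ']
    exact h

theorem S40F2AB_unit_nmem (ctx : S40F2AB_Ctx σ p π C) {h h' : O} (hh : h * h' = 1) :
    h ∉ Ideal.span {π} := fun hm =>
  ctx.one_nmem (hh ▸ Ideal.mul_mem_right h' _ hm)

/-- **Step 1**. -/
theorem S40F2AB_base (ctx : S40F2AB_Ctx σ p π C) {h h' u cz cz' κ : O}
    (hh : h * h' = 1) (hcz' : cz' ∈ C) (hczu : cz * cz' = 1) (hκ : κ ∈ C)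
    (hu : u - cz ∈ Ideal.span {π}) (hrel : u * S40LN_Nm σ p h = κ) :
    ∃ d ∈ C, ∃ d' ∈ C, d * d' = 1 ∧ h - d ∈ Ideal.span {π ^ 1} := by
  have h1 := S40F2AB_Nm_sub_pow_mem ctx h
  have h2 : h ^ p + 0 * h - cz' * κ ∈ Ideal.span {π} := by
    have e : h ^ p + 0 * h - cz' * κ =
        (-1) * (S40LN_Nm σ p h - h ^ p) - cz' * S40LN_Nm σ p h * (u - cz)
          + S40LN_Nm σ p h * (1 - cz * cz') := by
      rw [← hrel]
      ring
    rw [e, hczu, sub_self, mul_zero, add_zero]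
    exact Ideal.sub_mem _ (Ideal.mul_mem_left _ _ h1) (Ideal.mul_mem_left _ _ hu)
  obtain ⟨γ, hγ, hγh⟩ := ctx.root 0 (Subring.zero_mem _) (cz' * κ)
    (Subring.mul_mem _ hcz' hκ) h h2
  have hγn : γ ∉ Ideal.span {π} := by
    intro hm
    apply S40F2AB_unit_nmem ctx hh
    have : h = (h - γ) + γ := by ring
    rw [this]
    exact Ideal.add_mem _ hγh hm
  obtain ⟨γ', hγ', hγγ'⟩ := ctx.unit γ hγ hγn
  exact ⟨γ, hγ, γ', hγ', hγγ', by rwa [pow_one]⟩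

/-- **Step 2, one level**. -/
theorem S40F2AB_step (ctx : S40F2AB_Ctx σ p π C) {n : ℕ} (hn : 1 ≤ n)
    (hnorm : S40F2AB_Norm σ p π C n) {h u cz cz' κ : O}
    (hcz' : cz' ∈ C) (hczu : cz * cz' = 1) (hκ : κ ∈ C)
    (hu : u - cz ∈ Ideal.span {π ^ (p * n + 1)}) (hrel : u * S40LN_Nm σ p h = κ)
    {c c' : O} (hc : c ∈ C) (hc' : c' ∈ C) (hcc' : c * c' = 1)
    (hhc : h - c ∈ Ideal.span {π ^ n}) :
    ∃ d ∈ C, ∃ d' ∈ C, d * d' = 1 ∧ h - d ∈ Ideal.span {π ^ (n + 1)} := by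
  obtain ⟨e, he⟩ := Ideal.mem_span_singleton'.mp hhc
  obtain ⟨b, hb, hN⟩ := hnorm
  obtain ⟨t₁, ht₁⟩ := hN (c' * e)
  obtain ⟨t₂, ht₂⟩ := Ideal.mem_span_singleton'.mp hu
  have hh : h = c * (1 + π ^ n * (c' * e)) := by
    have : c * (1 + π ^ n * (c' * e)) = c + (c * c') * (e * π ^ n) := by ring
    rw [this, hcc', he]
    ring
  have hNh : S40LN_Nm σ p h = S40LN_Nm σ p c * S40LN_Nm σ p (1 + π ^ n * (c' * e)) := by
    rw [hh, S40LN_Nm_mul]
  have hNc' : S40LN_Nm σ p c' ∈ C := S40F2AB_Nm_mem_C ctx hc'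
  have hNcc' : S40LN_Nm σ p c * S40LN_Nm σ p c' = 1 := by
    rw [← S40LN_Nm_mul, hcc', S40F2A_Nm_one]
  obtain ⟨Nc, hNc_def⟩ : ∃ Nc, Nc = S40LN_Nm σ p c := ⟨_, rfl⟩
  obtain ⟨Nc', hNc'_def⟩ : ∃ Nc', Nc' = S40LN_Nm σ p c' := ⟨_, rfl⟩
  obtain ⟨T, hT_def⟩ : ∃ T, T = S40LN_Nm σ p (1 + π ^ n * (c' * e)) := ⟨_, rfl⟩
  obtain ⟨g, hg_def⟩ : ∃ g, g = c' * e := ⟨_, rfl⟩
  obtain ⟨Φ, hΦ_def⟩ : ∃ Φ, Φ = g ^ p + b * g := ⟨_, rfl⟩
  rw [← hNc_def, ← hT_def] at hNh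
  rw [← hNc_def, ← hNc'_def] at hNcc'
  rw [← hNc'_def] at hNc'
  rw [← hT_def, ← hg_def, ← hΦ_def] at ht₁
  rw [hNh] at hrel
  have hK' : κ * cz' * Nc' - 1 ∈ C :=
    Subring.sub_mem _ (Subring.mul_mem _ (Subring.mul_mem _ hκ hcz') hNc') (Subring.one_mem _)
  have hu' : u = cz + t₂ * π ^ (p * n + 1) := by
    rw [ht₂]
    ring
  obtain ⟨S, hS⟩ : ∃ S, S = t₁ + cz' * t₂ * T := ⟨_, rfl⟩
  have hKeq : κ * cz' * Nc' - 1 = π ^ (p * n) * (Φ + π * S) := by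
    have e1 : κ * cz' * Nc' = (cz * cz') * (Nc * Nc') * T
        + cz' * t₂ * π ^ (p * n + 1) * ((Nc * Nc') * T) := by
      rw [← hrel, hu']
      ring
    rw [e1, hczu, hNcc', hS]
    have e2 : (1 : O) * 1 * T + cz' * t₂ * π ^ (p * n + 1) * (1 * T) - 1
        = (T - 1) + cz' * t₂ * π ^ (p * n + 1) * T := by ring
    rw [e2]
    have e3 : T - 1 = π ^ (p * n) * Φ + π ^ (p * n + 1) * t₁ := by rw [ht₁]; ring
    rw [e3]
    ring
  obtain ⟨k, hk, hkeq⟩ := ctx.sat _ hK' (p * n) (Ideal.mem_span_singleton'.mpr ⟨Φ + π * S, by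
    rw [hKeq]; ring⟩)
  have hkΦ : k - Φ = π * S := by
    have h0 : π ^ (p * n) * (k - Φ - π * S) = 0 := by
      have h3 : π ^ (p * n) * k = π ^ (p * n) * (Φ + π * S) := hkeq.symm.trans hKeq
      have h4 : π ^ (p * n) * (k - Φ - π * S) = π ^ (p * n) * k - π ^ (p * n) * (Φ + π * S) := by
        ring
      rw [h4, h3, sub_self]
    have := S40F2AB_nzd_pow ctx (p * n) _ h0
    rw [sub_eq_zero] at this
    exact this
  have hroot : g ^ p + b * g - k ∈ Ideal.span {π} := by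
    have : g ^ p + b * g - k = -(k - Φ) := by rw [hΦ_def]; ring
    rw [this, hkΦ]
    exact neg_mem (Ideal.mul_mem_right _ _ (Ideal.subset_span rfl))
  obtain ⟨γ, hγ, hγg⟩ := ctx.root b hb k hk g hroot
  have hd : c * (1 + π ^ n * γ) ∈ C :=
    Subring.mul_mem _ hc (Subring.add_mem _ (Subring.one_mem _)
      (Subring.mul_mem _ (Subring.pow_mem _ ctx.pi_mem n) hγ))
  have hdn : c * (1 + π ^ n * γ) ∉ Ideal.span {π} := by
    intro hm
    apply S40F2AB_unit_nmem ctx hcc'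
    obtain ⟨m, rfl⟩ : ∃ m, n = m + 1 := ⟨n - 1, by omega⟩
    have : c = c * (1 + π ^ (m + 1) * γ) - c * π ^ m * γ * π := by ring
    rw [this]
    exact Ideal.sub_mem _ hm (Ideal.mul_mem_left _ _ (Ideal.subset_span rfl))
  obtain ⟨d', hd', hdd'⟩ := ctx.unit _ hd hdn
  refine ⟨_, hd, d', hd', hdd', ?_⟩
  obtain ⟨w, hw⟩ := Ideal.mem_span_singleton'.mp hγg
  rw [Ideal.mem_span_singleton']
  refine ⟨c * w, ?_⟩
  have : h - c * (1 + π ^ n * γ) = c * π ^ n * (g - γ) := by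
    rw [hh, hg_def]
    ring
  rw [this, ← hw]
  ring

theorem S40F2AB_span_pow_le {x : O} {m n : ℕ} (h : m ≤ n) :
    Ideal.span {x ^ n} ≤ Ideal.span {x ^ m} := by
  rw [Ideal.span_singleton_le_iff_mem, Ideal.mem_span_singleton']
  exact ⟨x ^ (n - m), by rw [← pow_add, Nat.sub_add_cancel h]⟩

/-- **Step 1–2, `π`-adic form**: `h ≡ ĉ mod π^(t+1)` for a unit constant `ĉ` of `L`. -/
theorem S40F2AB_main (ctx : S40F2AB_Ctx σ p π C) (t : ℕ)
    (hnorm : ∀ n, 1 ≤ n → n ≤ t → S40F2AB_Norm σ p π C n) {h h' u cz cz' κ : O}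
    (hh : h * h' = 1) (hcz' : cz' ∈ C) (hczu : cz * cz' = 1) (hκ : κ ∈ C)
    (hu : u - cz ∈ Ideal.span {π ^ (p * t + 1)}) (hrel : u * S40LN_Nm σ p h = κ) :
    ∃ d ∈ C, ∃ d' ∈ C, d * d' = 1 ∧ h - d ∈ Ideal.span {π ^ (t + 1)} := by
  have key : ∀ n, n ≤ t → ∃ d ∈ C, ∃ d' ∈ C, d * d' = 1 ∧ h - d ∈ Ideal.span {π ^ (n + 1)} := by
    intro n
    induction n with
    | zero =>
      intro _
      have hu1 : u - cz ∈ Ideal.span {π} := by
        have := S40F2AB_span_pow_le (x := π) (Nat.le_add_left 1 (p * t)) hu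
        rwa [pow_one] at this
      simpa using S40F2AB_base ctx hh hcz' hczu hκ hu1 hrel
    | succ n ih =>
      intro hn
      obtain ⟨c, hc, c', hc', hcc', hhc⟩ := ih (by omega)
      have hle : p * (n + 1) + 1 ≤ p * t + 1 := by
        have := Nat.mul_le_mul_left p hn
        omega
      have hu' : u - cz ∈ Ideal.span {π ^ (p * (n + 1) + 1)} := S40F2AB_span_pow_le hle hu
      exact S40F2AB_step ctx (Nat.le_add_left 1 n) (hnorm (n + 1) (Nat.le_add_left 1 n) hn)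
        hcz' hczu hκ hu' hrel hc hc' hcc' hhc
  exact key t le_rfl

/-- **Step 1–2 from the break datum** (`S40LB_Break`, helper23's `S40LD_main`). -/
theorem S40F2AB_main_break (ctx : S40F2AB_Ctx σ p π C) {R : Subring O} {c : O} {t : ℕ}
    (hbr : S40LB_Break R σ π c t) (hc : c ∈ C) (hp : p.Prime) (hpt : ¬ p ∣ t)
    (hunits : ∀ k, 0 < k → k < p → IsUnit (k : O))
    (hpπ : ∃ w : O, (p : O) = π ^ ((p - 1) * t + 1) * w) {h h' u cz cz' κ : O}
    (hh : h * h' = 1) (hcz' : cz' ∈ C) (hczu : cz * cz' = 1) (hκ : κ ∈ C)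
    (hu : u - cz ∈ Ideal.span {π ^ (p * t + 1)}) (hrel : u * S40LN_Nm σ p h = κ) :
    ∃ d ∈ C, ∃ d' ∈ C, d * d' = 1 ∧ h - d ∈ Ideal.span {π ^ (t + 1)} :=
  S40F2AB_main ctx t
    (fun n hn hnt => S40F2AB_norm_of_break hbr hc hp hpt hunits hpπ n hn hnt)
    hh hcz' hczu hκ hu hrel

/-- the field `int1` of the context from the break datum. -/
theorem S40F2AB_int1_of_break {R : Subring O} {c : O} {t : ℕ}
    (hbr : S40LB_Break R σ π c t) (z : O) : σ z - z ∈ Ideal.span {π} := by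
  obtain ⟨r, hr⟩ := S40LB_int hbr z
  rw [hr, Ideal.mem_span_singleton']
  exact ⟨π ^ t * r, by ring⟩

end

/-- the field `root` of the context from an algebraically closed field of constants `k` in a
residue domain `D` (`res : O → D` with kernel `(π)`, `C ↠ k`). -/
theorem S40F2AB_root_of_isAlgClosed {D : Type*} [CommRing D] [IsDomain D] {k : Type*} [Field k]
    [IsAlgClosed k] (ι : k →+* D) (res : O →+* D) {π : O}
    (hker : ∀ x, res x = 0 ↔ x ∈ Ideal.span {π}) (C : Subring O)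
    (hC : ∀ c ∈ C, ∃ y : k, ι y = res c) (hsurj : ∀ y : k, ∃ c ∈ C, res c = ι y)
    {p : ℕ} (hp : 2 ≤ p) :
    ∀ b ∈ C, ∀ k₀ ∈ C, ∀ x : O,
      x ^ p + b * x - k₀ ∈ Ideal.span {π} → ∃ γ ∈ C, x - γ ∈ Ideal.span {π} := by
  intro b hb k₀ hk₀ x hx
  have h1 : (1 : O) ∉ Ideal.span {π} := by
    intro hm
    have := (hker 1).mpr hm
    rw [map_one] at this
    exact one_ne_zero this
  refine S40F2A_root_of_isAlgClosed ι res hker C hC hsurj hp 1 (Subring.one_mem _) b hb k₀ hk₀ x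
    (Or.inl h1) ?_
  rwa [one_mul]

end Fermat.Agent.S40
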