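import Fermat.Agent.S40.F2ABRel

/-!
# TRACK 13 (S40 / S44, row 38), (F2'): the WIRE of Steps 1–3 for a pair `(u, h)` (helper11).
Prefix `S40F2ABD_`.

* `S40F2ABD_desc`  : `S40F2D_main` (helper16) with GIVEN `H`-fixed generators `u` of `x` and `u_z`
  of `z = σ x − x`: there are `H`-fixed `c ≠ 0`, `h ≠ 0` with `σ u = c · u · u_z · h^n`;
* `S40F2ABD_start` : the output shape of `S40R2ST_main` (helper17), `u_z − b = ϖ^n · l`, `l`
  integral, `v(π)^p = v(ϖ)`, `p t + 1 ≤ p n`, in the form `V (u_z − b) ≤ V(π)^(pt+1)`;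
* **`S40F2ABD_H12`** : for `x`, `z = σ x − x`, `H`-fixed generators `u` of `x` and `u_z` of `z`,
  `u_z` fixed by `σ` and congruent to constants `b₁`, `b₂` (`v(b_j) = 1`) modulo `ϖ^n` at `V₁`, `V₂`:
  there are `H`-fixed `cσ`, `h` with `σ u = cσ · u · u_z · h^p` and `H`-fixed constants `d₁`, `d₂ ≠ 0`
  with `h / d_j ≡ 1` modulo `π^(t+1)` at `V_j` (the fields `H1`, `H2` of `S40F2M_Gen`).
-/

set_option autoImplicit false
set_option linter.unusedSectionVars false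
set_option linter.unusedVariables false
set_option linter.style.haveILetI false
set_option synthInstance.maxHeartbeats 400000
set_option maxHeartbeats 1000000

open HahnSeries ModularCurve IntermediateField AlgebraicCurve

namespace Fermat.Agent.S40

open Fermat.Agent.S18 Fermat.Agent.S24 Fermat.Agent.S34 Fermat.Agent.S36 Fermat.Agent.GalRep
  Fermat.Agent.S33 Fermat.Agent.S19

local notation "Ω" => AlgebraicClosure ℚ
local notation "Γ" => (AlgebraicClosure ℚ ≃ₐ[ℚ] AlgebraicClosure ℚ)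

section desc

variable (N : ℕ) [NeZero N]

/-- `S40F2D_main` with given generators. -/
theorem S40F2ABD_desc (H : Set Γ) (n : ℕ) (hn : 0 < n) {x z : JZero N} (σ : Γ)
    (hz : σ • x - x = z) {u u_z : ↥(modularFunctionFieldBar N)}
    (hu : S33DG_IsGen n x u) (huz : S33DG_IsGen n z u_z)
    (hufix : ∀ τ ∈ H, GR_gal N τ u = u) (huzfix : ∀ τ ∈ H, GR_gal N τ u_z = u_z)
    (hconj : ∀ τ ∈ H, σ⁻¹ * τ * σ ∈ H) :
    ∃ (h : ↥(modularFunctionFieldBar N)) (c : Ω), c ≠ 0 ∧ h ≠ 0 ∧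
      (∀ τ ∈ H, τ c = c) ∧ (∀ τ ∈ H, GR_gal N τ h = h) ∧
      GR_gal N σ u = algebraMap Ω ↥(modularFunctionFieldBar N) c * u * u_z * h ^ n := by
  have hu0 : u ≠ 0 := S33DG_isGen_ne_zero hu
  have huz0 : u_z ≠ 0 := S33DG_isGen_ne_zero huz
  have ht := S40F2D_quot N hu σ hz huz
  have htfix : ∀ τ ∈ H, GR_gal N τ (GR_gal N σ u * u⁻¹ * u_z⁻¹) =
      GR_gal N σ u * u⁻¹ * u_z⁻¹ := by
    intro τ hτ
    rw [map_mul, map_mul, map_inv₀, map_inv₀, hufix τ hτ, huzfix τ hτ]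
    congr 2
    have h1 := hufix _ (hconj τ hτ)
    have e : τ * σ = σ * (σ⁻¹ * τ * σ) := by group
    rw [← S33NT_gal_mul, e, S33NT_gal_mul, h1]
  obtain ⟨c, h, hc, hh, hpres, hcfix, hhfix⟩ := S40F2D_triv_fixed N H n hn _ ht htfix
  refine ⟨h, c, hc, hh, hcfix, hhfix, ?_⟩
  have : GR_gal N σ u = (GR_gal N σ u * u⁻¹ * u_z⁻¹) * u * u_z := by
    field_simp
  rw [this, hpres]
  ring

end desc

section start

variable {L F k Fk : Type*} [Field L] [Field F] [Algebra L F] [Field k] [Field Fk] [Algebra k Fk]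
  (T : S18_Val L F k Fk)

/-- the output shape of `S40R2ST_main` in the form of the START of `S40F2ABR_V1/_V2`. -/
theorem S40F2ABD_start {p n t : ℕ} {π ϖ b : L} (hπ0 : π ≠ 0) (hπ1 : T.A.valuation π ≤ 1)
    (hπϖ : T.A.valuation π ^ p = T.A.valuation ϖ) (hnt : p * t + 1 ≤ p * n) {w : F}
    (hw : ∃ l ∈ T.O, w - algebraMap L F b = algebraMap L F ϖ ^ n * l) :
    T.O.valuation (w - algebraMap L F b) ≤ T.O.valuation (algebraMap L F π) ^ (p * t + 1) := by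
  obtain ⟨l, hl, e⟩ := hw
  have hϖ0 : ϖ ≠ 0 := by
    intro h0
    rw [h0, map_zero] at hπϖ
    exact (pow_ne_zero p ((map_ne_zero T.A.valuation).mpr hπ0)) hπϖ
  have h1 : T.O.valuation (algebraMap L F ϖ) = T.O.valuation (algebraMap L F π) ^ p := by
    have h2 := S40F2ABI_val_zpow T hπ0 (p : ℤ) (a := ϖ) (by rw [zpow_natCast]; exact hπϖ.symm)
    rwa [zpow_natCast] at h2
  have hVπ1 : T.O.valuation (algebraMap L F π) ≤ 1 := (S40F2ABI_val_le_one T π).2 hπ1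
  rw [e, map_mul, map_pow, h1, ← pow_mul]
  calc (T.O.valuation (algebraMap L F π)) ^ (p * n) * T.O.valuation l
      ≤ (T.O.valuation (algebraMap L F π)) ^ (p * n) * 1 :=
        mul_le_mul_right ((T.O.valuation_le_one_iff l).mpr hl) _
    _ = (T.O.valuation (algebraMap L F π)) ^ (p * n) := mul_one _
    _ ≤ (T.O.valuation (algebraMap L F π)) ^ (p * t + 1) :=
        pow_le_pow_of_le_one zero_le hVπ1 hnt

end start

section wire

variable (M p : ℕ) [NeZero (M * p)] (hp : p.Prime) (hpM : ¬ p ∣ M)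
  (A : ValuationSubring Ω) (hA : A.LiesOverPrime p)
  (hgen : PrincipalGeneratedByIntegral A (IsLocalRing.residue A) (M * p))
  (H : Subgroup Γ)

include hA in
/-- **Steps 1–3 for a pair `(u, h)`**: the descent relation and the fields `H1`, `H2` of
`S40F2M_Gen` on the real objects. -/
theorem S40F2ABD_H12 {ζ : Ω} (hprim : IsPrimitiveRoot ζ p)
    (σ : Γ) (hσ : σ ∈ S40D_I1 A p) (hHI : ∀ g ∈ H, g ∈ S40D_I1 A p)
    (hdec : ∀ g ∈ S40D_I1 A p, ∃ k : ℕ, (σ ^ k)⁻¹ * g ∈ H)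
    (hnorm : ∀ g ∈ H, σ⁻¹ * g * σ ∈ H) (hσp : σ ^ p ∈ H)
    {π c r : Ω} {t : ℕ} (ht1 : 1 ≤ t) (htp : t ≤ p - 1)
    (hπH : ∀ g ∈ H, g π = π) (hcH : ∀ g ∈ H, g c = c) (hrH : ∀ g ∈ H, g r = r)
    (hvπ : A.valuation π ^ p = A.valuation (1 - ζ)) (hvc : A.valuation c = 1)
    (hvr : A.valuation r ≤ 1)
    (hunif : σ π = π * (1 + c * π ^ t) + π ^ (t + 2) * r)
    (hdisc : ∀ x : Ω, x ≠ 0 → (∀ g ∈ H, g x = x) → ∃ k : ℤ, A.valuation x = A.valuation π ^ k)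
    {x z : JZero (M * p)} (hz : σ • x - x = z)
    {u u_z : ↥(modularFunctionFieldBar (M * p))}
    (hu : S33DG_IsGen p x u) (huz : S33DG_IsGen p z u_z)
    (huH : ∀ g ∈ H, GR_gal (M * p) g u = u) (huzH : ∀ g ∈ H, GR_gal (M * p) g u_z = u_z)
    (hσuz : GR_gal (M * p) σ u_z = u_z)
    {n : ℕ} (hnt : p * t + 1 ≤ p * n) {b₁ b₂ : Ω}
    (hb₁H : ∀ g ∈ H, g b₁ = b₁) (hvb₁ : A.valuation b₁ = 1)
    (hb₂H : ∀ g ∈ H, g b₂ = b₂) (hvb₂ : A.valuation b₂ = 1)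
    (hst₁ : ∃ l ∈ (S34M_T1 M p A hgen).O,
      u_z - algebraMap Ω ↥(modularFunctionFieldBar (M * p)) b₁ =
        algebraMap Ω ↥(modularFunctionFieldBar (M * p)) (1 - ζ) ^ n * l)
    (hst₂ : ∃ l ∈ (S34M_T2 M p hp hpM A hgen).O,
      u_z - algebraMap Ω ↥(modularFunctionFieldBar (M * p)) b₂ =
        algebraMap Ω ↥(modularFunctionFieldBar (M * p)) (1 - ζ) ^ n * l) :
    ∃ (h : ↥(modularFunctionFieldBar (M * p))) (cσ d₁ d₂ : Ω),
      cσ ≠ 0 ∧ h ≠ 0 ∧ (∀ g ∈ H, g cσ = cσ) ∧ (∀ g ∈ H, GR_gal (M * p) g h = h) ∧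
      GR_gal (M * p) σ u =
        algebraMap Ω ↥(modularFunctionFieldBar (M * p)) cσ * u * u_z * h ^ p ∧
      d₁ ≠ 0 ∧ (∀ g ∈ H, g d₁ = d₁) ∧ d₂ ≠ 0 ∧ (∀ g ∈ H, g d₂ = d₂) ∧
      S40F2J_Cg (S34M_T1 M p A hgen).O.valuation
        (algebraMap Ω ↥(modularFunctionFieldBar (M * p)) π) t
        (h / algebraMap Ω ↥(modularFunctionFieldBar (M * p)) d₁) 0 ∧
      S40F2J_Cg (S34M_T2 M p hp hpM A hgen).O.valuation
        (algebraMap Ω ↥(modularFunctionFieldBar (M * p)) π) t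
        (h / algebraMap Ω ↥(modularFunctionFieldBar (M * p)) d₂) 0 := by
  haveI : Fact p.Prime := ⟨hp⟩
  have hu0 : u ≠ 0 := S33DG_isGen_ne_zero hu
  have huz0 : u_z ≠ 0 := S33DG_isGen_ne_zero huz
  obtain ⟨h, cσ, hcσ0, hh0, hcσH, hhH, hσu⟩ := S40F2ABD_desc (M * p) (H : Set Γ) p hp.pos σ hz hu
    huz huH huzH hnorm
  have hζ1 : (1 - ζ : Ω) ≠ 0 := S33BZ_one_sub_ne_zero hprim
  have hΛ1 : A.valuation (1 - ζ) < 1 := S33BZ_val_one_sub_lt A hA hprim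
  have hπ0 : π ≠ 0 := by
    intro h0
    rw [h0, map_zero, zero_pow hp.ne_zero] at hvπ
    exact ((map_ne_zero A.valuation).mpr hζ1) hvπ.symm
  have hvπ1 : A.valuation π < 1 := by
    by_contra hcon
    push Not at hcon
    have h1 : (1 : _) ≤ A.valuation π ^ p := one_le_pow₀ hcon
    rw [hvπ] at h1
    exact absurd hΛ1 (not_lt.mpr h1)
  have hR1 := S40F2ABD_start (S34M_T1 M p A hgen) (p := p) (n := n) (t := t) (π := π)
    (ϖ := 1 - ζ) (b := b₁) hπ0 hvπ1.le hvπ hnt hst₁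
  have hR2 := S40F2ABD_start (S34M_T2 M p hp hpM A hgen) (p := p) (n := n) (t := t) (π := π)
    (ϖ := 1 - ζ) (b := b₂) hπ0 hvπ1.le hvπ hnt hst₂
  obtain ⟨d₁, hd₁0, hd₁H, hH1⟩ := S40F2ABR_V1 M p hp hpM A hA hgen H hprim σ hσ hHI hdec hnorm
    hσp ht1 htp hπH hcH hrH hvπ hvc hvr hunif hdisc hu0 huz0 hh0 hcσ0 huH huzH hσuz hhH hσu
    hb₁H hvb₁ hR1
  obtain ⟨d₂, hd₂0, hd₂H, hH2⟩ := S40F2ABR_V2 M p hp hpM A hA hgen H hprim σ hσ hHI hdec hnorm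
    hσp ht1 htp hπH hcH hrH hvπ hvc hvr hunif hdisc hu0 huz0 hh0 hcσ0 huH huzH hσuz hhH hσu
    hb₂H hvb₂ hR2
  exact ⟨h, cσ, d₁, d₂, hcσ0, hh0, hcσH, hhH, hσu, hd₁0, hd₁H, hd₂0, hd₂H, hH1, hH2⟩

end wire

end Fermat.Agent.S40
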