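import Mathlib
import Fermat.Agent.S33.BaseZ
import Fermat.Agent.S40.Defs

/-!
# TRACK 13 (S40 / S44, row 38), package BREAK-CONST of (F2') (helper16).  Prefix `S40F2B_`.

`Ω = ℚ̄`, `A` a valuation ring of `Ω` over `p`, `I¹ = S40D_I1 A p`, `F = Fix(I¹)`, `σ ∈ I¹`,
`H ⊂ I¹` with `I¹ = ⋃ σ^k H`, `σ^p ∈ H`, `H` stable under conjugation by the `σ^j`
(`H` = the stabiliser of `V` in `I¹`, `L = Fix(H)`), and `β ∈ L` a UNIT with `σ β = ζ^i β`, `p ∤ i`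
(the output of `S40F2D_kummer`).

* `S40F2B_inertia_val`  : the inertia group preserves the valuation;
* `S40F2B_val_natCast`  : `v(n) = 1` for `p ∤ n`;
* `S40F2B_binom`        : `(1 + z)^a = 1 + a z + z² q`, `q` integral;
* `S40F2B_norm_fixed`   : the norm `∏_{j<p} σ^j x` of an `H`-fixed `x` is fixed by `I¹`;
* `S40F2B_val_pow`      : an `H`-fixed `x ≠ 0` has `v(x)^p = v(1 − ζ)^k`;
* **`S40F2B_main`**     : the constants of the break datum `S40LB_Break`: there are `π, c, r ∈ L`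
  and `1 ≤ t ≤ p − 1` with `v(π)^p = v(1 − ζ)`, `v(c) = 1`, `v(r) ≤ 1`,
  `σ π = π (1 + c π^t) + π^(t+2) r`, and every `x ≠ 0` of `L` has `v(x) = v(π)^k`.
-/

set_option autoImplicit false
set_option linter.unusedSectionVars false
set_option linter.unusedVariables false
set_option linter.style.haveILetI false
set_option maxHeartbeats 1000000

namespace Fermat.Agent.S40

open Fermat.Agent.S19 Fermat.Agent.S36 Fermat.Agent.S33

local notation "Ω" => AlgebraicClosure ℚ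
local notation "Γ" => (AlgebraicClosure ℚ ≃ₐ[ℚ] AlgebraicClosure ℚ)

section general

variable {p : ℕ} [hp : Fact p.Prime] (A : ValuationSubring Ω)

/-- the inertia group lies in the decomposition group. -/
theorem S40F2B_inertia_dec {σ : Γ} (hσ : σ ∈ A.inertiaSubgroupIn ℚ) :
    σ ∈ A.decompositionSubgroup ℚ := by
  obtain ⟨g, -, rfl⟩ := hσ
  exact g.2

/-- the inertia group preserves the valuation. -/
theorem S40F2B_inertia_val {σ : Γ} (hσ : σ ∈ A.inertiaSubgroupIn ℚ) (c : Ω) :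
    A.valuation (σ c) = A.valuation c :=
  S36BL_dec_val A (S40F2B_inertia_dec A hσ) c

/-- `v(n) = 1` for `p ∤ n`. -/
theorem S40F2B_val_natCast (hA : A.LiesOverPrime p) {n : ℕ} (hn : ¬ p ∣ n) :
    A.valuation (n : Ω) = 1 := by
  have hle : A.valuation (n : Ω) ≤ 1 := (A.valuation_le_one_iff _).mpr (natCast_mem A n)
  refine le_antisymm hle (not_lt.mp fun hlt => ?_)
  have hcop : Nat.Coprime n p := ((Nat.Prime.coprime_iff_not_dvd hp.out).mpr hn).symm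
  obtain ⟨m, -, hm⟩ := Nat.exists_mul_mod_eq_one_of_coprime hcop hp.out.one_lt
  -- `n m = p (n m / p) + 1`
  have h1 : n * m = p * (n * m / p) + 1 := by
    have := Nat.div_add_mod (n * m) p
    rw [hm] at this
    exact this.symm
  have h2 : ((n : Ω)) * (m : Ω) - (p : Ω) * ((n * m / p : ℕ) : Ω) = 1 := by
    have := congrArg (fun k : ℕ => (k : Ω)) h1
    simp only [Nat.cast_mul, Nat.cast_add, Nat.cast_one] at this
    rw [this]; ring
  have hp' : A.valuation (p : Ω) < 1 := (A.mem_nonunits_iff).mp hA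
  have hm1 : A.valuation (m : Ω) ≤ 1 := (A.valuation_le_one_iff _).mpr (natCast_mem A m)
  have hk1 : A.valuation ((n * m / p : ℕ) : Ω) ≤ 1 :=
    (A.valuation_le_one_iff _).mpr (natCast_mem A _)
  have h3 : A.valuation ((n : Ω) * (m : Ω)) < 1 := by
    rw [map_mul]
    exact mul_lt_one_of_lt_of_le hlt hm1
  have h4 : A.valuation ((p : Ω) * ((n * m / p : ℕ) : Ω)) < 1 := by
    rw [map_mul]
    exact mul_lt_one_of_lt_of_le hp' hk1
  have h5 : A.valuation ((n : Ω) * (m : Ω) - (p : Ω) * ((n * m / p : ℕ) : Ω)) < 1 :=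
    lt_of_le_of_lt (Valuation.map_sub _ _ _) (max_lt h3 h4)
  rw [h2, map_one] at h5
  exact lt_irrefl _ h5

/-- `(1 + z)^a = 1 + a z + z² q` with `q` integral. -/
theorem S40F2B_binom {z : Ω} (hz : A.valuation z ≤ 1) (a : ℕ) :
    ∃ q : Ω, A.valuation q ≤ 1 ∧ (1 + z) ^ a = 1 + (a : Ω) * z + z ^ 2 * q := by
  induction a with
  | zero => exact ⟨0, by simp, by simp⟩
  | succ a ih =>
    obtain ⟨q, hq, he⟩ := ih
    refine ⟨(a : Ω) + q * (1 + z), ?_, ?_⟩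
    · have ha : A.valuation (a : Ω) ≤ 1 := (A.valuation_le_one_iff _).mpr (natCast_mem A a)
      have h1 : A.valuation (1 + z) ≤ 1 :=
        le_trans (Valuation.map_add _ _ _) (max_le (by rw [map_one]) hz)
      refine le_trans (Valuation.map_add _ _ _) (max_le ha ?_)
      rw [map_mul]
      exact mul_le_one' hq h1
    · rw [pow_succ, he]
      push_cast
      ring

end general

section norm

variable {p : ℕ} [hp : Fact p.Prime] (A : ValuationSubring Ω)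

/-- a primitive root fixed by `τ ∈ I` puts `τ` in `I¹`. -/
theorem S40F2B_mem_I1 {ζ : Ω} (hprim : IsPrimitiveRoot ζ p) {τ : Γ}
    (hτ : τ ∈ A.inertiaSubgroupIn ℚ) (hτζ : τ ζ = ζ) : τ ∈ S40D_I1 A p := by
  refine S40D_mem_I1.2 ⟨hτ, fun ζ' hζ' => ?_⟩
  haveI : NeZero p := ⟨hp.out.ne_zero⟩
  obtain ⟨j, -, rfl⟩ := hprim.eq_pow_of_pow_eq_one hζ'
  rw [map_pow, hτζ]

variable (σ : Γ) (H : Set Γ)

/-- the norm `∏_{j<p} σ^j x`. -/
noncomputable def S40F2B_N (p : ℕ) (σ : Γ) (x : Ω) : Ω := ∏ j ∈ Finset.range p, (σ ^ j) x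

/-- elements of `H` fix the conjugates `σ^j x` of an `H`-fixed `x`. -/
theorem S40F2B_conj_fixed (hconj : ∀ g ∈ H, ∀ j : ℕ, (σ ^ j)⁻¹ * g * σ ^ j ∈ H)
    {x : Ω} (hx : ∀ g ∈ H, g x = x) (g : Γ) (hg : g ∈ H) (j : ℕ) :
    g ((σ ^ j) x) = (σ ^ j) x := by
  have h1 := hx _ (hconj g hg j)
  have h2 : ((σ ^ j)⁻¹ * g * σ ^ j) x = (σ ^ j)⁻¹ (g ((σ ^ j) x)) := rfl
  rw [h2] at h1
  have h3 := congrArg (σ ^ j) h1
  have h4 : (σ ^ j) ((σ ^ j)⁻¹ (g ((σ ^ j) x))) = g ((σ ^ j) x) := by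
    change ((σ ^ j) * (σ ^ j)⁻¹) (g ((σ ^ j) x)) = _
    rw [mul_inv_cancel]
    rfl
  rw [h4] at h3
  exact h3

/-- the norm of an `H`-fixed element is fixed by `σ`. -/
theorem S40F2B_sigma_N (hσp : σ ^ p ∈ H) {x : Ω} (hx : ∀ g ∈ H, g x = x) :
    σ (S40F2B_N p σ x) = S40F2B_N p σ x := by
  unfold S40F2B_N
  rw [map_prod]
  have h1 : ∀ j : ℕ, σ ((σ ^ j) x) = (σ ^ (j + 1)) x := by
    intro j
    rw [pow_succ']
    rfl
  simp_rw [h1]
  have h2 : (∏ j ∈ Finset.range p, (σ ^ (j + 1)) x) * (σ ^ 0) x =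
      ∏ j ∈ Finset.range (p + 1), (σ ^ j) x := (Finset.prod_range_succ' (fun j => (σ ^ j) x) p).symm
  have h3 : ∏ j ∈ Finset.range (p + 1), (σ ^ j) x =
      (∏ j ∈ Finset.range p, (σ ^ j) x) * (σ ^ p) x := Finset.prod_range_succ _ p
  have h4 : (σ ^ p) x = x := hx _ hσp
  have h5 : (σ ^ 0) x = x := by rw [pow_zero]; rfl
  rw [h3, h4, h5] at h2
  have hx0 : x = 0 ∨ x ≠ 0 := eq_or_ne x 0
  rcases hx0 with rfl | hx0
  · -- both sides vanish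
    have hpos : 0 < p := hp.out.pos
    have e1 : ∏ j ∈ Finset.range p, (σ ^ (j + 1)) (0 : Ω) = 0 :=
      Finset.prod_eq_zero (Finset.mem_range.2 hpos) (map_zero _)
    have e2 : ∏ j ∈ Finset.range p, (σ ^ j) (0 : Ω) = 0 :=
      Finset.prod_eq_zero (Finset.mem_range.2 hpos) (map_zero _)
    rw [e1, e2]
  · exact mul_right_cancel₀ hx0 h2

/-- the norm of an `H`-fixed element is fixed by `I¹`. -/
theorem S40F2B_norm_fixed (hdec : ∀ g ∈ S40D_I1 A p, ∃ k : ℕ, (σ ^ k)⁻¹ * g ∈ H)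
    (hconj : ∀ g ∈ H, ∀ j : ℕ, (σ ^ j)⁻¹ * g * σ ^ j ∈ H) (hσp : σ ^ p ∈ H)
    {x : Ω} (hx : ∀ g ∈ H, g x = x) (g : Γ) (hg : g ∈ S40D_I1 A p) :
    g (S40F2B_N p σ x) = S40F2B_N p σ x := by
  obtain ⟨k, hk⟩ := hdec g hg
  -- `h := σ^{-k} g ∈ H` fixes the norm
  have h1 : ((σ ^ k)⁻¹ * g) (S40F2B_N p σ x) = S40F2B_N p σ x := by
    unfold S40F2B_N
    rw [map_prod]
    exact Finset.prod_congr rfl fun j _ => S40F2B_conj_fixed σ H hconj hx _ hk j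
  -- powers of `σ` fix the norm
  have h2 : ∀ k : ℕ, (σ ^ k) (S40F2B_N p σ x) = S40F2B_N p σ x := by
    intro k
    induction k with
    | zero => rw [pow_zero]; rfl
    | succ k ih =>
      rw [pow_succ]
      change (σ ^ k) (σ (S40F2B_N p σ x)) = _
      rw [S40F2B_sigma_N σ H hσp hx, ih]
  have h3 : g (S40F2B_N p σ x) = (σ ^ k) (((σ ^ k)⁻¹ * g) (S40F2B_N p σ x)) := by
    change g (S40F2B_N p σ x) = ((σ ^ k) * ((σ ^ k)⁻¹ * g)) (S40F2B_N p σ x)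
    rw [← mul_assoc, mul_inv_cancel, one_mul]
  rw [h3, h1, h2]

/-- the valuation of the norm. -/
theorem S40F2B_val_N (hσ : σ ∈ S40D_I1 A p) (x : Ω) :
    A.valuation (S40F2B_N p σ x) = A.valuation x ^ p := by
  unfold S40F2B_N
  rw [map_prod]
  have : ∀ j ∈ Finset.range p, A.valuation ((σ ^ j) x) = A.valuation x := fun j _ =>
    S40F2B_inertia_val A (pow_mem (S40D_mem_I1.1 hσ).1 j) x
  rw [Finset.prod_congr rfl this, Finset.prod_const, Finset.card_range]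

/-- **an `H`-fixed `x ≠ 0` has `v(x)^p = v(1 − ζ)^k`**. -/
theorem S40F2B_val_pow (hA : A.LiesOverPrime p) {ζ : Ω} (hprim : IsPrimitiveRoot ζ p)
    (hσ : σ ∈ S40D_I1 A p)
    (hdec : ∀ g ∈ S40D_I1 A p, ∃ k : ℕ, (σ ^ k)⁻¹ * g ∈ H)
    (hconj : ∀ g ∈ H, ∀ j : ℕ, (σ ^ j)⁻¹ * g * σ ^ j ∈ H) (hσp : σ ^ p ∈ H)
    {x : Ω} (hx0 : x ≠ 0) (hx : ∀ g ∈ H, g x = x) :
    ∃ k : ℤ, A.valuation x ^ p = A.valuation (1 - ζ) ^ k := by
  have hN0 : S40F2B_N p σ x ≠ 0 := by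
    unfold S40F2B_N
    rw [Finset.prod_ne_zero_iff]
    intro j _
    exact (map_ne_zero _).mpr hx0
  obtain ⟨k, hk⟩ := S33BZ_val_eq A hA hprim hN0 (fun τ hτ hτζ =>
    S40F2B_norm_fixed A σ H hdec hconj hσp hx τ (S40F2B_mem_I1 A hprim hτ hτζ))
  exact ⟨k, by rw [← S40F2B_val_N A σ hσ x, hk]⟩

end norm

section main

variable {p : ℕ} [hp : Fact p.Prime] (A : ValuationSubring Ω)

/-- `x ↦ x ^ p` is injective on the value group. -/
theorem S40F2B_pow_inj {Γ₀ : Type*} [LinearOrderedCommGroupWithZero Γ₀] {n : ℕ} (hn : n ≠ 0)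
    {x y : Γ₀} (h : x ^ n = y ^ n) : x = y := by
  rcases lt_trichotomy x y with hlt | heq | hgt
  · exact absurd h (ne_of_lt (pow_lt_pow_left₀ hlt zero_le hn))
  · exact heq
  · exact absurd h.symm (ne_of_lt (pow_lt_pow_left₀ hgt zero_le hn))

/-- **BREAK-CONST**: the constants of the break datum of `L = Fix(H)` over `F = Fix(I¹)`. -/
theorem S40F2B_main (hA : A.LiesOverPrime p) {ζ : Ω} (hprim : IsPrimitiveRoot ζ p)
    (σ : Γ) (H : Set Γ) (hσ : σ ∈ S40D_I1 A p)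
    (hHI : ∀ g ∈ H, g ∈ S40D_I1 A p)
    (hdec : ∀ g ∈ S40D_I1 A p, ∃ k : ℕ, (σ ^ k)⁻¹ * g ∈ H)
    (hconj : ∀ g ∈ H, ∀ j : ℕ, (σ ^ j)⁻¹ * g * σ ^ j ∈ H) (hσp : σ ^ p ∈ H)
    (β : Ω) (i : ℕ) (hi : ¬ p ∣ i) (hβ1 : A.valuation β = 1) (hσβ : σ β = ζ ^ i * β)
    (hβH : ∀ g ∈ H, g β = β) :
    ∃ (π c r : Ω) (t : ℕ), 1 ≤ t ∧ t ≤ p - 1 ∧
      (∀ g ∈ H, g π = π) ∧ (∀ g ∈ H, g c = c) ∧ (∀ g ∈ H, g r = r) ∧
      A.valuation π ^ p = A.valuation (1 - ζ) ∧ A.valuation c = 1 ∧ A.valuation r ≤ 1 ∧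
      σ π = π * (1 + c * π ^ t) + π ^ (t + 2) * r ∧
      ∀ x : Ω, x ≠ 0 → (∀ g ∈ H, g x = x) → ∃ k : ℤ, A.valuation x = A.valuation π ^ k := by
  classical
  haveI : Algebra.IsAlgebraic ℚ Ω := AlgebraicClosure.isAlgebraic ℚ
  have hσI : σ ∈ A.inertiaSubgroupIn ℚ := (S40D_mem_I1.1 hσ).1
  have hζp : ζ ^ p = 1 := hprim.pow_eq_one
  have hσζ : σ ζ = ζ := (S40D_mem_I1.1 hσ).2 ζ hζp
  have hHζ : ∀ g ∈ H, g ζ = ζ := fun g hg => (S40D_mem_I1.1 (hHI g hg)).2 ζ hζp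
  have hζ1 : (1 : Ω) - ζ ≠ 0 := S33BZ_one_sub_ne_zero hprim
  obtain ⟨Λ, hΛ⟩ : ∃ Λ, Λ = A.valuation (1 - ζ) := ⟨_, rfl⟩
  have hΛ0 : Λ ≠ 0 := by rw [hΛ]; exact (Valuation.ne_zero_iff _).2 hζ1
  have hΛ1 : Λ < 1 := by
    have := S33BZ_pow_sub_one_mem A hA hprim 1
    rw [pow_one, ← neg_sub, Valuation.map_neg] at this
    rw [hΛ]; exact this
  -- Step 1: normalise `β ≡ 1`
  have hβA : β ∈ A := (A.valuation_le_one_iff β).mp hβ1.le
  obtain ⟨a, ha, hafix⟩ := S19TE_exists_lift A hp.out hA (IsLocalRing.residue A ⟨β, hβA⟩)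
  have hβa : A.valuation (β - (a : Ω)) < 1 := by
    have h1 : IsLocalRing.residue A (⟨β, hβA⟩ - a) = 0 := by rw [map_sub, ha, sub_self]
    rw [IsLocalRing.residue_eq_zero_iff] at h1
    have h2 := ValuationSubring.coe_mem_nonunits_iff.mpr h1
    exact (A.mem_nonunits_iff).mp h2
  have hva : A.valuation (a : Ω) = 1 := by
    have h1 : (a : Ω) = β - (β - (a : Ω)) := by ring
    rw [h1, Valuation.map_sub_eq_of_lt_left _ (by rw [hβ1]; exact hβa), hβ1]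
  have ha0 : (a : Ω) ≠ 0 := by
    intro h0; rw [h0, map_zero] at hva; exact zero_ne_one hva
  obtain ⟨β₁, hβ₁⟩ : ∃ β₁ : Ω, β₁ = β * (a : Ω)⁻¹ := ⟨_, rfl⟩
  have hvβ₁ : A.valuation β₁ = 1 := by rw [hβ₁, map_mul, map_inv₀, hβ1, hva, inv_one, mul_one]
  have hσβ₁ : σ β₁ = ζ ^ i * β₁ := by
    rw [hβ₁, map_mul, map_inv₀, hafix σ hσI, hσβ, mul_assoc]
  have hHβ₁ : ∀ g ∈ H, g β₁ = β₁ := by
    intro g hg
    rw [hβ₁, map_mul, map_inv₀, hafix g (S40D_mem_I1.1 (hHI g hg)).1, hβH g hg]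
  -- Step 2: `w = β₁ − 1`
  obtain ⟨w, hw⟩ : ∃ w : Ω, w = β₁ - 1 := ⟨_, rfl⟩
  have hvw1 : A.valuation w < 1 := by
    have : w = (β - (a : Ω)) * (a : Ω)⁻¹ := by
      rw [hw, hβ₁, sub_mul, mul_inv_cancel₀ ha0]
    rw [this, map_mul, map_inv₀, hva, inv_one, mul_one]
    exact hβa
  have hζi : ζ ^ i ≠ 1 := fun h => hi ((hprim.pow_eq_one_iff_dvd i).mp h)
  have hβ₁0 : β₁ ≠ 0 := by
    intro h0; rw [h0, map_zero] at hvβ₁; exact zero_ne_one hvβ₁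
  have hw0 : w ≠ 0 := by
    intro h0
    have h1 : β₁ = 1 := by rw [hw] at h0; exact sub_eq_zero.mp h0
    rw [h1, map_one, mul_one] at hσβ₁
    exact hζi hσβ₁.symm
  have hHw : ∀ g ∈ H, g w = w := fun g hg => by rw [hw, map_sub, map_one, hHβ₁ g hg]
  obtain ⟨δ, hδ⟩ : ∃ δ : Ω, δ = (ζ ^ i - 1) * β₁ := ⟨_, rfl⟩
  have hσw : σ w = w + δ := by
    rw [hw, map_sub, map_one, hσβ₁, hδ]; ring
  have hvδ : A.valuation δ = Λ := by
    rw [hδ, map_mul, hvβ₁, mul_one, ← neg_sub, Valuation.map_neg,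
      S36BL_val_one_sub_pow A hζp hi, hΛ]
  have hHδ : ∀ g ∈ H, g δ = δ := fun g hg => by
    rw [hδ, map_mul, map_sub, map_pow, map_one, hHζ g hg, hHβ₁ g hg]
  have hδ0 : δ ≠ 0 := by
    intro h0; rw [h0, map_zero] at hvδ; exact hΛ0 hvδ.symm
  -- Step 3: `Λ < v(w)`
  have hvσw : A.valuation (σ w) = A.valuation w := S40F2B_inertia_val A hσI w
  have hΛw : Λ < A.valuation w := by
    have hle : Λ ≤ A.valuation w := by
      have h1 : δ = σ w - w := by rw [hσw]; ring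
      rw [← hvδ, h1]
      exact le_trans (Valuation.map_sub _ _ _) (max_le hvσw.le le_rfl)
    refine lt_of_le_of_ne hle fun heq => ?_
    -- `u₀ = w / (1 − ζ)` is a unit moved by `σ` modulo `𝔪`
    have hu₀ : A.valuation (w * (1 - ζ)⁻¹) = 1 := by
      rw [map_mul, map_inv₀, ← hΛ, ← heq, mul_inv_cancel₀ hΛ0]
    have hu₀A : w * (1 - ζ)⁻¹ ∈ A := (A.valuation_le_one_iff _).mp hu₀.le
    have h1 := (A.mem_nonunits_iff).mp (S19TE_inertia_sub_mem A hσI hu₀A)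
    have h2 : σ (w * (1 - ζ)⁻¹) - w * (1 - ζ)⁻¹ = δ * (1 - ζ)⁻¹ := by
      rw [map_mul, map_inv₀, map_sub, map_one, hσζ, hσw]; ring
    rw [h2, map_mul, map_inv₀, hvδ, ← hΛ, mul_inv_cancel₀ hΛ0] at h1
    exact lt_irrefl _ h1
  -- Step 4: `v(w)^p = Λ^m`, `0 < m < p`
  obtain ⟨m, hm⟩ := S40F2B_val_pow A σ H hA hprim hσ hdec hconj hσp hw0 hHw
  rw [← hΛ] at hm
  have hm0 : 0 < m := by
    rw [← S33BZ_zpow_lt_one_iff hΛ0 hΛ1, ← hm]
    exact pow_lt_one₀ zero_le hvw1 hp.out.ne_zero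
  have hmp : m < p := by
    by_contra hcon
    push Not at hcon
    have h1 : Λ ^ m ≤ Λ ^ (p : ℤ) :=
      zpow_le_zpow_right_of_le_one₀ (zero_lt_iff.mpr hΛ0) hΛ1.le hcon
    rw [← hm, zpow_natCast] at h1
    exact absurd (pow_lt_pow_left₀ hΛw zero_le hp.out.ne_zero) (not_lt.mpr h1)
  obtain ⟨m', rfl⟩ : ∃ m' : ℕ, m = m' := ⟨m.toNat, (Int.toNat_of_nonneg hm0.le).symm⟩
  rw [zpow_natCast] at hm
  have hm'0 : 0 < m' := by exact_mod_cast hm0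
  have hm'p : m' < p := by exact_mod_cast hmp
  -- Step 5: Bezout
  have hpm : ¬ p ∣ m' := fun hd => absurd (Nat.le_of_dvd hm'0 hd) (not_le.mpr hm'p)
  have hcop : Nat.Coprime m' p := ((Nat.Prime.coprime_iff_not_dvd hp.out).mpr hpm).symm
  obtain ⟨a', -, ha'⟩ := Nat.exists_mul_mod_eq_one_of_coprime hcop hp.out.one_lt
  obtain ⟨b', hb'⟩ : ∃ b' : ℕ, m' * a' = 1 + b' * p := by
    refine ⟨m' * a' / p, ?_⟩
    have := Nat.div_add_mod (m' * a') p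
    rw [ha'] at this
    calc m' * a' = p * (m' * a' / p) + 1 := this.symm
      _ = 1 + m' * a' / p * p := by ring
  have hpa' : ¬ p ∣ a' := by
    intro hd
    have : p ∣ m' * a' := dvd_mul_of_dvd_right hd m'
    rw [Nat.dvd_iff_mod_eq_zero, ha'] at this
    exact one_ne_zero this
  -- the uniformiser
  obtain ⟨π, hπ⟩ : ∃ π : Ω, π = w ^ a' * ((1 - ζ) ^ b')⁻¹ := ⟨_, rfl⟩
  have hπ0 : π ≠ 0 := by
    rw [hπ]; exact mul_ne_zero (pow_ne_zero _ hw0) (inv_ne_zero (pow_ne_zero _ hζ1))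
  have hvπ0 : A.valuation π ≠ 0 := (Valuation.ne_zero_iff _).2 hπ0
  have hvπ : A.valuation π ^ p = Λ := by
    have h1 : A.valuation π ^ p * Λ ^ (b' * p) = Λ * Λ ^ (b' * p) := by
      rw [hπ, map_mul, map_inv₀, map_pow, map_pow, ← hΛ, mul_pow, inv_pow, ← pow_mul, ← pow_mul,
        mul_assoc, inv_mul_cancel₀ (pow_ne_zero _ hΛ0), mul_one, mul_comm a' p, pow_mul, hm,
        ← pow_mul, hb', pow_add, pow_one]
    exact mul_right_cancel₀ (pow_ne_zero _ hΛ0) h1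
  have hvw : A.valuation w = A.valuation π ^ m' := by
    apply S40F2B_pow_inj hp.out.ne_zero
    rw [hm, ← pow_mul, mul_comm, pow_mul, hvπ]
  have hvπ1 : A.valuation π < 1 := by
    by_contra hcon
    push Not at hcon
    have : (1 : _) ≤ A.valuation π ^ p := one_le_pow₀ hcon
    rw [hvπ] at this
    exact absurd hΛ1 (not_lt.mpr this)
  have hHπ : ∀ g ∈ H, g π = π := fun g hg => by
    rw [hπ, map_mul, map_inv₀, map_pow, map_pow, map_sub, map_one, hHζ g hg, hHw g hg]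
  -- the break `t = p − m'`
  obtain ⟨t, ht⟩ : ∃ t : ℕ, t + m' = p := ⟨p - m', Nat.sub_add_cancel hm'p.le⟩
  have ht1 : 1 ≤ t := by omega
  have htp : t ≤ p - 1 := by omega
  obtain ⟨c₁, hc₁⟩ : ∃ c₁ : Ω, c₁ = δ * (w * π ^ t)⁻¹ := ⟨_, rfl⟩
  have hvc₁ : A.valuation c₁ = 1 := by
    rw [hc₁, map_mul, map_inv₀, map_mul, map_pow, hvδ, hvw, ← pow_add, add_comm, ht, hvπ,
      mul_inv_cancel₀ hΛ0]
  have hσw' : σ w = w * (1 + c₁ * π ^ t) := by
    rw [hσw, hc₁]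
    field_simp
  have hHc₁ : ∀ g ∈ H, g c₁ = c₁ := fun g hg => by
    rw [hc₁, map_mul, map_inv₀, map_mul, map_pow, hHδ g hg, hHw g hg, hHπ g hg]
  have hvz : A.valuation (c₁ * π ^ t) ≤ 1 := by
    rw [map_mul, hvc₁, one_mul, map_pow]
    exact pow_le_one₀ zero_le hvπ1.le
  obtain ⟨q, hq, hbin⟩ := S40F2B_binom A hvz a'
  have hσπ : σ π = π * (1 + c₁ * π ^ t) ^ a' := by
    have e : σ (w ^ a' * ((1 - ζ) ^ b')⁻¹) =
        (w ^ a' * ((1 - ζ) ^ b')⁻¹) * (1 + c₁ * π ^ t) ^ a' := by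
      rw [map_mul, map_inv₀, map_pow, map_pow, map_sub, map_one, hσζ, hσw', mul_pow]
      ring
    rw [← hπ] at e
    exact e
  obtain ⟨t', rfl⟩ : ∃ t' : ℕ, t = t' + 1 := ⟨t - 1, by omega⟩
  refine ⟨π, (a' : Ω) * c₁, π ^ t' * c₁ ^ 2 * q, t' + 1, ht1, htp, hHπ, ?_, ?_, hvπ.trans hΛ, ?_, ?_,
    ?_, ?_⟩
  · intro g hg
    rw [map_mul, map_natCast, hHc₁ g hg]
  · -- `r` is determined by `σ π`, `π`, `c`
    intro g hg
    have hr : π ^ t' * c₁ ^ 2 * q =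
        (σ π - π * (1 + (a' : Ω) * c₁ * π ^ (t' + 1))) * (π ^ (t' + 1 + 2))⁻¹ := by
      rw [hσπ, hbin]
      field_simp
      ring
    have hgσπ : g (σ π) = σ π := by
      have h1 := hconj g hg 1
      rw [pow_one] at h1
      have h2 := hHπ _ h1
      have h3 : (σ⁻¹ * g * σ) π = σ⁻¹ (g (σ π)) := rfl
      rw [h3] at h2
      have h4 := congrArg σ h2
      have h5 : σ (σ⁻¹ (g (σ π))) = g (σ π) := by
        change (σ * σ⁻¹) (g (σ π)) = _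
        rw [mul_inv_cancel]; rfl
      rw [h5] at h4
      exact h4
    rw [hr, map_mul, map_inv₀, map_sub, map_mul, map_add, map_one, map_mul, map_mul, map_pow,
      map_pow, map_natCast, hgσπ, hHπ g hg, hHc₁ g hg]
  · rw [map_mul, hvc₁, mul_one]
    exact S40F2B_val_natCast A hA hpa'
  · rw [map_mul, map_mul, map_pow, map_pow, hvc₁, one_pow, mul_one]
    exact mul_le_one' (pow_le_one₀ zero_le hvπ1.le) hq
  · rw [hσπ, hbin]
    ring
  · intro x hx0 hx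
    obtain ⟨k, hk⟩ := S40F2B_val_pow A σ H hA hprim hσ hdec hconj hσp hx0 hx
    refine ⟨k, ?_⟩
    have hvx0 : A.valuation x ≠ 0 := (Valuation.ne_zero_iff _).2 hx0
    -- compare `p`-th powers
    have h1 : A.valuation x ^ p = (A.valuation π ^ k) ^ p := by
      rw [hk, ← hΛ, ← hvπ, ← zpow_natCast (A.valuation π ^ k), ← zpow_mul, ← zpow_natCast,
        ← zpow_mul, mul_comm]
    exact S40F2B_pow_inj hp.out.ne_zero h1

end main

end Fermat.Agent.S40
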