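import Fermat.Agent.S40.LocInst
import Fermat.Agent.S40.F2CInst
import Fermat.Agent.S40.F2Break
import Fermat.Agent.S33.NewTau
import Fermat.Agent.S33.NewLatT

/-!
# TRACK 13 (S40 / S44, row 38), (F2') package CTX-INST (helper11).  Prefix `S40F2ABI_`.

The INSTANCE of Step 1–2 (`S40LI_main`, helper23; context `S40F2AB_Ctx`, helper1) on the concrete
objects: `𝔽 = ℚ̄(X₀(Mp))`, `V` the valuation of a Gauss valuation ring (`T : S18_Val` over `A`;
`T = S34M_T1` or `S34M_T2`), `K = 𝔽^H` (`(S36FI_act (M p) H).fixF`), `L` the `H`-fixed constants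
(`S40F2CI_C`), `σ = GR_gal (M p) σ₀` for `σ₀ ∈ I¹`, and the break constants `π, c, r, t` of
`S40F2B_main` (helper16).

* `S40F2ABI_val_le`, `_val_eq`, `_val_zpow`, `_val_le_pow`, `_val_lt_one`, `_val_one` : the
  valuation of `T.O` on constants is the valuation of `T.A`;
* `S40F2ABI_red_eq_zero_iff` : `red x = 0 ↔ V x < 1`;
* `S40F2ABI_root`   : the field `root`: an integral `x` with `V (x^p + b x − k) < 1`, `b, k ∈ A`,
  is congruent to a constant of `A` (the residue field of `A` is algebraically closed);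
* `S40F2ABI_iter`   : `(GR_gal σ)^[j] = GR_gal (σ^j)`;
* **`S40F2ABI_gen`** : Step 1–2 for any `T : S18_Val` over `A` whose ring is stable under the
  inertia group and discrete on the fixed fields;
* **`S40F2ABI_V1`**, **`S40F2ABI_V2`** : Step 1–2 at `V₁` and at `V₂`:
  `h, u ∈ 𝔽^H`, `V h = 1`, `V (u − c_z) ≤ V(π)^(pt+1)`, `u · ∏_{j<p} σ^j h = κ`, `c_z, κ ∈ ℚ̄^H`,
  `v(c_z) = 1`  ⇒  `∃ d ∈ ℚ̄^H`, `v(d) = 1`, `V (h − d) ≤ V(π)^(t+1)`.
-/

set_option autoImplicit false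
set_option linter.unusedSectionVars false
set_option linter.unusedVariables false
set_option linter.style.haveILetI false
set_option synthInstance.maxHeartbeats 400000
set_option maxHeartbeats 1000000

open HahnSeries ModularCurve IntermediateField

namespace Fermat.Agent.S40

open Fermat.Agent.S18 Fermat.Agent.S24 Fermat.Agent.S34 Fermat.Agent.S36 Fermat.Agent.GalRep
  Fermat.Agent.S33 Fermat.Agent.S19

local notation "Ω" => AlgebraicClosure ℚ
local notation "Γ" => (AlgebraicClosure ℚ ≃ₐ[ℚ] AlgebraicClosure ℚ)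

/-! ### the valuation of constants -/

section const

variable {L F k Fk : Type*} [Field L] [Field F] [Algebra L F] [Field k] [Field Fk] [Algebra k Fk]
  (T : S18_Val L F k Fk)

theorem S40F2ABI_val_le_one (a : L) :
    T.O.valuation (algebraMap L F a) ≤ 1 ↔ T.A.valuation a ≤ 1 := by
  rw [T.O.valuation_le_one_iff, T.A.valuation_le_one_iff, T.algebraMap_mem_iff]

theorem S40F2ABI_val_le {a b : L} (hb : b ≠ 0) :
    T.O.valuation (algebraMap L F a) ≤ T.O.valuation (algebraMap L F b) ↔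
      T.A.valuation a ≤ T.A.valuation b := by
  have hb' : algebraMap L F b ≠ 0 := (map_ne_zero _).mpr hb
  have hV : T.O.valuation (algebraMap L F b) ≠ 0 := (map_ne_zero _).mpr hb'
  have hv : T.A.valuation b ≠ 0 := (map_ne_zero _).mpr hb
  have h1 := S40F2ABI_val_le_one T (a / b)
  rw [map_div₀ (algebraMap L F), map_div₀ T.O.valuation, map_div₀ T.A.valuation,
    div_le_one₀ (zero_lt_iff.mpr hV), div_le_one₀ (zero_lt_iff.mpr hv)] at h1
  exact h1

theorem S40F2ABI_val_eq {a b : L} (ha : a ≠ 0) (hb : b ≠ 0)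
    (h : T.A.valuation a = T.A.valuation b) :
    T.O.valuation (algebraMap L F a) = T.O.valuation (algebraMap L F b) :=
  le_antisymm ((S40F2ABI_val_le T hb).2 h.le) ((S40F2ABI_val_le T ha).2 h.ge)

theorem S40F2ABI_val_zpow {a ϖ : L} (hϖ : ϖ ≠ 0) (m : ℤ)
    (h : T.A.valuation a = T.A.valuation ϖ ^ m) :
    T.O.valuation (algebraMap L F a) = T.O.valuation (algebraMap L F ϖ) ^ m := by
  have ha : a ≠ 0 := by
    intro h0
    rw [h0, map_zero] at h
    exact (zpow_ne_zero m ((map_ne_zero T.A.valuation).mpr hϖ)) h.symm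
  have h1 := S40F2ABI_val_eq T ha (zpow_ne_zero m hϖ) (by rw [map_zpow₀]; exact h)
  rwa [map_zpow₀ (algebraMap L F), map_zpow₀ T.O.valuation] at h1

theorem S40F2ABI_val_le_pow {a ϖ : L} (hϖ : ϖ ≠ 0) (n : ℕ)
    (h : T.A.valuation a ≤ T.A.valuation ϖ ^ n) :
    T.O.valuation (algebraMap L F a) ≤ T.O.valuation (algebraMap L F ϖ) ^ n := by
  have h1 := (S40F2ABI_val_le T (a := a) (pow_ne_zero n hϖ)).2 (by rw [map_pow]; exact h)
  rwa [map_pow (algebraMap L F), map_pow T.O.valuation] at h1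

theorem S40F2ABI_val_lt_one {a : L} (h : T.A.valuation a < 1) :
    T.O.valuation (algebraMap L F a) < 1 := by
  by_cases ha : a = 0
  · rw [ha, map_zero, map_zero]
    exact zero_lt_one
  · have h2 := S40F2ABI_val_le T (a := 1) ha
    rw [map_one, map_one, map_one] at h2
    exact lt_of_not_ge fun h3 => absurd (h2.1 h3) (not_le.mpr h)

theorem S40F2ABI_val_one {a : L} (h : T.A.valuation a = 1) :
    T.O.valuation (algebraMap L F a) = 1 := by
  have ha : a ≠ 0 := by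
    intro h0
    rw [h0, map_zero] at h
    exact zero_ne_one h
  have h1 := S40F2ABI_val_eq T ha one_ne_zero (by rw [h, map_one])
  rwa [map_one, map_one] at h1

/-- `red x = 0 ↔ V x < 1`. -/
theorem S40F2ABI_red_eq_zero_iff (x : T.O) : T.red x = 0 ↔ T.O.valuation (x : F) < 1 := by
  have h1 := T.red_ne_zero_iff x
  have h2 := T.O.valuation_eq_one_iff x
  constructor
  · intro h0
    rcases lt_or_eq_of_le (T.O.valuation_le_one x) with h | h
    · exact h
    · exact absurd h0 (h1.2 (h2.2 h))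
  · intro h
    by_contra hne
    have h3 := h2.1 (h1.1 hne)
    rw [h3] at h
    exact lt_irrefl _ h

/-- **the field `root`**: an integral `x` with `V (x^p + b x − k) < 1`, `b, k ∈ A`, is congruent
to a constant of `A`. -/
theorem S40F2ABI_root [IsAlgClosed k] {p : ℕ} (hp : 2 ≤ p) {b k₀ : L} (hb : b ∈ T.A)
    (hk₀ : k₀ ∈ T.A) {x : F} (hx : x ∈ T.O)
    (h : T.O.valuation (x ^ p + algebraMap L F b * x - algebraMap L F k₀) < 1) :
    ∃ a ∈ T.A, T.O.valuation (x - algebraMap L F a) < 1 := by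
  have hbO := (T.algebraMap_mem_iff b).2 hb
  have hkO := (T.algebraMap_mem_iff k₀).2 hk₀
  set P : Polynomial k := Polynomial.X ^ p + Polynomial.C (T.res ⟨b, hb⟩) * Polynomial.X
    - Polynomial.C (T.res ⟨k₀, hk₀⟩) with hP
  have hcp : P.coeff p = 1 := by
    have h1 : p ≠ 1 := by omega
    have h0 : p ≠ 0 := by omega
    simp [hP, Polynomial.coeff_X, Polynomial.coeff_C, h0, h1.symm]
  have hP0 : P ≠ 0 := by
    intro h0
    rw [h0, Polynomial.coeff_zero] at hcp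
    exact zero_ne_one hcp
  have hred : T.red ((⟨x, hx⟩ : T.O) ^ p + ⟨algebraMap L F b, hbO⟩ * ⟨x, hx⟩
      - ⟨algebraMap L F k₀, hkO⟩) = 0 := by
    rw [S40F2ABI_red_eq_zero_iff]
    exact h
  have hroot : (P.map (algebraMap k Fk)).IsRoot (T.red ⟨x, hx⟩) := by
    rw [Polynomial.IsRoot.def, hP]
    simp only [Polynomial.map_sub, Polynomial.map_add, Polynomial.map_mul, Polynomial.map_pow,
      Polynomial.map_C, Polynomial.map_X, Polynomial.eval_sub, Polynomial.eval_add,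
      Polynomial.eval_mul, Polynomial.eval_pow, Polynomial.eval_C, Polynomial.eval_X]
    rw [← T.red_algebraMap b hb hbO, ← T.red_algebraMap k₀ hk₀ hkO, ← map_pow, ← map_mul,
      ← map_add, ← map_sub]
    exact hred
  obtain ⟨y, hy⟩ := (IsAlgClosed.splits P).mem_range_of_isRoot hP0 hroot
  obtain ⟨a, ha⟩ := T.res_surjective y
  have haO := (T.algebraMap_mem_iff (a : L)).2 a.2
  refine ⟨a, a.2, ?_⟩
  have h0 : T.red ((⟨x, hx⟩ : T.O) - ⟨algebraMap L F a, haO⟩) = 0 := by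
    rw [map_sub, T.red_algebraMap (a : L) a.2 haO, Subtype.coe_eta, ha, hy, sub_self]
  exact (S40F2ABI_red_eq_zero_iff T _).1 h0

end const

/-! ### the Galois action -/

section gal

/-- `(GR_gal σ)^[j] = GR_gal (σ^j)`. -/
theorem S40F2ABI_iter (N : ℕ) (σ : Γ) (j : ℕ) (f : ↥(modularFunctionFieldBar N)) :
    (⇑((GR_gal N σ : ↥(modularFunctionFieldBar N) ≃+* ↥(modularFunctionFieldBar N)) :
      ↥(modularFunctionFieldBar N) →+* ↥(modularFunctionFieldBar N)))^[j] f =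
      GR_gal N (σ ^ j) f := by
  induction j generalizing f with
  | zero =>
    rw [pow_zero, S33NT_gal_one]
    rfl
  | succ j ih =>
    rw [Function.iterate_succ_apply, ih, pow_succ, S33NT_gal_mul]
    rfl

end gal

/-! ### Step 1–2 on the concrete objects -/

section main

variable (M p : ℕ) [NeZero (M * p)] (hp : p.Prime) (A : ValuationSubring Ω)
  (hA : A.LiesOverPrime p) (H : Subgroup Γ)

include hp hA in
/-- **Step 1–2 for a Gauss valuation `T` over `A`** whose ring is stable under the inertia group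
and which is discrete on the fixed fields. -/
theorem S40F2ABI_gen {k Fk : Type*} [Field k] [Field Fk] [Algebra k Fk] [IsAlgClosed k]
    (T : S18_Val Ω ↥(modularFunctionFieldBar (M * p)) k Fk) (hT : T.A = A)
    (hgalO : ∀ τ ∈ A.inertiaSubgroupIn ℚ, ∀ x ∈ T.O, GR_gal (M * p) τ x ∈ T.O)
    (hdv : ∀ (H' : Subgroup Γ) (ϖ' : Ω), S33NL2_Unif A H' ϖ' →
      ∀ x ∈ (S36FI_act (M * p) H').fixF, x ≠ 0 → ∃ k : ℤ,
        T.O.valuation (x * algebraMap Ω ↥(modularFunctionFieldBar (M * p)) ϖ' ^ k) = 1)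
    {ζ : Ω} (hprim : IsPrimitiveRoot ζ p)
    (σ : Γ) (hσ : σ ∈ S40D_I1 A p) (hHI : ∀ g ∈ H, g ∈ S40D_I1 A p)
    (hdec : ∀ g ∈ S40D_I1 A p, ∃ k : ℕ, (σ ^ k)⁻¹ * g ∈ H)
    (hnorm : ∀ g ∈ H, σ⁻¹ * g * σ ∈ H) (hσp : σ ^ p ∈ H)
    {π c r : Ω} {t : ℕ} (ht1 : 1 ≤ t) (htp : t ≤ p - 1)
    (hπH : ∀ g ∈ H, g π = π) (hcH : ∀ g ∈ H, g c = c) (hrH : ∀ g ∈ H, g r = r)
    (hvπ : A.valuation π ^ p = A.valuation (1 - ζ)) (hvc : A.valuation c = 1)
    (hvr : A.valuation r ≤ 1)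
    (hunif : σ π = π * (1 + c * π ^ t) + π ^ (t + 2) * r)
    (hdisc : ∀ x : Ω, x ≠ 0 → (∀ g ∈ H, g x = x) → ∃ k : ℤ, A.valuation x = A.valuation π ^ k)
    {h u : ↥(modularFunctionFieldBar (M * p))} {cz κ : Ω}
    (hhK : ∀ g ∈ H, GR_gal (M * p) g h = h) (hVh : T.O.valuation h = 1)
    (huK : ∀ g ∈ H, GR_gal (M * p) g u = u)
    (hczH : ∀ g ∈ H, g cz = cz) (hvcz : A.valuation cz = 1) (hκH : ∀ g ∈ H, g κ = κ)
    (hu : T.O.valuation (u - algebraMap Ω ↥(modularFunctionFieldBar (M * p)) cz) ≤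
      T.O.valuation (algebraMap Ω ↥(modularFunctionFieldBar (M * p)) π) ^ (p * t + 1))
    (hrel : u * ∏ j ∈ Finset.range p, GR_gal (M * p) (σ ^ j) h =
      algebraMap Ω ↥(modularFunctionFieldBar (M * p)) κ) :
    ∃ d : Ω, (∀ g ∈ H, g d = d) ∧ A.valuation d = 1 ∧
      T.O.valuation (h - algebraMap Ω ↥(modularFunctionFieldBar (M * p)) d) ≤
        T.O.valuation (algebraMap Ω ↥(modularFunctionFieldBar (M * p)) π) ^ (t + 1) := by
  classical
  subst hT
  haveI : Fact p.Prime := ⟨hp⟩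
  haveI : Algebra.IsAlgebraic ℚ Ω := AlgebraicClosure.isAlgebraic ℚ
  -- notation
  obtain ⟨cst, hcst⟩ : ∃ cst : Ω →+* ↥(modularFunctionFieldBar (M * p)),
      cst = algebraMap Ω ↥(modularFunctionFieldBar (M * p)) := ⟨_, rfl⟩
  obtain ⟨s, hs⟩ : ∃ s : ↥(modularFunctionFieldBar (M * p)) →+* ↥(modularFunctionFieldBar (M * p)),
      s = ((GR_gal (M * p) σ : ↥(modularFunctionFieldBar (M * p)) ≃+*
        ↥(modularFunctionFieldBar (M * p))) : ↥(modularFunctionFieldBar (M * p)) →+*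
        ↥(modularFunctionFieldBar (M * p))) := ⟨_, rfl⟩
  have hs_apply : ∀ x, s x = GR_gal (M * p) σ x := fun x => by rw [hs]; rfl
  have hs_cst : ∀ a : Ω, s (algebraMap Ω ↥(modularFunctionFieldBar (M * p)) a) =
      algebraMap Ω ↥(modularFunctionFieldBar (M * p)) (σ a) := fun a => by
    rw [hs_apply]
    exact arithmeticRingAut_algebraMap (modularFunctionFieldFull (M * p)) σ a
  have hs_iter : ∀ (j : ℕ) x, (⇑s)^[j] x = GR_gal (M * p) (σ ^ j) x := fun j x => by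
    rw [hs]
    exact S40F2ABI_iter (M * p) σ j x
  -- the constants
  have hσI : σ ∈ T.A.inertiaSubgroupIn ℚ := (S40D_mem_I1.1 hσ).1
  have hζ1 : (1 - ζ : Ω) ≠ 0 := S33BZ_one_sub_ne_zero hprim
  have hΛ1 : T.A.valuation (1 - ζ) < 1 := S33BZ_val_one_sub_lt T.A hA hprim
  have hπ0 : π ≠ 0 := by
    intro h0
    rw [h0, map_zero, zero_pow hp.ne_zero] at hvπ
    exact ((map_ne_zero T.A.valuation).mpr hζ1) hvπ.symm
  have hvπ0 : T.A.valuation π ≠ 0 := (map_ne_zero _).mpr hπ0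
  have hvπ1 : T.A.valuation π < 1 := by
    by_contra hcon
    push Not at hcon
    have h1 : (1 : _) ≤ T.A.valuation π ^ p := one_le_pow₀ hcon
    rw [hvπ] at h1
    exact absurd hΛ1 (not_lt.mpr h1)
  have hπK : π ∈ (S36FI_act (M * p) H).fixK := (S36FI_mem_fixK (M * p) H).2 hπH
  have hUπ : S33NL2_Unif T.A H π := S33ND_unif_of_val T.A H (M * p) hπK hπ0 hvπ1
    (fun c hc hc0 => hdisc c hc0 ((S36FI_mem_fixK (M * p) H).1 hc))
  have hUζ : S33NL2_Unif T.A (S40D_I1 T.A p) (1 - ζ) :=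
    { fixed := fun g hg => by
        rw [map_sub, map_one, (S40D_mem_I1.1 hg).2 ζ hprim.pow_eq_one]
      lt_one := hΛ1
      ne_zero := hζ1
      dv := fun x hx hx0 => by
        obtain ⟨m, hm⟩ := S33BZ_val_eq T.A hA hprim hx0
          (fun τ hτ hτζ => hx τ (S40F2B_mem_I1 T.A hprim hτ hτζ))
        exact ⟨-m, by
          rw [map_mul, map_zpow₀, hm, ← zpow_add₀ ((map_ne_zero T.A.valuation).mpr hζ1),
            add_neg_cancel, zpow_zero]⟩ }
  have hcπ0 : algebraMap Ω ↥(modularFunctionFieldBar (M * p)) π ≠ 0 := (map_ne_zero _).mpr hπ0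
  have hVπ0 : T.O.valuation (algebraMap Ω ↥(modularFunctionFieldBar (M * p)) π) ≠ 0 :=
    (map_ne_zero _).mpr hcπ0
  have hVπ1 : T.O.valuation (algebraMap Ω ↥(modularFunctionFieldBar (M * p)) π) < 1 :=
    S40F2ABI_val_lt_one T hvπ1
  -- discreteness on `K`
  have hKdisc : ∀ x ∈ (S36FI_act (M * p) H).fixF, x ≠ 0 → ∃ m : ℤ,
      T.O.valuation x = T.O.valuation (algebraMap Ω ↥(modularFunctionFieldBar (M * p)) π) ^ m := by
    intro x hx hx0
    obtain ⟨k, hk⟩ := hdv H π hUπ x hx hx0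
    refine ⟨-k, ?_⟩
    rw [map_mul, map_zpow₀] at hk
    rw [zpow_neg]
    exact eq_inv_of_mul_eq_one_left hk
  -- `σ` preserves the units of `T.O`
  have hσunit : ∀ y : ↥(modularFunctionFieldBar (M * p)), T.O.valuation y = 1 →
      T.O.valuation (GR_gal (M * p) σ y) = 1 := by
    intro y hy
    have hy0 : y ≠ 0 := by
      intro h0
      rw [h0, map_zero] at hy
      exact zero_ne_one hy
    have h1 : y ∈ T.O := (T.O.valuation_le_one_iff y).mp hy.le
    have h2 : y⁻¹ ∈ T.O := (T.O.valuation_le_one_iff _).mp (by rw [map_inv₀, hy, inv_one])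
    have h3 := hgalO σ hσI y h1
    have h4 := hgalO σ hσI y⁻¹ h2
    rw [map_inv₀] at h4
    exact S40F2CI_val_one T.O ((map_ne_zero _).mpr hy0) h3 h4
  have hVσπ : T.O.valuation (algebraMap Ω ↥(modularFunctionFieldBar (M * p)) (σ π)) =
      T.O.valuation (algebraMap Ω ↥(modularFunctionFieldBar (M * p)) π) :=
    S40F2ABI_val_eq T ((map_ne_zero _).mpr hπ0) hπ0 (S40F2B_inertia_val T.A hσI π)
  -- the hypotheses of `S40LI_main`
  have hσK : ∀ x ∈ (S36FI_act (M * p) H).fixF, s x ∈ (S36FI_act (M * p) H).fixF := by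
    intro x hx
    rw [hs_apply]
    exact S33NT_gal_fix M p H σ hnorm x hx
  have hσV : ∀ x ∈ (S36FI_act (M * p) H).fixF, T.O.valuation (s x) = T.O.valuation x := by
    intro x hx
    rw [hs_apply]
    by_cases hx0 : x = 0
    · rw [hx0, map_zero]
    obtain ⟨k, hk⟩ := hdv H π hUπ x hx hx0
    have h1 := hσunit _ hk
    rw [map_mul, map_zpow₀, arithmeticRingAut_algebraMap, map_mul, map_zpow₀, hVσπ] at h1
    rw [map_mul, map_zpow₀] at hk
    have h0 : T.O.valuation (algebraMap Ω ↥(modularFunctionFieldBar (M * p)) π) ^ k ≠ 0 :=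
      zpow_ne_zero k hVπ0
    exact mul_right_cancel₀ h0 (h1.trans hk.symm)
  have hσL : ∀ x ∈ S40F2CI_C M p H, s x ∈ S40F2CI_C M p H := by
    rintro x ⟨a, ha, rfl⟩
    show s (algebraMap Ω ↥(modularFunctionFieldBar (M * p)) a) ∈ _
    rw [hs_cst]
    exact S40F2CI_mem_C M p H (S33NT_fixK_of M p H σ hnorm ha)
  have hπL : algebraMap Ω ↥(modularFunctionFieldBar (M * p)) π ∈ S40F2CI_C M p H :=
    S40F2CI_mem_C M p H hπK
  have hcL : algebraMap Ω ↥(modularFunctionFieldBar (M * p)) c ∈ S40F2CI_C M p H :=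
    S40F2CI_mem_C M p H ((S36FI_mem_fixK (M * p) H).2 hcH)
  have hrK : algebraMap Ω ↥(modularFunctionFieldBar (M * p)) r ∈ (S36FI_act (M * p) H).fixF :=
    S40F2CI_C_le M p H (S40F2CI_mem_C M p H ((S36FI_mem_fixK (M * p) H).2 hrH))
  have hVc : T.O.valuation (algebraMap Ω ↥(modularFunctionFieldBar (M * p)) c) ≤ 1 :=
    (S40F2ABI_val_le_one T c).2 hvc.le
  have hVr : T.O.valuation (algebraMap Ω ↥(modularFunctionFieldBar (M * p)) r) ≤ 1 :=
    (S40F2ABI_val_le_one T r).2 hvr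
  have hσp' : ∀ x ∈ (S36FI_act (M * p) H).fixF, (⇑s)^[p] x = x := by
    intro x hx
    rw [hs_iter]
    exact (S36FI_mem_fixF (M * p) H).1 hx (σ ^ p) hσp
  have hσπne : σ π ≠ π := by
    intro heq
    rw [heq] at hunif
    have h1 : π ^ (t + 1) * (c + π * r) = 0 := by
      have e : π ^ (t + 1) * (c + π * r) = (π * (1 + c * π ^ t) + π ^ (t + 2) * r) - π := by ring
      rw [e, ← hunif, sub_self]
    rcases mul_eq_zero.mp h1 with h2 | h2
    · exact pow_ne_zero _ hπ0 h2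
    · have h3 : c = -(π * r) := by
        rw [eq_neg_iff_add_eq_zero]
        exact h2
      have h4 : T.A.valuation c < 1 := by
        rw [h3, Valuation.map_neg, map_mul]
        calc T.A.valuation π * T.A.valuation r ≤ T.A.valuation π * 1 := mul_le_mul_right hvr _
          _ = T.A.valuation π := mul_one _
          _ < 1 := hvπ1
      rw [hvc] at h4
      exact lt_irrefl _ h4
  have hσπ' : s (algebraMap Ω ↥(modularFunctionFieldBar (M * p)) π) ≠
      algebraMap Ω ↥(modularFunctionFieldBar (M * p)) π := by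
    rw [hs_cst]
    intro heq
    exact hσπne ((algebraMap Ω ↥(modularFunctionFieldBar (M * p))).injective heq)
  have hpt : ¬ p ∣ t := by
    intro hd
    have h1 := Nat.le_of_dvd (by omega) hd
    have h2 := hp.two_le
    omega
  have hunif' : s (algebraMap Ω ↥(modularFunctionFieldBar (M * p)) π) =
      algebraMap Ω ↥(modularFunctionFieldBar (M * p)) π *
        (1 + algebraMap Ω ↥(modularFunctionFieldBar (M * p)) c *
          algebraMap Ω ↥(modularFunctionFieldBar (M * p)) π ^ t) +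
      algebraMap Ω ↥(modularFunctionFieldBar (M * p)) π ^ (t + 2) *
        algebraMap Ω ↥(modularFunctionFieldBar (M * p)) r := by
    rw [hs_cst, hunif]
    simp only [map_add, map_mul, map_pow, map_one]
  -- the `σ`-fixed elements of `K` are fixed by `I¹`
  have hfixI : ∀ w ∈ (S36FI_act (M * p) H).fixF, s w = w →
      w ∈ (S36FI_act (M * p) (S40D_I1 T.A p)).fixF := by
    intro w hw hsw
    rw [S36FI_mem_fixF]
    intro g hg
    obtain ⟨k, hk⟩ := hdec g hg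
    have e : g = σ ^ k * ((σ ^ k)⁻¹ * g) := by group
    have h1 : GR_gal (M * p) ((σ ^ k)⁻¹ * g) w = w := (S36FI_mem_fixF (M * p) H).1 hw _ hk
    have h2 : GR_gal (M * p) (σ ^ k) w = w := by
      rw [← hs_iter]
      exact Function.iterate_fixed hsw k
    have h3 : GR_gal (M * p) g w = GR_gal (M * p) (σ ^ k) (GR_gal (M * p) ((σ ^ k)⁻¹ * g) w) := by
      rw [← S33NT_gal_mul, ← e]
    rw [show arithmeticRingAut (modularFunctionFieldFull (M * p)) g w = GR_gal (M * p) g w from rfl,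
      h3, h1, h2]
  have hVζ : T.O.valuation (algebraMap Ω ↥(modularFunctionFieldBar (M * p)) (1 - ζ)) =
      T.O.valuation (algebraMap Ω ↥(modularFunctionFieldBar (M * p)) π) ^ (p : ℤ) :=
    S40F2ABI_val_zpow T hπ0 (p : ℤ) (by rw [zpow_natCast]; exact hvπ.symm)
  have hval : ∀ w ∈ (S36FI_act (M * p) H).fixF, s w = w → w ≠ 0 → ∃ m : ℤ,
      T.O.valuation w =
        T.O.valuation (algebraMap Ω ↥(modularFunctionFieldBar (M * p)) π) ^ ((p : ℤ) * m) := by
    intro w hw hsw hw0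
    obtain ⟨k, hk⟩ := hdv (S40D_I1 T.A p) (1 - ζ) hUζ w (hfixI w hw hsw) hw0
    refine ⟨-k, ?_⟩
    rw [map_mul, map_zpow₀, hVζ, ← zpow_mul] at hk
    rw [mul_neg, zpow_neg]
    exact eq_inv_of_mul_eq_one_left hk
  have hdisc' : ∀ w ∈ S40F2CI_C M p H, w ≠ 0 → ∃ m : ℤ,
      T.O.valuation w =
        T.O.valuation (algebraMap Ω ↥(modularFunctionFieldBar (M * p)) π) ^ m := by
    rintro w ⟨a, ha, rfl⟩ hw0
    have ha0 : a ≠ 0 := by
      intro h0
      apply hw0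
      show algebraMap Ω ↥(modularFunctionFieldBar (M * p)) a = 0
      rw [h0, map_zero]
    obtain ⟨m, hm⟩ := hdisc a ha0 ((S36FI_mem_fixK (M * p) H).1 ha)
    exact ⟨m, S40F2ABI_val_zpow T hπ0 m hm⟩
  have hroot : ∀ b ∈ S40F2CI_C M p H, T.O.valuation b ≤ 1 → ∀ k₀ ∈ S40F2CI_C M p H,
      T.O.valuation k₀ ≤ 1 → ∀ x ∈ (S36FI_act (M * p) H).fixF, T.O.valuation x ≤ 1 →
      T.O.valuation (x ^ p + b * x - k₀) ≤
        T.O.valuation (algebraMap Ω ↥(modularFunctionFieldBar (M * p)) π) →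
      ∃ γ ∈ S40F2CI_C M p H, γ ∈ (S36FI_act (M * p) H).fixF ∧ T.O.valuation γ ≤ 1 ∧
        T.O.valuation (x - γ) ≤
          T.O.valuation (algebraMap Ω ↥(modularFunctionFieldBar (M * p)) π) := by
    rintro b ⟨b₀, hb₀, rfl⟩ hVb k₀ ⟨k₁, hk₁, rfl⟩ hVk x hx hVx hle
    have hVb' : T.O.valuation (algebraMap Ω ↥(modularFunctionFieldBar (M * p)) b₀) ≤ 1 := hVb
    have hVk' : T.O.valuation (algebraMap Ω ↥(modularFunctionFieldBar (M * p)) k₁) ≤ 1 := hVk
    have hb₀A : b₀ ∈ T.A :=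
      (T.A.valuation_le_one_iff b₀).mp ((S40F2ABI_val_le_one T b₀).1 hVb')
    have hk₁A : k₁ ∈ T.A :=
      (T.A.valuation_le_one_iff k₁).mp ((S40F2ABI_val_le_one T k₁).1 hVk')
    have hxO : x ∈ T.O := (T.O.valuation_le_one_iff x).mp hVx
    have hlt : T.O.valuation (x ^ p + algebraMap Ω ↥(modularFunctionFieldBar (M * p)) b₀ * x
        - algebraMap Ω ↥(modularFunctionFieldBar (M * p)) k₁) < 1 := lt_of_le_of_lt hle hVπ1
    obtain ⟨a₁, ha₁, hxa₁⟩ := S40F2ABI_root T hp.two_le hb₀A hk₁A hxO hlt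
    obtain ⟨a, ha, hafix⟩ := S19TE_exists_lift T.A hp hA (IsLocalRing.residue T.A ⟨a₁, ha₁⟩)
    have haa₁ : T.A.valuation (a₁ - (a : Ω)) < 1 := by
      have h1 : IsLocalRing.residue T.A (⟨a₁, ha₁⟩ - a) = 0 := by rw [map_sub, ha, sub_self]
      rw [IsLocalRing.residue_eq_zero_iff] at h1
      have h2 := ValuationSubring.coe_mem_nonunits_iff.mpr h1
      exact (T.A.mem_nonunits_iff).mp h2
    have haH : (a : Ω) ∈ (S36FI_act (M * p) H).fixK :=
      (S36FI_mem_fixK (M * p) H).2 (fun g hg => hafix g (S40D_mem_I1.1 (hHI g hg)).1)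
    have hγL := S40F2CI_mem_C M p H haH
    have hVγ : T.O.valuation (algebraMap Ω ↥(modularFunctionFieldBar (M * p)) (a : Ω)) ≤ 1 :=
      (S40F2ABI_val_le_one T (a : Ω)).2 ((T.A.valuation_le_one_iff _).mpr a.2)
    have hxγ : T.O.valuation (x - algebraMap Ω ↥(modularFunctionFieldBar (M * p)) (a : Ω)) < 1 := by
      have e : x - algebraMap Ω ↥(modularFunctionFieldBar (M * p)) (a : Ω) =
          (x - algebraMap Ω ↥(modularFunctionFieldBar (M * p)) a₁) +
            algebraMap Ω ↥(modularFunctionFieldBar (M * p)) (a₁ - (a : Ω)) := by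
        rw [map_sub]
        ring
      rw [e]
      exact lt_of_le_of_lt (Valuation.map_add _ _ _)
        (max_lt hxa₁ (S40F2ABI_val_lt_one T haa₁))
    refine ⟨_, hγL, S40F2CI_C_le M p H hγL, hVγ, ?_⟩
    by_cases hz : x - algebraMap Ω ↥(modularFunctionFieldBar (M * p)) (a : Ω) = 0
    · rw [hz, map_zero]
      exact zero_le
    obtain ⟨m, hm⟩ := hKdisc _ (sub_mem hx (S40F2CI_C_le M p H hγL)) hz
    rw [hm] at hxγ ⊢
    have hm0 : 0 < m := (S33BZ_zpow_lt_one_iff hVπ0 hVπ1).1 hxγ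
    have h1 : (1 : ℤ) ≤ m := hm0
    have h2 := zpow_le_zpow_right_of_le_one₀ (zero_lt_iff.mpr hVπ0) hVπ1.le h1
    rwa [zpow_one] at h2
  have hVk : ∀ k : ℕ, 0 < k → k < p →
      T.O.valuation ((k : ℕ) : ↥(modularFunctionFieldBar (M * p))) = 1 := by
    intro k hk0 hkp
    have hpk : ¬ p ∣ k := fun hd => absurd (Nat.le_of_dvd hk0 hd) (not_le.mpr hkp)
    have h1 := S40F2ABI_val_one T (S40F2B_val_natCast T.A hA hpk)
    rwa [map_natCast] at h1
  have hVp : T.O.valuation ((p : ℕ) : ↥(modularFunctionFieldBar (M * p))) ≤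
      T.O.valuation (algebraMap Ω ↥(modularFunctionFieldBar (M * p)) π) ^ ((p - 1) * t + 1) := by
    have h1 : T.A.valuation ((p : ℕ) : Ω) = T.A.valuation π ^ (p * (p - 1)) := by
      rw [← S36BL_val_one_sub_zeta T.A hprim, ← hvπ, ← pow_mul]
    have h2 : (p - 1) * t + 1 ≤ p * (p - 1) := by
      obtain ⟨q, hq⟩ : ∃ q, p = q + 1 := ⟨p - 1, by have := hp.two_le; omega⟩
      have hq1 : 1 ≤ q := by have := hp.two_le; omega
      have htq : t ≤ q := by omega
      have e1 : p - 1 = q := by omega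
      rw [e1, hq]
      nlinarith [Nat.mul_le_mul_left q htq]
    have h3 : T.A.valuation ((p : ℕ) : Ω) ≤ T.A.valuation π ^ ((p - 1) * t + 1) := by
      rw [h1]
      exact pow_le_pow_of_le_one zero_le hvπ1.le h2
    have h4 := S40F2ABI_val_le_pow T hπ0 _ h3
    rwa [map_natCast] at h4
  have hhK' : h ∈ (S36FI_act (M * p) H).fixF := (S36FI_mem_fixF (M * p) H).2 hhK
  have huK' : u ∈ (S36FI_act (M * p) H).fixF := (S36FI_mem_fixF (M * p) H).2 huK
  have hczL : algebraMap Ω ↥(modularFunctionFieldBar (M * p)) cz ∈ S40F2CI_C M p H :=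
    S40F2CI_mem_C M p H ((S36FI_mem_fixK (M * p) H).2 hczH)
  have hκL : algebraMap Ω ↥(modularFunctionFieldBar (M * p)) κ ∈ S40F2CI_C M p H :=
    S40F2CI_mem_C M p H ((S36FI_mem_fixK (M * p) H).2 hκH)
  have hVcz : T.O.valuation (algebraMap Ω ↥(modularFunctionFieldBar (M * p)) cz) = 1 :=
    S40F2ABI_val_one T hvcz
  have hrel' : u * ∏ j ∈ Finset.range p, (⇑s)^[j] h =
      algebraMap Ω ↥(modularFunctionFieldBar (M * p)) κ := by
    rw [← hrel]
    congr 1
    exact Finset.prod_congr rfl (fun j _ => hs_iter j h)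
  obtain ⟨d, ⟨d₀, hd₀, rfl⟩, hVd, hhd⟩ := S40LI_main T.O.valuation (S36FI_act (M * p) H).fixF s hp
    hσK hσV (S40F2CI_C M p H) (S40F2CI_C_le M p H) hσL hπL hcL hrK hcπ0 hVπ1 hVc hVr hσp' hσπ'
    hpt hunif' hval hdisc' hroot hVk hVp hhK' hVh huK' hczL hVcz hκL hu hrel'
  exact ⟨d₀, (S36FI_mem_fixK (M * p) H).1 hd₀, (S40F2CI_unit_const M p T.A T rfl d₀ hVd).2, hhd⟩

end main

/-! ### the two Gauss valuations `V₁`, `V₂` -/

section inst

variable (M p : ℕ) [NeZero (M * p)] (hp : p.Prime) (hpM : ¬ p ∣ M)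
  (A : ValuationSubring Ω) (hA : A.LiesOverPrime p)
  (hgen : PrincipalGeneratedByIntegral A (IsLocalRing.residue A) (M * p))
  (H : Subgroup Γ)

/-- the ring of `V₁` is stable under the inertia group. -/
theorem S40F2ABI_galO1 (τ : Γ) (hτ : τ ∈ A.inertiaSubgroupIn ℚ)
    (x : ↥(modularFunctionFieldBar (M * p))) (hx : x ∈ (S34M_T1 M p A hgen).O) :
    GR_gal (M * p) τ x ∈ (S34M_T1 M p A hgen).O := by
  rw [S34M_T1_O] at hx ⊢
  obtain ⟨h1, -⟩ := S34R_inertia_O (M * p) A τ hτ x hx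
  exact h1

/-- the ring of `V₂` is stable under the inertia group. -/
theorem S40F2ABI_galO2 (τ : Γ) (hτ : τ ∈ A.inertiaSubgroupIn ℚ)
    (x : ↥(modularFunctionFieldBar (M * p))) (hx : x ∈ (S34M_T2 M p hp hpM A hgen).O) :
    GR_gal (M * p) τ x ∈ (S34M_T2 M p hp hpM A hgen).O := by
  haveI : NeZero p := ⟨hp.ne_zero⟩
  haveI : NeZero M := ⟨fun h0 => NeZero.ne (M * p) (by rw [h0, zero_mul])⟩
  rw [S34M_T2_O] at hx ⊢
  have hx' : S34DF_wq M p hp hpM x ∈ S18_O A (M * p) := hx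
  show S34DF_wq M p hp hpM (GR_gal (M * p) τ x) ∈ S18_O A (M * p)
  have hw : S34DF_wq M p hp hpM (GR_gal (M * p) τ x) =
      GR_gal (M * p) τ (S34DF_wq M p hp hpM x) := S34WJ_wq_gal hp hpM τ x
  rw [hw]
  obtain ⟨h1, -⟩ := S34R_inertia_O (M * p) A τ hτ (S34DF_wq M p hp hpM x) hx'
  exact h1

include hp hpM hA in
/-- **Step 1–2 at `V₁`** on the real objects. -/
theorem S40F2ABI_V1 {ζ : Ω} (hprim : IsPrimitiveRoot ζ p)
    (σ : Γ) (hσ : σ ∈ S40D_I1 A p) (hHI : ∀ g ∈ H, g ∈ S40D_I1 A p)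
    (hdec : ∀ g ∈ S40D_I1 A p, ∃ k : ℕ, (σ ^ k)⁻¹ * g ∈ H)
    (hnorm : ∀ g ∈ H, σ⁻¹ * g * σ ∈ H) (hσp : σ ^ p ∈ H)
    {π c r : Ω} {t : ℕ} (ht1 : 1 ≤ t) (htp : t ≤ p - 1)
    (hπH : ∀ g ∈ H, g π = π) (hcH : ∀ g ∈ H, g c = c) (hrH : ∀ g ∈ H, g r = r)
    (hvπ : A.valuation π ^ p = A.valuation (1 - ζ)) (hvc : A.valuation c = 1)
    (hvr : A.valuation r ≤ 1)
    (hunif : σ π = π * (1 + c * π ^ t) + π ^ (t + 2) * r)
    (hdisc : ∀ x : Ω, x ≠ 0 → (∀ g ∈ H, g x = x) → ∃ k : ℤ, A.valuation x = A.valuation π ^ k)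
    {h u : ↥(modularFunctionFieldBar (M * p))} {cz κ : Ω}
    (hhK : ∀ g ∈ H, GR_gal (M * p) g h = h) (hVh : (S34M_T1 M p A hgen).O.valuation h = 1)
    (huK : ∀ g ∈ H, GR_gal (M * p) g u = u)
    (hczH : ∀ g ∈ H, g cz = cz) (hvcz : A.valuation cz = 1) (hκH : ∀ g ∈ H, g κ = κ)
    (hu : (S34M_T1 M p A hgen).O.valuation
        (u - algebraMap Ω ↥(modularFunctionFieldBar (M * p)) cz) ≤
      (S34M_T1 M p A hgen).O.valuation
        (algebraMap Ω ↥(modularFunctionFieldBar (M * p)) π) ^ (p * t + 1))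
    (hrel : u * ∏ j ∈ Finset.range p, GR_gal (M * p) (σ ^ j) h =
      algebraMap Ω ↥(modularFunctionFieldBar (M * p)) κ) :
    ∃ d : Ω, (∀ g ∈ H, g d = d) ∧ A.valuation d = 1 ∧
      (S34M_T1 M p A hgen).O.valuation
          (h - algebraMap Ω ↥(modularFunctionFieldBar (M * p)) d) ≤
        (S34M_T1 M p A hgen).O.valuation
          (algebraMap Ω ↥(modularFunctionFieldBar (M * p)) π) ^ (t + 1) := by
  haveI : IsAlgClosed (IsLocalRing.ResidueField A) := S18_residue_isAlgClosed A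
  exact S40F2ABI_gen M p hp A hA H (S34M_T1 M p A hgen) rfl
    (S40F2ABI_galO1 M p A hgen)
    (fun H' ϖ' hU => S40F2CI_dv1 M p hp hpM A hA hgen H' hU)
    hprim σ hσ hHI hdec hnorm hσp ht1 htp hπH hcH hrH hvπ hvc hvr hunif hdisc hhK hVh huK hczH
    hvcz hκH hu hrel

include hA in
/-- **Step 1–2 at `V₂`** on the real objects. -/
theorem S40F2ABI_V2 {ζ : Ω} (hprim : IsPrimitiveRoot ζ p)
    (σ : Γ) (hσ : σ ∈ S40D_I1 A p) (hHI : ∀ g ∈ H, g ∈ S40D_I1 A p)
    (hdec : ∀ g ∈ S40D_I1 A p, ∃ k : ℕ, (σ ^ k)⁻¹ * g ∈ H)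
    (hnorm : ∀ g ∈ H, σ⁻¹ * g * σ ∈ H) (hσp : σ ^ p ∈ H)
    {π c r : Ω} {t : ℕ} (ht1 : 1 ≤ t) (htp : t ≤ p - 1)
    (hπH : ∀ g ∈ H, g π = π) (hcH : ∀ g ∈ H, g c = c) (hrH : ∀ g ∈ H, g r = r)
    (hvπ : A.valuation π ^ p = A.valuation (1 - ζ)) (hvc : A.valuation c = 1)
    (hvr : A.valuation r ≤ 1)
    (hunif : σ π = π * (1 + c * π ^ t) + π ^ (t + 2) * r)
    (hdisc : ∀ x : Ω, x ≠ 0 → (∀ g ∈ H, g x = x) → ∃ k : ℤ, A.valuation x = A.valuation π ^ k)
    {h u : ↥(modularFunctionFieldBar (M * p))} {cz κ : Ω}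
    (hhK : ∀ g ∈ H, GR_gal (M * p) g h = h)
    (hVh : (S34M_T2 M p hp hpM A hgen).O.valuation h = 1)
    (huK : ∀ g ∈ H, GR_gal (M * p) g u = u)
    (hczH : ∀ g ∈ H, g cz = cz) (hvcz : A.valuation cz = 1) (hκH : ∀ g ∈ H, g κ = κ)
    (hu : (S34M_T2 M p hp hpM A hgen).O.valuation
        (u - algebraMap Ω ↥(modularFunctionFieldBar (M * p)) cz) ≤
      (S34M_T2 M p hp hpM A hgen).O.valuation
        (algebraMap Ω ↥(modularFunctionFieldBar (M * p)) π) ^ (p * t + 1))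
    (hrel : u * ∏ j ∈ Finset.range p, GR_gal (M * p) (σ ^ j) h =
      algebraMap Ω ↥(modularFunctionFieldBar (M * p)) κ) :
    ∃ d : Ω, (∀ g ∈ H, g d = d) ∧ A.valuation d = 1 ∧
      (S34M_T2 M p hp hpM A hgen).O.valuation
          (h - algebraMap Ω ↥(modularFunctionFieldBar (M * p)) d) ≤
        (S34M_T2 M p hp hpM A hgen).O.valuation
          (algebraMap Ω ↥(modularFunctionFieldBar (M * p)) π) ^ (t + 1) := by
  haveI : IsAlgClosed (IsLocalRing.ResidueField A) := S18_residue_isAlgClosed A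
  exact S40F2ABI_gen M p hp A hA H (S34M_T2 M p hp hpM A hgen) rfl
    (S40F2ABI_galO2 M p hp hpM A hgen)
    (fun H' ϖ' hU => S40F2CI_dv2 M p hp hpM A hA hgen H' hU)
    hprim σ hσ hHI hdec hnorm hσp ht1 htp hπH hcH hrH hvπ hvc hvr hunif hdisc hhK hVh huK hczH
    hvcz hκH hu hrel

end inst

end Fermat.Agent.S40
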