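import Mathlib

/-!
# TRACK 13 (S40), package W-D, part "Lagrange" (helper14)

Mathlib only.  Prefix `S40WK_`.

`K` a field, `p` a prime with `(p : K) ≠ 0`, `ζ ∈ K` with `ζ ^ p = 1`, `ζ ≠ 1`, `σ : K →+* K` a ring
endomorphism with `σ ζ = ζ`, and `z ∈ K` with `σ^[p] z = z`.

* `S40WK_res p ζ σ z i = p⁻¹ * ∑_{j < p} ζ⁻¹ ^ (i * j) * σ^[j] z` : the `i`-th Lagrange resolvent;
* `S40WK_res_sum`    : `∑_{i < p} res_i = z`;
* `S40WK_res_map`    : `σ res_i = ζ ^ i * res_i`;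
* `S40WK_res_iterate`: `σ^[a] res_i = ζ ^ (i * a) * res_i`;
* `S40WK_res_map_of_shift` : a ring endomorphism `h` with `h ζ = ζ` and `h (σ^[j] z) = σ^[j + a] z`
  for all `j` satisfies `h res_i = ζ ^ (i * a) * res_i`;
* `S40WK_res_pow_fixed` : `σ (res_i ^ p) = res_i ^ p`;
* `S40WK_map_sub`    : `σ z - z = ∑_{i < p} (ζ ^ i - 1) * res_i`;
* `S40WK_res_zero_mem` ... the `0`-th term does not contribute: `σ z - z = ∑_{i ∈ (range p).erase 0} …`;
* `S40WK_algEquiv_pow_apply` : `(σ ^ j) z = (σ : K →+* K)^[j] z` for `σ : K ≃ₐ[k] K`;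
* **`S40WK_val_zeta_sub_one_pow`** : for a valuation ring `A` of `K`:
  `A.valuation (ζ - 1) ^ (p - 1) = A.valuation (p : K)`;
* `S40WK_val_zeta` : `A.valuation ζ = 1`;  `S40WK_val_zeta_pow_sub_one_le` :
  `A.valuation (ζ ^ i - 1) ≤ A.valuation (ζ - 1)`;
* `S40WK_not_lt` : `A.valuation (p : K) ≤ m ^ (p - 1) → ¬ m < A.valuation (ζ - 1)` (the final
  contradiction of W-PEU: (b) + (c) against (d)).
-/

set_option autoImplicit false

namespace Fermat.Agent.S40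

open Finset

section roots

variable {K : Type*} [Field K]

/-- a `p`-th root of unity `≠ 1` (`p` prime) has no smaller power equal to `1`. -/
theorem S40WK_pow_ne_one {p : ℕ} (hp : p.Prime) {ζ : K} (hζ : ζ ^ p = 1) (hζ1 : ζ ≠ 1)
    {j : ℕ} (hj : ¬ p ∣ j) : ζ ^ j ≠ 1 := by
  intro h
  have h1 : orderOf ζ ∣ p := orderOf_dvd_of_pow_eq_one hζ
  have h2 : orderOf ζ ∣ j := orderOf_dvd_of_pow_eq_one h
  rcases (Nat.dvd_prime hp).1 h1 with h3 | h3
  · exact hζ1 (orderOf_eq_one_iff.1 h3)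
  · exact hj (h3 ▸ h2)

theorem S40WK_isPrimitiveRoot {p : ℕ} (hp : p.Prime) {ζ : K} (hζ : ζ ^ p = 1) (hζ1 : ζ ≠ 1) :
    IsPrimitiveRoot ζ p := by
  refine ⟨hζ, fun l hl => ?_⟩
  by_contra hpl
  exact S40WK_pow_ne_one hp hζ hζ1 hpl hl

theorem S40WK_zeta_ne_zero {p : ℕ} (hp : p.Prime) {ζ : K} (hζ : ζ ^ p = 1) : ζ ≠ 0 := by
  rintro rfl
  rw [zero_pow hp.ne_zero] at hζ
  exact zero_ne_one hζ

theorem S40WK_inv_pow {p : ℕ} {ζ : K} (hζ : ζ ^ p = 1) : ζ⁻¹ ^ p = 1 := by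
  rw [inv_pow, hζ, inv_one]

theorem S40WK_inv_ne_one {ζ : K} (hζ1 : ζ ≠ 1) : ζ⁻¹ ≠ 1 := by
  intro h
  exact hζ1 (inv_eq_one.1 h)

/-- the geometric sum of a non-trivial `p`-th root of unity vanishes. -/
theorem S40WK_geom_sum {p : ℕ} {w : K} (hw : w ^ p = 1) (hw1 : w ≠ 1) :
    ∑ i ∈ range p, w ^ i = 0 := by
  have h := geom_sum_mul w p
  rw [hw, sub_self] at h
  rcases mul_eq_zero.1 h with h | h
  · exact h
  · exact absurd (sub_eq_zero.1 h) hw1

end roots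

section resolvent

variable {K : Type*} [Field K]

/-- the `i`-th Lagrange resolvent of `z` for `σ` and the root of unity `ζ`. -/
noncomputable def S40WK_res (p : ℕ) (ζ : K) (σ : K →+* K) (z : K) (i : ℕ) : K :=
  (p : K)⁻¹ * ∑ j ∈ range p, ζ⁻¹ ^ (i * j) * σ^[j] z

variable {p : ℕ} {ζ : K} {σ : K →+* K} {z : K}

/-- the resolvents sum to `z`. -/
theorem S40WK_res_sum (hp : p.Prime) (hpK : (p : K) ≠ 0) (hζ : ζ ^ p = 1) (hζ1 : ζ ≠ 1) :
    ∑ i ∈ range p, S40WK_res p ζ σ z i = z := by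
  unfold S40WK_res
  rw [← mul_sum, sum_comm]
  have key : ∀ j ∈ range p, ∑ i ∈ range p, ζ⁻¹ ^ (i * j) * σ^[j] z =
      if j = 0 then (p : K) * z else 0 := by
    intro j hj
    rw [← sum_mul]
    split_ifs with h0
    · subst h0
      simp
    · have hjp : ¬ p ∣ j := fun hd =>
        h0 (Nat.eq_zero_of_dvd_of_lt hd (mem_range.1 hj))
      have hw1 : ζ⁻¹ ^ j ≠ 1 :=
        S40WK_pow_ne_one hp (S40WK_inv_pow hζ) (S40WK_inv_ne_one hζ1) hjp
      have hw : (ζ⁻¹ ^ j) ^ p = 1 := by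
        rw [← pow_mul, mul_comm, pow_mul, S40WK_inv_pow hζ, one_pow]
      have h1 : ∑ i ∈ range p, ζ⁻¹ ^ (i * j) = ∑ i ∈ range p, (ζ⁻¹ ^ j) ^ i := by
        refine sum_congr rfl fun i _ => ?_
        rw [← pow_mul, mul_comm]
      rw [h1, S40WK_geom_sum hw hw1, zero_mul]
  rw [sum_congr rfl key, sum_ite_eq' (range p) 0 (fun _ => (p : K) * z),
    if_pos (mem_range.2 hp.pos), ← mul_assoc, inv_mul_cancel₀ hpK, one_mul]

/-- `σ` multiplies the `i`-th resolvent by `ζ ^ i`. -/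
theorem S40WK_res_map (hζ : ζ ^ p = 1) (hp0 : p ≠ 0) (hσζ : σ ζ = ζ) (hz : σ^[p] z = z) (i : ℕ) :
    σ (S40WK_res p ζ σ z i) = ζ ^ i * S40WK_res p ζ σ z i := by
  have hζ0 : ζ ≠ 0 := by
    rintro rfl
    rw [zero_pow hp0] at hζ
    exact zero_ne_one hζ
  unfold S40WK_res
  rw [map_mul, map_inv₀, map_natCast, map_sum, ← mul_assoc, mul_comm (ζ ^ i), mul_assoc]
  congr 1
  have h1 : ∀ j ∈ range p, σ (ζ⁻¹ ^ (i * j) * σ^[j] z) =
      ζ ^ i * (ζ⁻¹ ^ (i * (j + 1)) * σ^[j + 1] z) := by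
    intro j _
    have hc : ζ ^ i * ζ⁻¹ ^ i = 1 := by rw [← mul_pow, mul_inv_cancel₀ hζ0, one_pow]
    rw [map_mul, map_pow, map_inv₀, hσζ, Function.iterate_succ_apply', ← mul_assoc]
    congr 1
    rw [mul_add, mul_one, pow_add, mul_comm (ζ⁻¹ ^ (i * j)), ← mul_assoc, hc, one_mul]
  rw [sum_congr rfl h1, ← mul_sum]
  congr 1
  have hA := sum_range_succ' (fun j => ζ⁻¹ ^ (i * j) * σ^[j] z) p
  have hB := sum_range_succ (fun j => ζ⁻¹ ^ (i * j) * σ^[j] z) p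
  have hfp : ζ⁻¹ ^ (i * p) * σ^[p] z = ζ⁻¹ ^ (i * 0) * σ^[0] z := by
    rw [hz, pow_mul', S40WK_inv_pow hζ, one_pow, mul_zero, pow_zero]
    rfl
  rw [hB, hfp] at hA
  exact (add_right_cancel hA).symm

/-- iterated version. -/
theorem S40WK_res_iterate (hζ : ζ ^ p = 1) (hp0 : p ≠ 0) (hσζ : σ ζ = ζ) (hz : σ^[p] z = z)
    (i a : ℕ) : σ^[a] (S40WK_res p ζ σ z i) = ζ ^ (i * a) * S40WK_res p ζ σ z i := by
  induction a with
  | zero => simp
  | succ a ih =>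
    rw [Function.iterate_succ_apply', ih, map_mul, map_pow, hσζ, S40WK_res_map hζ hp0 hσζ hz,
      ← mul_assoc, ← pow_add, mul_add, mul_one]

/-- a ring endomorphism `h` fixing `ζ` and acting on the `σ`-orbit of `z` as the shift by `a`
multiplies the `i`-th resolvent by `ζ ^ (i * a)`. -/
theorem S40WK_res_map_of_shift (hζ : ζ ^ p = 1) (hp0 : p ≠ 0) (hσζ : σ ζ = ζ)
    (hz : σ^[p] z = z) (h : K →+* K) (hhζ : h ζ = ζ) (a : ℕ)
    (hsh : ∀ j, h (σ^[j] z) = σ^[j + a] z) (i : ℕ) :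
    h (S40WK_res p ζ σ z i) = ζ ^ (i * a) * S40WK_res p ζ σ z i := by
  rw [← S40WK_res_iterate hζ hp0 hσζ hz i a]
  have hit : ∀ (b : ℕ) (w : K), σ^[b] (ζ⁻¹ * w) = ζ⁻¹ * σ^[b] w := by
    intro b
    induction b with
    | zero => intro w; rfl
    | succ b ih =>
      intro w
      rw [Function.iterate_succ_apply', ih, map_mul, map_inv₀, hσζ, Function.iterate_succ_apply']
  have hit2 : ∀ (b n : ℕ) (w : K), σ^[b] (ζ⁻¹ ^ n * w) = ζ⁻¹ ^ n * σ^[b] w := by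
    intro b n
    induction n with
    | zero => intro w; simp
    | succ n ih =>
      intro w
      rw [pow_succ, mul_assoc, ih, hit, ← mul_assoc]
  have hitp : ∀ (b : ℕ), σ^[b] ((p : K)⁻¹) = (p : K)⁻¹ := by
    intro b
    induction b with
    | zero => rfl
    | succ b ih => rw [Function.iterate_succ_apply', ih, map_inv₀, map_natCast]
  have hitmul : ∀ (b : ℕ) (u w : K), σ^[b] (u * w) = σ^[b] u * σ^[b] w := by
    intro b
    induction b with
    | zero => intro u w; rfl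
    | succ b ih => intro u w; rw [Function.iterate_succ_apply', ih, map_mul,
        ← Function.iterate_succ_apply' σ, ← Function.iterate_succ_apply' σ]
  have hitsum : ∀ (b : ℕ) (s : Finset ℕ) (f : ℕ → K),
      σ^[b] (∑ j ∈ s, f j) = ∑ j ∈ s, σ^[b] (f j) := by
    intro b
    induction b with
    | zero => intro s f; rfl
    | succ b ih =>
      intro s f
      rw [Function.iterate_succ_apply', ih, map_sum]
      refine sum_congr rfl fun j _ => ?_
      rw [Function.iterate_succ_apply']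
  unfold S40WK_res
  rw [map_mul, map_inv₀, map_natCast, map_sum, hitmul, hitp, hitsum]
  congr 1
  refine sum_congr rfl fun j _ => ?_
  rw [map_mul, map_pow, map_inv₀, hhζ, hsh, hit2, ← Function.iterate_add_apply, add_comm a j]

/-- the `p`-th power of a resolvent is fixed by `σ`. -/
theorem S40WK_res_pow_fixed (hζ : ζ ^ p = 1) (hp0 : p ≠ 0) (hσζ : σ ζ = ζ) (hz : σ^[p] z = z)
    (i : ℕ) : σ (S40WK_res p ζ σ z i ^ p) = S40WK_res p ζ σ z i ^ p := by
  rw [map_pow, S40WK_res_map hζ hp0 hσζ hz, mul_pow, ← pow_mul, mul_comm i p, pow_mul, hζ,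
    one_pow, one_mul]

/-- `σ z - z` in terms of the resolvents. -/
theorem S40WK_map_sub (hp : p.Prime) (hpK : (p : K) ≠ 0) (hζ : ζ ^ p = 1) (hζ1 : ζ ≠ 1)
    (hσζ : σ ζ = ζ) (hz : σ^[p] z = z) :
    σ z - z = ∑ i ∈ range p, (ζ ^ i - 1) * S40WK_res p ζ σ z i := by
  have hs := S40WK_res_sum (σ := σ) (z := z) hp hpK hζ hζ1
  have h1 : σ z = ∑ i ∈ range p, ζ ^ i * S40WK_res p ζ σ z i := by
    have h0 : σ z = σ (∑ i ∈ range p, S40WK_res p ζ σ z i) := congrArg σ hs.symm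
    rw [h0, map_sum]
    exact sum_congr rfl fun i _ => S40WK_res_map hζ hp.ne_zero hσζ hz i
  have h2 : σ z - z = ∑ i ∈ range p, ζ ^ i * S40WK_res p ζ σ z i -
      ∑ i ∈ range p, S40WK_res p ζ σ z i := by
    rw [hs]
    exact congrArg (· - z) h1
  rw [h2, ← sum_sub_distrib]
  exact sum_congr rfl fun i _ => by ring

/-- the same without the term `i = 0`. -/
theorem S40WK_map_sub' (hp : p.Prime) (hpK : (p : K) ≠ 0) (hζ : ζ ^ p = 1) (hζ1 : ζ ≠ 1)
    (hσζ : σ ζ = ζ) (hz : σ^[p] z = z) :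
    σ z - z = ∑ i ∈ (range p).erase 0, (ζ ^ i - 1) * S40WK_res p ζ σ z i := by
  rw [S40WK_map_sub hp hpK hζ hζ1 hσζ hz,
    ← add_sum_erase (range p) _ (mem_range.2 hp.pos)]
  simp

end resolvent

section algEquiv

variable {k K : Type*} [Field k] [Field K] [Algebra k K]

/-- powers of an automorphism are iterates of its underlying ring homomorphism. -/
theorem S40WK_algEquiv_pow_apply (σ : K ≃ₐ[k] K) (j : ℕ) (z : K) :
    (σ ^ j) z = (⇑((σ : K →ₐ[k] K) : K →+* K))^[j] z := by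
  induction j with
  | zero => rfl
  | succ j ih =>
    rw [pow_succ', Function.iterate_succ_apply', ← ih]
    rfl

end algEquiv

section valuation

variable {K : Type*} [Field K] (A : ValuationSubring K)

/-- a root of unity is a unit of every valuation ring. -/
theorem S40WK_val_zeta {p : ℕ} (hp0 : p ≠ 0) {ζ : K} (hζ : ζ ^ p = 1) :
    A.valuation ζ = 1 := by
  have h := congrArg A.valuation hζ
  rw [map_pow, map_one] at h
  rcases lt_trichotomy (A.valuation ζ) 1 with h1 | h1 | h1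
  · exact absurd h (pow_lt_one₀ zero_le h1 hp0).ne
  · exact h1
  · exact absurd h (one_lt_pow₀ h1 hp0).ne'

theorem S40WK_val_geom_le {p : ℕ} (hp0 : p ≠ 0) {ζ : K} (hζ : ζ ^ p = 1) (n : ℕ) :
    A.valuation (∑ i ∈ range n, ζ ^ i) ≤ 1 := by
  refine A.valuation.map_sum_le fun i _ => ?_
  rw [map_pow, S40WK_val_zeta A hp0 hζ, one_pow]

/-- `ζ ^ i - 1` is divisible by `ζ - 1`. -/
theorem S40WK_val_zeta_pow_sub_one_le {p : ℕ} (hp0 : p ≠ 0) {ζ : K} (hζ : ζ ^ p = 1) (i : ℕ) :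
    A.valuation (ζ ^ i - 1) ≤ A.valuation (ζ - 1) := by
  rw [← geom_sum_mul ζ i, map_mul]
  calc A.valuation (∑ j ∈ range i, ζ ^ j) * A.valuation (ζ - 1)
      ≤ 1 * A.valuation (ζ - 1) := mul_le_mul_left (S40WK_val_geom_le A hp0 hζ i) _
    _ = A.valuation (ζ - 1) := one_mul _

/-- for `p ∤ i` the elements `ζ ^ i - 1` and `ζ - 1` have the same valuation. -/
theorem S40WK_val_zeta_pow_sub_one {p : ℕ} (hp : p.Prime) {ζ : K} (hζ : ζ ^ p = 1) {i : ℕ}
    (hi : ¬ p ∣ i) : A.valuation (ζ ^ i - 1) = A.valuation (ζ - 1) := by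
  refine le_antisymm (S40WK_val_zeta_pow_sub_one_le A hp.ne_zero hζ i) ?_
  have hcop : Nat.Coprime i p := ((Nat.Prime.coprime_iff_not_dvd hp).2 hi).symm
  obtain ⟨m, -, hm⟩ := Nat.exists_mul_mod_eq_one_of_coprime hcop hp.one_lt
  have h1 : (ζ ^ i) ^ m = ζ := by
    rw [← pow_mul, ← Nat.div_add_mod (i * m) p, hm, pow_add, pow_mul, hζ, one_pow, one_mul,
      pow_one]
  have h2 : (ζ ^ i) ^ p = 1 := by rw [← pow_mul, mul_comm, pow_mul, hζ, one_pow]
  have h3 := S40WK_val_zeta_pow_sub_one_le A hp.ne_zero h2 m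
  rwa [h1] at h3

/-- **`v(ζ − 1)^(p−1) = v(p)`** for a non-trivial `p`-th root of unity `ζ`. -/
theorem S40WK_val_zeta_sub_one_pow {p : ℕ} (hp : p.Prime) {ζ : K} (hζ : ζ ^ p = 1)
    (hζ1 : ζ ≠ 1) : A.valuation (ζ - 1) ^ (p - 1) = A.valuation (p : K) := by
  obtain ⟨n, rfl⟩ : ∃ n, p = n + 1 := ⟨p - 1, (Nat.sub_add_cancel hp.pos).symm⟩
  have hprim : IsPrimitiveRoot ζ (n + 1) := S40WK_isPrimitiveRoot hp hζ hζ1
  have h := congrArg A.valuation hprim.prod_one_sub_pow_eq_order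
  rw [map_prod] at h
  have h2 : ∀ k ∈ range n, A.valuation (1 - ζ ^ (k + 1)) = A.valuation (ζ - 1) := by
    intro k hk
    rw [← neg_sub, Valuation.map_neg]
    refine S40WK_val_zeta_pow_sub_one A hp hζ ?_
    intro hd
    have := Nat.le_of_dvd (Nat.succ_pos k) hd
    have := mem_range.1 hk
    omega
  rw [prod_congr rfl h2, prod_const, card_range] at h
  rw [Nat.add_sub_cancel, h]
  push_cast
  rfl

/-- the final contradiction of W-PEU: a lower bound `v(p) ≤ m ^ (p − 1)` (from (b) + (c)) is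
incompatible with `m < v(ζ − 1)` (from (d)). -/
theorem S40WK_not_lt {p : ℕ} (hp : p.Prime) {ζ : K} (hζ : ζ ^ p = 1) (hζ1 : ζ ≠ 1)
    {m : A.ValueGroup} (hm : A.valuation (p : K) ≤ m ^ (p - 1)) :
    ¬ m < A.valuation (ζ - 1) := by
  intro hlt
  have hp1 : p - 1 ≠ 0 := by have := hp.two_le; omega
  have h1 : m ^ (p - 1) < A.valuation (ζ - 1) ^ (p - 1) :=
    pow_lt_pow_left₀ hlt zero_le hp1
  rw [S40WK_val_zeta_sub_one_pow A hp hζ hζ1] at h1
  exact absurd hm (not_le.2 h1)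

end valuation

end Fermat.Agent.S40
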