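import Mathlib
import Fermat.Agent.S33.Degen
import Fermat.Agent.S36.LDesc
import Fermat.Agent.S40.Defs
import Fermat.Agent.S40.WKum

/-!
# TRACK 13 (S40, row 38), package P5 = L-DESC of (F2') (helper16).  Prefix `S40F2D_`.

Level `N`, `F = modularFunctionFieldBar N ⊂ ℚ̄((q))`, `H ⊂ G_ℚ` any set, `I¹ = S40D_I1 A p`.

* `S40F2D_gen_fixed` : a class `x` with `n x = 0` fixed by `H` has a Kummer generator `u` fixed by
  `H`, with `q`-coefficients fixed by `H`;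
* `S40F2D_quot` : for generators `u` of `x` and `u_z` of `z = σ x − x`: `σ u · u⁻¹ · u_z⁻¹` is trivial;
* `S40F2D_triv_fixed` : an `H`-fixed trivial function `t = c · hⁿ` has such a presentation with
  `c` and `h` fixed by `H` (no Hilbert 90: normalise one `q`-coefficient of `h`);
* `S40F2D_main` : **L-DESC**: `H` a subgroup fixing `x`, `σ` normalising `H`, `z = σ x − x` fixed by
  `H`: there are `H`-fixed generators `u` of `x`, `u_z` of `z` and `H`-fixed `c`, `h` with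
  `σ u = c · u · u_z · hⁿ`;
* `S40F2D_kummer` : **the Kummer generator of `L / F` is a UNIT under (INV)**: if the image of `I¹`
  on `V` is generated by `σ` (`σ ^ p = 1` on `V`, `σ x ≠ x`), then there is `β ∈ ℚ̄` with
  `v(β) = 1`, `σ β = ζ ^ i β` (`p ∤ i`), fixed by the stabiliser of `V` in `I¹`.
-/

set_option autoImplicit false
set_option linter.unusedSectionVars false
set_option linter.unusedVariables false
set_option linter.style.haveILetI false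
set_option synthInstance.maxHeartbeats 400000
set_option maxHeartbeats 1000000

open AlgebraicCurve ModularCurve

noncomputable section

namespace Fermat.Agent.S40

open Fermat.Agent.S33 Fermat.Agent.S36 Fermat.Agent.GalRep Fermat.Agent.S24

local notation "ℚbar" => AlgebraicClosure ℚ

section desc

variable (N : ℕ) [NeZero N]

/-- the trivial Kummer generator `1`. -/
theorem S40F2D_isTriv_one (n : ℕ) : GR_IsTriv N n (1 : ↥(modularFunctionFieldBar N)) :=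
  ⟨1, 1, one_ne_zero, one_ne_zero, by rw [map_one, one_pow, one_mul]⟩

/-- **(P5-a)** a class killed by `n` and fixed by `H` has a Kummer generator fixed by `H`, with
`q`-expansion coefficients fixed by `H`. -/
theorem S40F2D_gen_fixed (H : Set GQ) (n : ℕ) (hn : 0 < n) (x : JZero N)
    (hx : n • x = 0) (hfix : ∀ τ ∈ H, τ • x = x) :
    ∃ u : ↥(modularFunctionFieldBar N), S33DG_IsGen n x u ∧
      (∀ τ ∈ H, GR_gal N τ u = u) ∧
      (∀ τ ∈ H, ∀ k : ℤ, τ ((u : LaurentSeries ℚbar).coeff k) =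
        (u : LaurentSeries ℚbar).coeff k) := by
  obtain ⟨u₀, hu₀⟩ := S33DG_isGen_exists n x hx
  have hK : KM_IsKum ℚbar ↥(modularFunctionFieldBar N) n u₀ := S33DG_isKum hu₀
  have hfix' : ∀ τ ∈ H, GR_IsTriv N n (GR_gal N τ u₀ * u₀⁻¹) := by
    intro τ hτ
    have h1 := S33DG_isTriv_of_smul_eq N hu₀ τ 1 (by rw [one_smul]; exact hfix τ hτ)
    rwa [pow_one] at h1
  obtain ⟨f', hK', hT, hinv, hco, D', m₀, hD', hdeg, -⟩ :=
    S36LD_of_fixed N H n hn u₀ hK hfix'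
  have hf'0 : f' ≠ 0 := hK'.1
  have hg' : S33DG_IsGen n
      (Pic0.mk (⟨D', Divisor.mem_degZero.mpr hdeg⟩ :
        Divisor.degZero (K := ℚbar) (F := ↥(modularFunctionFieldBar N))) : JZero N) f' :=
    ⟨⟨D', Divisor.mem_degZero.mpr hdeg⟩, rfl, hf'0, hD'⟩
  have h1 := S33DG_isGen_mul hg' (S33DG_isGen_inv hu₀)
  have h2 := S33DG_zero_of_isTriv hn h1 hT
  have h3 : (Pic0.mk (⟨D', Divisor.mem_degZero.mpr hdeg⟩ :
        Divisor.degZero (K := ℚbar) (F := ↥(modularFunctionFieldBar N))) : JZero N) = x := by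
    rw [← sub_eq_add_neg] at h2
    exact sub_eq_zero.mp h2
  exact ⟨f', h3 ▸ hg', hinv, hco⟩

/-- **(P5-b)** for generators `u` of `x` and `u_z` of `z = σ x − x`, the function
`σ u · u⁻¹ · u_z⁻¹` is a trivial Kummer generator. -/
theorem S40F2D_quot {n : ℕ} {x z : JZero N} {u u_z : ↥(modularFunctionFieldBar N)}
    (hu : S33DG_IsGen n x u) (σ : GQ) (hz : σ • x - x = z) (huz : S33DG_IsGen n z u_z) :
    GR_IsTriv N n (GR_gal N σ u * u⁻¹ * u_z⁻¹) := by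
  have h1 := S33DG_isGen_mul (S33DG_isGen_mul (S33DG_isGen_gal N hu σ) (S33DG_isGen_inv hu))
    (S33DG_isGen_inv huz)
  have h2 : σ • x + -x + -z = 0 := by rw [← hz]; abel
  rw [h2] at h1
  exact S33DG_isTriv_of_zero h1

/-- an element of `F` whose `n`-th power is a nonzero constant is a constant. -/
theorem S40F2D_const_of_pow (n : ℕ) (hn : 0 < n) (g : ↥(modularFunctionFieldBar N)) (κ : ℚbar)
    (hκ : κ ≠ 0) (hg : g ^ n = algebraMap ℚbar ↥(modularFunctionFieldBar N) κ) :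
    ∃ b : ℚbar, g = algebraMap ℚbar ↥(modularFunctionFieldBar N) b := by
  haveI : NeZero n := ⟨hn.ne'⟩
  obtain ⟨r, hr⟩ := IsAlgClosed.exists_pow_nat_eq κ hn
  have hr0 : r ≠ 0 := by
    rintro rfl
    rw [zero_pow hn.ne'] at hr
    exact hκ hr.symm
  obtain ⟨ζ, hζ⟩ := HasEnoughRootsOfUnity.exists_primitiveRoot ℚbar n
  have hζ' : IsPrimitiveRoot (algebraMap ℚbar ↥(modularFunctionFieldBar N) ζ) n :=
    hζ.map_of_injective (algebraMap ℚbar ↥(modularFunctionFieldBar N)).injective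
  have hr' : algebraMap ℚbar ↥(modularFunctionFieldBar N) r ≠ 0 := by
    rw [Ne, map_eq_zero]; exact hr0
  have h1 : (g * (algebraMap ℚbar ↥(modularFunctionFieldBar N) r)⁻¹) ^ n = 1 := by
    rw [mul_pow, inv_pow, hg, ← map_pow, hr]
    exact mul_inv_cancel₀ (by rw [Ne, map_eq_zero]; exact hκ)
  obtain ⟨i, -, hi⟩ := hζ'.eq_pow_of_pow_eq_one h1
  refine ⟨ζ ^ i * r, ?_⟩
  rw [map_mul, map_pow, hi, mul_assoc, inv_mul_cancel₀ hr', mul_one]

/-- **(P5-c)** an `H`-fixed trivial function has a presentation `c · hⁿ` with `c` and `h` fixed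
by `H`. -/
theorem S40F2D_triv_fixed (H : Set GQ) (n : ℕ) (hn : 0 < n)
    (t : ↥(modularFunctionFieldBar N)) (ht : GR_IsTriv N n t)
    (hfix : ∀ τ ∈ H, GR_gal N τ t = t) :
    ∃ (c : ℚbar) (h : ↥(modularFunctionFieldBar N)), c ≠ 0 ∧ h ≠ 0 ∧
      t = algebraMap ℚbar ↥(modularFunctionFieldBar N) c * h ^ n ∧
      (∀ τ ∈ H, τ c = c) ∧ (∀ τ ∈ H, GR_gal N τ h = h) := by
  obtain ⟨c₀, h₀, hc₀, hh₀, rfl⟩ := ht
  -- a nonzero coefficient of `h₀`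
  have hh₀' : (h₀ : LaurentSeries ℚbar) ≠ 0 := by
    intro h0
    apply hh₀
    exact Subtype.ext h0
  obtain ⟨k, hk⟩ : ∃ k : ℤ, (h₀ : LaurentSeries ℚbar).coeff k ≠ 0 := by
    by_contra hcon
    push Not at hcon
    exact hh₀' (HahnSeries.ext (funext fun k => by rw [hcon k]; rfl))
  obtain ⟨a, ha⟩ : ∃ a : ℚbar, a = (h₀ : LaurentSeries ℚbar).coeff k := ⟨_, rfl⟩
  rw [← ha] at hk
  obtain ⟨h, hh⟩ : ∃ h : ↥(modularFunctionFieldBar N),
      h = algebraMap ℚbar ↥(modularFunctionFieldBar N) a⁻¹ * h₀ := ⟨_, rfl⟩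
  have ha' : algebraMap ℚbar ↥(modularFunctionFieldBar N) a ≠ 0 := by
    rw [Ne, map_eq_zero]; exact hk
  have hh0 : h ≠ 0 := by
    rw [hh]
    exact mul_ne_zero (by rw [Ne, map_eq_zero]; exact inv_ne_zero hk) hh₀
  have hcoef : (h : LaurentSeries ℚbar).coeff k = 1 := by
    rw [hh, S36LD_coeff_const_mul, ← ha, inv_mul_cancel₀ hk]
  obtain ⟨C, hC⟩ : ∃ C : ℚbar, C = c₀ * a ^ n := ⟨_, rfl⟩
  have hpres : algebraMap ℚbar ↥(modularFunctionFieldBar N) c₀ * h₀ ^ n =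
      algebraMap ℚbar ↥(modularFunctionFieldBar N) C * h ^ n := by
    rw [hC, hh, mul_pow, map_mul, map_pow, ← map_pow, ← map_pow, mul_assoc,
      ← mul_assoc (algebraMap _ _ (a ^ n)),
      ← map_mul, inv_pow, mul_inv_cancel₀ (pow_ne_zero n hk), map_one, one_mul]
  have hc0 : C ≠ 0 := by rw [hC]; exact mul_ne_zero hc₀ (pow_ne_zero n hk)
  have key : ∀ τ ∈ H, GR_gal N τ h = h := by
    intro τ hτ
    have h1 := hfix τ hτ
    rw [hpres, map_mul, map_pow, S36LD_gal_algebraMap] at h1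
    have hτh0 : GR_gal N τ h ≠ 0 := by
      rw [Ne, map_eq_zero]; exact hh0
    have hτc : τ C ≠ 0 := by
      rw [Ne, map_eq_zero]; exact hc0
    obtain ⟨C', hC'⟩ : ∃ C' : ℚbar, C' = τ C := ⟨_, rfl⟩
    rw [← hC'] at h1 hτc
    -- `(τ h / h) ^ n` is the constant `c / τ c`
    have h2 : (GR_gal N τ h * h⁻¹) ^ n =
        algebraMap ℚbar ↥(modularFunctionFieldBar N) (C * C'⁻¹) := by
      have hτc' : algebraMap ℚbar ↥(modularFunctionFieldBar N) C' ≠ 0 := by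
        rw [Ne, map_eq_zero]; exact hτc
      have hn0 : h ^ n ≠ 0 := pow_ne_zero n hh0
      have e1 : (GR_gal N τ h) ^ n =
          (algebraMap ℚbar ↥(modularFunctionFieldBar N) C')⁻¹ *
            (algebraMap ℚbar ↥(modularFunctionFieldBar N) C * h ^ n) := by
        rw [← h1, ← mul_assoc, inv_mul_cancel₀ hτc', one_mul]
      rw [mul_pow, inv_pow, e1, map_mul, map_inv₀, mul_assoc, mul_assoc, mul_inv_cancel₀ hn0,
        mul_one, mul_comm]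
    obtain ⟨b, hb⟩ := S40F2D_const_of_pow N n hn _ _
      (mul_ne_zero hc0 (inv_ne_zero hτc)) h2
    have h3 : GR_gal N τ h = algebraMap ℚbar ↥(modularFunctionFieldBar N) b * h := by
      rw [← hb, mul_assoc, inv_mul_cancel₀ hh0, mul_one]
    have h4 : ((GR_gal N τ h : ↥(modularFunctionFieldBar N)) : LaurentSeries ℚbar).coeff k = 1 := by
      rw [S36LD_coeff_gal, hcoef, map_one]
    rw [h3, S36LD_coeff_const_mul, hcoef, mul_one] at h4
    rw [h3, h4, map_one, one_mul]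
  refine ⟨C, h, hc0, hh0, hpres, fun τ hτ => ?_, key⟩
  have h1 := hfix τ hτ
  rw [hpres, map_mul, map_pow, S36LD_gal_algebraMap, key τ hτ] at h1
  have h2 := mul_right_cancel₀ (pow_ne_zero n hh0) h1
  exact (algebraMap ℚbar ↥(modularFunctionFieldBar N)).injective h2

/-- **(P5) L-DESC, assembly**: `H` a set of elements of `G_ℚ` fixing `x` and `z = σ x − x`, stable
under conjugation by `σ⁻¹` (`σ⁻¹ τ σ ∈ H` for `τ ∈ H`).  Then there are `H`-fixed Kummer generators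
`u` of `x`, `u_z` of `z` and `H`-fixed `c`, `h` with `σ u = c · u · u_z · hⁿ`. -/
theorem S40F2D_main (H : Set GQ) (n : ℕ) (hn : 0 < n) (x z : JZero N) (hx : n • x = 0)
    (hzn : n • z = 0) (σ : GQ) (hz : σ • x - x = z)
    (hfix : ∀ τ ∈ H, τ • x = x) (hfixz : ∀ τ ∈ H, τ • z = z)
    (hconj : ∀ τ ∈ H, σ⁻¹ * τ * σ ∈ H) :
    ∃ (u u_z h : ↥(modularFunctionFieldBar N)) (c : ℚbar),
      S33DG_IsGen n x u ∧ S33DG_IsGen n z u_z ∧ c ≠ 0 ∧ h ≠ 0 ∧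
      (∀ τ ∈ H, GR_gal N τ u = u) ∧ (∀ τ ∈ H, GR_gal N τ u_z = u_z) ∧
      (∀ τ ∈ H, τ c = c) ∧ (∀ τ ∈ H, GR_gal N τ h = h) ∧
      GR_gal N σ u = algebraMap ℚbar ↥(modularFunctionFieldBar N) c * u * u_z * h ^ n := by
  obtain ⟨u, hu, hufix, -⟩ := S40F2D_gen_fixed N H n hn x hx hfix
  obtain ⟨u_z, huz, huzfix, -⟩ := S40F2D_gen_fixed N H n hn z hzn hfixz
  have hu0 : u ≠ 0 := S33DG_isGen_ne_zero hu
  have huz0 : u_z ≠ 0 := S33DG_isGen_ne_zero huz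
  have ht := S40F2D_quot N hu σ hz huz
  have htfix : ∀ τ ∈ H, GR_gal N τ (GR_gal N σ u * u⁻¹ * u_z⁻¹) =
      GR_gal N σ u * u⁻¹ * u_z⁻¹ := by
    intro τ hτ
    rw [map_mul, map_mul, map_inv₀, map_inv₀, hufix τ hτ, huzfix τ hτ]
    congr 2
    -- `τ (σ u) = σ ((σ⁻¹ τ σ) u) = σ u`
    have h1 := hufix _ (hconj τ hτ)
    have h2 : GR_gal N (σ⁻¹ * τ * σ) u = GR_gal N σ⁻¹ (GR_gal N τ (GR_gal N σ u)) := by
      rw [S36LD_gal_eq_smul, S36LD_gal_eq_smul, S36LD_gal_eq_smul, S36LD_gal_eq_smul,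
        ← mul_smul, ← mul_smul, map_mul, map_mul]
    rw [h2] at h1
    have h3 := congrArg (GR_gal N σ) h1
    have h4 : GR_gal N σ (GR_gal N σ⁻¹ (GR_gal N τ (GR_gal N σ u))) =
        GR_gal N τ (GR_gal N σ u) := by
      rw [S36LD_gal_eq_smul N σ, S36LD_gal_eq_smul N σ⁻¹, ← mul_smul, ← map_mul, mul_inv_cancel,
        map_one, one_smul]
    rw [h4] at h3
    exact h3
  obtain ⟨c, h, hc, hh, hpres, hcfix, hhfix⟩ := S40F2D_triv_fixed N H n hn _ ht htfix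
  refine ⟨u, u_z, h, c, hu, huz, hc, hh, hufix, huzfix, hcfix, hhfix, ?_⟩
  have : GR_gal N σ u = (GR_gal N σ u * u⁻¹ * u_z⁻¹) * u * u_z := by
    field_simp
  rw [this, hpres]
  ring

end desc

section kummer

variable {N : ℕ} [NeZero N]

/-- a function fixed by `σ` gives a class fixed by `σ`. -/
theorem S40F2D_smul_eq_of_gal_eq {n : ℕ} (hn : 0 < n) {x : JZero N}
    {u : ↥(modularFunctionFieldBar N)} (hu : S33DG_IsGen n x u) (σ : GQ)
    (h : GR_gal N σ u = u) : σ • x = x := by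
  have hu0 : u ≠ 0 := S33DG_isGen_ne_zero hu
  have h1 : GR_IsTriv N n (GR_gal N σ u * (u ^ 1)⁻¹) := by
    rw [h, pow_one, mul_inv_cancel₀ hu0]
    exact S40F2D_isTriv_one N n
  have h2 := S33DG_smul_eq_of_isTriv N hn hu σ 1 h1
  rwa [one_smul] at h2

/-- a function moved by `σ` has a `q`-coefficient moved by `σ`. -/
theorem S40F2D_exists_coeff_ne (σ : GQ) (u : ↥(modularFunctionFieldBar N))
    (h : GR_gal N σ u ≠ u) :
    ∃ k : ℤ, σ ((u : LaurentSeries ℚbar).coeff k) ≠ (u : LaurentSeries ℚbar).coeff k := by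
  by_contra hcon
  push Not at hcon
  apply h
  apply Subtype.ext
  apply HahnSeries.ext
  funext k
  have := S36LD_coeff_gal N σ u k
  rw [hcon k] at this
  exact this

/-- **(P5-e) the Kummer generator of `L / F` is a UNIT under (INV)**.

`I¹ = S40D_I1 A p`, `V ≤ J₀(N)[p]` stable under `σ ∈ I¹`, the image of `I¹` on `V` generated by
`σ`, `σ ^ p = 1` on `V`, `σ x ≠ x` for one `x ∈ V`, and (INV) on `V`.  Then there is `β ∈ ℚ̄` with
`v(β) = 1`, `σ β = ζ ^ i β`, `p ∤ i`, fixed by the stabiliser of `V` in `I¹`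
(so `L = Fix(Stab_{I¹} V) ∋ β`, `β ^ p ∈ F = Fix(I¹)` is a unit: `L / F` is peu ramifié). -/
theorem S40F2D_kummer (A : ValuationSubring ℚbar) {p : ℕ} (hp : p.Prime)
    (V : AddSubgroup (JZero N)) (hVp : ∀ x ∈ V, p • x = 0)
    (hInv : S40D_InvJ N A p V)
    (σ : GQ) (hσ : σ ∈ S40D_I1 A p)
    (hstab : ∀ y ∈ V, σ • y ∈ V)
    (hcyc : ∀ g ∈ S40D_I1 A p, ∃ k : ℕ, ∀ y ∈ V, g • y = (σ ^ k) • y)
    (hσp : ∀ y ∈ V, (σ ^ p) • y = y)
    (x : JZero N) (hxV : x ∈ V) (hσx : σ • x ≠ x)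
    (ζ : ℚbar) (hζ : ζ ^ p = 1) (hζ1 : ζ ≠ 1) :
    ∃ (β : ℚbar) (i : ℕ), ¬ p ∣ i ∧ A.valuation β = 1 ∧ σ β = ζ ^ i * β ∧
      (∀ g ∈ S40D_I1 A p, g (β ^ p) = β ^ p) ∧
      ∀ g ∈ S40D_I1 A p, (∀ y ∈ V, g • y = y) → g β = β := by
  classical
  -- the stabiliser of `V` in `I¹`
  obtain ⟨H, hH⟩ : ∃ H : Set GQ, H = {g | g ∈ S40D_I1 A p ∧ ∀ y ∈ V, g • y = y} := ⟨_, rfl⟩
  have hHmem : ∀ g, g ∈ H ↔ (g ∈ S40D_I1 A p ∧ ∀ y ∈ V, g • y = y) := by
    intro g; rw [hH]; rfl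
  obtain ⟨u, hu, hufix, hco⟩ := S40F2D_gen_fixed N H p hp.pos x (hVp x hxV)
    (fun τ hτ => ((hHmem τ).1 hτ).2 x hxV)
  have hσu : GR_gal N σ u ≠ u := fun h => hσx (S40F2D_smul_eq_of_gal_eq hp.pos hu σ h)
  obtain ⟨k, hk⟩ := S40F2D_exists_coeff_ne σ u hσu
  obtain ⟨θ, hθ⟩ : ∃ θ : ℚbar, θ = (u : LaurentSeries ℚbar).coeff k := ⟨_, rfl⟩
  rw [← hθ] at hk
  have hθfix : ∀ g ∈ H, g θ = θ := fun g hg => by rw [hθ]; exact hco g hg k
  -- stability under powers of `σ`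
  have hstabj : ∀ j : ℕ, ∀ y ∈ V, (σ ^ j) • y ∈ V := by
    intro j
    induction j with
    | zero => intro y hy; rw [pow_zero, one_smul]; exact hy
    | succ j ih =>
      intro y hy
      rw [pow_succ, mul_smul]
      exact ih _ (hstab y hy)
  -- conjugation
  have hconj : ∀ g ∈ H, ∀ j : ℕ, (σ ^ j)⁻¹ * g * σ ^ j ∈ H := by
    intro g hg j
    obtain ⟨hg1, hg2⟩ := (hHmem g).1 hg
    refine (hHmem _).2 ⟨mul_mem (mul_mem (inv_mem (pow_mem hσ j)) hg1) (pow_mem hσ j), ?_⟩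
    intro y hy
    rw [mul_smul, mul_smul, hg2 _ (hstabj j y hy), ← mul_smul, inv_mul_cancel, one_smul]
  have hshift : ∀ g ∈ H, ∀ j : ℕ, g ((σ ^ j) θ) = (σ ^ j) θ := by
    intro g hg j
    have h1 := hθfix _ (hconj g hg j)
    have h2 : ((σ ^ j)⁻¹ * g * σ ^ j) θ = (σ ^ j)⁻¹ (g ((σ ^ j) θ)) := rfl
    rw [h2] at h1
    have h3 := congrArg (σ ^ j) h1
    have h4 : (σ ^ j) ((σ ^ j)⁻¹ (g ((σ ^ j) θ))) = g ((σ ^ j) θ) := by
      change ((σ ^ j) * (σ ^ j)⁻¹) (g ((σ ^ j) θ)) = _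
      rw [mul_inv_cancel]
      rfl
    rw [h4] at h3
    exact h3
  -- `σ ^ p ∈ H`
  have hσpH : σ ^ p ∈ H := (hHmem _).2 ⟨pow_mem hσ p, hσp⟩
  obtain ⟨σ', hσ'⟩ : ∃ σ' : ℚbar →+* ℚbar, σ' = ((σ : ℚbar →ₐ[ℚ] ℚbar) : ℚbar →+* ℚbar) :=
    ⟨_, rfl⟩
  have hσ'app : ∀ z : ℚbar, σ' z = σ z := fun z => by rw [hσ']; rfl
  have hiter : ∀ (j : ℕ) (z : ℚbar), σ'^[j] z = (σ ^ j) z := by
    intro j z
    rw [hσ', ← S40WK_algEquiv_pow_apply]
  have hz : σ'^[p] θ = θ := by rw [hiter]; exact hθfix _ hσpH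
  have hσζ : σ' ζ = ζ := by rw [hσ'app]; exact ((S40D_mem_I1).1 hσ).2 ζ hζ
  have hpK : ((p : ℕ) : ℚbar) ≠ 0 := by
    exact_mod_cast hp.ne_zero
  have hsum := S40WK_res_sum (σ := σ') (z := θ) hp hpK hζ hζ1
  -- a nonzero resolvent with `i ≠ 0`
  obtain ⟨i, hip, hi0, hri⟩ : ∃ i, i < p ∧ i ≠ 0 ∧ S40WK_res p ζ σ' θ i ≠ 0 := by
    by_contra hcon
    push Not at hcon
    have h1 : ∑ i ∈ Finset.range p, S40WK_res p ζ σ' θ i = S40WK_res p ζ σ' θ 0 := by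
      refine Finset.sum_eq_single_of_mem 0 (Finset.mem_range.2 hp.pos) ?_
      intro i hi hi0
      exact hcon i (Finset.mem_range.1 hi) hi0
    rw [h1] at hsum
    have h2 := S40WK_res_map hζ hp.ne_zero hσζ hz 0
    rw [pow_zero, one_mul, hsum, hσ'app] at h2
    exact hk h2
  have hpi : ¬ p ∣ i := fun hd => hi0 (Nat.eq_zero_of_dvd_of_lt hd hip)
  obtain ⟨β₀, hβ₀⟩ : ∃ β₀ : ℚbar, β₀ = S40WK_res p ζ σ' θ i := ⟨_, rfl⟩
  rw [← hβ₀] at hri
  have hσβ₀ : ∀ j : ℕ, (σ ^ j) β₀ = ζ ^ (i * j) * β₀ := by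
    intro j
    rw [← hiter, hβ₀]
    exact S40WK_res_iterate hζ hp.ne_zero hσζ hz i j
  have hHβ₀ : ∀ g ∈ H, g β₀ = β₀ := by
    intro g hg
    have hgζ : ((g : ℚbar →ₐ[ℚ] ℚbar) : ℚbar →+* ℚbar) ζ = ζ :=
      ((S40D_mem_I1).1 ((hHmem g).1 hg).1).2 ζ hζ
    have h1 := S40WK_res_map_of_shift hζ hp.ne_zero hσζ hz
      ((g : ℚbar →ₐ[ℚ] ℚbar) : ℚbar →+* ℚbar) hgζ 0
      (fun j => by
        rw [add_zero, hiter]
        exact hshift g hg j) i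
    rw [mul_zero, pow_zero, one_mul, ← hβ₀] at h1
    exact h1
  -- `β₀ ^ p` is fixed by `I¹`
  have hI : ∀ g ∈ S40D_I1 A p, ∃ j : ℕ, g β₀ = ζ ^ (i * j) * β₀ := by
    intro g hg
    obtain ⟨j, hj⟩ := hcyc g hg
    have hg' : (σ ^ j)⁻¹ * g ∈ H := by
      refine (hHmem _).2 ⟨mul_mem (inv_mem (pow_mem hσ j)) hg, fun y hy => ?_⟩
      rw [mul_smul, hj y hy, ← mul_smul, inv_mul_cancel, one_smul]
    have h1 := hHβ₀ _ hg'
    have h2 : ((σ ^ j)⁻¹ * g) β₀ = (σ ^ j)⁻¹ (g β₀) := rfl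
    rw [h2] at h1
    have h3 := congrArg (σ ^ j) h1
    have h4 : (σ ^ j) ((σ ^ j)⁻¹ (g β₀)) = g β₀ := by
      change ((σ ^ j) * (σ ^ j)⁻¹) (g β₀) = _
      rw [mul_inv_cancel]
      rfl
    rw [h4, hσβ₀] at h3
    exact ⟨j, h3⟩
  have hIp : ∀ g ∈ S40D_I1 A p, g (β₀ ^ p) = β₀ ^ p := by
    intro g hg
    obtain ⟨j, hj⟩ := hI g hg
    rw [map_pow, hj, mul_pow, ← pow_mul, mul_comm (i * j) p, pow_mul, hζ, one_pow, one_mul]
  -- (INV): `β₀` is not très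
  have hnot : ¬ S40D_Tres A p β₀ := by
    intro hT
    obtain ⟨g, hg, hgV, hgβ⟩ := hInv β₀ hT
    exact hgβ (hHβ₀ g ((hHmem g).2 ⟨hg, hgV⟩))
  have hex : ∃ c : ℚbar, (∀ g ∈ S40D_I1 A p, g c = c) ∧ c ≠ 0 ∧
      A.valuation β₀ = A.valuation c := by
    by_contra hcon
    push Not at hcon
    exact hnot ⟨hri, hIp, fun c hc hc0 => hcon c hc hc0⟩
  obtain ⟨c, hcfix, hc0, hval⟩ := hex
  have hvc : A.valuation c ≠ 0 := by
    rw [Ne, Valuation.zero_iff]; exact hc0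
  refine ⟨β₀ * c⁻¹, i, hpi, ?_, ?_, ?_, ?_⟩
  · rw [map_mul, map_inv₀, hval, mul_inv_cancel₀ hvc]
  · have h1 := hσβ₀ 1
    rw [pow_one, mul_one] at h1
    rw [map_mul, map_inv₀, hcfix σ hσ, h1, mul_assoc]
  · intro g hg
    rw [mul_pow, map_mul, hIp g hg, inv_pow, map_inv₀, map_pow, hcfix g hg]
  · intro g hg hgV
    rw [map_mul, map_inv₀, hcfix g hg, hHβ₀ g ((hHmem g).2 ⟨hg, hgV⟩)]

end kummer

end Fermat.Agent.S40
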