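import Fermat.Agent.S40.F2ABInst
import Fermat.Agent.S40.F2Desc
import Fermat.Agent.S40.F2Jump

/-!
# TRACK 13 (S40 / S44, row 38), (F2') "Step 1b + Step 3" on the real objects = the fields `H1`,
`H2` of `S40F2M_Gen` (helper11).  Prefix `S40F2ABR_`.

`𝔽 = ℚ̄(X₀(Mp))`, `σ ∈ I¹` normalising `H ≤ I¹`, `σ^p ∈ H`; `u`, `u_z`, `h` `H`-fixed functions,
`u_z` also `σ`-fixed, with `σ u = c · u · u_z · h^p` (`S40F2D_main`, helper16).

* `S40F2ABR_hconj`      : `H` is stable under conjugation by the powers of `σ`;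
* `S40F2ABR_norm_fixed` : the norm `∏_{j<p} σ^j f` of an `H`-fixed `f` is `H`-fixed;
* `S40F2ABR_telescope`  : `∏_{j<n} σ^j (σ u / u) = σ^n u / u`;
* **`S40F2ABR_rel`**    : the norm relation `u_z · ∏_{j<p} σ^j h = κ`, `κ ≠ 0` an `H`-fixed constant;
* **`S40F2ABR_gen`**    : for a Gauss valuation `T` over `A` (as in `S40F2ABI_gen`) and the START
  `V (u_z − c_z) ≤ V(π)^(pt+1)`, `v(c_z) = 1`:  `∃ d ≠ 0` an `H`-fixed constant with
  `S40F2J_Cg V π t (h / d) 0`, i.e. `h / d ≡ 1` modulo `π^(t+1)`;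
* **`S40F2ABR_V1`**, **`S40F2ABR_V2`** : the same at `V₁` and at `V₂`.
-/

set_option autoImplicit false
set_option linter.unusedSectionVars false
set_option linter.unusedVariables false
set_option linter.style.haveILetI false
set_option synthInstance.maxHeartbeats 400000
set_option maxHeartbeats 1000000

open HahnSeries ModularCurve IntermediateField

namespace Fermat.Agent.S40

open Fermat.Agent.S18 Fermat.Agent.S24 Fermat.Agent.S34 Fermat.Agent.S36 Fermat.Agent.GalRep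
  Fermat.Agent.S33 Fermat.Agent.S19

local notation "Ω" => AlgebraicClosure ℚ
local notation "Γ" => (AlgebraicClosure ℚ ≃ₐ[ℚ] AlgebraicClosure ℚ)

section rel

variable (N : ℕ) [NeZero N] (σ : Γ) (H : Subgroup Γ)

/-- `H` is stable under conjugation by the powers of `σ`. -/
theorem S40F2ABR_hconj (hnorm : ∀ g ∈ H, σ⁻¹ * g * σ ∈ H) :
    ∀ g ∈ H, ∀ j : ℕ, (σ ^ j)⁻¹ * g * σ ^ j ∈ H := by
  intro g hg j
  induction j with
  | zero => simpa using hg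
  | succ j ih =>
    have h1 := hnorm _ ih
    have e : (σ ^ (j + 1))⁻¹ * g * σ ^ (j + 1) = σ⁻¹ * ((σ ^ j)⁻¹ * g * σ ^ j) * σ := by
      rw [pow_succ]
      group
    rw [e]
    exact h1

/-- `σ^j f` is `H`-fixed if `f` is. -/
theorem S40F2ABR_gal_fix_pow (hnorm : ∀ g ∈ H, σ⁻¹ * g * σ ∈ H)
    {f : ↥(modularFunctionFieldBar N)} (hf : ∀ g ∈ H, GR_gal N g f = f) (j : ℕ) :
    ∀ g ∈ H, GR_gal N g (GR_gal N (σ ^ j) f) = GR_gal N (σ ^ j) f := by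
  intro g hg
  have h1 := hf _ (S40F2ABR_hconj σ H hnorm g hg j)
  have e : g * σ ^ j = σ ^ j * ((σ ^ j)⁻¹ * g * σ ^ j) := by group
  rw [← S33NT_gal_mul, e, S33NT_gal_mul, h1]

/-- the norm of an `H`-fixed function is `H`-fixed. -/
theorem S40F2ABR_norm_fixed (hnorm : ∀ g ∈ H, σ⁻¹ * g * σ ∈ H) (p : ℕ)
    {f : ↥(modularFunctionFieldBar N)} (hf : ∀ g ∈ H, GR_gal N g f = f) :
    ∀ g ∈ H, GR_gal N g (∏ j ∈ Finset.range p, GR_gal N (σ ^ j) f) =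
      ∏ j ∈ Finset.range p, GR_gal N (σ ^ j) f := by
  intro g hg
  rw [map_prod]
  exact Finset.prod_congr rfl (fun j _ => S40F2ABR_gal_fix_pow N σ H hnorm hf j g hg)

/-- `∏_{j<n} σ^j (σ u / u) = σ^n u / u`. -/
theorem S40F2ABR_telescope (n : ℕ) (u : ↥(modularFunctionFieldBar N)) (hu0 : u ≠ 0) :
    ∏ j ∈ Finset.range n, GR_gal N (σ ^ j) (GR_gal N σ u / u) = GR_gal N (σ ^ n) u / u := by
  induction n with
  | zero =>
    rw [Finset.prod_range_zero, pow_zero, S33NT_gal_one, div_self hu0]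
  | succ n ih =>
    have hn0 : GR_gal N (σ ^ n) u ≠ 0 := (map_ne_zero _).mpr hu0
    rw [Finset.prod_range_succ, ih, map_div₀, ← S33NT_gal_mul, ← pow_succ]
    field_simp

/-- a `σ`-fixed function is fixed by the powers of `σ`. -/
theorem S40F2ABR_pow_fixed {f : ↥(modularFunctionFieldBar N)} (hf : GR_gal N σ f = f) (j : ℕ) :
    GR_gal N (σ ^ j) f = f := by
  rw [← S40F2ABI_iter]
  exact Function.iterate_fixed hf j

/-- **the norm relation**: `u_z · ∏_{j<p} σ^j h = κ`, a nonzero `H`-fixed constant. -/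
theorem S40F2ABR_rel {p : ℕ} (hp : 0 < p) (hnorm : ∀ g ∈ H, σ⁻¹ * g * σ ∈ H) (hσp : σ ^ p ∈ H)
    {u u_z h : ↥(modularFunctionFieldBar N)} {c : Ω}
    (hu0 : u ≠ 0) (huz0 : u_z ≠ 0) (hh0 : h ≠ 0) (hc0 : c ≠ 0)
    (huH : ∀ g ∈ H, GR_gal N g u = u) (huzH : ∀ g ∈ H, GR_gal N g u_z = u_z)
    (hσuz : GR_gal N σ u_z = u_z) (hhH : ∀ g ∈ H, GR_gal N g h = h)
    (hσu : GR_gal N σ u = algebraMap Ω ↥(modularFunctionFieldBar N) c * u * u_z * h ^ p) :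
    ∃ κ : Ω, κ ≠ 0 ∧ (∀ g ∈ H, g κ = κ) ∧
      u_z * ∏ j ∈ Finset.range p, GR_gal N (σ ^ j) h =
        algebraMap Ω ↥(modularFunctionFieldBar N) κ := by
  have hq : GR_gal N σ u / u = algebraMap Ω ↥(modularFunctionFieldBar N) c * u_z * h ^ p := by
    rw [hσu]
    field_simp
  have h1 : ∏ j ∈ Finset.range p, GR_gal N (σ ^ j) (GR_gal N σ u / u) = 1 := by
    rw [S40F2ABR_telescope N σ p u hu0, huH _ hσp, div_self hu0]
  have h2 : ∀ j ∈ Finset.range p, GR_gal N (σ ^ j) (GR_gal N σ u / u) =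
      algebraMap Ω ↥(modularFunctionFieldBar N) ((σ ^ j) c) * u_z * (GR_gal N (σ ^ j) h) ^ p := by
    intro j _
    rw [hq, map_mul, map_mul, map_pow, S40F2ABR_pow_fixed N σ hσuz j]
    congr 2
    exact arithmeticRingAut_algebraMap (modularFunctionFieldFull N) (σ ^ j) c
  rw [Finset.prod_congr rfl h2, Finset.prod_mul_distrib, Finset.prod_mul_distrib,
    Finset.prod_const, Finset.card_range, Finset.prod_pow, ← map_prod] at h1
  obtain ⟨C₀, hC₀⟩ : ∃ C₀ : Ω, C₀ = ∏ j ∈ Finset.range p, (σ ^ j) c := ⟨_, rfl⟩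
  rw [← hC₀] at h1
  have hC₀0 : C₀ ≠ 0 := by
    rw [hC₀, Finset.prod_ne_zero_iff]
    intro j _
    exact (map_ne_zero _).mpr hc0
  obtain ⟨Nh, hNh⟩ : ∃ Nh : ↥(modularFunctionFieldBar N),
      Nh = ∏ j ∈ Finset.range p, GR_gal N (σ ^ j) h := ⟨_, rfl⟩
  rw [← hNh] at h1 ⊢
  have hNh0 : Nh ≠ 0 := by
    rw [hNh, Finset.prod_ne_zero_iff]
    intro j _
    exact (map_ne_zero _).mpr hh0
  have hcC₀ : algebraMap Ω ↥(modularFunctionFieldBar N) C₀ ≠ 0 := (map_ne_zero _).mpr hC₀0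
  have h3 : (u_z * Nh) ^ p = algebraMap Ω ↥(modularFunctionFieldBar N) C₀⁻¹ := by
    rw [map_inv₀]
    refine eq_inv_of_mul_eq_one_right ?_
    rw [← h1]
    ring
  obtain ⟨b, hb⟩ := S40F2D_const_of_pow N p hp (u_z * Nh) C₀⁻¹ (inv_ne_zero hC₀0) h3
  refine ⟨b, ?_, ?_, hb⟩
  · intro h0
    rw [h0, map_zero] at hb
    exact mul_ne_zero huz0 hNh0 hb
  · intro g hg
    have h4 : GR_gal N g (u_z * Nh) = u_z * Nh := by
      rw [map_mul, huzH g hg, hNh, S40F2ABR_norm_fixed N σ H hnorm p hhH g hg]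
    rw [hb] at h4
    have h5 : GR_gal N g (algebraMap Ω ↥(modularFunctionFieldBar N) b) =
        algebraMap Ω ↥(modularFunctionFieldBar N) (g b) :=
      arithmeticRingAut_algebraMap (modularFunctionFieldFull N) g b
    rw [h5] at h4
    exact (algebraMap Ω ↥(modularFunctionFieldBar N)).injective h4

end rel

/-! ### the fields `H1`, `H2` of `S40F2M_Gen` on the real objects -/

section main

variable (M p : ℕ) [NeZero (M * p)] (hp : p.Prime) (A : ValuationSubring Ω)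
  (hA : A.LiesOverPrime p) (H : Subgroup Γ)

include hp hA in
/-- **Step 1b + Step 3 for a Gauss valuation `T` over `A`**. -/
theorem S40F2ABR_gen {k Fk : Type*} [Field k] [Field Fk] [Algebra k Fk] [IsAlgClosed k]
    (T : S18_Val Ω ↥(modularFunctionFieldBar (M * p)) k Fk) (hT : T.A = A)
    (hgalO : ∀ τ ∈ A.inertiaSubgroupIn ℚ, ∀ x ∈ T.O, GR_gal (M * p) τ x ∈ T.O)
    (hdv : ∀ (H' : Subgroup Γ) (ϖ' : Ω), S33NL2_Unif A H' ϖ' →
      ∀ x ∈ (S36FI_act (M * p) H').fixF, x ≠ 0 → ∃ k : ℤ,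
        T.O.valuation (x * algebraMap Ω ↥(modularFunctionFieldBar (M * p)) ϖ' ^ k) = 1)
    {ζ : Ω} (hprim : IsPrimitiveRoot ζ p)
    (σ : Γ) (hσ : σ ∈ S40D_I1 A p) (hHI : ∀ g ∈ H, g ∈ S40D_I1 A p)
    (hdec : ∀ g ∈ S40D_I1 A p, ∃ k : ℕ, (σ ^ k)⁻¹ * g ∈ H)
    (hnorm : ∀ g ∈ H, σ⁻¹ * g * σ ∈ H) (hσp : σ ^ p ∈ H)
    {π c r : Ω} {t : ℕ} (ht1 : 1 ≤ t) (htp : t ≤ p - 1)
    (hπH : ∀ g ∈ H, g π = π) (hcH : ∀ g ∈ H, g c = c) (hrH : ∀ g ∈ H, g r = r)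
    (hvπ : A.valuation π ^ p = A.valuation (1 - ζ)) (hvc : A.valuation c = 1)
    (hvr : A.valuation r ≤ 1)
    (hunif : σ π = π * (1 + c * π ^ t) + π ^ (t + 2) * r)
    (hdisc : ∀ x : Ω, x ≠ 0 → (∀ g ∈ H, g x = x) → ∃ k : ℤ, A.valuation x = A.valuation π ^ k)
    {u u_z h : ↥(modularFunctionFieldBar (M * p))} {cσ cz : Ω}
    (hu0 : u ≠ 0) (huz0 : u_z ≠ 0) (hh0 : h ≠ 0) (hcσ0 : cσ ≠ 0)
    (huH : ∀ g ∈ H, GR_gal (M * p) g u = u) (huzH : ∀ g ∈ H, GR_gal (M * p) g u_z = u_z)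
    (hσuz : GR_gal (M * p) σ u_z = u_z) (hhH : ∀ g ∈ H, GR_gal (M * p) g h = h)
    (hσu : GR_gal (M * p) σ u =
      algebraMap Ω ↥(modularFunctionFieldBar (M * p)) cσ * u * u_z * h ^ p)
    (hczH : ∀ g ∈ H, g cz = cz) (hvcz : A.valuation cz = 1)
    (hR2 : T.O.valuation (u_z - algebraMap Ω ↥(modularFunctionFieldBar (M * p)) cz) ≤
      T.O.valuation (algebraMap Ω ↥(modularFunctionFieldBar (M * p)) π) ^ (p * t + 1)) :
    ∃ d : Ω, d ≠ 0 ∧ (∀ g ∈ H, g d = d) ∧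
      S40F2J_Cg T.O.valuation (algebraMap Ω ↥(modularFunctionFieldBar (M * p)) π) t
        (h / algebraMap Ω ↥(modularFunctionFieldBar (M * p)) d) 0 := by
  classical
  subst hT
  haveI : Fact p.Prime := ⟨hp⟩
  have hζ1 : (1 - ζ : Ω) ≠ 0 := S33BZ_one_sub_ne_zero hprim
  have hΛ1 : T.A.valuation (1 - ζ) < 1 := S33BZ_val_one_sub_lt T.A hA hprim
  have hπ0 : π ≠ 0 := by
    intro h0
    rw [h0, map_zero, zero_pow hp.ne_zero] at hvπ
    exact ((map_ne_zero T.A.valuation).mpr hζ1) hvπ.symm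
  have hvπ1 : T.A.valuation π < 1 := by
    by_contra hcon
    push Not at hcon
    have h1 : (1 : _) ≤ T.A.valuation π ^ p := one_le_pow₀ hcon
    rw [hvπ] at h1
    exact absurd hΛ1 (not_lt.mpr h1)
  have hπK : π ∈ (S36FI_act (M * p) H).fixK := (S36FI_mem_fixK (M * p) H).2 hπH
  have hUπ : S33NL2_Unif T.A H π := S33ND_unif_of_val T.A H (M * p) hπK hπ0 hvπ1
    (fun c hc hc0 => hdisc c hc0 ((S36FI_mem_fixK (M * p) H).1 hc))
  have hcπ0 : algebraMap Ω ↥(modularFunctionFieldBar (M * p)) π ≠ 0 := (map_ne_zero _).mpr hπ0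
  have hVπ0 : T.O.valuation (algebraMap Ω ↥(modularFunctionFieldBar (M * p)) π) ≠ 0 :=
    (map_ne_zero _).mpr hcπ0
  -- normalise `h`
  obtain ⟨m, hm⟩ := hdv H π hUπ h ((S36FI_mem_fixF (M * p) H).2 hhH) hh0
  obtain ⟨a, ha⟩ : ∃ a : Ω, a = π ^ m := ⟨_, rfl⟩
  have ha0 : a ≠ 0 := by rw [ha]; exact zpow_ne_zero m hπ0
  have hca0 : algebraMap Ω ↥(modularFunctionFieldBar (M * p)) a ≠ 0 := (map_ne_zero _).mpr ha0
  have haH : ∀ g ∈ H, g a = a := by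
    intro g hg
    rw [ha, map_zpow₀, hπH g hg]
  obtain ⟨h', hh'⟩ : ∃ h' : ↥(modularFunctionFieldBar (M * p)),
      h' = h * algebraMap Ω ↥(modularFunctionFieldBar (M * p)) a := ⟨_, rfl⟩
  have hVh' : T.O.valuation h' = 1 := by
    rw [hh', ha, map_zpow₀]
    exact hm
  have hh'0 : h' ≠ 0 := by rw [hh']; exact mul_ne_zero hh0 hca0
  have hh'H : ∀ g ∈ H, GR_gal (M * p) g h' = h' := by
    intro g hg
    rw [hh', map_mul, hhH g hg]
    congr 1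
    have h5 : GR_gal (M * p) g (algebraMap Ω ↥(modularFunctionFieldBar (M * p)) a) =
        algebraMap Ω ↥(modularFunctionFieldBar (M * p)) (g a) :=
      arithmeticRingAut_algebraMap (modularFunctionFieldFull (M * p)) g a
    rw [h5, haH g hg]
  have hσu' : GR_gal (M * p) σ u =
      algebraMap Ω ↥(modularFunctionFieldBar (M * p)) (cσ * (a ^ p)⁻¹) * u * u_z * h' ^ p := by
    rw [hσu, hh', map_mul, map_inv₀, map_pow, mul_pow]
    field_simp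
  obtain ⟨κ, hκ0, hκH, hrel⟩ := S40F2ABR_rel (M * p) σ H hp.pos hnorm hσp hu0 huz0 hh'0
    (mul_ne_zero hcσ0 (inv_ne_zero (pow_ne_zero p ha0))) huH huzH hσuz hh'H hσu'
  obtain ⟨d, hdH, hvd, hd⟩ := S40F2ABI_gen M p hp T.A hA H T rfl hgalO hdv hprim σ hσ hHI hdec
    hnorm hσp ht1 htp hπH hcH hrH hvπ hvc hvr hunif hdisc hh'H hVh' huzH hczH hvcz hκH hR2 hrel
  have hd0 : d ≠ 0 := by
    intro h0
    rw [h0, map_zero] at hvd
    exact zero_ne_one hvd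
  have hcd0 : algebraMap Ω ↥(modularFunctionFieldBar (M * p)) d ≠ 0 := (map_ne_zero _).mpr hd0
  refine ⟨d * a⁻¹, mul_ne_zero hd0 (inv_ne_zero ha0), ?_, ?_⟩
  · intro g hg
    rw [map_mul, map_inv₀, hdH g hg, haH g hg]
  · have h1 := S40F2J_cg_of_const (V := T.O.valuation)
      (π := algebraMap Ω ↥(modularFunctionFieldBar (M * p)) π) (i := t) (h := h')
      (c := algebraMap Ω ↥(modularFunctionFieldBar (M * p)) d) (S40F2ABI_val_one T hvd) hd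
    have e : h' / algebraMap Ω ↥(modularFunctionFieldBar (M * p)) d =
        h / algebraMap Ω ↥(modularFunctionFieldBar (M * p)) (d * a⁻¹) := by
      rw [hh', map_mul, map_inv₀]
      field_simp
    rw [← e]
    exact h1

end main

/-! ### the two Gauss valuations `V₁`, `V₂` -/

section inst

variable (M p : ℕ) [NeZero (M * p)] (hp : p.Prime) (hpM : ¬ p ∣ M)
  (A : ValuationSubring Ω) (hA : A.LiesOverPrime p)
  (hgen : PrincipalGeneratedByIntegral A (IsLocalRing.residue A) (M * p))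
  (H : Subgroup Γ)

include hp hpM hA in
/-- **the field `H1` of `S40F2M_Gen`** on the real objects. -/
theorem S40F2ABR_V1 {ζ : Ω} (hprim : IsPrimitiveRoot ζ p)
    (σ : Γ) (hσ : σ ∈ S40D_I1 A p) (hHI : ∀ g ∈ H, g ∈ S40D_I1 A p)
    (hdec : ∀ g ∈ S40D_I1 A p, ∃ k : ℕ, (σ ^ k)⁻¹ * g ∈ H)
    (hnorm : ∀ g ∈ H, σ⁻¹ * g * σ ∈ H) (hσp : σ ^ p ∈ H)
    {π c r : Ω} {t : ℕ} (ht1 : 1 ≤ t) (htp : t ≤ p - 1)
    (hπH : ∀ g ∈ H, g π = π) (hcH : ∀ g ∈ H, g c = c) (hrH : ∀ g ∈ H, g r = r)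
    (hvπ : A.valuation π ^ p = A.valuation (1 - ζ)) (hvc : A.valuation c = 1)
    (hvr : A.valuation r ≤ 1)
    (hunif : σ π = π * (1 + c * π ^ t) + π ^ (t + 2) * r)
    (hdisc : ∀ x : Ω, x ≠ 0 → (∀ g ∈ H, g x = x) → ∃ k : ℤ, A.valuation x = A.valuation π ^ k)
    {u u_z h : ↥(modularFunctionFieldBar (M * p))} {cσ cz : Ω}
    (hu0 : u ≠ 0) (huz0 : u_z ≠ 0) (hh0 : h ≠ 0) (hcσ0 : cσ ≠ 0)
    (huH : ∀ g ∈ H, GR_gal (M * p) g u = u) (huzH : ∀ g ∈ H, GR_gal (M * p) g u_z = u_z)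
    (hσuz : GR_gal (M * p) σ u_z = u_z) (hhH : ∀ g ∈ H, GR_gal (M * p) g h = h)
    (hσu : GR_gal (M * p) σ u =
      algebraMap Ω ↥(modularFunctionFieldBar (M * p)) cσ * u * u_z * h ^ p)
    (hczH : ∀ g ∈ H, g cz = cz) (hvcz : A.valuation cz = 1)
    (hR2 : (S34M_T1 M p A hgen).O.valuation
        (u_z - algebraMap Ω ↥(modularFunctionFieldBar (M * p)) cz) ≤
      (S34M_T1 M p A hgen).O.valuation
        (algebraMap Ω ↥(modularFunctionFieldBar (M * p)) π) ^ (p * t + 1)) :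
    ∃ d : Ω, d ≠ 0 ∧ (∀ g ∈ H, g d = d) ∧
      S40F2J_Cg (S34M_T1 M p A hgen).O.valuation
        (algebraMap Ω ↥(modularFunctionFieldBar (M * p)) π) t
        (h / algebraMap Ω ↥(modularFunctionFieldBar (M * p)) d) 0 := by
  haveI : IsAlgClosed (IsLocalRing.ResidueField A) := S18_residue_isAlgClosed A
  exact S40F2ABR_gen M p hp A hA H (S34M_T1 M p A hgen) rfl
    (S40F2ABI_galO1 M p A hgen)
    (fun H' ϖ' hU => S40F2CI_dv1 M p hp hpM A hA hgen H' hU)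
    hprim σ hσ hHI hdec hnorm hσp ht1 htp hπH hcH hrH hvπ hvc hvr hunif hdisc hu0 huz0 hh0 hcσ0
    huH huzH hσuz hhH hσu hczH hvcz hR2

include hA in
/-- **the field `H2` of `S40F2M_Gen`** on the real objects. -/
theorem S40F2ABR_V2 {ζ : Ω} (hprim : IsPrimitiveRoot ζ p)
    (σ : Γ) (hσ : σ ∈ S40D_I1 A p) (hHI : ∀ g ∈ H, g ∈ S40D_I1 A p)
    (hdec : ∀ g ∈ S40D_I1 A p, ∃ k : ℕ, (σ ^ k)⁻¹ * g ∈ H)
    (hnorm : ∀ g ∈ H, σ⁻¹ * g * σ ∈ H) (hσp : σ ^ p ∈ H)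
    {π c r : Ω} {t : ℕ} (ht1 : 1 ≤ t) (htp : t ≤ p - 1)
    (hπH : ∀ g ∈ H, g π = π) (hcH : ∀ g ∈ H, g c = c) (hrH : ∀ g ∈ H, g r = r)
    (hvπ : A.valuation π ^ p = A.valuation (1 - ζ)) (hvc : A.valuation c = 1)
    (hvr : A.valuation r ≤ 1)
    (hunif : σ π = π * (1 + c * π ^ t) + π ^ (t + 2) * r)
    (hdisc : ∀ x : Ω, x ≠ 0 → (∀ g ∈ H, g x = x) → ∃ k : ℤ, A.valuation x = A.valuation π ^ k)
    {u u_z h : ↥(modularFunctionFieldBar (M * p))} {cσ cz : Ω}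
    (hu0 : u ≠ 0) (huz0 : u_z ≠ 0) (hh0 : h ≠ 0) (hcσ0 : cσ ≠ 0)
    (huH : ∀ g ∈ H, GR_gal (M * p) g u = u) (huzH : ∀ g ∈ H, GR_gal (M * p) g u_z = u_z)
    (hσuz : GR_gal (M * p) σ u_z = u_z) (hhH : ∀ g ∈ H, GR_gal (M * p) g h = h)
    (hσu : GR_gal (M * p) σ u =
      algebraMap Ω ↥(modularFunctionFieldBar (M * p)) cσ * u * u_z * h ^ p)
    (hczH : ∀ g ∈ H, g cz = cz) (hvcz : A.valuation cz = 1)
    (hR2 : (S34M_T2 M p hp hpM A hgen).O.valuation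
        (u_z - algebraMap Ω ↥(modularFunctionFieldBar (M * p)) cz) ≤
      (S34M_T2 M p hp hpM A hgen).O.valuation
        (algebraMap Ω ↥(modularFunctionFieldBar (M * p)) π) ^ (p * t + 1)) :
    ∃ d : Ω, d ≠ 0 ∧ (∀ g ∈ H, g d = d) ∧
      S40F2J_Cg (S34M_T2 M p hp hpM A hgen).O.valuation
        (algebraMap Ω ↥(modularFunctionFieldBar (M * p)) π) t
        (h / algebraMap Ω ↥(modularFunctionFieldBar (M * p)) d) 0 := by
  haveI : IsAlgClosed (IsLocalRing.ResidueField A) := S18_residue_isAlgClosed A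
  exact S40F2ABR_gen M p hp A hA H (S34M_T2 M p hp hpM A hgen) rfl
    (S40F2ABI_galO2 M p hp hpM A hgen)
    (fun H' ϖ' hU => S40F2CI_dv2 M p hp hpM A hA hgen H' hU)
    hprim σ hσ hHI hdec hnorm hσp ht1 htp hπH hcH hrH hvπ hvc hvr hunif hdisc hu0 huz0 hh0 hcσ0
    huH huzH hσuz hhH hσu hczH hvcz hR2

end inst

end Fermat.Agent.S40
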