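import Mathlib
import Fermat.Agent.S40.F2JumpNode
import Fermat.Agent.S40.F2SlopeInt

/-!
# TRACK 13 (S40/S44, row 38), (F2'): the INTEGRATION of the abstract chain (helper16).
Prefix `S40F2M_`.  Mathlib + `NodeAbs` / `F2Jump(Node)` / `F2Slope(NA/Int)` only.

Setting: `F` = the field of the `H`-fixed modular functions, `L` = the constants (`= K̄^H`),
`N : S40NA_Node L F k` a node of the special fibre (helper26), `O₁ = N.O₁`, `O₂ = N.O₂` the two Gauss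
valuation rings, `π` the uniformiser of the constants, `c`, `t` the constants of the break
(`σ π = π (1 + c π^t + …)`, `S40F2B_main`), `X`, `Y`, `ϖ` the coordinates of the node (`X Y = ϖ`),
`vL` the integer valuation of the constants (`vL ϖ = p · e'`).

`C` = the subfield of `F` of the `H`-fixed constants (discretely valued, uniformiser `π`); `L` may be
bigger (all of `ℚ̄`, as in `NodeInst.lean`).

* `S40F2M_Coord` : the hypotheses on the node, its coordinates and the constants (the job list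
  of P1 / NodeInst / BREAK-INST);
* `S40F2M_Gen` : the hypotheses on a pair `(u, h)` (`u` a Kummer generator of a class,
  `σ u = c_σ · u · u_z · h ^ p`) at the node: the constants `c₁, c₂` of `u` and `d₁, d₂` of `h` at
  `V₁, V₂`, the slope `n` of `u`, and the points of the divisor of `u` in the annulus of the node
  with the annulus factor `E` of `h` (the job list of (A1), Step 3 = `S40F2AB_main_break`);
* `S40F2M_C` : **the relation (C)** of a generator at a node: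
  `vL c₂ − vL c₁ = p K`, `p ∣ K − (n e' + Ns)`, `d₂ = d₁ (1 + δ π^t)`, `c Ns ≡ δ` modulo the maximal
  ideal (slope formula `S40F2SI_hx` + jump `S40F2K_main`);
* `S40F2M_pow` : `(1 + δ π^t)^m = 1 + δ' π^t` with `δ' ≡ m δ`;
* `S40F2M_kill` : the arithmetic of the Hecke step;
* `S40F2M_node` : **(F2') at one node**: the relations (C) for `(u, h)` and for its Hecke
  transform `(u', h') = (t u, t h)` (constants `c_j^(l+1)`, `d_j^(l+1)`: (E1), (E2)), with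
  `n' ≡ a n`, `p ∤ a − l − 1`, `p ∤ e'`, give `p ∣ n`;
* `S40F2M_main` : the same for a family of nodes.
-/

set_option autoImplicit false

namespace Fermat.Agent.S40

variable {L F k : Type*} [Field L] [Field F] [Algebra L F] [Field k]

/-- the hypotheses on the node `N`, its coordinates `X`, `Y`, `ϖ` and the constants `π`, `c`. -/
structure S40F2M_Coord (N : S40NA_Node L F k) (C : Subfield F) (vL : F → ℤ) (π c X Y ϖ : F)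
    (p : ℕ) (e' : ℤ) : Prop where
  hCL : ∀ a ∈ C, ∃ b : L, algebraMap L F b = a
  hA₁ : ∀ a : L, algebraMap L F a ∈ N.O₁ → a ∈ N.A
  hA₂ : ∀ a : L, algebraMap L F a ∈ N.O₂ → a ∈ N.A
  hπC : π ∈ C
  hπ0 : π ≠ 0
  hπ1 : π ∈ N.O₁.nonunits
  hdisc : ∀ a ∈ C, a ∈ N.O₁.nonunits → a / π ∈ N.O₁
  hcC : c ∈ C
  hc1 : S40F2S_IsU N.O₁ c
  hchar : ∀ n : ℤ, (n : F) ∈ N.O₁.nonunits → (p : ℤ) ∣ n
  hfin : ∀ g : F, {Q : S40NA_Pt L F | Q ∈ N.U ∧ g ∉ Q.P}.Finite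
  hXY : X * Y = ϖ
  hX : S40F2S_IsU N.O₁ X
  hY : S40F2S_IsU N.O₂ Y
  hXP : S40F2SN_NoZP N X
  hv : S40F2SI_Val N.O₂ C vL
  hϖL : ϖ ∈ C
  hϖe : vL ϖ = p * e'

/-- the hypotheses on a pair `(u, h)` at the node: constants `c₁, c₂` of `u` and `d₁, d₂` of `h`
at `V₁, V₂`, slope `n` of `u`, and the divisor of `u` in the annulus of the node. -/
structure S40F2M_Gen (N : S40NA_Node L F k) (C : Subfield F) (vL : F → ℤ) (π c X ϖ : F)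
    (p t : ℕ) (u h c₁ c₂ d₁ d₂ : F) (n : ℤ) : Prop where
  hc₁ : c₁ ∈ C
  hc₂ : c₂ ∈ C
  hc₁0 : c₁ ≠ 0
  hc₂0 : c₂ ≠ 0
  hd₁ : d₁ ∈ C
  hd₂ : d₂ ∈ C
  hd₁0 : d₁ ≠ 0
  hd₂0 : d₂ ≠ 0
  hu₁ : S40F2SN_U1 N (u / (c₁ * X ^ n))
  hu₂ : S40F2S_IsU N.O₂ (u / c₂)
  H1 : S40F2J_Cg N.O₁.valuation π t (h / d₁) 0
  H2 : S40F2J_Cg N.O₂.valuation π t (h / d₂) 0
  hdiv : ∃ (ι : Type) (s : Finset ι) (w : ι → F) (m : ι → ℤ) (u' E : F),
    (∀ i ∈ s, w i ≠ 0) ∧ (∀ i ∈ s, w i ∈ N.O₁.nonunits) ∧ (∀ i ∈ s, ϖ / w i ∈ N.O₂.nonunits) ∧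
    S40F2SN_NoZP N u' ∧ u = u' * ∏ i ∈ s, (X - w i) ^ ((p : ℤ) * m i) ∧
    ∏ i ∈ s, w i ^ m i ∈ C ∧
    S40F2K_Reg N (h / E) ∧
    S40F2J_Cg N.O₁.valuation π t E 0 ∧
    S40F2J_Cg N.O₂.valuation π t E (c * ((vL (∏ i ∈ s, w i ^ m i) : ℤ) : F))

/-- **the relation (C)** of a generator at a node. -/
theorem S40F2M_C (N : S40NA_Node L F k) {C : Subfield F} {vL : F → ℤ} {π c X Y ϖ : F} {p : ℕ} {e' : ℤ}
    (hC : S40F2M_Coord N C vL π c X Y ϖ p e') {t : ℕ} (ht : 1 ≤ t)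
    {u h c₁ c₂ d₁ d₂ : F} {n : ℤ} (hG : S40F2M_Gen N C vL π c X ϖ p t u h c₁ c₂ d₁ d₂ n) :
    ∃ (K Ns : ℤ) (δ : F), vL c₂ - vL c₁ = p * K ∧ (p : ℤ) ∣ K - (n * e' + Ns) ∧
      δ ∈ N.O₁ ∧ d₂ = d₁ * (1 + δ * π ^ t) ∧ c * (Ns : F) - δ ∈ N.O₁.nonunits := by
  obtain ⟨ι, s, w, m, u', E, hw0, hw₁, hw₂, hu'P, hu, hWL, hR, E1, E2⟩ := hG.hdiv
  obtain ⟨K, hK, hKd⟩ := S40F2SI_hx N hC.hfin hC.hXY hC.hX hC.hY hC.hXP hC.hv s w m hw0 hw₁ hw₂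
    (hC.hCL _ hG.hc₁) hG.hc₁0 hu'P p hu hG.hc₂0 n hG.hu₁ hG.hu₂ hG.hc₁ hG.hc₂ hC.hϖL hWL e'
    hC.hϖe
  have hA1 : c * ((vL (∏ i ∈ s, w i ^ m i) : ℤ) : F) ∈ N.O₂ := by
    have hc2 : c ∈ N.O₂ := by
      obtain ⟨b, rfl⟩ := hC.hCL c hC.hcC
      exact N.const₂ b (hC.hA₁ b hC.hc1.mem)
    exact N.O₂.mul_mem _ _ hc2 (intCast_mem N.O₂ _)
  obtain ⟨δ, -, hδ1, hd, hδ⟩ := S40F2K_main N C π
    hC.hCL hC.hA₁ hC.hA₂ hC.hπC hC.hπ0 hC.hπ1 hC.hdisc ht hR hG.hd₁ hG.hd₂ hG.hd₁0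
    hG.hd₂0 (Subfield.zero_mem _) (Subfield.zero_mem _)
    (Subfield.mul_mem _ hC.hcC (Subfield.intCast_mem _ _)) (N.O₁.zero_mem) (N.O₂.zero_mem) hA1
    hG.H1 hG.H2 E1 E2
  refine ⟨K, vL (∏ i ∈ s, w i ^ m i), δ, hK, hKd, hδ1, hd, ?_⟩
  have e : c * ((vL (∏ i ∈ s, w i ^ m i) : ℤ) : F) - δ
      = 0 - 0 + c * ((vL (∏ i ∈ s, w i ^ m i) : ℤ) : F) - δ := by ring
  rw [e]
  exact hδ

/-- `(1 + x)^m = 1 + m x + x² q` with `q` in any subring containing `x`. -/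
theorem S40F2M_binom (R : Subring F) {x : F} (hx : x ∈ R) (m : ℕ) :
    ∃ q ∈ R, (1 + x) ^ m = 1 + (m : F) * x + x ^ 2 * q := by
  induction m with
  | zero => exact ⟨0, R.zero_mem, by simp⟩
  | succ m ih =>
    obtain ⟨q, hq, e⟩ := ih
    refine ⟨(m : F) + q + q * x, R.add_mem (R.add_mem (natCast_mem R m) hq) (R.mul_mem hq hx), ?_⟩
    rw [pow_succ, e]
    push_cast
    ring

/-- `d₂ = d₁ (1 + δ π^t)` and `d₂^m = d₁^m (1 + δ' π^t)` give `δ' ≡ m δ`. -/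
theorem S40F2M_pow (O : ValuationSubring F) {π d₁ d₂ δ δ' : F} {t : ℕ} (ht : 1 ≤ t) (m : ℕ)
    (hπ0 : π ≠ 0) (hπ1 : π ∈ O.nonunits) (hd₁0 : d₁ ≠ 0) (hδ : δ ∈ O)
    (hd : d₂ = d₁ * (1 + δ * π ^ t)) (hd' : d₂ ^ m = d₁ ^ m * (1 + δ' * π ^ t)) :
    δ' - (m : F) * δ ∈ O.nonunits := by
  have hπO : π ∈ O := O.nonunits_subset hπ1
  have hx : δ * π ^ t ∈ O.toSubring := O.toSubring.mul_mem hδ (O.toSubring.pow_mem hπO t)
  obtain ⟨q, hq, e⟩ := S40F2M_binom O.toSubring hx m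
  have hπt0 : π ^ t ≠ 0 := pow_ne_zero t hπ0
  have h1 : d₁ ^ m * (1 + δ' * π ^ t) = d₁ ^ m * (1 + δ * π ^ t) ^ m := by
    rw [← hd', hd, mul_pow]
  have h2 := mul_left_cancel₀ (pow_ne_zero m hd₁0) h1
  rw [e] at h2
  have h3 : (δ' - (m : F) * δ) * π ^ t = (δ ^ 2 * π ^ t * q) * π ^ t := by
    linear_combination h2
  have h4 := mul_right_cancel₀ hπt0 h3
  rw [h4, ValuationSubring.mem_nonunits_iff]
  have hVπ : O.valuation π < 1 := (ValuationSubring.mem_nonunits_iff _).mp hπ1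
  have hVδ : O.valuation δ ≤ 1 := (ValuationSubring.valuation_le_one_iff _ _).mpr hδ
  have hVq : O.valuation q ≤ 1 := (ValuationSubring.valuation_le_one_iff _ _).mpr hq
  have hVπt : O.valuation (π ^ t) < 1 := by
    rw [map_pow]
    exact pow_lt_one₀ zero_le hVπ (by omega)
  have hVδ2 : O.valuation (δ ^ 2) ≤ 1 := by
    rw [map_pow]
    exact pow_le_one₀ zero_le hVδ
  calc O.valuation (δ ^ 2 * π ^ t * q)
      = O.valuation (δ ^ 2) * O.valuation (π ^ t) * O.valuation q := by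
        rw [map_mul, map_mul]
    _ ≤ 1 * O.valuation (π ^ t) * 1 := by gcongr
    _ = O.valuation (π ^ t) := by rw [one_mul, mul_one]
    _ < 1 := hVπt

/-- the arithmetic of the Hecke step. -/
theorem S40F2M_kill {p : ℕ} (hp : p.Prime) (n n' e K K' Ns Ns' a l : ℤ)
    (h1 : (p : ℤ) ∣ K - (n * e + Ns)) (h2 : (p : ℤ) ∣ K' - (n' * e + Ns'))
    (hK : K' = (l + 1) * K) (hN : (p : ℤ) ∣ Ns' - (l + 1) * Ns)
    (hn : (p : ℤ) ∣ n' - a * n) (he : ¬ (p : ℤ) ∣ e) (ha : ¬ (p : ℤ) ∣ a - l - 1) :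
    (p : ℤ) ∣ n := by
  obtain ⟨z₁, hz₁⟩ := h1
  obtain ⟨z₂, hz₂⟩ := h2
  obtain ⟨z₃, hz₃⟩ := hN
  obtain ⟨z₄, hz₄⟩ := hn
  have h3 : (p : ℤ) ∣ (a - l - 1) * (n * e) := by
    refine ⟨(l + 1) * z₁ - z₂ - z₃ - z₄ * e, ?_⟩
    subst hK
    linear_combination (l + 1) * hz₁ - hz₂ - hz₃ - e * hz₄
  have hpp := Nat.prime_iff_prime_int.mp hp
  rcases hpp.dvd_or_dvd h3 with h | h
  · exact (ha h).elim
  · rcases hpp.dvd_or_dvd h with h | h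
    · exact h
    · exact (he h).elim

/-- **(F2') at one node**: the relations (C) for `(u, h)` and for the Hecke transform `(u', h')`
(whose constants are `c_j^(l+1)`, `d_j^(l+1)`), with `n' ≡ a n`, `p ∤ a − l − 1`, `p ∤ e'`, give
`p ∣ n`. -/
theorem S40F2M_node (N : S40NA_Node L F k) {C : Subfield F} {vL : F → ℤ} {π c X Y ϖ : F} {p : ℕ} (hp : p.Prime)
    {e' : ℤ} (hC : S40F2M_Coord N C vL π c X Y ϖ p e') {t : ℕ} (ht : 1 ≤ t)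
    {u h c₁ c₂ d₁ d₂ : F} {n : ℤ} (hG : S40F2M_Gen N C vL π c X ϖ p t u h c₁ c₂ d₁ d₂ n)
    (l : ℕ) {u' h' : F} {n' : ℤ}
    (hG' : S40F2M_Gen N C vL π c X ϖ p t u' h' (c₁ ^ (l + 1)) (c₂ ^ (l + 1)) (d₁ ^ (l + 1))
      (d₂ ^ (l + 1)) n')
    (a : ℤ) (hn : (p : ℤ) ∣ n' - a * n) (he : ¬ (p : ℤ) ∣ e')
    (ha : ¬ (p : ℤ) ∣ a - (l : ℤ) - 1) : (p : ℤ) ∣ n := by
  obtain ⟨K, Ns, δ, hK, hKd, hδ1, hd, hδ⟩ := S40F2M_C N hC ht hG
  obtain ⟨K', Ns', δ', hK', hKd', hδ1', hd', hδ'⟩ := S40F2M_C N hC ht hG'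
  have hp0 : (p : ℤ) ≠ 0 := by exact_mod_cast hp.ne_zero
  -- `K' = (l + 1) K`
  have hKK : K' = ((l : ℤ) + 1) * K := by
    have e1 : vL (c₁ ^ (l + 1)) = ((l + 1 : ℕ) : ℤ) * vL c₁ := hC.hv.pow hG.hc₁ hG.hc₁0 (l + 1)
    have e2 : vL (c₂ ^ (l + 1)) = ((l + 1 : ℕ) : ℤ) * vL c₂ := hC.hv.pow hG.hc₂ hG.hc₂0 (l + 1)
    rw [e1, e2] at hK'
    have e3 : (p : ℤ) * K' = (p : ℤ) * (((l : ℤ) + 1) * K) := by
      push_cast at hK'
      linear_combination (-1 : ℤ) * hK' + ((l : ℤ) + 1) * hK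
    exact mul_left_cancel₀ hp0 e3
  -- `Ns' ≡ (l + 1) Ns`
  have hδδ : δ' - ((l + 1 : ℕ) : F) * δ ∈ N.O₁.nonunits :=
    S40F2M_pow N.O₁ ht (l + 1) hC.hπ0 hC.hπ1 hG.hd₁0 hδ1 hd hd'
  have hNN : (p : ℤ) ∣ Ns' - ((l : ℤ) + 1) * Ns := by
    apply hC.hchar
    have hV := fun x (hx : x ∈ N.O₁.nonunits) => (ValuationSubring.mem_nonunits_iff (A := N.O₁)).mp hx
    have h1 := hV _ hδ
    have h2 := hV _ hδ'
    have h3 := hV _ hδδ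
    have hl : N.O₁.valuation (((l + 1 : ℕ) : F)) ≤ 1 :=
      (ValuationSubring.valuation_le_one_iff _ _).mpr (natCast_mem N.O₁ _)
    have h4 : N.O₁.valuation (((l + 1 : ℕ) : F) * (c * (Ns : F) - δ)) < 1 := by
      rw [map_mul]
      exact mul_lt_one_of_nonneg_of_lt_one_right hl zero_le h1
    have e : c * (((Ns' - ((l : ℤ) + 1) * Ns : ℤ)) : F)
        = (c * (Ns' : F) - δ') + (δ' - ((l + 1 : ℕ) : F) * δ)
          - ((l + 1 : ℕ) : F) * (c * (Ns : F) - δ) := by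
      push_cast
      ring
    have h5 : N.O₁.valuation (c * (((Ns' - ((l : ℤ) + 1) * Ns : ℤ)) : F)) < 1 := by
      rw [e]
      refine lt_of_le_of_lt (N.O₁.valuation.map_sub _ _) (max_lt ?_ h4)
      exact lt_of_le_of_lt (N.O₁.valuation.map_add _ _) (max_lt h2 h3)
    rw [map_mul, hC.hc1, one_mul] at h5
    exact (ValuationSubring.mem_nonunits_iff (A := N.O₁)).mpr h5
  exact S40F2M_kill hp n n' e' K K' Ns Ns' a l hKd hKd' hKK hNN hn he ha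

/-- **(F2') for a family of nodes.** -/
theorem S40F2M_main {ι : Type*} (N : ι → S40NA_Node L F k) {C : Subfield F} {vL : F → ℤ} {π c : F}
    {X Y ϖ : ι → F} {p : ℕ} (hp : p.Prime) {e' : ι → ℤ}
    (hC : ∀ s, S40F2M_Coord (N s) C vL π c (X s) (Y s) (ϖ s) p (e' s)) {t : ℕ} (ht : 1 ≤ t)
    {u h c₁ c₂ d₁ d₂ : F} {n : ι → ℤ}
    (hG : ∀ s, S40F2M_Gen (N s) C vL π c (X s) (ϖ s) p t u h c₁ c₂ d₁ d₂ (n s))
    (l : ℕ) {u' h' : F} {n' : ι → ℤ}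
    (hG' : ∀ s, S40F2M_Gen (N s) C vL π c (X s) (ϖ s) p t u' h' (c₁ ^ (l + 1)) (c₂ ^ (l + 1))
      (d₁ ^ (l + 1)) (d₂ ^ (l + 1)) (n' s))
    (a : ℤ) (hn : ∀ s, (p : ℤ) ∣ n' s - a * n s) (he : ∀ s, ¬ (p : ℤ) ∣ e' s)
    (ha : ¬ (p : ℤ) ∣ a - (l : ℤ) - 1) (s : ι) : (p : ℤ) ∣ n s :=
  S40F2M_node (N s) hp (hC s) ht (hG s) l (hG' s) a (hn s) (he s) ha

end Fermat.Agent.S40
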