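import Mathlib
import Fermat.Agent.S40.F2Main

/-!
# TRACK 13 (S40/S44, row 38), (F2'): the integration at depth `p t`, WITHOUT `h` and `u_z`
(helper16).  Prefix `S40F2M2_`.  Mathlib + `F2Main`.

`S40/F2Main.lean` reads the jump on the `p`-th root `h` of `r · σ u / u`, `r = (c_σ u_z)⁻¹`, and
needs that `u_z` has no zero and no pole specialising to the node.  Here the jump is read on
`y = σ u / u` itself, at depth `p t`: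

* `y ≡ Y_j  mod π^(p t + 1)` at `V_j` (`Y_j = c_σ b_j d_j^p`: Steps 2–3 of the chain);
* `y / E ^ p = σ u' / u'` has no zero and no pole specialising to the node (`u = u' Ψ^p`,
  `E = σ Ψ / Ψ`): NO hypothesis on `u_z`;
* `E ≡ 1 + A π^t` ⇒ `E ^ p ≡ 1 + A ^ p π^(p t)  mod π^(p t + 1)` (`S40F2M2_pow_p`, from
  `v(p) + t ≥ p t + 1`);
* jump (`S40F2K_main` at depth `p t`): `Y₂ = Y₁ (1 + δ π^(p t))`, `δ ≡ (c N_s)^p`;
* Hecke: `(c N_s')^p ≡ (l + 1) (c N_s)^p`, and `N^p ≡ N mod p`: `N_s' ≡ (l + 1) N_s`.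

* `S40F2M2_Gen` : the hypotheses on `(u, y)` at the node;  `S40F2M2_C` : the relation (C);
* `S40F2M2_node`, `S40F2M2_main` : `p ∣ n` at every node.
-/

set_option autoImplicit false

namespace Fermat.Agent.S40

section pow

variable {F : Type*} [Field F] {Γ : Type*} [LinearOrderedCommGroupWithZero Γ]
  (V : Valuation F Γ)

/-- `E ≡ 1 + A π^t mod π^(t+1)` ⇒ `E ^ p ≡ 1 + A ^ p π^(p t) mod π^(p t + 1)` when
`v(p) + t ≥ p t + 1`. -/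
theorem S40F2M2_pow_p {p : ℕ} (hp : p.Prime) {π E A : F} {t : ℕ} (hπ : V π ≤ 1) (hA : V A ≤ 1)
    (hpv : V (p : F) * V π ^ t ≤ V π ^ (p * t + 1))
    (hE : S40F2J_Cg V π t E A) : S40F2J_Cg V π (p * t) (E ^ p) (A ^ p) := by
  unfold S40F2J_Cg at hE ⊢
  set ρ : F := E - (1 + A * π ^ t) with hρ
  have hπt : V (π ^ t) ≤ 1 := by rw [map_pow]; exact pow_le_one₀ zero_le hπ
  have hρ1 : V ρ ≤ V π ^ (t + 1) := hE
  have hρt : V ρ ≤ V π ^ t := hρ1.trans (pow_le_pow_of_le_one zero_le hπ (Nat.le_succ t))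
  have hρO : V ρ ≤ 1 := hρt.trans (by rw [← map_pow]; exact hπt)
  have haO : V (A * π ^ t) ≤ V π ^ t := by
    rw [map_mul, map_pow]; exact mul_le_of_le_one_left' hA
  have haO1 : V (A * π ^ t) ≤ 1 := haO.trans (by rw [← map_pow]; exact hπt)
  -- work in the ring of integers
  let a : V.integer := ⟨A * π ^ t, haO1⟩
  let b : V.integer := ⟨ρ, hρO⟩
  obtain ⟨r₁, hr₁⟩ := exists_add_pow_prime_eq hp (1 : V.integer) (a + b)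
  obtain ⟨r₂, hr₂⟩ := exists_add_pow_prime_eq hp a b
  have e1 : (1 + (A * π ^ t + ρ)) ^ p
      = 1 + (A * π ^ t + ρ) ^ p + (p : F) * (A * π ^ t + ρ) * (r₁ : F) := by
    have := congrArg (fun z : V.integer => (z : F)) hr₁
    simpa using this
  have e2 : (A * π ^ t + ρ) ^ p
      = (A * π ^ t) ^ p + ρ ^ p + (p : F) * (A * π ^ t) * ρ * (r₂ : F) := by
    have := congrArg (fun z : V.integer => (z : F)) hr₂
    simpa using this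
  have hE' : E = 1 + (A * π ^ t + ρ) := by rw [hρ]; ring
  have key : E ^ p - (1 + A ^ p * π ^ (p * t))
      = ρ ^ p + (p : F) * (A * π ^ t) * ρ * (r₂ : F)
        + (p : F) * (A * π ^ t + ρ) * (r₁ : F) := by
    rw [hE', e1, e2, mul_pow, ← pow_mul, mul_comm t p]
    ring
  rw [key]
  have hr₁v : V (r₁ : F) ≤ 1 := r₁.2
  have hr₂v : V (r₂ : F) ≤ 1 := r₂.2
  have hzt : V (A * π ^ t + ρ) ≤ V π ^ t := V.map_add_le haO hρt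
  -- the three terms
  have h1 : V (ρ ^ p) ≤ V π ^ (p * t + 1) := by
    rw [map_pow]
    calc V ρ ^ p ≤ (V π ^ (t + 1)) ^ p := pow_le_pow_left₀ zero_le hρ1 p
      _ = V π ^ ((t + 1) * p) := by rw [pow_mul]
      _ ≤ V π ^ (p * t + 1) := by
          apply pow_le_pow_of_le_one zero_le hπ
          have := hp.one_le
          nlinarith
  have h2 : V ((p : F) * (A * π ^ t) * ρ * (r₂ : F)) ≤ V π ^ (p * t + 1) := by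
    rw [map_mul, map_mul, map_mul]
    calc V (p : F) * V (A * π ^ t) * V ρ * V (r₂ : F)
        ≤ V (p : F) * V π ^ t * 1 * 1 := by gcongr
      _ = V (p : F) * V π ^ t := by rw [mul_one, mul_one]
      _ ≤ V π ^ (p * t + 1) := hpv
  have h3 : V ((p : F) * (A * π ^ t + ρ) * (r₁ : F)) ≤ V π ^ (p * t + 1) := by
    rw [map_mul, map_mul]
    calc V (p : F) * V (A * π ^ t + ρ) * V (r₁ : F)
        ≤ V (p : F) * V π ^ t * 1 := by gcongr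
      _ = V (p : F) * V π ^ t := by rw [mul_one]
      _ ≤ V π ^ (p * t + 1) := hpv
  exact V.map_add_le (V.map_add_le h1 h2) h3

end pow

/-- `n ^ p ≡ n mod p`. -/
theorem S40F2M2_fermat {p : ℕ} (hp : p.Prime) (n : ℤ) : (p : ℤ) ∣ n ^ p - n := by
  have : Fact p.Prime := Fact.mk hp
  rw [← ZMod.intCast_zmod_eq_zero_iff_dvd]
  push_cast
  rw [ZMod.pow_card, sub_self]

variable {L F k : Type*} [Field L] [Field F] [Algebra L F] [Field k]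

/-- the hypotheses on a pair `(u, y)` (`y = σ u / u`) at the node: constants `c₁, c₂` of `u` and
`Y₁, Y₂` of `y` (at depth `p t`) at `V₁, V₂`, slope `n` of `u`, and the divisor of `u` in the
annulus of the node. -/
structure S40F2M2_Gen (N : S40NA_Node L F k) (C : Subfield F) (vL : F → ℤ) (π c X ϖ : F)
    (p t : ℕ) (u y c₁ c₂ Y₁ Y₂ : F) (n : ℤ) : Prop where
  hc₁ : c₁ ∈ C
  hc₂ : c₂ ∈ C
  hc₁0 : c₁ ≠ 0
  hc₂0 : c₂ ≠ 0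
  hY₁ : Y₁ ∈ C
  hY₂ : Y₂ ∈ C
  hY₁0 : Y₁ ≠ 0
  hY₂0 : Y₂ ≠ 0
  hu₁ : S40F2SN_U1 N (u / (c₁ * X ^ n))
  hu₂ : S40F2S_IsU N.O₂ (u / c₂)
  H1 : S40F2J_Cg N.O₁.valuation π (p * t) (y / Y₁) 0
  H2 : S40F2J_Cg N.O₂.valuation π (p * t) (y / Y₂) 0
  hdiv : ∃ (ι : Type) (s : Finset ι) (w : ι → F) (m : ι → ℤ) (u' E : F),
    (∀ i ∈ s, w i ≠ 0) ∧ (∀ i ∈ s, w i ∈ N.O₁.nonunits) ∧ (∀ i ∈ s, ϖ / w i ∈ N.O₂.nonunits) ∧
    S40F2SN_NoZP N u' ∧ u = u' * ∏ i ∈ s, (X - w i) ^ ((p : ℤ) * m i) ∧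
    ∏ i ∈ s, w i ^ m i ∈ C ∧
    S40F2K_Reg N (y / E ^ p) ∧
    S40F2J_Cg N.O₁.valuation π t E 0 ∧
    S40F2J_Cg N.O₂.valuation π t E (c * ((vL (∏ i ∈ s, w i ^ m i) : ℤ) : F))

/-- **the relation (C) at depth `p t`.** -/
theorem S40F2M2_C (N : S40NA_Node L F k) {C : Subfield F} {vL : F → ℤ} {π c X Y ϖ : F} {p : ℕ}
    (hp : p.Prime) {e' : ℤ} (hC : S40F2M_Coord N C vL π c X Y ϖ p e') {t : ℕ} (ht : 1 ≤ t)
    (hpv₁ : N.O₁.valuation (p : F) * N.O₁.valuation π ^ t ≤ N.O₁.valuation π ^ (p * t + 1))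
    (hpv₂ : N.O₂.valuation (p : F) * N.O₂.valuation π ^ t ≤ N.O₂.valuation π ^ (p * t + 1))
    {u y c₁ c₂ Y₁ Y₂ : F} {n : ℤ} (hG : S40F2M2_Gen N C vL π c X ϖ p t u y c₁ c₂ Y₁ Y₂ n) :
    ∃ (K Ns : ℤ) (δ : F), vL c₂ - vL c₁ = p * K ∧ (p : ℤ) ∣ K - (n * e' + Ns) ∧
      δ ∈ N.O₁ ∧ Y₂ = Y₁ * (1 + δ * π ^ (p * t)) ∧ (c * (Ns : F)) ^ p - δ ∈ N.O₁.nonunits := by
  obtain ⟨ι, s, w, m, u', E, hw0, hw₁, hw₂, hu'P, hu, hWL, hR, E1, E2⟩ := hG.hdiv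
  obtain ⟨K, hK, hKd⟩ := S40F2SI_hx N hC.hfin hC.hXY hC.hX hC.hY hC.hXP hC.hv s w m hw0 hw₁ hw₂
    (hC.hCL _ hG.hc₁) hG.hc₁0 hu'P p hu hG.hc₂0 n hG.hu₁ hG.hu₂ hG.hc₁ hG.hc₂ hC.hϖL hWL e'
    hC.hϖe
  have hNd := S40F2K_node N C π hC.hCL hC.hA₁ hC.hA₂ hC.hπC hC.hπ0 hC.hπ1 hC.hdisc
  have hπ₁ : N.O₁.valuation π ≤ 1 := hNd.hπ1.le
  have hπ₂ : N.O₂.valuation π ≤ 1 := hNd.hπ2.le
  have hc2 : c ∈ N.O₂ := by
    obtain ⟨b, rfl⟩ := hC.hCL c hC.hcC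
    exact N.const₂ b (hC.hA₁ b hC.hc1.mem)
  have hA2 : c * ((vL (∏ i ∈ s, w i ^ m i) : ℤ) : F) ∈ N.O₂ :=
    N.O₂.mul_mem _ _ hc2 (intCast_mem N.O₂ _)
  have hAC : c * ((vL (∏ i ∈ s, w i ^ m i) : ℤ) : F) ∈ C :=
    Subfield.mul_mem _ hC.hcC (Subfield.intCast_mem _ _)
  have E1p : S40F2J_Cg N.O₁.valuation π (p * t) (E ^ p) 0 := by
    have := S40F2M2_pow_p N.O₁.valuation hp hπ₁ (by simp) hpv₁ E1
    rwa [zero_pow hp.ne_zero] at this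
  have E2p := S40F2M2_pow_p N.O₂.valuation hp hπ₂
    ((ValuationSubring.valuation_le_one_iff _ _).mpr hA2) hpv₂ E2
  have hpt : 1 ≤ p * t := Nat.one_le_iff_ne_zero.mpr (Nat.mul_ne_zero hp.ne_zero (by omega))
  obtain ⟨δ, -, hδ1, hd, hδ⟩ := S40F2K_main N C π
    hC.hCL hC.hA₁ hC.hA₂ hC.hπC hC.hπ0 hC.hπ1 hC.hdisc hpt hR hG.hY₁ hG.hY₂ hG.hY₁0
    hG.hY₂0 (Subfield.zero_mem _) (Subfield.zero_mem _)
    (Subfield.pow_mem _ hAC p) (N.O₁.zero_mem) (N.O₂.zero_mem) (N.O₂.pow_mem hA2 p)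
    hG.H1 hG.H2 E1p E2p
  refine ⟨K, vL (∏ i ∈ s, w i ^ m i), δ, hK, hKd, hδ1, hd, ?_⟩
  have e : (c * ((vL (∏ i ∈ s, w i ^ m i) : ℤ) : F)) ^ p - δ
      = 0 - 0 + (c * ((vL (∏ i ∈ s, w i ^ m i) : ℤ) : F)) ^ p - δ := by ring
  rw [e]
  exact hδ

/-- **(F2') at one node, depth `p t`.** -/
theorem S40F2M2_node (N : S40NA_Node L F k) {C : Subfield F} {vL : F → ℤ} {π c X Y ϖ : F}
    {p : ℕ} (hp : p.Prime) {e' : ℤ} (hC : S40F2M_Coord N C vL π c X Y ϖ p e') {t : ℕ}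
    (ht : 1 ≤ t)
    (hpv₁ : N.O₁.valuation (p : F) * N.O₁.valuation π ^ t ≤ N.O₁.valuation π ^ (p * t + 1))
    (hpv₂ : N.O₂.valuation (p : F) * N.O₂.valuation π ^ t ≤ N.O₂.valuation π ^ (p * t + 1))
    {u y c₁ c₂ Y₁ Y₂ : F} {n : ℤ} (hG : S40F2M2_Gen N C vL π c X ϖ p t u y c₁ c₂ Y₁ Y₂ n)
    (l : ℕ) {u' y' : F} {n' : ℤ}
    (hG' : S40F2M2_Gen N C vL π c X ϖ p t u' y' (c₁ ^ (l + 1)) (c₂ ^ (l + 1)) (Y₁ ^ (l + 1))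
      (Y₂ ^ (l + 1)) n')
    (a : ℤ) (hn : (p : ℤ) ∣ n' - a * n) (he : ¬ (p : ℤ) ∣ e')
    (ha : ¬ (p : ℤ) ∣ a - (l : ℤ) - 1) : (p : ℤ) ∣ n := by
  obtain ⟨K, Ns, δ, hK, hKd, hδ1, hd, hδ⟩ := S40F2M2_C N hp hC ht hpv₁ hpv₂ hG
  obtain ⟨K', Ns', δ', hK', hKd', hδ1', hd', hδ'⟩ := S40F2M2_C N hp hC ht hpv₁ hpv₂ hG'
  have hp0 : (p : ℤ) ≠ 0 := by exact_mod_cast hp.ne_zero
  have hpt : 1 ≤ p * t := Nat.one_le_iff_ne_zero.mpr (Nat.mul_ne_zero hp.ne_zero (by omega))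
  have hKK : K' = ((l : ℤ) + 1) * K := by
    have e1 : vL (c₁ ^ (l + 1)) = ((l + 1 : ℕ) : ℤ) * vL c₁ := hC.hv.pow hG.hc₁ hG.hc₁0 (l + 1)
    have e2 : vL (c₂ ^ (l + 1)) = ((l + 1 : ℕ) : ℤ) * vL c₂ := hC.hv.pow hG.hc₂ hG.hc₂0 (l + 1)
    rw [e1, e2] at hK'
    have e3 : (p : ℤ) * K' = (p : ℤ) * (((l : ℤ) + 1) * K) := by
      push_cast at hK'
      linear_combination (-1 : ℤ) * hK' + ((l : ℤ) + 1) * hK
    exact mul_left_cancel₀ hp0 e3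
  have hδδ : δ' - ((l + 1 : ℕ) : F) * δ ∈ N.O₁.nonunits :=
    S40F2M_pow N.O₁ hpt (l + 1) hC.hπ0 hC.hπ1 hG.hY₁0 hδ1 hd hd'
  have hV := fun x (hx : x ∈ N.O₁.nonunits) => (ValuationSubring.mem_nonunits_iff (A := N.O₁)).mp hx
  -- `Ns' ^ p ≡ (l + 1) Ns ^ p`
  have hNNp : (p : ℤ) ∣ Ns' ^ p - ((l : ℤ) + 1) * Ns ^ p := by
    apply hC.hchar
    have h1 := hV _ hδ
    have h2 := hV _ hδ'
    have h3 := hV _ hδδ
    have hl : N.O₁.valuation (((l + 1 : ℕ) : F)) ≤ 1 :=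
      (ValuationSubring.valuation_le_one_iff _ _).mpr (natCast_mem N.O₁ _)
    have h4 : N.O₁.valuation (((l + 1 : ℕ) : F) * ((c * (Ns : F)) ^ p - δ)) < 1 := by
      rw [map_mul]
      exact mul_lt_one_of_nonneg_of_lt_one_right hl zero_le h1
    have e : c ^ p * (((Ns' ^ p - ((l : ℤ) + 1) * Ns ^ p : ℤ)) : F)
        = ((c * (Ns' : F)) ^ p - δ') + (δ' - ((l + 1 : ℕ) : F) * δ)
          - ((l + 1 : ℕ) : F) * ((c * (Ns : F)) ^ p - δ) := by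
      push_cast
      ring
    have h5 : N.O₁.valuation (c ^ p * (((Ns' ^ p - ((l : ℤ) + 1) * Ns ^ p : ℤ)) : F)) < 1 := by
      rw [e]
      refine lt_of_le_of_lt (N.O₁.valuation.map_sub _ _) (max_lt ?_ h4)
      exact lt_of_le_of_lt (N.O₁.valuation.map_add _ _) (max_lt h2 h3)
    have hcp : N.O₁.valuation (c ^ p) = 1 := by
      rw [map_pow, hC.hc1, one_pow]
    rw [map_mul, hcp, one_mul] at h5
    exact (ValuationSubring.mem_nonunits_iff (A := N.O₁)).mpr h5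
  have hNN : (p : ℤ) ∣ Ns' - ((l : ℤ) + 1) * Ns := by
    obtain ⟨z₁, hz₁⟩ := hNNp
    obtain ⟨z₂, hz₂⟩ := S40F2M2_fermat hp Ns'
    obtain ⟨z₃, hz₃⟩ := S40F2M2_fermat hp Ns
    refine ⟨z₁ - z₂ + ((l : ℤ) + 1) * z₃, ?_⟩
    linear_combination hz₁ - hz₂ + ((l : ℤ) + 1) * hz₃
  exact S40F2M_kill hp n n' e' K K' Ns Ns' a l hKd hKd' hKK hNN hn he ha

/-- **(F2') for a family of nodes, depth `p t`.** -/
theorem S40F2M2_main {ι : Type*} (N : ι → S40NA_Node L F k) {C : Subfield F} {vL : F → ℤ}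
    {π c : F} {X Y ϖ : ι → F} {p : ℕ} (hp : p.Prime) {e' : ι → ℤ}
    (hC : ∀ s, S40F2M_Coord (N s) C vL π c (X s) (Y s) (ϖ s) p (e' s)) {t : ℕ} (ht : 1 ≤ t)
    (hpv₁ : ∀ s, (N s).O₁.valuation (p : F) * (N s).O₁.valuation π ^ t
      ≤ (N s).O₁.valuation π ^ (p * t + 1))
    (hpv₂ : ∀ s, (N s).O₂.valuation (p : F) * (N s).O₂.valuation π ^ t
      ≤ (N s).O₂.valuation π ^ (p * t + 1))
    {u y c₁ c₂ Y₁ Y₂ : F} {n : ι → ℤ}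
    (hG : ∀ s, S40F2M2_Gen (N s) C vL π c (X s) (ϖ s) p t u y c₁ c₂ Y₁ Y₂ (n s))
    (l : ℕ) {u' y' : F} {n' : ι → ℤ}
    (hG' : ∀ s, S40F2M2_Gen (N s) C vL π c (X s) (ϖ s) p t u' y' (c₁ ^ (l + 1)) (c₂ ^ (l + 1))
      (Y₁ ^ (l + 1)) (Y₂ ^ (l + 1)) (n' s))
    (a : ℤ) (hn : ∀ s, (p : ℤ) ∣ n' s - a * n s) (he : ∀ s, ¬ (p : ℤ) ∣ e' s)
    (ha : ¬ (p : ℤ) ∣ a - (l : ℤ) - 1) (s : ι) : (p : ℤ) ∣ n s :=
  S40F2M2_node (N s) hp (hC s) ht (hpv₁ s) (hpv₂ s) (hG s) l (hG' s) a (hn s) (he s) ha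

end Fermat.Agent.S40
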