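import Fermat.Agent.S40.F2ABDesc
import Fermat.Agent.S40.F2Main2

/-!
# TRACK 13 (S40 / S44, row 38), (F2'): the fields `H1`, `H2` of `S40F2M2_Gen` (helper16's
`F2Main2`) on the real objects (helper11).  Prefix `S40F2ABY_`.

`y = σ u / u = c_σ · u_z · h^p`, `u_z ≡ b_j` modulo `π^(pt+1)`, `h ≡ d_j` modulo `π^(t+1)`
(`S40F2ABR_V1/_V2`)  ⇒  `y / Y_j ≡ 1` modulo `π^(pt+1)` with `Y_j = c_σ · b_j · d_j^p`.

* `S40F2ABY_hpv`  : `V p · V(π)^t ≤ V(π)^(pt+1)` (the hypothesis `hpv` of `S40F2M2_pow_p`,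
  `S40F2M2_main`);
* **`S40F2ABY_gen`** : for a Gauss valuation `T` over `A` (as in `S40F2ABI_gen`);
* **`S40F2ABY_V1`**, **`S40F2ABY_V2`** : at `V₁`, `V₂`;
* **`S40F2ABY_H12`** : from generators `u` of `x`, `u_z` of `z = σ x − x` (`H`-fixed, `u_z` fixed
  by `σ`) and the START of `u_z` in the shape of `S40R2ST_main`: `H`-fixed constants `Y₁, Y₂ ≠ 0`
  with `S40F2J_Cg V_j π (p t) ((σ u / u) / Y_j) 0`.
-/

set_option autoImplicit false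
set_option linter.unusedSectionVars false
set_option linter.unusedVariables false
set_option linter.style.haveILetI false
set_option synthInstance.maxHeartbeats 400000
set_option maxHeartbeats 1000000

open HahnSeries ModularCurve IntermediateField AlgebraicCurve

namespace Fermat.Agent.S40

open Fermat.Agent.S18 Fermat.Agent.S24 Fermat.Agent.S34 Fermat.Agent.S36 Fermat.Agent.GalRep
  Fermat.Agent.S33 Fermat.Agent.S19

local notation "Ω" => AlgebraicClosure ℚ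
local notation "Γ" => (AlgebraicClosure ℚ ≃ₐ[ℚ] AlgebraicClosure ℚ)

section hpv

variable {F k Fk : Type*} [Field F] [Algebra Ω F] [Field k] [Field Fk] [Algebra k Fk]
  (T : S18_Val Ω F k Fk)

/-- `V p · V(π)^t ≤ V(π)^(pt+1)` from `v(π)^p = v(1 − ζ)`, `t ≤ p − 1`. -/
theorem S40F2ABY_hpv {p : ℕ} [hp : Fact p.Prime] {ζ π : Ω} (hprim : IsPrimitiveRoot ζ p)
    (hvπ : T.A.valuation π ^ p = T.A.valuation (1 - ζ)) (hvπ1 : T.A.valuation π ≤ 1)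
    (hπ0 : π ≠ 0) {t : ℕ} (htp : t ≤ p - 1) :
    T.O.valuation ((p : ℕ) : F) * T.O.valuation (algebraMap Ω F π) ^ t ≤
      T.O.valuation (algebraMap Ω F π) ^ (p * t + 1) := by
  have h1 : T.A.valuation ((p : ℕ) : Ω) = T.A.valuation π ^ (p * (p - 1)) := by
    rw [← S36BL_val_one_sub_zeta T.A hprim, ← hvπ, ← pow_mul]
  have h2 : p * t + 1 ≤ p * (p - 1) + t := by
    obtain ⟨q, hq⟩ : ∃ q, p = q + 1 := ⟨p - 1, by have := hp.out.two_le; omega⟩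
    have hq1 : 1 ≤ q := by have := hp.out.two_le; omega
    have htq : t ≤ q := by omega
    have e1 : p - 1 = q := by omega
    rw [e1, hq]
    nlinarith [Nat.mul_le_mul_left q htq]
  have h3 : T.O.valuation ((p : ℕ) : F) = T.O.valuation (algebraMap Ω F π) ^ (p * (p - 1)) := by
    have h4 := S40F2ABI_val_zpow T hπ0 ((p * (p - 1) : ℕ) : ℤ) (a := ((p : ℕ) : Ω))
      (by rw [zpow_natCast]; exact h1)
    rwa [zpow_natCast, map_natCast] at h4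
  have hVπ1 : T.O.valuation (algebraMap Ω F π) ≤ 1 := (S40F2ABI_val_le_one T π).2 hvπ1
  rw [h3, ← _root_.pow_add]
  exact pow_le_pow_of_le_one zero_le hVπ1 h2

end hpv

section main

variable (M p : ℕ) [NeZero (M * p)] (hp : p.Prime) (A : ValuationSubring Ω)
  (hA : A.LiesOverPrime p) (H : Subgroup Γ)

include hp hA in
/-- **`H1`/`H2` of `S40F2M2_Gen` for a Gauss valuation `T` over `A`**. -/
theorem S40F2ABY_gen {k Fk : Type*} [Field k] [Field Fk] [Algebra k Fk] [IsAlgClosed k]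
    (T : S18_Val Ω ↥(modularFunctionFieldBar (M * p)) k Fk) (hT : T.A = A)
    (hgalO : ∀ τ ∈ A.inertiaSubgroupIn ℚ, ∀ x ∈ T.O, GR_gal (M * p) τ x ∈ T.O)
    (hdv : ∀ (H' : Subgroup Γ) (ϖ' : Ω), S33NL2_Unif A H' ϖ' →
      ∀ x ∈ (S36FI_act (M * p) H').fixF, x ≠ 0 → ∃ k : ℤ,
        T.O.valuation (x * algebraMap Ω ↥(modularFunctionFieldBar (M * p)) ϖ' ^ k) = 1)
    {ζ : Ω} (hprim : IsPrimitiveRoot ζ p)
    (σ : Γ) (hσ : σ ∈ S40D_I1 A p) (hHI : ∀ g ∈ H, g ∈ S40D_I1 A p)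
    (hdec : ∀ g ∈ S40D_I1 A p, ∃ k : ℕ, (σ ^ k)⁻¹ * g ∈ H)
    (hnorm : ∀ g ∈ H, σ⁻¹ * g * σ ∈ H) (hσp : σ ^ p ∈ H)
    {π c r : Ω} {t : ℕ} (ht1 : 1 ≤ t) (htp : t ≤ p - 1)
    (hπH : ∀ g ∈ H, g π = π) (hcH : ∀ g ∈ H, g c = c) (hrH : ∀ g ∈ H, g r = r)
    (hvπ : A.valuation π ^ p = A.valuation (1 - ζ)) (hvc : A.valuation c = 1)
    (hvr : A.valuation r ≤ 1)
    (hunif : σ π = π * (1 + c * π ^ t) + π ^ (t + 2) * r)
    (hdisc : ∀ x : Ω, x ≠ 0 → (∀ g ∈ H, g x = x) → ∃ k : ℤ, A.valuation x = A.valuation π ^ k)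
    {u u_z h : ↥(modularFunctionFieldBar (M * p))} {cσ cz : Ω}
    (hu0 : u ≠ 0) (huz0 : u_z ≠ 0) (hh0 : h ≠ 0) (hcσ0 : cσ ≠ 0)
    (hcσH : ∀ g ∈ H, g cσ = cσ)
    (huH : ∀ g ∈ H, GR_gal (M * p) g u = u) (huzH : ∀ g ∈ H, GR_gal (M * p) g u_z = u_z)
    (hσuz : GR_gal (M * p) σ u_z = u_z) (hhH : ∀ g ∈ H, GR_gal (M * p) g h = h)
    (hσu : GR_gal (M * p) σ u =
      algebraMap Ω ↥(modularFunctionFieldBar (M * p)) cσ * u * u_z * h ^ p)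
    (hczH : ∀ g ∈ H, g cz = cz) (hvcz : A.valuation cz = 1)
    (hR2 : T.O.valuation (u_z - algebraMap Ω ↥(modularFunctionFieldBar (M * p)) cz) ≤
      T.O.valuation (algebraMap Ω ↥(modularFunctionFieldBar (M * p)) π) ^ (p * t + 1)) :
    ∃ Y : Ω, Y ≠ 0 ∧ (∀ g ∈ H, g Y = Y) ∧
      S40F2J_Cg T.O.valuation (algebraMap Ω ↥(modularFunctionFieldBar (M * p)) π) (p * t)
        (GR_gal (M * p) σ u / u / algebraMap Ω ↥(modularFunctionFieldBar (M * p)) Y) 0 := by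
  classical
  obtain ⟨d, hd0, hdH, hH⟩ := S40F2ABR_gen M p hp A hA H T hT hgalO hdv hprim σ hσ hHI hdec hnorm
    hσp ht1 htp hπH hcH hrH hvπ hvc hvr hunif hdisc hu0 huz0 hh0 hcσ0 huH huzH hσuz hhH hσu
    hczH hvcz hR2
  subst hT
  haveI : Fact p.Prime := ⟨hp⟩
  have hζ1 : (1 - ζ : Ω) ≠ 0 := S33BZ_one_sub_ne_zero hprim
  have hΛ1 : T.A.valuation (1 - ζ) < 1 := S33BZ_val_one_sub_lt T.A hA hprim
  have hπ0 : π ≠ 0 := by
    intro h0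
    rw [h0, map_zero, zero_pow hp.ne_zero] at hvπ
    exact ((map_ne_zero T.A.valuation).mpr hζ1) hvπ.symm
  have hvπ1 : T.A.valuation π < 1 := by
    by_contra hcon
    push Not at hcon
    have h1 : (1 : _) ≤ T.A.valuation π ^ p := one_le_pow₀ hcon
    rw [hvπ] at h1
    exact absurd hΛ1 (not_lt.mpr h1)
  have hVπ1 : T.O.valuation (algebraMap Ω ↥(modularFunctionFieldBar (M * p)) π) < 1 :=
    S40F2ABI_val_lt_one T hvπ1
  have hcz0 : cz ≠ 0 := by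
    intro h0
    rw [h0, map_zero] at hvcz
    exact zero_ne_one hvcz
  have hccz0 : algebraMap Ω ↥(modularFunctionFieldBar (M * p)) cz ≠ 0 := (map_ne_zero _).mpr hcz0
  have hcd0 : algebraMap Ω ↥(modularFunctionFieldBar (M * p)) d ≠ 0 := (map_ne_zero _).mpr hd0
  have hccσ0 : algebraMap Ω ↥(modularFunctionFieldBar (M * p)) cσ ≠ 0 := (map_ne_zero _).mpr hcσ0
  have hV0 : T.O.valuation (0 : ↥(modularFunctionFieldBar (M * p))) ≤ 1 := by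
    rw [map_zero]
    exact zero_le
  have hpv := S40F2ABY_hpv T hprim hvπ hvπ1.le hπ0 htp
  -- `(h / d)^p ≡ 1`
  have h1 := S40F2M2_pow_p (V := T.O.valuation) hp hVπ1.le hV0 hpv hH
  rw [zero_pow hp.ne_zero] at h1
  -- `u_z / c_z ≡ 1`
  have h2 : S40F2J_Cg T.O.valuation (algebraMap Ω ↥(modularFunctionFieldBar (M * p)) π) (p * t)
      (u_z / algebraMap Ω ↥(modularFunctionFieldBar (M * p)) cz) 0 :=
    S40F2J_cg_of_const (S40F2ABI_val_one T hvcz) hR2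
  have hpt : 1 ≤ p * t := Nat.one_le_iff_ne_zero.mpr (Nat.mul_ne_zero hp.ne_zero (by omega))
  have h3 := S40F2J_cg_mul h2 h1 hV0 hV0 hVπ1 hpt
  rw [add_zero] at h3
  refine ⟨cσ * cz * d ^ p, mul_ne_zero (mul_ne_zero hcσ0 hcz0) (pow_ne_zero p hd0), ?_, ?_⟩
  · intro g hg
    rw [map_mul, map_mul, map_pow, hcσH g hg, hczH g hg, hdH g hg]
  · have e : GR_gal (M * p) σ u / u /
        algebraMap Ω ↥(modularFunctionFieldBar (M * p)) (cσ * cz * d ^ p) =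
        u_z / algebraMap Ω ↥(modularFunctionFieldBar (M * p)) cz *
          (h / algebraMap Ω ↥(modularFunctionFieldBar (M * p)) d) ^ p := by
      rw [hσu, map_mul, map_mul, map_pow, div_pow]
      field_simp
    rw [e]
    exact h3

end main

section inst

variable (M p : ℕ) [NeZero (M * p)] (hp : p.Prime) (hpM : ¬ p ∣ M)
  (A : ValuationSubring Ω) (hA : A.LiesOverPrime p)
  (hgen : PrincipalGeneratedByIntegral A (IsLocalRing.residue A) (M * p))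
  (H : Subgroup Γ)

include hA in
/-- **the fields `H1`, `H2` of `S40F2M2_Gen`** on the real objects, from generators `u` of `x`
and `u_z` of `z = σ x − x` and the START of `u_z`. -/
theorem S40F2ABY_H12 {ζ : Ω} (hprim : IsPrimitiveRoot ζ p)
    (σ : Γ) (hσ : σ ∈ S40D_I1 A p) (hHI : ∀ g ∈ H, g ∈ S40D_I1 A p)
    (hdec : ∀ g ∈ S40D_I1 A p, ∃ k : ℕ, (σ ^ k)⁻¹ * g ∈ H)
    (hnorm : ∀ g ∈ H, σ⁻¹ * g * σ ∈ H) (hσp : σ ^ p ∈ H)
    {π c r : Ω} {t : ℕ} (ht1 : 1 ≤ t) (htp : t ≤ p - 1)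
    (hπH : ∀ g ∈ H, g π = π) (hcH : ∀ g ∈ H, g c = c) (hrH : ∀ g ∈ H, g r = r)
    (hvπ : A.valuation π ^ p = A.valuation (1 - ζ)) (hvc : A.valuation c = 1)
    (hvr : A.valuation r ≤ 1)
    (hunif : σ π = π * (1 + c * π ^ t) + π ^ (t + 2) * r)
    (hdisc : ∀ x : Ω, x ≠ 0 → (∀ g ∈ H, g x = x) → ∃ k : ℤ, A.valuation x = A.valuation π ^ k)
    {x z : JZero (M * p)} (hz : σ • x - x = z)
    {u u_z : ↥(modularFunctionFieldBar (M * p))}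
    (hu : S33DG_IsGen p x u) (huz : S33DG_IsGen p z u_z)
    (huH : ∀ g ∈ H, GR_gal (M * p) g u = u) (huzH : ∀ g ∈ H, GR_gal (M * p) g u_z = u_z)
    (hσuz : GR_gal (M * p) σ u_z = u_z)
    {n : ℕ} (hnt : p * t + 1 ≤ p * n) {b₁ b₂ : Ω}
    (hb₁H : ∀ g ∈ H, g b₁ = b₁) (hvb₁ : A.valuation b₁ = 1)
    (hb₂H : ∀ g ∈ H, g b₂ = b₂) (hvb₂ : A.valuation b₂ = 1)
    (hst₁ : ∃ l ∈ (S34M_T1 M p A hgen).O,
      u_z - algebraMap Ω ↥(modularFunctionFieldBar (M * p)) b₁ =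
        algebraMap Ω ↥(modularFunctionFieldBar (M * p)) (1 - ζ) ^ n * l)
    (hst₂ : ∃ l ∈ (S34M_T2 M p hp hpM A hgen).O,
      u_z - algebraMap Ω ↥(modularFunctionFieldBar (M * p)) b₂ =
        algebraMap Ω ↥(modularFunctionFieldBar (M * p)) (1 - ζ) ^ n * l) :
    ∃ Y₁ Y₂ : Ω, Y₁ ≠ 0 ∧ (∀ g ∈ H, g Y₁ = Y₁) ∧ Y₂ ≠ 0 ∧ (∀ g ∈ H, g Y₂ = Y₂) ∧
      S40F2J_Cg (S34M_T1 M p A hgen).O.valuation
        (algebraMap Ω ↥(modularFunctionFieldBar (M * p)) π) (p * t)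
        (GR_gal (M * p) σ u / u / algebraMap Ω ↥(modularFunctionFieldBar (M * p)) Y₁) 0 ∧
      S40F2J_Cg (S34M_T2 M p hp hpM A hgen).O.valuation
        (algebraMap Ω ↥(modularFunctionFieldBar (M * p)) π) (p * t)
        (GR_gal (M * p) σ u / u / algebraMap Ω ↥(modularFunctionFieldBar (M * p)) Y₂) 0 := by
  haveI : Fact p.Prime := ⟨hp⟩
  haveI : IsAlgClosed (IsLocalRing.ResidueField A) := S18_residue_isAlgClosed A
  have hu0 : u ≠ 0 := S33DG_isGen_ne_zero hu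
  have huz0 : u_z ≠ 0 := S33DG_isGen_ne_zero huz
  obtain ⟨h, cσ, hcσ0, hh0, hcσH, hhH, hσu⟩ := S40F2ABD_desc (M * p) (H : Set Γ) p hp.pos σ hz hu
    huz huH huzH hnorm
  have hζ1 : (1 - ζ : Ω) ≠ 0 := S33BZ_one_sub_ne_zero hprim
  have hΛ1 : A.valuation (1 - ζ) < 1 := S33BZ_val_one_sub_lt A hA hprim
  have hπ0 : π ≠ 0 := by
    intro h0
    rw [h0, map_zero, zero_pow hp.ne_zero] at hvπ
    exact ((map_ne_zero A.valuation).mpr hζ1) hvπ.symm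
  have hvπ1 : A.valuation π < 1 := by
    by_contra hcon
    push Not at hcon
    have h1 : (1 : _) ≤ A.valuation π ^ p := one_le_pow₀ hcon
    rw [hvπ] at h1
    exact absurd hΛ1 (not_lt.mpr h1)
  have hR1 := S40F2ABD_start (S34M_T1 M p A hgen) (p := p) (n := n) (t := t) (π := π)
    (ϖ := 1 - ζ) (b := b₁) hπ0 hvπ1.le hvπ hnt hst₁
  have hR2 := S40F2ABD_start (S34M_T2 M p hp hpM A hgen) (p := p) (n := n) (t := t) (π := π)
    (ϖ := 1 - ζ) (b := b₂) hπ0 hvπ1.le hvπ hnt hst₂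
  obtain ⟨Y₁, hY₁0, hY₁H, hH1⟩ := S40F2ABY_gen M p hp A hA H (S34M_T1 M p A hgen) rfl
    (S40F2ABI_galO1 M p A hgen)
    (fun H' ϖ' hU => S40F2CI_dv1 M p hp hpM A hA hgen H' hU)
    hprim σ hσ hHI hdec hnorm hσp ht1 htp hπH hcH hrH hvπ hvc hvr hunif hdisc hu0 huz0 hh0 hcσ0
    hcσH huH huzH hσuz hhH hσu hb₁H hvb₁ hR1
  obtain ⟨Y₂, hY₂0, hY₂H, hH2⟩ := S40F2ABY_gen M p hp A hA H (S34M_T2 M p hp hpM A hgen) rfl
    (S40F2ABI_galO2 M p hp hpM A hgen)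
    (fun H' ϖ' hU => S40F2CI_dv2 M p hp hpM A hA hgen H' hU)
    hprim σ hσ hHI hdec hnorm hσp ht1 htp hπH hcH hrH hvπ hvc hvr hunif hdisc hu0 huz0 hh0 hcσ0
    hcσH huH huzH hσuz hhH hσu hb₂H hvb₂ hR2
  exact ⟨Y₁, Y₂, hY₁0, hY₁H, hY₂0, hY₂H, hH1, hH2⟩

end inst

end Fermat.Agent.S40
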