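import Fermat.Agent.S40.F2ABY

/-!
# TRACK 13 (S40 / S44, row 38), (F2'): the leaf (f) of `S40F2AS_node` (helper16's `F2Asm`):
the fields `hY₁`, `hY₂`, `hY₁0`, `hY₂0`, `H1`, `H2` of `S40F2M2_Gen` in NODE FORM (helper11).
Prefix `S40F2ABN_`.

For ANY valuation rings `O₁ = S34DF_O1 M p A hgen`, `O₂ = S34DF_O2 M p hp hpM A hgen` (e.g.
`N.O₁`, `N.O₂` of a node) and ANY subfield `C₀` of `ℚ̄` containing the `H`-fixed constants:

* `S40F2ABN_hpv`  : `hpv₁`, `hpv₂` of `S40F2AS_node`;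
* **`S40F2ABN_main`** : `∃ Y₁ Y₂ ∈ C₀.map (algebraMap Ω 𝔽)`, `≠ 0`, with
  `S40F2J_Cg O_j.valuation π (p t) ((σ u / u) / Y_j) 0`  (`y := σ u / u`).
-/

set_option autoImplicit false
set_option linter.unusedSectionVars false
set_option linter.unusedVariables false
set_option linter.style.haveILetI false
set_option synthInstance.maxHeartbeats 400000
set_option maxHeartbeats 1000000

open HahnSeries ModularCurve IntermediateField AlgebraicCurve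

namespace Fermat.Agent.S40

open Fermat.Agent.S18 Fermat.Agent.S24 Fermat.Agent.S34 Fermat.Agent.S36 Fermat.Agent.GalRep
  Fermat.Agent.S33 Fermat.Agent.S19

local notation "Ω" => AlgebraicClosure ℚ
local notation "Γ" => (AlgebraicClosure ℚ ≃ₐ[ℚ] AlgebraicClosure ℚ)

section node

variable (M p : ℕ) [NeZero (M * p)] (hp : p.Prime) (hpM : ¬ p ∣ M)
  (A : ValuationSubring Ω) (hA : A.LiesOverPrime p)
  (hgen : PrincipalGeneratedByIntegral A (IsLocalRing.residue A) (M * p))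
  (H : Subgroup Γ)

/-- **`hpv₁`, `hpv₂` of `S40F2AS_node`**. -/
theorem S40F2ABN_hpv (O₁ O₂ : ValuationSubring ↥(modularFunctionFieldBar (M * p)))
    (hO₁ : O₁ = S34DF_O1 M p A hgen) (hO₂ : O₂ = S34DF_O2 M p hp hpM A hgen)
    {ζ π : Ω} (hprim : IsPrimitiveRoot ζ p)
    (hvπ : A.valuation π ^ p = A.valuation (1 - ζ)) (hvπ1 : A.valuation π ≤ 1)
    (hπ0 : π ≠ 0) {t : ℕ} (htp : t ≤ p - 1) :
    (O₁.valuation ((p : ℕ) : ↥(modularFunctionFieldBar (M * p))) *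
        O₁.valuation (algebraMap Ω ↥(modularFunctionFieldBar (M * p)) π) ^ t ≤
      O₁.valuation (algebraMap Ω ↥(modularFunctionFieldBar (M * p)) π) ^ (p * t + 1)) ∧
    (O₂.valuation ((p : ℕ) : ↥(modularFunctionFieldBar (M * p))) *
        O₂.valuation (algebraMap Ω ↥(modularFunctionFieldBar (M * p)) π) ^ t ≤
      O₂.valuation (algebraMap Ω ↥(modularFunctionFieldBar (M * p)) π) ^ (p * t + 1)) := by
  haveI : Fact p.Prime := ⟨hp⟩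
  subst hO₁ hO₂
  have h1 := S40F2ABY_hpv (S34M_T1 M p A hgen) hprim hvπ hvπ1 hπ0 htp
  have h2 := S40F2ABY_hpv (S34M_T2 M p hp hpM A hgen) hprim hvπ hvπ1 hπ0 htp
  rw [S34M_T1_O] at h1
  rw [S34M_T2_O] at h2
  exact ⟨h1, h2⟩

include hA in
/-- **the leaf (f) of `S40F2AS_node`**: `hY₁`, `hY₂`, `hY₁0`, `hY₂0`, `H1`, `H2` of
`S40F2M2_Gen` for `y = σ u / u`. -/
theorem S40F2ABN_main (O₁ O₂ : ValuationSubring ↥(modularFunctionFieldBar (M * p)))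
    (hO₁ : O₁ = S34DF_O1 M p A hgen) (hO₂ : O₂ = S34DF_O2 M p hp hpM A hgen)
    (C₀ : Subfield Ω) (hC₀ : ∀ x : Ω, (∀ g ∈ H, g x = x) → x ∈ C₀)
    {ζ : Ω} (hprim : IsPrimitiveRoot ζ p)
    (σ : Γ) (hσ : σ ∈ S40D_I1 A p) (hHI : ∀ g ∈ H, g ∈ S40D_I1 A p)
    (hdec : ∀ g ∈ S40D_I1 A p, ∃ k : ℕ, (σ ^ k)⁻¹ * g ∈ H)
    (hnorm : ∀ g ∈ H, σ⁻¹ * g * σ ∈ H) (hσp : σ ^ p ∈ H)
    {π c r : Ω} {t : ℕ} (ht1 : 1 ≤ t) (htp : t ≤ p - 1)
    (hπH : ∀ g ∈ H, g π = π) (hcH : ∀ g ∈ H, g c = c) (hrH : ∀ g ∈ H, g r = r)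
    (hvπ : A.valuation π ^ p = A.valuation (1 - ζ)) (hvc : A.valuation c = 1)
    (hvr : A.valuation r ≤ 1)
    (hunif : σ π = π * (1 + c * π ^ t) + π ^ (t + 2) * r)
    (hdisc : ∀ x : Ω, x ≠ 0 → (∀ g ∈ H, g x = x) → ∃ k : ℤ, A.valuation x = A.valuation π ^ k)
    {x z : JZero (M * p)} (hz : σ • x - x = z)
    {u u_z : ↥(modularFunctionFieldBar (M * p))}
    (hu : S33DG_IsGen p x u) (huz : S33DG_IsGen p z u_z)
    (huH : ∀ g ∈ H, GR_gal (M * p) g u = u) (huzH : ∀ g ∈ H, GR_gal (M * p) g u_z = u_z)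
    (hσuz : GR_gal (M * p) σ u_z = u_z)
    {n : ℕ} (hnt : p * t + 1 ≤ p * n) {b₁ b₂ : Ω}
    (hb₁H : ∀ g ∈ H, g b₁ = b₁) (hvb₁ : A.valuation b₁ = 1)
    (hb₂H : ∀ g ∈ H, g b₂ = b₂) (hvb₂ : A.valuation b₂ = 1)
    (hst₁ : ∃ l ∈ O₁,
      u_z - algebraMap Ω ↥(modularFunctionFieldBar (M * p)) b₁ =
        algebraMap Ω ↥(modularFunctionFieldBar (M * p)) (1 - ζ) ^ n * l)
    (hst₂ : ∃ l ∈ O₂,
      u_z - algebraMap Ω ↥(modularFunctionFieldBar (M * p)) b₂ =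
        algebraMap Ω ↥(modularFunctionFieldBar (M * p)) (1 - ζ) ^ n * l) :
    ∃ Y₁ Y₂ : ↥(modularFunctionFieldBar (M * p)),
      Y₁ ∈ C₀.map (algebraMap Ω ↥(modularFunctionFieldBar (M * p))) ∧
      Y₂ ∈ C₀.map (algebraMap Ω ↥(modularFunctionFieldBar (M * p))) ∧ Y₁ ≠ 0 ∧ Y₂ ≠ 0 ∧
      S40F2J_Cg O₁.valuation (algebraMap Ω ↥(modularFunctionFieldBar (M * p)) π) (p * t)
        (GR_gal (M * p) σ u / u / Y₁) 0 ∧
      S40F2J_Cg O₂.valuation (algebraMap Ω ↥(modularFunctionFieldBar (M * p)) π) (p * t)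
        (GR_gal (M * p) σ u / u / Y₂) 0 := by
  subst hO₁ hO₂
  have hst₁' : ∃ l ∈ (S34M_T1 M p A hgen).O,
      u_z - algebraMap Ω ↥(modularFunctionFieldBar (M * p)) b₁ =
        algebraMap Ω ↥(modularFunctionFieldBar (M * p)) (1 - ζ) ^ n * l := by
    rw [S34M_T1_O]
    exact hst₁
  have hst₂' : ∃ l ∈ (S34M_T2 M p hp hpM A hgen).O,
      u_z - algebraMap Ω ↥(modularFunctionFieldBar (M * p)) b₂ =
        algebraMap Ω ↥(modularFunctionFieldBar (M * p)) (1 - ζ) ^ n * l := by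
    rw [S34M_T2_O]
    exact hst₂
  obtain ⟨Y₁, Y₂, hY₁0, hY₁H, hY₂0, hY₂H, hH1, hH2⟩ := S40F2ABY_H12 M p hp hpM A hA hgen H hprim
    σ hσ hHI hdec hnorm hσp ht1 htp hπH hcH hrH hvπ hvc hvr hunif hdisc hz hu huz huH huzH hσuz
    hnt hb₁H hvb₁ hb₂H hvb₂ hst₁' hst₂'
  rw [S34M_T1_O] at hH1
  rw [S34M_T2_O] at hH2
  exact ⟨algebraMap Ω ↥(modularFunctionFieldBar (M * p)) Y₁,
    algebraMap Ω ↥(modularFunctionFieldBar (M * p)) Y₂,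
    ⟨Y₁, hC₀ Y₁ hY₁H, rfl⟩, ⟨Y₂, hC₀ Y₂ hY₂H, rfl⟩, (map_ne_zero _).mpr hY₁0,
    (map_ne_zero _).mpr hY₂0, hH1, hH2⟩

end node

end Fermat.Agent.S40
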