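import Fermat.Agent.S40.F2SlopeInt
import Fermat.Agent.S40.F2N

/-!
# TRACK 13 (S40/S44), P4-SLOPE for a node coordinate `C : S40F2N_Coord N` (helper22) — prefix `S40F2SC_`

The slope formulas of `F2SlopeNA.lean` / `F2SlopeInt.lean` with the coordinate pair of helper14's `S40F2N_Coord`
(`X Y = ϖ H`, `ε H ≠ 0`): all hypotheses on the coordinate are discharged
(`X` unit of `O₁`, `Y H⁻¹` unit of `O₂`, `X (Y H⁻¹) = ϖ`, `X` without zero or pole specialising to the node).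

* `S40F2SC_slope`, `S40F2SC_slope_gen`         : unit form;
* `S40F2SC_slope_val` (= `hf`), `S40F2SC_hx` (= `hx` of `S40EG_star`) : integer form.
-/

set_option autoImplicit false

namespace Fermat.Agent.S40

variable {L F k : Type*} [Field L] [Field F] [Algebra L F] [Field k]
variable {N : S40NA_Node L F k} (C : S40F2N_Coord N)

theorem S40F2SC_hX : S40F2S_IsU N.O₁ C.X :=
  S40F2S_isU_iff.2 ⟨N.mem_O₁ C.hX, C.X_unit, C.X_ne_zero⟩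

theorem S40F2SC_hY : S40F2S_IsU N.O₂ (C.Y * C.H⁻¹) :=
  (S40F2S_isU_iff.2 ⟨N.mem_O₂ C.hY, C.Y_unit, C.Y_ne_zero⟩).mul
    (S40F2S_isU_iff.2 ⟨N.mem_O₂ C.hH, C.H_unit₂, C.H_ne_zero⟩).inv

theorem S40F2SC_hXY : C.X * (C.Y * C.H⁻¹) = algebraMap L F C.ϖ := by
  rw [← mul_assoc, C.rel, mul_assoc, mul_inv_cancel₀ C.H_ne_zero, mul_one]

theorem S40F2SC_noZP_X : S40F2SN_NoZP N C.X := fun Q hQ hc =>
  S40F2S_isU_of_not_nonunits (N.mem_pt C.hX hQ) (S40F2N_no_zero C Q hQ hc).1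

/-- **SLOPE** at a node with coordinate `C`. -/
theorem S40F2SC_slope (hfin : ∀ g : F, {Q : S40NA_Pt L F | Q ∈ N.U ∧ g ∉ Q.P}.Finite)
    {f c₁ c₂ : F} (hc₁ : c₁ ∈ (algebraMap L F).fieldRange) (hc₁0 : c₁ ≠ 0) (hc₂0 : c₂ ≠ 0) (n : ℤ)
    (hf₁ : S40F2SN_U1 N (f / (c₁ * C.X ^ n)))
    (hf₂ : S40F2S_IsU N.O₂ (f / c₂))
    (hfP : S40F2SN_NoZP N f) :
    S40F2S_IsU N.O₂ (c₂ / (c₁ * algebraMap L F C.ϖ ^ n)) :=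
  S40F2SN_slope N hfin (S40F2SC_hXY C) (S40F2SC_hX C) (S40F2SC_hY C) (S40F2SC_noZP_X C)
    hc₁ hc₁0 hc₂0 n hf₁ hf₂ hfP

/-- **SLOPE, general form (Step 4)** at a node with coordinate `C`. -/
theorem S40F2SC_slope_gen (hfin : ∀ g : F, {Q : S40NA_Pt L F | Q ∈ N.U ∧ g ∉ Q.P}.Finite)
    {ι : Type*} (s : Finset ι) (w : ι → F) (m : ι → ℤ)
    (hw0 : ∀ i ∈ s, w i ≠ 0)
    (hw₁ : ∀ i ∈ s, w i ∈ N.O₁.nonunits)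
    (hw₂ : ∀ i ∈ s, algebraMap L F C.ϖ / w i ∈ N.O₂.nonunits)
    {u' c₁ : F} (hc₁ : c₁ ∈ (algebraMap L F).fieldRange) (hc₁0 : c₁ ≠ 0)
    (hu'P : S40F2SN_NoZP N u')
    {u c₂ : F} (hu : u = u' * ∏ i ∈ s, (C.X - w i) ^ m i)
    (hc₂0 : c₂ ≠ 0) (n : ℤ)
    (hu₁ : S40F2SN_U1 N (u / (c₁ * C.X ^ n)))
    (hu₂ : S40F2S_IsU N.O₂ (u / c₂)) :
    S40F2S_IsU N.O₂
      (c₂ / (c₁ * algebraMap L F C.ϖ ^ n * ∏ i ∈ s, (w i / algebraMap L F C.ϖ) ^ m i)) :=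
  S40F2SN_slope_gen N hfin (S40F2SC_hXY C) (S40F2SC_hX C) (S40F2SC_hY C) (S40F2SC_noZP_X C)
    s w m hw0 hw₁ hw₂ hc₁ hc₁0 hu'P hu hc₂0 n hu₁ hu₂

/-- **`hf`** (Step 6): `vL c₂ − vL c₁ = n · vL ϖ` for `f` without zero/pole specialising to the node. -/
theorem S40F2SC_slope_val (hfin : ∀ g : F, {Q : S40NA_Pt L F | Q ∈ N.U ∧ g ∉ Q.P}.Finite)
    {Lc : Subfield F} {vL : F → ℤ} (hv : S40F2SI_Val N.O₂ Lc vL)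
    {f c₁ c₂ : F} (hc₁ : c₁ ∈ (algebraMap L F).fieldRange) (hc₁0 : c₁ ≠ 0) (hc₂0 : c₂ ≠ 0) (n : ℤ)
    (hf₁ : S40F2SN_U1 N (f / (c₁ * C.X ^ n)))
    (hf₂ : S40F2S_IsU N.O₂ (f / c₂))
    (hfP : S40F2SN_NoZP N f)
    (hc₁L : c₁ ∈ Lc) (hc₂L : c₂ ∈ Lc) (hϖL : algebraMap L F C.ϖ ∈ Lc) :
    vL c₂ - vL c₁ = n * vL (algebraMap L F C.ϖ) :=
  S40F2SI_slope_val N hfin (S40F2SC_hXY C) (S40F2SC_hX C) (S40F2SC_hY C) (S40F2SC_noZP_X C) hv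
    hc₁ hc₁0 hc₂0 n hf₁ hf₂ hfP hc₁L hc₂L hϖL

/-- **`hx`** (Step 5) at a node with coordinate `C`. -/
theorem S40F2SC_hx (hfin : ∀ g : F, {Q : S40NA_Pt L F | Q ∈ N.U ∧ g ∉ Q.P}.Finite)
    {Lc : Subfield F} {vL : F → ℤ} (hv : S40F2SI_Val N.O₂ Lc vL)
    {ι : Type*} (s : Finset ι) (w : ι → F) (m : ι → ℤ)
    (hw0 : ∀ i ∈ s, w i ≠ 0)
    (hw₁ : ∀ i ∈ s, w i ∈ N.O₁.nonunits)
    (hw₂ : ∀ i ∈ s, algebraMap L F C.ϖ / w i ∈ N.O₂.nonunits)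
    {u' c₁ : F} (hc₁ : c₁ ∈ (algebraMap L F).fieldRange) (hc₁0 : c₁ ≠ 0)
    (hu'P : S40F2SN_NoZP N u')
    {u c₂ : F} (p : ℕ) (hu : u = u' * ∏ i ∈ s, (C.X - w i) ^ ((p : ℤ) * m i))
    (hc₂0 : c₂ ≠ 0) (n : ℤ)
    (hu₁ : S40F2SN_U1 N (u / (c₁ * C.X ^ n)))
    (hu₂ : S40F2S_IsU N.O₂ (u / c₂))
    (hc₁L : c₁ ∈ Lc) (hc₂L : c₂ ∈ Lc) (hϖL : algebraMap L F C.ϖ ∈ Lc)
    (hWL : ∏ i ∈ s, w i ^ m i ∈ Lc)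
    (e' : ℤ) (hϖe : vL (algebraMap L F C.ϖ) = p * e') :
    ∃ K : ℤ, vL c₂ - vL c₁ = p * K ∧
      (p : ℤ) ∣ K - (n * e' + vL (∏ i ∈ s, w i ^ m i)) :=
  S40F2SI_hx N hfin (S40F2SC_hXY C) (S40F2SC_hX C) (S40F2SC_hY C) (S40F2SC_noZP_X C) hv
    s w m hw0 hw₁ hw₂ hc₁ hc₁0 hu'P p hu hc₂0 n hu₁ hu₂ hc₁L hc₂L hϖL hWL e' hϖe

end Fermat.Agent.S40
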