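import Fermat.Agent.S40.F2MainE
import Fermat.Agent.S40.F2SlopeCoord

/-!
# TRACK 13 (S40/S44, row 38), (F2'): `S40F2M_Coord` from a node coordinate (helper16).
Prefix `S40F2MC_`.  Mathlib + `F2Main`, `F2MainVal`, `F2MainE`, `F2SlopeCoord` (all abstract).

`N` a node, `C : S40F2N_Coord N` a node coordinate (`X Y = ϖ H`, helper14/helper18/helper26) with
thickness constant `ϖ = p ^ e`, `C₀` the subfield of the `H`-fixed constants with the data of
`S40F2B_main` (`π`, `c`, `v π ^ p = v (1 − ζ)`, every nonzero element of `C₀` has valuation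
`v π ^ j`):

* `S40F2MC_coord` : `S40F2M_Coord N (C₀.map alg) vL (alg π) (alg c) C.X (C.Y * C.H⁻¹) (alg ϖ) p
  ((p − 1) e)` — ALL fields of the job list 1 of `S40/F2Main.lean`;
* `S40F2MC_he` : `p ∤ (p − 1) e` from the slope of the modular unit at the node.
-/

set_option autoImplicit false

namespace Fermat.Agent.S40

variable {L F k : Type*} [Field L] [Field F] [Algebra L F] [Field k]

/-- **job list 1 of `F2Main`** from a node coordinate with thickness `p ^ e` and the constants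
of the break. -/
theorem S40F2MC_coord (N : S40NA_Node L F k) (C : S40F2N_Coord N) (C₀ : Subfield L)
    {π c ζ : L} {p : ℕ} (hp : p.Prime) (e : ℕ) (hϖ : C.ϖ = (p : L) ^ e)
    (hA₁ : ∀ a : L, algebraMap L F a ∈ N.O₁ → a ∈ N.A)
    (hA₂ : ∀ a : L, algebraMap L F a ∈ N.O₂ → a ∈ N.A)
    (hπC : π ∈ C₀) (hπ0 : π ≠ 0) (hπ1 : N.A.valuation π < 1)
    (hval : ∀ x ∈ C₀, x ≠ 0 → ∃ j : ℤ, N.A.valuation x = N.A.valuation π ^ j)
    (hcC : c ∈ C₀) (hc1 : N.A.valuation c = 1)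
    (hVp : N.A.valuation (p : L) < 1)
    (hfin : ∀ g : F, {Q : S40NA_Pt L F | Q ∈ N.U ∧ g ∉ Q.P}.Finite)
    (hπ : N.A.valuation π ^ p = N.A.valuation (1 - ζ))
    (hζ : N.A.valuation (1 - ζ) ^ (p - 1) = N.A.valuation (p : L)) :
    S40F2M_Coord N (C₀.map (algebraMap L F)) (S40F2MV_vL N.O₁ (algebraMap L F π))
      (algebraMap L F π) (algebraMap L F c) C.X (C.Y * C.H⁻¹) (algebraMap L F C.ϖ) p
      (((p : ℤ) - 1) * (e : ℤ)) := by
  refine S40F2MV_coord N C₀ hp hA₁ hA₂ hπC hπ0 hπ1 hval hcC hc1 hVp hfin (S40F2SC_hXY C)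
    (S40F2SC_hX C) (S40F2SC_hY C) (S40F2SC_noZP_X C) ?_ ?_
  · rw [hϖ]
    exact C₀.pow_mem (natCast_mem C₀ p) e
  · rw [hϖ]
    exact S40F2ME_hϖe N.A hp.one_le hπ hζ e

/-- `p ∤ (p − 1) e` from the slope of the modular unit at the node. -/
theorem S40F2MC_he (N : S40NA_Node L F k) {π ζ : L} {p : ℕ} (hp : p.Prime) (hp5 : 5 ≤ p) (e : ℕ)
    (hA₁ : ∀ a : L, algebraMap L F a ∈ N.O₁ → a ∈ N.A)
    (hπ0 : π ≠ 0) (hπ1 : N.A.valuation π < 1)
    (hπ : N.A.valuation π ^ p = N.A.valuation (1 - ζ))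
    (hζ : N.A.valuation (1 - ζ) ^ (p - 1) = N.A.valuation (p : L)) (m : ℤ)
    (hslope : -(12 * S40F2MV_vL N.O₁ (algebraMap L F π) (algebraMap L F (p : L))) =
      m * S40F2MV_vL N.O₁ (algebraMap L F π) (algebraMap L F ((p : L) ^ e))) :
    ¬ (p : ℤ) ∣ ((p : ℤ) - 1) * (e : ℤ) := by
  have hπnu : algebraMap L F π ∈ N.O₁.nonunits :=
    S40F2K_nonunit N.O₁ N.A hA₁ ((ValuationSubring.mem_nonunits_iff (A := N.A)).mpr hπ1)
  exact S40F2ME_he N.A N.O₁ N.const₁ hp hp5 hπ0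
    ((ValuationSubring.mem_nonunits_iff (A := N.O₁)).mp hπnu) hπ hζ e m hslope

end Fermat.Agent.S40
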