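import Mathlib
import Fermat.Agent.S40.F2Main
import Fermat.Agent.S40.F2N

/-!
# TRACK 13 (S40/S44, row 38), (F2'): the leaf `hn` of `S40F2M_main` (helper22).
Prefix `S40F2MN_`.  Mathlib + `NodeAbs`, `F2SlopeNA`, `F2Main`, `F2N` (all abstract).

`N : S40NA_Node L F k` a node, `X` its coordinate on the first branch (`X ∈ Λ`, `ε X = 0`,
`X⁻¹ ∈ O₁`).  The slope of `u` at the node is the integer `n` with `u / (c₁ X ^ n)` a `U1`-unit
(`S40F2M_Gen.hu₁`).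

* `S40F2MN_zpow_eq_zero` : **uniqueness of the slope**: `b · X ^ j` a `U1`-unit (`b` a constant)
  ⇒ `j = 0`;
* `S40F2MN_slope_unique` : two slopes of the same function agree;
* `S40F2MN_hn` : **additivity**: `u' = κ · u ^ a · g ^ p` (P6-J, `S40F2HJ_main`), slopes `n` of `u`,
  `n'` of `u'` and `g` with a slope ⇒ `p ∣ n' − a n`   (= the hypothesis `hn` of `S40F2M_node`);
* `S40F2MN_hn_gen` : the same with the hypotheses in the shape of `S40F2M_Coord`, `S40F2M_Gen` and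
  a node coordinate `Cn : S40F2N_Coord N`;
* `S40F2MN_hn_main` : the family version, verbatim the hypothesis `hn` of `S40F2M_main`.
-/

set_option autoImplicit false

namespace Fermat.Agent.S40

variable {L F k : Type*} [Field L] [Field F] [Algebra L F] [Field k]

/-- a `U1`-unit `b · X ^ (j + 1)` does not exist: the coordinate vanishes at the node. -/
theorem S40F2MN_pos (N : S40NA_Node L F k) {X : F} (hXΛ : X ∈ N.Lam)
    (hXε : N.ε ⟨X, hXΛ⟩ = 0) (hXi : X⁻¹ ∈ N.O₁)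
    (hA₁ : ∀ a : L, algebraMap L F a ∈ N.O₁ → a ∈ N.A) {b : L} (j : ℕ)
    (h : S40F2SN_U1 N (algebraMap L F b * X ^ (j + 1))) : False := by
  have hX0 : X ≠ 0 := by
    rintro rfl
    have := h.1.ne_zero
    simp at this
  have hXU : S40F2S_IsU N.O₁ X := S40F2S_isU_iff.2 ⟨N.mem_O₁ hXΛ, hXi, hX0⟩
  have hXj : S40F2S_IsU N.O₁ (X ^ (j + 1)) := by
    unfold S40F2S_IsU at hXU ⊢
    rw [map_pow, hXU, one_pow]
  have hb : S40F2S_IsU N.O₁ (algebraMap L F b) := by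
    have := h.1.div hXj
    rwa [mul_div_assoc, div_self (pow_ne_zero _ hX0), mul_one] at this
  have hbA : b ∈ N.A := hA₁ b hb.mem
  obtain ⟨a', b', ha', hb', hn, hεa, hεb⟩ := h.2
  have hcΛ : algebraMap L F b ∈ N.Lam := N.const_mem hbA
  have hmem : algebraMap L F b * X ^ (j + 1) * b' - a' ∈ N.Lam :=
    N.Lam.sub_mem (N.Lam.mul_mem (N.Lam.mul_mem hcΛ (N.Lam.pow_mem hXΛ _)) hb') ha'
  have h0 := N.ε_zero₁ ⟨_, hmem⟩ hn
  have e : (⟨algebraMap L F b * X ^ (j + 1) * b' - a', hmem⟩ : ↥N.Lam) =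
      ⟨algebraMap L F b, hcΛ⟩ * ⟨X, hXΛ⟩ ^ (j + 1) * ⟨b', hb'⟩ - ⟨a', ha'⟩ := rfl
  rw [e, map_sub, map_mul, map_mul, map_pow, hXε, zero_pow (Nat.succ_ne_zero j), mul_zero,
    zero_mul, zero_sub, neg_eq_zero] at h0
  exact hεa h0

/-- **uniqueness of the slope**: `b · X ^ j` a `U1`-unit ⇒ `j = 0`. -/
theorem S40F2MN_zpow_eq_zero (N : S40NA_Node L F k) {X : F} (hXΛ : X ∈ N.Lam)
    (hXε : N.ε ⟨X, hXΛ⟩ = 0) (hXi : X⁻¹ ∈ N.O₁)
    (hA₁ : ∀ a : L, algebraMap L F a ∈ N.O₁ → a ∈ N.A) {b : L} {j : ℤ}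
    (h : S40F2SN_U1 N (algebraMap L F b * X ^ j)) : j = 0 := by
  rcases lt_trichotomy j 0 with hj | hj | hj
  · exfalso
    obtain ⟨m, rfl⟩ : ∃ m : ℕ, j = -((m + 1 : ℕ) : ℤ) := ⟨(-j - 1).toNat, by omega⟩
    have h' := S40F2SN_u1_inv N h
    have e : (algebraMap L F b * X ^ (-((m + 1 : ℕ) : ℤ)))⁻¹ =
        algebraMap L F b⁻¹ * X ^ (m + 1) := by
      rw [mul_inv, zpow_neg, inv_inv, zpow_natCast, map_inv₀]
    rw [e] at h'
    exact S40F2MN_pos N hXΛ hXε hXi hA₁ m h'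
  · exact hj
  · exfalso
    obtain ⟨m, rfl⟩ : ∃ m : ℕ, j = ((m + 1 : ℕ) : ℤ) := ⟨(j - 1).toNat, by omega⟩
    rw [zpow_natCast] at h
    exact S40F2MN_pos N hXΛ hXε hXi hA₁ m h

/-- two slopes of the same function (with constants of `L`) agree. -/
theorem S40F2MN_slope_unique (N : S40NA_Node L F k) {X : F} (hXΛ : X ∈ N.Lam)
    (hXε : N.ε ⟨X, hXΛ⟩ = 0) (hXi : X⁻¹ ∈ N.O₁)
    (hA₁ : ∀ a : L, algebraMap L F a ∈ N.O₁ → a ∈ N.A) {u : F} {b b' : L} {n n' : ℤ}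
    (h : S40F2SN_U1 N (u / (algebraMap L F b * X ^ n)))
    (h' : S40F2SN_U1 N (u / (algebraMap L F b' * X ^ n'))) : n = n' := by
  have hQ := S40F2SN_u1_div N h' h
  have h1 := h.1.ne_zero
  have h2 := h'.1.ne_zero
  have hu0 : u ≠ 0 := fun h0 => h1 (by rw [h0, zero_div])
  have hd1 : algebraMap L F b * X ^ n ≠ 0 := fun h0 => h1 (by rw [h0, div_zero])
  have hd2 : algebraMap L F b' * X ^ n' ≠ 0 := fun h0 => h2 (by rw [h0, div_zero])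
  have hb0 : algebraMap L F b ≠ 0 := left_ne_zero_of_mul hd1
  have hb0' : algebraMap L F b' ≠ 0 := left_ne_zero_of_mul hd2
  have hXn : X ^ n ≠ 0 := right_ne_zero_of_mul hd1
  have hXn' : X ^ n' ≠ 0 := right_ne_zero_of_mul hd2
  by_cases hX0 : X = 0
  · have hn : n = 0 := by
      by_contra hn
      exact hXn (by rw [hX0, zero_zpow _ hn])
    have hn' : n' = 0 := by
      by_contra hn'
      exact hXn' (by rw [hX0, zero_zpow _ hn'])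
    rw [hn, hn']
  have e : u / (algebraMap L F b' * X ^ n') / (u / (algebraMap L F b * X ^ n)) =
      algebraMap L F (b * b'⁻¹) * X ^ (n - n') := by
    rw [zpow_sub₀ hX0, map_mul, map_inv₀]
    field_simp
  rw [e] at hQ
  have := S40F2MN_zpow_eq_zero N hXΛ hXε hXi hA₁ hQ
  omega

/-- **additivity of the slope**: `u' = κ · u ^ a · g ^ p` with slopes `n` of `u`, `n'` of `u'` and
`m` of `g` (constants of `L`) gives `n' = a n + p m`. -/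
theorem S40F2MN_add (N : S40NA_Node L F k) {X : F} (hXΛ : X ∈ N.Lam)
    (hXε : N.ε ⟨X, hXΛ⟩ = 0) (hXi : X⁻¹ ∈ N.O₁)
    (hA₁ : ∀ a : L, algebraMap L F a ∈ N.O₁ → a ∈ N.A) {u u' g : F} {b b' d κ : L}
    {n n' m a : ℤ} {p : ℕ}
    (hu : S40F2SN_U1 N (u / (algebraMap L F b * X ^ n)))
    (hu' : S40F2SN_U1 N (u' / (algebraMap L F b' * X ^ n')))
    (hg : S40F2SN_U1 N (g / (algebraMap L F d * X ^ m)))
    (e : u' = algebraMap L F κ * u ^ a * g ^ p) : n' = a * n + p * m := by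
  have h1 := hu.1.ne_zero
  have h2 := hu'.1.ne_zero
  have h3 := hg.1.ne_zero
  have hu0 : u ≠ 0 := fun h0 => h1 (by rw [h0, zero_div])
  have hg0 : g ≠ 0 := fun h0 => h3 (by rw [h0, zero_div])
  have hd1 : algebraMap L F b * X ^ n ≠ 0 := fun h0 => h1 (by rw [h0, div_zero])
  have hd2 : algebraMap L F b' * X ^ n' ≠ 0 := fun h0 => h2 (by rw [h0, div_zero])
  have hd3 : algebraMap L F d * X ^ m ≠ 0 := fun h0 => h3 (by rw [h0, div_zero])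
  have hb0 : algebraMap L F b ≠ 0 := left_ne_zero_of_mul hd1
  have hb0' : algebraMap L F b' ≠ 0 := left_ne_zero_of_mul hd2
  have hdd0 : algebraMap L F d ≠ 0 := left_ne_zero_of_mul hd3
  have hXn : X ^ n ≠ 0 := right_ne_zero_of_mul hd1
  have hXn' : X ^ n' ≠ 0 := right_ne_zero_of_mul hd2
  have hXm : X ^ m ≠ 0 := right_ne_zero_of_mul hd3
  have hQ : S40F2SN_U1 N (u' / (algebraMap L F b' * X ^ n') *
      ((u / (algebraMap L F b * X ^ n)) ^ a)⁻¹ * ((g / (algebraMap L F d * X ^ m)) ^ p)⁻¹) :=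
    S40F2SN_u1_mul N (S40F2SN_u1_mul N hu' (S40F2SN_u1_inv N (S40F2SN_u1_zpow N hu a)))
      (S40F2SN_u1_inv N (S40F2SN_u1_pow N hg p))
  by_cases hX0 : X = 0
  · have hn : n = 0 := by
      by_contra hn
      exact hXn (by rw [hX0, zero_zpow _ hn])
    have hn' : n' = 0 := by
      by_contra hn'
      exact hXn' (by rw [hX0, zero_zpow _ hn'])
    have hm : m = 0 := by
      by_contra hm
      exact hXm (by rw [hX0, zero_zpow _ hm])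
    rw [hn, hn', hm]
    ring
  have hua : u ^ a ≠ 0 := zpow_ne_zero a hu0
  have hba : algebraMap L F b ^ a ≠ 0 := zpow_ne_zero a hb0
  have hXna : X ^ (n * a) ≠ 0 := zpow_ne_zero _ hX0
  have hXmp : X ^ (m * (p : ℤ)) ≠ 0 := zpow_ne_zero _ hX0
  have key : u' / (algebraMap L F b' * X ^ n') *
      ((u / (algebraMap L F b * X ^ n)) ^ a)⁻¹ * ((g / (algebraMap L F d * X ^ m)) ^ p)⁻¹ =
      algebraMap L F (κ * b ^ a * d ^ p * b'⁻¹) * X ^ (n * a + m * (p : ℤ) - n') := by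
    rw [e, div_zpow, mul_zpow, div_pow, mul_pow, ← zpow_mul, ← zpow_natCast (X ^ m) p,
      ← zpow_mul, zpow_sub₀ hX0, zpow_add₀ hX0, map_mul, map_mul, map_mul, map_inv₀, map_zpow₀,
      map_pow]
    field_simp
  rw [key] at hQ
  have := S40F2MN_zpow_eq_zero N hXΛ hXε hXi hA₁ hQ
  linarith

/-- **the leaf `hn`**: `u' = κ · u ^ a · g ^ p` (P6-J), slopes `n` of `u`, `n'` of `u'`, and `g`
has a slope ⇒ `p ∣ n' − a n`. -/
theorem S40F2MN_hn (N : S40NA_Node L F k) {X : F} (hXΛ : X ∈ N.Lam)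
    (hXε : N.ε ⟨X, hXΛ⟩ = 0) (hXi : X⁻¹ ∈ N.O₁)
    (hA₁ : ∀ a : L, algebraMap L F a ∈ N.O₁ → a ∈ N.A) {u u' g c₁ c₁' : F} {n n' : ℤ}
    (hc₁ : ∃ b : L, algebraMap L F b = c₁) (hc₁' : ∃ b : L, algebraMap L F b = c₁')
    (hu : S40F2SN_U1 N (u / (c₁ * X ^ n))) (hu' : S40F2SN_U1 N (u' / (c₁' * X ^ n')))
    (κ : L) (a : ℤ) (p : ℕ) (e : u' = algebraMap L F κ * u ^ a * g ^ p)
    (hg : ∃ (d : L) (m : ℤ), S40F2SN_U1 N (g / (algebraMap L F d * X ^ m))) :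
    (p : ℤ) ∣ n' - a * n := by
  obtain ⟨b, rfl⟩ := hc₁
  obtain ⟨b', rfl⟩ := hc₁'
  obtain ⟨d, m, hgU⟩ := hg
  have := S40F2MN_add N hXΛ hXε hXi hA₁ hu hu' hgU e
  exact ⟨m, by rw [this]; ring⟩

/-- **the leaf `hn`** in the shape of `S40F2M_node`: `hC : S40F2M_Coord`, `hG`, `hG'` the
`S40F2M_Gen` of `(u, h)` and of the Hecke transform `(u', h')`, `X` the coordinate of a node
coordinate `Cn : S40F2N_Coord N`. -/
theorem S40F2MN_hn_gen (N : S40NA_Node L F k) (Cn : S40F2N_Coord N) {C : Subfield F}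
    {vL : F → ℤ} {π c Y ϖ : F} {p : ℕ} {e' : ℤ}
    (hC : S40F2M_Coord N C vL π c Cn.X Y ϖ p e') {t : ℕ}
    {u h c₁ c₂ d₁ d₂ : F} {n : ℤ} (hG : S40F2M_Gen N C vL π c Cn.X ϖ p t u h c₁ c₂ d₁ d₂ n)
    (l : ℕ) {u' h' : F} {n' : ℤ}
    (hG' : S40F2M_Gen N C vL π c Cn.X ϖ p t u' h' (c₁ ^ (l + 1)) (c₂ ^ (l + 1)) (d₁ ^ (l + 1))
      (d₂ ^ (l + 1)) n')
    (κ : L) (a : ℤ) (g : F) (e : u' = algebraMap L F κ * u ^ a * g ^ p)
    (hg : ∃ (d : L) (m : ℤ), S40F2SN_U1 N (g / (algebraMap L F d * Cn.X ^ m))) :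
    (p : ℤ) ∣ n' - a * n :=
  S40F2MN_hn N Cn.hX Cn.εX Cn.X_unit hC.hA₁ (hC.hCL _ hG.hc₁) (hC.hCL _ hG'.hc₁) hG.hu₁ hG'.hu₁
    κ a p e hg

/-- **the leaf `hn` for a family of nodes**: verbatim the hypothesis `hn` of `S40F2M_main`. -/
theorem S40F2MN_hn_main {ι : Type*} (N : ι → S40NA_Node L F k) (Cn : ∀ s, S40F2N_Coord (N s))
    {C : Subfield F} {vL : F → ℤ} {π c : F} {Y ϖ : ι → F} {p : ℕ} {e' : ι → ℤ}
    (hC : ∀ s, S40F2M_Coord (N s) C vL π c (Cn s).X (Y s) (ϖ s) p (e' s)) {t : ℕ}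
    {u h c₁ c₂ d₁ d₂ : F} {n : ι → ℤ}
    (hG : ∀ s, S40F2M_Gen (N s) C vL π c (Cn s).X (ϖ s) p t u h c₁ c₂ d₁ d₂ (n s))
    (l : ℕ) {u' h' : F} {n' : ι → ℤ}
    (hG' : ∀ s, S40F2M_Gen (N s) C vL π c (Cn s).X (ϖ s) p t u' h' (c₁ ^ (l + 1)) (c₂ ^ (l + 1))
      (d₁ ^ (l + 1)) (d₂ ^ (l + 1)) (n' s))
    (κ : L) (a : ℤ) (g : F) (e : u' = algebraMap L F κ * u ^ a * g ^ p)
    (hg : ∀ s, ∃ (d : L) (m : ℤ), S40F2SN_U1 (N s) (g / (algebraMap L F d * (Cn s).X ^ m))) :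
    ∀ s, (p : ℤ) ∣ n' s - a * n s := fun s =>
  S40F2MN_hn_gen (N s) (Cn s) (hC s) (hG s) l (hG' s) κ a g e (hg s)

end Fermat.Agent.S40
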