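import Fermat.Agent.S40.Geo5H2

/-!
# TRACK 13 (S40), GEO-6, the Hecke step WITHOUT the nodes (helper29).  Prefix `S40F2H_`.

`F = modularFunctionFieldBar N`, `O = S18_O A N` the Gauss valuation ring of the `q`-expansion at
`∞`, `t = GRS_t hst` the multiplicative Hecke operator at `ℓ`.

* `S40F2H_rhs_congr` : `GRS_rhs (f + a g) ≡ GRS_rhs f  mod a` for series over any commutative
  ring.
* `S40F2H_one_unit` (**(E2)**) : `u = 1 + a w`, `a ∈ A`, `w ∈ O`  ⇒  `t u = 1 + a w'`, `w' ∈ O`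
  (the operator `t` keeps the `1`-units of EVERY level `a`, not only of level `𝔪`).
* `S40F2H_const` (**(E1)**, constants) : `t c = c^{ℓ+1}` for `ℓ ∤ N`.
* `S40F2H_unit_const` (**(E1)**) : `g = c · v`, `v` a unit of `O`  ⇒  `t g = c^{ℓ+1} · v'`,
  `v'` a unit of `O`.
* `S40F2H_one_unit_comap`, `S40F2H_unit_const_comap`, `S40F2H_scale` : the same at
  `V₂ = V₁ ∘ w` for an automorphism `w` commuting with `t` (`w = w_p`: helper24's `S40TW_t_wq`).
* `S40F2H_kill` : the arithmetic of the Hecke step: slopes `n`, `n'` of `u` and `t u`,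
  `n e ≡ Λ`, `n' e ≡ Λ'`, `Λ' ≡ (ℓ+1) Λ`, `n' ≡ a_ℓ n`, `p ∤ e`, `p ∤ a_ℓ − ℓ − 1`  ⇒  `p ∣ n`.
-/

set_option autoImplicit false
set_option linter.unusedSectionVars false
set_option synthInstance.maxHeartbeats 400000
set_option maxHeartbeats 1000000

open HahnSeries IntermediateField AlgebraicCurve ModularCurve

namespace Fermat.Agent.S40

open Fermat.Agent.S18 Fermat.Agent.GalRep

/-- the arithmetic of the Hecke step. -/
theorem S40F2H_kill (p : ℕ) (hp : p.Prime) (n n' e lam lam' a l : ℤ)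
    (h1 : (p : ℤ) ∣ n * e - lam) (h2 : (p : ℤ) ∣ n' * e - lam')
    (h3 : (p : ℤ) ∣ lam' - (l + 1) * lam) (h4 : (p : ℤ) ∣ n' - a * n)
    (he : ¬ (p : ℤ) ∣ e) (ha : ¬ (p : ℤ) ∣ a - l - 1) : (p : ℤ) ∣ n := by
  have hp' : Prime (p : ℤ) := Nat.prime_iff_prime_int.mp hp
  have key : (p : ℤ) ∣ (a - l - 1) * (n * e) := by
    have e1 : (a - l - 1) * (n * e)
        = -(n' - a * n) * e + (n' * e - lam') + (lam' - (l + 1) * lam)
          - (l + 1) * (n * e - lam) := by ring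
    rw [e1]
    exact dvd_sub (dvd_add (dvd_add (Dvd.dvd.mul_right (dvd_neg.mpr h4) e) h2) h3)
      (Dvd.dvd.mul_left h1 (l + 1))
  rcases hp'.dvd_or_dvd key with h | h
  · exact absurd h ha
  · rcases hp'.dvd_or_dvd h with h' | h'
    · exact h'
    · exact absurd h' he

section series

variable {R : Type*} [CommRing R]

theorem S40F2H_prod_congr {ι : Type*} (s : Finset ι) (x y : ι → R) (c : R) :
    ∃ r : R, ∏ i ∈ s, (x i + c * y i) = ∏ i ∈ s, x i + c * r := by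
  classical
  induction s using Finset.induction_on with
  | empty => exact ⟨0, by simp⟩
  | insert j s hj ih =>
    obtain ⟨r, hr⟩ := ih
    refine ⟨y j * ∏ i ∈ s, x i + x j * r + c * (y j * r), ?_⟩
    rw [Finset.prod_insert hj, Finset.prod_insert hj, hr]
    ring

theorem S40F2H_prodTw_congr (ℓ : ℕ) (u : Rˣ) (a : R) (f g : LaurentSeries R) :
    ∃ r : LaurentSeries R,
      GRS_prodTw ℓ u (f + HahnSeries.C a * g) = GRS_prodTw ℓ u f + HahnSeries.C a * r := by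
  unfold GRS_prodTw
  have h : ∀ i : ℕ, ES_tw (u ^ i) (f + HahnSeries.C a * g)
      = ES_tw (u ^ i) f + HahnSeries.C a * ES_tw (u ^ i) g := by
    intro i
    rw [map_add, map_mul, ES_tw_C]
  simp only [h]
  exact S40F2H_prod_congr _ _ _ _

theorem S40F2H_qExpand_congr (ℓ : ℕ) [NeZero ℓ] (a : R) (f g : LaurentSeries R) :
    qExpand R ℓ (f + HahnSeries.C a * g) = qExpand R ℓ f + HahnSeries.C a * qExpand R ℓ g := by
  rw [map_add, map_mul, qExpand_C]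

/-- `GRS_rhs (f + a g) ≡ GRS_rhs f` modulo `a`. -/
theorem S40F2H_rhs_congr (N ℓ : ℕ) [NeZero ℓ] (u : Rˣ) (a : R) (f g : LaurentSeries R) :
    ∃ r : LaurentSeries R,
      GRS_rhs N ℓ u (f + HahnSeries.C a * g) = GRS_rhs N ℓ u f + HahnSeries.C a * r := by
  obtain ⟨r, hr⟩ := S40F2H_prodTw_congr ℓ u a f g
  by_cases h : ℓ ∣ N
  · rw [GRS_rhs_of_dvd N ℓ h, GRS_rhs_of_dvd N ℓ h]
    exact ⟨r, hr⟩
  · rw [GRS_rhs_of_not_dvd N ℓ h, GRS_rhs_of_not_dvd N ℓ h, GRS_rhs_eq, GRS_rhs_eq, hr,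
      S40F2H_qExpand_congr, S40F2H_qExpand_congr]
    refine ⟨qExpand R ℓ (qExpand R ℓ f) * r + qExpand R ℓ (qExpand R ℓ g) * GRS_prodTw ℓ u f
      + HahnSeries.C a * (qExpand R ℓ (qExpand R ℓ g) * r), ?_⟩
    ring

end series

section main

variable (N : ℕ) [NeZero N] (A : ValuationSubring (AlgebraicClosure ℚ))
  {ℓ : ℕ} [NeZero ℓ] {ζ : (AlgebraicClosure ℚ)ˣ}

/-- the image under `t` of an integral series of `F` is an integral series of `F`, given by the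
formula (H1) over `A`. -/
theorem S40F2H_t_int (hgen : PrincipalGeneratedByIntegral A (IsLocalRing.residue A) N)
    (ζA : Aˣ) (hζA : Units.map (A.subtype : A →* AlgebraicClosure ℚ) ζA = ζ)
    (hst : GRS_Stab N ℓ ζ) (s : LaurentSeries A)
    (hs : S18_ι A s ∈ modularFunctionFieldBar N) :
    ∃ s'' : LaurentSeries A, s'' ∈ S18_B A N ∧
      S18_ι A s'' = ((GRS_t hst ⟨S18_ι A s, hs⟩ : ↥(modularFunctionFieldBar N)) :
        LaurentSeries (AlgebraicClosure ℚ)) ∧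
      qExpand A ℓ s'' = GRS_rhs N ℓ ζA s := by
  have h1 := GRS_t_spec hst ⟨S18_ι A s, hs⟩
  have h2 : GRS_rhs N ℓ ζ (S18_ι A s) = S18_ι A (GRS_rhs N ℓ ζA s) := by
    rw [GRS_coeffMap_rhs, hζA]
  have h3 : qExpand (AlgebraicClosure ℚ) ℓ
      ((GRS_t hst ⟨S18_ι A s, hs⟩ : ↥(modularFunctionFieldBar N)) :
        LaurentSeries (AlgebraicClosure ℚ)) = coeffMap A.subtype (GRS_rhs N ℓ ζA s) := by
    rw [h1]
    exact h2
  obtain ⟨s'', hs'', hq⟩ := S40G5H_unq A ℓ _ _ h3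
  have hmem : S18_ι A s'' ∈ modularFunctionFieldBar N := by
    have : S18_ι A s'' = ((GRS_t hst ⟨S18_ι A s, hs⟩ : ↥(modularFunctionFieldBar N)) :
        LaurentSeries (AlgebraicClosure ℚ)) := hs''
    rw [this]
    exact (GRS_t hst ⟨S18_ι A s, hs⟩).2
  exact ⟨s'', S18_mem_B_of_ι_mem A N (S18_hPD N) (S18_hconst N) hgen hmem, hs'', hq⟩

omit [NeZero N] in
theorem S40F2H_ι_C (a : AlgebraicClosure ℚ) (ha : a ∈ A) :
    S18_ι A (HahnSeries.C (⟨a, ha⟩ : ↥A)) = HahnSeries.C a := by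
  show coeffMap A.subtype (HahnSeries.single 0 (⟨a, ha⟩ : ↥A)) = HahnSeries.single 0 a
  rw [coeffMap_single]
  rfl

theorem S40F2H_coe_algebraMap (a : AlgebraicClosure ℚ) :
    ((algebraMap (AlgebraicClosure ℚ) ↥(modularFunctionFieldBar N) a :
      ↥(modularFunctionFieldBar N)) : LaurentSeries (AlgebraicClosure ℚ)) = HahnSeries.C a := by
  show algebraMap (AlgebraicClosure ℚ) (LaurentSeries (AlgebraicClosure ℚ)) a = HahnSeries.C a
  rw [algebraMap_laurentSeries_eq_single]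
  rfl

/-- **(E2)**: `t` keeps the `1`-units of level `a`, for every `a ∈ A`. -/
theorem S40F2H_one_unit (hgen : PrincipalGeneratedByIntegral A (IsLocalRing.residue A) N)
    (hζ : ζ ^ ℓ = 1) (hst : GRS_Stab N ℓ ζ) (a : AlgebraicClosure ℚ) (ha : a ∈ A)
    (u w : ↥(modularFunctionFieldBar N)) (hw : w ∈ S18_O A N)
    (hu : u = 1 + algebraMap (AlgebraicClosure ℚ) ↥(modularFunctionFieldBar N) a * w) :
    ∃ w' : ↥(modularFunctionFieldBar N), w' ∈ S18_O A N ∧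
      GRS_t hst u = 1 + algebraMap (AlgebraicClosure ℚ) ↥(modularFunctionFieldBar N) a * w' := by
  rcases eq_or_ne a 0 with rfl | ha0
  · refine ⟨0, zero_mem _, ?_⟩
    rw [hu, map_zero, zero_mul, zero_mul, add_zero, map_one]
  obtain ⟨ζA, hζA⟩ := S40G5H_unit_of_pow A ζ ℓ (NeZero.ne ℓ) hζ
  obtain ⟨r₁, h1, r₂, h2, hne, hf⟩ := hw
  set a' : ↥A := ⟨a, ha⟩ with ha'
  -- `u = s₁ / r₂`, `s₁ = r₂ + a r₁`
  have hιs₁ : S18_ι A (r₂ + HahnSeries.C a' * r₁)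
      = (u : LaurentSeries (AlgebraicClosure ℚ)) * S18_ι A r₂ := by
    rw [map_add, map_mul, S40F2H_ι_C, hu]
    have e : ((1 + algebraMap (AlgebraicClosure ℚ) ↥(modularFunctionFieldBar N) a * w :
        ↥(modularFunctionFieldBar N)) : LaurentSeries (AlgebraicClosure ℚ))
        = 1 + HahnSeries.C a * (w : LaurentSeries (AlgebraicClosure ℚ)) := by
      rw [← S40F2H_coe_algebraMap N a]
      rfl
    rw [e, add_mul, one_mul, mul_assoc, hf]
  have hs₁ : S18_ι A (r₂ + HahnSeries.C a' * r₁) ∈ modularFunctionFieldBar N := by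
    rw [hιs₁]
    exact mul_mem u.2 h2.1
  obtain ⟨t₁, ht₁B, ht₁, hq₁⟩ := S40F2H_t_int N A hgen ζA hζA hst _ hs₁
  obtain ⟨t₂, ht₂B, ht₂, hq₂⟩ := S40F2H_t_int N A hgen ζA hζA hst r₂ h2.1
  obtain ⟨r, hr⟩ := S40F2H_rhs_congr N ℓ ζA a' r₂ r₁
  -- `t₁ − t₂ = a s''`
  have hq : qExpand A ℓ (t₁ - t₂) = HahnSeries.C a' * r := by
    rw [map_sub, hq₁, hq₂, hr]
    ring
  have hCa : (HahnSeries.C a⁻¹ : LaurentSeries (AlgebraicClosure ℚ)) * HahnSeries.C a = 1 := by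
    rw [← map_mul, inv_mul_cancel₀ ha0, map_one]
  have hg : qExpand (AlgebraicClosure ℚ) ℓ
      (HahnSeries.C a⁻¹ * (S18_ι A t₁ - S18_ι A t₂)) = coeffMap A.subtype r := by
    rw [map_mul, qExpand_C, ← map_sub, ← coeffMap_qExpand, hq, map_mul, S40F2H_ι_C, ← mul_assoc,
      hCa, one_mul]
  obtain ⟨s'', hs'', -⟩ := S40G5H_unq A ℓ _ _ hg
  have hCmem : ∀ c : AlgebraicClosure ℚ,
      (HahnSeries.C c : LaurentSeries (AlgebraicClosure ℚ)) ∈ modularFunctionFieldBar N := by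
    intro c
    rw [← S40F2H_coe_algebraMap N c]
    exact (algebraMap (AlgebraicClosure ℚ) ↥(modularFunctionFieldBar N) c).2
  have ht₁F : S18_ι A t₁ ∈ modularFunctionFieldBar N := ht₁B.1
  have ht₂F : S18_ι A t₂ ∈ modularFunctionFieldBar N := ht₂B.1
  have hs''F : S18_ι A s'' ∈ modularFunctionFieldBar N := by
    have : S18_ι A s'' = HahnSeries.C a⁻¹ * (S18_ι A t₁ - S18_ι A t₂) := hs''
    rw [this]
    exact mul_mem (hCmem _) (sub_mem ht₁F ht₂F)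
  have hs''B : s'' ∈ S18_B A N :=
    S18_mem_B_of_ι_mem A N (S18_hPD N) (S18_hconst N) hgen hs''F
  have hdiff : S18_ι A t₁ - S18_ι A t₂ = HahnSeries.C a * S18_ι A s'' := by
    have : S18_ι A s'' = HahnSeries.C a⁻¹ * (S18_ι A t₁ - S18_ι A t₂) := hs''
    rw [this, ← mul_assoc, mul_comm (HahnSeries.C a) (HahnSeries.C a⁻¹), hCa, one_mul]
  -- `ρ t₂ ≠ 0`
  have hρt₂ : S18_ρ A t₂ ≠ 0 := by
    intro h0
    have h3 := congrArg (S18_ρ A) hq₂
    rw [coeffMap_qExpand, GRS_coeffMap_rhs, h0, map_zero] at h3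
    exact S40G5H_rhs_ne_zero N ℓ _ (S18_ρ A r₂) hne h3.symm
  have hιt₂0 : S18_ι A t₂ ≠ 0 := by
    intro h0
    apply hρt₂
    have : t₂ = 0 := S18_ι_injective A (by rw [h0, map_zero])
    rw [this, map_zero]
  -- the multiplicativity of `t`
  have hmul : ((GRS_t hst u : ↥(modularFunctionFieldBar N)) :
      LaurentSeries (AlgebraicClosure ℚ)) * S18_ι A t₂ = S18_ι A t₁ := by
    have hu12 : u * (⟨S18_ι A r₂, h2.1⟩ : ↥(modularFunctionFieldBar N)) =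
        ⟨S18_ι A (r₂ + HahnSeries.C a' * r₁), hs₁⟩ := Subtype.ext hιs₁.symm
    have ht := congrArg (GRS_t hst) hu12
    rw [map_mul] at ht
    rw [ht₁, ht₂]
    exact congrArg Subtype.val ht
  -- `w' = s'' / t₂`
  refine ⟨(⟨S18_ι A s'', hs''F⟩ : ↥(modularFunctionFieldBar N)) *
    (⟨S18_ι A t₂, ht₂F⟩ : ↥(modularFunctionFieldBar N))⁻¹, ?_, ?_⟩
  · refine ⟨s'', hs''B, t₂, ht₂B, hρt₂, ?_⟩
    have hne' : (⟨S18_ι A t₂, ht₂F⟩ : ↥(modularFunctionFieldBar N)) ≠ 0 := by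
      intro h0
      exact hιt₂0 (congrArg Subtype.val h0)
    have e : (⟨S18_ι A s'', hs''F⟩ : ↥(modularFunctionFieldBar N)) *
        (⟨S18_ι A t₂, ht₂F⟩ : ↥(modularFunctionFieldBar N))⁻¹ *
        (⟨S18_ι A t₂, ht₂F⟩ : ↥(modularFunctionFieldBar N)) = ⟨S18_ι A s'', hs''F⟩ := by
      rw [mul_assoc, inv_mul_cancel₀ hne', mul_one]
    exact congrArg Subtype.val e
  · have hne' : (⟨S18_ι A t₂, ht₂F⟩ : ↥(modularFunctionFieldBar N)) ≠ 0 := by
      intro h0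
      exact hιt₂0 (congrArg Subtype.val h0)
    have hmul' : GRS_t hst u * (⟨S18_ι A t₂, ht₂F⟩ : ↥(modularFunctionFieldBar N))
        = ⟨S18_ι A t₁, ht₁F⟩ := Subtype.ext hmul
    have hdiff' : (⟨S18_ι A t₁, ht₁F⟩ : ↥(modularFunctionFieldBar N))
        = ⟨S18_ι A t₂, ht₂F⟩ + algebraMap (AlgebraicClosure ℚ) ↥(modularFunctionFieldBar N) a *
          ⟨S18_ι A s'', hs''F⟩ := by
      apply Subtype.ext
      show S18_ι A t₁ = S18_ι A t₂ +
        ((algebraMap (AlgebraicClosure ℚ) ↥(modularFunctionFieldBar N) a :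
          ↥(modularFunctionFieldBar N)) : LaurentSeries (AlgebraicClosure ℚ)) * S18_ι A s''
      rw [S40F2H_coe_algebraMap, ← hdiff]
      ring
    apply mul_right_cancel₀ hne'
    rw [hmul', hdiff', add_mul, one_mul, mul_assoc, mul_assoc, inv_mul_cancel₀ hne', mul_one]

/-- **(E1)** on constants: `t c = c^{ℓ+1}` for `ℓ ∤ N`. -/
theorem S40F2H_const (hst : GRS_Stab N ℓ ζ) (hℓN : ¬ ℓ ∣ N) (c : AlgebraicClosure ℚ) :
    GRS_t hst (algebraMap (AlgebraicClosure ℚ) ↥(modularFunctionFieldBar N) c)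
      = algebraMap (AlgebraicClosure ℚ) ↥(modularFunctionFieldBar N) (c ^ (ℓ + 1)) := by
  apply GRS_t_eq
  rw [S40F2H_coe_algebraMap, S40F2H_coe_algebraMap, GRS_rhs_of_not_dvd N ℓ hℓN, GRS_rhs_eq,
    qExpand_C, qExpand_C, qExpand_C, GRS_prodTw]
  simp only [ES_tw_C, Finset.prod_const, Finset.card_range]
  rw [map_pow, pow_succ, mul_comm]

/-- **(E1)**: `g = c · v` with `v` a unit of `O` gives `t g = c^{ℓ+1} · v'` with `v'` a unit of
`O`. -/
theorem S40F2H_unit_const (hgen : PrincipalGeneratedByIntegral A (IsLocalRing.residue A) N)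
    (hζ : ζ ^ ℓ = 1) (hst : GRS_Stab N ℓ ζ) (hℓN : ¬ ℓ ∣ N) (c : AlgebraicClosure ℚ)
    (g v : ↥(modularFunctionFieldBar N)) (hv : v ∈ S18_O A N)
    (hred : S18_red A N ⟨v, hv⟩ ≠ 0)
    (hg : g = algebraMap (AlgebraicClosure ℚ) ↥(modularFunctionFieldBar N) c * v) :
    ∃ (v' : ↥(modularFunctionFieldBar N)) (hv' : v' ∈ S18_O A N),
      S18_red A N ⟨v', hv'⟩ ≠ 0 ∧
      GRS_t hst g
        = algebraMap (AlgebraicClosure ℚ) ↥(modularFunctionFieldBar N) (c ^ (ℓ + 1)) * v' := by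
  obtain ⟨h, hne⟩ := S40G5H_unit N A hgen hζ hst v hv hred
  exact ⟨GRS_t hst v, h, hne, by rw [hg, map_mul, S40F2H_const N hst hℓN]⟩

/-! ### the second Gauss valuation `V₂ = V₁ ∘ w` (`w` an automorphism commuting with `t`) -/

/-- **(E2) at `V₂`**: if `w` is an automorphism of `F / ℚ̄` commuting with `t` (helper24's
`t ∘ w_p = w_p ∘ t`), then `t` keeps the `1`-units of level `a` of `O₂ = w⁻¹ O`. -/
theorem S40F2H_one_unit_comap (hgen : PrincipalGeneratedByIntegral A (IsLocalRing.residue A) N)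
    (hζ : ζ ^ ℓ = 1) (hst : GRS_Stab N ℓ ζ)
    (wq : ↥(modularFunctionFieldBar N) ≃ₐ[AlgebraicClosure ℚ] ↥(modularFunctionFieldBar N))
    (hcomm : ∀ g : ↥(modularFunctionFieldBar N), wq (GRS_t hst g) = GRS_t hst (wq g))
    (a : AlgebraicClosure ℚ) (ha : a ∈ A)
    (u w : ↥(modularFunctionFieldBar N)) (hw : wq w ∈ S18_O A N)
    (hu : u = 1 + algebraMap (AlgebraicClosure ℚ) ↥(modularFunctionFieldBar N) a * w) :
    ∃ w' : ↥(modularFunctionFieldBar N), wq w' ∈ S18_O A N ∧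
      GRS_t hst u = 1 + algebraMap (AlgebraicClosure ℚ) ↥(modularFunctionFieldBar N) a * w' := by
  have hu' : wq u = 1 + algebraMap (AlgebraicClosure ℚ) ↥(modularFunctionFieldBar N) a * wq w := by
    rw [hu, map_add, map_one, map_mul, AlgEquiv.commutes]
  obtain ⟨w₁, hw₁, hw₁'⟩ := S40F2H_one_unit N A hgen hζ hst a ha (wq u) (wq w) hw hu'
  refine ⟨wq.symm w₁, by rw [AlgEquiv.apply_symm_apply]; exact hw₁, ?_⟩
  apply wq.injective
  rw [hcomm, hw₁', map_add, map_one, map_mul, AlgEquiv.commutes, AlgEquiv.apply_symm_apply]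

/-- **(E1) at `V₂`**. -/
theorem S40F2H_unit_const_comap
    (hgen : PrincipalGeneratedByIntegral A (IsLocalRing.residue A) N)
    (hζ : ζ ^ ℓ = 1) (hst : GRS_Stab N ℓ ζ) (hℓN : ¬ ℓ ∣ N)
    (wq : ↥(modularFunctionFieldBar N) ≃ₐ[AlgebraicClosure ℚ] ↥(modularFunctionFieldBar N))
    (hcomm : ∀ g : ↥(modularFunctionFieldBar N), wq (GRS_t hst g) = GRS_t hst (wq g))
    (c : AlgebraicClosure ℚ)
    (g v : ↥(modularFunctionFieldBar N)) (hv : wq v ∈ S18_O A N)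
    (hred : S18_red A N ⟨wq v, hv⟩ ≠ 0)
    (hg : g = algebraMap (AlgebraicClosure ℚ) ↥(modularFunctionFieldBar N) c * v) :
    ∃ (v' : ↥(modularFunctionFieldBar N)) (hv' : wq v' ∈ S18_O A N),
      S18_red A N ⟨wq v', hv'⟩ ≠ 0 ∧
      GRS_t hst g
        = algebraMap (AlgebraicClosure ℚ) ↥(modularFunctionFieldBar N) (c ^ (ℓ + 1)) * v' := by
  obtain ⟨h, hne⟩ := S40G5H_unit N A hgen hζ hst (wq v) hv hred
  have e : wq (GRS_t hst v) = GRS_t hst (wq v) := hcomm v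
  refine ⟨GRS_t hst v, by rw [e]; exact h, ?_, by rw [hg, map_mul, S40F2H_const N hst hℓN]⟩
  have e2 : (⟨wq (GRS_t hst v), by rw [e]; exact h⟩ : ↥(S18_O A N))
      = ⟨GRS_t hst (wq v), h⟩ := Subtype.ext e
  rw [e2]
  exact hne

/-- **the scaling of the relative constant**: if `g = c₁ v₁ = c₂ v₂` with `v₁` a unit of `O₁` and
`v₂` a unit of `O₂`, then `t g = c₁^{ℓ+1} v₁' = c₂^{ℓ+1} v₂'` with units `v₁'`, `v₂'`: the
relative valuation `(V₂ − V₁)(t g)` is `(ℓ+1)·(V₂ − V₁)(g)`. -/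
theorem S40F2H_scale (hgen : PrincipalGeneratedByIntegral A (IsLocalRing.residue A) N)
    (hζ : ζ ^ ℓ = 1) (hst : GRS_Stab N ℓ ζ) (hℓN : ¬ ℓ ∣ N)
    (wq : ↥(modularFunctionFieldBar N) ≃ₐ[AlgebraicClosure ℚ] ↥(modularFunctionFieldBar N))
    (hcomm : ∀ g : ↥(modularFunctionFieldBar N), wq (GRS_t hst g) = GRS_t hst (wq g))
    (c₁ c₂ : AlgebraicClosure ℚ) (g v₁ v₂ : ↥(modularFunctionFieldBar N))
    (hv₁ : v₁ ∈ S18_O A N) (hred₁ : S18_red A N ⟨v₁, hv₁⟩ ≠ 0)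
    (hv₂ : wq v₂ ∈ S18_O A N) (hred₂ : S18_red A N ⟨wq v₂, hv₂⟩ ≠ 0)
    (hg₁ : g = algebraMap (AlgebraicClosure ℚ) ↥(modularFunctionFieldBar N) c₁ * v₁)
    (hg₂ : g = algebraMap (AlgebraicClosure ℚ) ↥(modularFunctionFieldBar N) c₂ * v₂) :
    ∃ (v₁' v₂' : ↥(modularFunctionFieldBar N)) (hv₁' : v₁' ∈ S18_O A N)
      (hv₂' : wq v₂' ∈ S18_O A N),
      S18_red A N ⟨v₁', hv₁'⟩ ≠ 0 ∧ S18_red A N ⟨wq v₂', hv₂'⟩ ≠ 0 ∧
      GRS_t hst g
        = algebraMap (AlgebraicClosure ℚ) ↥(modularFunctionFieldBar N) (c₁ ^ (ℓ + 1)) * v₁' ∧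
      GRS_t hst g
        = algebraMap (AlgebraicClosure ℚ) ↥(modularFunctionFieldBar N) (c₂ ^ (ℓ + 1)) * v₂' := by
  obtain ⟨v₁', hv₁', hr₁, e₁⟩ := S40F2H_unit_const N A hgen hζ hst hℓN c₁ g v₁ hv₁ hred₁ hg₁
  obtain ⟨v₂', hv₂', hr₂, e₂⟩ :=
    S40F2H_unit_const_comap N A hgen hζ hst hℓN wq hcomm c₂ g v₂ hv₂ hred₂ hg₂
  exact ⟨v₁', v₂', hv₁', hv₂', hr₁, hr₂, e₁, e₂⟩

end main

end Fermat.Agent.S40
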