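import Mathlib
import Fermat.Agent.S40.TWq
import Fermat.Agent.S40.Geo5H2

/-!
# TRACK 13 (S40 / S44), package P6 (helper24): H2-gen AT `V₂`.  Prefix `S40TW_`.

Level `N = M * p`, `w = S34DF_wq` (Atkin–Lehner `w_p`), `O₁ = S18_O A N` the Gauss ring of the
`q`-expansion at `∞` with reduction `red₁ = S18_red A N`, `O₂ = w⁻¹ O₁` (`= S34DF_O2`) with
reduction `red₂ f = red₁ (w f)`, `t = GRS_t hst` the multiplicative Hecke operator at a prime
`ℓ ≠ p`.  Since `t ∘ w = w ∘ t` (`S40TW_t_wq_DF`), helper10's H2-gen at `V₁` gives H2-gen at `V₂`: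

* `S40TW_unit₂` : `f ∈ O₂`, `red₂ f ≠ 0`  ⇒  `t f ∈ O₂`, `red₂ (t f) ≠ 0`;
* `S40TW_main₂` : `f ∈ O₂`, `red₂ f = 1`  ⇒  `t f ∈ O₂`, `red₂ (t f) = 1`;
* `S40TW_mem_O2`, `S40TW_val₂_lt` : the same in terms of the valuation ring `S34DF_O2`
  (`V₂ (f − 1) < 1 ⇒ V₂ (t f − 1) < 1`), and `S40TW_val₁_lt` at `V₁`.
-/

set_option autoImplicit false
set_option synthInstance.maxHeartbeats 400000
set_option maxHeartbeats 1000000
set_option linter.unusedSectionVars false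
set_option linter.unusedVariables false
set_option linter.style.haveILetI false

open ModularCurve

noncomputable section

namespace Fermat.Agent.S40

open Fermat.Agent.S24 Fermat.Agent.GalRep Fermat.Agent.S34 Fermat.Agent.S18

local notation "Ω" => AlgebraicClosure ℚ

variable (M p ℓ : ℕ) [NeZero M] [NeZero p] [NeZero ℓ] (hp : p.Prime) (hpM : ¬ p ∣ M)
  (hℓ : ℓ.Prime) (hℓp : ℓ ≠ p) (A : ValuationSubring Ω)
  (ζ : Ωˣ) (hζ : IsPrimitiveRoot (ζ : Ω) ℓ)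

include hζ hℓ hℓp in
/-- **H2-gen at `V₂`, units**. -/
theorem S40TW_unit₂ (hgen : PrincipalGeneratedByIntegral A (IsLocalRing.residue A) (M * p))
    (hst : GRS_Stab (M * p) ℓ ζ) (f : ↥(modularFunctionFieldBar (M * p)))
    (hf : S34DF_wq M p hp hpM f ∈ S18_O A (M * p))
    (hred : S18_red A (M * p) ⟨S34DF_wq M p hp hpM f, hf⟩ ≠ 0) :
    ∃ h : S34DF_wq M p hp hpM (GRS_t hst f) ∈ S18_O A (M * p),
      S18_red A (M * p) ⟨S34DF_wq M p hp hpM (GRS_t hst f), h⟩ ≠ 0 := by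
  have hζ' : ζ ^ ℓ = 1 := GRHS_zeta_pow ζ hζ
  obtain ⟨h, hr⟩ := S40G5H_unit (M * p) A hgen hζ' hst (S34DF_wq M p hp hpM f) hf hred
  have key : ∀ g : ↥(modularFunctionFieldBar (M * p)),
      g = GRS_t hst (S34DF_wq M p hp hpM f) →
      ∃ h : g ∈ S18_O A (M * p), S18_red A (M * p) ⟨g, h⟩ ≠ 0 := by
    rintro g rfl
    exact ⟨h, hr⟩
  exact key _ (S40TW_t_wq_DF M p ℓ hp hpM hℓ hℓp ζ hζ hst f).symm

include hζ hℓ hℓp in
/-- **H2-gen at `V₂`**: `t` keeps the `1`-units of `V₂`. -/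
theorem S40TW_main₂ (hgen : PrincipalGeneratedByIntegral A (IsLocalRing.residue A) (M * p))
    (hst : GRS_Stab (M * p) ℓ ζ) (f : ↥(modularFunctionFieldBar (M * p)))
    (hf : S34DF_wq M p hp hpM f ∈ S18_O A (M * p))
    (hred : S18_red A (M * p) ⟨S34DF_wq M p hp hpM f, hf⟩ = 1) :
    ∃ h : S34DF_wq M p hp hpM (GRS_t hst f) ∈ S18_O A (M * p),
      S18_red A (M * p) ⟨S34DF_wq M p hp hpM (GRS_t hst f), h⟩ = 1 := by
  have hζ' : ζ ^ ℓ = 1 := GRHS_zeta_pow ζ hζ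
  obtain ⟨h, hr⟩ := S40G5H_main (M * p) A hgen hζ' hst (S34DF_wq M p hp hpM f) hf hred
  have key : ∀ g : ↥(modularFunctionFieldBar (M * p)),
      g = GRS_t hst (S34DF_wq M p hp hpM f) →
      ∃ h : g ∈ S18_O A (M * p), S18_red A (M * p) ⟨g, h⟩ = 1 := by
    rintro g rfl
    exact ⟨h, hr⟩
  exact key _ (S40TW_t_wq_DF M p ℓ hp hpM hℓ hℓp ζ hζ hst f).symm

include hζ hℓ hℓp in
/-- `t` keeps the units of the valuation ring `O₂ = S34DF_O2`. -/
theorem S40TW_mem_O2 (hgen : PrincipalGeneratedByIntegral A (IsLocalRing.residue A) (M * p))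
    (hst : GRS_Stab (M * p) ℓ ζ) (f : ↥(modularFunctionFieldBar (M * p)))
    (hf : f ∈ S34DF_O2 M p hp hpM A hgen)
    (hred : S18_red A (M * p) ⟨S34DF_wq M p hp hpM f, hf⟩ ≠ 0) :
    GRS_t hst f ∈ S34DF_O2 M p hp hpM A hgen :=
  (S40TW_unit₂ M p ℓ hp hpM hℓ hℓp A ζ hζ hgen hst f hf hred).1

/-! ### valuation forms -/

/-- `V x < 1` iff `x = 0` or `x⁻¹ ∉ O`. -/
theorem S40TW_val_lt_one_iff {F : Type*} [Field F] (O : ValuationSubring F) (x : F) :
    O.valuation x < 1 ↔ x = 0 ∨ x⁻¹ ∉ O := by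
  by_cases hx : x = 0
  · subst hx
    simp
  · have hpos : 0 < O.valuation x := zero_lt_iff.2 ((Valuation.ne_zero_iff _).2 hx)
    rw [← O.valuation_le_one_iff, map_inv₀, inv_le_one₀ hpos, not_le]
    simp [hx]

/-- in a Gauss datum: `V (u - 1) < 1` iff `u ∈ O` and `red u = 1`. -/
theorem S40TW_val_lt_iff {L F k Fk : Type*} [Field L] [Field F] [Algebra L F] [Field k]
    [Field Fk] [Algebra k Fk] (G : S18_Gauss L F k Fk) (u : F) :
    G.O.valuation (u - 1) < 1 ↔ ∃ h : u ∈ G.O, G.red ⟨u, h⟩ = 1 := by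
  constructor
  · intro hlt
    have hmem : u - 1 ∈ G.O := (G.O.valuation_le_one_iff _).1 hlt.le
    have hu : u ∈ G.O := by
      have := G.O.add_mem _ _ hmem G.O.one_mem
      simpa using this
    refine ⟨hu, ?_⟩
    have hnu : ¬ IsUnit (⟨u - 1, hmem⟩ : G.O) := by
      intro hun
      have := (G.O.valuation_eq_one_iff (⟨u - 1, hmem⟩ : G.O)).1 hun
      exact absurd this hlt.ne
    have h0 : G.red ⟨u - 1, hmem⟩ = 0 := by
      by_contra hne
      exact hnu ((G.red_ne_zero_iff _).1 hne)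
    have e : (⟨u, hu⟩ : G.O) = ⟨u - 1, hmem⟩ + 1 := Subtype.ext (by simp)
    rw [e, map_add, h0, map_one, zero_add]
  · rintro ⟨hu, hred⟩
    have hmem : u - 1 ∈ G.O := G.O.sub_mem hu G.O.one_mem
    have e : (⟨u - 1, hmem⟩ : G.O) = ⟨u, hu⟩ - 1 := Subtype.ext rfl
    have h0 : G.red ⟨u - 1, hmem⟩ = 0 := by
      rw [e, map_sub, hred, map_one, sub_self]
    have hnu : ¬ IsUnit (⟨u - 1, hmem⟩ : G.O) := by
      intro hun
      exact ((G.red_ne_zero_iff _).2 hun) h0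
    have hle : G.O.valuation (u - 1) ≤ 1 := (G.O.valuation_le_one_iff _).2 hmem
    rcases hle.lt_or_eq with h | h
    · exact h
    · exact absurd ((G.O.valuation_eq_one_iff (⟨u - 1, hmem⟩ : G.O)).2 h) hnu

include hζ in
/-- **H2-gen at `V₁`, valuation form**: `V₁ (u − 1) < 1 ⇒ V₁ (t u − 1) < 1`. -/
theorem S40TW_val₁_lt (hgen : PrincipalGeneratedByIntegral A (IsLocalRing.residue A) (M * p))
    (hst : GRS_Stab (M * p) ℓ ζ) (u : ↥(modularFunctionFieldBar (M * p)))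
    (hu : (S34DF_O1 M p A hgen).valuation (u - 1) < 1) :
    (S34DF_O1 M p A hgen).valuation (GRS_t hst u - 1) < 1 := by
  have hζ' : ζ ^ ℓ = 1 := GRHS_zeta_pow ζ hζ
  obtain ⟨h, hr⟩ := (S40TW_val_lt_iff (S18_gaussModL (M * p) A hgen) u).1 hu
  obtain ⟨h', hr'⟩ := S40G5H_main (M * p) A hgen hζ' hst u h hr
  exact (S40TW_val_lt_iff (S18_gaussModL (M * p) A hgen) _).2 ⟨h', hr'⟩

include hζ hℓ hℓp in
/-- **H2-gen at `V₂`, valuation form**: `V₂ (f − 1) < 1 ⇒ V₂ (t f − 1) < 1`. -/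
theorem S40TW_val₂_lt (hgen : PrincipalGeneratedByIntegral A (IsLocalRing.residue A) (M * p))
    (hst : GRS_Stab (M * p) ℓ ζ) (f : ↥(modularFunctionFieldBar (M * p)))
    (hf : (S34DF_O2 M p hp hpM A hgen).valuation (f - 1) < 1) :
    (S34DF_O2 M p hp hpM A hgen).valuation (GRS_t hst f - 1) < 1 := by
  have key : ∀ g : ↥(modularFunctionFieldBar (M * p)),
      (S34DF_O2 M p hp hpM A hgen).valuation g < 1 ↔
        (S34DF_O1 M p A hgen).valuation (S34DF_wq M p hp hpM g) < 1 := by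
    intro g
    rw [S40TW_val_lt_one_iff, S40TW_val_lt_one_iff, S34DF_mem_O2, S34DF_mem_O1, map_inv₀,
      EmbeddingLike.map_eq_zero_iff]
  have e : ∀ g : ↥(modularFunctionFieldBar (M * p)),
      S34DF_wq M p hp hpM g - 1 = S34DF_wq M p hp hpM (g - 1) := by
    intro g
    rw [map_sub, map_one]
  rw [key, ← e] at hf ⊢
  rw [← S40TW_t_wq_DF M p ℓ hp hpM hℓ hℓp ζ hζ hst f]
  exact S40TW_val₁_lt M p ℓ A ζ hζ hgen hst _ hf

end Fermat.Agent.S40
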