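import Mathlib
import Fermat.Agent.S40.F2Main
import Fermat.Agent.S40.F2H
import Fermat.Agent.S40.TWq2

/-!
# TRACK 13 (S40 / S44), (F2'), job list 2, HECKE SIDE (helper24).  Prefix `S40F2MT_`.

Level `N = M * p`, `F = F_N`, `O₁ = S34DF_O1` (Gauss ring of the `q`-expansion), `O₂ = S34DF_O2`
(`= w_p⁻¹ O₁`), `t = GRS_t hst` the multiplicative Hecke operator at a prime `ℓ ∤ N`.

* `S40F2MT_isU₁`, `S40F2MT_isU₂` : `t` keeps the units of `O₁` and of `O₂` (valuation form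
  `S40F2S_IsU`);
* `S40F2MT_cg₁`, `S40F2MT_cg₂` : `t` keeps `x ≡ 1 mod π^(i+1)` at `V₁` and at `V₂`
  (`S40F2J_Cg V_j π i x 0`), `π` a constant of `A`;
* `S40F2MT_const` : `t c = c^(ℓ+1)` for a constant `c` of `F`;
* **`S40F2MT_gen`** : the fields `hc_j`, `hd_j`, `hu₂`, `H1`, `H2` of `S40F2M_Gen` for the Hecke
  transform `(t u, t h)` with the constants `c_j^(ℓ+1)`, `d_j^(ℓ+1)` FROM those of `(u, h)`;
  what is left for `(t u, t h)` are the two geometric fields `hu₁` (slope) and `hdiv`.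
-/

set_option autoImplicit false
set_option synthInstance.maxHeartbeats 400000
set_option maxHeartbeats 1000000
set_option linter.unusedSectionVars false
set_option linter.unusedVariables false
set_option linter.style.haveILetI false

open ModularCurve

noncomputable section

namespace Fermat.Agent.S40

open Fermat.Agent.S24 Fermat.Agent.GalRep Fermat.Agent.S34 Fermat.Agent.S18

local notation "Ω" => AlgebraicClosure ℚ

/-- in a Gauss datum: `x` is a unit of `O` iff `x ∈ O` and `red x ≠ 0`. -/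
theorem S40F2MT_isU_iff {L F k Fk : Type*} [Field L] [Field F] [Algebra L F] [Field k]
    [Field Fk] [Algebra k Fk] (G : S18_Gauss L F k Fk) (v : F) :
    S40F2S_IsU G.O v ↔ ∃ h : v ∈ G.O, G.red ⟨v, h⟩ ≠ 0 := by
  unfold S40F2S_IsU
  constructor
  · intro hv
    have hmem : v ∈ G.O := (G.O.valuation_le_one_iff _).1 hv.le
    refine ⟨hmem, (G.red_ne_zero_iff _).2 ?_⟩
    exact (G.O.valuation_eq_one_iff (⟨v, hmem⟩ : G.O)).2 hv
  · rintro ⟨hmem, hne⟩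
    exact (G.O.valuation_eq_one_iff (⟨v, hmem⟩ : G.O)).1 ((G.red_ne_zero_iff _).1 hne)

/-- the transfer of `x ≡ 1 mod π^(i+1)` from the `1`-unit property of level `a`. -/
theorem S40F2MT_cg_of_one_unit {L F : Type*} [Field L] [Field F] [Algebra L F]
    (A : ValuationSubring L) (O : ValuationSubring F) (t : F →*₀ F)
    (hone : ∀ a ∈ A, ∀ u w : F, w ∈ O → u = 1 + algebraMap L F a * w →
      ∃ w' : F, w' ∈ O ∧ t u = 1 + algebraMap L F a * w')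
    (π₀ : L) (hπ₀ : π₀ ∈ A) (i : ℕ) (x : F)
    (hx : S40F2J_Cg O.valuation (algebraMap L F π₀) i x 0) :
    S40F2J_Cg O.valuation (algebraMap L F π₀) i (t x) 0 := by
  unfold S40F2J_Cg at hx ⊢
  rw [zero_mul, add_zero] at hx ⊢
  set a : L := π₀ ^ (i + 1) with ha
  have haA : a ∈ A := A.pow_mem hπ₀ _
  have hapow : algebraMap L F a = algebraMap L F π₀ ^ (i + 1) := by rw [ha, map_pow]
  by_cases h0 : algebraMap L F a = 0
  · have hV0 : O.valuation (algebraMap L F π₀) ^ (i + 1) = 0 := by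
      rw [← map_pow, ← hapow, h0, map_zero]
    rw [hV0] at hx ⊢
    have hx1 : x - 1 = 0 := by
      have := le_zero_iff.1 hx
      exact (Valuation.zero_iff _).1 this
    have hx' : x = 1 := sub_eq_zero.1 hx1
    rw [hx', map_one, sub_self, map_zero]
  · set w : F := (x - 1) / algebraMap L F a with hw
    have hVa : O.valuation (algebraMap L F a) = O.valuation (algebraMap L F π₀) ^ (i + 1) := by
      rw [hapow, map_pow]
    have hVa0 : O.valuation (algebraMap L F a) ≠ 0 := (Valuation.ne_zero_iff _).2 h0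
    have hwO : w ∈ O := by
      rw [← O.valuation_le_one_iff, hw, map_div₀]
      rw [← hVa] at hx
      exact div_le_one_of_le₀ hx zero_le
    have hu : x = 1 + algebraMap L F a * w := by
      rw [hw, mul_div_cancel₀ _ h0]
      ring
    obtain ⟨w', hw', e⟩ := hone a haA x w hwO hu
    have e' : t x - 1 = algebraMap L F a * w' := by rw [e]; ring
    rw [e', map_mul, ← hVa]
    calc O.valuation (algebraMap L F a) * O.valuation w'
        ≤ O.valuation (algebraMap L F a) * 1 :=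
          mul_le_mul_right ((O.valuation_le_one_iff _).2 hw') _
      _ = O.valuation (algebraMap L F a) := mul_one _

variable (M p ℓ : ℕ) [NeZero M] [NeZero p] [NeZero ℓ] (hp : p.Prime) (hpM : ¬ p ∣ M)
  (hℓ : ℓ.Prime) (hℓp : ℓ ≠ p) (A : ValuationSubring Ω)
  (ζ : Ωˣ) (hζ : IsPrimitiveRoot (ζ : Ω) ℓ)
  (hgen : PrincipalGeneratedByIntegral A (IsLocalRing.residue A) (M * p))
  (hst : GRS_Stab (M * p) ℓ ζ)

include hζ in
/-- `t` keeps the units of `O₁`. -/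
theorem S40F2MT_isU₁ (v : ↥(modularFunctionFieldBar (M * p)))
    (hv : S40F2S_IsU (S34DF_O1 M p A hgen) v) :
    S40F2S_IsU (S34DF_O1 M p A hgen) (GRS_t hst v) := by
  have hζ' : ζ ^ ℓ = 1 := GRHS_zeta_pow ζ hζ
  obtain ⟨h, hr⟩ := (S40F2MT_isU_iff (S18_gaussModL (M * p) A hgen) v).1 hv
  obtain ⟨h', hr'⟩ := S40G5H_unit (M * p) A hgen hζ' hst v h hr
  exact (S40F2MT_isU_iff (S18_gaussModL (M * p) A hgen) _).2 ⟨h', hr'⟩

/-- units of `O₂` are the `w_p`-preimages of the units of `O₁`. -/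
theorem S40F2MT_isU₂_iff (v : ↥(modularFunctionFieldBar (M * p))) :
    S40F2S_IsU (S34DF_O2 M p hp hpM A hgen) v ↔
      S40F2S_IsU (S34DF_O1 M p A hgen) (S34DF_wq M p hp hpM v) := by
  rw [S40F2S_isU_iff, S40F2S_isU_iff, S34DF_mem_O2, S34DF_mem_O2, S34DF_mem_O1, S34DF_mem_O1,
    map_inv₀, Ne, Ne, EmbeddingLike.map_eq_zero_iff]

include hζ hℓ hℓp in
/-- `t` keeps the units of `O₂`. -/
theorem S40F2MT_isU₂ (v : ↥(modularFunctionFieldBar (M * p)))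
    (hv : S40F2S_IsU (S34DF_O2 M p hp hpM A hgen) v) :
    S40F2S_IsU (S34DF_O2 M p hp hpM A hgen) (GRS_t hst v) := by
  rw [S40F2MT_isU₂_iff] at hv ⊢
  rw [← S40TW_t_wq_DF M p ℓ hp hpM hℓ hℓp ζ hζ hst v]
  exact S40F2MT_isU₁ M p ℓ A ζ hζ hgen hst _ hv

include hζ in
/-- `t` keeps `x ≡ 1 mod π^(i+1)` at `V₁`. -/
theorem S40F2MT_cg₁ (π₀ : Ω) (hπ₀ : π₀ ∈ A) (i : ℕ) (x : ↥(modularFunctionFieldBar (M * p)))
    (hx : S40F2J_Cg (S34DF_O1 M p A hgen).valuation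
      (algebraMap Ω ↥(modularFunctionFieldBar (M * p)) π₀) i x 0) :
    S40F2J_Cg (S34DF_O1 M p A hgen).valuation
      (algebraMap Ω ↥(modularFunctionFieldBar (M * p)) π₀) i (GRS_t hst x) 0 := by
  have hζ' : ζ ^ ℓ = 1 := GRHS_zeta_pow ζ hζ
  refine S40F2MT_cg_of_one_unit A (S34DF_O1 M p A hgen) (GRS_t hst) ?_ π₀ hπ₀ i x hx
  intro a ha u w hw hu
  exact S40F2H_one_unit (M * p) A hgen hζ' hst a ha u w hw hu

include hζ hℓ hℓp in
/-- `t` keeps `x ≡ 1 mod π^(i+1)` at `V₂`. -/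
theorem S40F2MT_cg₂ (π₀ : Ω) (hπ₀ : π₀ ∈ A) (i : ℕ) (x : ↥(modularFunctionFieldBar (M * p)))
    (hx : S40F2J_Cg (S34DF_O2 M p hp hpM A hgen).valuation
      (algebraMap Ω ↥(modularFunctionFieldBar (M * p)) π₀) i x 0) :
    S40F2J_Cg (S34DF_O2 M p hp hpM A hgen).valuation
      (algebraMap Ω ↥(modularFunctionFieldBar (M * p)) π₀) i (GRS_t hst x) 0 := by
  have hζ' : ζ ^ ℓ = 1 := GRHS_zeta_pow ζ hζ
  refine S40F2MT_cg_of_one_unit A (S34DF_O2 M p hp hpM A hgen) (GRS_t hst) ?_ π₀ hπ₀ i x hx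
  intro a ha u w hw hu
  exact S40F2H_one_unit_comap (M * p) A hgen hζ' hst (S34DF_wq M p hp hpM)
    (fun g => (S40TW_t_wq_DF M p ℓ hp hpM hℓ hℓp ζ hζ hst g).symm) a ha u w hw hu

/-- `t c = c^(ℓ+1)` for a constant `c` of `F`. -/
theorem S40F2MT_const (hℓN : ¬ ℓ ∣ M * p) (c : ↥(modularFunctionFieldBar (M * p)))
    (hc : ∃ b : Ω, algebraMap Ω ↥(modularFunctionFieldBar (M * p)) b = c) :
    GRS_t hst c = c ^ (ℓ + 1) := by
  obtain ⟨b, rfl⟩ := hc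
  rw [S40F2H_const (M * p) hst hℓN, map_pow]

/-! ### the Hecke transform of `S40F2M_Gen` -/

include hζ hℓ hℓp in
/-- **the Hecke side of job list 2**: the fields `hc_j`, `hd_j`, `hu₂`, `H1`, `H2` of
`S40F2M_Gen` for `(t u, t h)` with the constants `c_j^(ℓ+1)`, `d_j^(ℓ+1)`, from those of `(u, h)`.
The two geometric fields `hu₁` (slope `n'` of `t u`) and `hdiv` (the divisor of `t u` in the
annulus) are hypotheses. -/
theorem S40F2MT_gen {k : Type*} [Field k]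
    (N : S40NA_Node Ω ↥(modularFunctionFieldBar (M * p)) k)
    (hO₁ : N.O₁ = S34DF_O1 M p A hgen) (hO₂ : N.O₂ = S34DF_O2 M p hp hpM A hgen)
    (hℓN : ¬ ℓ ∣ M * p)
    {C : Subfield ↥(modularFunctionFieldBar (M * p))}
    {vL : ↥(modularFunctionFieldBar (M * p)) → ℤ}
    {π c X ϖ : ↥(modularFunctionFieldBar (M * p))} {p' t₀ : ℕ}
    (hCL : ∀ a ∈ C, ∃ b : Ω, algebraMap Ω ↥(modularFunctionFieldBar (M * p)) b = a)
    (hπ : ∃ π₀ : Ω, π₀ ∈ A ∧ algebraMap Ω ↥(modularFunctionFieldBar (M * p)) π₀ = π)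
    {u h c₁ c₂ d₁ d₂ : ↥(modularFunctionFieldBar (M * p))} {n : ℤ}
    (hG : S40F2M_Gen N C vL π c X ϖ p' t₀ u h c₁ c₂ d₁ d₂ n) (n' : ℤ)
    (hu₁' : S40F2SN_U1 N (GRS_t hst u / (c₁ ^ (ℓ + 1) * X ^ n')))
    (hdiv' : ∃ (ι : Type) (s : Finset ι) (w : ι → ↥(modularFunctionFieldBar (M * p)))
      (m : ι → ℤ) (u' E : ↥(modularFunctionFieldBar (M * p))),
      (∀ i ∈ s, w i ≠ 0) ∧ (∀ i ∈ s, w i ∈ N.O₁.nonunits) ∧
      (∀ i ∈ s, ϖ / w i ∈ N.O₂.nonunits) ∧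
      S40F2SN_NoZP N u' ∧ GRS_t hst u = u' * ∏ i ∈ s, (X - w i) ^ ((p' : ℤ) * m i) ∧
      ∏ i ∈ s, w i ^ m i ∈ C ∧
      S40F2K_Reg N (GRS_t hst h / E) ∧
      S40F2J_Cg N.O₁.valuation π t₀ E 0 ∧
      S40F2J_Cg N.O₂.valuation π t₀ E (c * ((vL (∏ i ∈ s, w i ^ m i) : ℤ) :
        ↥(modularFunctionFieldBar (M * p))))) :
    S40F2M_Gen N C vL π c X ϖ p' t₀ (GRS_t hst u) (GRS_t hst h) (c₁ ^ (ℓ + 1)) (c₂ ^ (ℓ + 1))
      (d₁ ^ (ℓ + 1)) (d₂ ^ (ℓ + 1)) n' := by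
  obtain ⟨π₀, hπ₀, rfl⟩ := hπ
  have htc₂ : GRS_t hst c₂ = c₂ ^ (ℓ + 1) := S40F2MT_const M p ℓ ζ hst hℓN c₂ (hCL c₂ hG.hc₂)
  have htd₁ : GRS_t hst d₁ = d₁ ^ (ℓ + 1) := S40F2MT_const M p ℓ ζ hst hℓN d₁ (hCL d₁ hG.hd₁)
  have htd₂ : GRS_t hst d₂ = d₂ ^ (ℓ + 1) := S40F2MT_const M p ℓ ζ hst hℓN d₂ (hCL d₂ hG.hd₂)
  refine
    { hc₁ := Subfield.pow_mem _ hG.hc₁ _
      hc₂ := Subfield.pow_mem _ hG.hc₂ _
      hc₁0 := pow_ne_zero _ hG.hc₁0
      hc₂0 := pow_ne_zero _ hG.hc₂0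
      hd₁ := Subfield.pow_mem _ hG.hd₁ _
      hd₂ := Subfield.pow_mem _ hG.hd₂ _
      hd₁0 := pow_ne_zero _ hG.hd₁0
      hd₂0 := pow_ne_zero _ hG.hd₂0
      hu₁ := hu₁'
      hu₂ := ?_
      H1 := ?_
      H2 := ?_
      hdiv := hdiv' }
  · have h2 := hG.hu₂
    rw [hO₂] at h2 ⊢
    have := S40F2MT_isU₂ M p ℓ hp hpM hℓ hℓp A ζ hζ hgen hst _ h2
    rwa [map_div₀, htc₂] at this
  · have h1 := hG.H1
    rw [hO₁] at h1 ⊢
    have := S40F2MT_cg₁ M p ℓ A ζ hζ hgen hst π₀ hπ₀ t₀ _ h1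
    rwa [map_div₀, htd₁] at this
  · have h2 := hG.H2
    rw [hO₂] at h2 ⊢
    have := S40F2MT_cg₂ M p ℓ hp hpM hℓ hℓp A ζ hζ hgen hst π₀ hπ₀ t₀ _ h2
    rwa [map_div₀, htd₂] at this

end Fermat.Agent.S40
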