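import Mathlib
import Fermat.Agent.S40.F2Main2
import Fermat.Agent.S40.F2MainT

/-!
# TRACK 13 (S40 / S44), (F2'), HECKE SIDE for the interface at depth `p t` (helper24).
Prefix `S40F2MT2_`.

`S40F2MT2_gen` : the fields `hc_j`, `hY_j`, `hu₂`, `H1`, `H2` of `S40F2M2_Gen` (helper16,
`S40/F2Main2.lean`) for the Hecke transform `(t u, t y)` with the constants `c_j^(ℓ+1)`,
`Y_j^(ℓ+1)`, from those of `(u, y)`.  Level `M * p`, `O₁ = S34DF_O1`, `O₂ = S34DF_O2`,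
`t = GRS_t hst` at a prime `ℓ ∤ M * p`.  The geometric fields `hu₁`, `hdiv` of `(t u, t y)` are
hypotheses.
-/

set_option autoImplicit false
set_option synthInstance.maxHeartbeats 400000
set_option maxHeartbeats 1000000
set_option linter.unusedSectionVars false
set_option linter.unusedVariables false
set_option linter.style.haveILetI false

open ModularCurve

noncomputable section

namespace Fermat.Agent.S40

open Fermat.Agent.S24 Fermat.Agent.GalRep Fermat.Agent.S34 Fermat.Agent.S18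

local notation "Ω" => AlgebraicClosure ℚ

variable (M p ℓ : ℕ) [NeZero M] [NeZero p] [NeZero ℓ] (hp : p.Prime) (hpM : ¬ p ∣ M)
  (hℓ : ℓ.Prime) (hℓp : ℓ ≠ p) (A : ValuationSubring Ω)
  (ζ : Ωˣ) (hζ : IsPrimitiveRoot (ζ : Ω) ℓ)
  (hgen : PrincipalGeneratedByIntegral A (IsLocalRing.residue A) (M * p))
  (hst : GRS_Stab (M * p) ℓ ζ)

include hζ hℓ hℓp in
/-- **the Hecke side of `S40F2M2_Gen`**. -/
theorem S40F2MT2_gen {k : Type*} [Field k]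
    (N : S40NA_Node Ω ↥(modularFunctionFieldBar (M * p)) k)
    (hO₁ : N.O₁ = S34DF_O1 M p A hgen) (hO₂ : N.O₂ = S34DF_O2 M p hp hpM A hgen)
    (hℓN : ¬ ℓ ∣ M * p)
    {C : Subfield ↥(modularFunctionFieldBar (M * p))}
    {vL : ↥(modularFunctionFieldBar (M * p)) → ℤ}
    {π c X ϖ : ↥(modularFunctionFieldBar (M * p))} {p' t₀ : ℕ}
    (hCL : ∀ a ∈ C, ∃ b : Ω, algebraMap Ω ↥(modularFunctionFieldBar (M * p)) b = a)
    (hπ : ∃ π₀ : Ω, π₀ ∈ A ∧ algebraMap Ω ↥(modularFunctionFieldBar (M * p)) π₀ = π)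
    {u y c₁ c₂ Y₁ Y₂ : ↥(modularFunctionFieldBar (M * p))} {n : ℤ}
    (hG : S40F2M2_Gen N C vL π c X ϖ p' t₀ u y c₁ c₂ Y₁ Y₂ n) (n' : ℤ)
    (hu₁' : S40F2SN_U1 N (GRS_t hst u / (c₁ ^ (ℓ + 1) * X ^ n')))
    (hdiv' : ∃ (ι : Type) (s : Finset ι) (w : ι → ↥(modularFunctionFieldBar (M * p)))
      (m : ι → ℤ) (u' E : ↥(modularFunctionFieldBar (M * p))),
      (∀ i ∈ s, w i ≠ 0) ∧ (∀ i ∈ s, w i ∈ N.O₁.nonunits) ∧
      (∀ i ∈ s, ϖ / w i ∈ N.O₂.nonunits) ∧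
      S40F2SN_NoZP N u' ∧ GRS_t hst u = u' * ∏ i ∈ s, (X - w i) ^ ((p' : ℤ) * m i) ∧
      ∏ i ∈ s, w i ^ m i ∈ C ∧
      S40F2K_Reg N (GRS_t hst y / E ^ p') ∧
      S40F2J_Cg N.O₁.valuation π t₀ E 0 ∧
      S40F2J_Cg N.O₂.valuation π t₀ E (c * ((vL (∏ i ∈ s, w i ^ m i) : ℤ) :
        ↥(modularFunctionFieldBar (M * p))))) :
    S40F2M2_Gen N C vL π c X ϖ p' t₀ (GRS_t hst u) (GRS_t hst y) (c₁ ^ (ℓ + 1)) (c₂ ^ (ℓ + 1))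
      (Y₁ ^ (ℓ + 1)) (Y₂ ^ (ℓ + 1)) n' := by
  obtain ⟨π₀, hπ₀, rfl⟩ := hπ
  have htc₂ : GRS_t hst c₂ = c₂ ^ (ℓ + 1) := S40F2MT_const M p ℓ ζ hst hℓN c₂ (hCL c₂ hG.hc₂)
  have htY₁ : GRS_t hst Y₁ = Y₁ ^ (ℓ + 1) := S40F2MT_const M p ℓ ζ hst hℓN Y₁ (hCL Y₁ hG.hY₁)
  have htY₂ : GRS_t hst Y₂ = Y₂ ^ (ℓ + 1) := S40F2MT_const M p ℓ ζ hst hℓN Y₂ (hCL Y₂ hG.hY₂)
  refine
    { hc₁ := Subfield.pow_mem _ hG.hc₁ _
      hc₂ := Subfield.pow_mem _ hG.hc₂ _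
      hc₁0 := pow_ne_zero _ hG.hc₁0
      hc₂0 := pow_ne_zero _ hG.hc₂0
      hY₁ := Subfield.pow_mem _ hG.hY₁ _
      hY₂ := Subfield.pow_mem _ hG.hY₂ _
      hY₁0 := pow_ne_zero _ hG.hY₁0
      hY₂0 := pow_ne_zero _ hG.hY₂0
      hu₁ := hu₁'
      hu₂ := ?_
      H1 := ?_
      H2 := ?_
      hdiv := hdiv' }
  · have h2 := hG.hu₂
    rw [hO₂] at h2 ⊢
    have := S40F2MT_isU₂ M p ℓ hp hpM hℓ hℓp A ζ hζ hgen hst _ h2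
    rwa [map_div₀, htc₂] at this
  · have h1 := hG.H1
    rw [hO₁] at h1 ⊢
    have := S40F2MT_cg₁ M p ℓ A ζ hζ hgen hst π₀ hπ₀ (p' * t₀) _ h1
    rwa [map_div₀, htY₁] at this
  · have h2 := hG.H2
    rw [hO₂] at h2 ⊢
    have := S40F2MT_cg₂ M p ℓ hp hpM hℓ hℓp A ζ hζ hgen hst π₀ hπ₀ (p' * t₀) _ h2
    rwa [map_div₀, htY₂] at this

end Fermat.Agent.S40
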