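import Fermat.Agent.S40.NodeSlope
import Fermat.Agent.S40.F2Smooth

/-!
# TRACK 13 (S40/S44, row 38): from `U1`-units to orders at the places of the fibre (helper16).
Prefix `S40F2O_`.

`S : S18_Val L F k Fk` (Gauss valuation ring `S.O`, reduction `S.red`), `v` a place of the fibre
`Fk`, `N : S40NA_Node L F k` a node (or a degenerate node = smooth point, `S40/F2Smooth.lean`) with
`N.O₁ = S.O` whose evaluation `ε` is the value at `v` of the reduction: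
`hε : ∀ f ∈ Λ, 0 ≤ ord_v (red f) ∧ (ε f ≠ 0 → ord_v (red f) = 0)`.

* `S40F2O_ord_unitAt` : a unit `g` of `S.O` which is a unit at the node has `ord_v (red g) = 0`;
* `S40F2O_dvd` : `g / X ^ (p n)` a `U1`-unit ⇒ `p ∣ ord_v (red g)`;
* `S40F2O_dvd_smooth` : **the smooth points**: `O₂ = O₁`, `u = u' ∏ (X − w i) ^ (p m i)`, `u'`
  without zero and pole specialising to the point ⇒ `p ∣ ord_v (red (u / c))`;
* `S40F2O_isKum` : `KM_IsKum` from the divisibility at every place.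
-/

set_option autoImplicit false

open AlgebraicCurve

noncomputable section

namespace Fermat.Agent.S40

open Fermat.Agent.S18 Fermat.Agent.GalRep

section

variable {L F k Fk : Type*} [Field L] [Field F] [Algebra L F] [Field k] [Field Fk]
  [Algebra k Fk] (S : S18_Val L F k Fk) (v : Place k Fk) (N : S40NA_Node L F k)

/-- a unit of `S.O` which is a unit at the node has order `0` at `v`. -/
theorem S40F2O_ord_unitAt (hO : N.O₁ = S.O)
    (hε : ∀ (f : F) (hf : f ∈ N.Lam) (hfO : f ∈ S.O),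
      N.ε ⟨f, hf⟩ ≠ 0 → v.ord (S.red ⟨f, hfO⟩) = 0)
    {g : F} (hg : S40F2S_IsU S.O g) (hu : S40NA_UnitAt N g) :
    v.ord (S.red ⟨g, hg.mem⟩) = 0 := by
  obtain ⟨a', b', ha', hb', hn, hεa, hεb⟩ := hu
  have haO : a' ∈ S.O := hO ▸ N.mem_O₁ ha'
  have hbO : b' ∈ S.O := hO ▸ N.mem_O₁ hb'
  have hn' : g * b' - a' ∈ S.O.nonunits := hO ▸ hn
  have h0 : S.red ⟨g * b' - a', S.O.sub_mem (S.O.mul_mem _ _ hg.mem hbO) haO⟩ = 0 :=
    (S40NS_red_eq_zero_iff S _).2 hn'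
  have e : (⟨g * b' - a', S.O.sub_mem (S.O.mul_mem _ _ hg.mem hbO) haO⟩ : ↥S.O)
      = ⟨g, hg.mem⟩ * ⟨b', hbO⟩ - ⟨a', haO⟩ := rfl
  rw [e, map_sub, map_mul, sub_eq_zero] at h0
  have hoa := hε a' ha' haO hεa
  have hob := hε b' hb' hbO hεb
  have hg0 : S.red ⟨g, hg.mem⟩ ≠ 0 := S40NS_red_ne_zero_of_isU S hg
  have hb0 : S.red ⟨b', hbO⟩ ≠ 0 := by
    intro hz
    rw [hz, mul_zero] at h0
    have hau : S40F2S_IsU S.O g := hg
    -- `red a' = 0` and `red b' = 0`: then `ε a' = 0`, contradiction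
    have ha0 : a' ∈ S.O.nonunits := (S40NS_red_eq_zero_iff S haO).1 h0.symm
    have : a' ∈ N.O₁.nonunits := hO ▸ ha0
    exact hεa (N.ε_zero₁ ⟨a', ha'⟩ this)
  have h1 := v.ord_mul hg0 hb0
  rw [h0, hoa, hob, add_zero] at h1
  exact h1.symm

/-- `g / X ^ (p n)` a `U1`-unit ⇒ `p ∣ ord_v (red g)`. -/
theorem S40F2O_dvd (hO : N.O₁ = S.O)
    (hε : ∀ (f : F) (hf : f ∈ N.Lam) (hfO : f ∈ S.O),
      N.ε ⟨f, hf⟩ ≠ 0 → v.ord (S.red ⟨f, hfO⟩) = 0)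
    {g X : F} (hg : S40F2S_IsU S.O g) (hX : S40F2S_IsU S.O X) (p : ℕ) (n : ℤ)
    (hu : S40F2SN_U1 N (g / X ^ ((p : ℤ) * n))) :
    (p : ℤ) ∣ v.ord (S.red ⟨g, hg.mem⟩) := by
  have hq : S40F2S_IsU S.O (g / X ^ ((p : ℤ) * n)) := hg.div (hX.zpow _)
  have h0 := S40F2O_ord_unitAt S v N hO hε hq hu.2
  have hX0 := S40NS_red_ne_zero_of_isU S hX
  have hg0 := S40NS_red_ne_zero_of_isU S hg
  rw [S40NS_red_div S hg.mem (hX.zpow _) hq.mem, S40NS_red_zpow S hX, div_eq_mul_inv,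
    v.ord_mul hg0 (inv_ne_zero (zpow_ne_zero _ hX0)), v.ord_inv, v.ord_zpow] at h0
  refine ⟨n * v.ord (S.red ⟨X, hX.mem⟩), ?_⟩
  linarith

/-- **the smooth points of the fibre**: at a degenerate node (`O₂ = O₁`) every generator whose
divisor near the point is divisible by `p` has order divisible by `p`. -/
theorem S40F2O_dvd_smooth (hO : N.O₁ = S.O) (hO₂ : N.O₂ = N.O₁)
    (hε : ∀ (f : F) (hf : f ∈ N.Lam) (hfO : f ∈ S.O),
      N.ε ⟨f, hf⟩ ≠ 0 → v.ord (S.red ⟨f, hfO⟩) = 0)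
    (hfin : ∀ g : F, {Q : S40NA_Pt L F | Q ∈ N.U ∧ g ∉ Q.P}.Finite)
    {X : F} (hX : S40F2S_IsU S.O X)
    {ι : Type*} (s : Finset ι) (w : ι → F) (m : ι → ℤ)
    (hw₁ : ∀ i ∈ s, w i ∈ S.O.nonunits)
    {u u' c : F} (hu'P : S40F2SN_NoZP N u') (p : ℕ)
    (hu : u = u' * ∏ i ∈ s, (X - w i) ^ ((p : ℤ) * m i))
    (hcL : c ∈ (algebraMap L F).fieldRange) (hc : S40F2S_IsU S.O (u / c)) :
    (p : ℤ) ∣ v.ord (S.red ⟨u / c, hc.mem⟩) := by
  have hX' : S40F2S_IsU N.O₁ X := hO ▸ hX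
  have hc' : S40F2S_IsU N.O₁ (u / c) := hO ▸ hc
  have hw' : ∀ i ∈ s, w i ∈ N.O₁.nonunits := fun i hi => hO ▸ hw₁ i hi
  obtain ⟨n, hn⟩ := S40F2SM_kummer N hO₂ hfin hX' s w m hw' hu'P p hu hcL hc'
  have e : u / (c * X ^ ((p : ℤ) * n)) = u / c / X ^ ((p : ℤ) * n) := by rw [div_div]
  rw [e] at hn
  exact S40F2O_dvd S v N hO hε hc hX p n hn

end

/-- `KM_IsKum` from the divisibility of the orders at every place. -/
theorem S40F2O_isKum {k Fk : Type} [Field k] [Field Fk] [Algebra k Fk] (p : ℕ) {f : Fk}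
    (hf : f ≠ 0) (h : ∀ v : Place k Fk, (p : ℤ) ∣ v.ord f) : KM_IsKum k Fk p f :=
  ⟨hf, h⟩

end Fermat.Agent.S40
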