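import Mathlib
import Fermat.Agent.S40.F2Main2
import Fermat.Agent.S40.F2MainT2
import Fermat.Agent.S40.F2MainCoord
import Fermat.Agent.S40.F2MainN
import Fermat.Agent.S40.F2Out

/-!
# TRACK 13 (S40 / S44), (F2'), ASSEMBLY of the node chain at depth `p t` (helper16).
Prefix `S40F2AS_`.

`S40F2AS_node` : at ONE node `N` of level `M * p` (any node with `N.O₁ = S34DF_O1`,
`N.O₂ = S34DF_O2` and a coordinate `Cn` of thickness `p ^ e`), from

* the constants of the break (`C₀`, `π`, `c`, `ζ₀` : the inputs of `S40F2MC_coord`),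
* the slope of the modular unit (`hslope`, input of `S40F2MC_he`),
* `hpv₁`, `hpv₂`,
* `hG : S40F2M2_Gen` for `(u, y)`,
* the geometric fields `hu₁'`, `hdiv'` of the Hecke transform `(t u, t y)`,
* `e : t u = κ u ^ a g ^ p` and the slope of `g`,
* `ha : p ∤ a − ℓ − 1`,

the slope `n` of `u` at the node is divisible by `p`.

`S40F2AS_dvd` : hence `p ∣ ord_v (red (u / c₁))` at the point `v` of the node.
-/

set_option autoImplicit false
set_option synthInstance.maxHeartbeats 400000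
set_option maxHeartbeats 1000000
set_option linter.unusedSectionVars false
set_option linter.unusedVariables false
set_option linter.style.haveILetI false

open ModularCurve

noncomputable section

namespace Fermat.Agent.S40

open Fermat.Agent.S24 Fermat.Agent.GalRep Fermat.Agent.S34 Fermat.Agent.S18

local notation "Ω" => AlgebraicClosure ℚ

variable (M p ℓ : ℕ) [NeZero M] [NeZero p] [NeZero ℓ] (hp : p.Prime) (hpM : ¬ p ∣ M)
  (hℓ : ℓ.Prime) (hℓp : ℓ ≠ p) (A : ValuationSubring Ω)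
  (ζ : Ωˣ) (hζ : IsPrimitiveRoot (ζ : Ω) ℓ)
  (hgen : PrincipalGeneratedByIntegral A (IsLocalRing.residue A) (M * p))
  (hst : GRS_Stab (M * p) ℓ ζ)

include hζ hℓ hℓp in
/-- **the node chain at one node** (depth `p t`). -/
theorem S40F2AS_node {k : Type*} [Field k]
    (N : S40NA_Node Ω ↥(modularFunctionFieldBar (M * p)) k)
    (hO₁ : N.O₁ = S34DF_O1 M p A hgen) (hO₂ : N.O₂ = S34DF_O2 M p hp hpM A hgen)
    (hℓN : ¬ ℓ ∣ M * p) (hp5 : 5 ≤ p)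
    (Cn : S40F2N_Coord N) (C₀ : Subfield Ω) {π c ζ₀ : Ω} (e : ℕ) (hϖ : Cn.ϖ = (p : Ω) ^ e)
    (hA₁ : ∀ a : Ω, algebraMap Ω ↥(modularFunctionFieldBar (M * p)) a ∈ N.O₁ → a ∈ N.A)
    (hA₂ : ∀ a : Ω, algebraMap Ω ↥(modularFunctionFieldBar (M * p)) a ∈ N.O₂ → a ∈ N.A)
    (hπC : π ∈ C₀) (hπ0 : π ≠ 0) (hπ1 : N.A.valuation π < 1) (hπA : π ∈ A)
    (hval : ∀ x ∈ C₀, x ≠ 0 → ∃ j : ℤ, N.A.valuation x = N.A.valuation π ^ j)
    (hcC : c ∈ C₀) (hc1 : N.A.valuation c = 1)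
    (hVp : N.A.valuation (p : Ω) < 1)
    (hfin : ∀ g : ↥(modularFunctionFieldBar (M * p)),
      {Q : S40NA_Pt Ω ↥(modularFunctionFieldBar (M * p)) | Q ∈ N.U ∧ g ∉ Q.P}.Finite)
    (hπ : N.A.valuation π ^ p = N.A.valuation (1 - ζ₀))
    (hζ₀ : N.A.valuation (1 - ζ₀) ^ (p - 1) = N.A.valuation (p : Ω))
    (m : ℤ)
    (hslope : -(12 * S40F2MV_vL N.O₁ (algebraMap Ω ↥(modularFunctionFieldBar (M * p)) π)
        (algebraMap Ω ↥(modularFunctionFieldBar (M * p)) (p : Ω))) =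
      m * S40F2MV_vL N.O₁ (algebraMap Ω ↥(modularFunctionFieldBar (M * p)) π)
        (algebraMap Ω ↥(modularFunctionFieldBar (M * p)) ((p : Ω) ^ e)))
    {t : ℕ} (ht : 1 ≤ t)
    (hpv₁ : N.O₁.valuation ((p : ℕ) : ↥(modularFunctionFieldBar (M * p))) *
        N.O₁.valuation (algebraMap Ω ↥(modularFunctionFieldBar (M * p)) π) ^ t
      ≤ N.O₁.valuation (algebraMap Ω ↥(modularFunctionFieldBar (M * p)) π) ^ (p * t + 1))
    (hpv₂ : N.O₂.valuation ((p : ℕ) : ↥(modularFunctionFieldBar (M * p))) *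
        N.O₂.valuation (algebraMap Ω ↥(modularFunctionFieldBar (M * p)) π) ^ t
      ≤ N.O₂.valuation (algebraMap Ω ↥(modularFunctionFieldBar (M * p)) π) ^ (p * t + 1))
    {u y c₁ c₂ Y₁ Y₂ : ↥(modularFunctionFieldBar (M * p))} {n : ℤ}
    (hG : S40F2M2_Gen N (C₀.map (algebraMap Ω ↥(modularFunctionFieldBar (M * p))))
      (S40F2MV_vL N.O₁ (algebraMap Ω ↥(modularFunctionFieldBar (M * p)) π))
      (algebraMap Ω ↥(modularFunctionFieldBar (M * p)) π)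
      (algebraMap Ω ↥(modularFunctionFieldBar (M * p)) c) Cn.X
      (algebraMap Ω ↥(modularFunctionFieldBar (M * p)) Cn.ϖ) p t u y c₁ c₂ Y₁ Y₂ n)
    (n' : ℤ)
    (hu₁' : S40F2SN_U1 N (GRS_t hst u / (c₁ ^ (ℓ + 1) * Cn.X ^ n')))
    (hdiv' : ∃ (ι : Type) (s : Finset ι) (w : ι → ↥(modularFunctionFieldBar (M * p)))
      (m : ι → ℤ) (u' E : ↥(modularFunctionFieldBar (M * p))),
      (∀ i ∈ s, w i ≠ 0) ∧ (∀ i ∈ s, w i ∈ N.O₁.nonunits) ∧
      (∀ i ∈ s, algebraMap Ω ↥(modularFunctionFieldBar (M * p)) Cn.ϖ / w i ∈ N.O₂.nonunits) ∧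
      S40F2SN_NoZP N u' ∧ GRS_t hst u = u' * ∏ i ∈ s, (Cn.X - w i) ^ ((p : ℤ) * m i) ∧
      ∏ i ∈ s, w i ^ m i ∈ C₀.map (algebraMap Ω ↥(modularFunctionFieldBar (M * p))) ∧
      S40F2K_Reg N (GRS_t hst y / E ^ p) ∧
      S40F2J_Cg N.O₁.valuation (algebraMap Ω ↥(modularFunctionFieldBar (M * p)) π) t E 0 ∧
      S40F2J_Cg N.O₂.valuation (algebraMap Ω ↥(modularFunctionFieldBar (M * p)) π) t E
        (algebraMap Ω ↥(modularFunctionFieldBar (M * p)) c *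
          ((S40F2MV_vL N.O₁ (algebraMap Ω ↥(modularFunctionFieldBar (M * p)) π)
            (∏ i ∈ s, w i ^ m i) : ℤ) : ↥(modularFunctionFieldBar (M * p)))))
    (κ : Ω) (a : ℤ) (g : ↥(modularFunctionFieldBar (M * p)))
    (hE : GRS_t hst u = algebraMap Ω ↥(modularFunctionFieldBar (M * p)) κ * u ^ a * g ^ p)
    (hg : ∃ (d : Ω) (m : ℤ),
      S40F2SN_U1 N (g / (algebraMap Ω ↥(modularFunctionFieldBar (M * p)) d * Cn.X ^ m)))
    (ha : ¬ (p : ℤ) ∣ a - (ℓ : ℤ) - 1) : (p : ℤ) ∣ n := by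
  have hC := S40F2MC_coord N Cn C₀ hp e hϖ hA₁ hA₂ hπC hπ0 hπ1 hval hcC hc1 hVp hfin hπ hζ₀
  have hG' := S40F2MT2_gen M p ℓ hp hpM hℓ hℓp A ζ hζ hgen hst N hO₁ hO₂ hℓN hC.hCL
    ⟨π, hπA, rfl⟩ hG n' hu₁' hdiv'
  have hn := S40F2MN_hn N Cn.hX Cn.εX Cn.X_unit hA₁ (hC.hCL _ hG.hc₁) (hC.hCL _ hG'.hc₁)
    hG.hu₁ hG'.hu₁ κ a p hE hg
  have he := S40F2MC_he N hp hp5 e hA₁ hπ0 hπ1 hπ hζ₀ m hslope
  exact S40F2M2_node N hp hC ht hpv₁ hpv₂ hG ℓ hG' a hn he ha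

end Fermat.Agent.S40
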