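import Fermat.Agent.S40.F2ValGrp
import Fermat.Agent.S40.NodeAbs

/-!
# TRACK 13 (S40, row 38), (F2') node chain, leaf (d) (helper12): the constants `c₁`, `c₂` of a
rational Kummer generator `u` at the two Gauss valuations.  Prefix `S40F2AD_`.

Level `M p` (`p ∤ M` prime), `A ⊂ Ω = ℚ̄` over `p`, `H ⊂ G_ℚ` ANY set, `C₀` a subfield of `Ω`
containing `π`, with `π` fixed by `H`, `0 < v(π) < 1`, and `v(x) ∈ v(π)^ℤ` for every `H`-fixed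
constant `x ≠ 0` (the constants of `S40F2B_main` / `S40F2GZ_main`).  For `u ≠ 0` with `H`-fixed
`q`-coefficients:

* **`S40F2AD_main`** : `∃ c₁ c₂ ∈ C := C₀.map (algebraMap Ω F)`, `c₁, c₂ ≠ 0`,
  `S40F2S_IsU O₁ (u / c₁)` and `S40F2S_IsU O₂ (u / c₂)`  (`c_j = π ^ n_j`):
  the fields `hc₁ hc₂ hc₁0 hc₂0 hu₂` of `S40F2M2_Gen` / `S40F2M_Gen`, and the hypothesis
  `S40F2S_IsU O₁ (u / c₁)` of `S40NS_u1_of_ord` (leaf (e));
* `S40F2AD_main'` : the same with the valuation rings of a node (`N.O₁ = O₁`, `N.O₂ = O₂` as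
  hypotheses) — any type of node;
* `S40F2AD_hval` : `hval` in the `C₀`-form (`∀ x ∈ C₀, …`) gives `hval` in the `H`-form when
  `C₀ ⊇ Fix(H)`.
-/

set_option autoImplicit false
set_option linter.unusedSectionVars false
set_option linter.unusedVariables false
set_option linter.style.haveILetI false
set_option synthInstance.maxHeartbeats 400000
set_option maxHeartbeats 1000000

open HahnSeries ModularCurve IntermediateField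

namespace Fermat.Agent.S40

open Fermat.Agent.S18 Fermat.Agent.S24 Fermat.Agent.S34 Fermat.Agent.S36 Fermat.Agent.GalRep
  Fermat.Agent.S33

local notation "Ω" => AlgebraicClosure ℚ

/-- `hval` in the `C₀`-form gives `hval` in the `H`-form when `C₀ ⊇ Fix(H)`. -/
theorem S40F2AD_hval (A : ValuationSubring Ω) (H : Set (Ω ≃ₐ[ℚ] Ω)) (C₀ : Subfield Ω) {π : Ω}
    (hC₀ : ∀ x : Ω, (∀ g ∈ H, g x = x) → x ∈ C₀)
    (hval : ∀ x ∈ C₀, x ≠ 0 → ∃ j : ℤ, A.valuation x = A.valuation π ^ j) :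
    ∀ x : Ω, x ≠ 0 → (∀ g ∈ H, g x = x) → ∃ k : ℤ, A.valuation x = A.valuation π ^ k :=
  fun x hx0 hx => hval x (hC₀ x hx) hx0

variable (M p : ℕ) [NeZero (M * p)] (hp : p.Prime) (hpM : ¬ p ∣ M)
  (A : ValuationSubring Ω) (hA : A.LiesOverPrime p)
  (hgen : PrincipalGeneratedByIntegral A (IsLocalRing.residue A) (M * p))

/-- a power of `π` as an element of `C = C₀.map (algebraMap Ω F)`. -/
theorem S40F2AD_zpow_mem (C₀ : Subfield Ω) {π : Ω} (hπC : π ∈ C₀) (n : ℤ) :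
    algebraMap Ω ↥(modularFunctionFieldBar (M * p)) π ^ n ∈
      C₀.map (algebraMap Ω ↥(modularFunctionFieldBar (M * p))) := by
  refine ⟨π ^ n, zpow_mem hπC n, ?_⟩
  exact map_zpow₀ (algebraMap Ω ↥(modularFunctionFieldBar (M * p))) π n

include hp hpM hA in
/-- **leaf (d)**: the constants `c₁`, `c₂` of `u` at `V₁`, `V₂`. -/
theorem S40F2AD_main (H : Set (Ω ≃ₐ[ℚ] Ω)) (C₀ : Subfield Ω) {π : Ω} (hπC : π ∈ C₀)
    (hπH : ∀ g ∈ H, g π = π) (hπ0 : π ≠ 0) (hπ1 : A.valuation π < 1)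
    (hval : ∀ x : Ω, x ≠ 0 → (∀ g ∈ H, g x = x) → ∃ k : ℤ, A.valuation x = A.valuation π ^ k)
    (u : ↥(modularFunctionFieldBar (M * p))) (hu0 : u ≠ 0)
    (hu : ∀ τ ∈ H, ∀ k : ℤ, τ ((u : LaurentSeries Ω).coeff k) = (u : LaurentSeries Ω).coeff k) :
    ∃ c₁ c₂ : ↥(modularFunctionFieldBar (M * p)),
      c₁ ∈ C₀.map (algebraMap Ω ↥(modularFunctionFieldBar (M * p))) ∧
      c₂ ∈ C₀.map (algebraMap Ω ↥(modularFunctionFieldBar (M * p))) ∧ c₁ ≠ 0 ∧ c₂ ≠ 0 ∧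
      S40F2S_IsU (S34DF_O1 M p A hgen) (u / c₁) ∧
      S40F2S_IsU (S34DF_O2 M p hp hpM A hgen) (u / c₂) := by
  obtain ⟨⟨n₁, h₁⟩, ⟨n₂, h₂⟩⟩ :=
    S40F2VG_main M p hp hpM A hA hgen H hπH hπ0 hπ1 hval u hu0 hu
  have hπF : algebraMap Ω ↥(modularFunctionFieldBar (M * p)) π ≠ 0 := (map_ne_zero _).mpr hπ0
  exact ⟨_, _, S40F2AD_zpow_mem M p C₀ hπC n₁, S40F2AD_zpow_mem M p C₀ hπC n₂,
    zpow_ne_zero _ hπF, zpow_ne_zero _ hπF, h₁, h₂⟩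

include hp hpM hA in
/-- **leaf (d), with the exponents**: `c_j = π ^ n_j`. -/
theorem S40F2AD_pow (H : Set (Ω ≃ₐ[ℚ] Ω)) {π : Ω}
    (hπH : ∀ g ∈ H, g π = π) (hπ0 : π ≠ 0) (hπ1 : A.valuation π < 1)
    (hval : ∀ x : Ω, x ≠ 0 → (∀ g ∈ H, g x = x) → ∃ k : ℤ, A.valuation x = A.valuation π ^ k)
    (u : ↥(modularFunctionFieldBar (M * p))) (hu0 : u ≠ 0)
    (hu : ∀ τ ∈ H, ∀ k : ℤ, τ ((u : LaurentSeries Ω).coeff k) = (u : LaurentSeries Ω).coeff k) :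
    ∃ n₁ n₂ : ℤ,
      S40F2S_IsU (S34DF_O1 M p A hgen)
        (u / algebraMap Ω ↥(modularFunctionFieldBar (M * p)) (π ^ n₁)) ∧
      S40F2S_IsU (S34DF_O2 M p hp hpM A hgen)
        (u / algebraMap Ω ↥(modularFunctionFieldBar (M * p)) (π ^ n₂)) := by
  obtain ⟨⟨n₁, h₁⟩, ⟨n₂, h₂⟩⟩ :=
    S40F2VG_main M p hp hpM A hA hgen H hπH hπ0 hπ1 hval u hu0 hu
  refine ⟨n₁, n₂, ?_, ?_⟩
  · rw [map_zpow₀]
    exact h₁
  · rw [map_zpow₀]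
    exact h₂

include hp hpM hA in
/-- **leaf (d) at valuation rings given by equations** (the two rings of a node). -/
theorem S40F2AD_main' (O₁ O₂ : ValuationSubring ↥(modularFunctionFieldBar (M * p)))
    (hO₁ : O₁ = S34DF_O1 M p A hgen) (hO₂ : O₂ = S34DF_O2 M p hp hpM A hgen)
    (H : Set (Ω ≃ₐ[ℚ] Ω)) (C₀ : Subfield Ω) {π : Ω} (hπC : π ∈ C₀)
    (hπH : ∀ g ∈ H, g π = π) (hπ0 : π ≠ 0) (hπ1 : A.valuation π < 1)
    (hval : ∀ x : Ω, x ≠ 0 → (∀ g ∈ H, g x = x) → ∃ k : ℤ, A.valuation x = A.valuation π ^ k)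
    (u : ↥(modularFunctionFieldBar (M * p))) (hu0 : u ≠ 0)
    (hu : ∀ τ ∈ H, ∀ k : ℤ, τ ((u : LaurentSeries Ω).coeff k) = (u : LaurentSeries Ω).coeff k) :
    ∃ c₁ c₂ : ↥(modularFunctionFieldBar (M * p)),
      c₁ ∈ C₀.map (algebraMap Ω ↥(modularFunctionFieldBar (M * p))) ∧
      c₂ ∈ C₀.map (algebraMap Ω ↥(modularFunctionFieldBar (M * p))) ∧ c₁ ≠ 0 ∧ c₂ ≠ 0 ∧
      S40F2S_IsU O₁ (u / c₁) ∧ S40F2S_IsU O₂ (u / c₂) := by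
  subst hO₁ hO₂
  exact S40F2AD_main M p hp hpM A hA hgen H C₀ hπC hπH hπ0 hπ1 hval u hu0 hu

include hp hpM hA in
/-- **leaf (d) at a node** (shape of `S40F2AS_node`: `hval` in the `C₀`-form, valuation of
`N.A`): the fields `hc₁ hc₂ hc₁0 hc₂0 hu₂` of `S40F2M2_Gen`, and `IsU N.O₁ (u / c₁)`. -/
theorem S40F2AD_node {k : Type*} [Field k]
    (N : S40NA_Node Ω ↥(modularFunctionFieldBar (M * p)) k)
    (hO₁ : N.O₁ = S34DF_O1 M p A hgen) (hO₂ : N.O₂ = S34DF_O2 M p hp hpM A hgen)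
    (hNA : N.A = A)
    (H : Set (Ω ≃ₐ[ℚ] Ω)) (C₀ : Subfield Ω) {π : Ω} (hπC : π ∈ C₀)
    (hπH : ∀ g ∈ H, g π = π) (hπ0 : π ≠ 0) (hπ1 : N.A.valuation π < 1)
    (hC₀ : ∀ x : Ω, (∀ g ∈ H, g x = x) → x ∈ C₀)
    (hval : ∀ x ∈ C₀, x ≠ 0 → ∃ j : ℤ, N.A.valuation x = N.A.valuation π ^ j)
    (u : ↥(modularFunctionFieldBar (M * p))) (hu0 : u ≠ 0)
    (hu : ∀ τ ∈ H, ∀ k : ℤ, τ ((u : LaurentSeries Ω).coeff k) = (u : LaurentSeries Ω).coeff k) :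
    ∃ c₁ c₂ : ↥(modularFunctionFieldBar (M * p)),
      c₁ ∈ C₀.map (algebraMap Ω ↥(modularFunctionFieldBar (M * p))) ∧
      c₂ ∈ C₀.map (algebraMap Ω ↥(modularFunctionFieldBar (M * p))) ∧ c₁ ≠ 0 ∧ c₂ ≠ 0 ∧
      S40F2S_IsU N.O₁ (u / c₁) ∧ S40F2S_IsU N.O₂ (u / c₂) := by
  rw [hNA] at hπ1 hval
  exact S40F2AD_main' M p hp hpM A hA hgen N.O₁ N.O₂ hO₁ hO₂ H C₀ hπC hπH hπ0 hπ1
    (S40F2AD_hval A H C₀ hC₀ hval) u hu0 hu

end Fermat.Agent.S40
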