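import Mathlib
import Fermat.Agent.S40.NodeAbs

/-!
# TRACK 13 (S40/S44, row 38), (F2') leaf (b) of `S40F2M2_main`: `hpv₁`, `hpv₂` (helper17).
Prefix `S40F2HP_`.  Mathlib + `NodeAbs` only.

`v(p) · v(π)^t ≤ v(π)^(p t + 1)` for `t ≤ p − 1`, from `v(π)^p = v(1 − ζ)` and
`v(1 − ζ)^(p − 1) = v(p)` (so `v(p) = v(π)^(p (p − 1))`, and `p (p − 1) + t ≥ p t + 1`).

* `S40F2HP_nat`   : `p t + 1 ≤ p (p − 1) + t` for `p` prime, `t ≤ p − 1`;
* `S40F2HP_val`   : the inequality for a valuation `v` (on the constants);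
* `S40F2HP_lift`  : it passes to every valuation ring `O` of `F` containing the constants of `A`;
* **`S40F2HP_hpv₁`**, **`S40F2HP_hpv₂`** : `hpv₁`, `hpv₂` of `S40F2M2_main` at a node `N`, with
  `π = algebraMap L F π₀`.
-/

set_option autoImplicit false

namespace Fermat.Agent.S40

theorem S40F2HP_nat {p t : ℕ} (hp : p.Prime) (ht : t ≤ p - 1) :
    p * t + 1 ≤ p * (p - 1) + t := by
  have h2 := hp.two_le
  obtain ⟨s, hs⟩ : ∃ s, p - 1 = t + s := ⟨p - 1 - t, by omega⟩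
  rw [hs, mul_add]
  rcases Nat.eq_zero_or_pos s with h0 | h0
  · subst h0
    have : 1 ≤ t := by omega
    omega
  · have : p ≤ p * s := Nat.le_mul_of_pos_right p h0
    omega

section val

variable {L : Type*} [Field L] {Γ₀ : Type*} [LinearOrderedCommGroupWithZero Γ₀]

/-- `v(p) · v(π)^t ≤ v(π)^(p t + 1)`. -/
theorem S40F2HP_val (v : Valuation L Γ₀) {π₀ ζ₀ : L} {p t : ℕ} (hp : p.Prime) (ht : t ≤ p - 1)
    (hπ1 : v π₀ ≤ 1) (h1 : v π₀ ^ p = v (1 - ζ₀)) (h2 : v (1 - ζ₀) ^ (p - 1) = v (p : L)) :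
    v (p : L) * v π₀ ^ t ≤ v π₀ ^ (p * t + 1) := by
  rw [← h2, ← h1, ← pow_mul, ← pow_add]
  exact pow_le_pow_of_le_one zero_le hπ1 (S40F2HP_nat hp ht)

end val

section lift

variable {L F : Type*} [Field L] [Field F] [Algebra L F]

/-- the inequality passes from `A` to a valuation ring `O` of `F` containing the constants of
`A`. -/
theorem S40F2HP_lift (A : ValuationSubring L) (O : ValuationSubring F)
    (hconst : ∀ a : L, a ∈ A → algebraMap L F a ∈ O) {π₀ : L} {p t : ℕ} (hπ0 : π₀ ≠ 0)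
    (h : A.valuation (p : L) * A.valuation π₀ ^ t ≤ A.valuation π₀ ^ (p * t + 1)) :
    O.valuation (p : F) * O.valuation (algebraMap L F π₀) ^ t ≤
      O.valuation (algebraMap L F π₀) ^ (p * t + 1) := by
  have hv0 : A.valuation π₀ ^ (p * t + 1) ≠ 0 :=
    pow_ne_zero _ ((map_ne_zero A.valuation).mpr hπ0)
  have hπF0 : algebraMap L F π₀ ≠ 0 := (map_ne_zero _).mpr hπ0
  have hV0 : O.valuation (algebraMap L F π₀) ^ (p * t + 1) ≠ 0 :=
    pow_ne_zero _ ((map_ne_zero O.valuation).mpr hπF0)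
  -- `x = p π^t / π^(p t + 1) ∈ A`
  have hx : (p : L) * π₀ ^ t * (π₀ ^ (p * t + 1))⁻¹ ∈ A := by
    rw [← A.valuation_le_one_iff, map_mul, map_mul, map_pow, map_inv₀, map_pow]
    calc A.valuation (p : L) * A.valuation π₀ ^ t * (A.valuation π₀ ^ (p * t + 1))⁻¹
        ≤ A.valuation π₀ ^ (p * t + 1) * (A.valuation π₀ ^ (p * t + 1))⁻¹ :=
          mul_le_mul' h (le_refl _)
      _ = 1 := mul_inv_cancel₀ hv0
  have hxO := hconst _ hx
  rw [← O.valuation_le_one_iff] at hxO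
  simp only [map_mul, map_pow, map_inv₀, map_natCast] at hxO
  calc O.valuation (p : F) * O.valuation (algebraMap L F π₀) ^ t
      = O.valuation (p : F) * O.valuation (algebraMap L F π₀) ^ t *
          (O.valuation (algebraMap L F π₀) ^ (p * t + 1))⁻¹ *
          O.valuation (algebraMap L F π₀) ^ (p * t + 1) := by
        rw [mul_assoc _ _ (O.valuation (algebraMap L F π₀) ^ (p * t + 1)),
          inv_mul_cancel₀ hV0, mul_one]
    _ ≤ 1 * O.valuation (algebraMap L F π₀) ^ (p * t + 1) := mul_le_mul' hxO (le_refl _)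
    _ = O.valuation (algebraMap L F π₀) ^ (p * t + 1) := one_mul _

variable {k : Type*} [Field k]

/-- **`hpv₁`** of `S40F2M2_main` at a node. -/
theorem S40F2HP_hpv₁ (N : S40NA_Node L F k) {π₀ ζ₀ : L} {p t : ℕ} (hp : p.Prime)
    (ht : t ≤ p - 1) (hπ0 : π₀ ≠ 0) (hπ1 : N.A.valuation π₀ ≤ 1)
    (h1 : N.A.valuation π₀ ^ p = N.A.valuation (1 - ζ₀))
    (h2 : N.A.valuation (1 - ζ₀) ^ (p - 1) = N.A.valuation (p : L)) :
    N.O₁.valuation (p : F) * N.O₁.valuation (algebraMap L F π₀) ^ t ≤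
      N.O₁.valuation (algebraMap L F π₀) ^ (p * t + 1) :=
  S40F2HP_lift N.A N.O₁ N.const₁ hπ0 (S40F2HP_val N.A.valuation hp ht hπ1 h1 h2)

/-- **`hpv₂`** of `S40F2M2_main` at a node. -/
theorem S40F2HP_hpv₂ (N : S40NA_Node L F k) {π₀ ζ₀ : L} {p t : ℕ} (hp : p.Prime)
    (ht : t ≤ p - 1) (hπ0 : π₀ ≠ 0) (hπ1 : N.A.valuation π₀ ≤ 1)
    (h1 : N.A.valuation π₀ ^ p = N.A.valuation (1 - ζ₀))
    (h2 : N.A.valuation (1 - ζ₀) ^ (p - 1) = N.A.valuation (p : L)) :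
    N.O₂.valuation (p : F) * N.O₂.valuation (algebraMap L F π₀) ^ t ≤
      N.O₂.valuation (algebraMap L F π₀) ^ (p * t + 1) :=
  S40F2HP_lift N.A N.O₂ N.const₂ hπ0 (S40F2HP_val N.A.valuation hp ht hπ1 h1 h2)

end lift

end Fermat.Agent.S40
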