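import Fermat.Agent.S40.NodeSlope
import Fermat.Agent.S40.F2MainN

/-!
# TRACK 13 (S40/S44, row 38), (F2'): the leaf `hn` of `S40F2M_main`, INSTANCE part (helper22).
Prefix `S40F2MNI_`.  Setting of `S40/NodeSlope.lean` (helper26): node `N i = S40NI_nodeGen … i`.

* `S40F2MNI_dv` : in a Gauss datum `G` every `f ≠ 0` is a constant times a unit of `O`
  (`S18_Gauss.exists_const_mul_unit` in the valuation form `S40F2S_IsU`);
* `S40F2MNI_dv_T1` : the same for `V₁ = S34M_T1` on `F = F_{M p}`;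
* `S40F2MNI_slope_exists` : **every `g ≠ 0` has a slope at the node `i`**:
  `∃ d m, S40F2SN_U1 (N i) (g / (d · X ^ m))` with `m = ord_{P i} (red₁ (g / d))`
  (= the hypothesis `hg` of `S40F2MN_hn`, `S40F2MN_hn_gen`, `S40F2MN_hn_main`);
* `S40F2MNI_slope_eq_ord` : the slope `n` of `S40F2M_Gen.hu₁` IS `ord_{P i} (red₁ (u / c₁))`.
-/

set_option autoImplicit false
set_option synthInstance.maxHeartbeats 400000
set_option maxHeartbeats 1000000
set_option linter.unusedSectionVars false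
set_option linter.unusedVariables false
set_option linter.style.haveILetI false

open HahnSeries IntermediateField AlgebraicCurve ModularCurve

noncomputable section

namespace Fermat.Agent.S40

open Fermat.Agent.Lib Fermat.Agent.S18 Fermat.Agent.S24 Fermat.Agent.S34 Fermat.Agent.S36
  Fermat.Agent.GalRep

section Dv

variable {L F k Fk : Type*} [Field L] [Field F] [Algebra L F] [Field k] [Field Fk]
  [Algebra k Fk]

/-- in a Gauss datum every `f ≠ 0` is a constant times a unit. -/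
theorem S40F2MNI_dv (G : S18_Gauss L F k Fk) (f : F) (hf : f ≠ 0) :
    ∃ c : L, c ≠ 0 ∧ S40F2S_IsU G.toVal.O (f / algebraMap L F c) := by
  obtain ⟨c, u, hc0, hu, e⟩ := G.exists_const_mul_unit f hf
  refine ⟨c, hc0, ?_⟩
  have hc : algebraMap L F c ≠ 0 := (map_ne_zero _).2 hc0
  have e' : f / algebraMap L F c = (u : F) := by
    rw [e, mul_comm, mul_div_assoc, div_self hc, mul_one]
  rw [e']
  exact S40NS_isU_of_red_ne_zero G.toVal u.2 hu

end Dv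

section Gen

variable {L F k Fk₁ Fk₂ : Type*} [Field L] [Field F] [Algebra L F] [Field k] [Field Fk₁]
  [Field Fk₂] [Algebra k Fk₁] [Algebra k Fk₂]
  {S₁ : S18_Val L F k Fk₁} {S₂ : S18_Val L F k Fk₂} {hS : S34P_Same S₁ S₂}
  {hdeg : ∀ v : Place L F, v.deg = 1} {x : S34P_O2 S₁ S₂} {x₁ : Fk₁} {x₂ : Fk₂}
  (n : ℕ) (hn : 0 < n) {ι : Type*}
  (hx : S34P_Hyp S₁ S₂ hS x) (hred : S34P_red S₁ S₂ x = (x₁, x₂))
  (e₁ : ι → ↥(S34SB_chart L k (x : F) x₁ x₂ n hn).Rb₁ →ₐ[k] k)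
  (e₂ : ι → ↥(S34SB_chart L k (x : F) x₁ x₂ n hn).Rb₂ →ₐ[k] k)
  (hW1 : S34K_W hS (S34SB_chart L k (x : F) x₁ x₂ n hn) 1 = S34B_W e₁ e₂)
  (h₁ : RR_Hyp k Fk₁)
  (P : ι → Place k Fk₁)
  (hP : ∀ i, 0 ≤ (P i).ord x₁)
  (he₁ : ∀ i (a : ↥(S34SB_chart L k (x : F) x₁ x₂ n hn).Rb₁), e₁ i a = FD_c0 (P i) (a : Fk₁))

include hx hred hW1 h₁ hP he₁ in
/-- **every `g ≠ 0` has a slope at the node `i`** (`hdv`: every nonzero function is a constant
times a unit of `O₁`, e.g. `S40F2MNI_dv`). -/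
theorem S40F2MNI_slope_exists [Infinite k] (hE : Function.Surjective (S34B_E e₁ e₂))
    (hp₁ : ∃ c₀ : Place k Fk₁, c₀.ord x₁ < 0)
    (hdv : ∀ f : F, f ≠ 0 → ∃ c : L, c ≠ 0 ∧ S40F2S_IsU S₁.O (f / algebraMap L F c))
    (i : ι) {X : F} (hX : S40F2S_IsU S₁.O X)
    (hordX : (P i).ord (S₁.red ⟨X, hX.mem⟩) = 1) (g : F) (hg0 : g ≠ 0) :
    ∃ (d : L) (m : ℤ),
      S40F2SN_U1 (S40NI_nodeGen hdeg n hn hx hred e₁ e₂ hW1 i) (g / (algebraMap L F d * X ^ m)) := by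
  obtain ⟨c, hc0, hU⟩ := hdv g hg0
  refine ⟨c, (P i).ord (S₁.red ⟨g / algebraMap L F c, hU.mem⟩), ?_⟩
  have := S40NS_u1_of_ord (hdeg := hdeg) n hn hx hred e₁ e₂ hW1 h₁ P hP he₁ hE hp₁ i hU hX _ rfl
    hordX
  rwa [div_div] at this

include hx hred hW1 h₁ hP he₁ in
/-- the slope `n'` of `S40F2M_Gen.hu₁` is the order of the reduction at the node:
`U1 (u / (c₁ X ^ n'))`, `c₁` a constant, `u / c₁` a unit of `O₁` ⇒
`n' = ord_{P i} (red₁ (u / c₁))`. -/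
theorem S40F2MNI_slope_eq_ord [Infinite k] (hE : Function.Surjective (S34B_E e₁ e₂))
    (hp₁ : ∃ c₀ : Place k Fk₁, c₀.ord x₁ < 0)
    (i : ι) (Cn : S40F2N_Coord (S40NI_nodeGen hdeg n hn hx hred e₁ e₂ hW1 i))
    (hA₁ : ∀ a : L, algebraMap L F a ∈ (S40NI_nodeGen hdeg n hn hx hred e₁ e₂ hW1 i).O₁ →
      a ∈ (S40NI_nodeGen hdeg n hn hx hred e₁ e₂ hW1 i).A)
    (hX : S40F2S_IsU S₁.O Cn.X)
    (hordX : (P i).ord (S₁.red ⟨Cn.X, hX.mem⟩) = 1) {u : F} {b : L} {n' : ℤ}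
    (hu₁ : S40F2SN_U1 (S40NI_nodeGen hdeg n hn hx hred e₁ e₂ hW1 i)
      (u / (algebraMap L F b * Cn.X ^ n')))
    (hU : S40F2S_IsU S₁.O (u / algebraMap L F b)) :
    n' = (P i).ord (S₁.red ⟨u / algebraMap L F b, hU.mem⟩) := by
  have := S40NS_u1_of_ord (hdeg := hdeg) n hn hx hred e₁ e₂ hW1 h₁ P hP he₁ hE hp₁ i hU hX _ rfl
    hordX
  rw [div_div] at this
  exact S40F2MN_slope_unique _ Cn.hX Cn.εX Cn.X_unit hA₁ hu₁ this

end Gen

section Canon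

variable (M q : ℕ) [NeZero (M * q)] (A : ValuationSubring (AlgebraicClosure ℚ))
  (hgen : PrincipalGeneratedByIntegral A (IsLocalRing.residue A) (M * q))

/-- `hdv` for `V₁ = S34M_T1` on `F = F_{M q}`. -/
theorem S40F2MNI_dv_T1 (f : ↥(modularFunctionFieldBar (M * q))) (hf : f ≠ 0) :
    ∃ c : AlgebraicClosure ℚ, c ≠ 0 ∧
      S40F2S_IsU (S34M_T1 M q A hgen).O
        (f / algebraMap (AlgebraicClosure ℚ) ↥(modularFunctionFieldBar (M * q)) c) :=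
  S40F2MNI_dv (S18_gaussModL (M * q) A hgen) f hf

end Canon

end Fermat.Agent.S40
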