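import Fermat.Agent.S40.F2N

/-!
# S40 (TRACK 13), GEO-6 package P1-abs, part 3 (helper14): the chart from `cart` / `den`, the
Lipschitz estimate, uniqueness and simplicity without finite generation.  Prefix `S40F2N3_`.

Setting of `S40/F2N.lean` (node `N`, coordinate `C : S40F2N_Coord N`).

* `S40F2N3_Chart` : a subring `R ≤ Λ` (the functions defined over a discretely valued subfield,
  uniformiser `π`) with the data of P1-EXIST (`S40F2P_Hyp`) in valuation-ring language: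
  `cart` (`R ∩ 𝔪₁ ∩ 𝔪₂ = π R`), `den₁` (`f(s) = 0 ⇒ red₁ f = red₁ X · red₁ r / red₁ h`,
  `h(s) ≠ 0`), `den₂`, `const` (values at the node lift to constants of `R`).
* `S40F2N3_decomp` : the LOCALISED chart property
  `h · (f − c) = X g₁ + Y g₂ + π g₃`, `h(s) ≠ 0`, for every `f ∈ R`.
* `S40F2N3_lipschitz` : for `A` of rank one, `Q, Q'` specialising to the node with
  `X(Q) − X(Q') = θ · X(Q)`, `θ ∈ A`:  `f(Q) − f(Q') ∈ θ A` for all `f ∈ R`.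
* `S40F2N3_ev_unique` : the case `θ = 0`.
* `S40F2N3_uniformiser` : if the local ring of `L · R` at `Q` is `Q.P` (`S40F2N3_Loc`) and every
  constant `w'` close to `X(Q)` is the value of `X` at a place specialising to the node
  (`S40F2N_exists_zero`), then `X − X(Q)` is a uniformiser at `Q`.
* `S40F2N3_place_unique` : `X(Q) = X(Q')` ⇒ `Q.P = Q'.P`.
-/

set_option autoImplicit false

namespace Fermat.Agent.S40

section

variable {L F k : Type*} [Field L] [Field F] [Algebra L F] [Field k]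

/-- the chart at the node, in the shape of the hypotheses of P1-EXIST. -/
structure S40F2N3_Chart (N : S40NA_Node L F k) (C : S40F2N_Coord N) where
  /-- the functions of the chart -/
  R : Subring F
  le : ∀ f ∈ R, f ∈ N.Lam
  /-- the uniformiser of the field of definition -/
  π : L
  hπ : π ∈ N.A.nonunits
  X_mem : C.X ∈ R
  Y_mem : C.Y ∈ R
  H_mem : C.H ∈ R
  X_two : C.X ∈ N.O₂.nonunits
  Y_one : C.Y ∈ N.O₁.nonunits
  const : ∀ (f : F) (hf : f ∈ R), ∃ (c : L) (hc : c ∈ N.A),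
    algebraMap L F c ∈ R ∧ N.res ⟨c, hc⟩ = N.ε ⟨f, le f hf⟩
  cart : ∀ f ∈ R, f ∈ N.O₁.nonunits → f ∈ N.O₂.nonunits → ∃ g ∈ R, f = algebraMap L F π * g
  den₁ : ∀ (f : F) (hf : f ∈ R), N.ε ⟨f, le f hf⟩ = 0 →
    ∃ (h r : F) (hh : h ∈ R), r ∈ R ∧ N.ε ⟨h, le h hh⟩ ≠ 0 ∧ h * f - C.X * r ∈ N.O₁.nonunits
  den₂ : ∀ (f : F) (hf : f ∈ R), N.ε ⟨f, le f hf⟩ = 0 →
    ∃ (h r : F) (hh : h ∈ R), r ∈ R ∧ N.ε ⟨h, le h hh⟩ ≠ 0 ∧ h * f - C.Y * r ∈ N.O₂.nonunits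

/-- **the localised chart property**: `h · (f − c) = X g₁ + Y g₂ + π g₃` with `h(s) ≠ 0`. -/
theorem S40F2N3_decomp {N : S40NA_Node L F k} {C : S40F2N_Coord N} (Ch : S40F2N3_Chart N C)
    (f : F) (hf : f ∈ Ch.R) :
    ∃ (c : L) (hc : c ∈ N.A) (h g₁ g₂ g₃ : F) (hh : h ∈ Ch.R), g₁ ∈ Ch.R ∧ g₂ ∈ Ch.R ∧
      g₃ ∈ Ch.R ∧ N.res ⟨c, hc⟩ = N.ε ⟨f, Ch.le f hf⟩ ∧ N.ε ⟨h, Ch.le h hh⟩ ≠ 0 ∧
      h * (f - algebraMap L F c) = C.X * g₁ + C.Y * g₂ + algebraMap L F Ch.π * g₃ := by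
  obtain ⟨c, hc, hcR, hres⟩ := Ch.const f hf
  have hf' : f - algebraMap L F c ∈ Ch.R := Ch.R.sub_mem hf hcR
  have hε : N.ε ⟨f - algebraMap L F c, Ch.le _ hf'⟩ = 0 := by
    have e : (⟨f - algebraMap L F c, Ch.le _ hf'⟩ : ↥N.Lam) =
        ⟨f, Ch.le f hf⟩ - ⟨algebraMap L F c, Ch.le _ hcR⟩ := rfl
    rw [e, map_sub, N.ε_const c hc, hres, sub_self]
  obtain ⟨h₁, r₁, hh₁, hr₁, hε₁, hn₁⟩ := Ch.den₁ _ hf' hε
  obtain ⟨h₂, r₂, hh₂, hr₂, hε₂, hn₂⟩ := Ch.den₂ _ hf' hε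
  set f' : F := f - algebraMap L F c with hf'def
  have hzR : h₁ * h₂ * f' - C.X * (h₂ * r₁) - C.Y * (h₁ * r₂) ∈ Ch.R :=
    Ch.R.sub_mem (Ch.R.sub_mem (Ch.R.mul_mem (Ch.R.mul_mem hh₁ hh₂) hf')
      (Ch.R.mul_mem Ch.X_mem (Ch.R.mul_mem hh₂ hr₁)))
      (Ch.R.mul_mem Ch.Y_mem (Ch.R.mul_mem hh₁ hr₂))
  have hz₁ : h₁ * h₂ * f' - C.X * (h₂ * r₁) - C.Y * (h₁ * r₂) ∈ N.O₁.nonunits := by
    have e : h₁ * h₂ * f' - C.X * (h₂ * r₁) - C.Y * (h₁ * r₂) =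
        (h₁ * f' - C.X * r₁) * h₂ - C.Y * (h₁ * r₂) := by ring
    rw [e]
    exact N.O₁.nonunits.sub_mem (S40NA_nonunits_mul N.O₁ hn₁ (N.mem_O₁ (Ch.le _ hh₂)))
      (S40NA_nonunits_mul N.O₁ Ch.Y_one (N.mem_O₁ (Ch.le _ (Ch.R.mul_mem hh₁ hr₂))))
  have hz₂ : h₁ * h₂ * f' - C.X * (h₂ * r₁) - C.Y * (h₁ * r₂) ∈ N.O₂.nonunits := by
    have e : h₁ * h₂ * f' - C.X * (h₂ * r₁) - C.Y * (h₁ * r₂) =
        (h₂ * f' - C.Y * r₂) * h₁ - C.X * (h₂ * r₁) := by ring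
    rw [e]
    exact N.O₂.nonunits.sub_mem (S40NA_nonunits_mul N.O₂ hn₂ (N.mem_O₂ (Ch.le _ hh₁)))
      (S40NA_nonunits_mul N.O₂ Ch.X_two (N.mem_O₂ (Ch.le _ (Ch.R.mul_mem hh₂ hr₁))))
  obtain ⟨g₃, hg₃, hz⟩ := Ch.cart _ hzR hz₁ hz₂
  refine ⟨c, hc, h₁ * h₂, h₂ * r₁, h₁ * r₂, g₃, Ch.R.mul_mem hh₁ hh₂, Ch.R.mul_mem hh₂ hr₁,
    Ch.R.mul_mem hh₁ hr₂, hg₃, hres, ?_, ?_⟩
  · have e : (⟨h₁ * h₂, Ch.le _ (Ch.R.mul_mem hh₁ hh₂)⟩ : ↥N.Lam) =
        ⟨h₁, Ch.le _ hh₁⟩ * ⟨h₂, Ch.le _ hh₂⟩ := rfl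
    rw [e, map_mul]
    exact mul_ne_zero hε₁ hε₂
  · rw [← hz]
    ring

/-! ### the Lipschitz contraction -/

/-- **Lipschitz contraction**: two ring homomorphisms `φ, φ' : Λ → B`, an ideal `I` and an ideal
`T` of `B` (the size of `φ x − φ' x`); on a set `P` of functions with the localised chart
property, `φ − φ'` takes its values in `T + Iⁿ` for all `n`. -/
theorem S40F2N3_contract {Λ B : Type*} [CommRing Λ] [CommRing B] (φ φ' : Λ →+* B)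
    (I T : Ideal B) (P : Λ → Prop) (x y h₀ p : Λ) (hP : P h₀)
    (hdec : ∀ f : Λ, P f → ∃ c h g₁ g₂ g₃ : Λ, P h ∧ P g₁ ∧ P g₂ ∧ P g₃ ∧ φ c = φ' c ∧
      (∃ u : B, u * φ h = 1) ∧ φ' f - φ' c ∈ I ∧ h * (f - c) = x * g₁ + y * g₂ + p * g₃)
    (hx : φ x - φ' x ∈ T) (hp : φ p = φ' p)
    (hxI : φ x ∈ I) (hpI : φ p ∈ I) (hyI : φ y ∈ I)
    (hy : ∀ J : Ideal B, φ h₀ - φ' h₀ ∈ J → φ y - φ' y ∈ I * J ⊔ T)
    (n : ℕ) : ∀ f : Λ, P f → φ f - φ' f ∈ T ⊔ I ^ n := by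
  induction n with
  | zero =>
    intro f _
    rw [pow_zero, Ideal.one_eq_top, sup_top_eq]
    exact Submodule.mem_top
  | succ n ih =>
    intro f hf
    obtain ⟨c, h, g₁, g₂, g₃, hh, h₁, h₂, h₃, hc, ⟨u, hu⟩, hfc, hrel⟩ := hdec f hf
    have hstep : I * (T ⊔ I ^ n) ≤ T ⊔ I ^ (n + 1) := by
      rw [Ideal.mul_sup, pow_succ']
      exact sup_le_sup Ideal.mul_le_right le_rfl
    have hT : T ≤ T ⊔ I ^ (n + 1) := le_sup_left
    have e1 := congrArg φ hrel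
    have e2 := congrArg φ' hrel
    simp only [map_add, map_mul, map_sub] at e1 e2
    have key : φ h * (φ f - φ' f) =
        φ x * (φ g₁ - φ' g₁) + (φ x - φ' x) * φ' g₁ + φ y * (φ g₂ - φ' g₂)
          + (φ y - φ' y) * φ' g₂ + φ p * (φ g₃ - φ' g₃)
          - (φ h - φ' h) * (φ' f - φ' c) := by
      have e3 : φ h * (φ f - φ' f) =
          φ h * (φ f - φ c) - φ' h * (φ' f - φ' c) - (φ h - φ' h) * (φ' f - φ' c) := by
        rw [hc]; ring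
      rw [e3, e1, e2, ← hp]
      ring
    have hmem : φ h * (φ f - φ' f) ∈ T ⊔ I ^ (n + 1) := by
      rw [key]
      refine Ideal.sub_mem _ (Ideal.add_mem _ (Ideal.add_mem _ (Ideal.add_mem _
        (Ideal.add_mem _ ?_ ?_) ?_) ?_) ?_) ?_
      · exact hstep (Ideal.mul_mem_mul hxI (ih g₁ h₁))
      · exact hT (Ideal.mul_mem_right _ _ hx)
      · exact hstep (Ideal.mul_mem_mul hyI (ih g₂ h₂))
      · refine Ideal.mul_mem_right _ _ ?_
        have := hy _ (ih h₀ hP)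
        exact (sup_le hstep hT) this
      · exact hstep (Ideal.mul_mem_mul hpI (ih g₃ h₃))
      · have := Ideal.mul_mem_mul hfc (ih h hh)
        rw [mul_comm]
        exact hstep this
    have e4 : φ f - φ' f = u * (φ h * (φ f - φ' f)) := by
      rw [← mul_assoc, hu, one_mul]
    rw [e4]
    exact Ideal.mul_mem_left _ _ hmem

/-- a unit of `A` from a function not vanishing at the node. -/
theorem S40F2N3_evA_unit (N : S40NA_Node L F k) (Q : S40NA_Pt L F) (hQ : Q ∈ N.U)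
    (hc : S40NA_Centred N Q hQ) (h : ↥N.Lam) (hε : N.ε h ≠ 0) :
    ∃ u : ↥N.A, u * S40F2N_evA N Q hQ hc h = 1 := by
  have hres := S40F2N_res_evA N Q hQ hc h
  have hn : ((S40F2N_evA N Q hQ hc h : ↥N.A) : L) ∉ N.A.nonunits := fun hn =>
    hε (hres ▸ N.res_nonunit _ hn)
  have h0 : ((S40F2N_evA N Q hQ hc h : ↥N.A) : L) ≠ 0 := fun h0 =>
    hn (h0 ▸ N.A.nonunits.zero_mem)
  exact ⟨⟨_, S40F2N_inv_mem_of_not_nonunit N.A hn⟩, Subtype.ext (inv_mul_cancel₀ h0)⟩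

/-- **Lipschitz estimate**: for `A` of rank one and two places `Q, Q'` specialising to the node
with `X(Q) − X(Q') = θ · X(Q)`, `θ ∈ A`, every function `f` of the chart satisfies
`f(Q) − f(Q') ∈ θ A`. -/
theorem S40F2N3_lipschitz {N : S40NA_Node L F k} (C : S40F2N_Coord N) (Ch : S40F2N3_Chart N C)
    (hA : ∀ g b : L, b ∈ N.A.nonunits → ∃ m : ℕ, g * b ^ m ∈ N.A)
    (Q Q' : S40NA_Pt L F) (hQ : Q ∈ N.U) (hQ' : Q' ∈ N.U)
    (hc : S40NA_Centred N Q hQ) (hc' : S40NA_Centred N Q' hQ')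
    (θ : L) (hθ : θ ∈ N.A)
    (hX : S40F2N_at Q C.X - S40F2N_at Q' C.X = θ * S40F2N_at Q C.X) :
    ∀ f ∈ Ch.R, ∃ z ∈ N.A, S40F2N_at Q f - S40F2N_at Q' f = θ * z := by
  classical
  set φ := S40F2N_evA N Q hQ hc with hφ
  set φ' := S40F2N_evA N Q' hQ' hc' with hφ'
  have hπΛ : algebraMap L F Ch.π ∈ N.Lam := N.const_mem (ValuationSubring.nonunits_subset Ch.hπ)
  set x : ↥N.Lam := ⟨C.X, C.hX⟩ with hx
  set y : ↥N.Lam := ⟨C.Y, C.hY⟩ with hy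
  set h₀ : ↥N.Lam := ⟨C.H, C.hH⟩ with hh₀
  set p : ↥N.Lam := ⟨algebraMap L F Ch.π, hπΛ⟩ with hp
  obtain ⟨hw0, hwn, -⟩ := S40F2N_range C Q hQ hc
  have hyn : ((φ y : ↥N.A) : L) ∈ N.A.nonunits := by
    have := S40F2N_res_evA N Q hQ hc y
    rw [hy, C.εY] at this
    exact S40F2N_nonunit_of_res N _ this
  have hyn' : ((φ' y : ↥N.A) : L) ∈ N.A.nonunits := by
    have := S40F2N_res_evA N Q' hQ' hc' y
    rw [hy, C.εY] at this
    exact S40F2N_nonunit_of_res N _ this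
  have hpv : ((φ p : ↥N.A) : L) = Ch.π := S40F2N_evA_const N Q hQ hc Ch.π hπΛ
  have hpv' : ((φ' p : ↥N.A) : L) = Ch.π := S40F2N_evA_const N Q' hQ' hc' Ch.π hπΛ
  obtain ⟨a₁, ha₁, ha₁x, ha₁y, ha₁p⟩ := S40F2N_exists_gcd (φ x) (φ y) (φ p)
  have ha₁n : (a₁ : L) ∈ N.A.nonunits := by
    rcases ha₁ with rfl | rfl | rfl
    · exact hwn
    · exact hyn
    · rw [hpv]; exact Ch.hπ
  obtain ⟨a, ha, haa₁, hay', -⟩ := S40F2N_exists_gcd a₁ (φ' y) (φ' y)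
  have han : (a : L) ∈ N.A.nonunits := by
    rcases ha with rfl | rfl | rfl
    · exact ha₁n
    · exact hyn'
    · exact hyn'
  have hax : a ∣ φ x := haa₁.trans ha₁x
  have hay : a ∣ φ y := haa₁.trans ha₁y
  have hap : a ∣ φ p := haa₁.trans ha₁p
  set I : Ideal ↥N.A := Ideal.span {a} with hI
  set θA : ↥N.A := ⟨θ, hθ⟩ with hθA
  set T : Ideal ↥N.A := Ideal.span {θA} with hT
  have hx'eq : φ' x = φ x * (1 - θA) := by
    apply Subtype.ext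
    show S40F2N_at Q' C.X = S40F2N_at Q C.X * (1 - θ)
    linear_combination -hX
  have hax' : a ∣ φ' x := by
    rw [hx'eq]
    exact Dvd.dvd.mul_right hax _
  have hxT : φ x - φ' x ∈ T := by
    refine Ideal.mem_span_singleton'.2 ⟨φ x, Subtype.ext ?_⟩
    show S40F2N_at Q C.X * θ = S40F2N_at Q C.X - S40F2N_at Q' C.X
    linear_combination -hX
  have hpp : φ p = φ' p := Subtype.ext (hpv.trans hpv'.symm)
  have hap' : a ∣ φ' p := hpp ▸ hap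
  obtain ⟨hHA, -, hH0, hHi⟩ := S40F2N_H_at C Q hQ hc
  set e : ↥N.A := φ y * ⟨(S40F2N_at Q C.H)⁻¹, hHi⟩ with he
  have heI : e ∈ I := Ideal.mul_mem_right _ _ (Ideal.mem_span_singleton.2 hay)
  have hrel := S40F2N_rel_at C Q hQ
  have hrel' := S40F2N_rel_at C Q' hQ'
  have hδ : φ y - φ' y = e * (φ h₀ - φ' h₀) + (-(φ' y)) * θA := by
    apply Subtype.ext
    show S40F2N_at Q C.Y - S40F2N_at Q' C.Y
      = S40F2N_at Q C.Y * (S40F2N_at Q C.H)⁻¹ * (S40F2N_at Q C.H - S40F2N_at Q' C.H)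
        + (-(S40F2N_at Q' C.Y)) * θ
    have e1 : S40F2N_at Q C.Y * (S40F2N_at Q C.H)⁻¹ = C.ϖ * (S40F2N_at Q C.X)⁻¹ := by
      field_simp
      linear_combination hrel
    rw [e1]
    apply mul_left_cancel₀ hw0
    have e2 : S40F2N_at Q C.X * (C.ϖ * (S40F2N_at Q C.X)⁻¹ *
        (S40F2N_at Q C.H - S40F2N_at Q' C.H) + (-(S40F2N_at Q' C.Y)) * θ) =
        C.ϖ * (S40F2N_at Q C.H - S40F2N_at Q' C.H)
          - S40F2N_at Q C.X * θ * S40F2N_at Q' C.Y := by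
      field_simp
      ring
    rw [e2]
    linear_combination hrel - hrel' - S40F2N_at Q' C.Y * hX
  have key := fun n => S40F2N3_contract φ φ' I T (fun f => (f : F) ∈ Ch.R) x y h₀ p Ch.H_mem
    (by
      intro f hf
      obtain ⟨c, hcA, h, g₁, g₂, g₃, hh, h₁, h₂, h₃, -, hεh, hdec⟩ :=
        S40F2N3_decomp Ch (f : F) hf
      have hcc : φ ⟨algebraMap L F c, N.const_mem hcA⟩ = φ' ⟨algebraMap L F c, N.const_mem hcA⟩ :=
        Subtype.ext ((S40F2N_evA_const N Q hQ hc c _).trans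
          (S40F2N_evA_const N Q' hQ' hc' c _).symm)
      have hdecΛ : (⟨h, Ch.le h hh⟩ : ↥N.Lam) * (f - ⟨algebraMap L F c, N.const_mem hcA⟩) =
          x * ⟨g₁, Ch.le g₁ h₁⟩ + y * ⟨g₂, Ch.le g₂ h₂⟩ + p * ⟨g₃, Ch.le g₃ h₃⟩ :=
        Subtype.ext hdec
      refine ⟨⟨algebraMap L F c, N.const_mem hcA⟩, ⟨h, Ch.le h hh⟩, ⟨g₁, Ch.le g₁ h₁⟩,
        ⟨g₂, Ch.le g₂ h₂⟩, ⟨g₃, Ch.le g₃ h₃⟩, hh, h₁, h₂, h₃, hcc,
        S40F2N3_evA_unit N Q hQ hc _ hεh, ?_, hdecΛ⟩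
      obtain ⟨u', hu'⟩ := S40F2N3_evA_unit N Q' hQ' hc' ⟨h, Ch.le h hh⟩ hεh
      have e3 := congrArg φ' hdecΛ
      simp only [map_add, map_mul, map_sub] at e3
      have e4 : φ' f - φ' ⟨algebraMap L F c, N.const_mem hcA⟩ =
          u' * (φ' x * φ' ⟨g₁, Ch.le g₁ h₁⟩ + φ' y * φ' ⟨g₂, Ch.le g₂ h₂⟩
            + φ' p * φ' ⟨g₃, Ch.le g₃ h₃⟩) := by
        rw [← e3, ← mul_assoc, hu', one_mul]
      rw [e4]
      refine Ideal.mul_mem_left _ _ (Ideal.add_mem _ (Ideal.add_mem _ ?_ ?_) ?_)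
      · exact Ideal.mul_mem_right _ _ (Ideal.mem_span_singleton.2 hax')
      · exact Ideal.mul_mem_right _ _ (Ideal.mem_span_singleton.2 hay')
      · exact Ideal.mul_mem_right _ _ (Ideal.mem_span_singleton.2 hap'))
    hxT hpp (Ideal.mem_span_singleton.2 hax) (Ideal.mem_span_singleton.2 hap)
    (Ideal.mem_span_singleton.2 hay)
    (fun J hJ => by
      rw [hδ]
      exact Ideal.add_mem _ (Ideal.mem_sup_left (Ideal.mul_mem_mul heI hJ))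
        (Ideal.mem_sup_right (Ideal.mul_mem_left _ _ (Ideal.mem_span_singleton_self _)))) n
  intro f hf
  set d : ↥N.A := φ ⟨f, Ch.le f hf⟩ - φ' ⟨f, Ch.le f hf⟩ with hd
  have hdn : ∀ n, d ∈ T ⊔ I ^ n := fun n => key n ⟨f, Ch.le f hf⟩ hf
  have hdT : d ∈ T := by
    by_cases hθ0 : θ = 0
    · have hTbot : T = ⊥ := by
        rw [hT, Ideal.span_singleton_eq_bot]
        exact Subtype.ext hθ0
      have hd0 : d = 0 := by
        apply S40F2N_eq_zero_of_pow_dvd N.A hA a d han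
        intro n
        have := hdn n
        rw [hTbot, bot_sup_eq, hI, Ideal.span_singleton_pow] at this
        exact Ideal.mem_span_singleton.1 this
      rw [hd0]
      exact T.zero_mem
    · obtain ⟨m, hm⟩ := hA θ⁻¹ (a : L) han
      have hle : I ^ m ≤ T := by
        rw [hI, Ideal.span_singleton_pow, Ideal.span_singleton_le_iff_mem]
        refine Ideal.mem_span_singleton'.2 ⟨⟨θ⁻¹ * (a : L) ^ m, hm⟩, Subtype.ext ?_⟩
        have e5 : ((a ^ m : ↥N.A) : L) = (a : L) ^ m := by simp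
        show θ⁻¹ * (a : L) ^ m * θ = ((a ^ m : ↥N.A) : L)
        rw [e5]
        field_simp
      have := hdn m
      rwa [sup_eq_left.2 hle] at this
  obtain ⟨z, hz⟩ := Ideal.mem_span_singleton'.1 hdT
  refine ⟨z, z.2, ?_⟩
  have := congrArg (fun t : ↥N.A => (t : L)) hz
  show S40F2N_at Q f - S40F2N_at Q' f = θ * z
  rw [mul_comm]
  exact this.symm

/-- **(iii-b) uniqueness** from the chart of P1-EXIST: two places specialising to the node at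
which `X` takes the same value have the same evaluation on the chart. -/
theorem S40F2N3_ev_unique {N : S40NA_Node L F k} (C : S40F2N_Coord N) (Ch : S40F2N3_Chart N C)
    (hA : ∀ g b : L, b ∈ N.A.nonunits → ∃ m : ℕ, g * b ^ m ∈ N.A)
    (Q Q' : S40NA_Pt L F) (hQ : Q ∈ N.U) (hQ' : Q' ∈ N.U)
    (hc : S40NA_Centred N Q hQ) (hc' : S40NA_Centred N Q' hQ')
    (hX : S40F2N_at Q C.X = S40F2N_at Q' C.X) :
    ∀ f ∈ Ch.R, S40F2N_at Q f = S40F2N_at Q' f := by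
  intro f hf
  obtain ⟨z, -, hz⟩ := S40F2N3_lipschitz C Ch hA Q Q' hQ hQ' hc hc' 0 N.A.zero_mem
    (by rw [hX, sub_self, zero_mul]) f hf
  rw [zero_mul] at hz
  exact sub_eq_zero.1 hz

end

end Fermat.Agent.S40
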