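import Fermat.Agent.S40.NodePl
import Fermat.Agent.S40.F2N3
import Fermat.Agent.S40.F2SlopeNA

/-!
# S40 (TRACK 13), GEO-6: the chart hypothesis `S40F2N3_Chart` at a node, and the `n_s` bookkeeping
(helper26).  Prefix `S40NS_`.

Setting of `S40/NodePl.lean` (generic: `S₁ S₂ hS x hx hred e₁ e₂ hW1 h₁ h₂ P P' hP hP' he₁ he₂`,
node `N i = S40NI_nodeGen … i`).

* `S40NS_red_eq_zero_iff`, `S40NS_red_inv`, `S40NS_red_zpow`, `S40NS_red_div` : calculus of the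
  reduction map of an `S18_Val` on units.
* `S40NS_u1_of_ord` (**`n_s` bookkeeping**): `g` a unit of `O₁` with `ord_{P i} (red₁ g) = n`
  and `X` a unit of `O₁` with `ord_{P i} (red₁ X) = 1`  ⇒  `S40F2SN_U1 (N i) (g / X ^ n)`.
* `S40NS_slope` : the slope formula at the node `i` in terms of `n = ord_{P i} (red₁ (f / c₁))`:
  `c₂ / (c₁ ϖ ^ n)` is a unit of `O₂`.
* `S40NS_chart` (**the chart hypothesis**): `S40F2N3_Chart (N i) C` for a subring `R ≤ Λ` (the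
  functions defined over a discretely valued subfield) with `cart`, constants, and
  `ex_den₁`, `ex_den₂` in the shape of `S40F2P_Hyp` / `S40F2PE_ex_den`.
-/

set_option autoImplicit false
set_option synthInstance.maxHeartbeats 400000
set_option maxHeartbeats 1000000
set_option linter.unusedSectionVars false
set_option linter.unusedVariables false
set_option linter.style.haveILetI false

open HahnSeries IntermediateField AlgebraicCurve ModularCurve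

noncomputable section

namespace Fermat.Agent.S40

open Fermat.Agent.Lib Fermat.Agent.S18 Fermat.Agent.S24 Fermat.Agent.S34 Fermat.Agent.S36
  Fermat.Agent.GalRep

/-! ### calculus of the reduction map -/

section Red

variable {L F k Fk : Type*} [Field L] [Field F] [Algebra L F] [Field k] [Field Fk]
  [Algebra k Fk] (S : S18_Val L F k Fk)

theorem S40NS_red_eq_zero_iff {z : F} (hz : z ∈ S.O) :
    S.red ⟨z, hz⟩ = 0 ↔ z ∈ S.O.nonunits := by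
  constructor
  · intro h0
    rw [ValuationSubring.mem_nonunits_iff_exists_mem_maximalIdeal]
    refine ⟨hz, ?_⟩
    rw [IsLocalRing.mem_maximalIdeal, mem_nonunits_iff]
    intro hu
    exact (S.red_ne_zero_iff _).2 hu h0
  · intro hn
    by_contra h
    have hu := (S.red_ne_zero_iff _).1 h
    rw [ValuationSubring.mem_nonunits_iff_exists_mem_maximalIdeal] at hn
    obtain ⟨hmem, hm⟩ := hn
    rw [IsLocalRing.mem_maximalIdeal, mem_nonunits_iff] at hm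
    exact hm hu

theorem S40NS_red_ne_zero_of_isU {z : F} (hz : S40F2S_IsU S.O z) : S.red ⟨z, hz.mem⟩ ≠ 0 := by
  intro h0
  have hn := (S40NS_red_eq_zero_iff S hz.mem).1 h0
  rw [ValuationSubring.mem_nonunits_iff] at hn
  unfold S40F2S_IsU at hz
  rw [hz] at hn
  exact lt_irrefl _ hn

theorem S40NS_isU_of_red_ne_zero {z : F} (hz : z ∈ S.O) (h : S.red ⟨z, hz⟩ ≠ 0) :
    S40F2S_IsU S.O z :=
  S40F2S_isU_of_not_nonunits hz (fun hn => h ((S40NS_red_eq_zero_iff S hz).2 hn))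

theorem S40NS_red_inv {z : F} (hz : S40F2S_IsU S.O z) :
    S.red ⟨z⁻¹, hz.inv_mem⟩ = (S.red ⟨z, hz.mem⟩)⁻¹ := by
  have h1 : (⟨z⁻¹, hz.inv_mem⟩ : ↥S.O) * ⟨z, hz.mem⟩ = 1 :=
    Subtype.ext (inv_mul_cancel₀ hz.ne_zero)
  have h2 := congrArg S.red h1
  rw [map_mul, map_one] at h2
  exact eq_inv_of_mul_eq_one_left h2

theorem S40NS_red_div {z w : F} (hz : z ∈ S.O) (hw : S40F2S_IsU S.O w)
    (hzw : z / w ∈ S.O) : S.red ⟨z / w, hzw⟩ = S.red ⟨z, hz⟩ / S.red ⟨w, hw.mem⟩ := by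
  have e : (⟨z / w, hzw⟩ : ↥S.O) = ⟨z, hz⟩ * ⟨w⁻¹, hw.inv_mem⟩ :=
    Subtype.ext (div_eq_mul_inv z w)
  rw [e, map_mul, S40NS_red_inv S hw, div_eq_mul_inv]

theorem S40NS_red_pow {z : F} (hz : z ∈ S.O) (n : ℕ) (hzn : z ^ n ∈ S.O) :
    S.red ⟨z ^ n, hzn⟩ = S.red ⟨z, hz⟩ ^ n := by
  have e : (⟨z ^ n, hzn⟩ : ↥S.O) = ⟨z, hz⟩ ^ n := rfl
  rw [e, map_pow]

theorem S40NS_red_zpow {z : F} (hz : S40F2S_IsU S.O z) (n : ℤ) :
    S.red ⟨z ^ n, (hz.zpow n).mem⟩ = S.red ⟨z, hz.mem⟩ ^ n := by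
  cases n with
  | ofNat m =>
    have e : (⟨z ^ (Int.ofNat m), (hz.zpow _).mem⟩ : ↥S.O) = ⟨z, hz.mem⟩ ^ m :=
      Subtype.ext (by simp)
    rw [e, map_pow]
    simp
  | negSucc m =>
    have hpow : S40F2S_IsU S.O (z ^ (m + 1)) := by
      have := hz.zpow ((m + 1 : ℕ) : ℤ)
      rwa [zpow_natCast] at this
    have e : (⟨z ^ (Int.negSucc m), (hz.zpow _).mem⟩ : ↥S.O) =
        ⟨(z ^ (m + 1))⁻¹, hpow.inv_mem⟩ := Subtype.ext (zpow_negSucc z m)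
    rw [e, S40NS_red_inv S hpow, zpow_negSucc]
    congr 1
    exact S40NS_red_pow S hz.mem (m + 1) hpow.mem

end Red

/-! ### `n_s` bookkeeping and the chart at a node -/

section Gen

variable {L F k Fk₁ Fk₂ : Type*} [Field L] [Field F] [Algebra L F] [Field k] [Field Fk₁]
  [Field Fk₂] [Algebra k Fk₁] [Algebra k Fk₂]
  {S₁ : S18_Val L F k Fk₁} {S₂ : S18_Val L F k Fk₂} {hS : S34P_Same S₁ S₂}
  {hdeg : ∀ v : Place L F, v.deg = 1} {x : S34P_O2 S₁ S₂} {x₁ : Fk₁} {x₂ : Fk₂}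
  (n : ℕ) (hn : 0 < n) {ι : Type*}
  (hx : S34P_Hyp S₁ S₂ hS x) (hred : S34P_red S₁ S₂ x = (x₁, x₂))
  (e₁ : ι → ↥(S34SB_chart L k (x : F) x₁ x₂ n hn).Rb₁ →ₐ[k] k)
  (e₂ : ι → ↥(S34SB_chart L k (x : F) x₁ x₂ n hn).Rb₂ →ₐ[k] k)
  (hW1 : S34K_W hS (S34SB_chart L k (x : F) x₁ x₂ n hn) 1 = S34B_W e₁ e₂)
  (h₁ : RR_Hyp k Fk₁) (h₂ : RR_Hyp k Fk₂)
  (P : ι → Place k Fk₁) (P' : ι → Place k Fk₂)
  (hP : ∀ i, 0 ≤ (P i).ord x₁) (hP' : ∀ i, 0 ≤ (P' i).ord x₂)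
  (he₁ : ∀ i (a : ↥(S34SB_chart L k (x : F) x₁ x₂ n hn).Rb₁), e₁ i a = FD_c0 (P i) (a : Fk₁))
  (he₂ : ∀ i (b : ↥(S34SB_chart L k (x : F) x₁ x₂ n hn).Rb₂), e₂ i b = FD_c0 (P' i) (b : Fk₂))

include hx hred hW1 h₁ hP he₁ in
/-- **`n_s` bookkeeping**: if `ord_{P i} (red₁ g) = m` and `ord_{P i} (red₁ X) = 1` for units
`g`, `X` of `O₁`, then `g / X ^ m` is a `U1`-unit at the node `i`. -/
theorem S40NS_u1_of_ord [Infinite k] (hE : Function.Surjective (S34B_E e₁ e₂))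
    (hp₁ : ∃ c₀ : Place k Fk₁, c₀.ord x₁ < 0) (i : ι) {g X : F}
    (hg : S40F2S_IsU S₁.O g) (hX : S40F2S_IsU S₁.O X) (m : ℤ)
    (hordg : (P i).ord (S₁.red ⟨g, hg.mem⟩) = m)
    (hordX : (P i).ord (S₁.red ⟨X, hX.mem⟩) = 1) :
    S40F2SN_U1 (S40NI_nodeGen hdeg n hn hx hred e₁ e₂ hW1 i) (g / X ^ m) := by
  have hU : S40F2S_IsU S₁.O (g / X ^ m) := hg.div (hX.zpow m)
  refine ⟨hU, ?_⟩
  have hg0 := S40NS_red_ne_zero_of_isU S₁ hg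
  have hX0 := S40NS_red_ne_zero_of_isU S₁ hX
  have hr : S₁.red ⟨g / X ^ m, hU.mem⟩ = S₁.red ⟨g, hg.mem⟩ / S₁.red ⟨X, hX.mem⟩ ^ m := by
    rw [S40NS_red_div S₁ hg.mem (hX.zpow m) hU.mem, S40NS_red_zpow S₁ hX m]
  refine S40NP_unitAt_of_ord n hn hx hred e₁ e₂ hW1 h₁ P hP he₁ hE hp₁ i (g / X ^ m) hU.mem
    (S40NS_red_ne_zero_of_isU S₁ hU) ?_
  rw [hr, div_eq_mul_inv, (P i).ord_mul hg0 (inv_ne_zero (zpow_ne_zero _ hX0)), ← zpow_neg,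
    (P i).ord_zpow, hordg, hordX]
  ring

include hx hred hW1 h₁ hP he₁ in
/-- **SLOPE at the node `i`**: for `f` without zero and pole specialising to the node, with
`f / c₁` a unit of `O₁`, `f / c₂` a unit of `O₂` and `m = ord_{P i} (red₁ (f / c₁))`:
`c₂ / (c₁ ϖ ^ m)` is a unit of `O₂`, i.e. `V₂ f − V₁ f = m · v ϖ`. -/
theorem S40NS_slope [Infinite k] [HasPrincipalDivisors L F]
    (hE : Function.Surjective (S34B_E e₁ e₂))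
    (hp₁ : ∃ c₀ : Place k Fk₁, c₀.ord x₁ < 0) (i : ι)
    {X Y ϖ : F} (hXY : X * Y = ϖ) (hX : S40F2S_IsU S₁.O X) (hY : S40F2S_IsU S₂.O Y)
    (hXP : S40F2SN_NoZP (S40NI_nodeGen hdeg n hn hx hred e₁ e₂ hW1 i) X)
    (hordX : (P i).ord (S₁.red ⟨X, hX.mem⟩) = 1)
    {f c₁ c₂ : F} (hc₁ : c₁ ∈ (algebraMap L F).fieldRange) (hc₁0 : c₁ ≠ 0) (hc₂0 : c₂ ≠ 0)
    (hf₁ : S40F2S_IsU S₁.O (f / c₁)) (hf₂ : S40F2S_IsU S₂.O (f / c₂)) (m : ℤ)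
    (hordf : (P i).ord (S₁.red ⟨f / c₁, hf₁.mem⟩) = m)
    (hfP : S40F2SN_NoZP (S40NI_nodeGen hdeg n hn hx hred e₁ e₂ hW1 i) f) :
    S40F2S_IsU S₂.O (c₂ / (c₁ * ϖ ^ m)) := by
  have hu := S40NS_u1_of_ord (hdeg := hdeg) n hn hx hred e₁ e₂ hW1 h₁ P hP he₁ hE hp₁ i hf₁ hX m
    hordf hordX
  have e : f / c₁ / X ^ m = f / (c₁ * X ^ m) := by rw [div_div]
  rw [e] at hu
  exact S40F2SN_slope (S40NI_nodeGen hdeg n hn hx hred e₁ e₂ hW1 i)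
    (fun g => S40NI_poles_finite hdeg (x : F) g) hXY hX hY hXP hc₁ hc₁0 hc₂0 m hu hf₂ hfP

include hx hred hW1 h₁ h₂ hP hP' he₁ he₂ in
/-- **the chart hypothesis at the node `i`**, from a sub-lattice `R ≤ Λ` (functions defined over
a discretely valued subfield with uniformiser `π`) with `cart`, constants and `ex_den` in the shape
of `S40F2P_Hyp`; `C` any node coordinate with `X, Y, H ∈ R`, `red₂ X = 0`, `red₁ Y = 0`,
`ord_{P i} (red₁ X) = 1`, `ord_{P' i} (red₂ Y) = 1`. -/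
def S40NS_chart (i : ι) (C : S40F2N_Coord (S40NI_nodeGen hdeg n hn hx hred e₁ e₂ hW1 i))
    (R : Subring F) (hR : ∀ f ∈ R, f ∈ S40NI_Lam S₁ S₂ hdeg x)
    (π : L) (hπ : π ∈ S₁.A.nonunits)
    (hXR : C.X ∈ R) (hYR : C.Y ∈ R) (hHR : C.H ∈ R)
    (hX₂ : S₂.red ⟨C.X, (S40NI_mem_Lam.1 C.hX).2.1⟩ = 0)
    (hY₁ : S₁.red ⟨C.Y, (S40NI_mem_Lam.1 C.hY).1⟩ = 0)
    (hX₁ : S₁.red ⟨C.X, (S40NI_mem_Lam.1 C.hX).1⟩ ≠ 0)
    (hY₂ : S₂.red ⟨C.Y, (S40NI_mem_Lam.1 C.hY).2.1⟩ ≠ 0)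
    (hordX : (P i).ord (S₁.red ⟨C.X, (S40NI_mem_Lam.1 C.hX).1⟩) = 1)
    (hordY : (P' i).ord (S₂.red ⟨C.Y, (S40NI_mem_Lam.1 C.hY).2.1⟩) = 1)
    (hconst : ∀ (f : F) (hf : f ∈ R), ∃ (c : L) (hc : c ∈ S₁.A), algebraMap L F c ∈ R ∧
      S₁.res ⟨c, hc⟩ = e₁ i (S40NI_pair n hn hx hred f (hR f hf)).1)
    (hcart : ∀ (f : F) (hf : f ∈ R), S₁.red ⟨f, (S40NI_mem_Lam.1 (hR f hf)).1⟩ = 0 →
      S₂.red ⟨f, (S40NI_mem_Lam.1 (hR f hf)).2.1⟩ = 0 → ∃ g ∈ R, f = algebraMap L F π * g)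
    (hden₁ : ∀ ρ : Fk₁, 0 ≤ (P i).ord ρ → ∃ (h r : F) (hh : h ∈ R) (hr : r ∈ R),
      S₁.red ⟨r, (S40NI_mem_Lam.1 (hR r hr)).1⟩ =
        S₁.red ⟨h, (S40NI_mem_Lam.1 (hR h hh)).1⟩ * ρ ∧
      ¬ S36RC_van (P i) (S₁.red ⟨h, (S40NI_mem_Lam.1 (hR h hh)).1⟩))
    (hden₂ : ∀ ρ : Fk₂, 0 ≤ (P' i).ord ρ → ∃ (h r : F) (hh : h ∈ R) (hr : r ∈ R),
      S₂.red ⟨r, (S40NI_mem_Lam.1 (hR r hr)).2.1⟩ =
        S₂.red ⟨h, (S40NI_mem_Lam.1 (hR h hh)).2.1⟩ * ρ ∧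
      ¬ S36RC_van (P' i) (S₂.red ⟨h, (S40NI_mem_Lam.1 (hR h hh)).2.1⟩)) :
    S40F2N3_Chart (S40NI_nodeGen hdeg n hn hx hred e₁ e₂ hW1 i) C where
  R := R
  le := hR
  π := π
  hπ := hπ
  X_mem := hXR
  Y_mem := hYR
  H_mem := hHR
  X_two := (S40NS_red_eq_zero_iff S₂ _).1 hX₂
  Y_one := (S40NS_red_eq_zero_iff S₁ _).1 hY₁
  const := hconst
  cart := fun f hf h1 h2 =>
    hcart f hf ((S40NS_red_eq_zero_iff S₁ _).2 h1) ((S40NS_red_eq_zero_iff S₂ _).2 h2)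
  den₁ := by
    intro f hf hε
    have hv := (S40NP_eps_eq_zero_iff₁ n hn hx hred e₁ e₂ hW1 h₁ P hP he₁ i (hR f hf)).1 hε
    set a : Fk₁ := S₁.red ⟨f, (S40NI_mem_Lam.1 (hR f hf)).1⟩ with ha
    set ξ : Fk₁ := S₁.red ⟨C.X, (S40NI_mem_Lam.1 C.hX).1⟩ with hξ
    have hρ : 0 ≤ (P i).ord (a / ξ) := by
      rcases hv with h0 | hpos
      · rw [h0, zero_div, Place.ord_zero]
      · have ha0 : a ≠ 0 := by
          intro h0
          rw [h0, Place.ord_zero] at hpos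
          exact lt_irrefl _ hpos
        rw [div_eq_mul_inv, (P i).ord_mul ha0 (inv_ne_zero hX₁), ← zpow_neg_one,
          (P i).ord_zpow, hordX]
        omega
    obtain ⟨h, r, hh, hr, hrel, hnv⟩ := hden₁ (a / ξ) hρ
    refine ⟨h, r, hh, hr, ?_, ?_⟩
    · intro h0
      exact hnv ((S40NP_eps_eq_zero_iff₁ n hn hx hred e₁ e₂ hW1 h₁ P hP he₁ i (hR h hh)).1 h0)
    · have hmem : h * f - C.X * r ∈ S₁.O :=
        sub_mem (mul_mem (S40NI_mem_Lam.1 (hR h hh)).1 (S40NI_mem_Lam.1 (hR f hf)).1)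
          (mul_mem (S40NI_mem_Lam.1 C.hX).1 (S40NI_mem_Lam.1 (hR r hr)).1)
      refine (S40NS_red_eq_zero_iff S₁ hmem).1 ?_
      have e : (⟨h * f - C.X * r, hmem⟩ : ↥S₁.O) =
          ⟨h, (S40NI_mem_Lam.1 (hR h hh)).1⟩ * ⟨f, (S40NI_mem_Lam.1 (hR f hf)).1⟩ -
            ⟨C.X, (S40NI_mem_Lam.1 C.hX).1⟩ * ⟨r, (S40NI_mem_Lam.1 (hR r hr)).1⟩ := rfl
      rw [e, map_sub, map_mul, map_mul, hrel, ← ha, ← hξ]
      field_simp
      ring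
  den₂ := by
    intro f hf hε
    have hv := (S40NP_eps_eq_zero_iff₂ n hn hx hred e₁ e₂ hW1 h₂ P' hP' he₂ i (hR f hf)).1 hε
    set a : Fk₂ := S₂.red ⟨f, (S40NI_mem_Lam.1 (hR f hf)).2.1⟩ with ha
    set ξ : Fk₂ := S₂.red ⟨C.Y, (S40NI_mem_Lam.1 C.hY).2.1⟩ with hξ
    have hρ : 0 ≤ (P' i).ord (a / ξ) := by
      rcases hv with h0 | hpos
      · rw [h0, zero_div, Place.ord_zero]
      · have ha0 : a ≠ 0 := by
          intro h0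
          rw [h0, Place.ord_zero] at hpos
          exact lt_irrefl _ hpos
        rw [div_eq_mul_inv, (P' i).ord_mul ha0 (inv_ne_zero hY₂), ← zpow_neg_one,
          (P' i).ord_zpow, hordY]
        omega
    obtain ⟨h, r, hh, hr, hrel, hnv⟩ := hden₂ (a / ξ) hρ
    refine ⟨h, r, hh, hr, ?_, ?_⟩
    · intro h0
      exact hnv ((S40NP_eps_eq_zero_iff₂ n hn hx hred e₁ e₂ hW1 h₂ P' hP' he₂ i (hR h hh)).1 h0)
    · have hmem : h * f - C.Y * r ∈ S₂.O :=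
        sub_mem (mul_mem (S40NI_mem_Lam.1 (hR h hh)).2.1 (S40NI_mem_Lam.1 (hR f hf)).2.1)
          (mul_mem (S40NI_mem_Lam.1 C.hY).2.1 (S40NI_mem_Lam.1 (hR r hr)).2.1)
      refine (S40NS_red_eq_zero_iff S₂ hmem).1 ?_
      have e : (⟨h * f - C.Y * r, hmem⟩ : ↥S₂.O) =
          ⟨h, (S40NI_mem_Lam.1 (hR h hh)).2.1⟩ * ⟨f, (S40NI_mem_Lam.1 (hR f hf)).2.1⟩ -
            ⟨C.Y, (S40NI_mem_Lam.1 C.hY).2.1⟩ * ⟨r, (S40NI_mem_Lam.1 (hR r hr)).2.1⟩ := rfl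
      rw [e, map_sub, map_mul, map_mul, hrel, ← ha, ← hξ]
      field_simp
      ring

end Gen

end Fermat.Agent.S40
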