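import Mathlib
import Fermat.Agent.S40.F2Asm
import Fermat.Agent.S40.F2Hpv
import Fermat.Agent.S40.F2US
import Fermat.Agent.S40.F2MainNI
import Fermat.Agent.S40.NodeSlope

/-!
# TRACK 13 (S40 / S44), (F2'), the node chain AT THE CANONICAL NODES (helper16).
Prefix `S40F2AI_`.

`S40F2AI_node` : `S40F2AS_node` at the node `N i = S40NI_nodeGen … i` of level `M * p`, with
`hO₁`, `hO₂`, `hA₁`, `hA₂`, `hfin`, `hVp`, `hpv₁`, `hpv₂`, `hslope`, `hu₁`, `hu₁'`, `hg`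
DISCHARGED and `n := ord_{P i} (red₁ (u / c₁))`:

  **`p ∣ ord_{P i} (red₁ (u / c₁))`**.

Remaining inputs: the coordinate `Cn` (thickness `p ^ e`, `ord_{P i} (red₁ X) = 1`), the
constants of the break, `c₁ c₂ Y₁ Y₂ ∈ C₀`, `u / c_j` units of `V_j`, `H1`, `H2`, `hdiv`, `hdiv'`,
`hE : t u = κ u ^ a g ^ p`, `ha`.
-/

set_option autoImplicit false
set_option synthInstance.maxHeartbeats 400000
set_option maxHeartbeats 1000000
set_option linter.unusedSectionVars false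
set_option linter.unusedVariables false
set_option linter.style.haveILetI false

open HahnSeries IntermediateField AlgebraicCurve ModularCurve

noncomputable section

namespace Fermat.Agent.S40

open Fermat.Agent.Lib Fermat.Agent.S18 Fermat.Agent.S24 Fermat.Agent.S34 Fermat.Agent.S36
  Fermat.Agent.GalRep

local notation "Ω" => AlgebraicClosure ℚ

section inst

variable (M p ℓ : ℕ) [NeZero M] [NeZero (M * p)] [NeZero p] [NeZero ℓ] (hp : p.Prime)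
  (hpM : ¬ p ∣ M) (hℓ : ℓ.Prime) (hℓp : ℓ ≠ p)
  (A : ValuationSubring Ω) (hA : A.LiesOverPrime p)
  (ζ : Ωˣ) (hζ : IsPrimitiveRoot (ζ : Ω) ℓ)
  (hgen : PrincipalGeneratedByIntegral A (IsLocalRing.residue A) (M * p))
  (hst : GRS_Stab (M * p) ℓ ζ)

variable {s : ℕ}
  (e₁ : Fin s → ↥(S34M_chart M p A 1 Nat.one_pos).Rb₁ →ₐ[IsLocalRing.ResidueField A]
    IsLocalRing.ResidueField A)
  (e₂ : Fin s → ↥(S34M_chart M p A 1 Nat.one_pos).Rb₂ →ₐ[IsLocalRing.ResidueField A]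
    IsLocalRing.ResidueField A)
  (P : Fin s → Place (IsLocalRing.ResidueField A)
    ↥(modularFunctionFieldFullC (IsLocalRing.ResidueField A) (M * p)))
  (hE : Function.Surjective (S34B_E e₁ e₂))
  (hW1 : S34K_W (S34M_same M p hp hpM A hgen) (S34M_chart M p A 1 Nat.one_pos) 1 =
    S34B_W e₁ e₂)
  (hx : S34P_Hyp (S34M_T1 M p A hgen) (S34M_T2 M p hp hpM A hgen) (S34M_same M p hp hpM A hgen)
    (S34PX_j M p hp hpM A hgen))
  (hred : S34P_red (S34M_T1 M p A hgen) (S34M_T2 M p hp hpM A hgen)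
    (S34PX_j M p hp hpM A hgen) = (S34M_xb M p A, S34M_xb M p A ^ p))
  (hP : ∀ i, 0 ≤ (P i).ord (S34M_xb M p A))
  (he₁ : ∀ i (a : ↥(S34M_chart M p A 1 Nat.one_pos).Rb₁), e₁ i a = FD_c0 (P i) (a : _))

include hA hE hP he₁ hζ hℓ hℓp in
/-- **the node chain at the canonical node `i`**. -/
theorem S40F2AI_node (i : Fin s)
    (hℓN : ¬ ℓ ∣ M * p) (hp5 : 5 ≤ p)
    (Cn : S40F2N_Coord
      (S40NI_nodeGen (S18_hRR (M * p)).deg_one 1 Nat.one_pos hx hred e₁ e₂ hW1 i))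
    (e : ℕ) (hϖ : Cn.ϖ = (p : Ω) ^ e)
    (hXU : S40F2S_IsU (S34M_T1 M p A hgen).O Cn.X)
    (hordX : (P i).ord ((S34M_T1 M p A hgen).red ⟨Cn.X, hXU.mem⟩) = 1)
    (C₀ : Subfield Ω) {π c ζ₀ : Ω}
    (hπC : π ∈ C₀) (hπ0 : π ≠ 0) (hπ1 : A.valuation π < 1)
    (hval : ∀ x ∈ C₀, x ≠ 0 → ∃ j : ℤ, A.valuation x = A.valuation π ^ j)
    (hcC : c ∈ C₀) (hc1 : A.valuation c = 1)
    (hπ : A.valuation π ^ p = A.valuation (1 - ζ₀))
    (hζ₀ : A.valuation (1 - ζ₀) ^ (p - 1) = A.valuation (p : Ω))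
    {t : ℕ} (ht : 1 ≤ t) (htp : t ≤ p - 1)
    {u y c₁ c₂ Y₁ Y₂ : ↥(modularFunctionFieldBar (M * p))}
    (hc₁ : c₁ ∈ C₀.map (algebraMap Ω ↥(modularFunctionFieldBar (M * p))))
    (hc₂ : c₂ ∈ C₀.map (algebraMap Ω ↥(modularFunctionFieldBar (M * p))))
    (hc₁0 : c₁ ≠ 0) (hc₂0 : c₂ ≠ 0)
    (hY₁ : Y₁ ∈ C₀.map (algebraMap Ω ↥(modularFunctionFieldBar (M * p))))
    (hY₂ : Y₂ ∈ C₀.map (algebraMap Ω ↥(modularFunctionFieldBar (M * p))))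
    (hY₁0 : Y₁ ≠ 0) (hY₂0 : Y₂ ≠ 0)
    (hu1 : S40F2S_IsU (S34M_T1 M p A hgen).O (u / c₁))
    (hu2 : S40F2S_IsU (S34M_T2 M p hp hpM A hgen).O (u / c₂))
    (H1 : S40F2J_Cg (S34M_T1 M p A hgen).O.valuation
      (algebraMap Ω ↥(modularFunctionFieldBar (M * p)) π) (p * t) (y / Y₁) 0)
    (H2 : S40F2J_Cg (S34M_T2 M p hp hpM A hgen).O.valuation
      (algebraMap Ω ↥(modularFunctionFieldBar (M * p)) π) (p * t) (y / Y₂) 0)
    (hdiv : ∀ u₀ y₀ : ↥(modularFunctionFieldBar (M * p)),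
      (u₀ = u ∧ y₀ = y) ∨ (u₀ = GRS_t hst u ∧ y₀ = GRS_t hst y) →
      ∃ (ι : Type) (s' : Finset ι) (w : ι → ↥(modularFunctionFieldBar (M * p)))
      (m : ι → ℤ) (u' E : ↥(modularFunctionFieldBar (M * p))),
      (∀ i' ∈ s', w i' ≠ 0) ∧
      (∀ i' ∈ s', w i' ∈ (S40NI_nodeGen (S18_hRR (M * p)).deg_one 1 Nat.one_pos hx hred e₁ e₂
        hW1 i).O₁.nonunits) ∧
      (∀ i' ∈ s', algebraMap Ω ↥(modularFunctionFieldBar (M * p)) Cn.ϖ / w i' ∈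
        (S40NI_nodeGen (S18_hRR (M * p)).deg_one 1 Nat.one_pos hx hred e₁ e₂
          hW1 i).O₂.nonunits) ∧
      S40F2SN_NoZP (S40NI_nodeGen (S18_hRR (M * p)).deg_one 1 Nat.one_pos hx hred e₁ e₂ hW1 i)
        u' ∧
      u₀ = u' * ∏ i' ∈ s', (Cn.X - w i') ^ ((p : ℤ) * m i') ∧
      ∏ i' ∈ s', w i' ^ m i' ∈ C₀.map (algebraMap Ω ↥(modularFunctionFieldBar (M * p))) ∧
      S40F2K_Reg (S40NI_nodeGen (S18_hRR (M * p)).deg_one 1 Nat.one_pos hx hred e₁ e₂ hW1 i)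
        (y₀ / E ^ p) ∧
      S40F2J_Cg (S40NI_nodeGen (S18_hRR (M * p)).deg_one 1 Nat.one_pos hx hred e₁ e₂
        hW1 i).O₁.valuation (algebraMap Ω ↥(modularFunctionFieldBar (M * p)) π) t E 0 ∧
      S40F2J_Cg (S40NI_nodeGen (S18_hRR (M * p)).deg_one 1 Nat.one_pos hx hred e₁ e₂
        hW1 i).O₂.valuation (algebraMap Ω ↥(modularFunctionFieldBar (M * p)) π) t E
        (algebraMap Ω ↥(modularFunctionFieldBar (M * p)) c *
          ((S40F2MV_vL (S40NI_nodeGen (S18_hRR (M * p)).deg_one 1 Nat.one_pos hx hred e₁ e₂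
            hW1 i).O₁ (algebraMap Ω ↥(modularFunctionFieldBar (M * p)) π)
            (∏ i' ∈ s', w i' ^ m i') : ℤ) : ↥(modularFunctionFieldBar (M * p)))))
    (κ : Ω) (a : ℤ) (g : ↥(modularFunctionFieldBar (M * p))) (hg0 : g ≠ 0)
    (hE' : GRS_t hst u = algebraMap Ω ↥(modularFunctionFieldBar (M * p)) κ * u ^ a * g ^ p)
    (ha : ¬ (p : ℤ) ∣ a - (ℓ : ℤ) - 1) :
    (p : ℤ) ∣ (P i).ord ((S34M_T1 M p A hgen).red ⟨u / c₁, hu1.mem⟩) := by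
  haveI : IsAlgClosed (IsLocalRing.ResidueField A) := S18_residue_isAlgClosed A
  haveI : Infinite (IsLocalRing.ResidueField A) := IsAlgClosed.instInfinite
  haveI : HasPrincipalDivisors Ω ↥(modularFunctionFieldBar (M * p)) :=
    (S18_hRR (M * p)).principal
  have hA₁ : ∀ a : Ω, algebraMap Ω ↥(modularFunctionFieldBar (M * p)) a ∈ (S40NI_nodeGen (S18_hRR (M * p)).deg_one 1 Nat.one_pos hx hred e₁ e₂ hW1 i).O₁ → a ∈ (S40NI_nodeGen (S18_hRR (M * p)).deg_one 1 Nat.one_pos hx hred e₁ e₂ hW1 i).A :=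
    fun a h => ((S34M_T1 M p A hgen).algebraMap_mem_iff a).1 h
  have hA₂ : ∀ a : Ω, algebraMap Ω ↥(modularFunctionFieldBar (M * p)) a ∈ (S40NI_nodeGen (S18_hRR (M * p)).deg_one 1 Nat.one_pos hx hred e₁ e₂ hW1 i).O₂ → a ∈ (S40NI_nodeGen (S18_hRR (M * p)).deg_one 1 Nat.one_pos hx hred e₁ e₂ hW1 i).A :=
    fun a h => ((S34M_T2 M p hp hpM A hgen).algebraMap_mem_iff a).1 h
  have hfin : ∀ g : ↥(modularFunctionFieldBar (M * p)),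
      {Q : S40NA_Pt Ω ↥(modularFunctionFieldBar (M * p)) | Q ∈ (S40NI_nodeGen (S18_hRR (M * p)).deg_one 1 Nat.one_pos hx hred e₁ e₂ hW1 i).U ∧ g ∉ Q.P}.Finite :=
    fun g => S40NI_poles_finite (S18_hRR (M * p)).deg_one (jB (M * p)) g
  have hVp : (S40NI_nodeGen (S18_hRR (M * p)).deg_one 1 Nat.one_pos hx hred e₁ e₂ hW1 i).A.valuation (p : Ω) < 1 := by
    have h1 : A.valuation (1 - ζ₀) < 1 := by
      rw [← hπ]
      exact pow_lt_one₀ zero_le hπ1 hp.ne_zero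
    have h2 : A.valuation (p : Ω) < 1 := by
      rw [← hζ₀]
      exact pow_lt_one₀ zero_le h1 (by have := hp.two_le; omega)
    exact h2
  have hπA : π ∈ A := (A.valuation_le_one_iff π).1 hπ1.le
  have hC := S40F2MC_coord (S40NI_nodeGen (S18_hRR (M * p)).deg_one 1 Nat.one_pos hx hred e₁ e₂ hW1 i) Cn C₀ hp e hϖ hA₁ hA₂ hπC hπ0 hπ1 hval hcC hc1 hVp hfin hπ hζ₀
  have hpv₁ := S40F2HP_hpv₁ (S40NI_nodeGen (S18_hRR (M * p)).deg_one 1 Nat.one_pos hx hred e₁ e₂ hW1 i) hp htp hπ0 (le_of_lt hπ1 : (S40NI_nodeGen (S18_hRR (M * p)).deg_one 1 Nat.one_pos hx hred e₁ e₂ hW1 i).A.valuation π ≤ 1) hπ hζ₀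
  have hpv₂ := S40F2HP_hpv₂ (S40NI_nodeGen (S18_hRR (M * p)).deg_one 1 Nat.one_pos hx hred e₁ e₂ hW1 i) hp htp hπ0 (le_of_lt hπ1 : (S40NI_nodeGen (S18_hRR (M * p)).deg_one 1 Nat.one_pos hx hred e₁ e₂ hW1 i).A.valuation π ≤ 1) hπ hζ₀
  -- slopes
  have hp₁ := S40NP_pole₁ M p hp hpM A hA
  obtain ⟨n, hn⟩ : ∃ n : ℤ, (P i).ord ((S34M_T1 M p A hgen).red ⟨u / c₁, hu1.mem⟩) = n :=
    ⟨_, rfl⟩
  have hu₁ : S40F2SN_U1 (S40NI_nodeGen (S18_hRR (M * p)).deg_one 1 Nat.one_pos hx hred e₁ e₂ hW1 i) (u / (c₁ * Cn.X ^ n)) := by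
    have := S40NS_u1_of_ord (hdeg := (S18_hRR (M * p)).deg_one) 1 Nat.one_pos hx hred e₁ e₂ hW1
      (S34VF_hk M A hp hA hpM) P hP he₁ hE hp₁ i hu1 hXU n hn hordX
    rwa [div_div] at this
  have htu1 : S40F2S_IsU (S34M_T1 M p A hgen).O (GRS_t hst u / c₁ ^ (ℓ + 1)) := by
    obtain ⟨b, hb, rfl⟩ := hc₁
    have h1 := S40F2MT_isU₁ M p ℓ A ζ hζ hgen hst _ hu1
    have h2 : GRS_t hst (algebraMap Ω ↥(modularFunctionFieldBar (M * p)) b) =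
        algebraMap Ω ↥(modularFunctionFieldBar (M * p)) b ^ (ℓ + 1) :=
      S40F2MT_const M p ℓ ζ hst hℓN _ ⟨b, rfl⟩
    rwa [map_div₀, h2] at h1
  obtain ⟨n', hn'⟩ : ∃ n' : ℤ,
      (P i).ord ((S34M_T1 M p A hgen).red ⟨GRS_t hst u / c₁ ^ (ℓ + 1), htu1.mem⟩) = n' :=
    ⟨_, rfl⟩
  have hu₁' : S40F2SN_U1 (S40NI_nodeGen (S18_hRR (M * p)).deg_one 1 Nat.one_pos hx hred e₁ e₂ hW1 i) (GRS_t hst u / (c₁ ^ (ℓ + 1) * Cn.X ^ n')) := by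
    have := S40NS_u1_of_ord (hdeg := (S18_hRR (M * p)).deg_one) 1 Nat.one_pos hx hred e₁ e₂ hW1
      (S34VF_hk M A hp hA hpM) P hP he₁ hE hp₁ i htu1 hXU n' hn' hordX
    rwa [div_div] at this
  have hg := S40F2MNI_slope_exists (hdeg := (S18_hRR (M * p)).deg_one) 1 Nat.one_pos hx hred
    e₁ e₂ hW1 (S34VF_hk M A hp hA hpM) P hP he₁ hE hp₁
    (S40F2MNI_dv_T1 M p A hgen) i hXU hordX g hg0
  -- the slope of `f₀`
  obtain ⟨m, hm⟩ : ∃ m : ℤ, (P i).ord ((S34M_T1 M p A hgen).red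
      ⟨S36F0_f0 M p, (S40F2US_isU₁ M p hp hpM A hA hgen).mem⟩) = m := ⟨_, rfl⟩
  have hslope := S40F2US_slope_val' M p hp hpM A hA hgen e₁ e₂ P hE hW1 hx hred hP he₁ i
    hC.hXY hC.hX hC.hY hC.hXP hordX m hm hC.hv
    (⟨(p : Ω), natCast_mem C₀ p, rfl⟩ :
      algebraMap Ω ↥(modularFunctionFieldBar (M * p)) (p : Ω) ∈
        C₀.map (algebraMap Ω ↥(modularFunctionFieldBar (M * p)))) hC.hϖL
  have hslope' : -(12 * S40F2MV_vL (S40NI_nodeGen (S18_hRR (M * p)).deg_one 1 Nat.one_pos hx hred e₁ e₂ hW1 i).O₁ (algebraMap Ω ↥(modularFunctionFieldBar (M * p)) π)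
        (algebraMap Ω ↥(modularFunctionFieldBar (M * p)) (p : Ω))) =
      m * S40F2MV_vL (S40NI_nodeGen (S18_hRR (M * p)).deg_one 1 Nat.one_pos hx hred e₁ e₂ hW1 i).O₁ (algebraMap Ω ↥(modularFunctionFieldBar (M * p)) π)
        (algebraMap Ω ↥(modularFunctionFieldBar (M * p)) ((p : Ω) ^ e)) := by
    rw [← hϖ]
    exact hslope
  have hG : S40F2M2_Gen (S40NI_nodeGen (S18_hRR (M * p)).deg_one 1 Nat.one_pos hx hred e₁ e₂ hW1 i) (C₀.map (algebraMap Ω ↥(modularFunctionFieldBar (M * p))))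
      (S40F2MV_vL (S40NI_nodeGen (S18_hRR (M * p)).deg_one 1 Nat.one_pos hx hred e₁ e₂ hW1 i).O₁ (algebraMap Ω ↥(modularFunctionFieldBar (M * p)) π))
      (algebraMap Ω ↥(modularFunctionFieldBar (M * p)) π)
      (algebraMap Ω ↥(modularFunctionFieldBar (M * p)) c) Cn.X
      (algebraMap Ω ↥(modularFunctionFieldBar (M * p)) Cn.ϖ) p t u y c₁ c₂ Y₁ Y₂ n :=
    { hc₁ := hc₁, hc₂ := hc₂, hc₁0 := hc₁0, hc₂0 := hc₂0, hY₁ := hY₁, hY₂ := hY₂,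
      hY₁0 := hY₁0, hY₂0 := hY₂0, hu₁ := hu₁, hu₂ := hu2, H1 := H1, H2 := H2,
      hdiv := hdiv u y (Or.inl ⟨rfl, rfl⟩) }
  have key := S40F2AS_node M p ℓ hp hpM hℓ hℓp A ζ hζ hgen hst (S40NI_nodeGen (S18_hRR (M * p)).deg_one 1 Nat.one_pos hx hred e₁ e₂ hW1 i) rfl rfl hℓN hp5 Cn C₀ e hϖ
    hA₁ hA₂ hπC hπ0 hπ1 hπA hval hcC hc1 hVp hfin hπ hζ₀ m hslope' ht hpv₁ hpv₂ hG n' hu₁'
    (hdiv _ _ (Or.inr ⟨rfl, rfl⟩)) κ a g hE' hg ha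
  rw [hn]
  exact key

end inst

end Fermat.Agent.S40
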