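import Mathlib

/-!
# TRACK 13 (S40), package F1-RED (helper11): the Kummer-basis lemma over `σ`-fixed coefficients

`Ω` a field, `A` a valuation subring, `σ : Ω →+* Ω`, `ζ` a primitive `p`-th root of unity fixed by
`σ`, `β` with `σ β = ζ β`, `K` a subfield containing the Lagrange coefficients of `z`.  If no
`c β^k` (`0 < k < p`, `c ∈ K^×`) is a unit of `A`, then every `z ∈ A` with `σ^p z = z` satisfies
`σ z − z ∈ (ζ − 1)·𝔪_A`.

* `S40RD_coef`       : the Lagrange coefficient `c_i = p⁻¹ β^{-i} Σ_j ζ^{-ij} σ^j z`;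
* `S40RD_coef_fixed` : `σ c_i = c_i`;
* `S40RD_expand`     : `z = Σ_{i<p} c_i β^i`;
* `S40RD_terms_mem`  : all terms `c_i β^i` lie in `A` if `z` does;
* `S40RD_main`       : `σ z − z = (ζ − 1) m` with `v(m) < 1`;
* `S40RD_dist`       : Bezout step, `v(c β) ≠ 1` on `K^×` and `β^p ∈ K` give the hypothesis `hdist`;
* `S40RD_coef_fixed_of` : `g` acting like `σ^j` on `β`, `z` fixes the coefficients;
* `S40RD_main_fix`   : the case `K = Fix(σ)`.
-/

set_option autoImplicit false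

open Finset

namespace Fermat.Agent.S40

variable {Ω : Type*} [Field Ω]

/-- the Lagrange resolvent `R_i = Σ_{j<p} ζ^{-ij} σ^j z`. -/
noncomputable def S40RD_res (σ : Ω →+* Ω) (p : ℕ) (ζ z : Ω) (i : ℕ) : Ω :=
  ∑ j ∈ range p, (ζ⁻¹) ^ (i * j) * (σ^[j]) z

/-- the Lagrange coefficient `c_i = p⁻¹ β^{-i} R_i`. -/
noncomputable def S40RD_coef (σ : Ω →+* Ω) (p : ℕ) (ζ β z : Ω) (i : ℕ) : Ω :=
  (p : Ω)⁻¹ * (β ^ i)⁻¹ * S40RD_res σ p ζ z i

theorem S40RD_res_map (σ : Ω →+* Ω) {p : ℕ} (hp0 : 0 < p) {ζ z : Ω} (hζp : ζ ^ p = 1)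
    (hσζ : σ ζ = ζ) (hz : (σ^[p]) z = z) (i : ℕ) :
    σ (S40RD_res σ p ζ z i) = ζ ^ i * S40RD_res σ p ζ z i := by
  have hζ0 : ζ ≠ 0 := by
    intro h
    rw [h, zero_pow hp0.ne'] at hζp
    exact zero_ne_one hζp
  have hinv : σ ζ⁻¹ = ζ⁻¹ := by rw [map_inv₀, hσζ]
  unfold S40RD_res
  rw [map_sum, Finset.mul_sum]
  -- σ-image: Σ_j ζ^{-ij} σ^{j+1} z
  have h1 : ∀ j ∈ range p, σ ((ζ⁻¹) ^ (i * j) * (σ^[j]) z)
      = ζ ^ i * ((ζ⁻¹) ^ (i * (j + 1)) * (σ^[j + 1]) z) := by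
    intro j _
    rw [map_mul, map_pow, hinv, Function.iterate_succ_apply', ← mul_assoc]
    congr 1
    rw [mul_add, mul_one, pow_add, ← mul_assoc, mul_comm (ζ ^ i), mul_assoc, inv_pow ζ i,
      mul_inv_cancel₀ (pow_ne_zero i hζ0), mul_one]
  rw [Finset.sum_congr rfl h1]
  rw [← Finset.mul_sum, ← Finset.mul_sum]
  congr 1
  -- shift of the index: Σ_{j<p} f (j+1) = Σ_{j<p} f j  as  f p = f 0
  set f : ℕ → Ω := fun j => (ζ⁻¹) ^ (i * j) * (σ^[j]) z with hf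
  have hfp : f p = f 0 := by
    simp only [hf]
    rw [hz, mul_zero, pow_zero, Function.iterate_zero, id, mul_comm i p, pow_mul, inv_pow, hζp,
      inv_one, one_pow]
  have e1 : ∑ j ∈ range p, f (j + 1) = ∑ j ∈ range (p + 1), f j - f 0 := by
    rw [Finset.sum_range_succ' f p]
    ring
  have e2 : ∑ j ∈ range (p + 1), f j = ∑ j ∈ range p, f j + f p := Finset.sum_range_succ f p
  show ∑ j ∈ range p, f (j + 1) = ∑ j ∈ range p, f j
  rw [e1, e2, hfp]
  ring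

theorem S40RD_coef_fixed (σ : Ω →+* Ω) {p : ℕ} (hp0 : 0 < p) {ζ β z : Ω} (hζp : ζ ^ p = 1)
    (hσζ : σ ζ = ζ) (hσβ : σ β = ζ * β) (hβ : β ≠ 0) (hz : (σ^[p]) z = z) (i : ℕ) :
    σ (S40RD_coef σ p ζ β z i) = S40RD_coef σ p ζ β z i := by
  have hζ0 : ζ ≠ 0 := by
    intro h
    rw [h, zero_pow hp0.ne'] at hζp
    exact zero_ne_one hζp
  unfold S40RD_coef
  rw [map_mul, map_mul, map_inv₀, map_inv₀, map_natCast, map_pow, hσβ,
    S40RD_res_map σ hp0 hζp hσζ hz i, mul_pow]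
  have h1 : ζ ^ i ≠ 0 := pow_ne_zero i hζ0
  have h2 : β ^ i ≠ 0 := pow_ne_zero i hβ
  field_simp

/-- **expansion**: `z = Σ_{i<p} c_i β^i`. -/
theorem S40RD_expand (σ : Ω →+* Ω) {p : ℕ} (hp : p.Prime) {ζ β : Ω} (z : Ω)
    (hζ : IsPrimitiveRoot ζ p) (hβ : β ≠ 0) (hpΩ : (p : Ω) ≠ 0) :
    ∑ i ∈ range p, S40RD_coef σ p ζ β z i * β ^ i = z := by
  have h1 : ∀ i ∈ range p, S40RD_coef σ p ζ β z i * β ^ i = (p : Ω)⁻¹ * S40RD_res σ p ζ z i := by
    intro i _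
    unfold S40RD_coef
    have h2 : β ^ i ≠ 0 := pow_ne_zero i hβ
    field_simp
  rw [Finset.sum_congr rfl h1, ← Finset.mul_sum]
  unfold S40RD_res
  rw [Finset.sum_comm]
  have key : ∀ j ∈ range p, ∑ i ∈ range p, (ζ⁻¹) ^ (i * j) * (σ^[j]) z
      = if j = 0 then (p : Ω) * z else 0 := by
    intro j hj
    rw [← Finset.sum_mul]
    by_cases hj0 : j = 0
    · subst hj0
      simp
    · rw [if_neg hj0]
      have hjp : j < p := Finset.mem_range.mp hj
      have hcop : Nat.Coprime j p := by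
        rw [Nat.coprime_comm]
        exact (Nat.Prime.coprime_iff_not_dvd hp).mpr
          (fun h => absurd (Nat.le_of_dvd (Nat.pos_of_ne_zero hj0) h) (not_le.mpr hjp))
      have hw : IsPrimitiveRoot ((ζ⁻¹) ^ j) p := (hζ.inv).pow_of_coprime j hcop
      have hsum : ∑ i ∈ range p, (ζ⁻¹) ^ (i * j) = 0 := by
        have := hw.geom_sum_eq_zero hp.one_lt
        rw [← this]
        refine Finset.sum_congr rfl (fun i _ => ?_)
        rw [mul_comm, pow_mul]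
      rw [hsum, zero_mul]
  rw [Finset.sum_congr rfl key, Finset.sum_ite_eq' (range p) 0 (fun _ => (p : Ω) * z)]
  rw [if_pos (Finset.mem_range.mpr hp.pos)]
  field_simp

/-- pairwise distinct valuations of the nonzero terms. -/
theorem S40RD_val_ne (A : ValuationSubring Ω) (K : Subfield Ω) {p : ℕ} {β : Ω}
    (hdist : ∀ c ∈ K, c ≠ 0 → ∀ k : ℕ, 0 < k → k < p → A.valuation (c * β ^ k) ≠ 1)
    (hβ : β ≠ 0)
    {c c' : Ω} (hc : c ∈ K) (hc' : c' ∈ K) (hc0 : c ≠ 0) (hc0' : c' ≠ 0)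
    {i k : ℕ} (hik : i < k) (hk : k < p) :
    A.valuation (c * β ^ i) ≠ A.valuation (c' * β ^ k) := by
  intro h
  have hfix : c' / c ∈ K := K.div_mem hc' hc
  have hne : c' / c ≠ 0 := div_ne_zero hc0' hc0
  refine hdist (c' / c) hfix hne (k - i) (by omega) (by omega) ?_
  have hci : c * β ^ i ≠ 0 := mul_ne_zero hc0 (pow_ne_zero i hβ)
  have e : c' / c * β ^ (k - i) = (c' * β ^ k) / (c * β ^ i) := by
    have : β ^ k = β ^ (k - i) * β ^ i := by rw [← pow_add]; congr 1; omega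
    rw [this]
    have h2 : β ^ i ≠ 0 := pow_ne_zero i hβ
    field_simp
  rw [e, map_div₀, ← h]
  exact div_self ((A.valuation).ne_zero_iff.mpr hci)

/-- all terms of the expansion of an integral `z` are integral. -/
theorem S40RD_terms_mem (A : ValuationSubring Ω) (K : Subfield Ω) (σ : Ω →+* Ω) {p : ℕ}
    (hp : p.Prime) {ζ β z : Ω} (hζ : IsPrimitiveRoot ζ p) (hβ : β ≠ 0)
    (hpΩ : (p : Ω) ≠ 0) (hzA : z ∈ A)
    (hcoef : ∀ i, i < p → S40RD_coef σ p ζ β z i ∈ K)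
    (hdist : ∀ c ∈ K, c ≠ 0 → ∀ k : ℕ, 0 < k → k < p → A.valuation (c * β ^ k) ≠ 1)
    (i : ℕ) (hi : i < p) :
    S40RD_coef σ p ζ β z i * β ^ i ∈ A := by
  classical
  set t : ℕ → Ω := fun i => S40RD_coef σ p ζ β z i * β ^ i with ht
  by_contra hcon
  -- the bad set
  set S : Finset ℕ := (range p).filter (fun i => t i ∉ A) with hS
  have hSne : S.Nonempty := ⟨i, Finset.mem_filter.mpr ⟨Finset.mem_range.mpr hi, hcon⟩⟩
  obtain ⟨i₀, hi₀S, hmax⟩ := Finset.exists_max_image S (fun i => A.valuation (t i)) hSne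
  have hi₀ : i₀ < p := Finset.mem_range.mp (Finset.mem_filter.mp hi₀S).1
  have hti₀ : t i₀ ∉ A := (Finset.mem_filter.mp hi₀S).2
  have hv₀ : 1 < A.valuation (t i₀) := by
    rw [← not_le]
    exact fun h => hti₀ ((A.valuation_le_one_iff _).mp h)
  have hc₀ : S40RD_coef σ p ζ β z i₀ ≠ 0 := by
    intro h0
    apply hti₀
    simp only [ht, h0, zero_mul]
    exact A.zero_mem
  have hlt : ∀ k ∈ (range p).erase i₀, A.valuation (t k) < A.valuation (t i₀) := by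
    intro k hk
    have hk1 : k ≠ i₀ := (Finset.mem_erase.mp hk).1
    have hkp : k < p := Finset.mem_range.mp (Finset.mem_erase.mp hk).2
    by_cases hkA : t k ∈ A
    · exact lt_of_le_of_lt ((A.valuation_le_one_iff _).mpr hkA) hv₀
    · have hkS : k ∈ S := Finset.mem_filter.mpr ⟨Finset.mem_range.mpr hkp, hkA⟩
      have hle := hmax k hkS
      have hck : S40RD_coef σ p ζ β z k ≠ 0 := by
        intro h0
        apply hkA
        simp only [ht, h0, zero_mul]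
        exact A.zero_mem
      refine lt_of_le_of_ne hle ?_
      rcases lt_or_gt_of_ne hk1 with h | h
      · exact S40RD_val_ne A K hdist hβ (hcoef k hkp) (hcoef i₀ hi₀) hck hc₀ h hi₀
      · exact (S40RD_val_ne A K hdist hβ (hcoef i₀ hi₀) (hcoef k hkp) hc₀ hck h hkp).symm
  have hsum : A.valuation (∑ k ∈ (range p).erase i₀, t k) < A.valuation (t i₀) :=
    Valuation.map_sum_lt _ (ne_of_gt (lt_trans zero_lt_one hv₀)) hlt
  have hz' : z = t i₀ + ∑ k ∈ (range p).erase i₀, t k := by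
    rw [Finset.add_sum_erase (range p) t (Finset.mem_range.mpr hi₀)]
    exact (S40RD_expand σ hp z hζ hβ hpΩ).symm
  have hvz : A.valuation z = A.valuation (t i₀) := by
    rw [hz']
    exact Valuation.map_add_eq_of_lt_left _ hsum
  have := (A.valuation_le_one_iff z).mpr hzA
  rw [hvz] at this
  exact absurd hv₀ (not_lt.mpr this)

/-- **(d) over a coefficient field `K`**: if the Lagrange coefficients of `z` lie in `K` and
no `c β^k` (`c ∈ K^×`, `0 < k < p`) has valuation `1`, then `σ z − z = (ζ − 1) m`, `v(m) < 1`. -/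
theorem S40RD_main (A : ValuationSubring Ω) (K : Subfield Ω) (σ : Ω →+* Ω) {p : ℕ}
    (hp : p.Prime)
    {ζ β z : Ω} (hζ : IsPrimitiveRoot ζ p) (hσζ : σ ζ = ζ) (hσβ : σ β = ζ * β) (hβ : β ≠ 0)
    (hpΩ : (p : Ω) ≠ 0) (hz : (σ^[p]) z = z) (hzA : z ∈ A)
    (hcoef : ∀ i, i < p → S40RD_coef σ p ζ β z i ∈ K)
    (hdist : ∀ c ∈ K, c ≠ 0 → ∀ k : ℕ, 0 < k → k < p → A.valuation (c * β ^ k) ≠ 1) :
    ∃ m : Ω, A.valuation m < 1 ∧ σ z - z = (ζ - 1) * m := by
  classical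
  set t : ℕ → Ω := fun i => S40RD_coef σ p ζ β z i * β ^ i with ht
  have hfix : ∀ i, σ (S40RD_coef σ p ζ β z i) = S40RD_coef σ p ζ β z i :=
    fun i => S40RD_coef_fixed σ hp.pos hζ.pow_eq_one hσζ hσβ hβ hz i
  have hmem : ∀ i, i < p → t i ∈ A :=
    fun i hi => S40RD_terms_mem A K σ hp hζ hβ hpΩ hzA hcoef hdist i hi
  have hvζ : A.valuation ζ = 1 := by
    have h1 : A.valuation ζ ^ p = 1 := by rw [← map_pow, hζ.pow_eq_one, map_one]
    exact (pow_eq_one_iff.mp h1).resolve_right hp.ne_zero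
  have hgeom : ∀ i : ℕ, A.valuation (∑ k ∈ range i, ζ ^ k) ≤ 1 := by
    intro i
    refine Valuation.map_sum_le _ (fun k _ => ?_)
    rw [map_pow, hvζ, one_pow]
  refine ⟨∑ i ∈ range p, (∑ k ∈ range i, ζ ^ k) * t i, ?_, ?_⟩
  · refine Valuation.map_sum_lt _ one_ne_zero (fun i hi => ?_)
    have hip : i < p := Finset.mem_range.mp hi
    rw [map_mul]
    by_cases hi0 : i = 0
    · subst hi0
      simp
    · have hti : A.valuation (t i) < 1 := by
        by_cases hc : S40RD_coef σ p ζ β z i = 0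
        · simp only [ht, hc, zero_mul, map_zero]
          exact zero_lt_one
        · refine lt_of_le_of_ne ((A.valuation_le_one_iff _).mpr (hmem i hip)) ?_
          exact hdist _ (hcoef i hip) hc i (Nat.pos_of_ne_zero hi0) hip
      calc A.valuation (∑ k ∈ range i, ζ ^ k) * A.valuation (t i)
          ≤ 1 * A.valuation (t i) := mul_le_mul' (hgeom i) le_rfl
        _ = A.valuation (t i) := one_mul _
        _ < 1 := hti
  · have hσt : ∀ i, σ (t i) = ζ ^ i * t i := by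
      intro i
      simp only [ht]
      rw [map_mul, hfix i, map_pow, hσβ, mul_pow]
      ring
    have hz' : z = ∑ i ∈ range p, t i := (S40RD_expand σ hp z hζ hβ hpΩ).symm
    have h1 : σ z - z = ∑ i ∈ range p, (ζ ^ i - 1) * t i := by
      conv_lhs => rw [hz']
      rw [map_sum, ← Finset.sum_sub_distrib]
      refine Finset.sum_congr rfl (fun i _ => ?_)
      rw [hσt i]
      ring
    rw [h1, Finset.mul_sum]
    refine Finset.sum_congr rfl (fun i _ => ?_)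
    show (ζ ^ i - 1) * t i = (ζ - 1) * ((∑ k ∈ range i, ζ ^ k) * t i)
    rw [← geom_sum_mul]
    ring

/-- **Bezout step**: `β^p ∈ K` and `v(c β) ≠ 1` for all `c ∈ K^×` give `v(c β^k) ≠ 1` for all
`c ∈ K^×`, `0 < k < p`. -/
theorem S40RD_dist (A : ValuationSubring Ω) (K : Subfield Ω) {p : ℕ} (hp : p.Prime) {β : Ω}
    (hβ : β ≠ 0) (hβp : β ^ p ∈ K)
    (hv : ∀ c ∈ K, c ≠ 0 → A.valuation (c * β) ≠ 1) :
    ∀ c ∈ K, c ≠ 0 → ∀ k : ℕ, 0 < k → k < p → A.valuation (c * β ^ k) ≠ 1 := by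
  intro c hc hc0 k hk0 hkp h
  have hcop : Nat.Coprime k p := by
    rw [Nat.coprime_comm]
    exact (Nat.Prime.coprime_iff_not_dvd hp).mpr
      (fun hd => absurd (Nat.le_of_dvd hk0 hd) (not_le.mpr hkp))
  -- a * k ≡ 1 mod p with a ≥ 1:  a * k = 1 + b * p
  obtain ⟨a, ha⟩ : ∃ a : ℕ, a * k ≡ 1 [MOD p] := by
    obtain ⟨a, -, ha⟩ := Nat.exists_mul_mod_eq_one_of_coprime hcop hp.one_lt
    refine ⟨a, ?_⟩
    rw [mul_comm]
    show k * a % p = 1 % p
    rw [ha, Nat.mod_eq_of_lt hp.one_lt]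
  have hak : 1 ≤ a * k := by
    rcases Nat.eq_zero_or_pos (a * k) with h0 | h0
    · rw [h0] at ha
      have := ha.symm
      have h1 : 1 % p = 0 % p := this
      rw [Nat.mod_eq_of_lt hp.one_lt, Nat.zero_mod] at h1
      exact absurd h1 one_ne_zero
    · exact h0
  obtain ⟨b, hb⟩ : ∃ b : ℕ, a * k = 1 + b * p := by
    have h1 : p ∣ a * k - 1 := (Nat.modEq_iff_dvd' hak).mp ha.symm
    obtain ⟨b, hb⟩ := h1
    exact ⟨b, by rw [mul_comm b p, ← hb]; omega⟩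
  have e : (c * β ^ k) ^ a = (c ^ a * (β ^ p) ^ b) * β := by
    rw [mul_pow, ← pow_mul, mul_comm k a, hb, pow_add, pow_one, ← pow_mul, mul_comm p b]
    ring
  have hmem : c ^ a * (β ^ p) ^ b ∈ K := K.mul_mem (K.pow_mem hc a) (K.pow_mem hβp b)
  have hne : c ^ a * (β ^ p) ^ b ≠ 0 :=
    mul_ne_zero (pow_ne_zero a hc0) (pow_ne_zero b (pow_ne_zero p hβ))
  apply hv _ hmem hne
  rw [← e, map_pow, h, one_pow]

/-- a ring endomorphism `g` acting on `β`, `z` like `σ ^ j` fixes the Lagrange coefficients. -/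
theorem S40RD_coef_fixed_of (σ g : Ω →+* Ω) {p : ℕ} (hp0 : 0 < p) {ζ β z : Ω} (hζp : ζ ^ p = 1)
    (hgζ : g ζ = ζ) (hβ : β ≠ 0) (hz : (σ^[p]) z = z) (j : ℕ) (hgβ : g β = ζ ^ j * β)
    (hgz : ∀ k : ℕ, g ((σ^[k]) z) = (σ^[j + k]) z) (i : ℕ) :
    g (S40RD_coef σ p ζ β z i) = S40RD_coef σ p ζ β z i := by
  have hζ0 : ζ ≠ 0 := by
    intro h
    rw [h, zero_pow hp0.ne'] at hζp
    exact zero_ne_one hζp
  have hinv : g ζ⁻¹ = ζ⁻¹ := by rw [map_inv₀, hgζ]
  set f : ℕ → Ω := fun k => (ζ⁻¹) ^ (i * k) * (σ^[k]) z with hf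
  -- `f` is `p`-periodic
  have hper : ∀ k, f (k + p) = f k := by
    intro k
    simp only [hf]
    rw [Function.iterate_add_apply, hz, mul_add, pow_add, mul_comm i p, pow_mul (ζ⁻¹) p i,
      inv_pow ζ p, hζp, inv_one, one_pow, mul_one]
  have hshift1 : ∀ m : ℕ, ∑ k ∈ range p, f (k + 1 + m) = ∑ k ∈ range p, f (k + m) := by
    intro m
    have e1 : ∑ k ∈ range p, f (k + 1 + m) = ∑ k ∈ range (p + 1), f (k + m) - f (0 + m) := by
      rw [Finset.sum_range_succ' (fun k => f (k + m)) p]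
      ring
    have e2 : ∑ k ∈ range (p + 1), f (k + m) = ∑ k ∈ range p, f (k + m) + f (p + m) :=
      Finset.sum_range_succ (fun k => f (k + m)) p
    rw [e1, e2, add_comm p m, hper m, zero_add]
    ring
  have hshift : ∀ m : ℕ, ∑ k ∈ range p, f (k + m) = ∑ k ∈ range p, f k := by
    intro m
    induction m with
    | zero => rfl
    | succ m ih =>
      rw [← ih, ← hshift1 m]
      refine Finset.sum_congr rfl (fun k _ => ?_)
      congr 1
      omega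
  have hres : g (S40RD_res σ p ζ z i) = ζ ^ (i * j) * S40RD_res σ p ζ z i := by
    unfold S40RD_res
    rw [map_sum]
    have h1 : ∀ k ∈ range p, g ((ζ⁻¹) ^ (i * k) * (σ^[k]) z) = ζ ^ (i * j) * f (k + j) := by
      intro k _
      simp only [hf]
      rw [map_mul, map_pow, hinv, hgz k, add_comm j k, ← mul_assoc]
      congr 1
      rw [mul_add, pow_add, ← mul_assoc, mul_comm (ζ ^ (i * j)), mul_assoc, ← mul_pow,
        mul_inv_cancel₀ hζ0, one_pow, mul_one]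
    rw [Finset.sum_congr rfl h1, ← Finset.mul_sum, hshift j]
  unfold S40RD_coef
  rw [map_mul, map_mul, map_inv₀, map_inv₀, map_natCast, map_pow, hgβ, hres, mul_pow,
    ← pow_mul, mul_comm j i]
  have h1 : ζ ^ (i * j) ≠ 0 := pow_ne_zero _ hζ0
  have h2 : β ^ i ≠ 0 := pow_ne_zero i hβ
  field_simp

/-- the special case `K = Fix(σ)`. -/
theorem S40RD_main_fix (A : ValuationSubring Ω) (σ : Ω →+* Ω) {p : ℕ} (hp : p.Prime)
    {ζ β z : Ω} (hζ : IsPrimitiveRoot ζ p) (hσζ : σ ζ = ζ) (hσβ : σ β = ζ * β) (hβ : β ≠ 0)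
    (hpΩ : (p : Ω) ≠ 0) (hz : (σ^[p]) z = z) (hzA : z ∈ A)
    (hdist : ∀ c : Ω, σ c = c → c ≠ 0 → ∀ k : ℕ, 0 < k → k < p → A.valuation (c * β ^ k) ≠ 1) :
    ∃ m : Ω, A.valuation m < 1 ∧ σ z - z = (ζ - 1) * m :=
  S40RD_main A (RingHom.eqLocusField σ (RingHom.id Ω)) σ hp hζ hσζ hσβ hβ hpΩ hz hzA
    (fun i _ => S40RD_coef_fixed σ hp.pos hζ.pow_eq_one hσζ hσβ hβ hz i)
    (fun c hc hc0 k hk0 hkp => hdist c hc hc0 k hk0 hkp)

end Fermat.Agent.S40
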