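import Mathlib
import Fermat.Agent.S58.Rel
import Fermat.Agent.S41.NECount
import Fermat.Agent.S40.F1b

/-!
# TRACK 13 (S40), W-side glue (a) + (b) + (c) for W-PEU (helper28).  Prefix `S40WG_`.

`W : WeierstrassCurve ℤ`, `A` a valuation ring of `ℚ̄` over an odd prime `p ∤ Δ_W`, `τ` in the
inertia group of `A`, `P ∈ W[p](ℚ̄)` with `τ P ≠ P`.

* `S40WG_Chord W A` : the chord property (package W-C) as a `Prop`: for an INTEGRAL point
  `P₁ = (x, y)` with `τ P₁ ≠ ± P₁` the `X`-coordinate `x_Q` of `Q = τ P₁ − P₁` satisfies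
  `max(v(τx − x), v(τy − y))² · v(x_Q) = 1`.
* `S40WG_inE1_iff` : the kernel of reduction is the kernel of a homomorphism (hence a subgroup).
* **`S40WG_depth`** : there is an integral `z ∈ ℚ̄` with `g z = g' z` for all `g, g'` of the
  inertia group with `g P = g' P` (so `z` is fixed by every `σ` of the inertia group with
  `σ P = P`: `S40WG_depth_stab`), such that `v(p) ≤ v(τ z − z) ^ (p − 1)`.
  If `P` is integral, `z` is a coordinate of `P`; if `P` lies in the kernel of reduction, `z` is a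
  coordinate of `P + R`, `R` a point of odd prime order `ℓ ≠ p` (fixed by inertia).
-/

set_option autoImplicit false
set_option linter.unusedSectionVars false
set_option linter.unusedVariables false
set_option linter.style.haveILetI false

open scoped Pointwise

namespace Fermat.Agent.S40

open WeierstrassCurve Fermat.Agent.Lib Fermat.Agent.S05 Fermat.Agent.S51 Fermat.Agent.S18
  Fermat.Agent.GalRep Fermat.Agent.S41 Fermat.Agent.S58 Fermat.Agent.S13

local notation "ℚbar" => AlgebraicClosure ℚ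

variable (W : WeierstrassCurve ℤ) {p : ℕ} (A : ValuationSubring ℚbar)

/-- **the chord property (W-C)** at `A`. -/
def S40WG_Chord : Prop :=
  ∀ τ : GQ, τ ∈ A.inertiaSubgroupIn ℚ →
    ∀ {x y : ℚbar} (h : (W.baseChange ℚbar).toAffine.Nonsingular x y), x ∈ A →
      τ • (Affine.Point.some x y h : (W.baseChange ℚbar).toAffine.Point) ≠
        Affine.Point.some x y h →
      τ • (Affine.Point.some x y h : (W.baseChange ℚbar).toAffine.Point) ≠
        -Affine.Point.some x y h →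
      ∃ xQ, S51_c_IsX (τ • (Affine.Point.some x y h : (W.baseChange ℚbar).toAffine.Point) -
          Affine.Point.some x y h) xQ ∧
        max (A.valuation (τ x - x)) (A.valuation (τ y - y)) ^ 2 * A.valuation xQ = 1

/-- the kernel of reduction at a good prime is the kernel of a homomorphism. -/
theorem S40WG_inE1_iff (hp : p.Prime) (hA : A.LiesOverPrime p) (hgood : ¬ (p : ℤ) ∣ W.Δ) :
    ∃ (G : Type) (_ : AddCommGroup G) (red : (W.baseChange ℚbar).toAffine.Point →+ G),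
      ∀ P, S05_InE1 A P ↔ red P = 0 := by
  classical
  have hΔ : ft_resHom A (S41NE_int_mem A) W.Δ ≠ 0 := by
    intro h0
    apply hgood
    apply S41NE_dvd_of_intCast_mem_nonunits A hp hA
    have h1 : IsLocalRing.residue A ⟨algebraMap ℤ ℚbar W.Δ, S41NE_int_mem A _⟩ = 0 := h0
    rw [IsLocalRing.residue_eq_zero_iff] at h1
    have h2 : algebraMap ℤ ℚbar W.Δ ∈ A.nonunits :=
      (ValuationSubring.coe_mem_nonunits_iff (A := A)).mpr h1
    rwa [eq_intCast] at h2
  obtain ⟨red₀, h1, h2, h3, h4⟩ := ft_red_exists' W A (S41NE_int_mem A) hΔ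
  refine ⟨_, inferInstance, red₀, fun P => ?_⟩
  rcases P with _ | ⟨x, y, h⟩
  · exact ⟨fun _ => map_zero red₀, fun _ => Or.inl rfl⟩
  · constructor
    · rintro (h0 | ⟨x', hx', hx'A⟩)
      · exact absurd h0 (by simp)
      · obtain ⟨y', h', e⟩ := hx'
        have hxx : x = x' := by
          have := e
          simp only [Affine.Point.some.injEq] at this
          exact this.1
        subst hxx
        exact (h4 x y h).2 hx'A
    · intro h0
      exact Or.inr ⟨x, ⟨y, h, rfl⟩, (h4 x y h).1 h0⟩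


/-- `(W ⊗ ℚ̄).Δ ≠ 0` from good reduction at `p`. -/
theorem S40WG_Δ_ne_zero (hgood : ¬ (p : ℤ) ∣ W.Δ) : (W.baseChange ℚbar).Δ ≠ 0 := by
  have hΔ : W.Δ ≠ 0 := by
    intro h0
    apply hgood
    rw [h0]
    exact dvd_zero _
  show (W.map (algebraMap ℤ ℚbar)).Δ ≠ 0
  rw [WeierstrassCurve.map_Δ]
  intro h0
  apply hΔ
  have h1 : ((W.Δ : ℤ) : ℚbar) = 0 := by rwa [eq_intCast] at h0
  exact_mod_cast h1

/-- a non-zero point of odd prime order `ℓ`. -/
theorem S40WG_exists_order (hgood : ¬ (p : ℤ) ∣ W.Δ) {ℓ : ℕ} (hℓ : ℓ.Prime) (hℓ2 : ℓ ≠ 2) :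
    ∃ R : (W.baseChange ℚbar).toAffine.Point, R ≠ 0 ∧ ℓ • R = 0 := by
  classical
  have hℓF : ((ℓ : ℕ) : ℚbar) ≠ 0 := by
    exact_mod_cast hℓ.ne_zero
  have hcard := S41NC_card_torsion (W.baseChange ℚbar) (S40WG_Δ_ne_zero W hgood) hℓ hℓ2 hℓF
  by_contra hne
  push Not at hne
  have hsub : Subsingleton {Q : (W.baseChange ℚbar).toAffine.Point // ℓ • Q = 0} := by
    refine ⟨fun a b => ?_⟩
    have ha : a.1 = 0 := by
      by_contra h
      exact hne a.1 h a.2
    have hb : b.1 = 0 := by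
      by_contra h
      exact hne b.1 h b.2
    exact Subtype.ext (ha.trans hb.symm)
  have h1 : Nat.card {Q : (W.baseChange ℚbar).toAffine.Point // ℓ • Q = 0} ≤ 1 :=
    Finite.card_le_one_iff_subsingleton.2 hsub
  rw [hcard] at h1
  have := hℓ.two_le
  nlinarith

/-- in an additive group: `2 • a = 0`, `n • a = 0`, `n` odd ⇒ `a = 0`. -/
lemma S40WG_eq_zero_of_two_odd {G : Type*} [AddCommGroup G] {a : G} {n : ℕ} (hn : Odd n)
    (h2 : 2 • a = 0) (hna : n • a = 0) : a = 0 := by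
  obtain ⟨m, rfl⟩ := hn
  have : (2 * m + 1) • a = m • (2 • a) + a := by
    rw [add_nsmul, one_nsmul, mul_comm, mul_nsmul']
  rw [this, h2, smul_zero, zero_add] at hna
  exact hna

/-- **the integral representative**: an INTEGRAL point `P₁` with `τ P₁ − P₁ = τ P − P`,
`τ P₁ ≠ − P₁`, fixed by every `σ` of the inertia group fixing `P`. -/
theorem S40WG_exists_integral (hp : p.Prime) (hp2 : p ≠ 2) (hA : A.LiesOverPrime p)
    (hgood : ¬ (p : ℤ) ∣ W.Δ) (τ : GQ) (hτ : τ ∈ A.inertiaSubgroupIn ℚ)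
    (P : (W.baseChange ℚbar).toAffine.Point) (hP : p • P = 0) (hτP : τ • P ≠ P) :
    ∃ P₁ : (W.baseChange ℚbar).toAffine.Point, ¬ S05_InE1 A P₁ ∧ τ • P₁ - P₁ = τ • P - P ∧
      τ • P₁ ≠ -P₁ ∧
      ∀ g g' : GQ, g ∈ A.inertiaSubgroupIn ℚ → g' ∈ A.inertiaSubgroupIn ℚ →
        g • P = g' • P → g • P₁ = g' • P₁ := by
  classical
  obtain ⟨G, _, red, hred⟩ := S40WG_inE1_iff W A hp hA hgood
  have hodd : Odd p := hp.odd_of_ne_two hp2
  have hQE : red (τ • P - P) = 0 :=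
    (hred _).1 (S58R_sub_inE1_good W A hp hA hgood τ hτ P)
  by_cases hPE : S05_InE1 A P
  · -- translate by a point of order `ℓ`
    obtain ⟨ℓ, hℓ, hℓ2, hℓp⟩ : ∃ ℓ : ℕ, ℓ.Prime ∧ ℓ ≠ 2 ∧ ℓ ≠ p := by
      by_cases h3 : p = 3
      · exact ⟨5, by norm_num, by norm_num, by omega⟩
      · exact ⟨3, by norm_num, by norm_num, fun h => h3 h.symm⟩
    have hpℓ : ¬ p ∣ ℓ := fun h => hℓp ((Nat.prime_dvd_prime_iff_eq hp hℓ).1 h).symm
    obtain ⟨R, hR0, hℓR⟩ := S40WG_exists_order W hgood hℓ hℓ2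
    have hRE : ¬ S05_InE1 A R := fun h => hR0 (S58R_torsion_inE1 W A hp hA hpℓ h hℓR)
    have hfix : ∀ σ : GQ, σ ∈ A.inertiaSubgroupIn ℚ → σ • R = R := fun σ hσ =>
      S58R_fix_good W A hp hA hgood hpℓ σ hσ R hℓR
    have hredP : red P = 0 := (hred P).1 hPE
    have hredR : red R ≠ 0 := fun h => hRE ((hred R).2 h)
    have hℓredR : ℓ • red R = 0 := by rw [← map_nsmul, hℓR, map_zero]
    refine ⟨P + R, ?_, ?_, ?_, ?_⟩
    · intro h
      have := (hred _).1 h
      rw [map_add, hredP, zero_add] at this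
      exact hredR this
    · rw [S41NE_gsmul_add, hfix τ hτ]
      abel
    · intro h
      have h1 : red (τ • (P + R) - (P + R)) = 0 := by
        rw [S41NE_gsmul_add, hfix τ hτ]
        have : τ • P + R - (P + R) = τ • P - P := by abel
        rw [this]
        exact hQE
      rw [h] at h1
      have h2 : 2 • red R = 0 := by
        have : -(P + R) - (P + R) = -(2 • P) - 2 • R := by
          rw [two_nsmul, two_nsmul]
          abel
        rw [this, map_sub, map_neg, map_nsmul, map_nsmul, hredP, smul_zero, neg_zero,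
          zero_sub, neg_eq_zero] at h1
        exact h1
      exact hredR (S40WG_eq_zero_of_two_odd (hℓ.odd_of_ne_two hℓ2) h2 hℓredR)
    · intro g g' hg hg' hgP
      rw [S41NE_gsmul_add, S41NE_gsmul_add, hgP, hfix g hg, hfix g' hg']
  · refine ⟨P, hPE, rfl, ?_, fun g g' _ _ h => h⟩
    intro h
    have h1 := hQE
    rw [h] at h1
    have h2 : 2 • red P = 0 := by
      have : -P - P = -(2 • P) := by
        rw [two_nsmul]
        abel
      rw [this, map_neg, map_nsmul, neg_eq_zero] at h1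
      exact h1
    have hpred : p • red P = 0 := by rw [← map_nsmul, hP, map_zero]
    exact hPE ((hred P).2 (S40WG_eq_zero_of_two_odd hodd h2 hpred))


/-- **W-glue (a) + (b) + (c)**: for `τ` in the inertia group at a good odd prime `p` and
`P ∈ W[p]` with `τ P ≠ P` there is an integral `z`, fixed by every `σ` of the inertia group
fixing `P`, with `v(p) ≤ v(τ z − z) ^ (p − 1)`. -/
theorem S40WG_depth (hp : p.Prime) (hp2 : p ≠ 2) (hA : A.LiesOverPrime p)
    (hgood : ¬ (p : ℤ) ∣ W.Δ) (hchord : S40WG_Chord W A)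
    (τ : GQ) (hτ : τ ∈ A.inertiaSubgroupIn ℚ)
    (P : (W.baseChange ℚbar).toAffine.Point) (hP : p • P = 0) (hτP : τ • P ≠ P) :
    ∃ z : ℚbar, z ∈ A ∧
      (∀ g g' : GQ, g ∈ A.inertiaSubgroupIn ℚ → g' ∈ A.inertiaSubgroupIn ℚ →
        g • P = g' • P → g z = g' z) ∧
      A.valuation (p : ℚbar) ≤ A.valuation (τ z - z) ^ (p - 1) := by
  classical
  have hW := S41NE_integral W A
  have hodd : Odd p := hp.odd_of_ne_two hp2
  -- the point `Q = τ P − P` of the kernel of reduction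
  have hQ0 : τ • P - P ≠ 0 := fun h => hτP (sub_eq_zero.1 h)
  have hQE : S05_InE1 A (τ • P - P) := S58R_sub_inE1_good W A hp hA hgood τ hτ P
  have hpQ : p • (τ • P - P) = 0 := by
    rw [nsmul_sub, ← S41NE_gsmul_nsmul, hP, S41NE_gsmul_zero, sub_zero]
  obtain ⟨xQ, hxQ, hxQA⟩ : ∃ xQ, S51_c_IsX (τ • P - P) xQ ∧ xQ ∉ A := by
    rcases hQE with h | h
    · exact absurd h hQ0
    · exact h
  have hb := S40Fb_main A hW hp hp2 hxQ hxQA hpQ
  -- the integral representative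
  obtain ⟨P₁, hP₁E, hP₁Q, hP₁neg, hP₁stab⟩ :=
    S40WG_exists_integral W A hp hp2 hA hgood τ hτ P hP hτP
  rcases P₁ with _ | ⟨x₁, y₁, h₁⟩
  · exact absurd (Or.inl rfl) hP₁E
  have hx₁ : x₁ ∈ A := by
    by_contra hx
    exact hP₁E (Or.inr ⟨x₁, ⟨y₁, h₁, rfl⟩, hx⟩)
  have hy₁ : y₁ ∈ A := S05_y_mem A hW.a₁ hW.a₂ hW.a₃ hW.a₄ hW.a₆ h₁.1 hx₁
  have hne : τ • (Affine.Point.some x₁ y₁ h₁ : (W.baseChange ℚbar).toAffine.Point) ≠
      Affine.Point.some x₁ y₁ h₁ := by
    intro h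
    apply hQ0
    rw [← hP₁Q, h, sub_self]
  obtain ⟨xQ', hxQ', hmax⟩ := hchord τ hτ h₁ hx₁ hne hP₁neg
  rw [hP₁Q] at hxQ'
  have hxx : xQ' = xQ := hxQ'.unique hxQ
  rw [hxx] at hmax
  -- `v(x_Q)⁻¹ = M²`
  set M := max (A.valuation (τ x₁ - x₁)) (A.valuation (τ y₁ - y₁)) with hM
  have hxQ0 : xQ ≠ 0 := by
    rintro rfl
    exact hxQA (zero_mem A)
  have hvxQ0 : A.valuation xQ ≠ 0 := (Valuation.ne_zero_iff _).2 hxQ0
  have hinv : (A.valuation xQ)⁻¹ = M ^ 2 := by
    rw [eq_comm, ← mul_inv_eq_one₀ (inv_ne_zero hvxQ0), inv_inv]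
    exact hmax
  have hpow : ((A.valuation xQ)⁻¹) ^ ((p - 1) / 2) = M ^ (p - 1) := by
    rw [hinv, ← pow_mul]
    congr 1
    obtain ⟨m, hm⟩ := hodd
    omega
  rw [hpow] at hb
  -- the stabiliser condition on the coordinates
  have hstab : ∀ g g' : GQ, g ∈ A.inertiaSubgroupIn ℚ → g' ∈ A.inertiaSubgroupIn ℚ →
      g • P = g' • P → g x₁ = g' x₁ ∧ g y₁ = g' y₁ := by
    intro g g' hg hg' hgP
    have h := hP₁stab g g' hg hg' hgP
    have hns : ∀ σ : GQ, (W.baseChange ℚbar).toAffine.Nonsingular (σ x₁) (σ y₁) := fun σ =>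
      (WeierstrassCurve.Affine.baseChange_nonsingular (W := W.toAffine)
        (f := σ.toAlgHom) σ.injective x₁ y₁).mpr h₁
    have hσP₁ : ∀ σ : GQ,
        (σ • (Affine.Point.some x₁ y₁ h₁ : (W.baseChange ℚbar).toAffine.Point)) =
          Affine.Point.some (σ x₁) (σ y₁) (hns σ) := fun σ => rfl
    rw [hσP₁ g, hσP₁ g'] at h
    simp only [Affine.Point.some.injEq] at h
    exact h
  rcases le_total (A.valuation (τ x₁ - x₁)) (A.valuation (τ y₁ - y₁)) with hle | hle
  · refine ⟨y₁, hy₁, fun g g' hg hg' hgP => (hstab g g' hg hg' hgP).2, ?_⟩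
    rwa [hM, max_eq_right hle] at hb
  · refine ⟨x₁, hx₁, fun g g' hg hg' hgP => (hstab g g' hg hg' hgP).1, ?_⟩
    rwa [hM, max_eq_left hle] at hb

/-- the stabiliser form of `S40WG_depth`: `z` is fixed by every `σ` of the inertia group with
`σ P = P`. -/
theorem S40WG_depth_stab (hp : p.Prime) (hp2 : p ≠ 2) (hA : A.LiesOverPrime p)
    (hgood : ¬ (p : ℤ) ∣ W.Δ) (hchord : S40WG_Chord W A)
    (τ : GQ) (hτ : τ ∈ A.inertiaSubgroupIn ℚ)
    (P : (W.baseChange ℚbar).toAffine.Point) (hP : p • P = 0) (hτP : τ • P ≠ P) :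
    ∃ z : ℚbar, z ∈ A ∧ (∀ σ : GQ, σ ∈ A.inertiaSubgroupIn ℚ → σ • P = P → σ z = z) ∧
      A.valuation (p : ℚbar) ≤ A.valuation (τ z - z) ^ (p - 1) := by
  obtain ⟨z, hz, hgg, hb⟩ := S40WG_depth W A hp hp2 hA hgood hchord τ hτ P hP hτP
  refine ⟨z, hz, fun σ hσ hσP => ?_, hb⟩
  have h1 : (1 : GQ) ∈ A.inertiaSubgroupIn ℚ := one_mem _
  have := hgg σ 1 hσ h1 (by rw [hσP, S41NE_gsmul_one])
  simpa using this

end Fermat.Agent.S40
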