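import Mathlib
import Fermat.Agent.S40.WGlue
import Fermat.Agent.S40.F1c

/-!
# TRACK 13 (S40), W-side glue, unconditional form (helper28).  Prefix `S40WG_`.

* `S40WG_chord_holds` : the chord property `S40WG_Chord W A` at a good prime, from helper7's
  `S40Fc_chord_good` (package W-C).
* **`S40WG_depth_good`** : for `τ` in the inertia group at a good odd prime `p` and `P ∈ W[p]`
  with `τ P ≠ P` there is an integral `z` with `g z = g' z` whenever `g P = g' P`
  (`g, g'` in the inertia group) and `v(p) ≤ v(τ z − z) ^ (p − 1)`.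
* `S40WG_depth_good_stab` : the stabiliser form.
-/

set_option autoImplicit false
set_option linter.unusedSectionVars false
set_option linter.unusedVariables false
set_option linter.style.haveILetI false

open scoped Pointwise

namespace Fermat.Agent.S40

open WeierstrassCurve Fermat.Agent.Lib Fermat.Agent.S05 Fermat.Agent.S51 Fermat.Agent.S18
  Fermat.Agent.GalRep Fermat.Agent.S41 Fermat.Agent.S58 Fermat.Agent.S13

local notation "ℚbar" => AlgebraicClosure ℚ

variable (W : WeierstrassCurve ℤ) {p : ℕ} (A : ValuationSubring ℚbar)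

/-- the discriminant is a unit of `A` at a good prime. -/
theorem S40WG_Δ_unit (hp : p.Prime) (hA : A.LiesOverPrime p) (hgood : ¬ (p : ℤ) ∣ W.Δ) :
    (W.baseChange ℚbar).toAffine.Δ ∉ A.nonunits := by
  intro h
  apply hgood
  apply S41NE_dvd_of_intCast_mem_nonunits A hp hA
  have h1 : (W.baseChange ℚbar).toAffine.Δ = algebraMap ℤ ℚbar W.Δ := by
    show (W.map (algebraMap ℤ ℚbar)).Δ = _
    rw [WeierstrassCurve.map_Δ]
  rw [h1, eq_intCast] at h
  exact h

/-- **the chord property holds at a good prime** (package W-C, `S40Fc_chord_good`). -/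
theorem S40WG_chord_holds (hp : p.Prime) (hA : A.LiesOverPrime p) (hgood : ¬ (p : ℤ) ∣ W.Δ) :
    S40WG_Chord W A := by
  classical
  intro τ hτ x y h hx hne hneg
  have hW := S41NE_integral W A
  have hy : y ∈ A := S05_y_mem A hW.a₁ hW.a₂ hW.a₃ hW.a₄ hW.a₆ h.1 hx
  have hns : (W.baseChange ℚbar).toAffine.Nonsingular (τ x) (τ y) :=
    (WeierstrassCurve.Affine.baseChange_nonsingular (W := W.toAffine)
      (f := τ.toAlgHom) τ.injective x y).mpr h
  have hτP : (τ • (Affine.Point.some x y h : (W.baseChange ℚbar).toAffine.Point)) =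
      Affine.Point.some (τ x) (τ y) hns := rfl
  have hτx : τ x ∈ A := S05_inertia_mem A hτ hx
  have hxx : τ x - x ∈ A.nonunits := S05_inertia_sub_mem_nonunits A hτ hx
  have hyy : τ y - y ∈ A.nonunits := S05_inertia_sub_mem_nonunits A hτ hy
  have hxe : τ x ≠ x := by
    intro hxe
    have h1 : S51_c_IsX (τ • (Affine.Point.some x y h : (W.baseChange ℚbar).toAffine.Point))
        x := by
      rw [hτP]
      have h0 : ∀ (Pt : (W.baseChange ℚbar).toAffine.Point) (a : ℚbar),
          S51_c_IsX Pt a → a = x → S51_c_IsX Pt x := fun Pt a ha e => e ▸ ha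
      exact h0 _ (τ x) ⟨τ y, hns, rfl⟩ hxe
    have h2 : S51_c_IsX (Affine.Point.some x y h : (W.baseChange ℚbar).toAffine.Point) x :=
      ⟨y, h, rfl⟩
    rcases h1.eq_or_eq_neg h2 with h3 | h3
    · exact hne h3
    · exact hneg h3
  obtain ⟨xQ, hxQ, -, hmax⟩ :=
    S40Fc_chord_good A hW (S40WG_Δ_unit W A hp hA hgood) h hns hx hτx hxx hyy hxe
  refine ⟨xQ, ?_, hmax⟩
  rw [hτP]
  exact hxQ

/-- **W-glue (a) + (b) + (c), unconditional**. -/
theorem S40WG_depth_good (hp : p.Prime) (hp2 : p ≠ 2) (hA : A.LiesOverPrime p)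
    (hgood : ¬ (p : ℤ) ∣ W.Δ) (τ : GQ) (hτ : τ ∈ A.inertiaSubgroupIn ℚ)
    (P : (W.baseChange ℚbar).toAffine.Point) (hP : p • P = 0) (hτP : τ • P ≠ P) :
    ∃ z : ℚbar, z ∈ A ∧
      (∀ g g' : GQ, g ∈ A.inertiaSubgroupIn ℚ → g' ∈ A.inertiaSubgroupIn ℚ →
        g • P = g' • P → g z = g' z) ∧
      A.valuation (p : ℚbar) ≤ A.valuation (τ z - z) ^ (p - 1) :=
  S40WG_depth W A hp hp2 hA hgood (S40WG_chord_holds W A hp hA hgood) τ hτ P hP hτP

/-- the stabiliser form of `S40WG_depth_good`. -/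
theorem S40WG_depth_good_stab (hp : p.Prime) (hp2 : p ≠ 2) (hA : A.LiesOverPrime p)
    (hgood : ¬ (p : ℤ) ∣ W.Δ) (τ : GQ) (hτ : τ ∈ A.inertiaSubgroupIn ℚ)
    (P : (W.baseChange ℚbar).toAffine.Point) (hP : p • P = 0) (hτP : τ • P ≠ P) :
    ∃ z : ℚbar, z ∈ A ∧ (∀ σ : GQ, σ ∈ A.inertiaSubgroupIn ℚ → σ • P = P → σ z = z) ∧
      A.valuation (p : ℚbar) ≤ A.valuation (τ z - z) ^ (p - 1) :=
  S40WG_depth_stab W A hp hp2 hA hgood (S40WG_chord_holds W A hp hA hgood) τ hτ P hP hτP

end Fermat.Agent.S40
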