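import Mathlib
import Fermat.Agent.S58.HresAbs

/-!
# TRACK 13 (S40), package W-PEU, abstract group theory of CASE B (helper24) — prefix `S40WP_`

`G` acts (raw action `act`) additively on a group `X` of exponent `p` and order `p²`; `H ≤ G` is a
subgroup all of whose elements act unipotently (`(h − 1)² = 0`).

* `S40WP_unip_of_rel` : a quadratic relation `g² − t g + d = 0` with `d ≡ 1 mod p` and a nonzero
  fixed vector give `(g − 1)² = 0`;
* `S40WP_fix_mem`     : if `h` moves some vector and fixes `Q ≠ 0`, every fixed vector of `h` is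
  a multiple `n • Q`;
* **`S40WP_cyclic`**  : if `τ ∈ H` moves some vector, then every `h ∈ H` acts on `X` as a power
  `τ ^ a` (the image of `H` in `Aut X` is cyclic, generated by `τ`);
* `S40WP_pow_ne`      : `τ ^ m` (`p ∤ m`) moves every vector moved by `τ`.
-/

set_option autoImplicit false
set_option linter.unusedVariables false
set_option linter.unusedSectionVars false
set_option linter.style.haveILetI false

namespace Fermat.Agent.S40

open Fermat.Agent.S58

section abstract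

variable {G : Type*} [Group G] {X : Type*} [AddCommGroup X]
  (act : G → X → X)
  (h1 : ∀ x, act 1 x = x) (hmul : ∀ g h x, act (g * h) x = act g (act h x))
  (hadd : ∀ g x y, act g (x + y) = act g x + act g y)

/-- a quadratic relation with `d ≡ 1` and a nonzero fixed vector give the unipotent relation. -/
theorem S40WP_unip_of_rel (p : ℕ) [Fact p.Prime] (hXp : ∀ x : X, p • x = 0) (g : G) (t d : ℤ)
    (hd : (p : ℤ) ∣ d - 1)
    (hrel : ∀ x, act g (act g x) - t • act g x + d • x = 0)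
    (w : X) (hw0 : w ≠ 0) (hw : act g w = w) (x : X) :
    act g (act g x) - (2 : ℤ) • act g x + x = 0 := by
  have e := hrel w
  rw [hw, hw] at e
  have e1 : (1 - t + d) • w = 0 := by
    rw [add_smul, sub_smul, one_smul]
    exact e
  have ht : (p : ℤ) ∣ 1 - t + d := by
    by_contra hnd
    exact hw0 (S58H_zsmul_eq_zero p hXp hnd e1)
  have ht2 : (p : ℤ) ∣ t - 2 := by
    have e2 : t - 2 = (d - 1) - (1 - t + d) := by ring
    rw [e2]
    exact dvd_sub hd ht
  have e3 := hrel x
  rw [S58H_zsmul_congr p hXp ht2 (act g x), S58H_zsmul_congr p hXp hd x, one_smul] at e3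
  exact e3

include hadd in
/-- the fixed vectors of an element moving some vector are the multiples of any nonzero fixed
vector. -/
theorem S40WP_fix_mem (p : ℕ) [Fact p.Prime] (hXp : ∀ x : X, p • x = 0)
    (hcard : Nat.card X = p ^ 2) (h : G) (Q : X) (hQ0 : Q ≠ 0) (hQ : act h Q = Q)
    (x₁ : X) (hx₁ : act h x₁ ≠ x₁) (R : X) (hR : act h R = R) :
    ∃ n : ℕ, R = n • Q := by
  classical
  have hp : p.Prime := Fact.out
  haveI : Finite X := Nat.finite_of_card_ne_zero (by rw [hcard]; exact pow_ne_zero 2 hp.ne_zero)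
  set Y : AddSubgroup X :=
    { carrier := {x | act h x = x}
      zero_mem' := S58H_act_zero act hadd h
      add_mem' := fun {a b} ha hb => by
        show act h (a + b) = a + b
        rw [hadd, ha, hb]
      neg_mem' := fun {a} ha => by
        show act h (-a) = -a
        rw [S58H_act_neg act hadd, ha] } with hY
  have hQY : Q ∈ Y := hQ
  have hRY : R ∈ Y := hR
  have hx₁Y : x₁ ∉ Y := hx₁
  have hZle : AddSubgroup.zmultiples Q ≤ Y := by
    rw [AddSubgroup.zmultiples_le]
    exact hQY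
  have hordQ : addOrderOf Q = p := addOrderOf_eq_prime (hXp Q) hQ0
  have hcardZ : Nat.card (AddSubgroup.zmultiples Q) = p := by
    rw [Nat.card_zmultiples, hordQ]
  have hdvd : Nat.card Y ∣ p ^ 2 := by
    rw [← hcard]
    exact AddSubgroup.card_addSubgroup_dvd_card Y
  obtain ⟨k, hk2, hk⟩ := (Nat.dvd_prime_pow hp).1 hdvd
  have hpY : p ∣ Nat.card Y := by
    rw [← hcardZ]
    exact AddSubgroup.card_dvd_of_le hZle
  have hk0 : k ≠ 0 := by
    rintro rfl
    rw [pow_zero] at hk
    rw [hk] at hpY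
    exact hp.one_lt.ne' (Nat.dvd_one.1 hpY)
  have hk2' : k ≠ 2 := by
    rintro rfl
    have htop : Y = ⊤ := by
      apply (AddSubgroup.card_eq_iff_eq_top Y).1
      rw [hk, hcard]
    exact hx₁Y (htop ▸ AddSubgroup.mem_top x₁)
  have hk1 : k = 1 := by omega
  rw [hk1, pow_one] at hk
  have hZY : AddSubgroup.zmultiples Q = Y :=
    AddSubgroup.eq_of_le_of_card_ge hZle (by rw [hk, hcardZ])
  have hRZ : R ∈ AddSubgroup.zmultiples Q := hZY ▸ hRY
  obtain ⟨m, hm⟩ := AddSubgroup.mem_zmultiples_iff.1 hRZ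
  refine ⟨(m % (p : ℤ)).toNat, ?_⟩
  have hnn : 0 ≤ m % (p : ℤ) := Int.emod_nonneg m (by exact_mod_cast hp.ne_zero)
  have e1 : ((m % (p : ℤ)).toNat : ℤ) = m % (p : ℤ) := Int.toNat_of_nonneg hnn
  rw [← hm, ← natCast_zsmul, e1]
  refine S58H_zsmul_congr p hXp ?_ Q
  have e2 : m - m % (p : ℤ) = (p : ℤ) * (m / (p : ℤ)) := by
    have := Int.emod_add_mul_ediv m (p : ℤ)
    linarith
  rw [e2]
  exact dvd_mul_right _ _

include h1 hmul hadd in
/-- **the image of `H` is cyclic**: if all elements of `H` act unipotently on `X` (exponent `p`,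
order `p²`) and `τ ∈ H` moves some vector, then every `h ∈ H` acts as a power of `τ`. -/
theorem S40WP_cyclic (p : ℕ) [Fact p.Prime] (hXp : ∀ x : X, p • x = 0)
    (hcard : Nat.card X = p ^ 2) (H : Subgroup G)
    (hu : ∀ h ∈ H, ∀ x, act h (act h x) - (2 : ℤ) • act h x + x = 0)
    (τ : G) (hτ : τ ∈ H) (x₁ : X) (hx₁ : act τ x₁ ≠ x₁) (h : G) (hh : h ∈ H) :
    ∃ a : ℕ, ∀ x, act h x = act (τ ^ a) x := by
  classical
  have hp : p.Prime := Fact.out
  -- fixedness of differences
  have hfixd : ∀ g ∈ H, ∀ x, act g (act g x - x) = act g x - x := by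
    intro g hg x
    rw [S58H_act_sub act hadd]
    have := hu g hg x
    have e : act g (act g x) = (2 : ℤ) • act g x - x := by
      rw [← sub_eq_zero, ← this]
      abel
    rw [e, two_zsmul]
    abel
  -- Kolchin
  obtain ⟨x₀, hx₀, hx₀fix⟩ := S58H_exists_fixed act h1 hmul hadd p hXp hcard H hu
  set Q : X := act τ x₁ - x₁ with hQ
  have hQ0 : Q ≠ 0 := fun h0 => hx₁ (sub_eq_zero.1 h0)
  have hτQ : act τ Q = Q := hfixd τ hτ x₁
  -- `Q` is a multiple of `x₀`, hence fixed by `H`
  obtain ⟨n₀, hn₀⟩ := S40WP_fix_mem act hadd p hXp hcard τ x₀ hx₀ (hx₀fix τ hτ) x₁ hx₁ Q hτQ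
  have hHQ : ∀ g ∈ H, act g Q = Q := by
    intro g hg
    rw [hn₀, S58H_act_nsmul act hadd, hx₀fix g hg]
  -- every vector is `m x₁ + n Q`
  have hspan : ∀ x : X, ∃ m n : ℕ, x = m • x₁ + n • Q := by
    intro x
    obtain ⟨m, hm⟩ := S40WP_fix_mem act hadd p hXp hcard τ Q hQ0 hτQ x₁ hx₁ (act τ x - x)
      (hfixd τ hτ x)
    have hfix2 : act τ (x - m • x₁) = x - m • x₁ := by
      rw [S58H_act_sub act hadd, S58H_act_nsmul act hadd]
      have e1 : act τ x = x + m • Q := by rw [← hm]; abel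
      have e2 : act τ x₁ = x₁ + Q := by rw [hQ]; abel
      rw [e1, e2, nsmul_add]
      abel
    obtain ⟨n, hn⟩ := S40WP_fix_mem act hadd p hXp hcard τ Q hQ0 hτQ x₁ hx₁ (x - m • x₁) hfix2
    exact ⟨m, n, by rw [← hn]; abel⟩
  -- the exponent
  obtain ⟨a, ha⟩ : ∃ a : ℕ, act h x₁ - x₁ = a • Q := by
    by_cases htriv : act h x₁ = x₁
    · exact ⟨0, by rw [htriv, sub_self, zero_smul]⟩
    · exact S40WP_fix_mem act hadd p hXp hcard h Q hQ0 (hHQ h hh) x₁ htriv _ (hfixd h hh x₁)
  refine ⟨a, fun x => ?_⟩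
  have hτa : ∀ y, act (τ ^ a) y = y + a • (act τ y - y) :=
    fun y => S58H_pow_act_eq act h1 hmul hadd τ (hu τ hτ) a y
  obtain ⟨m, n, rfl⟩ := hspan x
  have e1 : act h x₁ = x₁ + a • Q := by rw [← ha]; abel
  have e2 : act (τ ^ a) x₁ = x₁ + a • Q := by rw [hτa x₁]
  have e3 : act (τ ^ a) Q = Q := by rw [hτa Q, hτQ, sub_self, smul_zero, add_zero]
  rw [hadd, hadd, S58H_act_nsmul act hadd, S58H_act_nsmul act hadd, S58H_act_nsmul act hadd,
    S58H_act_nsmul act hadd, e1, e2, e3, hHQ h hh]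

include h1 hmul hadd in
/-- a power `τ ^ m`, `p ∤ m`, of a unipotent `τ` moves every vector moved by `τ`. -/
theorem S40WP_pow_ne (p : ℕ) [Fact p.Prime] (hXp : ∀ x : X, p • x = 0) (τ : G)
    (hu : ∀ x, act τ (act τ x) - (2 : ℤ) • act τ x + x = 0) (m : ℕ) (hm : ¬ p ∣ m)
    (x : X) (hx : act τ x ≠ x) : act (τ ^ m) x ≠ x := by
  intro h
  rw [S58H_pow_act_eq act h1 hmul hadd τ hu m x] at h
  have h0 : m • (act τ x - x) = 0 := by
    have := h
    rwa [add_eq_left] at this
  have h0' : (m : ℤ) • (act τ x - x) = 0 := by rw [natCast_zsmul]; exact h0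
  have hm' : ¬ (p : ℤ) ∣ (m : ℤ) := by
    intro hd
    exact hm (Int.natCast_dvd_natCast.1 hd)
  exact hx (sub_eq_zero.1 (S58H_zsmul_eq_zero p hXp hm' h0'))

end abstract

end Fermat.Agent.S40
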