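import Fermat.Agent.S40.Defs
import Fermat.Agent.S40.AlgKer
import Fermat.Agent.S40.Red
import Fermat.Agent.S40.WKum
import Fermat.Agent.S40.WGlue2
import Fermat.Agent.S40.WPeuAbs

/-!
# TRACK 13 (S40), package W-PEU: the assembly (helper24) — prefix `S40WP_`

`W / ℤ` with good reduction at the odd prime `p`, `A` a valuation ring of `ℚ̄` over `p`,
`I¹ = S40D_I1 A p` the elements of the inertia group at `A` fixing `μ_p`, `F = Fix(I¹)`.

**CASE B**: every `g ∈ I¹` has a nonzero fixed point on `W[p]`.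

* **`S40WP_invW`** : in case B, `S40D_InvW W A p`: every TRÈS ramifié Kummer generator `β`
  (`β ^ p ∈ F`, `v(β) ∉ v(F^×)`) is moved by some `g ∈ I¹` acting trivially on `W[p]`
  (`F(W[p])` contains no très Kummer generator).

* `S40WP_relW` : the relations `S40AK_RelW W p` (ALG-R, W-side) hold (FDE + Lucas + `S58R_es`).
* `S40WP_invW_of_rel` : the same with `S40AK_RelW W p` as a hypothesis.

From main: `S40WG_depth_good` (helper28 + helper7: (a) + (b) + (c)), `S40RD_main` (helper11: (d)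
over the coefficient field `F`), `S40WK_*` (helper14), `S40WP_cyclic` (group theory of case B,
`S40/WPeuAbs.lean`).

Proof.  Suppose every `g ∈ I¹` trivial on `W[p]` fixes `β`.  As `β ∉ F` there is `σ ∈ I¹` with
`σ β = ζ β`, `ζ ≠ 1`, `ζ ^ p = 1`, and `σ` moves some `P₀ ∈ W[p]`.  All elements of `I¹` are
unipotent on `W[p]` (relations + case B), so every `h ∈ I¹` acts on `W[p]` as `σ ^ a`, and then
`h β = ζ ^ a β`.  Let `z` be the integral coordinate of `S40WG_depth` for `(σ, P₀)`: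
`v(p) ≤ v(σ z − z) ^ (p − 1)`.  The Lagrange coefficients of `z` with respect to `(σ, β)` are
fixed by `I¹`, so (d) gives `v(σ z − z) < v(ζ − 1)`, and `v(ζ − 1) ^ (p − 1) = v(p)`:
a contradiction.
-/

set_option autoImplicit false
set_option linter.unusedSectionVars false
set_option linter.unusedVariables false
set_option linter.style.haveILetI false

open scoped Pointwise

namespace Fermat.Agent.S40

open WeierstrassCurve Fermat.Agent.Lib Fermat.Agent.GalRep Fermat.Agent.S41 Fermat.Agent.S58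
  Fermat.Agent.S31

local notation "ℚbar" => AlgebraicClosure ℚ

/-- the ring homomorphism underlying an element of `G_ℚ`. -/
noncomputable def S40WP_hom (σ : GQ) : ℚbar →+* ℚbar := ((σ : ℚbar →ₐ[ℚ] ℚbar) : ℚbar →+* ℚbar)

theorem S40WP_hom_apply (σ : GQ) (z : ℚbar) : S40WP_hom σ z = σ z := rfl

theorem S40WP_hom_iterate (σ : GQ) (j : ℕ) (z : ℚbar) : (S40WP_hom σ)^[j] z = (σ ^ j) z :=
  (S40WK_algEquiv_pow_apply σ j z).symm

variable (W : WeierstrassCurve ℤ) {p : ℕ} (A : ValuationSubring ℚbar)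

/-- the fixed field of `I¹`, as a subfield of `ℚ̄`. -/
noncomputable def S40WP_F (p : ℕ) : Subfield ℚbar :=
  (IntermediateField.fixedField (S40D_I1 A p)).toSubfield

theorem S40WP_mem_F {p : ℕ} {c : ℚbar} :
    c ∈ S40WP_F A p ↔ ∀ g ∈ S40D_I1 A p, g c = c := by
  show c ∈ IntermediateField.fixedField (S40D_I1 A p) ↔ _
  rw [IntermediateField.mem_fixedField_iff]

/-- **(ALG-R), W-side**: every `g ∈ G_ℚ` satisfies `g² − t g + d = 0` on `W[p]` and
`g ζ = ζ ^ d` on `μ_p` (`g` is a power of a Frobenius element on `ℚ(W[p], ζ_p)`). -/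
theorem S40WP_relW (hΔ : W.Δ ≠ 0) (hp : p.Prime) (hp2 : p ≠ 2) : S40AK_RelW W p := by
  intro g
  haveI : NeZero ((p : ℕ) : ℚ) := ⟨Nat.cast_ne_zero.2 hp.ne_zero⟩
  haveI : NeZero p := ⟨hp.ne_zero⟩
  obtain ⟨ζ, hζ⟩ := HasEnoughRootsOfUnity.exists_primitiveRoot ℚbar p
  haveI := S41NE_field_finiteDimensional W hΔ hp hp2 ζ
  obtain ⟨ℓ, σ, m, m', hℓ, hℓT', ⟨A, hA, hσ⟩, hgσ2, -⟩ :=
    S41NE_fde g (S41NE_field W p ζ) (W.Δ.natAbs.primeFactors ∪ {p})
  have hgood : ¬ (ℓ : ℤ) ∣ W.Δ := by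
    intro h
    apply hℓT'
    have h1 : ℓ ∣ W.Δ.natAbs := Int.natCast_dvd.1 h
    have h2 : ℓ ∈ W.Δ.natAbs.primeFactors :=
      Nat.mem_primeFactors.2 ⟨hℓ, h1, Int.natAbs_ne_zero.2 hΔ⟩
    simp [h2]
  have hℓp : ℓ ≠ p := fun h => hℓT' (by simp [h])
  have hℓp' : ¬ ℓ ∣ p := fun h => hℓp ((Nat.prime_dvd_prime_iff_eq hℓ hp).1 h)
  refine ⟨LUC_V (W.apOfModel ℓ) (ℓ : ℤ) m, ℓ ^ m, ?_, ?_⟩
  · intro P hP
    have hρ := S41NE_rho_eq_of_agree W p ζ g (σ ^ m) hgσ2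
    have hgP : ∀ Q : (W.baseChange ℚbar).toAffine.Point, p • Q = 0 → g • Q = (σ ^ m) • Q := by
      intro Q hQ
      exact congrArg (fun f : Equiv.Perm (S41NE_X W p) => (f (S41NE_X.mk' Q hQ)).pt) hρ
    have hgP1 : p • (g • P) = 0 := by rw [← S41NE_gsmul_nsmul, hP, S41NE_gsmul_zero]
    have hrel := S58ER_rel_pow W A hℓ hA hgood hℓp' σ hσ m P hP
    rw [hgP _ hgP1, hgP P hP, Nat.cast_pow]
    exact hrel
  · intro ζ' hζ'
    obtain ⟨j, -, rfl⟩ := hζ.eq_pow_of_pow_eq_one hζ'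
    rw [map_pow, hgσ2 ζ (S41NE_zeta_mem_field W p ζ), S58ER_zeta_pow hζ hp.pos hℓ hℓp' A hA σ hσ m,
      ← pow_mul, ← pow_mul, mul_comm]

/-- **W-PEU in the form (INV)**, with the relations as a hypothesis. -/
theorem S40WP_invW_of_rel (hΔ : W.Δ ≠ 0) (hp : p.Prime) (hp2 : p ≠ 2) (hA : A.LiesOverPrime p)
    (hgood : ¬ (p : ℤ) ∣ W.Δ) (hrel : S40AK_RelW W p)
    (hB : ∀ g ∈ S40D_I1 A p, ∃ P : (W.baseChange ℚbar).toAffine.Point,
      P ≠ 0 ∧ p • P = 0 ∧ g • P = P) :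
    S40D_InvW W A p := by
  classical
  haveI : Fact p.Prime := ⟨hp⟩
  rintro β ⟨hβ0, hβp, hβv⟩
  by_contra hcon
  push Not at hcon
  -- Step 1: `σ ∈ I¹` moving `β`
  obtain ⟨σ, hσ, hσβ⟩ : ∃ σ ∈ S40D_I1 A p, σ β ≠ β := by
    by_contra h
    push Not at h
    exact hβv β h hβ0 rfl
  obtain ⟨P₀, hP₀, hσP₀⟩ : ∃ P₀ : (W.baseChange ℚbar).toAffine.Point,
      p • P₀ = 0 ∧ σ • P₀ ≠ P₀ := by
    by_contra h
    push Not at h
    exact hσβ (hcon σ hσ h)
  set ζ : ℚbar := σ β / β with hζdef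
  have hζp : ζ ^ p = 1 := by
    rw [hζdef, div_pow, ← map_pow, hβp σ hσ, div_self (pow_ne_zero _ hβ0)]
  have hζ1 : ζ ≠ 1 := by
    intro h
    rw [hζdef, div_eq_one_iff_eq hβ0] at h
    exact hσβ h
  have hσβ' : σ β = ζ * β := by
    rw [hζdef, div_mul_cancel₀ _ hβ0]
  have hprim : IsPrimitiveRoot ζ p := S40WK_isPrimitiveRoot hp hζp hζ1
  have hζ0 : ζ ≠ 0 := S40WK_zeta_ne_zero hp hζp
  have hI1ζ : ∀ h ∈ S40D_I1 A p, h ζ = ζ := fun h hh => hh.2 ζ hζp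
  -- the action on `X = W[p]`
  set act : GQ → S58ER_K W p → S58ER_K W p := fun g x => (S58ER_F W p g) x with hact
  have hact1 : ∀ x, act 1 x = x := fun x => Subtype.ext (S41NE_gsmul_one W x.1)
  have hactmul : ∀ g h x, act (g * h) x = act g (act h x) :=
    fun g h x => Subtype.ext (S41NE_gsmul_mul W g h x.1)
  have hactadd : ∀ g x y, act g (x + y) = act g x + act g y :=
    fun g x y => map_add (S58ER_F W p g) x y
  have hXp : ∀ x : S58ER_K W p, p • x = 0 :=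
    fun x => Subtype.ext ((S58ER_mem_K W p x.1).1 x.2)
  have hcard : Nat.card (S58ER_K W p) = p ^ 2 := S41NE_card_X W hΔ hp hp2
  -- Step 2: unipotency
  have hunip : ∀ h ∈ S40D_I1 A p, ∀ x : S58ER_K W p,
      act h (act h x) - (2 : ℤ) • act h x + x = 0 := by
    intro h hh x
    obtain ⟨t, d, hrelh, hζd⟩ := hrel h
    have hd : (p : ℤ) ∣ (d : ℤ) - 1 := by
      have h1 : ζ ^ d = ζ := by rw [← hζd ζ hζp, hI1ζ h hh]
      apply (hprim.zpow_eq_one_iff_dvd _).1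
      rw [zpow_sub₀ hζ0, zpow_natCast, zpow_one, h1, div_self hζ0]
    obtain ⟨P, hP0, hpP, hhP⟩ := hB h hh
    refine S40WP_unip_of_rel act p hXp h t (d : ℤ) hd (fun y => ?_)
      ⟨P, (S58ER_mem_K W p P).2 hpP⟩ (fun h0 => hP0 (congrArg Subtype.val h0))
      (Subtype.ext hhP) x
    apply Subtype.ext
    rw [AddSubgroup.coe_add, AddSubgroup.coe_sub, AddSubgroup.coe_zsmul, AddSubgroup.coe_zsmul]
    exact hrelh y.1 ((S58ER_mem_K W p y.1).1 y.2)
  -- the image of `I¹` is generated by `σ`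
  have hcyc : ∀ h ∈ S40D_I1 A p, ∃ a : ℕ,
      ∀ P : (W.baseChange ℚbar).toAffine.Point, p • P = 0 → h • P = (σ ^ a) • P := by
    intro h hh
    obtain ⟨a, ha⟩ := S40WP_cyclic act hact1 hactmul hactadd p hXp hcard (S40D_I1 A p) hunip
      σ hσ ⟨P₀, (S58ER_mem_K W p P₀).2 hP₀⟩ (fun h0 => hσP₀ (congrArg Subtype.val h0)) h hh
    refine ⟨a, fun P hP => ?_⟩
    exact congrArg Subtype.val (ha ⟨P, (S58ER_mem_K W p P).2 hP⟩)
  -- powers of `σ` on `β`
  have hσpowβ : ∀ a : ℕ, (σ ^ a) β = ζ ^ a * β := by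
    intro a
    induction a with
    | zero => simp
    | succ a ih =>
      rw [pow_succ', AlgEquiv.mul_apply, ih, map_mul, map_pow, hI1ζ σ hσ, hσβ', pow_succ]
      ring
  -- every `h ∈ I¹` acts on `β` through the same exponent
  have hhβ : ∀ h ∈ S40D_I1 A p, ∀ a : ℕ,
      (∀ P : (W.baseChange ℚbar).toAffine.Point, p • P = 0 → h • P = (σ ^ a) • P) →
      h β = ζ ^ a * β := by
    intro h hh a ha
    have hmem : (σ ^ a)⁻¹ * h ∈ S40D_I1 A p :=
      mul_mem (inv_mem (pow_mem hσ a)) hh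
    have htriv : ∀ P : (W.baseChange ℚbar).toAffine.Point, p • P = 0 →
        ((σ ^ a)⁻¹ * h) • P = P := by
      intro P hP
      rw [S41NE_gsmul_mul, ha P hP, ← S41NE_gsmul_mul, inv_mul_cancel, S41NE_gsmul_one]
    have h1 := hcon _ hmem htriv
    rw [AlgEquiv.mul_apply] at h1
    have h2 : (σ ^ a) ((σ ^ a)⁻¹ (h β)) = (σ ^ a) β := congrArg (σ ^ a) h1
    rw [← AlgEquiv.mul_apply, mul_inv_cancel, AlgEquiv.one_apply] at h2
    rw [h2, hσpowβ]
  -- Step 3: the coordinate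
  obtain ⟨z, hzA, hzgg, hdepth⟩ :=
    S40WG_depth_good W A hp hp2 hA hgood σ hσ.1 P₀ hP₀ hσP₀
  have hσpowP : ∀ k : ℕ, p • ((σ ^ k) • P₀) = 0 := by
    intro k
    rw [← S41NE_gsmul_nsmul, hP₀, S41NE_gsmul_zero]
  have hσp : (σ ^ p) • P₀ = P₀ := by
    have := S58H_pow_act act hact1 hactmul hactadd p hXp σ (hunip σ hσ)
      ⟨P₀, (S58ER_mem_K W p P₀).2 hP₀⟩
    exact congrArg Subtype.val this
  set s : ℚbar →+* ℚbar := S40WP_hom σ with hs
  have hsz : s^[p] z = z := by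
    rw [hs, S40WP_hom_iterate]
    have := hzgg (σ ^ p) 1 (pow_mem hσ.1 p) (one_mem _) (by rw [hσp, S41NE_gsmul_one])
    simpa using this
  have hsζ : s ζ = ζ := hI1ζ σ hσ
  have hsβ : s β = ζ * β := hσβ'
  have hpΩ : ((p : ℕ) : ℚbar) ≠ 0 := Nat.cast_ne_zero.2 hp.ne_zero
  -- the coefficients lie in `F`
  have hcoef : ∀ i, i < p → S40RD_coef s p ζ β z i ∈ S40WP_F A p := by
    intro i _
    rw [S40WP_mem_F]
    intro h hh
    obtain ⟨a, ha⟩ := hcyc h hh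
    have hgz : ∀ k : ℕ, (S40WP_hom h) (s^[k] z) = s^[a + k] z := by
      intro k
      rw [hs, S40WP_hom_iterate, S40WP_hom_iterate, S40WP_hom_apply]
      have h1 : (h * σ ^ k) • P₀ = (σ ^ (a + k)) • P₀ := by
        rw [S41NE_gsmul_mul, ha _ (hσpowP k), ← S41NE_gsmul_mul, ← pow_add]
      have h2 := hzgg (h * σ ^ k) (σ ^ (a + k)) (mul_mem hh.1 (pow_mem hσ.1 k))
        (pow_mem hσ.1 (a + k)) h1
      rwa [AlgEquiv.mul_apply] at h2
    exact S40RD_coef_fixed_of s (S40WP_hom h) hp.pos hζp (hI1ζ h hh) hβ0 hsz a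
      (hhβ h hh a ha) hgz i
  -- the distinctness hypothesis
  have hβpF : β ^ p ∈ S40WP_F A p := (S40WP_mem_F A).2 hβp
  have hv : ∀ c ∈ S40WP_F A p, c ≠ 0 → A.valuation (c * β) ≠ 1 := by
    intro c hc hc0 h1
    have hc' : c⁻¹ ∈ S40WP_F A p := (S40WP_F A p).inv_mem hc
    refine hβv c⁻¹ ((S40WP_mem_F A).1 hc') (inv_ne_zero hc0) ?_
    rw [map_mul] at h1
    rw [map_inv₀]
    exact eq_inv_of_mul_eq_one_right h1
  have hdist := S40RD_dist A (S40WP_F A p) hp hβ0 hβpF hv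
  obtain ⟨m, hm, hmz⟩ := S40RD_main A (S40WP_F A p) s hp hprim hsζ hsβ hβ0 hpΩ hsz hzA hcoef hdist
  -- the contradiction
  have hlt : A.valuation (σ z - z) < A.valuation (ζ - 1) := by
    have e : σ z - z = (ζ - 1) * m := hmz
    rw [e, map_mul]
    have hpos : 0 < A.valuation (ζ - 1) :=
      zero_lt_iff.2 ((Valuation.ne_zero_iff _).2 (sub_ne_zero.2 hζ1))
    calc A.valuation (ζ - 1) * A.valuation m < A.valuation (ζ - 1) * 1 :=
          mul_lt_mul_of_pos_left hm hpos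
      _ = A.valuation (ζ - 1) := mul_one _
  exact S40WK_not_lt A hp hζp hζ1 hdepth hlt

/-- **W-PEU in the form (INV)**: in case B (every `g ∈ I¹` has a nonzero fixed point on
`W[p]`), no très ramifié Kummer generator lies in `F(W[p])`. -/
theorem S40WP_invW (hΔ : W.Δ ≠ 0) (hp : p.Prime) (hp2 : p ≠ 2) (hA : A.LiesOverPrime p)
    (hgood : ¬ (p : ℤ) ∣ W.Δ)
    (hB : ∀ g ∈ S40D_I1 A p, ∃ P : (W.baseChange ℚbar).toAffine.Point,
      P ≠ 0 ∧ p • P = 0 ∧ g • P = P) :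
    S40D_InvW W A p :=
  S40WP_invW_of_rel W A hΔ hp hp2 hA hgood (S40WP_relW W hΔ hp hp2) hB

/-- the same with case B stated for the whole inertia group. -/
theorem S40WP_invW' (hΔ : W.Δ ≠ 0) (hp : p.Prime) (hp2 : p ≠ 2) (hA : A.LiesOverPrime p)
    (hgood : ¬ (p : ℤ) ∣ W.Δ)
    (hB : ∀ g ∈ A.inertiaSubgroupIn ℚ, ∃ P : (W.baseChange ℚbar).toAffine.Point,
      P ≠ 0 ∧ p • P = 0 ∧ g • P = P) :
    S40D_InvW W A p :=
  S40WP_invW W A hΔ hp hp2 hA hgood (fun g hg => hB g hg.1)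

end Fermat.Agent.S40
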