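import Mathlib
import Fermat.Agent.S40.WPeu
import Fermat.Agent.S40.DefsJ2
import Fermat.Agent.S40.F2Desc
import Fermat.Agent.S40.F2Break

/-!
# TRACK 13 (S40 / S44, row 38), (F2'): the GROUP FACTS at the top of (F2-OUT) (helper23).
Prefix `S40F2G_`.

`W / ℤ`, `p` an odd prime, `A` a valuation ring of `ℚ̄` over `p`, `I¹ = S40D_I1 A p`,
`V ≤ J₀(N)` a subgroup with (ALG-K) `S40D_Ker W p N V`, CASE B on `W[p]`.

* `S40F2G_cycW` : (W-side) if `σ ∈ I¹` moves a point of `W[p]`, every `h ∈ I¹` acts on `W[p]` as a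
  power of `σ`, and `σ ^ p = 1` on `W[p]` (relations + case B + `S40WP_cyclic`);
* `S40F2G_cyc`  : (J-side) if `σ ∈ I¹` moves a point of `V`, every `g ∈ I¹` acts on `V` as a power
  of `σ`, and `σ ^ p = 1` on `V`  (= `hcyc`, `hσp` of `S40F2D_kummer`);
* `S40F2G_H A p V` : the stabiliser of `V` in `I¹`, as a `Subgroup`;
* `S40F2G_H_le`, `S40F2G_dec`, `S40F2G_conj`, `S40F2G_norm`, `S40F2G_pow_mem` :
  the hypotheses `hHI`, `hdec`, `hconj`, `hnorm`, `hσp` of `S40F2B_main` / `S40F2ABI_V1`;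
* **`S40F2G_main`** : all of them together with the OUTPUT of `S40F2B_main`
  (`π, c, r, t`: the break datum of `L = Fix(H)` over `F = Fix(I¹)`) under (INV) on `V`.
-/

set_option autoImplicit false
set_option linter.unusedSectionVars false
set_option linter.unusedVariables false
set_option linter.style.haveILetI false
set_option synthInstance.maxHeartbeats 400000
set_option maxHeartbeats 1000000

open scoped Pointwise
open AlgebraicCurve ModularCurve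

noncomputable section

namespace Fermat.Agent.S40

open WeierstrassCurve Fermat.Agent.Lib Fermat.Agent.GalRep Fermat.Agent.S41 Fermat.Agent.S58
  Fermat.Agent.S31 Fermat.Agent.S33 Fermat.Agent.S36 Fermat.Agent.S24

local notation "ℚbar" => AlgebraicClosure ℚ
local notation "GQ" => (AlgebraicClosure ℚ ≃ₐ[ℚ] AlgebraicClosure ℚ)

section Wside

variable (W : WeierstrassCurve ℤ) {p : ℕ} (A : ValuationSubring ℚbar)

/-- **W-side**: in case B, if `σ ∈ I¹` moves a point of `W[p]`, then every `h ∈ I¹` acts on `W[p]`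
as a power of `σ`, and `σ ^ p` is trivial on `W[p]`. -/
theorem S40F2G_cycW (hΔ : W.Δ ≠ 0) (hp : p.Prime) (hp2 : p ≠ 2)
    (hB : ∀ g ∈ S40D_I1 A p, ∃ P : (W.baseChange ℚbar).toAffine.Point,
      P ≠ 0 ∧ p • P = 0 ∧ g • P = P)
    (σ : GQ) (hσ : σ ∈ S40D_I1 A p) (P₀ : (W.baseChange ℚbar).toAffine.Point)
    (hP₀ : p • P₀ = 0) (hσP₀ : σ • P₀ ≠ P₀) :
    (∀ h ∈ S40D_I1 A p, ∃ a : ℕ,
      ∀ P : (W.baseChange ℚbar).toAffine.Point, p • P = 0 → h • P = (σ ^ a) • P) ∧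
    (∀ P : (W.baseChange ℚbar).toAffine.Point, p • P = 0 → (σ ^ p) • P = P) := by
  classical
  haveI : Fact p.Prime := ⟨hp⟩
  haveI : NeZero p := ⟨hp.ne_zero⟩
  obtain ⟨ζ, hprim⟩ := HasEnoughRootsOfUnity.exists_primitiveRoot ℚbar p
  have hζp : ζ ^ p = 1 := hprim.pow_eq_one
  have hζ0 : ζ ≠ 0 := hprim.ne_zero hp.ne_zero
  have hI1ζ : ∀ h ∈ S40D_I1 A p, h ζ = ζ := fun h hh => hh.2 ζ hζp
  have hrel := S40WP_relW W hΔ hp hp2
  -- the action on `X = W[p]`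
  set act : GQ → S58ER_K W p → S58ER_K W p := fun g x => (S58ER_F W p g) x with hact
  have hact1 : ∀ x, act 1 x = x := fun x => Subtype.ext (S41NE_gsmul_one W x.1)
  have hactmul : ∀ g h x, act (g * h) x = act g (act h x) :=
    fun g h x => Subtype.ext (S41NE_gsmul_mul W g h x.1)
  have hactadd : ∀ g x y, act g (x + y) = act g x + act g y :=
    fun g x y => map_add (S58ER_F W p g) x y
  have hXp : ∀ x : S58ER_K W p, p • x = 0 :=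
    fun x => Subtype.ext ((S58ER_mem_K W p x.1).1 x.2)
  have hcard : Nat.card (S58ER_K W p) = p ^ 2 := S41NE_card_X W hΔ hp hp2
  -- unipotency
  have hunip : ∀ h ∈ S40D_I1 A p, ∀ x : S58ER_K W p,
      act h (act h x) - (2 : ℤ) • act h x + x = 0 := by
    intro h hh x
    obtain ⟨t, d, hrelh, hζd⟩ := hrel h
    have hd : (p : ℤ) ∣ (d : ℤ) - 1 := by
      have h1 : ζ ^ d = ζ := by rw [← hζd ζ hζp, hI1ζ h hh]
      apply (hprim.zpow_eq_one_iff_dvd _).1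
      rw [zpow_sub₀ hζ0, zpow_natCast, zpow_one, h1, div_self hζ0]
    obtain ⟨P, hP0, hpP, hhP⟩ := hB h hh
    refine S40WP_unip_of_rel act p hXp h t (d : ℤ) hd (fun y => ?_)
      ⟨P, (S58ER_mem_K W p P).2 hpP⟩ (fun h0 => hP0 (congrArg Subtype.val h0))
      (Subtype.ext hhP) x
    apply Subtype.ext
    rw [AddSubgroup.coe_add, AddSubgroup.coe_sub, AddSubgroup.coe_zsmul, AddSubgroup.coe_zsmul]
    exact hrelh y.1 ((S58ER_mem_K W p y.1).1 y.2)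
  refine ⟨fun h hh => ?_, fun P hP => ?_⟩
  · obtain ⟨a, ha⟩ := S40WP_cyclic act hact1 hactmul hactadd p hXp hcard (S40D_I1 A p) hunip
      σ hσ ⟨P₀, (S58ER_mem_K W p P₀).2 hP₀⟩ (fun h0 => hσP₀ (congrArg Subtype.val h0)) h hh
    refine ⟨a, fun P hP => ?_⟩
    exact congrArg Subtype.val (ha ⟨P, (S58ER_mem_K W p P).2 hP⟩)
  · have := S58H_pow_act act hact1 hactmul hactadd p hXp σ (hunip σ hσ)
      ⟨P, (S58ER_mem_K W p P).2 hP⟩
    exact congrArg Subtype.val this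

end Wside

section Jside

variable (W : WeierstrassCurve ℤ) {p : ℕ} (A : ValuationSubring ℚbar) {N : ℕ} [NeZero N]
  (V : AddSubgroup (JZero N))

/-- **J-side**: with (ALG-K) and case B, if `σ ∈ I¹` moves a point of `V`, then every `g ∈ I¹`
acts on `V` as a power of `σ`, and `σ ^ p` is trivial on `V`. -/
theorem S40F2G_cyc (hΔ : W.Δ ≠ 0) (hp : p.Prime) (hp2 : p ≠ 2)
    (hB : S40DJ_CaseB W A p) (hK : S40D_Ker W p N V)
    (σ : GQ) (hσ : σ ∈ S40D_I1 A p) (x : JZero N) (hx : x ∈ V) (hσx : σ • x ≠ x) :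
    (∀ g ∈ S40D_I1 A p, ∃ k : ℕ, ∀ y ∈ V, g • y = (σ ^ k) • y) ∧
    (∀ y ∈ V, (σ ^ p) • y = y) := by
  obtain ⟨P₀, hP₀, hσP₀⟩ : ∃ P₀ : (W.baseChange ℚbar).toAffine.Point,
      p • P₀ = 0 ∧ σ • P₀ ≠ P₀ := by
    by_contra h
    push Not at h
    exact hσx (hK σ h x hx)
  obtain ⟨hc, hpw⟩ := S40F2G_cycW W A hΔ hp hp2 (fun g hg => hB g hg.1) σ hσ P₀ hP₀ hσP₀
  refine ⟨fun g hg => ?_, fun y hy => hK _ hpw y hy⟩
  obtain ⟨a, ha⟩ := hc g hg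
  refine ⟨a, fun y hy => ?_⟩
  have htriv : ∀ P : (W.baseChange ℚbar).toAffine.Point, p • P = 0 →
      ((σ ^ a)⁻¹ * g) • P = P := by
    intro P hP
    rw [S41NE_gsmul_mul, ha P hP, ← S41NE_gsmul_mul, inv_mul_cancel, S41NE_gsmul_one]
  have h1 := hK _ htriv y hy
  rw [mul_smul, inv_smul_eq_iff] at h1
  exact h1

/-- the stabiliser of `V` in `I¹`. -/
def S40F2G_H (p : ℕ) : Subgroup GQ where
  carrier := {g | g ∈ S40D_I1 A p ∧ ∀ y ∈ V, g • y = y}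
  one_mem' := ⟨one_mem _, fun y _ => one_smul _ y⟩
  mul_mem' := by
    rintro g h ⟨hg, hg'⟩ ⟨hh, hh'⟩
    exact ⟨mul_mem hg hh, fun y hy => by rw [mul_smul, hh' y hy, hg' y hy]⟩
  inv_mem' := by
    rintro g ⟨hg, hg'⟩
    exact ⟨inv_mem hg, fun y hy => by rw [inv_smul_eq_iff, hg' y hy]⟩

theorem S40F2G_mem_H {g : GQ} :
    g ∈ S40F2G_H A V p ↔ g ∈ S40D_I1 A p ∧ ∀ y ∈ V, g • y = y :=
  Iff.rfl

/-- `hHI`. -/
theorem S40F2G_H_le : ∀ g ∈ S40F2G_H A V p, g ∈ S40D_I1 A p :=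
  fun _ hg => hg.1

/-- every element of `V` is fixed by `H`. -/
theorem S40F2G_H_fix : ∀ g ∈ S40F2G_H A V p, ∀ y ∈ V, g • y = y :=
  fun _ hg => hg.2

/-- `hdec`: `I¹ = ⋃ σ^k H`. -/
theorem S40F2G_dec {σ : GQ} (hσ : σ ∈ S40D_I1 A p)
    (hcyc : ∀ g ∈ S40D_I1 A p, ∃ k : ℕ, ∀ y ∈ V, g • y = (σ ^ k) • y) :
    ∀ g ∈ S40D_I1 A p, ∃ k : ℕ, (σ ^ k)⁻¹ * g ∈ S40F2G_H A V p := by
  intro g hg
  obtain ⟨k, hk⟩ := hcyc g hg
  refine ⟨k, mul_mem (inv_mem (pow_mem hσ k)) hg, fun y hy => ?_⟩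
  rw [mul_smul, hk y hy, ← mul_smul, inv_mul_cancel, one_smul]

/-- `V` is stable under the powers of `σ`. -/
theorem S40F2G_stab_pow {σ : GQ} (hstab : ∀ y ∈ V, σ • y ∈ V) :
    ∀ j : ℕ, ∀ y ∈ V, (σ ^ j) • y ∈ V := by
  intro j
  induction j with
  | zero => intro y hy; rw [pow_zero, one_smul]; exact hy
  | succ j ih =>
    intro y hy
    rw [pow_succ, mul_smul]
    exact ih _ (hstab y hy)

/-- `hconj`: `H` is stable under conjugation by the powers of `σ`. -/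
theorem S40F2G_conj {σ : GQ} (hσ : σ ∈ S40D_I1 A p) (hstab : ∀ y ∈ V, σ • y ∈ V) :
    ∀ g ∈ S40F2G_H A V p, ∀ j : ℕ, (σ ^ j)⁻¹ * g * σ ^ j ∈ S40F2G_H A V p := by
  rintro g ⟨hg1, hg2⟩ j
  refine ⟨mul_mem (mul_mem (inv_mem (pow_mem hσ j)) hg1) (pow_mem hσ j), fun y hy => ?_⟩
  rw [mul_smul, mul_smul, hg2 _ (S40F2G_stab_pow V hstab j y hy), ← mul_smul, inv_mul_cancel,
    one_smul]

/-- `hnorm`: `σ⁻¹ g σ ∈ H`. -/
theorem S40F2G_norm {σ : GQ} (hσ : σ ∈ S40D_I1 A p) (hstab : ∀ y ∈ V, σ • y ∈ V) :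
    ∀ g ∈ S40F2G_H A V p, σ⁻¹ * g * σ ∈ S40F2G_H A V p := by
  intro g hg
  have := S40F2G_conj A V hσ hstab g hg 1
  rwa [pow_one] at this

/-- `hσp`: `σ ^ p ∈ H`. -/
theorem S40F2G_pow_mem {σ : GQ} (hσ : σ ∈ S40D_I1 A p) (hσp : ∀ y ∈ V, (σ ^ p) • y = y) :
    σ ^ p ∈ S40F2G_H A V p :=
  ⟨pow_mem hσ p, hσp⟩

/-- **the group facts and the break datum**: `σ ∈ I¹` moving a point of `V`, `H` the stabiliser of
`V` in `I¹`.  Then `H`, `σ` satisfy all the group hypotheses of `S40F2B_main` and of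
`S40F2ABI_V1/_V2`, and the break datum `π, c, r, t` of `Fix(H)` over `Fix(I¹)` exists. -/
theorem S40F2G_main (hΔ : W.Δ ≠ 0) (hp : p.Prime) (hp2 : p ≠ 2) (hA : A.LiesOverPrime p)
    (hVp : ∀ x ∈ V, p • x = 0) (hstab : ∀ g : GQ, ∀ y ∈ V, g • y ∈ V)
    (hB : S40DJ_CaseB W A p) (hK : S40D_Ker W p N V) (hInv : S40D_InvJ N A p V)
    (σ : GQ) (hσ : σ ∈ S40D_I1 A p) (x : JZero N) (hx : x ∈ V) (hσx : σ • x ≠ x)
    {ζ : ℚbar} (hprim : IsPrimitiveRoot ζ p) :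
    (∀ g ∈ S40F2G_H A V p, g ∈ S40D_I1 A p) ∧
    (∀ g ∈ S40D_I1 A p, ∃ k : ℕ, (σ ^ k)⁻¹ * g ∈ S40F2G_H A V p) ∧
    (∀ g ∈ S40F2G_H A V p, ∀ j : ℕ, (σ ^ j)⁻¹ * g * σ ^ j ∈ S40F2G_H A V p) ∧
    (∀ g ∈ S40F2G_H A V p, σ⁻¹ * g * σ ∈ S40F2G_H A V p) ∧
    σ ^ p ∈ S40F2G_H A V p ∧
    ∃ (π c r : ℚbar) (t : ℕ), 1 ≤ t ∧ t ≤ p - 1 ∧
      (∀ g ∈ S40F2G_H A V p, g π = π) ∧ (∀ g ∈ S40F2G_H A V p, g c = c) ∧
      (∀ g ∈ S40F2G_H A V p, g r = r) ∧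
      A.valuation π ^ p = A.valuation (1 - ζ) ∧ A.valuation c = 1 ∧ A.valuation r ≤ 1 ∧
      σ π = π * (1 + c * π ^ t) + π ^ (t + 2) * r ∧
      ∀ x : ℚbar, x ≠ 0 → (∀ g ∈ S40F2G_H A V p, g x = x) →
        ∃ k : ℤ, A.valuation x = A.valuation π ^ k := by
  haveI : Fact p.Prime := ⟨hp⟩
  obtain ⟨hcyc, hσp⟩ := S40F2G_cyc W A V hΔ hp hp2 hB hK σ hσ x hx hσx
  have hdec := S40F2G_dec A V hσ hcyc
  have hconj := S40F2G_conj A V hσ (hstab σ)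
  have hnorm := S40F2G_norm A V hσ (hstab σ)
  have hpow := S40F2G_pow_mem A V hσ hσp
  obtain ⟨β, i, hi, hβ1, hσβ, -, hβH⟩ := S40F2D_kummer A hp V hVp hInv σ hσ (hstab σ) hcyc hσp
    x hx hσx ζ hprim.pow_eq_one (hprim.ne_one hp.one_lt)
  refine ⟨S40F2G_H_le A V, hdec, hconj, hnorm, hpow, ?_⟩
  exact S40F2B_main A hA hprim σ (S40F2G_H A V p : Set GQ) hσ (S40F2G_H_le A V) hdec hconj hpow
    β i hi hβ1 hσβ (fun g hg => hβH g hg.1 hg.2)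

end Jside

end Fermat.Agent.S40
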