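import Mathlib
import Fermat.Agent.S40.F2Grp

/-!
# TRACK 13 (S40 / S44, row 38), (F2'): the group facts of (F2-OUT) in BOTH cases (helper23).
Prefix `S40F2GA_`.

`S40/F2Grp.lean` gives `σ`, `H = Stab_{I¹}(V)` and the break datum when `I¹` acts NON-trivially on
`V`.  When `I¹` acts trivially on `V` there is no such `σ`; but the chain of (F2') only needs a
subgroup `H ≤ I¹` fixing `V` pointwise, `σ ∈ I¹` with `I¹ = ⋃ σ^k H`, and a UNIT `β ∈ Fix(H)` with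
`σ β = ζ^i β`, `p ∤ i`.  In the trivial case we take `β` a `p`-th root of `ζ` (a root of unity of
order `p²`) and `H` its stabiliser in `I¹`.

* `S40F2GA_Hb A p β`   : the stabiliser of `β` in `I¹`;
* `S40F2GA_char`       : `g ∈ I¹`, `β ^ p` fixed by `I¹` ⇒ `g β = ζ ^ j β`;
* `S40F2GA_dec`, `S40F2GA_conj`, `S40F2GA_norm`, `S40F2GA_pow_mem` : the group facts for `S40F2GA_Hb`;
* `S40F2GA_val_one_sub_lt` : `β ^ p = ζ` ⇒ `v(1 − β) < 1`;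
* `S40F2GA_exists_moved`   : `β ^ p = ζ` ⇒ some `σ ∈ I¹` moves `β` (value group of `Fix(I¹)`);
* `S40F2GA_triv`  : the group facts and the break datum for `β ^ p = ζ`;
* **`S40F2GA_main`** : under the hypotheses of (F2-OUT): there are `σ ∈ I¹` and a subgroup `H ≤ I¹`
  fixing `V` pointwise with `hdec`, `hconj`, `hnorm`, `σ ^ p ∈ H` and the break datum
  `π, c, r, t` of `S40F2B_main`.
-/

set_option autoImplicit false
set_option linter.unusedSectionVars false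
set_option linter.unusedVariables false
set_option linter.style.haveILetI false
set_option synthInstance.maxHeartbeats 400000
set_option maxHeartbeats 1000000

open scoped Pointwise
open AlgebraicCurve ModularCurve

noncomputable section

namespace Fermat.Agent.S40

open WeierstrassCurve Fermat.Agent.Lib Fermat.Agent.GalRep Fermat.Agent.S41 Fermat.Agent.S58
  Fermat.Agent.S31 Fermat.Agent.S33 Fermat.Agent.S36 Fermat.Agent.S24 Fermat.Agent.S19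

local notation "ℚbar" => AlgebraicClosure ℚ
local notation "GQ" => (AlgebraicClosure ℚ ≃ₐ[ℚ] AlgebraicClosure ℚ)

section kummer

variable (A : ValuationSubring ℚbar) {p : ℕ}

/-- the stabiliser of `β` in `I¹`. -/
def S40F2GA_Hb (p : ℕ) (β : ℚbar) : Subgroup GQ where
  carrier := {g | g ∈ S40D_I1 A p ∧ g β = β}
  one_mem' := ⟨one_mem _, rfl⟩
  mul_mem' := by
    rintro g h ⟨hg, hg'⟩ ⟨hh, hh'⟩
    refine ⟨mul_mem hg hh, ?_⟩
    change g (h β) = β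
    rw [hh', hg']
  inv_mem' := by
    rintro g ⟨hg, hg'⟩
    refine ⟨inv_mem hg, ?_⟩
    calc g⁻¹ β = g⁻¹ (g β) := by rw [hg']
      _ = β := g.symm_apply_apply β

theorem S40F2GA_mem_Hb {β : ℚbar} {g : GQ} :
    g ∈ S40F2GA_Hb A p β ↔ g ∈ S40D_I1 A p ∧ g β = β :=
  Iff.rfl

/-- an inverse applied to the image. -/
theorem S40F2GA_inv_apply (g : GQ) (x : ℚbar) : g⁻¹ (g x) = x :=
  g.symm_apply_apply x

/-- elements of `I¹` fix the powers of `ζ`. -/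
theorem S40F2GA_fix_pow {ζ : ℚbar} (hζ : ζ ^ p = 1) {g : GQ} (hg : g ∈ S40D_I1 A p) (m : ℕ) :
    g (ζ ^ m) = ζ ^ m :=
  hg.2 (ζ ^ m) (by rw [← pow_mul, mul_comm, pow_mul, hζ, one_pow])

/-- the Kummer character: `g β = ζ ^ j β`. -/
theorem S40F2GA_char {ζ β : ℚbar} (hprim : IsPrimitiveRoot ζ p) (hp : p.Prime) (hβ0 : β ≠ 0)
    (hβp : ∀ g ∈ S40D_I1 A p, g (β ^ p) = β ^ p) {g : GQ} (hg : g ∈ S40D_I1 A p) :
    ∃ j : ℕ, g β = ζ ^ j * β := by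
  have h1 : (g β / β) ^ p = 1 := by
    rw [div_pow, ← map_pow, hβp g hg, div_self (pow_ne_zero _ hβ0)]
  haveI : NeZero p := ⟨hp.ne_zero⟩
  obtain ⟨j, -, hj⟩ := hprim.eq_pow_of_pow_eq_one h1
  exact ⟨j, by rw [hj, div_mul_cancel₀ _ hβ0]⟩

/-- powers of `σ` on `β`. -/
theorem S40F2GA_pow_apply {ζ β : ℚbar} (hζ : ζ ^ p = 1) {σ : GQ} (hσ : σ ∈ S40D_I1 A p) {i : ℕ}
    (hσβ : σ β = ζ ^ i * β) (k : ℕ) : (σ ^ k) β = ζ ^ (i * k) * β := by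
  induction k with
  | zero => simp
  | succ k ih =>
    rw [pow_succ', AlgEquiv.mul_apply, ih, map_mul, S40F2GA_fix_pow A hζ hσ, hσβ, Nat.mul_succ,
      pow_add]
    ring

/-- `hdec` for the stabiliser of `β`. -/
theorem S40F2GA_dec {ζ β : ℚbar} (hprim : IsPrimitiveRoot ζ p) (hp : p.Prime) (hβ0 : β ≠ 0)
    (hβp : ∀ g ∈ S40D_I1 A p, g (β ^ p) = β ^ p) {σ : GQ} (hσ : σ ∈ S40D_I1 A p) {i : ℕ}
    (hi : ¬ p ∣ i) (hσβ : σ β = ζ ^ i * β) :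
    ∀ g ∈ S40D_I1 A p, ∃ k : ℕ, (σ ^ k)⁻¹ * g ∈ S40F2GA_Hb A p β := by
  intro g hg
  have hζ : ζ ^ p = 1 := hprim.pow_eq_one
  obtain ⟨j, hj⟩ := S40F2GA_char A hprim hp hβ0 hβp hg
  have hcop : Nat.Coprime i p := ((Nat.Prime.coprime_iff_not_dvd hp).mpr hi).symm
  obtain ⟨m, -, hm⟩ := Nat.exists_mul_mod_eq_one_of_coprime hcop hp.one_lt
  refine ⟨m * j, mul_mem (inv_mem (pow_mem hσ _)) hg, ?_⟩
  change (σ ^ (m * j))⁻¹ (g β) = β
  have h1 : (σ ^ (m * j)) β = ζ ^ j * β := by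
    rw [S40F2GA_pow_apply A hζ hσ hσβ, ← mul_assoc, pow_mul, pow_eq_pow_mod (i * m) hζ, hm,
      pow_one]
  rw [hj, ← h1]
  exact S40F2GA_inv_apply _ _

/-- `hconj` for the stabiliser of `β`. -/
theorem S40F2GA_conj {ζ β : ℚbar} (hζ : ζ ^ p = 1) {σ : GQ} (hσ : σ ∈ S40D_I1 A p) {i : ℕ}
    (hσβ : σ β = ζ ^ i * β) :
    ∀ g ∈ S40F2GA_Hb A p β, ∀ j : ℕ, (σ ^ j)⁻¹ * g * σ ^ j ∈ S40F2GA_Hb A p β := by
  rintro g ⟨hg1, hg2⟩ j
  refine ⟨mul_mem (mul_mem (inv_mem (pow_mem hσ j)) hg1) (pow_mem hσ j), ?_⟩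
  change (σ ^ j)⁻¹ (g ((σ ^ j) β)) = β
  have h1 := S40F2GA_pow_apply A hζ hσ hσβ j
  have h2 : g ((σ ^ j) β) = (σ ^ j) β := by
    rw [h1, map_mul, S40F2GA_fix_pow A hζ hg1, hg2]
  rw [h2]
  exact S40F2GA_inv_apply _ _

/-- `hnorm` for the stabiliser of `β`. -/
theorem S40F2GA_norm {ζ β : ℚbar} (hζ : ζ ^ p = 1) {σ : GQ} (hσ : σ ∈ S40D_I1 A p) {i : ℕ}
    (hσβ : σ β = ζ ^ i * β) :
    ∀ g ∈ S40F2GA_Hb A p β, σ⁻¹ * g * σ ∈ S40F2GA_Hb A p β := by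
  intro g hg
  have := S40F2GA_conj A hζ hσ hσβ g hg 1
  rwa [pow_one] at this

/-- `σ ^ p` fixes `β`. -/
theorem S40F2GA_pow_mem {ζ β : ℚbar} (hζ : ζ ^ p = 1) {σ : GQ} (hσ : σ ∈ S40D_I1 A p) {i : ℕ}
    (hσβ : σ β = ζ ^ i * β) : σ ^ p ∈ S40F2GA_Hb A p β := by
  refine ⟨pow_mem hσ p, ?_⟩
  rw [S40F2GA_pow_apply A hζ hσ hσβ, mul_comm i p, pow_mul, hζ, one_pow, one_mul]

end kummer

section root

variable (A : ValuationSubring ℚbar) {p : ℕ} [hp : Fact p.Prime]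

/-- a root of unity has valuation `1`. -/
theorem S40F2GA_val_root {β : ℚbar} {n : ℕ} (hn : 0 < n) (hβ : β ^ n = 1) :
    A.valuation β = 1 := by
  have h1 : β ∈ A := S19TE_root_mem A hn hβ
  have h2 : β⁻¹ ∈ A := S19TE_root_mem A hn (by rw [inv_pow, hβ, inv_one])
  refine le_antisymm ((A.valuation_le_one_iff β).mpr h1) ?_
  have h3 : A.valuation β⁻¹ ≤ 1 := (A.valuation_le_one_iff _).mpr h2
  rw [map_inv₀] at h3
  have hβ0 : β ≠ 0 := by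
    rintro rfl
    rw [zero_pow hn.ne'] at hβ
    exact zero_ne_one hβ
  have h0 : A.valuation β ≠ 0 := (map_ne_zero _).mpr hβ0
  exact (inv_le_one₀ (zero_lt_iff.mpr h0)).mp h3

/-- `β ^ p = ζ` ⇒ `v(1 − β) < 1`. -/
theorem S40F2GA_val_one_sub_lt (hA : A.LiesOverPrime p) (hp2 : p ≠ 2) {ζ β : ℚbar}
    (hprim : IsPrimitiveRoot ζ p) (hβ : β ^ p = ζ) : A.valuation (1 - β) < 1 := by
  have hpp : p.Prime := hp.out
  have hβ1 : β ^ (p * p) = 1 := by rw [pow_mul, hβ, hprim.pow_eq_one]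
  have hβA : β ∈ A := S19TE_root_mem A (Nat.mul_pos hpp.pos hpp.pos) hβ1
  obtain ⟨r, hr⟩ := exists_add_pow_prime_eq hpp (1 : A) (-⟨β, hβA⟩)
  have hr' : (1 - β) ^ p = (1 - ζ) + (p : ℚbar) * (-β) * (r : ℚbar) := by
    have h1 := congrArg (fun z : A => (z : ℚbar)) hr
    beta_reduce at h1
    have hodd : Odd p := hpp.odd_of_ne_two hp2
    push_cast at h1
    rw [one_pow, hodd.neg_pow, hβ, mul_one] at h1
    rw [sub_eq_add_neg, h1]
    ring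
  have hv1 : A.valuation (1 - ζ) < 1 := S33BZ_val_one_sub_lt A hA hprim
  have hv2 : A.valuation ((p : ℚbar) * (-β) * (r : ℚbar)) < 1 := by
    rw [map_mul, map_mul, Valuation.map_neg]
    have h1 : A.valuation (p : ℚbar) < 1 := S36BL_vq_lt_one A hA
    have h2 : A.valuation β ≤ 1 := (A.valuation_le_one_iff β).mpr hβA
    have h3 : A.valuation (r : ℚbar) ≤ 1 := (A.valuation_le_one_iff _).mpr r.2
    calc A.valuation (p : ℚbar) * A.valuation β * A.valuation (r : ℚbar)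
        ≤ A.valuation (p : ℚbar) * 1 * 1 := by
          exact mul_le_mul' (mul_le_mul' le_rfl h2) h3
      _ < 1 := by rw [mul_one, mul_one]; exact h1
  have hv3 : A.valuation ((1 - β) ^ p) < 1 := by
    rw [hr']
    exact lt_of_le_of_lt (A.valuation.map_add _ _) (max_lt hv1 hv2)
  by_contra hcon
  push Not at hcon
  have h4 : 1 ≤ A.valuation (1 - β) ^ p := one_le_pow₀ hcon
  rw [map_pow] at hv3
  exact lt_irrefl _ (hv3.trans_le h4)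

/-- `β ^ p = ζ` ⇒ `v(1 − ζ) < v(1 − β)`. -/
theorem S40F2GA_val_lt (hA : A.LiesOverPrime p) (hp2 : p ≠ 2) {ζ β : ℚbar}
    (hprim : IsPrimitiveRoot ζ p) (hβ : β ^ p = ζ) :
    A.valuation (1 - ζ) < A.valuation (1 - β) := by
  have hpp : p.Prime := hp.out
  have hβ1 : β ^ (p * p) = 1 := by rw [pow_mul, hβ, hprim.pow_eq_one]
  have hβA : β ∈ A := S19TE_root_mem A (Nat.mul_pos hpp.pos hpp.pos) hβ1
  have hvβ : A.valuation β ≤ 1 := (A.valuation_le_one_iff β).mpr hβA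
  have hlt := S40F2GA_val_one_sub_lt A hA hp2 hprim hβ
  have hβne : (1 : ℚbar) - β ≠ 0 := by
    intro h0
    have h1 : β = 1 := (sub_eq_zero.mp h0).symm
    rw [h1, one_pow] at hβ
    exact hprim.ne_one hpp.one_lt hβ.symm
  -- `1 − β^j ∈ 𝔪`
  have hj : ∀ j : ℕ, A.valuation (β ^ j - 1) < 1 := by
    intro j
    have h1 : β ^ j - 1 = (∑ i ∈ Finset.range j, β ^ i) * (β - 1) := (geom_sum_mul β j).symm
    have h2 : A.valuation (∑ i ∈ Finset.range j, β ^ i) ≤ 1 := by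
      refine A.valuation.map_sum_le (fun i _ => ?_)
      rw [map_pow]
      exact pow_le_one₀ zero_le hvβ
    have h3 : A.valuation (β - 1) < 1 := by
      rw [← neg_sub, Valuation.map_neg]
      exact hlt
    rw [h1, map_mul]
    calc A.valuation (∑ i ∈ Finset.range j, β ^ i) * A.valuation (β - 1)
        ≤ 1 * A.valuation (β - 1) := mul_le_mul' h2 le_rfl
      _ < 1 := by rw [one_mul]; exact h3
  -- the sum `S = Σ_{j<p} β^j` lies in `𝔪`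
  have hS : A.valuation (∑ i ∈ Finset.range p, β ^ i) < 1 := by
    have e : ∑ i ∈ Finset.range p, β ^ i = ∑ i ∈ Finset.range p, (β ^ i - 1) + (p : ℚbar) := by
      rw [Finset.sum_sub_distrib, Finset.sum_const, Finset.card_range, nsmul_eq_mul, mul_one]
      ring
    rw [e]
    refine lt_of_le_of_lt (A.valuation.map_add _ _) (max_lt ?_ (S36BL_vq_lt_one A hA))
    exact A.valuation.map_sum_lt (by simp) (fun i _ => hj i)
  have e2 : (1 : ℚbar) - ζ = (∑ i ∈ Finset.range p, β ^ i) * (1 - β) := by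
    rw [← hβ]
    have := geom_sum_mul β p
    linear_combination this
  rw [e2, map_mul]
  have h0 : 0 < A.valuation (1 - β) := zero_lt_iff.mpr ((map_ne_zero _).mpr hβne)
  calc A.valuation (∑ i ∈ Finset.range p, β ^ i) * A.valuation (1 - β)
      < 1 * A.valuation (1 - β) := mul_lt_mul_of_pos_right hS h0
    _ = A.valuation (1 - β) := one_mul _

/-- **some `σ ∈ I¹` moves a `p`-th root of `ζ`**. -/
theorem S40F2GA_exists_moved (hA : A.LiesOverPrime p) (hp2 : p ≠ 2) {ζ β : ℚbar}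
    (hprim : IsPrimitiveRoot ζ p) (hβ : β ^ p = ζ) :
    ∃ σ ∈ S40D_I1 A p, σ β ≠ β := by
  have hpp : p.Prime := hp.out
  by_contra hcon
  push Not at hcon
  have hβne : (1 : ℚbar) - β ≠ 0 := by
    intro h0
    have h1 : β = 1 := (sub_eq_zero.mp h0).symm
    rw [h1, one_pow] at hβ
    exact hprim.ne_one hpp.one_lt hβ.symm
  haveI : NeZero p := ⟨hpp.ne_zero⟩
  have hfix : ∀ τ ∈ A.inertiaSubgroupIn ℚ, τ ζ = ζ → τ (1 - β) = 1 - β := by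
    intro τ hτ hτζ
    have hτ1 : τ ∈ S40D_I1 A p := by
      refine ⟨hτ, fun ζ' hζ' => ?_⟩
      obtain ⟨j, -, rfl⟩ := hprim.eq_pow_of_pow_eq_one hζ'
      rw [map_pow, hτζ]
    rw [map_sub, map_one, hcon τ hτ1]
  obtain ⟨m, hm⟩ := S33BZ_val_eq A hA hprim hβne hfix
  have hlt1 := S40F2GA_val_one_sub_lt A hA hp2 hprim hβ
  have hlt2 := S40F2GA_val_lt A hA hp2 hprim hβ
  have hv0 : 0 < A.valuation (1 - ζ) :=
    zero_lt_iff.mpr ((map_ne_zero _).mpr (S33BZ_one_sub_ne_zero hprim))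
  have hv1 : A.valuation (1 - ζ) < 1 := S33BZ_val_one_sub_lt A hA hprim
  -- `m ≥ 1`
  have hm1 : 1 ≤ m := by
    by_contra hneg
    have hm0 : m ≤ 0 := by omega
    obtain ⟨j, rfl⟩ : ∃ j : ℕ, m = -(j : ℤ) := ⟨(-m).toNat, by omega⟩
    rw [hm, zpow_neg, zpow_natCast] at hlt1
    have : 1 ≤ (A.valuation (1 - ζ) ^ j)⁻¹ :=
      (one_le_inv₀ (pow_pos hv0 j)).mpr (pow_le_one₀ zero_le hv1.le)
    exact lt_irrefl _ (hlt1.trans_le this)
  obtain ⟨j, rfl⟩ : ∃ j : ℕ, m = (j : ℤ) + 1 := ⟨(m - 1).toNat, by omega⟩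
  rw [hm, zpow_add₀ (ne_of_gt hv0), zpow_one, zpow_natCast] at hlt2
  have : A.valuation (1 - ζ) ^ j * A.valuation (1 - ζ) ≤ A.valuation (1 - ζ) :=
    mul_le_of_le_one_left' (pow_le_one₀ zero_le hv1.le)
  exact lt_irrefl _ (hlt2.trans_le this)

/-- **the trivial case**: the group facts and the break datum for the stabiliser of a `p`-th root
`β` of `ζ`. -/
theorem S40F2GA_triv (hA : A.LiesOverPrime p) (hp2 : p ≠ 2) {ζ β : ℚbar}
    (hprim : IsPrimitiveRoot ζ p) (hβ : β ^ p = ζ) :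
    ∃ σ ∈ S40D_I1 A p,
    (∀ g ∈ S40F2GA_Hb A p β, g ∈ S40D_I1 A p) ∧
    (∀ g ∈ S40D_I1 A p, ∃ k : ℕ, (σ ^ k)⁻¹ * g ∈ S40F2GA_Hb A p β) ∧
    (∀ g ∈ S40F2GA_Hb A p β, ∀ j : ℕ, (σ ^ j)⁻¹ * g * σ ^ j ∈ S40F2GA_Hb A p β) ∧
    (∀ g ∈ S40F2GA_Hb A p β, σ⁻¹ * g * σ ∈ S40F2GA_Hb A p β) ∧
    σ ^ p ∈ S40F2GA_Hb A p β ∧
    ∃ (π c r : ℚbar) (t : ℕ), 1 ≤ t ∧ t ≤ p - 1 ∧
      (∀ g ∈ S40F2GA_Hb A p β, g π = π) ∧ (∀ g ∈ S40F2GA_Hb A p β, g c = c) ∧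
      (∀ g ∈ S40F2GA_Hb A p β, g r = r) ∧
      A.valuation π ^ p = A.valuation (1 - ζ) ∧ A.valuation c = 1 ∧ A.valuation r ≤ 1 ∧
      σ π = π * (1 + c * π ^ t) + π ^ (t + 2) * r ∧
      ∀ x : ℚbar, x ≠ 0 → (∀ g ∈ S40F2GA_Hb A p β, g x = x) →
        ∃ k : ℤ, A.valuation x = A.valuation π ^ k := by
  have hpp : p.Prime := hp.out
  have hζ : ζ ^ p = 1 := hprim.pow_eq_one
  have hβ1 : β ^ (p * p) = 1 := by rw [pow_mul, hβ, hζ]
  have hβ0 : β ≠ 0 := by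
    rintro rfl
    rw [zero_pow (Nat.mul_pos hpp.pos hpp.pos).ne'] at hβ1
    exact zero_ne_one hβ1
  have hvβ : A.valuation β = 1 := S40F2GA_val_root A (Nat.mul_pos hpp.pos hpp.pos) hβ1
  have hβp : ∀ g ∈ S40D_I1 A p, g (β ^ p) = β ^ p := by
    intro g hg
    rw [hβ]
    exact hg.2 ζ hζ
  obtain ⟨σ, hσ, hσβ⟩ := S40F2GA_exists_moved A hA hp2 hprim hβ
  obtain ⟨i, hi⟩ := S40F2GA_char A hprim hpp hβ0 hβp hσ
  have hpi : ¬ p ∣ i := by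
    rintro ⟨k, rfl⟩
    rw [pow_mul, hζ, one_pow, one_mul] at hi
    exact hσβ hi
  have hdec := S40F2GA_dec A hprim hpp hβ0 hβp hσ hpi hi
  have hconj := S40F2GA_conj A hζ hσ hi
  have hnorm := S40F2GA_norm A hζ hσ hi
  have hpow := S40F2GA_pow_mem A hζ hσ hi
  refine ⟨σ, hσ, fun g hg => hg.1, hdec, hconj, hnorm, hpow, ?_⟩
  exact S40F2B_main A hA hprim σ (S40F2GA_Hb A p β : Set GQ) hσ (fun g hg => hg.1) hdec hconj hpow
    β i hpi hvβ hi (fun g hg => hg.2)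

end root

section main

variable (W : WeierstrassCurve ℤ) {p : ℕ} (A : ValuationSubring ℚbar) {N : ℕ} [NeZero N]
  (V : AddSubgroup (JZero N))

/-- **the group facts and the break datum of (F2-OUT), in both cases**: there are `σ ∈ I¹` and a
subgroup `H ≤ I¹` fixing `V` pointwise with `I¹ = ⋃ σ^k H`, `H` normalised by `σ`, `σ ^ p ∈ H`,
and the break datum `π, c, r, t` of `Fix(H)` over `Fix(I¹)`. -/
theorem S40F2GA_main (hΔ : W.Δ ≠ 0) (hp : p.Prime) (hp2 : p ≠ 2) (hA : A.LiesOverPrime p)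
    (hVp : ∀ x ∈ V, p • x = 0) (hstab : ∀ g : GQ, ∀ y ∈ V, g • y ∈ V)
    (hB : S40DJ_CaseB W A p) (hK : S40D_Ker W p N V) (hInv : S40D_InvJ N A p V)
    {ζ : ℚbar} (hprim : IsPrimitiveRoot ζ p) :
    ∃ (σ : GQ) (H : Subgroup GQ), σ ∈ S40D_I1 A p ∧
    (∀ g ∈ H, ∀ y ∈ V, g • y = y) ∧
    (∀ g ∈ H, g ∈ S40D_I1 A p) ∧
    (∀ g ∈ S40D_I1 A p, ∃ k : ℕ, (σ ^ k)⁻¹ * g ∈ H) ∧
    (∀ g ∈ H, ∀ j : ℕ, (σ ^ j)⁻¹ * g * σ ^ j ∈ H) ∧
    (∀ g ∈ H, σ⁻¹ * g * σ ∈ H) ∧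
    σ ^ p ∈ H ∧
    ∃ (π c r : ℚbar) (t : ℕ), 1 ≤ t ∧ t ≤ p - 1 ∧
      (∀ g ∈ H, g π = π) ∧ (∀ g ∈ H, g c = c) ∧ (∀ g ∈ H, g r = r) ∧
      A.valuation π ^ p = A.valuation (1 - ζ) ∧ A.valuation c = 1 ∧ A.valuation r ≤ 1 ∧
      σ π = π * (1 + c * π ^ t) + π ^ (t + 2) * r ∧
      ∀ x : ℚbar, x ≠ 0 → (∀ g ∈ H, g x = x) → ∃ k : ℤ, A.valuation x = A.valuation π ^ k := by
  haveI : Fact p.Prime := ⟨hp⟩
  by_cases htriv : ∀ g ∈ S40D_I1 A p, ∀ y ∈ V, g • y = y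
  · -- the trivial case
    obtain ⟨β, hβ⟩ := IsAlgClosed.exists_pow_nat_eq ζ hp.pos
    obtain ⟨σ, hσ, h1, h2, h3, h4, h5, h6⟩ := S40F2GA_triv A hA hp2 hprim hβ
    exact ⟨σ, S40F2GA_Hb A p β, hσ, fun g hg y hy => htriv g hg.1 y hy, h1, h2, h3, h4, h5, h6⟩
  · push Not at htriv
    obtain ⟨σ, hσ, x, hx, hσx⟩ := htriv
    obtain ⟨h1, h2, h3, h4, h5, h6⟩ :=
      S40F2G_main W A V hΔ hp hp2 hA hVp hstab hB hK hInv σ hσ x hx hσx hprim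
    exact ⟨σ, S40F2G_H A V p, hσ, S40F2G_H_fix A V, h1, h2, h3, h4, h5, h6⟩

end main

end Fermat.Agent.S40
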