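import Mathlib
import Fermat.Agent.S40.F2GrpAll

/-!
# TRACK 13 (S40 / S44, row 38), (F2'): the class `z = σ x − x` is `I¹`-rational (helper23).
Prefix `S40F2GZ_`.

Context of (F2-OUT): `V ≤ J₀(N)[p]` stable, (ALG-R) `S40D_Rel`, (ALG-K) `S40D_Ker`, CASE B.

* `S40F2GZ_unip`  : every `g ∈ I¹` is unipotent on `V`: `g² y − 2 g y + y = 0`
  (the joint relation `g² − t g + d` with `d ≡ 1` (from `μ_p`) and `t ≡ 2` (from the fixed point
  on `W[p]`));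
* `S40F2GZ_sigma_z` : `σ (σ x − x) = σ x − x` for `σ ∈ I¹`, `x ∈ V`;
* `S40F2GZ_fix_z`   : if `I¹` acts on `V` through the powers of `σ`, every `g ∈ I¹` fixes
  `z = σ x − x`;
* **`S40F2GZ_main`** : `S40F2GA_main` together with `hcyc`, `σ ^ p = 1` on `V` and the
  `I¹`-rationality of all the `z = σ x − x`, `x ∈ V` (both cases): the complete group input of
  `S40F2D_kummer`, `S40F2D_main`, `S40F2B_main`, `S40F2ABR_rel`, `S40F2ABR_V1/_V2`, `S40F2ABD_H12`.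
-/

set_option autoImplicit false
set_option linter.unusedSectionVars false
set_option linter.unusedVariables false
set_option linter.style.haveILetI false
set_option synthInstance.maxHeartbeats 400000
set_option maxHeartbeats 1000000

open scoped Pointwise
open AlgebraicCurve ModularCurve

noncomputable section

namespace Fermat.Agent.S40

open WeierstrassCurve Fermat.Agent.Lib Fermat.Agent.GalRep Fermat.Agent.S41 Fermat.Agent.S58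
  Fermat.Agent.S31 Fermat.Agent.S33 Fermat.Agent.S36 Fermat.Agent.S24 Fermat.Agent.S19

local notation "ℚbar" => AlgebraicClosure ℚ
local notation "GQ" => (AlgebraicClosure ℚ ≃ₐ[ℚ] AlgebraicClosure ℚ)

section abs

variable {X : Type*} [AddCommGroup X]

/-- an integer multiple of a `p`-torsion element depends on the integer modulo `p`. -/
theorem S40F2GZ_zsmul_congr {p : ℕ} {x : X} (hx : p • x = 0) {a b : ℤ}
    (hab : (p : ℤ) ∣ a - b) : a • x = b • x := by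
  obtain ⟨m, hm⟩ := hab
  have e : a = b + m * (p : ℤ) := by linarith
  rw [e, add_smul, mul_smul, natCast_zsmul, hx, smul_zero, add_zero]

/-- a nonzero `p`-torsion element killed by `e` forces `p ∣ e`. -/
theorem S40F2GZ_dvd_of_zsmul {p : ℕ} (hp : p.Prime) {x : X} (hx : p • x = 0) (hx0 : x ≠ 0)
    {e : ℤ} (he : e • x = 0) : (p : ℤ) ∣ e := by
  by_contra hnd
  have hcop : IsCoprime (p : ℤ) e :=
    (Prime.coprime_iff_not_dvd (Nat.prime_iff_prime_int.1 hp)).2 hnd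
  obtain ⟨a, b, hab⟩ := hcop
  have : (a * (p : ℤ) + b * e) • x = 0 := by
    rw [add_smul, mul_smul, mul_smul, natCast_zsmul, hx, he, smul_zero, smul_zero, add_zero]
  rw [hab, one_smul] at this
  exact hx0 this

end abs

section Jside

variable (W : WeierstrassCurve ℤ) {p : ℕ} (A : ValuationSubring ℚbar) {N : ℕ} [NeZero N]
  (V : AddSubgroup (JZero N))

/-- **unipotency on `V`**: every `g ∈ I¹` satisfies `g² − 2 g + 1 = 0` on `V`. -/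
theorem S40F2GZ_unip (hp : p.Prime) (hVp : ∀ x ∈ V, p • x = 0)
    (hstab : ∀ g : GQ, ∀ y ∈ V, g • y ∈ V)
    (hB : S40DJ_CaseB W A p) (hR : S40D_Rel W p N V)
    {g : GQ} (hg : g ∈ S40D_I1 A p) {y : JZero N} (hy : y ∈ V) :
    g • g • y - (2 : ℤ) • g • y + y = 0 := by
  haveI : NeZero p := ⟨hp.ne_zero⟩
  obtain ⟨ζ, hprim⟩ := HasEnoughRootsOfUnity.exists_primitiveRoot ℚbar p
  have hζp : ζ ^ p = 1 := hprim.pow_eq_one
  have hζ0 : ζ ≠ 0 := hprim.ne_zero hp.ne_zero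
  obtain ⟨t, d, hW, hV, hζd⟩ := hR g
  have hd : (p : ℤ) ∣ (d : ℤ) - 1 := by
    have h1 : ζ ^ d = ζ := by rw [← hζd ζ hζp, hg.2 ζ hζp]
    apply (hprim.zpow_eq_one_iff_dvd _).1
    rw [zpow_sub₀ hζ0, zpow_natCast, zpow_one, h1, div_self hζ0]
  obtain ⟨P, hP0, hpP, hgP⟩ := hB g hg.1
  have e := hW P hpP
  rw [hgP, hgP] at e
  have e1 : (1 - t + (d : ℤ)) • P = 0 := by
    rw [add_zsmul, sub_zsmul, one_zsmul, natCast_zsmul]
    exact e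
  have ht : (p : ℤ) ∣ 1 - t + (d : ℤ) := S40F2GZ_dvd_of_zsmul hp hpP hP0 e1
  have ht2 : (p : ℤ) ∣ t - 2 := by
    have e2 : t - 2 = ((d : ℤ) - 1) - (1 - t + (d : ℤ)) := by ring
    rw [e2]
    exact dvd_sub hd ht
  have e3 := hV y hy
  have hgy : p • (g • y) = 0 := hVp _ (hstab g y hy)
  have e4 : (d : ℕ) • y = y := by
    have := S40F2GZ_zsmul_congr (hVp y hy) hd
    rw [natCast_zsmul, one_smul] at this
    exact this
  rw [S40F2GZ_zsmul_congr hgy ht2, e4] at e3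
  exact e3

/-- `σ (σ x − x) = σ x − x`. -/
theorem S40F2GZ_sigma_z (hp : p.Prime) (hVp : ∀ x ∈ V, p • x = 0)
    (hstab : ∀ g : GQ, ∀ y ∈ V, g • y ∈ V)
    (hB : S40DJ_CaseB W A p) (hR : S40D_Rel W p N V)
    {σ : GQ} (hσ : σ ∈ S40D_I1 A p) {x : JZero N} (hx : x ∈ V) :
    σ • (σ • x - x) = σ • x - x := by
  have h := S40F2GZ_unip W A V hp hVp hstab hB hR hσ hx
  rw [smul_sub]
  have e : σ • σ • x = (2 : ℤ) • σ • x - x := by
    rw [← sub_eq_zero, ← h]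
    abel
  rw [e, two_zsmul]
  abel

/-- `z = σ x − x ∈ V`. -/
theorem S40F2GZ_z_mem (hstab : ∀ g : GQ, ∀ y ∈ V, g • y ∈ V) (σ : GQ) {x : JZero N}
    (hx : x ∈ V) : σ • x - x ∈ V :=
  V.sub_mem (hstab σ x hx) hx

/-- powers of `σ` fix `z`. -/
theorem S40F2GZ_pow_z {σ : GQ} {z : JZero N} (hz : σ • z = z) (k : ℕ) : (σ ^ k) • z = z := by
  induction k with
  | zero => rw [pow_zero, one_smul]
  | succ k ih => rw [pow_succ, mul_smul, hz, ih]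

/-- if `I¹` acts on `V` through the powers of `σ`, every `g ∈ I¹` fixes `z = σ x − x`. -/
theorem S40F2GZ_fix_z (hp : p.Prime) (hVp : ∀ x ∈ V, p • x = 0)
    (hstab : ∀ g : GQ, ∀ y ∈ V, g • y ∈ V)
    (hB : S40DJ_CaseB W A p) (hR : S40D_Rel W p N V)
    {σ : GQ} (hσ : σ ∈ S40D_I1 A p)
    (hcyc : ∀ g ∈ S40D_I1 A p, ∃ k : ℕ, ∀ y ∈ V, g • y = (σ ^ k) • y)
    {x : JZero N} (hx : x ∈ V) :
    ∀ g ∈ S40D_I1 A p, g • (σ • x - x) = σ • x - x := by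
  intro g hg
  obtain ⟨k, hk⟩ := hcyc g hg
  rw [hk _ (S40F2GZ_z_mem V hstab σ hx)]
  exact S40F2GZ_pow_z (S40F2GZ_sigma_z W A V hp hVp hstab hB hR hσ hx) k

/-- **the complete group input of (F2-OUT), both cases**. -/
theorem S40F2GZ_main (hΔ : W.Δ ≠ 0) (hp : p.Prime) (hp2 : p ≠ 2) (hA : A.LiesOverPrime p)
    (hVp : ∀ x ∈ V, p • x = 0) (hstab : ∀ g : GQ, ∀ y ∈ V, g • y ∈ V)
    (hB : S40DJ_CaseB W A p) (hR : S40D_Rel W p N V) (hK : S40D_Ker W p N V)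
    (hInv : S40D_InvJ N A p V)
    {ζ : ℚbar} (hprim : IsPrimitiveRoot ζ p) :
    ∃ (σ : GQ) (H : Subgroup GQ), σ ∈ S40D_I1 A p ∧
    (∀ g ∈ H, ∀ y ∈ V, g • y = y) ∧
    (∀ g ∈ S40D_I1 A p, ∃ k : ℕ, ∀ y ∈ V, g • y = (σ ^ k) • y) ∧
    (∀ y ∈ V, (σ ^ p) • y = y) ∧
    (∀ x ∈ V, σ • x - x ∈ V ∧ ∀ g ∈ S40D_I1 A p, g • (σ • x - x) = σ • x - x) ∧
    (∀ g ∈ H, g ∈ S40D_I1 A p) ∧
    (∀ g ∈ S40D_I1 A p, ∃ k : ℕ, (σ ^ k)⁻¹ * g ∈ H) ∧
    (∀ g ∈ H, ∀ j : ℕ, (σ ^ j)⁻¹ * g * σ ^ j ∈ H) ∧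
    (∀ g ∈ H, σ⁻¹ * g * σ ∈ H) ∧
    σ ^ p ∈ H ∧
    ∃ (π c r : ℚbar) (t : ℕ), 1 ≤ t ∧ t ≤ p - 1 ∧
      (∀ g ∈ H, g π = π) ∧ (∀ g ∈ H, g c = c) ∧ (∀ g ∈ H, g r = r) ∧
      A.valuation π ^ p = A.valuation (1 - ζ) ∧ A.valuation c = 1 ∧ A.valuation r ≤ 1 ∧
      σ π = π * (1 + c * π ^ t) + π ^ (t + 2) * r ∧
      ∀ x : ℚbar, x ≠ 0 → (∀ g ∈ H, g x = x) → ∃ k : ℤ, A.valuation x = A.valuation π ^ k := by
  haveI : Fact p.Prime := ⟨hp⟩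
  by_cases htriv : ∀ g ∈ S40D_I1 A p, ∀ y ∈ V, g • y = y
  · -- the trivial case
    obtain ⟨β, hβ⟩ := IsAlgClosed.exists_pow_nat_eq ζ hp.pos
    obtain ⟨σ, hσ, h1, h2, h3, h4, h5, h6⟩ := S40F2GA_triv A hA hp2 hprim hβ
    have hcyc : ∀ g ∈ S40D_I1 A p, ∃ k : ℕ, ∀ y ∈ V, g • y = (σ ^ k) • y :=
      fun g hg => ⟨0, fun y hy => by rw [pow_zero, one_smul]; exact htriv g hg y hy⟩
    refine ⟨σ, S40F2GA_Hb A p β, hσ, fun g hg y hy => htriv g hg.1 y hy, hcyc,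
      fun y hy => htriv _ (pow_mem hσ p) y hy, fun x hx => ⟨S40F2GZ_z_mem V hstab σ hx, ?_⟩,
      h1, h2, h3, h4, h5, h6⟩
    exact S40F2GZ_fix_z W A V hp hVp hstab hB hR hσ hcyc hx
  · push Not at htriv
    obtain ⟨σ, hσ, x, hx, hσx⟩ := htriv
    obtain ⟨h1, h2, h3, h4, h5, h6⟩ :=
      S40F2G_main W A V hΔ hp hp2 hA hVp hstab hB hK hInv σ hσ x hx hσx hprim
    obtain ⟨hcyc, hσp⟩ := S40F2G_cyc W A V hΔ hp hp2 hB hK σ hσ x hx hσx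
    refine ⟨σ, S40F2G_H A V p, hσ, S40F2G_H_fix A V, hcyc, hσp,
      fun y hy => ⟨S40F2GZ_z_mem V hstab σ hy, ?_⟩, h1, h2, h3, h4, h5, h6⟩
    exact S40F2GZ_fix_z W A V hp hVp hstab hB hR hσ hcyc hy

end Jside

end Fermat.Agent.S40
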