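import Mathlib
import Fermat.Agent.S40.F2GrpZ
import Fermat.Agent.S40.NodeInst
import Fermat.Agent.S40.F2CInst

/-!
# TRACK 13 (S40 / S44, row 38), (F2'): leaf (a) CONSTANTS of the node chain (helper23).
Prefix `S40F2GK_`.

`H ≤ Gal(ℚ̄/ℚ)` with the break datum `π, c` of `S40F2B_main` (output of `S40F2GZ_main`),
`C₀ := (S36FI_act (M p) H).fixK` the subfield of the `H`-fixed constants, `N` a node over the two
Gauss valuations of `X₀(M p)` with `N.A = A`.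

* `S40F2GK_mem_C0`  : `x ∈ C₀ ↔ ∀ g ∈ H, g x = x`;
* `S40F2GK_consts`  : `π ∈ C₀`, `π ≠ 0`, `v π < 1`, `π ∈ A`, `hval` (`v(C₀ˣ) = v(π)^ℤ`), `c ∈ C₀`,
  `v c = 1`, `v p < 1`, `v π ^ p = v (1 − ζ)`, `v (1 − ζ) ^ (p − 1) = v p`  (all for `N.A`):
  the constant hypotheses of `S40F2MC_coord` / `S40F2MC_he`;
* `S40F2GK_hA₁`, `S40F2GK_hA₂` : a constant of `O_j` lies in `A`;
* `S40F2GK_hfin` : finiteness of the poles on the chart (`S40NI_poles_finite`);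
* `S40F2GK_node_*` : the same for the node `S40NI_nodeGen …` itself.
-/

set_option autoImplicit false
set_option linter.unusedSectionVars false
set_option linter.unusedVariables false
set_option linter.style.haveILetI false
set_option synthInstance.maxHeartbeats 400000
set_option maxHeartbeats 1000000

open AlgebraicCurve ModularCurve

noncomputable section

namespace Fermat.Agent.S40

open Fermat.Agent.S18 Fermat.Agent.S24 Fermat.Agent.S34 Fermat.Agent.S36 Fermat.Agent.GalRep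
  Fermat.Agent.S33 Fermat.Agent.S19

local notation "Ω" => AlgebraicClosure ℚ
local notation "Γ" => (AlgebraicClosure ℚ ≃ₐ[ℚ] AlgebraicClosure ℚ)

section consts

variable (n : ℕ) (H : Subgroup Γ)

/-- the `H`-fixed constants. -/
theorem S40F2GK_mem_C0 {x : Ω} : x ∈ (S36FI_act n H).fixK ↔ ∀ g ∈ H, g x = x :=
  S36FI_mem_fixK n H

variable {F k : Type*} [Field F] [Algebra Ω F] [Field k] (N : S40NA_Node Ω F k)
  (A : ValuationSubring Ω) {p : ℕ} [hp : Fact p.Prime]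

/-- **leaf (a), the constants**: the constant hypotheses of `S40F2MC_coord` and `S40F2MC_he`. -/
theorem S40F2GK_consts (hNA : N.A = A) (hA : A.LiesOverPrime p) {ζ : Ω}
    (hprim : IsPrimitiveRoot ζ p) {π c : Ω}
    (hπH : ∀ g ∈ H, g π = π) (hcH : ∀ g ∈ H, g c = c)
    (hvπ : A.valuation π ^ p = A.valuation (1 - ζ)) (hvc : A.valuation c = 1)
    (hdisc : ∀ x : Ω, x ≠ 0 → (∀ g ∈ H, g x = x) → ∃ k : ℤ, A.valuation x = A.valuation π ^ k) :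
    π ∈ (S36FI_act n H).fixK ∧ π ≠ 0 ∧ N.A.valuation π < 1 ∧ π ∈ N.A ∧
    (∀ x ∈ (S36FI_act n H).fixK, x ≠ 0 → ∃ j : ℤ, N.A.valuation x = N.A.valuation π ^ j) ∧
    c ∈ (S36FI_act n H).fixK ∧ N.A.valuation c = 1 ∧ N.A.valuation (p : Ω) < 1 ∧
    N.A.valuation π ^ p = N.A.valuation (1 - ζ) ∧
    N.A.valuation (1 - ζ) ^ (p - 1) = N.A.valuation (p : Ω) := by
  subst hNA
  have hpp : p.Prime := hp.out
  have hζ1 : (1 - ζ : Ω) ≠ 0 := S33BZ_one_sub_ne_zero hprim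
  have hΛ1 : N.A.valuation (1 - ζ) < 1 := S33BZ_val_one_sub_lt N.A hA hprim
  have hπ0 : π ≠ 0 := by
    intro h0
    rw [h0, map_zero, zero_pow hpp.ne_zero] at hvπ
    exact ((map_ne_zero N.A.valuation).mpr hζ1) hvπ.symm
  have hvπ1 : N.A.valuation π < 1 := by
    by_contra hcon
    push Not at hcon
    have h1 : (1 : _) ≤ N.A.valuation π ^ p := one_le_pow₀ hcon
    rw [hvπ] at h1
    exact absurd hΛ1 (not_lt.mpr h1)
  refine ⟨(S36FI_mem_fixK n H).2 hπH, hπ0, hvπ1, (N.A.valuation_le_one_iff π).mp hvπ1.le, ?_,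
    (S36FI_mem_fixK n H).2 hcH, hvc, S36BL_vq_lt_one N.A hA, hvπ,
    S36BL_val_one_sub_zeta N.A hprim⟩
  intro x hx hx0
  exact hdisc x hx0 ((S36FI_mem_fixK n H).1 hx)

end consts

section node

variable {F k k' Fk₁ Fk₂ : Type*} [Field F] [Algebra Ω F] [Field k] [Field k'] [Field Fk₁]
  [Field Fk₂] [Algebra k' Fk₁] [Algebra k' Fk₂] (N : S40NA_Node Ω F k)
  (S₁ : S18_Val Ω F k' Fk₁) (S₂ : S18_Val Ω F k' Fk₂)

/-- `hA₁`: a constant of `O₁` lies in `A`. -/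
theorem S40F2GK_hA₁ (hO₁ : N.O₁ = S₁.O) (hA : N.A = S₁.A) :
    ∀ a : Ω, algebraMap Ω F a ∈ N.O₁ → a ∈ N.A := by
  intro a ha
  rw [hO₁] at ha
  rw [hA]
  exact (S₁.algebraMap_mem_iff a).1 ha

/-- `hA₂`: a constant of `O₂` lies in `A`. -/
theorem S40F2GK_hA₂ (hO₂ : N.O₂ = S₂.O) (hA : N.A = S₂.A) :
    ∀ a : Ω, algebraMap Ω F a ∈ N.O₂ → a ∈ N.A := by
  intro a ha
  rw [hO₂] at ha
  rw [hA]
  exact (S₂.algebraMap_mem_iff a).1 ha

/-- `hfin`: finiteness of the poles on the chart. -/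
theorem S40F2GK_hfin [HasPrincipalDivisors Ω F] (hdeg : ∀ v : Place Ω F, v.deg = 1) (x : F)
    (hU : N.U = S40NI_U hdeg x) :
    ∀ g : F, {Q : S40NA_Pt Ω F | Q ∈ N.U ∧ g ∉ Q.P}.Finite := by
  intro g
  rw [hU]
  exact S40NI_poles_finite hdeg x g

end node

section inst

variable (M p : ℕ) [NeZero (M * p)] (hp : p.Prime) (hpM : ¬ p ∣ M) (A : ValuationSubring Ω)
  (hgen : PrincipalGeneratedByIntegral A (IsLocalRing.residue A) (M * p)) (H : Subgroup Γ)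

/-- **leaf (a) of `S40F2AS_node`**, all constant hypotheses at once: `hA₁`, `hA₂`, `hπC`, `hπ0`,
`hπ1`, `hπA`, `hval`, `hcC`, `hc1`, `hVp`, `hfin`, `hπ`, `hζ₀` for
`C₀ := (S36FI_act (M * p) H).fixK` and the break datum `π`, `c` of `H`. -/
theorem S40F2GK_leaf {k : Type*} [Field k]
    (N : S40NA_Node Ω ↥(modularFunctionFieldBar (M * p)) k)
    (hO₁ : N.O₁ = S34DF_O1 M p A hgen) (hO₂ : N.O₂ = S34DF_O2 M p hp hpM A hgen)
    (hNA : N.A = A)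
    (hdeg : ∀ v : Place Ω ↥(modularFunctionFieldBar (M * p)), v.deg = 1)
    (x : ↥(modularFunctionFieldBar (M * p))) (hU : N.U = S40NI_U hdeg x)
    (hA : A.LiesOverPrime p) {ζ₀ : Ω} (hprim : IsPrimitiveRoot ζ₀ p) {π c : Ω}
    (hπH : ∀ g ∈ H, g π = π) (hcH : ∀ g ∈ H, g c = c)
    (hvπ : A.valuation π ^ p = A.valuation (1 - ζ₀)) (hvc : A.valuation c = 1)
    (hdisc : ∀ x : Ω, x ≠ 0 → (∀ g ∈ H, g x = x) → ∃ k : ℤ, A.valuation x = A.valuation π ^ k) :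
    (∀ a : Ω, algebraMap Ω ↥(modularFunctionFieldBar (M * p)) a ∈ N.O₁ → a ∈ N.A) ∧
    (∀ a : Ω, algebraMap Ω ↥(modularFunctionFieldBar (M * p)) a ∈ N.O₂ → a ∈ N.A) ∧
    π ∈ (S36FI_act (M * p) H).fixK ∧ π ≠ 0 ∧ N.A.valuation π < 1 ∧ π ∈ A ∧
    (∀ x ∈ (S36FI_act (M * p) H).fixK, x ≠ 0 →
      ∃ j : ℤ, N.A.valuation x = N.A.valuation π ^ j) ∧
    c ∈ (S36FI_act (M * p) H).fixK ∧ N.A.valuation c = 1 ∧ N.A.valuation (p : Ω) < 1 ∧
    (∀ g : ↥(modularFunctionFieldBar (M * p)),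
      {Q : S40NA_Pt Ω ↥(modularFunctionFieldBar (M * p)) | Q ∈ N.U ∧ g ∉ Q.P}.Finite) ∧
    N.A.valuation π ^ p = N.A.valuation (1 - ζ₀) ∧
    N.A.valuation (1 - ζ₀) ^ (p - 1) = N.A.valuation (p : Ω) := by
  haveI : Fact p.Prime := ⟨hp⟩
  haveI : HasPrincipalDivisors Ω ↥(modularFunctionFieldBar (M * p)) := S18_hPD (M * p)
  obtain ⟨h1, h2, h3, h4, h5, h6, h7, h8, h9, h10⟩ :=
    S40F2GK_consts (M * p) H N A hNA hA hprim hπH hcH hvπ hvc hdisc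
  have hT1 : N.O₁ = (S34M_T1 M p A hgen).O := hO₁.trans (S34M_T1_O M p A hgen).symm
  have hT2 : N.O₂ = (S34M_T2 M p hp hpM A hgen).O :=
    hO₂.trans (S34M_T2_O M p hp hpM A hgen).symm
  have hA1 : N.A = (S34M_T1 M p A hgen).A := hNA
  have hA2 : N.A = (S34M_T2 M p hp hpM A hgen).A := hNA
  refine ⟨S40F2GK_hA₁ N _ hT1 hA1, S40F2GK_hA₂ N _ hT2 hA2, h1, h2, h3, hNA ▸ h4, h5, h6, h7, h8,
    S40F2GK_hfin N hdeg x hU, h9, h10⟩

/-- **leaf (a) at the node `i`** of the canonical chart (`S40NX3_main`): the node is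
`S40NI_nodeGen (S18_hRR (M * p)).deg_one 1 Nat.one_pos hx hred e₁ e₂ hW1 i`. -/
theorem S40F2GK_node (hA : A.LiesOverPrime p) {ζ₀ : Ω} (hprim : IsPrimitiveRoot ζ₀ p) {π c : Ω}
    (hπH : ∀ g ∈ H, g π = π) (hcH : ∀ g ∈ H, g c = c)
    (hvπ : A.valuation π ^ p = A.valuation (1 - ζ₀)) (hvc : A.valuation c = 1)
    (hdisc : ∀ x : Ω, x ≠ 0 → (∀ g ∈ H, g x = x) → ∃ k : ℤ, A.valuation x = A.valuation π ^ k)
    {s : ℕ}
    (e₁ : Fin s → ↥(S34M_chart M p A 1 Nat.one_pos).Rb₁ →ₐ[IsLocalRing.ResidueField A]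
        IsLocalRing.ResidueField A)
    (e₂ : Fin s → ↥(S34M_chart M p A 1 Nat.one_pos).Rb₂ →ₐ[IsLocalRing.ResidueField A]
        IsLocalRing.ResidueField A)
    (hW1 : S34K_W (S34M_same M p hp hpM A hgen) (S34M_chart M p A 1 Nat.one_pos) 1 =
        S34B_W e₁ e₂)
    (hx : S34P_Hyp (S34M_T1 M p A hgen) (S34M_T2 M p hp hpM A hgen)
        (S34M_same M p hp hpM A hgen) (S34PX_j M p hp hpM A hgen))
    (hred : S34P_red (S34M_T1 M p A hgen) (S34M_T2 M p hp hpM A hgen)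
        (S34PX_j M p hp hpM A hgen) = (S34M_xb M p A, S34M_xb M p A ^ p)) (i : Fin s) :
    let N := S40NI_nodeGen (S18_hRR (M * p)).deg_one 1 Nat.one_pos hx hred e₁ e₂ hW1 i
    (∀ a : Ω, algebraMap Ω ↥(modularFunctionFieldBar (M * p)) a ∈ N.O₁ → a ∈ N.A) ∧
    (∀ a : Ω, algebraMap Ω ↥(modularFunctionFieldBar (M * p)) a ∈ N.O₂ → a ∈ N.A) ∧
    π ∈ (S36FI_act (M * p) H).fixK ∧ π ≠ 0 ∧ N.A.valuation π < 1 ∧ π ∈ A ∧
    (∀ x ∈ (S36FI_act (M * p) H).fixK, x ≠ 0 →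
      ∃ j : ℤ, N.A.valuation x = N.A.valuation π ^ j) ∧
    c ∈ (S36FI_act (M * p) H).fixK ∧ N.A.valuation c = 1 ∧ N.A.valuation (p : Ω) < 1 ∧
    (∀ g : ↥(modularFunctionFieldBar (M * p)),
      {Q : S40NA_Pt Ω ↥(modularFunctionFieldBar (M * p)) | Q ∈ N.U ∧ g ∉ Q.P}.Finite) ∧
    N.A.valuation π ^ p = N.A.valuation (1 - ζ₀) ∧
    N.A.valuation (1 - ζ₀) ^ (p - 1) = N.A.valuation (p : Ω) :=
  S40F2GK_leaf M p hp hpM A hgen H
    (S40NI_nodeGen (S18_hRR (M * p)).deg_one 1 Nat.one_pos hx hred e₁ e₂ hW1 i)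
    (S34M_T1_O M p A hgen) (S34M_T2_O M p hp hpM A hgen) rfl (S18_hRR (M * p)).deg_one _ rfl
    hA hprim hπH hcH hvπ hvc hdisc

end inst

end Fermat.Agent.S40
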