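import Mathlib
import Fermat.Agent.S40.F2GrpK

/-!
# TRACK 13 (S40 / S44, row 38), (F2'): leaf (a) in the `A`-form of `S40F2AI_node` (helper23).
Prefix `S40F2GK2_`.

* `S40F2GK2_consts` : for `C₀ := (S36FI_act n H).fixK` and the break datum `π`, `c` of `H`:
  `hπC`, `hπ0`, `hπ1`, `hval`, `hcC`, `hc1`, `hπ`, `hζ₀` of `S40F2AI_node` (valuations of `A`);
* `S40F2GK2_mem_map` : an `H`-fixed constant lies in `C₀.map (algebraMap Ω F)`
  (for `hc₁`, `hc₂`, `hY₁`, `hY₂`);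
* **`S40F2GK2_top`** : under the hypotheses of (F2-OUT): `σ`, `H` (fixing `V`), the group facts,
  the break datum AND the constants of `S40F2AI_node` in one statement.
-/

set_option autoImplicit false
set_option linter.unusedSectionVars false
set_option linter.unusedVariables false
set_option linter.style.haveILetI false
set_option synthInstance.maxHeartbeats 400000
set_option maxHeartbeats 1000000

open AlgebraicCurve ModularCurve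

noncomputable section

namespace Fermat.Agent.S40

open WeierstrassCurve Fermat.Agent.S18 Fermat.Agent.S24 Fermat.Agent.S34 Fermat.Agent.S36
  Fermat.Agent.GalRep Fermat.Agent.S33 Fermat.Agent.S19

local notation "Ω" => AlgebraicClosure ℚ
local notation "Γ" => (AlgebraicClosure ℚ ≃ₐ[ℚ] AlgebraicClosure ℚ)

section consts

variable (n : ℕ) (H : Subgroup Γ) (A : ValuationSubring Ω) {p : ℕ}

/-- **leaf (a), `A`-form**: the constant hypotheses of `S40F2AI_node`. -/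
theorem S40F2GK2_consts (hp : p.Prime) (hA : A.LiesOverPrime p) {ζ : Ω}
    (hprim : IsPrimitiveRoot ζ p) {π c : Ω}
    (hπH : ∀ g ∈ H, g π = π) (hcH : ∀ g ∈ H, g c = c)
    (hvπ : A.valuation π ^ p = A.valuation (1 - ζ)) (hvc : A.valuation c = 1)
    (hdisc : ∀ x : Ω, x ≠ 0 → (∀ g ∈ H, g x = x) → ∃ k : ℤ, A.valuation x = A.valuation π ^ k) :
    π ∈ (S36FI_act n H).fixK ∧ π ≠ 0 ∧ A.valuation π < 1 ∧
    (∀ x ∈ (S36FI_act n H).fixK, x ≠ 0 → ∃ j : ℤ, A.valuation x = A.valuation π ^ j) ∧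
    c ∈ (S36FI_act n H).fixK ∧ A.valuation c = 1 ∧
    A.valuation π ^ p = A.valuation (1 - ζ) ∧
    A.valuation (1 - ζ) ^ (p - 1) = A.valuation (p : Ω) := by
  haveI : Fact p.Prime := ⟨hp⟩
  have hζ1 : (1 - ζ : Ω) ≠ 0 := S33BZ_one_sub_ne_zero hprim
  have hΛ1 : A.valuation (1 - ζ) < 1 := S33BZ_val_one_sub_lt A hA hprim
  have hπ0 : π ≠ 0 := by
    intro h0
    rw [h0, map_zero, zero_pow hp.ne_zero] at hvπ
    exact ((map_ne_zero A.valuation).mpr hζ1) hvπ.symm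
  have hvπ1 : A.valuation π < 1 := by
    by_contra hcon
    push Not at hcon
    have h1 : (1 : _) ≤ A.valuation π ^ p := one_le_pow₀ hcon
    rw [hvπ] at h1
    exact absurd hΛ1 (not_lt.mpr h1)
  exact ⟨(S36FI_mem_fixK n H).2 hπH, hπ0, hvπ1,
    fun x hx hx0 => hdisc x hx0 ((S36FI_mem_fixK n H).1 hx),
    (S36FI_mem_fixK n H).2 hcH, hvc, hvπ, S36BL_val_one_sub_zeta A hprim⟩

/-- an `H`-fixed constant lies in `C₀.map (algebraMap Ω F)`. -/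
theorem S40F2GK2_mem_map {F : Type*} [Field F] [Algebra Ω F] {d : Ω} (hd : ∀ g ∈ H, g d = d) :
    algebraMap Ω F d ∈ ((S36FI_act n H).fixK).map (algebraMap Ω F) :=
  ⟨d, (S36FI_mem_fixK n H).2 hd, rfl⟩

end consts

section top

variable (W : WeierstrassCurve ℤ) {p : ℕ} (A : ValuationSubring Ω) {N : ℕ} [NeZero N]
  (V : AddSubgroup (JZero N))

/-- **the top of the node chain**: under the hypotheses of (F2-OUT) there are `σ ∈ I¹`,
`H ≤ I¹` fixing `V` pointwise, with all the group facts, the break datum `π, c, r, t` and the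
constants of `S40F2AI_node` for `C₀ = (S36FI_act n H).fixK`. -/
theorem S40F2GK2_top (n : ℕ) (hΔ : W.Δ ≠ 0) (hp : p.Prime) (hp2 : p ≠ 2)
    (hA : A.LiesOverPrime p)
    (hVp : ∀ x ∈ V, p • x = 0) (hstab : ∀ g : Γ, ∀ y ∈ V, g • y ∈ V)
    (hB : S40DJ_CaseB W A p) (hR : S40D_Rel W p N V) (hK : S40D_Ker W p N V)
    (hInv : S40D_InvJ N A p V)
    {ζ : Ω} (hprim : IsPrimitiveRoot ζ p) :
    ∃ (σ : Γ) (H : Subgroup Γ), σ ∈ S40D_I1 A p ∧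
    (∀ g ∈ H, ∀ y ∈ V, g • y = y) ∧
    (∀ g ∈ S40D_I1 A p, ∃ k : ℕ, ∀ y ∈ V, g • y = (σ ^ k) • y) ∧
    (∀ y ∈ V, (σ ^ p) • y = y) ∧
    (∀ x ∈ V, σ • x - x ∈ V ∧ ∀ g ∈ S40D_I1 A p, g • (σ • x - x) = σ • x - x) ∧
    (∀ g ∈ H, g ∈ S40D_I1 A p) ∧
    (∀ g ∈ S40D_I1 A p, ∃ k : ℕ, (σ ^ k)⁻¹ * g ∈ H) ∧
    (∀ g ∈ H, ∀ j : ℕ, (σ ^ j)⁻¹ * g * σ ^ j ∈ H) ∧
    (∀ g ∈ H, σ⁻¹ * g * σ ∈ H) ∧
    σ ^ p ∈ H ∧
    ∃ (π c r : Ω) (t : ℕ), 1 ≤ t ∧ t ≤ p - 1 ∧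
      (∀ g ∈ H, g π = π) ∧ (∀ g ∈ H, g c = c) ∧ (∀ g ∈ H, g r = r) ∧
      A.valuation π ^ p = A.valuation (1 - ζ) ∧ A.valuation c = 1 ∧ A.valuation r ≤ 1 ∧
      σ π = π * (1 + c * π ^ t) + π ^ (t + 2) * r ∧
      (∀ x : Ω, x ≠ 0 → (∀ g ∈ H, g x = x) → ∃ k : ℤ, A.valuation x = A.valuation π ^ k) ∧
      π ∈ (S36FI_act n H).fixK ∧ π ≠ 0 ∧ A.valuation π < 1 ∧
      (∀ x ∈ (S36FI_act n H).fixK, x ≠ 0 → ∃ j : ℤ, A.valuation x = A.valuation π ^ j) ∧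
      c ∈ (S36FI_act n H).fixK ∧
      A.valuation (1 - ζ) ^ (p - 1) = A.valuation (p : Ω) := by
  obtain ⟨σ, H, hσ, hHV, hcyc, hσpV, hz, hHI, hdec, hconj, hnorm, hσp, π, c, r, t, ht1, htp, hπH,
    hcH, hrH, hvπ, hvc, hvr, hunif, hdisc⟩ :=
    S40F2GZ_main W A V hΔ hp hp2 hA hVp hstab hB hR hK hInv hprim
  obtain ⟨k1, k2, k3, k4, k5, -, -, k8⟩ :=
    S40F2GK2_consts n H A hp hA hprim hπH hcH hvπ hvc hdisc
  exact ⟨σ, H, hσ, hHV, hcyc, hσpV, hz, hHI, hdec, hconj, hnorm, hσp, π, c, r, t, ht1, htp, hπH,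
    hcH, hrH, hvπ, hvc, hvr, hunif, hdisc, k1, k2, k3, k4, k5, k8⟩

end top

end Fermat.Agent.S40
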