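import Mathlib
import Fermat.Agent.S40.F2HJ
import Fermat.Agent.S40.F2E
import Fermat.Agent.S40.Defs

/-!
# TRACK 13 (S40/S44, row 38), (F2'): the leaf (h) of the node assembly (helper22).
Prefix `S40F2MEI_`.

For a class `x` of the `W`-eigenspace `S40D_V0 W p N` with Kummer generator `u` of exponent `p`:
a prime `ℓ ∤ N`, `ℓ ≠ p`, good for `W`, outside any finite set `T`, with `p ∤ a_ℓ(W) − ℓ − 1`
(`S40F2E_main`), a primitive `ℓ`-th root of unity `ζ` with `hst : GRS_Stab N ℓ ζ`, and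

    `hE : t u = κ · u ^ a · g ^ p`,   `a = a_ℓ(W)`,   `t = GRS_t hst`   (P6-J, `S40F2HJ_main`).

* `S40F2MEI_hE` : `hE` for a given good `ℓ` and `hst`;
* `S40F2MEI_main` : the existence of `ℓ`, `ζ`, `hst`, `a`, `κ`, `g` with `ha` and `hE`.
-/

set_option autoImplicit false
set_option linter.style.haveILetI false
set_option linter.unusedSectionVars false
set_option linter.unusedVariables false
set_option synthInstance.maxHeartbeats 400000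
set_option maxHeartbeats 1000000

open AlgebraicCurve ModularCurve

noncomputable section

namespace Fermat.Agent.S40

open Fermat.Agent.S17 Fermat.Agent.S18 Fermat.Agent.S19 Fermat.Agent.S24 Fermat.Agent.S32
  Fermat.Agent.S33 Fermat.Agent.S37 Fermat.Agent.GalRep Fermat.Agent.Lib Fermat.Agent.S16

local notation "Kb" => AlgebraicClosure ℚ

variable {N : ℕ} [NeZero N]

/-- **`hE`** for a class of the `W`-eigenspace, a good prime `ℓ ∤ N`, `ℓ ≠ p`. -/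
theorem S40F2MEI_hE (W : WeierstrassCurve ℤ) {p : ℕ} (hp : p.Prime) (ℓ : Nat.Primes)
    (hgood : W.IsGoodPrimeFor ℓ) (hℓN : ¬ (ℓ : ℕ) ∣ N) (hℓp : (ℓ : ℕ) ≠ p)
    {ζ : Kbˣ} (hζ : IsPrimitiveRoot (ζ : Kb) (ℓ : ℕ))
    (hst : haveI : NeZero (ℓ : ℕ) := ⟨ℓ.2.ne_zero⟩; GRS_Stab N (ℓ : ℕ) ζ)
    {x : JZero N} (hx : x ∈ S40D_V0 W p N) {u : ↥(modularFunctionFieldBar N)}
    (hu : S33DG_IsGen p x u) :
    haveI : NeZero (ℓ : ℕ) := ⟨ℓ.2.ne_zero⟩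
    ∃ (κ : Kb) (g : ↥(modularFunctionFieldBar N)), κ ≠ 0 ∧ g ≠ 0 ∧
      GRS_t hst u = algebraMap Kb ↥(modularFunctionFieldBar N) κ * u ^ (W.apOfModel ℓ) * g ^ p := by
  haveI : NeZero (ℓ : ℕ) := ⟨ℓ.2.ne_zero⟩
  have hℓp' : ¬ (ℓ : ℕ) ∣ p := fun hd =>
    hℓp ((Nat.prime_dvd_prime_iff_eq ℓ.2 hp).1 hd)
  exact S40F2HJ_main ℓ hℓN hp.pos hℓp' hζ hst hu (W.apOfModel ℓ) (hx.2 ℓ hgood hℓN hℓp)

/-- **the leaf (h)**: a prime `ℓ` with `p ∤ a_ℓ − ℓ − 1` and the relation `hE` at `ℓ`. -/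
theorem S40F2MEI_main (W : WeierstrassCurve ℤ) (hΔ : W.Δ ≠ 0) {p : ℕ} (hp : p.Prime)
    (hp2 : p ≠ 2) (hirr : W.ModRepIsIrreducible p) (T : Finset ℕ)
    {x : JZero N} (hx : x ∈ S40D_V0 W p N) {u : ↥(modularFunctionFieldBar N)}
    (hu : S33DG_IsGen p x u) :
    ∃ (ℓ : Nat.Primes) (_ : (ℓ : ℕ) ∉ T) (_ : W.IsGoodPrimeFor ℓ) (_ : ¬ (ℓ : ℕ) ∣ N)
      (_ : (ℓ : ℕ) ≠ p) (_ : ¬ (p : ℤ) ∣ W.apOfModel ℓ - (ℓ : ℕ) - 1)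
      (ζ : Kbˣ) (_ : IsPrimitiveRoot (ζ : Kb) (ℓ : ℕ))
      (hst : haveI : NeZero (ℓ : ℕ) := ⟨ℓ.2.ne_zero⟩; GRS_Stab N (ℓ : ℕ) ζ)
      (κ : Kb) (g : ↥(modularFunctionFieldBar N)), κ ≠ 0 ∧ g ≠ 0 ∧
      (haveI : NeZero (ℓ : ℕ) := ⟨ℓ.2.ne_zero⟩
       GRS_t hst u =
        algebraMap Kb ↥(modularFunctionFieldBar N) κ * u ^ (W.apOfModel ℓ) * g ^ p) := by
  obtain ⟨ℓ, hℓ, hℓT, hgood, hℓN, hℓp, hnd⟩ :=
    S40F2E_main W hΔ hp hp2 hirr N (Nat.pos_of_ne_zero (NeZero.ne N)) T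
  haveI : NeZero ℓ := ⟨hℓ.ne_zero⟩
  obtain ⟨ζ, hζ⟩ := GRS_exists_zeta ℓ
  have hst : GRS_Stab N ℓ ζ := GRHS_stab ζ hζ hℓ
  obtain ⟨κ, g, hκ, hg, e⟩ :=
    S40F2MEI_hE W hp ⟨ℓ, hℓ⟩ hgood hℓN hℓp hζ hst hx hu
  exact ⟨⟨ℓ, hℓ⟩, hℓT, hgood, hℓN, hℓp, hnd, ζ, hζ, hst, κ, g, hκ, hg, e⟩

end Fermat.Agent.S40
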