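import Fermat.Agent.S40.F2PolyInst
import Fermat.Agent.S40.NodeInst
import Fermat.Agent.S33.Degen

/-!
# TRACK 13 (S40), (F2'), gap (A1): the leaf `hpow` (helper1).  Prefix `S40F2YP_`.

A Kummer generator (`p ∣ ord_v u` at every place) is, at every rational place, a `p`-th power up
to a unit: the hypothesis `hpow` of `S40F2YK_hdiv` / `S40F2YL_hdiv`.

* `S40F2YP_place` : at one place;
* `S40F2YP_hpow`  : for a node whose chart is `S40NI_U hdeg x` (all nodes of `S40NI_exists_nodes`);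
* `S40F2YP_hpow_kum`, `S40F2YP_hpow_gen` : from `KM_IsKum`, from `S33DG_IsGen`.
-/

set_option autoImplicit false
set_option linter.unusedSectionVars false
set_option linter.unusedVariables false

open AlgebraicCurve

namespace Fermat.Agent.S40

open Fermat.Agent.Lib Fermat.Agent.S18 Fermat.Agent.S24 Fermat.Agent.S34 Fermat.Agent.GalRep
  Fermat.Agent.S33

section

variable {K F : Type*} [Field K] [Field F] [Algebra K F]

/-- at a place `v` with `p ∣ ord_v u`, `u` is a `p`-th power up to a unit. -/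
theorem S40F2YP_place (v : Place K F) (hdeg : v.deg = 1) {u : F} (hu : u ≠ 0) {p : ℕ}
    (hp : (p : ℤ) ∣ v.ord u) :
    ∃ g : F, g ≠ 0 ∧ S40F2S_IsU (S40NI_pt v hdeg).P (u / g ^ p) := by
  obtain ⟨π, hπ⟩ := IsDiscreteValuationRing.exists_irreducible v.toValuationSubring
  obtain ⟨ε, hε⟩ := v.exists_unit_mul_zpow hu hπ
  obtain ⟨k, hk⟩ := hp
  have hπF : (π : F) ≠ 0 := by
    simpa [ne_eq, ZeroMemClass.coe_eq_zero] using hπ.ne_zero
  refine ⟨(π : F) ^ k, zpow_ne_zero _ hπF, ?_⟩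
  have e : u / ((π : F) ^ k) ^ p = ((ε : v.toValuationSubring) : F) := by
    have h1 : ((π : F) ^ k) ^ p = (π : F) ^ (v.ord u) := by
      rw [hk, mul_comm (p : ℤ) k, zpow_mul, zpow_natCast]
    rw [h1]
    have h2 : (π : F) ^ (v.ord u) ≠ 0 := zpow_ne_zero _ hπF
    rw [div_eq_iff h2]
    exact hε
  rw [e, S40F2S_isU_iff]
  refine ⟨(ε : v.toValuationSubring).2, ?_, ?_⟩
  · have : (((ε : v.toValuationSubring) : F))⁻¹ = ((ε⁻¹ : v.toValuationSubringˣ) :
        v.toValuationSubring) := by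
      have h3 : (((ε⁻¹ : v.toValuationSubringˣ) : v.toValuationSubring) : F) *
          ((ε : v.toValuationSubring) : F) = 1 := by
        have h4 : ((ε⁻¹ : v.toValuationSubringˣ) : v.toValuationSubring) *
            (ε : v.toValuationSubring) = 1 := Units.inv_mul ε
        have h5 := congrArg (Subtype.val) h4
        exact h5
      exact (eq_inv_of_mul_eq_one_left h3).symm
    rw [this]
    exact ((ε⁻¹ : v.toValuationSubringˣ) : v.toValuationSubring).2
  · simp [ne_eq, ZeroMemClass.coe_eq_zero]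

/-- **`hpow`** for a chart of the form `S40NI_U hdeg x`. -/
theorem S40F2YP_hpow {k : Type*} [Field k] (N : S40NA_Node K F k)
    (hdeg : ∀ v : Place K F, v.deg = 1) (x : F) (hNU : N.U = S40NI_U hdeg x) {u : F}
    (hu : u ≠ 0) {p : ℕ} (hdvd : ∀ v : Place K F, (p : ℤ) ∣ v.ord u) :
    ∀ (Q : S40NA_Pt K F) (hQ : Q ∈ N.U), S40NA_Centred N Q hQ →
      ∃ g : F, g ≠ 0 ∧ S40F2S_IsU Q.P (u / g ^ p) := by
  intro Q hQ _
  have hQ' : Q ∈ S40NI_U hdeg x := hNU ▸ hQ
  obtain ⟨v, -, rfl⟩ := hQ'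
  exact S40F2YP_place v (hdeg v) hu (hdvd v)

/-- from `S33DG_IsGen`. -/
theorem S40F2YP_dvd_of_gen {p : ℕ} {y : Pic0 K F} {u : F} (h : S33DG_IsGen p y u) :
    u ≠ 0 ∧ ∀ v : Place K F, (p : ℤ) ∣ v.ord u := by
  obtain ⟨D, -, hu, hD⟩ := h
  exact ⟨hu, fun v => ⟨_, (hD v).symm⟩⟩

end

/-- from `KM_IsKum`. -/
theorem S40F2YP_dvd_of_kum {K F : Type} [Field K] [Field F] [Algebra K F] {p : ℕ} {u : F}
    (h : KM_IsKum K F p u) : u ≠ 0 ∧ ∀ v : Place K F, (p : ℤ) ∣ v.ord u := h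

end Fermat.Agent.S40
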