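import Mathlib
import Fermat.Agent.S40.F2AsmInst
import Fermat.Agent.S40.F2GrpK2
import Fermat.Agent.S40.F2MainEig
import Fermat.Agent.S40.F2ABYNode
import Fermat.Agent.S40.F2AsmD
import Fermat.Agent.S40.F2Desc
import Fermat.Agent.S40.F2PolyPow

/-!
# TRACK 13 (S40 / S44), (F2'), TOP of the node chain (helper16).  Prefix `S40F2AT_`.

`S40F2AT_node` : **(Loc₁) at a canonical node `P i`**: for `x ∈ V` there is a Kummer generator
`u` of `x`, a unit of `T₁`, with `p ∣ ord_{P i} (red₁ u)`.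

Wired inside: `S40F2GK2_top` (group + break + constants), `S40F2D_gen_fixed` (an `H`-rational
generator), `S40F2AD_node` (`c₁`, `c₂`), `S40F2ABN_main` (`Y₁`, `Y₂`, `H1`, `H2`),
`S40F2MEI_main` (`ℓ`, `hE`, `ha`), `S40F2HJ_gal`, `S40F2AI_node`.

The TWO remaining leaves are hypotheses, as named `Prop`s:

* `S40F2AT_Start` (START for `u_z`, the input of `S40F2ABN_main`), for every datum
  `S40F2AT_Data` (= the output of `S40F2GK2_top`);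
* `S40F2AT_Hdiv` (the field `hdiv` of `S40F2M2_Gen` with `y = σ u / u`), together with the
  coordinate `Cn` of the node (thickness `p ^ e`, `ord_{P i} (red₁ X) = 1`), for every
  `H`-fixed `u₀ ≠ 0` whose divisor is divisible by `p`.
-/

set_option autoImplicit false
set_option synthInstance.maxHeartbeats 400000
set_option maxHeartbeats 2000000
set_option linter.unusedSectionVars false
set_option linter.unusedVariables false
set_option linter.style.haveILetI false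

open HahnSeries IntermediateField AlgebraicCurve ModularCurve

noncomputable section

namespace Fermat.Agent.S40

open WeierstrassCurve Fermat.Agent.Lib Fermat.Agent.S18 Fermat.Agent.S24 Fermat.Agent.S34
  Fermat.Agent.S36 Fermat.Agent.GalRep Fermat.Agent.S33 Fermat.Agent.S19

local notation "Ω" => AlgebraicClosure ℚ
local notation "Γ" => (AlgebraicClosure ℚ ≃ₐ[ℚ] AlgebraicClosure ℚ)

section defs

variable (M p : ℕ) [NeZero (M * p)] (hp : p.Prime) (hpM : ¬ p ∣ M)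
  (A : ValuationSubring Ω)
  (hgen : PrincipalGeneratedByIntegral A (IsLocalRing.residue A) (M * p))

/-- the output of `S40F2GK2_top` for `(σ, H, π, c, r, t)`. -/
def S40F2AT_Data (V : AddSubgroup (JZero (M * p))) (ζ : Ω) (σ : Γ) (H : Subgroup Γ)
    (π c r : Ω) (t : ℕ) : Prop :=
  (σ ∈ S40D_I1 A p ∧
    (∀ g ∈ H, ∀ y ∈ V, g • y = y) ∧
    (∀ g ∈ S40D_I1 A p, ∃ k : ℕ, ∀ y ∈ V, g • y = (σ ^ k) • y) ∧
    (∀ y ∈ V, (σ ^ p) • y = y) ∧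
    (∀ x ∈ V, σ • x - x ∈ V ∧ ∀ g ∈ S40D_I1 A p, g • (σ • x - x) = σ • x - x) ∧
    (∀ g ∈ H, g ∈ S40D_I1 A p) ∧
    (∀ g ∈ S40D_I1 A p, ∃ k : ℕ, (σ ^ k)⁻¹ * g ∈ H) ∧
    (∀ g ∈ H, ∀ j : ℕ, (σ ^ j)⁻¹ * g * σ ^ j ∈ H) ∧
    (∀ g ∈ H, σ⁻¹ * g * σ ∈ H) ∧
    σ ^ p ∈ H) ∧
  (1 ≤ t ∧ t ≤ p - 1 ∧
    (∀ g ∈ H, g π = π) ∧ (∀ g ∈ H, g c = c) ∧ (∀ g ∈ H, g r = r) ∧
    A.valuation π ^ p = A.valuation (1 - ζ) ∧ A.valuation c = 1 ∧ A.valuation r ≤ 1 ∧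
    σ π = π * (1 + c * π ^ t) + π ^ (t + 2) * r ∧
    (∀ x : Ω, x ≠ 0 → (∀ g ∈ H, g x = x) → ∃ k : ℤ, A.valuation x = A.valuation π ^ k) ∧
    π ∈ (S36FI_act (M * p) H).fixK ∧ π ≠ 0 ∧ A.valuation π < 1 ∧
    (∀ x ∈ (S36FI_act (M * p) H).fixK, x ≠ 0 →
      ∃ j : ℤ, A.valuation x = A.valuation π ^ j) ∧
    c ∈ (S36FI_act (M * p) H).fixK ∧
    A.valuation (1 - ζ) ^ (p - 1) = A.valuation (p : Ω))

/-- **leaf START**: a generator `u_z` of `z = σ x − x`, rational over `H` and fixed by `σ`,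
congruent to unit constants modulo `(1 − ζ) ^ n`, `p t + 1 ≤ p n`, at `V₁` and at `V₂`
(the inputs of `S40F2ABN_main`). -/
def S40F2AT_Start (ζ : Ω) (σ : Γ) (H : Subgroup Γ) (t : ℕ) (x : JZero (M * p)) : Prop :=
  ∃ (u_z : ↥(modularFunctionFieldBar (M * p))) (n : ℕ) (b₁ b₂ : Ω),
    S33DG_IsGen p (σ • x - x) u_z ∧
    (∀ g ∈ H, GR_gal (M * p) g u_z = u_z) ∧ GR_gal (M * p) σ u_z = u_z ∧
    p * t + 1 ≤ p * n ∧
    (∀ g ∈ H, g b₁ = b₁) ∧ A.valuation b₁ = 1 ∧ (∀ g ∈ H, g b₂ = b₂) ∧ A.valuation b₂ = 1 ∧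
    (∃ l ∈ S34DF_O1 M p A hgen,
      u_z - algebraMap Ω ↥(modularFunctionFieldBar (M * p)) b₁ =
        algebraMap Ω ↥(modularFunctionFieldBar (M * p)) (1 - ζ) ^ n * l) ∧
    (∃ l ∈ S34DF_O2 M p hp hpM A hgen,
      u_z - algebraMap Ω ↥(modularFunctionFieldBar (M * p)) b₂ =
        algebraMap Ω ↥(modularFunctionFieldBar (M * p)) (1 - ζ) ^ n * l)

/-- **leaf (g)**: the field `hdiv` of `S40F2M2_Gen` for `(u₀, y₀)` at the node `N` with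
coordinate `Cn` and constants `C₀`, `π`, `c`. -/
def S40F2AT_Hdiv {k : Type*} [Field k]
    (N : S40NA_Node Ω ↥(modularFunctionFieldBar (M * p)) k) (Cn : S40F2N_Coord N)
    (C₀ : Subfield Ω) (π c : Ω) (t : ℕ) (u₀ y₀ : ↥(modularFunctionFieldBar (M * p))) : Prop :=
  ∃ (ι : Type) (s' : Finset ι) (w : ι → ↥(modularFunctionFieldBar (M * p)))
    (m : ι → ℤ) (u' E : ↥(modularFunctionFieldBar (M * p))),
    (∀ i' ∈ s', w i' ≠ 0) ∧ (∀ i' ∈ s', w i' ∈ N.O₁.nonunits) ∧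
    (∀ i' ∈ s', algebraMap Ω ↥(modularFunctionFieldBar (M * p)) Cn.ϖ / w i' ∈
      N.O₂.nonunits) ∧
    S40F2SN_NoZP N u' ∧
    u₀ = u' * ∏ i' ∈ s', (Cn.X - w i') ^ ((p : ℤ) * m i') ∧
    ∏ i' ∈ s', w i' ^ m i' ∈ C₀.map (algebraMap Ω ↥(modularFunctionFieldBar (M * p))) ∧
    S40F2K_Reg N (y₀ / E ^ p) ∧
    S40F2J_Cg N.O₁.valuation (algebraMap Ω ↥(modularFunctionFieldBar (M * p)) π) t E 0 ∧
    S40F2J_Cg N.O₂.valuation (algebraMap Ω ↥(modularFunctionFieldBar (M * p)) π) t E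
      (algebraMap Ω ↥(modularFunctionFieldBar (M * p)) c *
        ((S40F2MV_vL N.O₁ (algebraMap Ω ↥(modularFunctionFieldBar (M * p)) π)
          (∏ i' ∈ s', w i' ^ m i') : ℤ) : ↥(modularFunctionFieldBar (M * p))))

end defs

section gen

variable {K F : Type*} [Field K] [Field F] [Algebra K F]

/-- a Kummer generator divided by a nonzero constant is a Kummer generator. -/
theorem S40F2AT_isGen_div {n : ℕ} {x : Pic0 K F} {u : F} (h : S33DG_IsGen n x u) {b : K}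
    (hb : b ≠ 0) : S33DG_IsGen n x (u / algebraMap K F b) := by
  obtain ⟨D, hD, hu, hord⟩ := h
  have hb' : algebraMap K F b ≠ 0 := (map_ne_zero _).mpr hb
  refine ⟨D, hD, div_ne_zero hu hb', fun v => ?_⟩
  rw [div_eq_mul_inv, v.ord_mul hu (inv_ne_zero hb'), v.ord_inv, S33DG_ord_algebraMap,
    neg_zero, add_zero]
  exact hord v

end gen

section inst

variable (M p : ℕ) [NeZero M] [NeZero (M * p)] [NeZero p] (hp : p.Prime) (hpM : ¬ p ∣ M)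
  (A : ValuationSubring Ω) (hA : A.LiesOverPrime p)
  (hgen : PrincipalGeneratedByIntegral A (IsLocalRing.residue A) (M * p))

variable {s : ℕ}
  (e₁ : Fin s → ↥(S34M_chart M p A 1 Nat.one_pos).Rb₁ →ₐ[IsLocalRing.ResidueField A]
    IsLocalRing.ResidueField A)
  (e₂ : Fin s → ↥(S34M_chart M p A 1 Nat.one_pos).Rb₂ →ₐ[IsLocalRing.ResidueField A]
    IsLocalRing.ResidueField A)
  (P : Fin s → Place (IsLocalRing.ResidueField A)
    ↥(modularFunctionFieldFullC (IsLocalRing.ResidueField A) (M * p)))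
  (hE : Function.Surjective (S34B_E e₁ e₂))
  (hW1 : S34K_W (S34M_same M p hp hpM A hgen) (S34M_chart M p A 1 Nat.one_pos) 1 =
    S34B_W e₁ e₂)
  (hx : S34P_Hyp (S34M_T1 M p A hgen) (S34M_T2 M p hp hpM A hgen) (S34M_same M p hp hpM A hgen)
    (S34PX_j M p hp hpM A hgen))
  (hred : S34P_red (S34M_T1 M p A hgen) (S34M_T2 M p hp hpM A hgen)
    (S34PX_j M p hp hpM A hgen) = (S34M_xb M p A, S34M_xb M p A ^ p))
  (hP : ∀ i, 0 ≤ (P i).ord (S34M_xb M p A))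
  (he₁ : ∀ i (a : ↥(S34M_chart M p A 1 Nat.one_pos).Rb₁), e₁ i a = FD_c0 (P i) (a : _))

include hA hE hP he₁ in
/-- **(Loc₁) at the canonical node `P i`**. -/
theorem S40F2AT_node (W : WeierstrassCurve ℤ) (hΔ : W.Δ ≠ 0) (hp5 : 5 ≤ p)
    (hirr : W.ModRepIsIrreducible p)
    (V : AddSubgroup (JZero (M * p))) (hV0 : ∀ x ∈ V, x ∈ S40D_V0 W p (M * p))
    (hVp : ∀ x ∈ V, p • x = 0) (hstab : ∀ g : Γ, ∀ y ∈ V, g • y ∈ V)
    (hB : S40DJ_CaseB W A p) (hR : S40D_Rel W p (M * p) V) (hK : S40D_Ker W p (M * p) V)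
    (hInv : S40D_InvJ (M * p) A p V)
    {ζ₀ : Ω} (hprim : IsPrimitiveRoot ζ₀ p)
    (x : JZero (M * p)) (hxV : x ∈ V) (i : Fin s)
    (hSTART : ∀ (σ : Γ) (H : Subgroup Γ) (π c r : Ω) (t : ℕ),
      S40F2AT_Data M p A V ζ₀ σ H π c r t → S40F2AT_Start M p hp hpM A hgen ζ₀ σ H t x)
    (hHDIV : ∀ (σ : Γ) (H : Subgroup Γ) (π c r : Ω) (t : ℕ),
      S40F2AT_Data M p A V ζ₀ σ H π c r t →
      ∃ (Cn : S40F2N_Coord
          (S40NI_nodeGen (S18_hRR (M * p)).deg_one 1 Nat.one_pos hx hred e₁ e₂ hW1 i))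
        (e : ℕ) (hXU : S40F2S_IsU (S34M_T1 M p A hgen).O Cn.X),
        Cn.ϖ = (p : Ω) ^ e ∧
        (P i).ord ((S34M_T1 M p A hgen).red ⟨Cn.X, hXU.mem⟩) = 1 ∧
        ∀ u₀ : ↥(modularFunctionFieldBar (M * p)), u₀ ≠ 0 →
          (∀ g ∈ H, GR_gal (M * p) g u₀ = u₀) →
          (∀ v : Place Ω ↥(modularFunctionFieldBar (M * p)), (p : ℤ) ∣ v.ord u₀) →
          S40F2AT_Hdiv M p
            (S40NI_nodeGen (S18_hRR (M * p)).deg_one 1 Nat.one_pos hx hred e₁ e₂ hW1 i) Cn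
            (S36FI_act (M * p) H).fixK π c t u₀ (GR_gal (M * p) σ u₀ / u₀)) :
    ∃ (u : ↥(modularFunctionFieldBar (M * p))) (h : u ∈ (S34M_T1 M p A hgen).O),
      S33DG_IsGen p x u ∧ (S34M_T1 M p A hgen).red ⟨u, h⟩ ≠ 0 ∧
      (p : ℤ) ∣ (P i).ord ((S34M_T1 M p A hgen).red ⟨u, h⟩) := by
  have hp2 : p ≠ 2 := by omega
  -- the group, the break, the constants
  obtain ⟨σ, H, hσ, hHV, hcyc, hσpV, hz, hHI, hdec, hconj, hnorm, hσp, π, c, r, t, ht1, htp, hπH,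
    hcH, hrH, hvπ, hvc, hvr, hunif, hdisc, hπC, hπ0, hπ1, hval, hcC, hζ₀⟩ :=
    S40F2GK2_top W A V (M * p) hΔ hp hp2 hA hVp hstab hB hR hK hInv hprim
  have hData : S40F2AT_Data M p A V ζ₀ σ H π c r t :=
    ⟨⟨hσ, hHV, hcyc, hσpV, hz, hHI, hdec, hconj, hnorm, hσp⟩, ht1, htp, hπH, hcH, hrH, hvπ, hvc,
      hvr, hunif, hdisc, hπC, hπ0, hπ1, hval, hcC, hζ₀⟩
  -- the generators
  obtain ⟨u, hu, huH, hucoef⟩ := S40F2D_gen_fixed (N := M * p) (H : Set Γ) p hp.pos x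
    (hVp x hxV) (fun τ hτ => hHV τ hτ x hxV)
  have hu0 : u ≠ 0 := S33DG_isGen_ne_zero hu
  obtain ⟨u_z, n, b₁, b₂, huz, huzH, hσuz, hnt, hb₁H, hvb₁, hb₂H, hvb₂, hst₁, hst₂⟩ :=
    hSTART σ H π c r t hData
  -- the coordinate and `hdiv`
  obtain ⟨Cn, e, hXU, hϖ, hordX, hdiv⟩ := hHDIV σ H π c r t hData
  -- `c₁`, `c₂`
  obtain ⟨c₁, c₂, hc₁, hc₂, hc₁0, hc₂0, hu1, hu2⟩ :=
    S40F2AD_node M p hp hpM A hA hgen
      (S40NI_nodeGen (S18_hRR (M * p)).deg_one 1 Nat.one_pos hx hred e₁ e₂ hW1 i) rfl rfl rfl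
      (H : Set Γ) (S36FI_act (M * p) H).fixK hπC hπH hπ0 hπ1
      (fun y hy => (S36FI_mem_fixK (M * p) H).2 hy) hval u hu0 hucoef
  -- `Y₁`, `Y₂`
  obtain ⟨Y₁, Y₂, hY₁, hY₂, hY₁0, hY₂0, H1, H2⟩ :=
    S40F2ABN_main M p hp hpM A hA hgen H (S34DF_O1 M p A hgen) (S34DF_O2 M p hp hpM A hgen)
      rfl rfl (S36FI_act (M * p) H).fixK (fun y hy => (S36FI_mem_fixK (M * p) H).2 hy) hprim
      σ hσ hHI hdec hnorm hσp ht1 htp hπH hcH hrH hvπ hvc hvr hunif hdisc rfl hu huz huH huzH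
      hσuz hnt hb₁H hvb₁ hb₂H hvb₂ hst₁ hst₂
  -- the Hecke operator
  obtain ⟨ℓ, -, hgood, hℓN, hℓp, hnd, ζ, hζ, hst, κ, g, hκ, hg0, hE'⟩ :=
    S40F2MEI_main W hΔ hp hp2 hirr ∅ (hV0 x hxV) hu
  haveI : NeZero (ℓ : ℕ) := ⟨ℓ.2.ne_zero⟩
  have hdvd := (S40F2YP_dvd_of_gen hu).2
  have htu0 : GRS_t hst u ≠ 0 := by
    rw [hE']
    exact mul_ne_zero (mul_ne_zero ((map_ne_zero _).mpr hκ) (zpow_ne_zero _ hu0))
      (pow_ne_zero _ hg0)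
  have htuH : ∀ g' ∈ H, GR_gal (M * p) g' (GRS_t hst u) = GRS_t hst u :=
    fun g' hg' => S40F2HJ_fixed (ℓ : ℕ) hζ hst g' u (huH g' hg')
  have htdvd : ∀ v : Place Ω ↥(modularFunctionFieldBar (M * p)),
      (p : ℤ) ∣ v.ord (GRS_t hst u) := by
    intro v
    rw [hE', v.ord_mul (mul_ne_zero ((map_ne_zero _).mpr hκ) (zpow_ne_zero _ hu0))
      (pow_ne_zero _ hg0), v.ord_mul ((map_ne_zero _).mpr hκ) (zpow_ne_zero _ hu0),
      S33DG_ord_algebraMap, zero_add, v.ord_zpow, ← zpow_natCast g p, v.ord_zpow]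
    exact dvd_add (Dvd.dvd.mul_left (hdvd v) _) (Dvd.intro _ rfl)
  have hty : GRS_t hst (GR_gal (M * p) σ u / u) =
      GR_gal (M * p) σ (GRS_t hst u) / GRS_t hst u := by
    rw [map_div₀, S40F2HJ_gal (ℓ : ℕ) hζ hst σ u]
  have key := S40F2AI_node M p (ℓ : ℕ) hp hpM ℓ.2 hℓp A hA ζ hζ hgen hst e₁ e₂ P hE hW1 hx hred
    hP he₁ i hℓN hp5 Cn e hϖ hXU hordX (S36FI_act (M * p) H).fixK hπC hπ0 hπ1 hval hcC hvc hvπ
    hζ₀ ht1 htp (u := u) (y := GR_gal (M * p) σ u / u) hc₁ hc₂ hc₁0 hc₂0 hY₁ hY₂ hY₁0 hY₂0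
    hu1 hu2 H1 H2
    (by
      rintro u₀ y₀ (⟨rfl, rfl⟩ | ⟨rfl, rfl⟩)
      · exact hdiv _ hu0 huH hdvd
      · rw [hty]
        exact hdiv _ htu0 htuH htdvd)
    κ (W.apOfModel ℓ) g hg0 hE' hnd
  obtain ⟨b, hb, rfl⟩ := hc₁
  have hb0 : b ≠ 0 := fun h0 => hc₁0 (by rw [h0, map_zero])
  exact ⟨u / algebraMap Ω ↥(modularFunctionFieldBar (M * p)) b, hu1.mem,
    S40F2AT_isGen_div hu hb0, S40NS_red_ne_zero_of_isU _ hu1, key⟩

end inst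

end Fermat.Agent.S40
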