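import Fermat.Agent.S40.NodeChartX
import Fermat.Agent.S40.F2PFib

/-!
# TRACK 13 (S40/S44), (F2') instance (I-a), the package (helper26).  Prefix `S40NX3_`.

At every canonical node `i` (`S40NP_canon`), for `H ≤ I_A` with `p` a uniformiser of `A ∩ Ω^H`:

`S40NX3_exists` : there are `e` (`1 ≤ e < 24`), `t y w ∈ Λ' = S33NX_Lam` (the output of helper18's
`S40F2PF_node`), a node coordinate `C : S40F2N_Coord (N i)` with `C.X = t`, `C.Y = y`, `C.H = w`,
`C.ϖ = p ^ e`, and a chart `Ch : S40F2N3_Chart (N i) C` with `Ch.R = S40NX2_R` (the image of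
`Λ'`), `Ch.π = p`.

`S40NX3_main` : the same with the nodes of `S40NP_canon` (all data existential).
-/

set_option autoImplicit false
set_option synthInstance.maxHeartbeats 400000
set_option maxHeartbeats 1000000
set_option linter.unusedSectionVars false
set_option linter.unusedVariables false
set_option linter.style.haveILetI false

open HahnSeries IntermediateField AlgebraicCurve ModularCurve

noncomputable section

namespace Fermat.Agent.S40

open Fermat.Agent.Lib Fermat.Agent.S17 Fermat.Agent.S18 Fermat.Agent.S24 Fermat.Agent.S34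
  Fermat.Agent.S36 Fermat.Agent.GalRep Fermat.Agent.S33

local notation "Ω" => AlgebraicClosure ℚ

section inst

variable (M p : ℕ) [NeZero (M * p)] [NeZero p] (hp : p.Prime) (hpM : ¬ p ∣ M)
  (A : ValuationSubring Ω) (hA : A.LiesOverPrime p)
  (hgen : PrincipalGeneratedByIntegral A (IsLocalRing.residue A) (M * p))
  (H : Subgroup (Ω ≃ₐ[ℚ] Ω)) (hH : H ≤ A.inertiaSubgroupIn ℚ)
  (hU : S33NL2_Unif A H (p : Ω))

/-- the coercion of the uniformiser of `Λ'`. -/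
theorem S40NX3_piL_coe :
    (((S40F2PV_piL M p hp hpM A hA hgen H : ↥(S33NX_Lam M p hp hpM A hgen H)) :
      S33NX_F M p H) : ↥(modularFunctionFieldBar (M * p))) =
      algebraMap Ω ↥(modularFunctionFieldBar (M * p)) (p : Ω) := rfl

include hU in
/-- `p ^ e` is a nonunit of `A` for `1 ≤ e`. -/
theorem S40NX3_pow_nonunit {e : ℕ} (he : 1 ≤ e) : ((p : Ω) ^ e) ∈ A.nonunits := by
  rw [ValuationSubring.mem_nonunits_iff, map_pow]
  exact pow_lt_one₀ zero_le hU.lt_one (by omega)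

section nodes

variable {s : ℕ}
  (e₁ : Fin s → ↥(S34M_chart M p A 1 Nat.one_pos).Rb₁ →ₐ[IsLocalRing.ResidueField A]
    IsLocalRing.ResidueField A)
  (e₂ : Fin s → ↥(S34M_chart M p A 1 Nat.one_pos).Rb₂ →ₐ[IsLocalRing.ResidueField A]
    IsLocalRing.ResidueField A)
  (P P' : Fin s → Place (IsLocalRing.ResidueField A)
    ↥(modularFunctionFieldFullC (IsLocalRing.ResidueField A) (M * p)))
  (hE : Function.Surjective (S34B_E e₁ e₂))
  (hW1 : S34K_W (S34M_same M p hp hpM A hgen) (S34M_chart M p A 1 Nat.one_pos) 1 =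
    S34B_W e₁ e₂)
  (hx : S34P_Hyp (S34M_T1 M p A hgen) (S34M_T2 M p hp hpM A hgen) (S34M_same M p hp hpM A hgen)
    (S34PX_j M p hp hpM A hgen))
  (hred : S34P_red (S34M_T1 M p A hgen) (S34M_T2 M p hp hpM A hgen)
    (S34PX_j M p hp hpM A hgen) = (S34M_xb M p A, S34M_xb M p A ^ p))
  (hP : ∀ i, 0 ≤ (P i).ord (S34M_xb M p A))
  (hP' : ∀ i, 0 ≤ (P' i).ord (S34M_xb M p A ^ p))
  (he₁ : ∀ i (a : ↥(S34M_chart M p A 1 Nat.one_pos).Rb₁), e₁ i a = FD_c0 (P i) (a : _))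
  (he₂ : ∀ i (b : ↥(S34M_chart M p A 1 Nat.one_pos).Rb₂), e₂ i b = FD_c0 (P' i) (b : _))

include hA hH hU hE hP hP' he₁ he₂ in
/-- **(I-a), the package at the node `i`**: coordinate `C` (`X = t`, `Y = y`, `H = w`,
`ϖ = p ^ e`) and chart `Ch` (`R` = image of `Λ'`, `π = p`). -/
theorem S40NX3_exists (i : Fin s) :
    ∃ (e : ℕ) (t y w : ↥(S33NX_Lam M p hp hpM A hgen H))
      (C : S40F2N_Coord
        (S40NI_nodeGen (S18_hRR (M * p)).deg_one 1 Nat.one_pos hx hred e₁ e₂ hW1 i))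
      (Ch : S40F2N3_Chart
        (S40NI_nodeGen (S18_hRR (M * p)).deg_one 1 Nat.one_pos hx hred e₁ e₂ hW1 i) C),
      1 ≤ e ∧ e < 24 ∧ C.ϖ = (p : Ω) ^ e ∧
      C.X = ((t : S33NX_F M p H) : ↥(modularFunctionFieldBar (M * p))) ∧
      C.Y = ((y : S33NX_F M p H) : ↥(modularFunctionFieldBar (M * p))) ∧
      C.H = ((w : S33NX_F M p H) : ↥(modularFunctionFieldBar (M * p))) ∧
      Ch.R = S40NX2_R M p hp hpM A hgen H ∧ Ch.π = (p : Ω) ∧
      y * t = S40F2PV_piL M p hp hpM A hA hgen H ^ e * w ∧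
      S40F2PV_red₁ M p hp hpM A hgen H y = 0 ∧ S40F2PV_red₂ M p hp hpM A hgen H y ≠ 0 ∧
      (P' i).ord (S40F2PV_red₂ M p hp hpM A hgen H y) = 1 ∧
      S40F2PV_red₂ M p hp hpM A hgen H t = 0 ∧ S40F2PV_red₁ M p hp hpM A hgen H t ≠ 0 ∧
      (P i).ord (S40F2PV_red₁ M p hp hpM A hgen H t) = 1 ∧
      S40F2PV_V2L M p hp hpM A hgen H e t ∧
      ¬ S36RC_van (P i) (S40F2PV_red₁ M p hp hpM A hgen H w) ∧
      ¬ S36RC_van (P' i) (S40F2PV_red₂ M p hp hpM A hgen H w) := by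
  haveI : NeZero M := ⟨fun h0 => NeZero.ne (M * p) (by rw [h0, zero_mul])⟩
  obtain ⟨e, he1, he24, y, t, w, hrel, hy₁, hy₂, hordy, ht₂, ht₁, hordt, hV2, hw₁, hw₂⟩ :=
    S40F2PF_node M p hp hpM A hA hgen H hH hU e₁ e₂ P P' hE hW1 hP hP' he₁ he₂ i
  have hXR := S40NX2_coe_mem_R M p hp hpM A hgen H t
  have hYR := S40NX2_coe_mem_R M p hp hpM A hgen H y
  have hHR := S40NX2_coe_mem_R M p hp hpM A hgen H w
  have hp0 : ((p : Ω) ^ e) ≠ 0 := pow_ne_zero _ (by exact_mod_cast hp.ne_zero)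
  have rel : ((t : S33NX_F M p H) : ↥(modularFunctionFieldBar (M * p))) *
      ((y : S33NX_F M p H) : ↥(modularFunctionFieldBar (M * p))) =
      algebraMap Ω ↥(modularFunctionFieldBar (M * p)) ((p : Ω) ^ e) *
        ((w : S33NX_F M p H) : ↥(modularFunctionFieldBar (M * p))) := by
    have h1 := congrArg
      ((S33NX_incl M p H).comp (S33NX_Lam M p hp hpM A hgen H).subtype) hrel
    rw [map_mul, map_mul, map_pow] at h1
    rw [map_pow]
    exact (mul_comm _ _).trans h1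
  set C : S40F2N_Coord
      (S40NI_nodeGen (S18_hRR (M * p)).deg_one 1 Nat.one_pos hx hred e₁ e₂ hW1 i) :=
    S40NP_coord 1 Nat.one_pos hx hred e₁ e₂ hW1 (S34VF_hk M A hp hA hpM) P hP he₁ i
      ((t : S33NX_F M p H) : ↥(modularFunctionFieldBar (M * p)))
      ((y : S33NX_F M p H) : ↥(modularFunctionFieldBar (M * p)))
      ((w : S33NX_F M p H) : ↥(modularFunctionFieldBar (M * p)))
      (S40NX2_le M p hp hpM A hgen H _ hXR) (S40NX2_le M p hp hpM A hgen H _ hYR)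
      (S40NX2_le M p hp hpM A hgen H _ hHR) ((p : Ω) ^ e)
      (S40NX3_pow_nonunit p A H hU he1) hp0 rel ht₂ ht₁ hy₁ hy₂ hw₁ with hC
  refine ⟨e, t, y, w, C,
    S40NX2_chart M p hp hpM A hA hgen H hH e₁ e₂ P P' hE hW1 hx hred hP hP' he₁ he₂ (p : Ω) hU
      i C hXR hYR hHR ht₂ hy₁ ht₁ hy₂ hordt hordy,
    he1, he24, rfl, rfl, rfl, rfl, rfl, rfl, hrel, hy₁, hy₂, hordy, ht₂, ht₁, hordt, hV2,
    hw₁, hw₂⟩

end nodes

include hH hU in
/-- **(I-a), all data existential**: the nodes of `S40NP_canon`, and at every node the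
coordinate and the chart. -/
theorem S40NX3_main :
    ∃ (s : ℕ) (e₁ : Fin s → ↥(S34M_chart M p A 1 Nat.one_pos).Rb₁ →ₐ[IsLocalRing.ResidueField A]
        IsLocalRing.ResidueField A)
      (e₂ : Fin s → ↥(S34M_chart M p A 1 Nat.one_pos).Rb₂ →ₐ[IsLocalRing.ResidueField A]
        IsLocalRing.ResidueField A)
      (P P' : Fin s → Place (IsLocalRing.ResidueField A)
        ↥(modularFunctionFieldFullC (IsLocalRing.ResidueField A) (M * p)))
      (hE : Function.Surjective (S34B_E e₁ e₂))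
      (hW1 : S34K_W (S34M_same M p hp hpM A hgen) (S34M_chart M p A 1 Nat.one_pos) 1 =
        S34B_W e₁ e₂)
      (hx : S34P_Hyp (S34M_T1 M p A hgen) (S34M_T2 M p hp hpM A hgen)
        (S34M_same M p hp hpM A hgen) (S34PX_j M p hp hpM A hgen))
      (hred : S34P_red (S34M_T1 M p A hgen) (S34M_T2 M p hp hpM A hgen)
        (S34PX_j M p hp hpM A hgen) = (S34M_xb M p A, S34M_xb M p A ^ p)),
      (∀ i, 0 ≤ (P i).ord (S34M_xb M p A)) ∧ (∀ i, 0 ≤ (P' i).ord (S34M_xb M p A ^ p)) ∧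
      (∀ i (a : ↥(S34M_chart M p A 1 Nat.one_pos).Rb₁), e₁ i a = FD_c0 (P i) (a : _)) ∧
      (∀ i (b : ↥(S34M_chart M p A 1 Nat.one_pos).Rb₂), e₂ i b = FD_c0 (P' i) (b : _)) ∧
      ∀ i : Fin s, ∃ (e : ℕ) (t y w : ↥(S33NX_Lam M p hp hpM A hgen H))
        (C : S40F2N_Coord
          (S40NI_nodeGen (S18_hRR (M * p)).deg_one 1 Nat.one_pos hx hred e₁ e₂ hW1 i))
        (Ch : S40F2N3_Chart
          (S40NI_nodeGen (S18_hRR (M * p)).deg_one 1 Nat.one_pos hx hred e₁ e₂ hW1 i) C),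
        1 ≤ e ∧ e < 24 ∧ C.ϖ = (p : Ω) ^ e ∧
        C.X = ((t : S33NX_F M p H) : ↥(modularFunctionFieldBar (M * p))) ∧
        C.Y = ((y : S33NX_F M p H) : ↥(modularFunctionFieldBar (M * p))) ∧
        C.H = ((w : S33NX_F M p H) : ↥(modularFunctionFieldBar (M * p))) ∧
        Ch.R = S40NX2_R M p hp hpM A hgen H ∧ Ch.π = (p : Ω) ∧
        y * t = S40F2PV_piL M p hp hpM A hA hgen H ^ e * w ∧
        S40F2PV_red₁ M p hp hpM A hgen H y = 0 ∧ S40F2PV_red₂ M p hp hpM A hgen H y ≠ 0 ∧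
        (P' i).ord (S40F2PV_red₂ M p hp hpM A hgen H y) = 1 ∧
        S40F2PV_red₂ M p hp hpM A hgen H t = 0 ∧ S40F2PV_red₁ M p hp hpM A hgen H t ≠ 0 ∧
        (P i).ord (S40F2PV_red₁ M p hp hpM A hgen H t) = 1 ∧
        S40F2PV_V2L M p hp hpM A hgen H e t ∧
        ¬ S36RC_van (P i) (S40F2PV_red₁ M p hp hpM A hgen H w) ∧
        ¬ S36RC_van (P' i) (S40F2PV_red₂ M p hp hpM A hgen H w) := by
  obtain ⟨s, e₁, e₂, P, P', hE, hW1, hx, hred, hP, hP', he₁, he₂⟩ :=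
    S40NP_canon M p hp hpM A hgen hA
  exact ⟨s, e₁, e₂, P, P', hE, hW1, hx, hred, hP, hP', he₁, he₂, fun i =>
    S40NX3_exists M p hp hpM A hA hgen H hH hU e₁ e₂ P P' hE hW1 hx hred hP hP' he₁ he₂ i⟩

end inst

end Fermat.Agent.S40
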