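import Fermat.Agent.S40.F2N6
import Fermat.Agent.S40.NodeChartP
import Fermat.Agent.S40.F2NLoc2

/-!
# S40 (TRACK 13), (F2') instance, leaf `HX` (helper14): `S40F2YI_Hyp` at the canonical nodes.
Prefix `S40F2N9_`.

* `S40F2N9_pole` : `jB` has a pole on the generic fibre.
* `S40F2N9_hyp` : **`S40F2YI_Hyp (N i) C.X`** at the node `i` of `S40NI_nodeGen` for every
  coordinate `C` with a chart `Ch` whose ring is the image of the rational lattice
  (`Ch.R = S40NX2_R`): the chart hypothesis of helper1's (A1) layer, with NO hypothesis left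
  (rank one of the base = `S40F2N5_arch`, local rings = `S40F2N6_loc` + helper18's
  `S40F2NL2_span_map`).
* `S40F2N9_exists` : the package of helper26's `S40NX3_exists` together with `S40F2YI_Hyp`.
* `S40F2N9_main` : the same at the nodes of `S40NP_canon` (all data existential).
-/

set_option autoImplicit false
set_option synthInstance.maxHeartbeats 400000
set_option maxHeartbeats 1000000
set_option linter.unusedSectionVars false
set_option linter.unusedVariables false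
set_option linter.style.haveILetI false

open HahnSeries IntermediateField AlgebraicCurve ModularCurve

noncomputable section

namespace Fermat.Agent.S40

open Fermat.Agent.Lib Fermat.Agent.S17 Fermat.Agent.S18 Fermat.Agent.S24 Fermat.Agent.S34
  Fermat.Agent.S36 Fermat.Agent.GalRep Fermat.Agent.S33

local notation "Ω" => AlgebraicClosure ℚ

/-- `jB` has a pole. -/
theorem S40F2N9_pole (N : ℕ) [NeZero N] :
    ∃ c₀ : Place Ω ↥(modularFunctionFieldBar N), c₀.ord (jB N) < 0 := by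
  refine DSC_exists_pole (S18_hRR N) (jB N) ?_
  rintro ⟨c, hc⟩
  exact transcendental_jB N (hc ▸ isAlgebraic_algebraMap c)

section inst

variable (M p : ℕ) [NeZero (M * p)] [NeZero p] (hp : p.Prime) (hpM : ¬ p ∣ M)
  (A : ValuationSubring Ω) (hA : A.LiesOverPrime p)
  (hgen : PrincipalGeneratedByIntegral A (IsLocalRing.residue A) (M * p))
  (H : Subgroup (Ω ≃ₐ[ℚ] Ω)) (hH : H ≤ A.inertiaSubgroupIn ℚ)

section nodes

variable {s : ℕ}
  (e₁ : Fin s → ↥(S34M_chart M p A 1 Nat.one_pos).Rb₁ →ₐ[IsLocalRing.ResidueField A]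
    IsLocalRing.ResidueField A)
  (e₂ : Fin s → ↥(S34M_chart M p A 1 Nat.one_pos).Rb₂ →ₐ[IsLocalRing.ResidueField A]
    IsLocalRing.ResidueField A)
  (P P' : Fin s → Place (IsLocalRing.ResidueField A)
    ↥(modularFunctionFieldFullC (IsLocalRing.ResidueField A) (M * p)))
  (hE : Function.Surjective (S34B_E e₁ e₂))
  (hW1 : S34K_W (S34M_same M p hp hpM A hgen) (S34M_chart M p A 1 Nat.one_pos) 1 =
    S34B_W e₁ e₂)
  (hx : S34P_Hyp (S34M_T1 M p A hgen) (S34M_T2 M p hp hpM A hgen) (S34M_same M p hp hpM A hgen)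
    (S34PX_j M p hp hpM A hgen))
  (hred : S34P_red (S34M_T1 M p A hgen) (S34M_T2 M p hp hpM A hgen)
    (S34PX_j M p hp hpM A hgen) = (S34M_xb M p A, S34M_xb M p A ^ p))
  (hP : ∀ i, 0 ≤ (P i).ord (S34M_xb M p A))
  (hP' : ∀ i, 0 ≤ (P' i).ord (S34M_xb M p A ^ p))
  (he₁ : ∀ i (a : ↥(S34M_chart M p A 1 Nat.one_pos).Rb₁), e₁ i a = FD_c0 (P i) (a : _))
  (he₂ : ∀ i (b : ↥(S34M_chart M p A 1 Nat.one_pos).Rb₂), e₂ i b = FD_c0 (P' i) (b : _))

include hA hH in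
/-- **`S40F2YI_Hyp` at the node `i`** for a chart whose ring is the image of the rational
lattice; `ϖ` ANY uniformiser of `A ∩ Ω^H`. -/
theorem S40F2N9_hyp (ϖ : Ω) (hU : S33NL2_Unif A H ϖ) (i : Fin s)
    (C : S40F2N_Coord (S40NI_nodeGen (S18_hRR (M * p)).deg_one 1 Nat.one_pos hx hred e₁ e₂ hW1 i))
    (Ch : S40F2N3_Chart
      (S40NI_nodeGen (S18_hRR (M * p)).deg_one 1 Nat.one_pos hx hred e₁ e₂ hW1 i) C)
    (hR : Ch.R = S40NX2_R M p hp hpM A hgen H) :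
    S40F2YI_Hyp (S40NI_nodeGen (S18_hRR (M * p)).deg_one 1 Nat.one_pos hx hred e₁ e₂ hW1 i)
      C.X := by
  obtain ⟨c₀, hc₀⟩ := S40F2N9_pole (M * p)
  have hB : ∀ f ∈ S34SB_reg Ω (jB (M * p) : ↥(modularFunctionFieldBar (M * p))),
      f ∈ Submodule.span Ω (Ch.R : Set ↥(modularFunctionFieldBar (M * p))) := by
    intro f hf
    rw [hR]
    exact S40F2NL2_span_map M p hp hpM A hA hgen H hH ϖ hU f hf
  exact S40F2N6_hyp_node (S₁ := S34M_T1 M p A hgen) (S₂ := S34M_T2 M p hp hpM A hgen)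
    (hS := S34M_same M p hp hpM A hgen) (x := S34PX_j M p hp hpM A hgen)
    (x₁ := S34M_xb M p A) (x₂ := S34M_xb M p A ^ p)
    (S18_hRR (M * p)).deg_one 1 Nat.one_pos (S18_hRR (M * p)) c₀ hc₀ hx
    hred e₁ e₂ hW1 i C Ch (S40F2N5_arch p hp A hA) hB

variable (hU : S33NL2_Unif A H (p : Ω))

include hA hH hU hE hP hP' he₁ he₂ in
/-- **the package at the node `i`**: helper26's `S40NX3_exists` together with
`S40F2YI_Hyp (N i) C.X`. -/
theorem S40F2N9_exists (i : Fin s) :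
    ∃ (e : ℕ) (t y w : ↥(S33NX_Lam M p hp hpM A hgen H))
      (C : S40F2N_Coord
        (S40NI_nodeGen (S18_hRR (M * p)).deg_one 1 Nat.one_pos hx hred e₁ e₂ hW1 i))
      (Ch : S40F2N3_Chart
        (S40NI_nodeGen (S18_hRR (M * p)).deg_one 1 Nat.one_pos hx hred e₁ e₂ hW1 i) C),
      S40F2YI_Hyp (S40NI_nodeGen (S18_hRR (M * p)).deg_one 1 Nat.one_pos hx hred e₁ e₂ hW1 i)
        C.X ∧
      1 ≤ e ∧ e < 24 ∧ C.ϖ = (p : Ω) ^ e ∧
      C.X = ((t : S33NX_F M p H) : ↥(modularFunctionFieldBar (M * p))) ∧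
      C.Y = ((y : S33NX_F M p H) : ↥(modularFunctionFieldBar (M * p))) ∧
      C.H = ((w : S33NX_F M p H) : ↥(modularFunctionFieldBar (M * p))) ∧
      Ch.R = S40NX2_R M p hp hpM A hgen H ∧ Ch.π = (p : Ω) ∧
      y * t = S40F2PV_piL M p hp hpM A hA hgen H ^ e * w ∧
      S40F2PV_red₁ M p hp hpM A hgen H y = 0 ∧ S40F2PV_red₂ M p hp hpM A hgen H y ≠ 0 ∧
      (P' i).ord (S40F2PV_red₂ M p hp hpM A hgen H y) = 1 ∧
      S40F2PV_red₂ M p hp hpM A hgen H t = 0 ∧ S40F2PV_red₁ M p hp hpM A hgen H t ≠ 0 ∧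
      (P i).ord (S40F2PV_red₁ M p hp hpM A hgen H t) = 1 ∧
      S40F2PV_V2L M p hp hpM A hgen H e t ∧
      ¬ S36RC_van (P i) (S40F2PV_red₁ M p hp hpM A hgen H w) ∧
      ¬ S36RC_van (P' i) (S40F2PV_red₂ M p hp hpM A hgen H w) := by
  obtain ⟨e, t, y, w, C, Ch, h1, h2, h3, h4, h5, h6, hR, h8, hrest⟩ :=
    S40NX3_exists M p hp hpM A hA hgen H hH hU e₁ e₂ P P' hE hW1 hx hred hP hP' he₁ he₂ i
  exact ⟨e, t, y, w, C, Ch,
    S40F2N9_hyp M p hp hpM A hA hgen H hH e₁ e₂ hW1 hx hred (p : Ω) hU i C Ch hR,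
    h1, h2, h3, h4, h5, h6, hR, h8, hrest⟩

end nodes

variable (hU : S33NL2_Unif A H (p : Ω))

include hH hU in
/-- **all data existential**: the nodes of `S40NP_canon`, and at every node the coordinate,
the chart and `S40F2YI_Hyp`. -/
theorem S40F2N9_main :
    ∃ (s : ℕ) (e₁ : Fin s → ↥(S34M_chart M p A 1 Nat.one_pos).Rb₁ →ₐ[IsLocalRing.ResidueField A]
        IsLocalRing.ResidueField A)
      (e₂ : Fin s → ↥(S34M_chart M p A 1 Nat.one_pos).Rb₂ →ₐ[IsLocalRing.ResidueField A]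
        IsLocalRing.ResidueField A)
      (P P' : Fin s → Place (IsLocalRing.ResidueField A)
        ↥(modularFunctionFieldFullC (IsLocalRing.ResidueField A) (M * p)))
      (hE : Function.Surjective (S34B_E e₁ e₂))
      (hW1 : S34K_W (S34M_same M p hp hpM A hgen) (S34M_chart M p A 1 Nat.one_pos) 1 =
        S34B_W e₁ e₂)
      (hx : S34P_Hyp (S34M_T1 M p A hgen) (S34M_T2 M p hp hpM A hgen)
        (S34M_same M p hp hpM A hgen) (S34PX_j M p hp hpM A hgen))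
      (hred : S34P_red (S34M_T1 M p A hgen) (S34M_T2 M p hp hpM A hgen)
        (S34PX_j M p hp hpM A hgen) = (S34M_xb M p A, S34M_xb M p A ^ p)),
      (∀ i, 0 ≤ (P i).ord (S34M_xb M p A)) ∧ (∀ i, 0 ≤ (P' i).ord (S34M_xb M p A ^ p)) ∧
      (∀ i (a : ↥(S34M_chart M p A 1 Nat.one_pos).Rb₁), e₁ i a = FD_c0 (P i) (a : _)) ∧
      (∀ i (b : ↥(S34M_chart M p A 1 Nat.one_pos).Rb₂), e₂ i b = FD_c0 (P' i) (b : _)) ∧
      ∀ i : Fin s, ∃ (e : ℕ) (t y w : ↥(S33NX_Lam M p hp hpM A hgen H))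
        (C : S40F2N_Coord
          (S40NI_nodeGen (S18_hRR (M * p)).deg_one 1 Nat.one_pos hx hred e₁ e₂ hW1 i))
        (Ch : S40F2N3_Chart
          (S40NI_nodeGen (S18_hRR (M * p)).deg_one 1 Nat.one_pos hx hred e₁ e₂ hW1 i) C),
        S40F2YI_Hyp
          (S40NI_nodeGen (S18_hRR (M * p)).deg_one 1 Nat.one_pos hx hred e₁ e₂ hW1 i) C.X ∧
        1 ≤ e ∧ e < 24 ∧ C.ϖ = (p : Ω) ^ e ∧
        C.X = ((t : S33NX_F M p H) : ↥(modularFunctionFieldBar (M * p))) ∧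
        C.Y = ((y : S33NX_F M p H) : ↥(modularFunctionFieldBar (M * p))) ∧
        C.H = ((w : S33NX_F M p H) : ↥(modularFunctionFieldBar (M * p))) ∧
        Ch.R = S40NX2_R M p hp hpM A hgen H ∧ Ch.π = (p : Ω) ∧
        y * t = S40F2PV_piL M p hp hpM A hA hgen H ^ e * w ∧
        S40F2PV_red₁ M p hp hpM A hgen H y = 0 ∧ S40F2PV_red₂ M p hp hpM A hgen H y ≠ 0 ∧
        (P' i).ord (S40F2PV_red₂ M p hp hpM A hgen H y) = 1 ∧
        S40F2PV_red₂ M p hp hpM A hgen H t = 0 ∧ S40F2PV_red₁ M p hp hpM A hgen H t ≠ 0 ∧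
        (P i).ord (S40F2PV_red₁ M p hp hpM A hgen H t) = 1 ∧
        S40F2PV_V2L M p hp hpM A hgen H e t ∧
        ¬ S36RC_van (P i) (S40F2PV_red₁ M p hp hpM A hgen H w) ∧
        ¬ S36RC_van (P' i) (S40F2PV_red₂ M p hp hpM A hgen H w) := by
  obtain ⟨s, e₁, e₂, P, P', hE, hW1, hx, hred, hP, hP', he₁, he₂⟩ :=
    S40NP_canon M p hp hpM A hgen hA
  exact ⟨s, e₁, e₂, P, P', hE, hW1, hx, hred, hP, hP', he₁, he₂, fun i =>
    S40F2N9_exists M p hp hpM A hA hgen H hH e₁ e₂ P P' hE hW1 hx hred hP hP' he₁ he₂ hU i⟩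

/-- the functions of the rational lattice are fixed by `H`: `σ X = X` for the node coordinate
`X = ↑t` and `σ ∈ H` (in the shape of helper1's `hσX`, `σ = GR_gal (M p) σ`). -/
theorem S40F2N9_fixed (t : S33NX_F M p H) (σ : Ω ≃ₐ[ℚ] Ω) (hσ : σ ∈ H) :
    (GR_gal (M * p) σ : ↥(modularFunctionFieldBar (M * p)) →+*
        ↥(modularFunctionFieldBar (M * p)))
      ((t : S33NX_F M p H) : ↥(modularFunctionFieldBar (M * p))) =
      ((t : S33NX_F M p H) : ↥(modularFunctionFieldBar (M * p))) :=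
  (S36FI_mem_fixF (M * p) H).1 t.2 σ hσ

/-- the constants `p ^ e` are fixed by every `σ`. -/
theorem S40F2N9_fixed_const (e : ℕ) (σ : Ω ≃ₐ[ℚ] Ω) :
    (GR_gal (M * p) σ : ↥(modularFunctionFieldBar (M * p)) →+*
        ↥(modularFunctionFieldBar (M * p)))
      (algebraMap Ω ↥(modularFunctionFieldBar (M * p)) ((p : Ω) ^ e)) =
      algebraMap Ω ↥(modularFunctionFieldBar (M * p)) ((p : Ω) ^ e) := by
  rw [map_pow, map_natCast, map_pow, map_natCast]

include hA in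
/-- **the nodes for the full inertia group `I_A`** (`p` is a uniformiser of the maximal
unramified extension): the package `S40F2N9_main` with `H = I_A`; the coordinates
`X = ↑t`, `Y = ↑y`, `H = ↑w` are then fixed by EVERY `σ ∈ I_A` (`S40F2N9_fixed`). -/
theorem S40F2N9_main_inertia :
    ∃ (s : ℕ) (e₁ : Fin s → ↥(S34M_chart M p A 1 Nat.one_pos).Rb₁ →ₐ[IsLocalRing.ResidueField A]
        IsLocalRing.ResidueField A)
      (e₂ : Fin s → ↥(S34M_chart M p A 1 Nat.one_pos).Rb₂ →ₐ[IsLocalRing.ResidueField A]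
        IsLocalRing.ResidueField A)
      (P P' : Fin s → Place (IsLocalRing.ResidueField A)
        ↥(modularFunctionFieldFullC (IsLocalRing.ResidueField A) (M * p)))
      (hE : Function.Surjective (S34B_E e₁ e₂))
      (hW1 : S34K_W (S34M_same M p hp hpM A hgen) (S34M_chart M p A 1 Nat.one_pos) 1 =
        S34B_W e₁ e₂)
      (hx : S34P_Hyp (S34M_T1 M p A hgen) (S34M_T2 M p hp hpM A hgen)
        (S34M_same M p hp hpM A hgen) (S34PX_j M p hp hpM A hgen))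
      (hred : S34P_red (S34M_T1 M p A hgen) (S34M_T2 M p hp hpM A hgen)
        (S34PX_j M p hp hpM A hgen) = (S34M_xb M p A, S34M_xb M p A ^ p)),
      (∀ i, 0 ≤ (P i).ord (S34M_xb M p A)) ∧ (∀ i, 0 ≤ (P' i).ord (S34M_xb M p A ^ p)) ∧
      (∀ i (a : ↥(S34M_chart M p A 1 Nat.one_pos).Rb₁), e₁ i a = FD_c0 (P i) (a : _)) ∧
      (∀ i (b : ↥(S34M_chart M p A 1 Nat.one_pos).Rb₂), e₂ i b = FD_c0 (P' i) (b : _)) ∧
      ∀ i : Fin s, ∃ (e : ℕ)
        (C : S40F2N_Coord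
          (S40NI_nodeGen (S18_hRR (M * p)).deg_one 1 Nat.one_pos hx hred e₁ e₂ hW1 i)),
        S40F2YI_Hyp
          (S40NI_nodeGen (S18_hRR (M * p)).deg_one 1 Nat.one_pos hx hred e₁ e₂ hW1 i) C.X ∧
        1 ≤ e ∧ e < 24 ∧ C.ϖ = (p : Ω) ^ e ∧
        (∀ σ ∈ A.inertiaSubgroupIn ℚ,
          (GR_gal (M * p) σ : ↥(modularFunctionFieldBar (M * p)) →+*
            ↥(modularFunctionFieldBar (M * p))) C.X = C.X) ∧
        (∀ σ ∈ A.inertiaSubgroupIn ℚ,
          (GR_gal (M * p) σ : ↥(modularFunctionFieldBar (M * p)) →+*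
            ↥(modularFunctionFieldBar (M * p))) C.Y = C.Y) ∧
        (∀ σ : Ω ≃ₐ[ℚ] Ω,
          (GR_gal (M * p) σ : ↥(modularFunctionFieldBar (M * p)) →+*
            ↥(modularFunctionFieldBar (M * p)))
            (algebraMap Ω ↥(modularFunctionFieldBar (M * p)) C.ϖ) =
            algebraMap Ω ↥(modularFunctionFieldBar (M * p)) C.ϖ) := by
  obtain ⟨s, e₁, e₂, P, P', hE, hW1, hx, hred, hP, hP', he₁, he₂, h⟩ :=
    S40F2N9_main M p hp hpM A hA hgen (A.inertiaSubgroupIn ℚ) le_rfl (S40F2PV_unif hp A hA)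
  refine ⟨s, e₁, e₂, P, P', hE, hW1, hx, hred, hP, hP', he₁, he₂, fun i => ?_⟩
  obtain ⟨e, t, y, w, C, Ch, HX, h1, h2, h3, hX, hY, -⟩ := h i
  refine ⟨e, C, HX, h1, h2, h3, ?_, ?_, ?_⟩
  · intro σ hσ
    rw [hX]
    exact S40F2N9_fixed M p (A.inertiaSubgroupIn ℚ) t σ hσ
  · intro σ hσ
    rw [hY]
    exact S40F2N9_fixed M p (A.inertiaSubgroupIn ℚ) y σ hσ
  · intro σ
    rw [h3]
    exact S40F2N9_fixed_const M p e σ

end inst

end Fermat.Agent.S40
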