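import Fermat.Agent.S40.F2PolyAct
import Fermat.Agent.S40.NodeInst
import Fermat.Agent.S34.Asm4
import Fermat.Agent.S40.F2Break

/-!
# TRACK 13 (S40), (F2'), gap (A1): the INSTANCE of the place action at the canonical nodes
(helper1).  Prefix `S40F2YC_`.

* `S40F2YC_act_of` : abstract: `S40F2YK_Act N g (S40F2YA_mapPt g gL hg)` from: `U` stable,
  `g⁻¹ O_j ⊂ O_j`, `ε ∘ g⁻¹ = ε` on `Λ`, `gL A ⊂ A`   (the residue condition is derived);
* `S40F2YC_mapPt_pt` : `mapPt g (S40NI_pt v) = S40NI_pt (g • v)` for a `SemilinearAut`;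
* `S40F2YC_U_stable` : the chart `S40NI_U hdeg x` is stable when `g • x = x`;
* `S40F2YC_act` : **for `τ` in the inertia group of `A`**, at a node `N` of `X₀(M q)` with the
  properties listed in `S40NI_exists_nodes`: `S40F2YK_Act N (GR_gal τ) (mapPt …)`
  (= `hact` of `S40F2YK_hdiv` for `H ⊂ I_A`);
* `S40F2YC_noZP` : `NoZP f → NoZP (GR_gal τ f)`  (= `hσZP` of `S40F2YK_hdiv`).
-/

set_option autoImplicit false
set_option synthInstance.maxHeartbeats 400000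
set_option maxHeartbeats 1000000
set_option linter.unusedSectionVars false
set_option linter.unusedVariables false

open HahnSeries IntermediateField AlgebraicCurve ModularCurve

noncomputable section

namespace Fermat.Agent.S40

open Fermat.Agent.Lib Fermat.Agent.S18 Fermat.Agent.S24 Fermat.Agent.S34 Fermat.Agent.GalRep

section abs

variable {L F k : Type*} [Field L] [Field F] [Algebra L F] [Field k]

/-- the place action from stability facts. -/
theorem S40F2YC_act_of (N : S40NA_Node L F k) (g : F ≃+* F) (gL : L ≃+* L)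
    (hg : ∀ c : L, g (algebraMap L F c) = algebraMap L F (gL c))
    (hU : ∀ Q ∈ N.U, S40F2YA_mapPt g gL hg Q ∈ N.U)
    (hO₁ : ∀ f ∈ N.O₁, g.symm f ∈ N.O₁) (hO₂ : ∀ f ∈ N.O₂, g.symm f ∈ N.O₂)
    (hε : ∀ (f : F) (hf : f ∈ N.Lam) (hf' : g.symm f ∈ N.Lam),
      N.ε ⟨g.symm f, hf'⟩ = N.ε ⟨f, hf⟩)
    (hA : ∀ a ∈ N.A, gL a ∈ N.A) :
    S40F2YK_Act N (g : F →+* F) (S40F2YA_mapPt g gL hg) := by
  have hΛ : ∀ (f : F) (hf : f ∈ N.Lam), ∃ hf' : g.symm f ∈ N.Lam,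
      N.ε ⟨g.symm f, hf'⟩ = N.ε ⟨f, hf⟩ := by
    intro f hf
    have hf' : g.symm f ∈ N.Lam := by
      refine S40NA_mem_Lam.2 ⟨hO₁ f (N.mem_O₁ hf), hO₂ f (N.mem_O₂ hf), fun Q hQ => ?_⟩
      exact (S40F2YA_mem_mapPt g gL hg Q f).1 (N.mem_pt hf (hU Q hQ))
    exact ⟨hf', hε f hf hf'⟩
  have hA' : ∀ (a : L) (ha : a ∈ N.A), ∃ ha' : gL a ∈ N.A,
      N.res ⟨gL a, ha'⟩ = N.res ⟨a, ha⟩ := by
    intro a ha
    refine ⟨hA a ha, ?_⟩
    have hf : algebraMap L F (gL a) ∈ N.Lam := N.const_mem (hA a ha)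
    have e : g.symm (algebraMap L F (gL a)) = algebraMap L F a := by
      rw [S40F2YA_symm_alg g gL hg, RingEquiv.symm_apply_apply]
    obtain ⟨hf', h1⟩ := hΛ _ hf
    have h2 : N.ε ⟨g.symm (algebraMap L F (gL a)), hf'⟩ = N.res ⟨a, ha⟩ := by
      have e' : (⟨g.symm (algebraMap L F (gL a)), hf'⟩ : ↥N.Lam) =
          ⟨algebraMap L F a, N.const_mem ha⟩ := Subtype.ext e
      rw [e', N.ε_const a ha]
    rw [← h2, h1, N.ε_const (gL a) (hA a ha)]
  refine S40F2YA_act N g gL hg (fun Q hQ hc => ⟨hU Q hQ, ?_⟩)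
  exact S40F2YA_centred N g gL hg hΛ hA' Q hQ hc (hU Q hQ)

end abs

section pt

variable {K F : Type*} [Field K] [Field F] [Algebra K F]

/-- `mapPt g (S40NI_pt v) = S40NI_pt (g • v)`. -/
theorem S40F2YC_mapPt_pt (g : SemilinearAut K F) (hdeg : ∀ v : Place K F, v.deg = 1)
    (v : Place K F) :
    S40F2YA_mapPt (SemilinearAut.toRingAut g) (SemilinearAut.baseAut g)
      (SemilinearAut.commutes g) (S40NI_pt v (hdeg v)) = S40NI_pt (g • v) (hdeg (g • v)) := by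
  apply S40F2YI_pt_ext
  ext f
  rw [S40F2YA_mem_mapPt, S40NI_pt_P, S40NI_pt_P, SemilinearAut.smul_toValuationSubring,
    ValuationSubring.mem_pointwise_smul_iff_inv_smul_mem]
  rfl

/-- the chart is stable under `g` when `g • x = x`. -/
theorem S40F2YC_U_stable (g : SemilinearAut K F) (hdeg : ∀ v : Place K F, v.deg = 1) (x : F)
    (hgx : g • x = x) (Q : S40NA_Pt K F) (hQ : Q ∈ S40NI_U hdeg x) :
    S40F2YA_mapPt (SemilinearAut.toRingAut g) (SemilinearAut.baseAut g)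
      (SemilinearAut.commutes g) Q ∈ S40NI_U hdeg x := by
  obtain ⟨v, hv, rfl⟩ := hQ
  rw [S40F2YC_mapPt_pt g hdeg v]
  refine S40NI_pt_mem_U hdeg ?_
  have h := SemilinearAut.ord_smul g v x
  rw [hgx] at h
  rw [h]
  exact hv

end pt

section canon

variable (M q : ℕ) [NeZero (M * q)] (hq : q.Prime) (hqM : ¬ q ∣ M)
  (A : ValuationSubring (AlgebraicClosure ℚ))
  (hgen : PrincipalGeneratedByIntegral A (IsLocalRing.residue A) (M * q))

/-- `GR_gal τ⁻¹ = (GR_gal τ).symm`. -/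
theorem S40F2YC_gal_inv (N : ℕ) (τ : GQ) (f : ↥(modularFunctionFieldBar N)) :
    GR_gal N τ⁻¹ f = (GR_gal N τ).symm f := rfl

/-- **the place action of the inertia group at a node of `X₀(M q)`** (any `S40NA_Node` with the
properties listed in `S40NI_exists_nodes`). -/
theorem S40F2YC_act
    (N : S40NA_Node (AlgebraicClosure ℚ) ↥(modularFunctionFieldBar (M * q))
      (IsLocalRing.ResidueField A))
    (hNA : N.A = A) (hNO₁ : N.O₁ = (S34M_T1 M q A hgen).O)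
    (hNO₂ : N.O₂ = (S34M_T2 M q hq hqM A hgen).O)
    (hNU : N.U = S40NI_U (S18_hRR (M * q)).deg_one (jB (M * q)))
    (hNε : ∀ (f f' : ↥(modularFunctionFieldBar (M * q))) (hf : f ∈ N.Lam) (hf' : f' ∈ N.Lam)
      (h₁ : f ∈ (S34M_T1 M q A hgen).O) (h₁' : f' ∈ (S34M_T1 M q A hgen).O),
      (S34M_T1 M q A hgen).red ⟨f, h₁⟩ = (S34M_T1 M q A hgen).red ⟨f', h₁'⟩ →
        N.ε ⟨f, hf⟩ = N.ε ⟨f', hf'⟩)
    (τ : GQ) (hτ : τ ∈ A.inertiaSubgroupIn ℚ) :
    S40F2YK_Act N (GR_gal (M * q) τ : ↥(modularFunctionFieldBar (M * q)) →+*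
        ↥(modularFunctionFieldBar (M * q)))
      (S40F2YA_mapPt (GR_gal (M * q) τ) τ.toRingEquiv
        (arithmeticRingAut_algebraMap (modularFunctionFieldFull (M * q)) τ)) := by
  have hτi : τ⁻¹ ∈ A.inertiaSubgroupIn ℚ := inv_mem hτ
  obtain ⟨hgO₁, hgO₂, -, hred₁, -⟩ :=
    S34M_straightTau M q hq hqM A hgen 1 Nat.one_pos τ⁻¹ hτi
  set g : SemilinearAut (AlgebraicClosure ℚ) ↥(modularFunctionFieldBar (M * q)) :=
    arithmeticGalois (modularFunctionFieldFull (M * q)) τ with hg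
  have hgj : g • jB (M * q) = jB (M * q) := S34WJ_arith_jBar (M * q) τ 1 (one_dvd (M * q))
  refine S40F2YC_act_of N (GR_gal (M * q) τ) τ.toRingEquiv
    (arithmeticRingAut_algebraMap (modularFunctionFieldFull (M * q)) τ) ?_ ?_ ?_ ?_ ?_
  · intro Q hQ
    rw [hNU] at hQ ⊢
    exact S40F2YC_U_stable g (S18_hRR (M * q)).deg_one (jB (M * q)) hgj Q hQ
  · intro f hf
    rw [hNO₁] at hf ⊢
    exact hgO₁ f hf
  · intro f hf
    rw [hNO₂] at hf ⊢
    exact hgO₂ f hf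
  · intro f hf hf'
    have h₁ : f ∈ (S34M_T1 M q A hgen).O := hNO₁ ▸ N.mem_O₁ hf
    exact hNε _ _ hf' hf (hgO₁ f h₁) h₁ (hred₁ ⟨f, h₁⟩)
  · intro a ha
    rw [hNA] at ha ⊢
    have h1 : A.valuation (τ a) = A.valuation a := S40F2B_inertia_val A hτ a
    rw [← ValuationSubring.valuation_le_one_iff] at ha ⊢
    show A.valuation (τ a) ≤ 1
    rw [h1]
    exact ha

/-- **`hσZP`** for `σ` in the inertia group. -/
theorem S40F2YC_noZP
    (N : S40NA_Node (AlgebraicClosure ℚ) ↥(modularFunctionFieldBar (M * q))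
      (IsLocalRing.ResidueField A))
    (hNA : N.A = A) (hNO₁ : N.O₁ = (S34M_T1 M q A hgen).O)
    (hNO₂ : N.O₂ = (S34M_T2 M q hq hqM A hgen).O)
    (hNU : N.U = S40NI_U (S18_hRR (M * q)).deg_one (jB (M * q)))
    (hNε : ∀ (f f' : ↥(modularFunctionFieldBar (M * q))) (hf : f ∈ N.Lam) (hf' : f' ∈ N.Lam)
      (h₁ : f ∈ (S34M_T1 M q A hgen).O) (h₁' : f' ∈ (S34M_T1 M q A hgen).O),
      (S34M_T1 M q A hgen).red ⟨f, h₁⟩ = (S34M_T1 M q A hgen).red ⟨f', h₁'⟩ →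
        N.ε ⟨f, hf⟩ = N.ε ⟨f', hf'⟩)
    (σ : GQ) (hσ : σ ∈ A.inertiaSubgroupIn ℚ) (f : ↥(modularFunctionFieldBar (M * q)))
    (hf : S40F2SN_NoZP N f) : S40F2SN_NoZP N (GR_gal (M * q) σ f) := by
  have h := S40F2YC_act M q hq hqM A hgen N hNA hNO₁ hNO₂ hNU hNε σ⁻¹ (inv_mem hσ)
  exact S40F2YA_noZP N (GR_gal (M * q) σ) _ h hf

end canon

end Fermat.Agent.S40
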