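import Fermat.Agent.S40.F2PolyNode
import Fermat.Agent.S40.F2PolyActInst
import Fermat.Agent.S40.F2PolyPow
import Fermat.Agent.S40.F2HJ
import Fermat.Agent.S19.Teich

/-!
# TRACK 13 (S40 / S44), (F2'), leaf (g) of the node chain ON THE REAL OBJECTS (helper1).
Prefix `S40F2YG_`.

Level `M p`, `A ∣ p`, a node `N` of `X₀(M p)` with the five properties of `S40NX4_node_props`,
a coordinate `C` with `S40F2YI_Hyp N C.X` (`S40F2N9_hyp`), fixed by the inertia group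
(`S40NX4_exists`), thickness `C.ϖ = p ^ e`; `σ ∈ I_A`, `H ≤ I_A`, `C₀ = Ω^H`, the break datum
`π c r t` of `S40F2GK2_top`.

* `S40F2YG_res` : the residue hypothesis of the break (`hres` of `S40F2YM_hdiv`) from the
  Teichmüller lifts and the discreteness of the valuation on `C₀`;
* **`S40F2YG_hdiv`** : the field `hdiv` of `S40F2M2_Gen` for `(u, y)`, `y = GR_gal σ u / u`,
  `u ≠ 0` fixed by `H`, `p ∣ ord_v u` at every place;
* **`S40F2YG_hdivT`** : the hypothesis `hdiv'` of `S40F2AS_node` for the Hecke transforms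
  `(GRS_t hst u, GRS_t hst y)`;
* `S40F2YG_dvd_of_eq` : `p ∣ ord_v (t u)` from `t u = κ u ^ a g ^ p`.
-/

set_option autoImplicit false
set_option synthInstance.maxHeartbeats 400000
set_option maxHeartbeats 1000000
set_option linter.unusedSectionVars false
set_option linter.unusedVariables false

open HahnSeries IntermediateField AlgebraicCurve ModularCurve

noncomputable section

namespace Fermat.Agent.S40

open Fermat.Agent.Lib Fermat.Agent.S18 Fermat.Agent.S24 Fermat.Agent.S34 Fermat.Agent.GalRep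
  Fermat.Agent.S33 Fermat.Agent.S19

local notation "Ω" => AlgebraicClosure ℚ
local notation "Γ" => (AlgebraicClosure ℚ ≃ₐ[ℚ] AlgebraicClosure ℚ)

section res

/-- **`hres`**: an integral element of `C₀ ⊇ Ω^{I_A}` is an inertia-fixed element plus a multiple
of `π` in `C₀ ∩ A`. -/
theorem S40F2YG_res {p : ℕ} (hp : p.Prime) (A : ValuationSubring Ω) (hA : (p : Ω) ∈ A.nonunits)
    (C₀ : Subfield Ω) (hfix : ∀ b : Ω, (∀ τ ∈ A.inertiaSubgroupIn ℚ, τ b = b) → b ∈ C₀)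
    {π : Ω} (hπC : π ∈ C₀) (hπ0 : π ≠ 0) (hπ1 : A.valuation π < 1)
    (hval : ∀ x ∈ C₀, x ≠ 0 → ∃ j : ℤ, A.valuation x = A.valuation π ^ j)
    (σ : Γ) (hσ : σ ∈ A.inertiaSubgroupIn ℚ) :
    ∀ z ∈ C₀, z ∈ A → ∃ b z' : Ω, σ b = b ∧ z' ∈ C₀ ∧ z' ∈ A ∧ z = b + π * z' := by
  intro z hz hzA
  haveI : Algebra.IsAlgebraic ℚ Ω := AlgebraicClosure.isAlgebraic ℚ
  obtain ⟨a, ha, hafix⟩ := S19TE_exists_lift A hp hA (IsLocalRing.residue A ⟨z, hzA⟩)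
  have haC : (a : Ω) ∈ C₀ := hfix _ hafix
  have hlt : A.valuation (z - (a : Ω)) < 1 := by
    have h1 : IsLocalRing.residue A (⟨z, hzA⟩ - a) = 0 := by rw [map_sub, ha, sub_self]
    rw [IsLocalRing.residue_eq_zero_iff] at h1
    have h2 := ValuationSubring.coe_mem_nonunits_iff.mpr h1
    exact (A.mem_nonunits_iff).mp h2
  have hvπ0 : A.valuation π ≠ 0 := (Valuation.ne_zero_iff _).2 hπ0
  refine ⟨a, (z - a) / π, hafix σ hσ, C₀.div_mem (C₀.sub_mem hz haC) hπC, ?_, ?_⟩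
  · rcases eq_or_ne (z - (a : Ω)) 0 with h0 | h0
    · rw [h0, zero_div]
      exact A.zero_mem
    · obtain ⟨j, hj⟩ := hval _ (C₀.sub_mem hz haC) h0
      rw [← ValuationSubring.valuation_le_one_iff, map_div₀, hj]
      have hj1 : 1 ≤ j := by
        by_contra hcon
        have hj0 : j ≤ 0 := by omega
        have h1 : (1 : _) ≤ A.valuation π ^ j := by
          obtain ⟨k, rfl⟩ : ∃ k : ℕ, j = -(k : ℤ) := ⟨j.natAbs, by omega⟩
          rw [zpow_neg, zpow_natCast]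
          exact (one_le_inv₀ (pow_pos (zero_lt_iff.2 hvπ0) k)).2 (pow_le_one₀ zero_le hπ1.le)
        rw [hj] at hlt
        exact absurd hlt (not_lt.mpr h1)
      obtain ⟨k, rfl⟩ : ∃ k : ℕ, j = (k : ℤ) + 1 := ⟨(j - 1).toNat, by omega⟩
      rw [zpow_add₀ hvπ0, zpow_one, zpow_natCast, mul_div_assoc, div_self hvπ0, mul_one]
      exact pow_le_one₀ zero_le hπ1.le
  · field_simp
    ring

end res

section dvd

variable {K F : Type*} [Field K] [Field F] [Algebra K F]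

/-- `p ∣ ord_v (t u)` from `t u = κ u ^ a g ^ p`. -/
theorem S40F2YG_dvd_of_eq {p : ℕ} {u g tu : F} {κ : K} {a : ℤ}
    (hdvd : ∀ v : Place K F, (p : ℤ) ∣ v.ord u)
    (hE : tu = algebraMap K F κ * u ^ a * g ^ p) (htu : tu ≠ 0) :
    ∀ v : Place K F, (p : ℤ) ∣ v.ord tu := by
  intro v
  have h1 : algebraMap K F κ * u ^ a ≠ 0 := by
    intro h0
    rw [h0, zero_mul] at hE
    exact htu hE
  have h2 : g ^ p ≠ 0 := by
    intro h0
    rw [h0, mul_zero] at hE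
    exact htu hE
  have h3 : algebraMap K F κ ≠ 0 := left_ne_zero_of_mul h1
  have h4 : u ^ a ≠ 0 := right_ne_zero_of_mul h1
  rw [hE, v.ord_mul h1 h2, v.ord_mul h3 h4, S18_Spec.ord_algebraMap, zero_add, v.ord_zpow,
    ← zpow_natCast g p, v.ord_zpow]
  exact dvd_add (Dvd.dvd.mul_left (hdvd v) a) (dvd_mul_right _ _)

end dvd

section leaf

variable (M p : ℕ) [NeZero (M * p)] (hp : p.Prime) (hpM : ¬ p ∣ M)
  (A : ValuationSubring Ω)
  (hgen : PrincipalGeneratedByIntegral A (IsLocalRing.residue A) (M * p))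

/-- **leaf (g) on the real objects**: the field `hdiv` of `S40F2M2_Gen` for
`(u, GR_gal σ u / u)`. -/
theorem S40F2YG_hdiv
    (N : S40NA_Node Ω ↥(modularFunctionFieldBar (M * p)) (IsLocalRing.ResidueField A))
    (hNA : N.A = A) (hNO₁ : N.O₁ = (S34M_T1 M p A hgen).O)
    (hNO₂ : N.O₂ = (S34M_T2 M p hp hpM A hgen).O)
    (hNU : N.U = S40NI_U (S18_hRR (M * p)).deg_one (jB (M * p)))
    (hNε : ∀ (f f' : ↥(modularFunctionFieldBar (M * p))) (hf : f ∈ N.Lam) (hf' : f' ∈ N.Lam)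
      (h₁ : f ∈ (S34M_T1 M p A hgen).O) (h₁' : f' ∈ (S34M_T1 M p A hgen).O),
      (S34M_T1 M p A hgen).red ⟨f, h₁⟩ = (S34M_T1 M p A hgen).red ⟨f', h₁'⟩ →
        N.ε ⟨f, hf⟩ = N.ε ⟨f', hf'⟩)
    (hA : (p : Ω) ∈ A.nonunits)
    (C : S40F2N_Coord N) (HX : S40F2YI_Hyp N C.X)
    (hIX : ∀ τ ∈ A.inertiaSubgroupIn ℚ, GR_gal (M * p) τ C.X = C.X)
    (e : ℕ) (hϖ : C.ϖ = (p : Ω) ^ e)
    (H : Subgroup Γ) (hHI : ∀ g ∈ H, g ∈ A.inertiaSubgroupIn ℚ)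
    (C₀ : Subfield Ω) (hC₀ : ∀ b : Ω, b ∈ C₀ ↔ ∀ g ∈ H, g b = b)
    {π c r : Ω} {t : ℕ} (ht : 1 ≤ t) {e' : ℤ}
    (hC : S40F2M_Coord N (C₀.map (algebraMap Ω ↥(modularFunctionFieldBar (M * p))))
      (S40F2MV_vL N.O₁ (algebraMap Ω ↥(modularFunctionFieldBar (M * p)) π))
      (algebraMap Ω ↥(modularFunctionFieldBar (M * p)) π)
      (algebraMap Ω ↥(modularFunctionFieldBar (M * p)) c) C.X (C.Y * C.H⁻¹)
      (algebraMap Ω ↥(modularFunctionFieldBar (M * p)) C.ϖ) p e')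
    (hπH : ∀ g ∈ H, g π = π) (hπ0 : π ≠ 0) (hπ1 : A.valuation π < 1)
    (hdisc : ∀ x : Ω, x ≠ 0 → (∀ g ∈ H, g x = x) → ∃ k : ℤ, A.valuation x = A.valuation π ^ k)
    (hvc : A.valuation c ≤ 1) (hvr : A.valuation r ≤ 1)
    (σ : Γ) (hσ : σ ∈ A.inertiaSubgroupIn ℚ)
    (hunif : σ π = π * (1 + c * π ^ t) + π ^ (t + 2) * r)
    {u : ↥(modularFunctionFieldBar (M * p))} (hu0 : u ≠ 0)
    (huH : ∀ g ∈ H, GR_gal (M * p) g u = u)
    (hdvd : ∀ v : Place Ω ↥(modularFunctionFieldBar (M * p)), (p : ℤ) ∣ v.ord u) :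
    ∃ (ι : Type) (s : Finset ι) (w : ι → ↥(modularFunctionFieldBar (M * p)))
      (m : ι → ℤ) (u' E : ↥(modularFunctionFieldBar (M * p))),
      (∀ i ∈ s, w i ≠ 0) ∧ (∀ i ∈ s, w i ∈ N.O₁.nonunits) ∧
      (∀ i ∈ s, algebraMap Ω ↥(modularFunctionFieldBar (M * p)) C.ϖ / w i ∈ N.O₂.nonunits) ∧
      S40F2SN_NoZP N u' ∧ u = u' * ∏ i ∈ s, (C.X - w i) ^ ((p : ℤ) * m i) ∧
      ∏ i ∈ s, w i ^ m i ∈ C₀.map (algebraMap Ω ↥(modularFunctionFieldBar (M * p))) ∧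
      S40F2K_Reg N (GR_gal (M * p) σ u / u / E ^ p) ∧
      S40F2J_Cg N.O₁.valuation (algebraMap Ω ↥(modularFunctionFieldBar (M * p)) π) t E 0 ∧
      S40F2J_Cg N.O₂.valuation (algebraMap Ω ↥(modularFunctionFieldBar (M * p)) π) t E
        (algebraMap Ω ↥(modularFunctionFieldBar (M * p)) c *
          ((S40F2MV_vL N.O₁ (algebraMap Ω ↥(modularFunctionFieldBar (M * p)) π)
            (∏ i ∈ s, w i ^ m i) : ℤ) : ↥(modularFunctionFieldBar (M * p)))) := by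
  have hgL : ∀ (τ : Γ) (a : Ω), (GR_gal (M * p) τ : ↥(modularFunctionFieldBar (M * p)) →+*
      ↥(modularFunctionFieldBar (M * p))) (algebraMap Ω ↥(modularFunctionFieldBar (M * p)) a) =
      algebraMap Ω ↥(modularFunctionFieldBar (M * p)) ((τ : Ω →+* Ω) a) := fun τ a =>
    arithmeticRingAut_algebraMap (modularFunctionFieldFull (M * p)) τ a
  have hπC : π ∈ C₀ := (hC₀ π).2 hπH
  have hπ1' : N.A.valuation π < 1 := by rw [hNA]; exact hπ1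
  have hval : ∀ x ∈ C₀, x ≠ 0 → ∃ j : ℤ, N.A.valuation x = N.A.valuation π ^ j := by
    rw [hNA]
    exact fun x hx hx0 => hdisc x hx0 ((hC₀ x).1 hx)
  have hcA : c ∈ N.A := by
    rw [hNA]
    exact (A.valuation_le_one_iff c).1 hvc
  have hrA : r ∈ N.A := by
    rw [hNA]
    exact (A.valuation_le_one_iff r).1 hvr
  have hσA : ∀ a ∈ C₀, a ∈ N.A → (σ : Ω →+* Ω) a ∈ N.A := by
    intro a _ ha
    rw [hNA] at ha ⊢
    rw [← ValuationSubring.valuation_le_one_iff] at ha ⊢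
    show A.valuation (σ a) ≤ 1
    rw [S40F2B_inertia_val A hσ a]
    exact ha
  have hres : ∀ z ∈ C₀, z ∈ N.A →
      ∃ b z' : Ω, (σ : Ω →+* Ω) b = b ∧ z' ∈ C₀ ∧ z' ∈ N.A ∧ z = b + π * z' := by
    rw [hNA]
    exact S40F2YG_res hp A hA C₀ (fun b hb => (hC₀ b).2 fun g hg => hb g (hHI g hg)) hπC hπ0
      hπ1 (fun x hx hx0 => hdisc x hx0 ((hC₀ x).1 hx)) σ hσ
  have hσϖ : (σ : Ω →+* Ω) C.ϖ = C.ϖ := by
    rw [hϖ, map_pow, map_natCast]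
  have hinj : Function.Injective (algebraMap Ω ↥(modularFunctionFieldBar (M * p))) :=
    (algebraMap Ω ↥(modularFunctionFieldBar (M * p))).injective
  exact S40F2YM_hdiv N C C₀ hp.ne_zero ht hC HX hπC hπ0 hπ1' hval hcA hrA
    (GR_gal (M * p) σ : ↥(modularFunctionFieldBar (M * p)) →+* ↥(modularFunctionFieldBar (M * p)))
    (σ : Ω →+* Ω) (hgL σ) (hIX σ hσ) hσϖ
    (fun g hg => S40F2YC_noZP M p hp hpM A hgen N hNA hNO₁ hNO₂ hNU hNε σ hσ g hg)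
    hσA hres hunif
    {g | ∃ τ ∈ H, g = (GR_gal (M * p) τ : ↥(modularFunctionFieldBar (M * p)) →+*
      ↥(modularFunctionFieldBar (M * p)))}
    (fun b hb => (hC₀ b).2 fun τ hτ => hinj ((hgL τ b).symm.trans (hb _ ⟨τ, hτ, rfl⟩)))
    (by
      rintro g ⟨τ, hτ, rfl⟩ b hb
      rw [hgL τ b]
      exact congrArg _ ((hC₀ b).1 hb τ hτ))
    (by
      rintro g ⟨τ, hτ, rfl⟩
      exact hIX τ (hHI τ hτ))
    (by
      rintro g ⟨τ, hτ, rfl⟩
      exact ⟨_, S40F2YC_act M p hp hpM A hgen N hNA hNO₁ hNO₂ hNU hNε τ (hHI τ hτ)⟩)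
    hu0
    (by
      rintro g ⟨τ, hτ, rfl⟩
      exact huH τ hτ)
    (S40F2YP_hpow N (S18_hRR (M * p)).deg_one (jB (M * p)) hNU hu0 hdvd)

/-- **leaf (g) for the Hecke transform**: the hypothesis `hdiv'` of `S40F2AS_node` for
`(GRS_t hst u, GRS_t hst (GR_gal σ u / u))`. -/
theorem S40F2YG_hdivT
    (N : S40NA_Node Ω ↥(modularFunctionFieldBar (M * p)) (IsLocalRing.ResidueField A))
    (hNA : N.A = A) (hNO₁ : N.O₁ = (S34M_T1 M p A hgen).O)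
    (hNO₂ : N.O₂ = (S34M_T2 M p hp hpM A hgen).O)
    (hNU : N.U = S40NI_U (S18_hRR (M * p)).deg_one (jB (M * p)))
    (hNε : ∀ (f f' : ↥(modularFunctionFieldBar (M * p))) (hf : f ∈ N.Lam) (hf' : f' ∈ N.Lam)
      (h₁ : f ∈ (S34M_T1 M p A hgen).O) (h₁' : f' ∈ (S34M_T1 M p A hgen).O),
      (S34M_T1 M p A hgen).red ⟨f, h₁⟩ = (S34M_T1 M p A hgen).red ⟨f', h₁'⟩ →
        N.ε ⟨f, hf⟩ = N.ε ⟨f', hf'⟩)
    (hA : (p : Ω) ∈ A.nonunits)
    (C : S40F2N_Coord N) (HX : S40F2YI_Hyp N C.X)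
    (hIX : ∀ τ ∈ A.inertiaSubgroupIn ℚ, GR_gal (M * p) τ C.X = C.X)
    (e : ℕ) (hϖ : C.ϖ = (p : Ω) ^ e)
    (H : Subgroup Γ) (hHI : ∀ g ∈ H, g ∈ A.inertiaSubgroupIn ℚ)
    (C₀ : Subfield Ω) (hC₀ : ∀ b : Ω, b ∈ C₀ ↔ ∀ g ∈ H, g b = b)
    {π c r : Ω} {t : ℕ} (ht : 1 ≤ t) {e' : ℤ}
    (hC : S40F2M_Coord N (C₀.map (algebraMap Ω ↥(modularFunctionFieldBar (M * p))))
      (S40F2MV_vL N.O₁ (algebraMap Ω ↥(modularFunctionFieldBar (M * p)) π))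
      (algebraMap Ω ↥(modularFunctionFieldBar (M * p)) π)
      (algebraMap Ω ↥(modularFunctionFieldBar (M * p)) c) C.X (C.Y * C.H⁻¹)
      (algebraMap Ω ↥(modularFunctionFieldBar (M * p)) C.ϖ) p e')
    (hπH : ∀ g ∈ H, g π = π) (hπ0 : π ≠ 0) (hπ1 : A.valuation π < 1)
    (hdisc : ∀ x : Ω, x ≠ 0 → (∀ g ∈ H, g x = x) → ∃ k : ℤ, A.valuation x = A.valuation π ^ k)
    (hvc : A.valuation c ≤ 1) (hvr : A.valuation r ≤ 1)
    (σ : Γ) (hσ : σ ∈ A.inertiaSubgroupIn ℚ)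
    (hunif : σ π = π * (1 + c * π ^ t) + π ^ (t + 2) * r)
    (ℓ : ℕ) [NeZero ℓ] {ζ : Ωˣ} (hζ : IsPrimitiveRoot (ζ : Ω) ℓ)
    (hst : GRS_Stab (M * p) ℓ ζ)
    {u : ↥(modularFunctionFieldBar (M * p))} (hu0 : u ≠ 0)
    (huH : ∀ g ∈ H, GR_gal (M * p) g u = u)
    (hdvd : ∀ v : Place Ω ↥(modularFunctionFieldBar (M * p)), (p : ℤ) ∣ v.ord (GRS_t hst u)) :
    ∃ (ι : Type) (s : Finset ι) (w : ι → ↥(modularFunctionFieldBar (M * p)))
      (m : ι → ℤ) (u' E : ↥(modularFunctionFieldBar (M * p))),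
      (∀ i ∈ s, w i ≠ 0) ∧ (∀ i ∈ s, w i ∈ N.O₁.nonunits) ∧
      (∀ i ∈ s, algebraMap Ω ↥(modularFunctionFieldBar (M * p)) C.ϖ / w i ∈ N.O₂.nonunits) ∧
      S40F2SN_NoZP N u' ∧ GRS_t hst u = u' * ∏ i ∈ s, (C.X - w i) ^ ((p : ℤ) * m i) ∧
      ∏ i ∈ s, w i ^ m i ∈ C₀.map (algebraMap Ω ↥(modularFunctionFieldBar (M * p))) ∧
      S40F2K_Reg N (GRS_t hst (GR_gal (M * p) σ u / u) / E ^ p) ∧
      S40F2J_Cg N.O₁.valuation (algebraMap Ω ↥(modularFunctionFieldBar (M * p)) π) t E 0 ∧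
      S40F2J_Cg N.O₂.valuation (algebraMap Ω ↥(modularFunctionFieldBar (M * p)) π) t E
        (algebraMap Ω ↥(modularFunctionFieldBar (M * p)) c *
          ((S40F2MV_vL N.O₁ (algebraMap Ω ↥(modularFunctionFieldBar (M * p)) π)
            (∏ i ∈ s, w i ^ m i) : ℤ) : ↥(modularFunctionFieldBar (M * p)))) := by
  have hu0' : GRS_t hst u ≠ 0 := (_root_.map_ne_zero (GRS_t hst)).mpr hu0
  have huH' : ∀ g ∈ H, GR_gal (M * p) g (GRS_t hst u) = GRS_t hst u := fun g hg =>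
    S40F2HJ_fixed ℓ hζ hst g u (huH g hg)
  have key := S40F2YG_hdiv M p hp hpM A hgen N hNA hNO₁ hNO₂ hNU hNε hA C HX hIX e hϖ H hHI C₀ hC₀
    ht hC hπH hπ0 hπ1 hdisc hvc hvr σ hσ hunif hu0' huH' hdvd
  have e1 : GRS_t hst (GR_gal (M * p) σ u / u) =
      GR_gal (M * p) σ (GRS_t hst u) / GRS_t hst u := by
    rw [map_div₀, ← S40F2HJ_gal ℓ hζ hst σ u]
  rw [e1]
  exact key

end leaf

end Fermat.Agent.S40
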