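import Fermat.Agent.S40.NodeChartP

/-!
# TRACK 13 (S40/S44), (F2') instance (I-a) for `H = I_A` (helper26).  Prefix `S40NX4_`.

For `H := I_A` (the inertia group of `A`; `p` is a uniformiser of `A ∩ Ω^{I_A}`):

* `S40NX4_fixed` : the elements of the image of `Λ' = S33NX_Lam … H` are fixed by `GR_gal τ`,
  `τ ∈ H`.
* `S40NX4_node_props` : the five properties `hNA hNO₁ hNO₂ hNU hNε` of the node
  `S40NI_nodeGen … i` (inputs of helper1's `S40F2YC_act` / `S40F2YC_noZP`).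
* `S40NX4_exists` / `S40NX4_main` : `S40NX3_exists` / `S40NX3_main` for `H = I_A`, together with
  **`σ X = X`, `σ Y = Y`, `σ H = H` for every `σ ∈ I_A`** (`hσX`, `hHX` of `S40F2YL_hdiv`).
-/

set_option autoImplicit false
set_option synthInstance.maxHeartbeats 400000
set_option maxHeartbeats 1000000
set_option linter.unusedSectionVars false
set_option linter.unusedVariables false
set_option linter.style.haveILetI false

open HahnSeries IntermediateField AlgebraicCurve ModularCurve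

noncomputable section

namespace Fermat.Agent.S40

open Fermat.Agent.Lib Fermat.Agent.S17 Fermat.Agent.S18 Fermat.Agent.S24 Fermat.Agent.S34
  Fermat.Agent.S36 Fermat.Agent.GalRep Fermat.Agent.S33

local notation "Ω" => AlgebraicClosure ℚ

section inst

variable (M p : ℕ) [NeZero (M * p)] [NeZero p] (hp : p.Prime) (hpM : ¬ p ∣ M)
  (A : ValuationSubring Ω) (hA : A.LiesOverPrime p)
  (hgen : PrincipalGeneratedByIntegral A (IsLocalRing.residue A) (M * p))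

/-- the functions of the rational lattice are fixed by `H`. -/
theorem S40NX4_fixed (H : Subgroup (Ω ≃ₐ[ℚ] Ω)) (x : ↥(S33NX_Lam M p hp hpM A hgen H))
    (τ : Ω ≃ₐ[ℚ] Ω) (hτ : τ ∈ H) :
    GR_gal (M * p) τ ((x : S33NX_F M p H) : ↥(modularFunctionFieldBar (M * p))) =
      ((x : S33NX_F M p H) : ↥(modularFunctionFieldBar (M * p))) :=
  (S36FI_mem_fixF (M * p) H).1 (x : S33NX_F M p H).2 τ hτ

/-- the functions of the chart ring are fixed by `H`. -/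
theorem S40NX4_fixed_R (H : Subgroup (Ω ≃ₐ[ℚ] Ω)) {f : ↥(modularFunctionFieldBar (M * p))}
    (hf : f ∈ S40NX2_R M p hp hpM A hgen H) (τ : Ω ≃ₐ[ℚ] Ω) (hτ : τ ∈ H) :
    GR_gal (M * p) τ f = f := by
  obtain ⟨x, rfl⟩ := (S40NX2_mem_R M p hp hpM A hgen H).1 hf
  exact S40NX4_fixed M p hp hpM A hgen H x τ hτ

section nodes

variable {s : ℕ}
  (e₁ : Fin s → ↥(S34M_chart M p A 1 Nat.one_pos).Rb₁ →ₐ[IsLocalRing.ResidueField A]
    IsLocalRing.ResidueField A)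
  (e₂ : Fin s → ↥(S34M_chart M p A 1 Nat.one_pos).Rb₂ →ₐ[IsLocalRing.ResidueField A]
    IsLocalRing.ResidueField A)
  (P P' : Fin s → Place (IsLocalRing.ResidueField A)
    ↥(modularFunctionFieldFullC (IsLocalRing.ResidueField A) (M * p)))
  (hE : Function.Surjective (S34B_E e₁ e₂))
  (hW1 : S34K_W (S34M_same M p hp hpM A hgen) (S34M_chart M p A 1 Nat.one_pos) 1 =
    S34B_W e₁ e₂)
  (hx : S34P_Hyp (S34M_T1 M p A hgen) (S34M_T2 M p hp hpM A hgen) (S34M_same M p hp hpM A hgen)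
    (S34PX_j M p hp hpM A hgen))
  (hred : S34P_red (S34M_T1 M p A hgen) (S34M_T2 M p hp hpM A hgen)
    (S34PX_j M p hp hpM A hgen) = (S34M_xb M p A, S34M_xb M p A ^ p))
  (hP : ∀ i, 0 ≤ (P i).ord (S34M_xb M p A))
  (hP' : ∀ i, 0 ≤ (P' i).ord (S34M_xb M p A ^ p))
  (he₁ : ∀ i (a : ↥(S34M_chart M p A 1 Nat.one_pos).Rb₁), e₁ i a = FD_c0 (P i) (a : _))
  (he₂ : ∀ i (b : ↥(S34M_chart M p A 1 Nat.one_pos).Rb₂), e₂ i b = FD_c0 (P' i) (b : _))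

/-- the five node properties used by the place action (`S40F2YC_act`, `S40F2YC_noZP`). -/
theorem S40NX4_node_props (i : Fin s) :
    (S40NI_nodeGen (S18_hRR (M * p)).deg_one 1 Nat.one_pos hx hred e₁ e₂ hW1 i).A = A ∧
    (S40NI_nodeGen (S18_hRR (M * p)).deg_one 1 Nat.one_pos hx hred e₁ e₂ hW1 i).O₁ =
      (S34M_T1 M p A hgen).O ∧
    (S40NI_nodeGen (S18_hRR (M * p)).deg_one 1 Nat.one_pos hx hred e₁ e₂ hW1 i).O₂ =
      (S34M_T2 M p hp hpM A hgen).O ∧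
    (S40NI_nodeGen (S18_hRR (M * p)).deg_one 1 Nat.one_pos hx hred e₁ e₂ hW1 i).U =
      S40NI_U (S18_hRR (M * p)).deg_one (jB (M * p)) ∧
    (∀ (f f' : ↥(modularFunctionFieldBar (M * p)))
      (hf : f ∈ (S40NI_nodeGen (S18_hRR (M * p)).deg_one 1 Nat.one_pos hx hred e₁ e₂ hW1 i).Lam)
      (hf' : f' ∈
        (S40NI_nodeGen (S18_hRR (M * p)).deg_one 1 Nat.one_pos hx hred e₁ e₂ hW1 i).Lam)
      (h₁ : f ∈ (S34M_T1 M p A hgen).O) (h₁' : f' ∈ (S34M_T1 M p A hgen).O),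
      (S34M_T1 M p A hgen).red ⟨f, h₁⟩ = (S34M_T1 M p A hgen).red ⟨f', h₁'⟩ →
        (S40NI_nodeGen (S18_hRR (M * p)).deg_one 1 Nat.one_pos hx hred e₁ e₂ hW1 i).ε ⟨f, hf⟩ =
          (S40NI_nodeGen (S18_hRR (M * p)).deg_one 1 Nat.one_pos hx hred e₁ e₂ hW1 i).ε
            ⟨f', hf'⟩) := by
  refine ⟨rfl, rfl, rfl, rfl, ?_⟩
  intro f f' hf hf' h₁ h₁' h
  have e : (S40NI_pair 1 Nat.one_pos hx hred f hf).1 =
      (S40NI_pair 1 Nat.one_pos hx hred f' hf').1 := Subtype.ext h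
  exact (S40NI_eps_eq₁ 1 Nat.one_pos hx hred e₁ e₂ hW1 i f hf).trans
    ((congrArg (e₁ i) e).trans (S40NI_eps_eq₁ 1 Nat.one_pos hx hred e₁ e₂ hW1 i f' hf').symm)

include hA hE hP hP' he₁ he₂ in
/-- **(I-a) for `H = I_A`, at the node `i`**: coordinate, chart, and the coordinate functions
are fixed by the inertia group. -/
theorem S40NX4_exists (i : Fin s) :
    ∃ (e : ℕ) (t y w : ↥(S33NX_Lam M p hp hpM A hgen (A.inertiaSubgroupIn ℚ)))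
      (C : S40F2N_Coord
        (S40NI_nodeGen (S18_hRR (M * p)).deg_one 1 Nat.one_pos hx hred e₁ e₂ hW1 i))
      (Ch : S40F2N3_Chart
        (S40NI_nodeGen (S18_hRR (M * p)).deg_one 1 Nat.one_pos hx hred e₁ e₂ hW1 i) C),
      1 ≤ e ∧ e < 24 ∧ C.ϖ = (p : Ω) ^ e ∧
      C.X = ((t : S33NX_F M p (A.inertiaSubgroupIn ℚ)) : ↥(modularFunctionFieldBar (M * p))) ∧
      C.Y = ((y : S33NX_F M p (A.inertiaSubgroupIn ℚ)) : ↥(modularFunctionFieldBar (M * p))) ∧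
      C.H = ((w : S33NX_F M p (A.inertiaSubgroupIn ℚ)) : ↥(modularFunctionFieldBar (M * p))) ∧
      Ch.R = S40NX2_R M p hp hpM A hgen (A.inertiaSubgroupIn ℚ) ∧ Ch.π = (p : Ω) ∧
      (∀ σ ∈ A.inertiaSubgroupIn ℚ, GR_gal (M * p) σ C.X = C.X) ∧
      (∀ σ ∈ A.inertiaSubgroupIn ℚ, GR_gal (M * p) σ C.Y = C.Y) ∧
      (∀ σ ∈ A.inertiaSubgroupIn ℚ, GR_gal (M * p) σ C.H = C.H) ∧
      (S34M_T2 M p hp hpM A hgen).red ⟨C.X, (S40NI_mem_Lam.1 C.hX).2.1⟩ = 0 ∧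
      (S34M_T1 M p A hgen).red ⟨C.Y, (S40NI_mem_Lam.1 C.hY).1⟩ = 0 ∧
      (S34M_T1 M p A hgen).red ⟨C.X, (S40NI_mem_Lam.1 C.hX).1⟩ ≠ 0 ∧
      (S34M_T2 M p hp hpM A hgen).red ⟨C.Y, (S40NI_mem_Lam.1 C.hY).2.1⟩ ≠ 0 ∧
      (P i).ord ((S34M_T1 M p A hgen).red ⟨C.X, (S40NI_mem_Lam.1 C.hX).1⟩) = 1 ∧
      (P' i).ord ((S34M_T2 M p hp hpM A hgen).red ⟨C.Y, (S40NI_mem_Lam.1 C.hY).2.1⟩) = 1 ∧
      S40F2PV_V2L M p hp hpM A hgen (A.inertiaSubgroupIn ℚ) e t := by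
  obtain ⟨e, t, y, w, C, Ch, he1, he24, hϖ, hX, hY, hH, hR, hπ, hrel, hy₁, hy₂, hordy, ht₂, ht₁,
      hordt, hV2, hw₁, hw₂⟩ :=
    S40NX3_exists M p hp hpM A hA hgen (A.inertiaSubgroupIn ℚ) le_rfl (S40F2PV_unif hp A hA)
      e₁ e₂ P P' hE hW1 hx hred hP hP' he₁ he₂ i
  refine ⟨e, t, y, w, C, Ch, he1, he24, hϖ, hX, hY, hH, hR, hπ, ?_, ?_, ?_, ?_, ?_, ?_, ?_, ?_,
    ?_, hV2⟩
  · intro σ hσ
    rw [hX]
    exact S40NX4_fixed M p hp hpM A hgen _ t σ hσ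
  · intro σ hσ
    rw [hY]
    exact S40NX4_fixed M p hp hpM A hgen _ y σ hσ
  · intro σ hσ
    rw [hH]
    exact S40NX4_fixed M p hp hpM A hgen _ w σ hσ
  · have e0 : (⟨C.X, (S40NI_mem_Lam.1 C.hX).2.1⟩ : ↥(S34M_T2 M p hp hpM A hgen).O) =
        ⟨((t : S33NX_F M p (A.inertiaSubgroupIn ℚ)) : ↥(modularFunctionFieldBar (M * p))),
          hX ▸ (S40NI_mem_Lam.1 C.hX).2.1⟩ := Subtype.ext hX
    rw [e0]
    exact ht₂
  · have e0 : (⟨C.Y, (S40NI_mem_Lam.1 C.hY).1⟩ : ↥(S34M_T1 M p A hgen).O) =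
        ⟨((y : S33NX_F M p (A.inertiaSubgroupIn ℚ)) : ↥(modularFunctionFieldBar (M * p))),
          hY ▸ (S40NI_mem_Lam.1 C.hY).1⟩ := Subtype.ext hY
    rw [e0]
    exact hy₁
  · have e0 : (⟨C.X, (S40NI_mem_Lam.1 C.hX).1⟩ : ↥(S34M_T1 M p A hgen).O) =
        ⟨((t : S33NX_F M p (A.inertiaSubgroupIn ℚ)) : ↥(modularFunctionFieldBar (M * p))),
          hX ▸ (S40NI_mem_Lam.1 C.hX).1⟩ := Subtype.ext hX
    rw [e0]
    exact ht₁
  · have e0 : (⟨C.Y, (S40NI_mem_Lam.1 C.hY).2.1⟩ : ↥(S34M_T2 M p hp hpM A hgen).O) =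
        ⟨((y : S33NX_F M p (A.inertiaSubgroupIn ℚ)) : ↥(modularFunctionFieldBar (M * p))),
          hY ▸ (S40NI_mem_Lam.1 C.hY).2.1⟩ := Subtype.ext hY
    rw [e0]
    exact hy₂
  · have e0 : (⟨C.X, (S40NI_mem_Lam.1 C.hX).1⟩ : ↥(S34M_T1 M p A hgen).O) =
        ⟨((t : S33NX_F M p (A.inertiaSubgroupIn ℚ)) : ↥(modularFunctionFieldBar (M * p))),
          hX ▸ (S40NI_mem_Lam.1 C.hX).1⟩ := Subtype.ext hX
    rw [e0]
    exact hordt
  · have e0 : (⟨C.Y, (S40NI_mem_Lam.1 C.hY).2.1⟩ : ↥(S34M_T2 M p hp hpM A hgen).O) =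
        ⟨((y : S33NX_F M p (A.inertiaSubgroupIn ℚ)) : ↥(modularFunctionFieldBar (M * p))),
          hY ▸ (S40NI_mem_Lam.1 C.hY).2.1⟩ := Subtype.ext hY
    rw [e0]
    exact hordy

end nodes

end inst

end Fermat.Agent.S40
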