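import Mathlib
import Fermat.Agent.S40.F2AsmTop
import Fermat.Agent.S40.NodeChartI
import Fermat.Agent.S40.F2N9
import Fermat.Agent.S40.F2PolyLeaf

/-!
# TRACK 13 (S40 / S44), (F2'), the leaf `hHDIV` of `S40F2AT_node` DISCHARGED (helper16).
Prefix `S40F2AH_`.

`S40F2AH_hdiv` : at the canonical node `i`, for every datum `S40F2AT_Data` (output of
`S40F2GK2_top`): the coordinate `Cn` of `S40NX4_exists` (thickness `p ^ e`,
`ord_{P i} (red₁ X) = 1`) and, for every `H`-fixed `u₀ ≠ 0` whose divisor is divisible by `p`,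
the field `hdiv` of `S40F2M2_Gen` (`S40F2AT_Hdiv`) for `(u₀, σ u₀ / u₀)`.

From helper26's `S40NX4_exists` / `S40NX4_node_props`, helper14's `S40F2N9_hyp`, helper1's
`S40F2YG_hdiv`, `S40F2MC_coord`.
-/

set_option autoImplicit false
set_option synthInstance.maxHeartbeats 400000
set_option maxHeartbeats 2000000
set_option linter.unusedSectionVars false
set_option linter.unusedVariables false
set_option linter.style.haveILetI false

open HahnSeries IntermediateField AlgebraicCurve ModularCurve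

noncomputable section

namespace Fermat.Agent.S40

open WeierstrassCurve Fermat.Agent.Lib Fermat.Agent.S17 Fermat.Agent.S18 Fermat.Agent.S24
  Fermat.Agent.S34 Fermat.Agent.S36 Fermat.Agent.GalRep Fermat.Agent.S33 Fermat.Agent.S19

local notation "Ω" => AlgebraicClosure ℚ
local notation "Γ" => (AlgebraicClosure ℚ ≃ₐ[ℚ] AlgebraicClosure ℚ)

section inst

variable (M p : ℕ) [NeZero M] [NeZero (M * p)] [NeZero p] (hp : p.Prime) (hpM : ¬ p ∣ M)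
  (A : ValuationSubring Ω) (hA : A.LiesOverPrime p)
  (hgen : PrincipalGeneratedByIntegral A (IsLocalRing.residue A) (M * p))

variable {s : ℕ}
  (e₁ : Fin s → ↥(S34M_chart M p A 1 Nat.one_pos).Rb₁ →ₐ[IsLocalRing.ResidueField A]
    IsLocalRing.ResidueField A)
  (e₂ : Fin s → ↥(S34M_chart M p A 1 Nat.one_pos).Rb₂ →ₐ[IsLocalRing.ResidueField A]
    IsLocalRing.ResidueField A)
  (P P' : Fin s → Place (IsLocalRing.ResidueField A)
    ↥(modularFunctionFieldFullC (IsLocalRing.ResidueField A) (M * p)))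
  (hE : Function.Surjective (S34B_E e₁ e₂))
  (hW1 : S34K_W (S34M_same M p hp hpM A hgen) (S34M_chart M p A 1 Nat.one_pos) 1 =
    S34B_W e₁ e₂)
  (hx : S34P_Hyp (S34M_T1 M p A hgen) (S34M_T2 M p hp hpM A hgen) (S34M_same M p hp hpM A hgen)
    (S34PX_j M p hp hpM A hgen))
  (hred : S34P_red (S34M_T1 M p A hgen) (S34M_T2 M p hp hpM A hgen)
    (S34PX_j M p hp hpM A hgen) = (S34M_xb M p A, S34M_xb M p A ^ p))
  (hP : ∀ i, 0 ≤ (P i).ord (S34M_xb M p A))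
  (hP' : ∀ i, 0 ≤ (P' i).ord (S34M_xb M p A ^ p))
  (he₁ : ∀ i (a : ↥(S34M_chart M p A 1 Nat.one_pos).Rb₁), e₁ i a = FD_c0 (P i) (a : _))
  (he₂ : ∀ i (b : ↥(S34M_chart M p A 1 Nat.one_pos).Rb₂), e₂ i b = FD_c0 (P' i) (b : _))

include hA hE hP hP' he₁ he₂ in
/-- **the leaf `hHDIV` of `S40F2AT_node`.** -/
theorem S40F2AH_hdiv (V : AddSubgroup (JZero (M * p))) {ζ₀ : Ω} (i : Fin s)
    (σ : Γ) (H : Subgroup Γ) (π c r : Ω) (t : ℕ)
    (hData : S40F2AT_Data M p A V ζ₀ σ H π c r t) :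
    ∃ (Cn : S40F2N_Coord
        (S40NI_nodeGen (S18_hRR (M * p)).deg_one 1 Nat.one_pos hx hred e₁ e₂ hW1 i))
      (e : ℕ) (hXU : S40F2S_IsU (S34M_T1 M p A hgen).O Cn.X),
      Cn.ϖ = (p : Ω) ^ e ∧
      (P i).ord ((S34M_T1 M p A hgen).red ⟨Cn.X, hXU.mem⟩) = 1 ∧
      ∀ u₀ : ↥(modularFunctionFieldBar (M * p)), u₀ ≠ 0 →
        (∀ g ∈ H, GR_gal (M * p) g u₀ = u₀) →
        (∀ v : Place Ω ↥(modularFunctionFieldBar (M * p)), (p : ℤ) ∣ v.ord u₀) →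
        S40F2AT_Hdiv M p
          (S40NI_nodeGen (S18_hRR (M * p)).deg_one 1 Nat.one_pos hx hred e₁ e₂ hW1 i) Cn
          (S36FI_act (M * p) H).fixK π c t u₀ (GR_gal (M * p) σ u₀ / u₀) := by
  haveI : IsAlgClosed (IsLocalRing.ResidueField A) := S18_residue_isAlgClosed A
  haveI : Infinite (IsLocalRing.ResidueField A) := IsAlgClosed.instInfinite
  haveI : HasPrincipalDivisors Ω ↥(modularFunctionFieldBar (M * p)) :=
    (S18_hRR (M * p)).principal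
  obtain ⟨⟨hσ, hHV, hcyc, hσpV, hz, hHI, hdec, hconj, hnorm, hσp⟩, ht1, htp, hπH, hcH, hrH, hvπ,
    hvc, hvr, hunif, hdisc, hπC, hπ0, hπ1, hval, hcC, hζ₀⟩ := hData
  obtain ⟨e, tt, y, w, C, Ch, he1, he24, hϖ, hX, hY, hH, hR, hπp, hσX, hσY, hσH, hrest⟩ :=
    S40NX4_exists M p hp hpM A hA hgen e₁ e₂ P P' hE hW1 hx hred hP hP' he₁ he₂ i
  have HX : S40F2YI_Hyp
      (S40NI_nodeGen (S18_hRR (M * p)).deg_one 1 Nat.one_pos hx hred e₁ e₂ hW1 i) C.X :=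
    S40F2N9_hyp M p hp hpM A hA hgen (A.inertiaSubgroupIn ℚ) le_rfl e₁ e₂ hW1 hx hred (p : Ω)
      (S40F2PV_unif hp A hA) i C Ch hR
  obtain ⟨hNA, hNO₁, hNO₂, hNU, hNε⟩ :=
    S40NX4_node_props M p hp hpM A hgen e₁ e₂ hW1 hx hred i
  have hA₁ : ∀ a : Ω, algebraMap Ω ↥(modularFunctionFieldBar (M * p)) a ∈
      (S40NI_nodeGen (S18_hRR (M * p)).deg_one 1 Nat.one_pos hx hred e₁ e₂ hW1 i).O₁ →
      a ∈ (S40NI_nodeGen (S18_hRR (M * p)).deg_one 1 Nat.one_pos hx hred e₁ e₂ hW1 i).A :=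
    fun a h => ((S34M_T1 M p A hgen).algebraMap_mem_iff a).1 h
  have hA₂ : ∀ a : Ω, algebraMap Ω ↥(modularFunctionFieldBar (M * p)) a ∈
      (S40NI_nodeGen (S18_hRR (M * p)).deg_one 1 Nat.one_pos hx hred e₁ e₂ hW1 i).O₂ →
      a ∈ (S40NI_nodeGen (S18_hRR (M * p)).deg_one 1 Nat.one_pos hx hred e₁ e₂ hW1 i).A :=
    fun a h => ((S34M_T2 M p hp hpM A hgen).algebraMap_mem_iff a).1 h
  have hfin : ∀ g : ↥(modularFunctionFieldBar (M * p)),
      {Q : S40NA_Pt Ω ↥(modularFunctionFieldBar (M * p)) |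
        Q ∈ (S40NI_nodeGen (S18_hRR (M * p)).deg_one 1 Nat.one_pos hx hred e₁ e₂ hW1 i).U ∧
          g ∉ Q.P}.Finite :=
    fun g => S40NI_poles_finite (S18_hRR (M * p)).deg_one (jB (M * p)) g
  have hVζ : A.valuation (1 - ζ₀) < 1 := by
    rw [← hvπ]
    exact pow_lt_one₀ zero_le hπ1 hp.ne_zero
  have hVp : A.valuation (p : Ω) < 1 := by
    rw [← hζ₀]
    exact pow_lt_one₀ zero_le hVζ (by have := hp.two_le; omega)
  have hpA : (p : Ω) ∈ A.nonunits := (ValuationSubring.mem_nonunits_iff (A := A)).mpr hVp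
  have hC := S40F2MC_coord
    (S40NI_nodeGen (S18_hRR (M * p)).deg_one 1 Nat.one_pos hx hred e₁ e₂ hW1 i) C
    (S36FI_act (M * p) H).fixK hp e hϖ hA₁ hA₂ hπC hπ0 hπ1 hval hcC hvc hVp hfin hvπ hζ₀
  have hHIA : ∀ g ∈ H, g ∈ A.inertiaSubgroupIn ℚ := fun g hg => (hHI g hg).1
  refine ⟨C, e, hC.hX, hϖ, hrest.2.2.2.2.1, fun u₀ hu0 huH hdvd => ?_⟩
  exact S40F2YG_hdiv M p hp hpM A hgen
    (S40NI_nodeGen (S18_hRR (M * p)).deg_one 1 Nat.one_pos hx hred e₁ e₂ hW1 i)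
    hNA hNO₁ hNO₂ hNU hNε hpA C HX hσX e hϖ H hHIA (S36FI_act (M * p) H).fixK
    (fun b => S36FI_mem_fixK (M * p) H) ht1 hC hπH hπ0 hπ1 hdisc hvc.le hvr σ hσ.1 hunif hu0 huH
    hdvd

end inst

end Fermat.Agent.S40
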