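import Mathlib

/-!
# TRACK 13 (row 38), (F2-OUT): the FREE NORMALISATION, abstract part (helper20).  Prefix `S40F2NM_`.

`F / L` a field extension, `A ⊂ L` a valuation ring of rank one with `p`-th roots in `L`,
`O₁`, `O₂` two valuation rings of `F` with `O_j ∩ L = A`, value group the one of `A`
(every `f ≠ 0` is a constant times a unit), and the approximation property for the pair.

* `S40F2NM_exists_h` : for every constant `δ ≠ 0` there is `h ≠ 0` with `V₁ h = 1`,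
  `V₂ (h / δ) = 1`;
* `S40F2NM_norm_abs` : **free normalisation**: every `u₀ ≠ 0` has a constant `c ≠ 0` and a
  function `h ≠ 0` such that `u₀ · c · h ^ p` is a unit at `O₁` AND at `O₂`.

Mathlib only.
-/

set_option autoImplicit false

namespace Fermat.Agent.S40

section val

variable {K : Type*} [Field K]

theorem S40F2NM_val_one_of_sub (O : ValuationSubring K) {a : K}
    (h : O.valuation (a - 1) < 1) : O.valuation a = 1 := by
  have e : a = 1 + (a - 1) := by ring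
  rw [e]
  exact Valuation.map_one_add_of_lt _ h

theorem S40F2NM_val_pow_sub (O : ValuationSubring K) {a : K}
    (ha : O.valuation (a - 1) < 1) (n : ℕ) : O.valuation (a ^ n - 1) < 1 := by
  induction n with
  | zero => simp
  | succ m ih =>
    have e : a ^ (m + 1) - 1 = a ^ m * (a - 1) + (a ^ m - 1) := by ring
    rw [e]
    refine lt_of_le_of_lt (O.valuation.map_add _ _) (max_lt ?_ ih)
    rw [map_mul, S40F2NM_val_one_of_sub O ih, one_mul]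
    exact ha

/-- `v x < 1 ↔ x⁻¹ ∉ O` for `x ≠ 0`. -/
theorem S40F2NM_lt_one_iff (O : ValuationSubring K) {x : K} (hx : x ≠ 0) :
    O.valuation x < 1 ↔ x⁻¹ ∉ O := by
  rw [← O.valuation_le_one_iff, map_inv₀, not_le]
  have h0 : O.valuation x ≠ 0 := (Valuation.ne_zero_iff _).2 hx
  constructor
  · intro h
    exact (one_lt_inv₀ (zero_lt_iff.2 h0)).2 h
  · intro h
    exact (one_lt_inv₀ (zero_lt_iff.2 h0)).1 h

end val

section norm

variable {L F : Type*} [Field L] [Field F] [Algebra L F]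
  (A : ValuationSubring L) (O₁ O₂ : ValuationSubring F)

/-- constants: `V (alg a) < 1 ↔ a ∈ A.nonunits`, for `a ≠ 0`. -/
theorem S40F2NM_const_lt (O : ValuationSubring F)
    (hA : ∀ a : L, algebraMap L F a ∈ O ↔ a ∈ A) {a : L} (ha : a ≠ 0) :
    O.valuation (algebraMap L F a) < 1 ↔ a ∈ A.nonunits := by
  have ha' : algebraMap L F a ≠ 0 := (map_ne_zero _).2 ha
  rw [S40F2NM_lt_one_iff O ha', ← map_inv₀, hA, ValuationSubring.mem_nonunits_iff,
    S40F2NM_lt_one_iff A ha]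

/-- constants: `V (alg a) ≤ 1 ↔ a ∈ A`. -/
theorem S40F2NM_const_le (O : ValuationSubring F)
    (hA : ∀ a : L, algebraMap L F a ∈ O ↔ a ∈ A) (a : L) :
    O.valuation (algebraMap L F a) ≤ 1 ↔ a ∈ A := by
  rw [O.valuation_le_one_iff, hA]

variable {A O₁ O₂}

/-- the case `δ ∈ A`. -/
theorem S40F2NM_exists_h_mem
    (hA₁ : ∀ a : L, algebraMap L F a ∈ O₁ ↔ a ∈ A)
    (hA₂ : ∀ a : L, algebraMap L F a ∈ O₂ ↔ a ∈ A)
    (happ : ∀ x₁ x₂ : F, O₁.valuation x₁ ≤ 1 → O₂.valuation x₂ ≤ 1 →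
      ∃ f : F, O₁.valuation (f - x₁) < 1 ∧ O₂.valuation (f - x₂) < 1)
    (hc₂ : ∀ f : F, f ≠ 0 →
      ∃ c : L, c ≠ 0 ∧ O₂.valuation (f * (algebraMap L F c)⁻¹) = 1)
    (harch : ∀ g b : L, b ∈ A.nonunits → ∃ m : ℕ, g * b ^ m ∈ A)
    (δ : L) (hδ0 : δ ≠ 0) (hδ : δ ∈ A) :
    ∃ h : F, O₁.valuation (h - 1) < 1 ∧
      O₂.valuation (h * (algebraMap L F δ)⁻¹ - 1) < 1 := by
  obtain ⟨e, he1, he2⟩ := happ 1 0 (by rw [map_one]) (by rw [map_zero]; exact zero_le_one)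
  obtain ⟨e', he'1, he'2⟩ := happ 0 1 (by rw [map_zero]; exact zero_le_one) (by rw [map_one])
  rw [sub_zero] at he2 he'1
  have he0 : e ≠ 0 := by
    rintro rfl
    rw [zero_sub, Valuation.map_neg, map_one] at he1
    exact lt_irrefl _ he1
  obtain ⟨ce, hce0, hce⟩ := hc₂ e he0
  have hce' : algebraMap L F ce ≠ 0 := (map_ne_zero _).2 hce0
  have hδ' : algebraMap L F δ ≠ 0 := (map_ne_zero _).2 hδ0
  -- `V₂ (alg ce) = V₂ e < 1`
  have hval : O₂.valuation (algebraMap L F ce) = O₂.valuation e := by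
    have h1 : O₂.valuation e = O₂.valuation (e * (algebraMap L F ce)⁻¹) *
        O₂.valuation (algebraMap L F ce) := by
      rw [← map_mul, inv_mul_cancel_right₀ hce']
    rw [h1, hce, one_mul]
  have hceN : ce ∈ A.nonunits := by
    rw [← S40F2NM_const_lt A O₂ hA₂ hce0, hval]
    exact he2
  obtain ⟨m, hm⟩ := harch δ⁻¹ ce hceN
  -- `b = δ⁻¹ ce^(m+1)` is a nonunit
  have hb0 : δ⁻¹ * ce ^ (m + 1) ≠ 0 := mul_ne_zero (inv_ne_zero hδ0) (pow_ne_zero _ hce0)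
  have hbN : δ⁻¹ * ce ^ (m + 1) ∈ A.nonunits := by
    rw [ValuationSubring.mem_nonunits_iff]
    have e1 : δ⁻¹ * ce ^ (m + 1) = (δ⁻¹ * ce ^ m) * ce := by ring
    rw [e1, map_mul]
    have h1 : A.valuation (δ⁻¹ * ce ^ m) ≤ 1 := (A.valuation_le_one_iff _).2 hm
    have h2 : A.valuation ce < 1 := (ValuationSubring.mem_nonunits_iff A).1 hceN
    calc A.valuation (δ⁻¹ * ce ^ m) * A.valuation ce ≤ 1 * A.valuation ce :=
          mul_le_mul' h1 le_rfl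
      _ = A.valuation ce := one_mul _
      _ < 1 := h2
  have hbV : O₂.valuation (algebraMap L F (δ⁻¹ * ce ^ (m + 1))) < 1 :=
    (S40F2NM_const_lt A O₂ hA₂ hb0).2 hbN
  have hpow : O₂.valuation (e ^ (m + 1) * (algebraMap L F δ)⁻¹) < 1 := by
    have e1 : e ^ (m + 1) * (algebraMap L F δ)⁻¹ =
        (e * (algebraMap L F ce)⁻¹) ^ (m + 1) * algebraMap L F (δ⁻¹ * ce ^ (m + 1)) := by
      rw [map_mul, map_inv₀, map_pow, mul_pow, inv_pow]
      field_simp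
    rw [e1, map_mul, map_pow, hce, one_pow, one_mul]
    exact hbV
  refine ⟨e ^ (m + 1) + algebraMap L F δ * e', ?_, ?_⟩
  · have e1 : e ^ (m + 1) + algebraMap L F δ * e' - 1 =
        (e ^ (m + 1) - 1) + algebraMap L F δ * e' := by ring
    rw [e1]
    refine lt_of_le_of_lt (O₁.valuation.map_add _ _)
      (max_lt (S40F2NM_val_pow_sub O₁ he1 _) ?_)
    rw [map_mul]
    have h1 : O₁.valuation (algebraMap L F δ) ≤ 1 := (S40F2NM_const_le A O₁ hA₁ δ).2 hδ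
    calc O₁.valuation (algebraMap L F δ) * O₁.valuation e' ≤ 1 * O₁.valuation e' :=
          mul_le_mul' h1 le_rfl
      _ = O₁.valuation e' := one_mul _
      _ < 1 := he'1
  · have e1 : (e ^ (m + 1) + algebraMap L F δ * e') * (algebraMap L F δ)⁻¹ - 1 =
        e ^ (m + 1) * (algebraMap L F δ)⁻¹ + (e' - 1) := by
      field_simp
      ring
    rw [e1]
    exact lt_of_le_of_lt (O₂.valuation.map_add _ _) (max_lt hpow he'2)

/-- for every constant `δ ≠ 0` there is `h ≠ 0` with `V₁ h = 1` and `V₂ (h / δ) = 1`. -/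
theorem S40F2NM_exists_h
    (hA₁ : ∀ a : L, algebraMap L F a ∈ O₁ ↔ a ∈ A)
    (hA₂ : ∀ a : L, algebraMap L F a ∈ O₂ ↔ a ∈ A)
    (happ : ∀ x₁ x₂ : F, O₁.valuation x₁ ≤ 1 → O₂.valuation x₂ ≤ 1 →
      ∃ f : F, O₁.valuation (f - x₁) < 1 ∧ O₂.valuation (f - x₂) < 1)
    (hc₂ : ∀ f : F, f ≠ 0 →
      ∃ c : L, c ≠ 0 ∧ O₂.valuation (f * (algebraMap L F c)⁻¹) = 1)
    (harch : ∀ g b : L, b ∈ A.nonunits → ∃ m : ℕ, g * b ^ m ∈ A)
    (δ : L) (hδ0 : δ ≠ 0) :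
    ∃ h : F, h ≠ 0 ∧ O₁.valuation h = 1 ∧
      O₂.valuation (h * (algebraMap L F δ)⁻¹) = 1 := by
  have hne : ∀ (O : ValuationSubring F) (x : F), O.valuation x = 1 → x ≠ 0 := by
    intro O x hx h0
    rw [h0, map_zero] at hx
    exact zero_ne_one hx
  rcases A.mem_or_inv_mem δ with hδ | hδ
  · obtain ⟨h, h1, h2⟩ := S40F2NM_exists_h_mem hA₁ hA₂ happ hc₂ harch δ hδ0 hδ
    have hv1 := S40F2NM_val_one_of_sub O₁ h1
    exact ⟨h, hne O₁ h hv1, hv1, S40F2NM_val_one_of_sub O₂ h2⟩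
  · obtain ⟨h, h1, h2⟩ :=
      S40F2NM_exists_h_mem hA₁ hA₂ happ hc₂ harch δ⁻¹ (inv_ne_zero hδ0) hδ
    have hv1 := S40F2NM_val_one_of_sub O₁ h1
    have hv2 := S40F2NM_val_one_of_sub O₂ h2
    have hh0 := hne O₁ h hv1
    refine ⟨h⁻¹, inv_ne_zero hh0, by rw [map_inv₀, hv1, inv_one], ?_⟩
    have e1 : h⁻¹ * (algebraMap L F δ)⁻¹ = (h * (algebraMap L F δ⁻¹)⁻¹)⁻¹ := by
      rw [map_inv₀, inv_inv, mul_inv]
    rw [e1, map_inv₀, hv2, inv_one]

/-- **free normalisation**: every `u₀ ≠ 0` becomes a unit at `O₁` and at `O₂` after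
multiplication by a constant and a `p`-th power. -/
theorem S40F2NM_norm_abs
    (hA₁ : ∀ a : L, algebraMap L F a ∈ O₁ ↔ a ∈ A)
    (hA₂ : ∀ a : L, algebraMap L F a ∈ O₂ ↔ a ∈ A)
    (happ : ∀ x₁ x₂ : F, O₁.valuation x₁ ≤ 1 → O₂.valuation x₂ ≤ 1 →
      ∃ f : F, O₁.valuation (f - x₁) < 1 ∧ O₂.valuation (f - x₂) < 1)
    (hc₁ : ∀ f : F, f ≠ 0 →
      ∃ c : L, c ≠ 0 ∧ O₁.valuation (f * (algebraMap L F c)⁻¹) = 1)
    (hc₂ : ∀ f : F, f ≠ 0 →
      ∃ c : L, c ≠ 0 ∧ O₂.valuation (f * (algebraMap L F c)⁻¹) = 1)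
    (harch : ∀ g b : L, b ∈ A.nonunits → ∃ m : ℕ, g * b ^ m ∈ A)
    (p : ℕ) (hroot : ∀ a : L, ∃ b : L, b ^ p = a)
    (u₀ : F) (hu₀ : u₀ ≠ 0) :
    ∃ (c : L) (h : F), c ≠ 0 ∧ h ≠ 0 ∧
      O₁.valuation (u₀ * algebraMap L F c * h ^ p) = 1 ∧
      O₂.valuation (u₀ * algebraMap L F c * h ^ p) = 1 := by
  obtain ⟨c₁, hc₁0, hv₁⟩ := hc₁ u₀ hu₀
  obtain ⟨c₂, hc₂0, hv₂⟩ := hc₂ u₀ hu₀
  obtain ⟨δ, hδ⟩ := hroot (c₁ * c₂⁻¹)
  by_cases hp : p = 0
  · -- exponent `0`: only possible if `c₁ = c₂`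
    subst hp
    rw [pow_zero] at hδ
    have hc12 : c₁ = c₂ := by
      have := congrArg (fun t => t * c₂) hδ
      simp only [one_mul] at this
      rw [inv_mul_cancel_right₀ hc₂0] at this
      exact this.symm
    refine ⟨c₁⁻¹, 1, inv_ne_zero hc₁0, one_ne_zero, ?_, ?_⟩
    · rw [pow_zero, mul_one, map_inv₀]; exact hv₁
    · rw [pow_zero, mul_one, map_inv₀, hc12]; exact hv₂
  have hδ0 : δ ≠ 0 := by
    rintro rfl
    rw [zero_pow hp] at hδ
    exact mul_ne_zero hc₁0 (inv_ne_zero hc₂0) hδ.symm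
  obtain ⟨h, hh0, hh1, hh2⟩ := S40F2NM_exists_h hA₁ hA₂ happ hc₂ harch δ hδ0
  have hc₁' : algebraMap L F c₁ ≠ 0 := (map_ne_zero _).2 hc₁0
  have hc₂' : algebraMap L F c₂ ≠ 0 := (map_ne_zero _).2 hc₂0
  have hδ' : algebraMap L F δ ≠ 0 := (map_ne_zero _).2 hδ0
  refine ⟨c₁⁻¹, h, inv_ne_zero hc₁0, hh0, ?_, ?_⟩
  · rw [map_mul, map_pow, hh1, one_pow, mul_one, map_inv₀]
    exact hv₁
  · have hδF : algebraMap L F δ ^ p = algebraMap L F c₁ * (algebraMap L F c₂)⁻¹ := by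
      rw [← map_pow, hδ, map_mul, map_inv₀]
    have e1 : u₀ * algebraMap L F c₁⁻¹ * h ^ p =
        (u₀ * (algebraMap L F c₂)⁻¹) * (h * (algebraMap L F δ)⁻¹) ^ p := by
      rw [mul_pow, inv_pow, hδF, map_inv₀]
      field_simp
    rw [e1, map_mul, map_pow, hv₂, hh2, one_pow, mul_one]

end norm

end Fermat.Agent.S40
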