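import Mathlib
import Fermat.Agent.S40.DefsJ3
import Fermat.Agent.S40.AlgScInst
import Fermat.Agent.S40.HN

/-!
# TRACK 13 (row 38): the TOP of the J-side (helper6).  Prefix `S40JT_`.

Level `M' * p`, `p ∤ M'`, `A` a place of `ℚ̄` over `p`.

* `S40JT_TypeA M' p hp hpM A x` : **type (a)**: the class `x ∈ J₀(M'p)` has a NORMALISED Kummer
  generator of exponent `p` (`u ∈ S34M_Kp`: `u ≡ 1` on both components of the special fibre).
* `S40JT_tau_of_typeA` : type (a) + new ⇒ `τ₀ x = c x` (CORE of TRACK 11, `S33NW_core`).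
* `S40JT_Hole` : **the hole of the J-side, sharp form**: for `V` simple, eigen, new, CASE B, with
  (ALG-R), (ALG-K), (INV): a class `x ∈ V` which is NOT of type (a) gives the core.
  [= (F2'): `x` is normalisable (type (b)), and GEO-5: type (b) gives an eigen-class of level `M'`.]
* `S40JT_hole3 : S40JT_Hole → S40DJ_Hole3` : if the core fails, all of `V` is of type (a), so
  `τ₀ = c` on `V`, which contradicts (ALG-S) (`S40AI_false_of_tau`).
-/

set_option autoImplicit false
set_option linter.style.haveILetI false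
set_option linter.unusedSectionVars false
set_option linter.unusedVariables false
set_option synthInstance.maxHeartbeats 400000
set_option maxHeartbeats 1000000

open AlgebraicCurve ModularCurve IntermediateField

noncomputable section

namespace Fermat.Agent.S40

open Fermat.Agent.S17 Fermat.Agent.S18 Fermat.Agent.S19 Fermat.Agent.S24 Fermat.Agent.S34
  Fermat.Agent.S35 Fermat.Agent.S36 Fermat.Agent.S37 Fermat.Agent.GalRep Fermat.Agent.S33

local notation "ℚbar" => AlgebraicClosure ℚ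

section typeA

variable (M p : ℕ) [NeZero M] [NeZero p] [NeZero (M * p)] (hp : p.Prime) (hpM : ¬ p ∣ M)

/-- **type (a)**: `x` has a normalised Kummer generator of exponent `p`. -/
def S40JT_TypeA (A : ValuationSubring ℚbar) (x : JZero (M * p)) : Prop :=
  ∃ (hgen : PrincipalGeneratedByIntegral A (IsLocalRing.residue A) (M * p))
    (u : ↥(modularFunctionFieldBar (M * p))),
    S33DG_IsGen p x u ∧ u ∈ S34M_Kp M p hp hpM A hgen p

include hp hpM in
/-- type (a) + new ⇒ `τ₀ x = c x`. -/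
theorem S40JT_tau_of_typeA (hp2 : p ≠ 2) (A : ValuationSubring ℚbar) (hA : A.LiesOverPrime p)
    (τ₀ : GQ) (c c' k : ℕ) (ζ : ℚbar) (hD : S33NFR_Data p A τ₀ c c' k ζ)
    (x : JZero (M * p)) (hx : S40JT_TypeA M p hp hpM A x) (hnew : S40DJ_New M p x) :
    τ₀ • x = c • x := by
  obtain ⟨hgen, u, hu, hmem⟩ := hx
  exact S33DG_smul_eq_of_isTriv (M * p) hp.pos hu τ₀ c
    (S33NW_core M p hp hpM hp2 A hA τ₀ c c' k ζ hD hgen u hmem
      (S33DG_aJ_kum M p hu hnew.1) (S33DG_bJ_kum M p hu hnew.2))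

end typeA

/-- **the hole of the J-side, sharp form**: a class of `V` which is not of type (a) gives the
core. -/
def S40JT_Hole : Prop :=
  ∀ (W : WeierstrassCurve ℤ), W.Δ ≠ 0 → ∀ (p : ℕ) (hp : p.Prime), 5 ≤ p →
    W.ModRepIsIrreducible p → ∀ (M' : ℕ) [NeZero M'] [NeZero p] [NeZero (M' * p)]
    (hpM : ¬ p ∣ M'),
    ∀ (A : ValuationSubring ℚbar), A.LiesOverPrime p →
    ∀ V : AddSubgroup (JZero (M' * p)),
      (∀ x ∈ V, x ∈ S40D_V0 W p (M' * p)) → S40WA_Simple GQ V →
      (∀ x ∈ V, S40DJ_New M' p x) → S40DJ_CaseB W A p →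
      S40D_Rel W p (M' * p) V → S40D_Ker W p (M' * p) V → S40D_InvJ (M' * p) A p V →
      ∀ x ∈ V, ¬ S40JT_TypeA M' p hp hpM A x → S40W_Core W p (M' * p)

/-- **TOP of the J-side**: `S40DJ_Hole3` from the sharp hole. -/
theorem S40JT_hole3 (h : S40JT_Hole) : S40DJ_Hole3 := by
  intro W hΔ p hp hp5 hirr M' _ _ _ hpM A hA V hVV0 hV hnew hB hR hK hI
  by_contra hncore
  have hp2 : p ≠ 2 := by omega
  have hall : ∀ x ∈ V, S40JT_TypeA M' p hp hpM A x := by
    intro x hx
    by_contra hna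
    exact hncore (h W hΔ p hp hp5 hirr M' hpM A hA V hVV0 hV hnew hB hR hK hI x hx hna)
  obtain ⟨τ₀, c, c', k, ζ, hD⟩ := S33NFR_exists_data p hp hp2 A hA
  obtain ⟨hV0, hVst, -⟩ := hV
  exact S40AI_false_of_tau W hΔ hp hp2 hirr V (fun x hx => (hVV0 x hx).1)
    (fun g x hx => hVst g x hx) hV0 hR τ₀ c ζ hD.2.1 hD.2.2.1 hD.2.2.2.1
    (fun x hx => S40JT_tau_of_typeA M' p hp hpM hp2 A hA τ₀ c c' k ζ hD x (hall x hx)
      (hnew x hx))

end Fermat.Agent.S40
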