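import Mathlib
import Fermat.Agent.S40.JTop
import Fermat.Agent.S34.ValWire
import Fermat.Agent.S34.Cart2
import Fermat.Agent.S36.Lat3
import Fermat.Agent.S33.KumBridge

/-!
# TRACK 13 (row 38): the DICHOTOMY of the J-side (helper6).  Prefix `S40JD_`.

Level `M * p`, `p ∤ M`, `A` a place of `ℚ̄` over `p`, `V₁ = S34M_T1`, `V₂ = S34M_T2` the two Gauss
valuations of `F = ℚ̄(X₀(Mp))`, `red₁`, `red₂` their reductions.

* `S40JD_typeA` : a Kummer generator `u` of `x` (exponent `p`) in `O₁ ∩ O₂` whose two reductions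
  are NONZERO `p`-th powers, `red₁ u = a ^ p`, `red₂ u = b ^ p`, makes `x` of type (a)
  (`S40JT_TypeA`): by approximation (`S34CB_red_surjective_pair`, `V₁`, `V₂` are incomparable,
  `S34VW_incomp`) there is `h ∈ O₁ ∩ O₂` with reductions `(a, b)`, and `u / h ^ p` is a normalised
  Kummer generator of the same class.  NO gluing at the nodes is needed.
* `S40JD_dich` : so for a class `x` which is NOT of type (a), every generator `u` which is a unit
  at `V₁` and at `V₂` has `red₁ u` or `red₂ u` NOT a `p`-th power.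
-/

set_option autoImplicit false
set_option linter.style.haveILetI false
set_option linter.unusedSectionVars false
set_option linter.unusedVariables false
set_option synthInstance.maxHeartbeats 400000
set_option maxHeartbeats 1000000

open AlgebraicCurve ModularCurve IntermediateField

noncomputable section

namespace Fermat.Agent.S40

open Fermat.Agent.S17 Fermat.Agent.S18 Fermat.Agent.S19 Fermat.Agent.S24 Fermat.Agent.S34
  Fermat.Agent.S35 Fermat.Agent.S36 Fermat.Agent.S37 Fermat.Agent.GalRep Fermat.Agent.S33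

local notation "ℚbar" => AlgebraicClosure ℚ

variable (M p : ℕ) [NeZero M] [NeZero p] [NeZero (M * p)] (hp : p.Prime) (hpM : ¬ p ∣ M)

include hp hpM in
/-- **both reductions are `p`-th powers ⇒ type (a).** -/
theorem S40JD_typeA (A : ValuationSubring ℚbar) (hA : A.LiesOverPrime p)
    (hgen : PrincipalGeneratedByIntegral A (IsLocalRing.residue A) (M * p))
    (x : JZero (M * p)) (u : ↥(modularFunctionFieldBar (M * p)))
    (hu : S33DG_IsGen p x u)
    (h1 : u ∈ (S34M_T1 M p A hgen).O) (h2 : u ∈ (S34M_T2 M p hp hpM A hgen).O)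
    (a b : ↥(modularFunctionFieldFullC (IsLocalRing.ResidueField A) (M * p)))
    (ha0 : a ≠ 0) (hb0 : b ≠ 0)
    (ha : (S34M_T1 M p A hgen).red ⟨u, h1⟩ = a ^ p)
    (hb : (S34M_T2 M p hp hpM A hgen).red ⟨u, h2⟩ = b ^ p) :
    S40JT_TypeA M p hp hpM A x := by
  set T1 := S34M_T1 M p A hgen with hT1
  set T2 := S34M_T2 M p hp hpM A hgen with hT2
  have hsame : S34P_Same T1 T2 := S34M_same M p hp hpM A hgen
  have hinc := S34VW_incomp M p hp hpM A hgen hA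
  have h12 : ¬ T1.O ≤ T2.O := by
    rw [hT1, hT2, S34M_T1_O, S34M_T2_O]; exact hinc.1
  have h21 : ¬ T2.O ≤ T1.O := by
    rw [hT1, hT2, S34M_T1_O, S34M_T2_O]; exact hinc.2
  obtain ⟨h, hh⟩ := S34CB_red_surjective_pair T1 T2 hsame.A_eq hsame.res_eq h12 h21 (a, b)
  rw [S34L_ofPair_red] at hh
  have hh1 : T1.red ⟨h.1, h.2.1⟩ = a := congrArg Prod.fst hh
  have hh2 : T2.red ⟨h.1, h.2.2⟩ = b := congrArg Prod.snd hh
  have hi1 : (h.1)⁻¹ ∈ T1.O := S36L3_inv_mem_of_red_ne T1 h.2.1 (by rw [hh1]; exact ha0)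
  have hi2 : (h.1)⁻¹ ∈ T2.O := S36L3_inv_mem_of_red_ne T2 h.2.2 (by rw [hh2]; exact hb0)
  have hh0 : (h.1 : ↥(modularFunctionFieldBar (M * p))) ≠ 0 := by
    intro h0
    apply ha0
    rw [← hh1]
    have : (⟨h.1, h.2.1⟩ : T1.O) = 0 := Subtype.ext h0
    rw [this, map_zero]
  -- the new generator
  have hgen' : S33DG_IsGen p x (u * ((h.1)⁻¹) ^ p) := by
    haveI := S18_hPD (M * p)
    have h0 : S33DG_IsGen p (0 : JZero (M * p))
        (algebraMap ℚbar ↥(modularFunctionFieldBar (M * p)) 1 * ((h.1)⁻¹) ^ p) :=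
      S33KB_isGen_triv p 1 ((h.1)⁻¹) one_ne_zero (inv_ne_zero hh0)
    rw [map_one, one_mul] at h0
    have := S33DG_isGen_mul hu h0
    rwa [add_zero] at this
  have hr1 : T1.red ⟨(h.1)⁻¹, hi1⟩ = a⁻¹ := by
    have e : (⟨(h.1)⁻¹, hi1⟩ : T1.O) * ⟨h.1, h.2.1⟩ = 1 := Subtype.ext (inv_mul_cancel₀ hh0)
    have := congrArg T1.red e
    rw [map_mul, map_one, hh1] at this
    exact eq_inv_of_mul_eq_one_left this
  have hr2 : T2.red ⟨(h.1)⁻¹, hi2⟩ = b⁻¹ := by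
    have e : (⟨(h.1)⁻¹, hi2⟩ : T2.O) * ⟨h.1, h.2.2⟩ = 1 := Subtype.ext (inv_mul_cancel₀ hh0)
    have := congrArg T2.red e
    rw [map_mul, map_one, hh2] at this
    exact eq_inv_of_mul_eq_one_left this
  have hm1 : u * ((h.1)⁻¹) ^ p ∈ T1.O := mul_mem h1 (pow_mem hi1 p)
  have hm2 : u * ((h.1)⁻¹) ^ p ∈ T2.O := mul_mem h2 (pow_mem hi2 p)
  have e1 : T1.red ⟨u * ((h.1)⁻¹) ^ p, hm1⟩ = 1 := by
    have e : (⟨u * ((h.1)⁻¹) ^ p, hm1⟩ : T1.O) = ⟨u, h1⟩ * ⟨(h.1)⁻¹, hi1⟩ ^ p := Subtype.ext rfl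
    rw [e, map_mul, map_pow, ha, hr1, inv_pow, mul_inv_cancel₀ (pow_ne_zero p ha0)]
  have e2 : T2.red ⟨u * ((h.1)⁻¹) ^ p, hm2⟩ = 1 := by
    have e : (⟨u * ((h.1)⁻¹) ^ p, hm2⟩ : T2.O) = ⟨u, h2⟩ * ⟨(h.1)⁻¹, hi2⟩ ^ p := Subtype.ext rfl
    rw [e, map_mul, map_pow, hb, hr2, inv_pow, mul_inv_cancel₀ (pow_ne_zero p hb0)]
  refine ⟨hgen, u * ((h.1)⁻¹) ^ p, hgen', S33DG_isKum hgen', ⟨⟨hm1, hm2⟩, ?_⟩⟩
  exact Prod.ext e1 e2

include hp hpM in
/-- **the dichotomy**: for a class which is not of type (a), a generator which is a unit at `V₁`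
and at `V₂` has a reduction which is not a `p`-th power. -/
theorem S40JD_dich (A : ValuationSubring ℚbar) (hA : A.LiesOverPrime p)
    (hgen : PrincipalGeneratedByIntegral A (IsLocalRing.residue A) (M * p))
    (x : JZero (M * p)) (hx : ¬ S40JT_TypeA M p hp hpM A x)
    (u : ↥(modularFunctionFieldBar (M * p))) (hu : S33DG_IsGen p x u)
    (h1 : u ∈ (S34M_T1 M p A hgen).O) (h2 : u ∈ (S34M_T2 M p hp hpM A hgen).O)
    (hn1 : (S34M_T1 M p A hgen).red ⟨u, h1⟩ ≠ 0)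
    (hn2 : (S34M_T2 M p hp hpM A hgen).red ⟨u, h2⟩ ≠ 0) :
    (¬ ∃ a, (S34M_T1 M p A hgen).red ⟨u, h1⟩ = a ^ p) ∨
      (¬ ∃ b, (S34M_T2 M p hp hpM A hgen).red ⟨u, h2⟩ = b ^ p) := by
  by_contra hcon
  rw [not_or, not_not, not_not] at hcon
  obtain ⟨⟨a, ha⟩, ⟨b, hb⟩⟩ := hcon
  have ha0 : a ≠ 0 := by
    rintro rfl
    rw [zero_pow hp.ne_zero] at ha
    exact hn1 ha
  have hb0 : b ≠ 0 := by
    rintro rfl
    rw [zero_pow hp.ne_zero] at hb
    exact hn2 hb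
  exact hx (S40JD_typeA M p hp hpM A hA hgen x u hu h1 h2 a b ha0 hb0 ha hb)

end Fermat.Agent.S40
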