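import Mathlib
import Fermat.Agent.S40.JTop

/-!
# TRACK 13 (row 38): the MID WIRE of the J-side (helper2).  Prefix `S40JM_`.

Level `M' * p`, `p ∤ M'`, `A` a place of `ℚ̄` over `p`, `T₁ = S34M_T1`, `T₂ = S34M_T2` the two
Gauss valuations (`T₂ = T₁ ∘ w_p`), `Fk` the function field of the fibre.

* `S40JM_KumAt T p u` : `u ∈ T.O` and `red u` is a Kummer generator of exponent `p` on `Fk`
  (so `u` is a unit at `T` and `p ∣ ord_v (red u)` at ALL places `v` of `Fk`, nodes included).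
* `S40JM_PthAt T p u` : `u ∈ T.O` and `red u` is a nonzero `p`-th power of `Fk`.
* `S40JM_F2Out` : **hole (F2-OUT)** = the output of (F2'): under (INV) every `x ∈ V` has a
  Kummer generator `u` with `S40JM_KumAt` at `T₁` and at `T₂` (`p ∣ n_s(u)` at all nodes).
* `S40JM_G5` : **hole (GEO-5)**: a `W`-eigen-class `x` of `J₀(M'p)[p]` with a generator `u`,
  `S40JM_KumAt T₁ p u`, `¬ S40JM_PthAt T₁ p u` gives the core.
* `S40JM_Sym` : **(SYM)** `w_p`-symmetry: the class with generator `w_p u` is a `W`-eigen-class.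
* `S40JM_Dich` : **(DICH)** (helper6, `S40/JDich.lean`): both reductions `p`-th powers ⇒ type (a).
* `S40JM_hole : S40JM_F2Out → S40JM_G5 → S40JM_Sym → S40JM_Dich → S40JT_Hole`.
-/

set_option autoImplicit false
set_option linter.style.haveILetI false
set_option linter.unusedSectionVars false
set_option linter.unusedVariables false
set_option synthInstance.maxHeartbeats 400000
set_option maxHeartbeats 1000000

open AlgebraicCurve ModularCurve IntermediateField

noncomputable section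

namespace Fermat.Agent.S40

open Fermat.Agent.S17 Fermat.Agent.S18 Fermat.Agent.S19 Fermat.Agent.S24 Fermat.Agent.S34
  Fermat.Agent.S35 Fermat.Agent.S36 Fermat.Agent.S37 Fermat.Agent.GalRep Fermat.Agent.S33

local notation "ℚbar" => AlgebraicClosure ℚ

section defs

variable {F k Fk : Type} [Field F] [Algebra ℚbar F] [Field k] [Field Fk] [Algebra k Fk]

/-- `u ∈ T.O` and `red u` is a Kummer generator of exponent `p` on the fibre. -/
def S40JM_KumAt (T : S18_Val ℚbar F k Fk) (p : ℕ) (u : F) : Prop :=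
  ∃ h : u ∈ T.O, KM_IsKum k Fk p (T.red ⟨u, h⟩)

/-- `u ∈ T.O` and `red u` is a nonzero `p`-th power on the fibre. -/
def S40JM_PthAt (T : S18_Val ℚbar F k Fk) (p : ℕ) (u : F) : Prop :=
  ∃ (h : u ∈ T.O) (g : Fk), g ≠ 0 ∧ T.red ⟨u, h⟩ = g ^ p

end defs

/-- **hole (F2-OUT)**: under the hypotheses of the J-side hole, every `x ∈ V` has a Kummer
generator whose reductions at `T₁` and `T₂` are Kummer generators of exponent `p`. -/
def S40JM_F2Out : Prop :=
  ∀ (W : WeierstrassCurve ℤ), W.Δ ≠ 0 → ∀ (p : ℕ) (hp : p.Prime), 5 ≤ p →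
    W.ModRepIsIrreducible p → ∀ (M' : ℕ) [NeZero M'] [NeZero p] [NeZero (M' * p)]
    (hpM : ¬ p ∣ M'),
    ∀ (A : ValuationSubring ℚbar), A.LiesOverPrime p →
    ∀ V : AddSubgroup (JZero (M' * p)),
      (∀ x ∈ V, x ∈ S40D_V0 W p (M' * p)) → S40WA_Simple GQ V →
      (∀ x ∈ V, S40DJ_New M' p x) → S40DJ_CaseB W A p →
      S40D_Rel W p (M' * p) V → S40D_Ker W p (M' * p) V → S40D_InvJ (M' * p) A p V →
      ∀ x ∈ V, ∃ (hgen : PrincipalGeneratedByIntegral A (IsLocalRing.residue A) (M' * p))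
        (u : ↥(modularFunctionFieldBar (M' * p))),
        S33DG_IsGen p x u ∧ S40JM_KumAt (S34M_T1 M' p A hgen) p u ∧
          S40JM_KumAt (S34M_T2 M' p hp hpM A hgen) p u

/-- **hole (GEO-5)**: a `W`-eigen-class with a generator whose reduction at `T₁` is a Kummer
generator of the fibre but not a `p`-th power gives the core. -/
def S40JM_G5 : Prop :=
  ∀ (W : WeierstrassCurve ℤ), W.Δ ≠ 0 → ∀ (p : ℕ) (hp : p.Prime), 5 ≤ p →
    W.ModRepIsIrreducible p → ∀ (M' : ℕ) [NeZero M'] [NeZero p] [NeZero (M' * p)]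
    (hpM : ¬ p ∣ M'),
    ∀ (A : ValuationSubring ℚbar), A.LiesOverPrime p →
    ∀ (hgen : PrincipalGeneratedByIntegral A (IsLocalRing.residue A) (M' * p))
      (x : JZero (M' * p)), x ∈ S40D_V0 W p (M' * p) →
      ∀ u : ↥(modularFunctionFieldBar (M' * p)), S33DG_IsGen p x u →
        S40JM_KumAt (S34M_T1 M' p A hgen) p u → ¬ S40JM_PthAt (S34M_T1 M' p A hgen) p u →
        S40W_Core W p (M' * p)

/-- **(SYM)**: the class with Kummer generator `w_p u` is again a `W`-eigen-class. -/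
def S40JM_Sym : Prop :=
  ∀ (W : WeierstrassCurve ℤ) (p : ℕ) (hp : p.Prime) (M' : ℕ) [NeZero M'] [NeZero p]
    [NeZero (M' * p)] (hpM : ¬ p ∣ M') (x : JZero (M' * p)), x ∈ S40D_V0 W p (M' * p) →
    ∀ u : ↥(modularFunctionFieldBar (M' * p)), S33DG_IsGen p x u →
      ∃ x' : JZero (M' * p), x' ∈ S40D_V0 W p (M' * p) ∧
        S33DG_IsGen p x' (S34DF_wq M' p hp hpM u)

/-- **(DICH)**: a class with a generator whose two reductions are `p`-th powers is of type (a). -/
def S40JM_Dich : Prop :=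
  ∀ (p : ℕ) (hp : p.Prime) (M' : ℕ) [NeZero M'] [NeZero p] [NeZero (M' * p)]
    (hpM : ¬ p ∣ M') (A : ValuationSubring ℚbar), A.LiesOverPrime p →
    ∀ (hgen : PrincipalGeneratedByIntegral A (IsLocalRing.residue A) (M' * p))
      (x : JZero (M' * p)) (u : ↥(modularFunctionFieldBar (M' * p))), S33DG_IsGen p x u →
      S40JM_PthAt (S34M_T1 M' p A hgen) p u → S40JM_PthAt (S34M_T2 M' p hp hpM A hgen) p u →
      S40JT_TypeA M' p hp hpM A x

section transport

variable (M p : ℕ) [NeZero M] [NeZero p] [NeZero (M * p)] (hp : p.Prime) (hpM : ¬ p ∣ M)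
  (A : ValuationSubring ℚbar)
  (hgen : PrincipalGeneratedByIntegral A (IsLocalRing.residue A) (M * p))

/-- `red₂ u = red₁ (w_p u)`. -/
theorem S40JM_kumAt_wq {u : ↥(modularFunctionFieldBar (M * p))}
    (h : S40JM_KumAt (S34M_T2 M p hp hpM A hgen) p u) :
    S40JM_KumAt (S34M_T1 M p A hgen) p (S34DF_wq M p hp hpM u) := by
  obtain ⟨hu, hk⟩ := h
  exact ⟨hu, hk⟩

theorem S40JM_pthAt_of_wq {u : ↥(modularFunctionFieldBar (M * p))}
    (h : S40JM_PthAt (S34M_T1 M p A hgen) p (S34DF_wq M p hp hpM u)) :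
    S40JM_PthAt (S34M_T2 M p hp hpM A hgen) p u := by
  obtain ⟨hu, g, hg, hr⟩ := h
  exact ⟨hu, g, hg, hr⟩

end transport

/-- **the MID WIRE of the J-side**: the sharp J-hole from (F2-OUT), (GEO-5), (SYM), (DICH). -/
theorem S40JM_hole (hF : S40JM_F2Out) (hG : S40JM_G5) (hS : S40JM_Sym) (hD : S40JM_Dich) :
    S40JT_Hole := by
  intro W hΔ p hp hp5 hirr M' _ _ _ hpM A hA V hVV0 hV hnew hB hR hK hI x hx hna
  obtain ⟨hgen, u, hu, hK1, hK2⟩ :=
    hF W hΔ p hp hp5 hirr M' hpM A hA V hVV0 hV hnew hB hR hK hI x hx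
  by_cases h1 : S40JM_PthAt (S34M_T1 M' p A hgen) p u
  · by_cases h2 : S40JM_PthAt (S34M_T2 M' p hp hpM A hgen) p u
    · exact absurd (hD p hp M' hpM A hA hgen x u hu h1 h2) hna
    · -- the second component: pass to `w_p u`
      obtain ⟨x', hx', hu'⟩ := hS W p hp M' hpM x (hVV0 x hx) u hu
      exact hG W hΔ p hp hp5 hirr M' hpM A hA hgen x' hx' _ hu'
        (S40JM_kumAt_wq M' p hp hpM A hgen hK2)
        (fun h => h2 (S40JM_pthAt_of_wq M' p hp hpM A hgen h))
  · exact hG W hΔ p hp hp5 hirr M' hpM A hA hgen x (hVV0 x hx) u hu hK1 h1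

end Fermat.Agent.S40
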