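import Mathlib
import Fermat.Agent.S40.F2NormAbs
import Fermat.Agent.S40.JMid
import Fermat.Agent.S40.JDich
import Fermat.Agent.S40.Geo5Wire
import Fermat.Agent.S34.RedOneInst
import Fermat.Agent.S34.ValArch

/-!
# TRACK 13 (row 38), (F2-OUT): FREE NORMALISATION and INDEPENDENCE of the generator (helper20).
Prefix `S40F2NM_`.

Level `M * p`, `p ∤ M`, `A` a place of `ℚ̄` over `p`, `T₁ = S34M_T1`, `T₂ = S34M_T2`.

* `S40F2NM_kum_congr` : `S40JM_KumAt T p u` passes to every `u' = u · c · h ^ p` which is a unit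
  at `T` (the orders of the reduction change by multiples of `p`);
* `S40F2NM_norm` : every `u₀ ≠ 0` has `c ≠ 0`, `h ≠ 0` with `u₀ · c · h ^ p` a unit at `T₁` AND
  at `T₂` (free normalisation over `ℚ̄`);
* `S40F2NM_out` : `S40JM_F2Out` from the two ONE-SIDED statements `S40F2NM_Kum1`, `S40F2NM_Kum2`
  (a generator with Kummer reduction at `T₁`, and a possibly DIFFERENT one at `T₂`).
-/

set_option autoImplicit false
set_option linter.style.haveILetI false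
set_option linter.unusedSectionVars false
set_option linter.unusedVariables false
set_option synthInstance.maxHeartbeats 400000
set_option maxHeartbeats 1000000

open AlgebraicCurve ModularCurve IntermediateField

noncomputable section

namespace Fermat.Agent.S40

open Fermat.Agent.S17 Fermat.Agent.S18 Fermat.Agent.S19 Fermat.Agent.S24 Fermat.Agent.S34
  Fermat.Agent.S35 Fermat.Agent.S36 Fermat.Agent.S37 Fermat.Agent.GalRep Fermat.Agent.S33

local notation "ℚbar" => AlgebraicClosure ℚ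

section congr

variable {F k Fk : Type} [Field F] [Algebra ℚbar F] [Field k] [Field Fk] [Algebra k Fk]

/-- a unit of `T.O` has non-zero reduction. -/
theorem S40F2NM_red_ne (T : S18_Val ℚbar F k Fk) {x : F} (hx : T.O.valuation x = 1) :
    ∃ h : x ∈ T.O, T.red ⟨x, h⟩ ≠ 0 := by
  have hm : x ∈ T.O := (T.O.valuation_le_one_iff x).1 hx.le
  exact ⟨hm, (T.red_ne_zero_iff ⟨x, hm⟩).2 ((T.O.valuation_eq_one_iff ⟨x, hm⟩).2 hx)⟩

/-- **independence of the generator**: Kummer reduction passes from `u` to `u · c · h ^ p`. -/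
theorem S40F2NM_kum_congr (T : S18_Val ℚbar F k Fk) (p : ℕ)
    (hconst : ∀ f : F, f ≠ 0 →
      ∃ c : ℚbar, c ≠ 0 ∧ T.O.valuation (f * (algebraMap ℚbar F c)⁻¹) = 1)
    {u u' : F} (c : ℚbar) (h : F) (hh : h ≠ 0)
    (e : u' = u * algebraMap ℚbar F c * h ^ p)
    (hu' : T.O.valuation u' = 1)
    (hK : S40JM_KumAt T p u) : S40JM_KumAt T p u' := by
  obtain ⟨hu, hne, hdiv⟩ := hK
  have hvu : T.O.valuation u = 1 :=
    (T.O.valuation_eq_one_iff ⟨u, hu⟩).1 ((T.red_ne_zero_iff ⟨u, hu⟩).1 hne)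
  obtain ⟨a, ha0, hva⟩ := hconst h hh
  have ha' : algebraMap ℚbar F a ≠ 0 := (map_ne_zero _).2 ha0
  set w : F := h * (algebraMap ℚbar F a)⁻¹ with hw
  have hhw : h = w * algebraMap ℚbar F a := by
    rw [hw, inv_mul_cancel_right₀ ha']
  have e' : u' = u * algebraMap ℚbar F (c * a ^ p) * w ^ p := by
    rw [e, hhw, map_mul, map_pow, mul_pow]
    ring
  have hvb : T.O.valuation (algebraMap ℚbar F (c * a ^ p)) = 1 := by
    have h1 := hu'
    rw [e', map_mul, map_mul, map_pow, hvu, hva, one_pow, one_mul, mul_one] at h1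
    exact h1
  obtain ⟨hbm, hbr⟩ := S40F2NM_red_ne T hvb
  obtain ⟨hwm, hwr⟩ := S40F2NM_red_ne T hva
  obtain ⟨hu'm, hu'r⟩ := S40F2NM_red_ne T hu'
  have hbA : c * a ^ p ∈ T.A := (T.algebraMap_mem_iff _).1 hbm
  have hred : T.red ⟨u', hu'm⟩ =
      T.red ⟨u, hu⟩ * algebraMap k Fk (T.res ⟨c * a ^ p, hbA⟩) * T.red ⟨w, hwm⟩ ^ p := by
    have e2 : (⟨u', hu'm⟩ : T.O) =
        ⟨u, hu⟩ * ⟨algebraMap ℚbar F (c * a ^ p), hbm⟩ * ⟨w, hwm⟩ ^ p := Subtype.ext e'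
    rw [e2, map_mul, map_mul, map_pow, T.red_algebraMap _ hbA hbm]
  have hcr : algebraMap k Fk (T.res ⟨c * a ^ p, hbA⟩) ≠ 0 := by
    rw [← T.red_algebraMap _ hbA hbm]
    exact hbr
  refine ⟨hu'm, hu'r, fun v => ?_⟩
  rw [hred, v.ord_mul (mul_ne_zero hne hcr) (pow_ne_zero p hwr), v.ord_mul hne hcr,
    S33DG_ord_algebraMap, add_zero, S17ST_ord_pow]
  exact dvd_add (hdiv v) (dvd_mul_right _ _)

end congr

section inst

variable (M p : ℕ) [NeZero M] [NeZero p] [NeZero (M * p)] (hp : p.Prime) (hpM : ¬ p ∣ M)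
  (A : ValuationSubring ℚbar)
  (hgen : PrincipalGeneratedByIntegral A (IsLocalRing.residue A) (M * p))

/-- value group of `T₁`. -/
theorem S40F2NM_const₁ (f : ↥(modularFunctionFieldBar (M * p))) (hf : f ≠ 0) :
    ∃ c : ℚbar, c ≠ 0 ∧ (S34M_T1 M p A hgen).O.valuation
      (f * (algebraMap ℚbar ↥(modularFunctionFieldBar (M * p)) c)⁻¹) = 1 := by
  rw [S34M_T1_O]
  exact S34R_gauss_const (M * p) A hgen f hf

include hp hpM in
/-- value group of `T₂`. -/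
theorem S40F2NM_const₂ (f : ↥(modularFunctionFieldBar (M * p))) (hf : f ≠ 0) :
    ∃ c : ℚbar, c ≠ 0 ∧ (S34M_T2 M p hp hpM A hgen).O.valuation
      (f * (algebraMap ℚbar ↥(modularFunctionFieldBar (M * p)) c)⁻¹) = 1 := by
  rw [S34M_T2_O]
  have hwf : S34DF_wq M p hp hpM f ≠ 0 := (map_ne_zero _).2 hf
  obtain ⟨c, hc, hv⟩ := S34R_gauss_const (M * p) A hgen (S34DF_wq M p hp hpM f) hwf
  refine ⟨c, hc, ?_⟩
  have hO₂ : ∀ g, g ∈ S34DF_O2 M p hp hpM A hgen ↔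
      ((S34DF_wq M p hp hpM : ↥(modularFunctionFieldBar (M * p)) ≃ₐ[ℚbar]
        ↥(modularFunctionFieldBar (M * p))) : ↥(modularFunctionFieldBar (M * p)) ≃+*
          ↥(modularFunctionFieldBar (M * p))) g ∈ S34DF_O1 M p A hgen := fun g => Iff.rfl
  rw [S34R_tr_eq (S34DF_O1 M p A hgen) (S34DF_O2 M p hp hpM A hgen) _ hO₂]
  have e : ((S34DF_wq M p hp hpM : ↥(modularFunctionFieldBar (M * p)) ≃ₐ[ℚbar]
        ↥(modularFunctionFieldBar (M * p))) : ↥(modularFunctionFieldBar (M * p)) ≃+*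
          ↥(modularFunctionFieldBar (M * p)))
        (f * (algebraMap ℚbar ↥(modularFunctionFieldBar (M * p)) c)⁻¹) =
      S34DF_wq M p hp hpM f * (algebraMap ℚbar ↥(modularFunctionFieldBar (M * p)) c)⁻¹ := by
    show S34DF_wq M p hp hpM (f * (algebraMap ℚbar ↥(modularFunctionFieldBar (M * p)) c)⁻¹) = _
    rw [map_mul, map_inv₀, AlgEquiv.commutes]
  rw [e]
  exact hv

include hp hpM in
/-- **free normalisation** at level `M * p`. -/
theorem S40F2NM_norm (hA : A.LiesOverPrime p)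
    (u₀ : ↥(modularFunctionFieldBar (M * p))) (hu₀ : u₀ ≠ 0) :
    ∃ (c : ℚbar) (h : ↥(modularFunctionFieldBar (M * p))), c ≠ 0 ∧ h ≠ 0 ∧
      (S34M_T1 M p A hgen).O.valuation
        (u₀ * algebraMap ℚbar ↥(modularFunctionFieldBar (M * p)) c * h ^ p) = 1 ∧
      (S34M_T2 M p hp hpM A hgen).O.valuation
        (u₀ * algebraMap ℚbar ↥(modularFunctionFieldBar (M * p)) c * h ^ p) = 1 := by
  set T1 := S34M_T1 M p A hgen with hT1
  set T2 := S34M_T2 M p hp hpM A hgen with hT2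
  have hsame : S34P_Same T1 T2 := S34M_same M p hp hpM A hgen
  have hinc := S34VW_incomp M p hp hpM A hgen hA
  have h12 : ¬ T1.O ≤ T2.O := by
    rw [hT1, hT2, S34M_T1_O, S34M_T2_O]; exact hinc.1
  have h21 : ¬ T2.O ≤ T1.O := by
    rw [hT1, hT2, S34M_T1_O, S34M_T2_O]; exact hinc.2
  have hTA : T1.A = A := rfl
  refine S40F2NM_norm_abs (A := T1.A) (O₁ := T1.O) (O₂ := T2.O)
    (fun a => T1.algebraMap_mem_iff a)
    (fun a => by rw [hsame.A_eq]; exact T2.algebraMap_mem_iff a)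
    (fun x₁ x₂ hx₁ hx₂ => ?_) (S40F2NM_const₁ M p A hgen) (S40F2NM_const₂ M p hp hpM A hgen)
    ?_ p (fun a => IsAlgClosed.exists_pow_nat_eq a hp.pos) u₀ hu₀
  · obtain ⟨f, -, -, h1, h2⟩ := S34AP_exists_approx_val T1.O T2.O h12 h21 x₁ x₂ hx₁ hx₂
    exact ⟨f, h1, h2⟩
  · rw [hTA]
    intro g b hb
    by_cases hb0 : b = 0
    · exact ⟨1, by rw [hb0, pow_one, mul_zero]; exact A.zero_mem⟩
    by_cases hg0 : g = 0
    · exact ⟨0, by rw [hg0, zero_mul]; exact A.zero_mem⟩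
    obtain ⟨n, hn⟩ := S34VA_arch p hp A hA g hg0
    have hbinv : b⁻¹ ∉ A := by
      rcases (ValuationSubring.mem_nonunits_iff_or A).1 hb with h | h
      · exact absurd h hb0
      · exact h
    obtain ⟨m, hm⟩ := S34VA_arch' p hp A hA b (ValuationSubring.nonunits_subset hb) hbinv n
    refine ⟨m, ?_⟩
    have hq0 : (p : ℚbar) ≠ 0 := Nat.cast_ne_zero.2 hp.ne_zero
    have e : g * b ^ m = ((p : ℚbar) ^ n * g) * (b ^ m * ((p : ℚbar) ^ n)⁻¹) := by
      field_simp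
    rw [e]
    exact mul_mem hn hm

end inst

/-- **(KUM₁)**: under the hypotheses of (F2-OUT), every `x ∈ V` has a generator with Kummer
reduction at `T₁`. -/
def S40F2NM_Kum1 : Prop :=
  ∀ (W : WeierstrassCurve ℤ), W.Δ ≠ 0 → ∀ (p : ℕ) (hp : p.Prime), 5 ≤ p →
    W.ModRepIsIrreducible p → ∀ (M' : ℕ) [NeZero M'] [NeZero p] [NeZero (M' * p)]
    (hpM : ¬ p ∣ M'),
    ∀ (A : ValuationSubring ℚbar), A.LiesOverPrime p →
    ∀ V : AddSubgroup (JZero (M' * p)),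
      (∀ x ∈ V, x ∈ S40D_V0 W p (M' * p)) → S40WA_Simple GQ V →
      (∀ x ∈ V, S40DJ_New M' p x) → S40DJ_CaseB W A p →
      S40D_Rel W p (M' * p) V → S40D_Ker W p (M' * p) V → S40D_InvJ (M' * p) A p V →
      ∀ x ∈ V, ∃ (hgen : PrincipalGeneratedByIntegral A (IsLocalRing.residue A) (M' * p))
        (u : ↥(modularFunctionFieldBar (M' * p))),
        S33DG_IsGen p x u ∧ S40JM_KumAt (S34M_T1 M' p A hgen) p u

/-- **(KUM₂)**: the same at `T₂`. -/
def S40F2NM_Kum2 : Prop :=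
  ∀ (W : WeierstrassCurve ℤ), W.Δ ≠ 0 → ∀ (p : ℕ) (hp : p.Prime), 5 ≤ p →
    W.ModRepIsIrreducible p → ∀ (M' : ℕ) [NeZero M'] [NeZero p] [NeZero (M' * p)]
    (hpM : ¬ p ∣ M'),
    ∀ (A : ValuationSubring ℚbar), A.LiesOverPrime p →
    ∀ V : AddSubgroup (JZero (M' * p)),
      (∀ x ∈ V, x ∈ S40D_V0 W p (M' * p)) → S40WA_Simple GQ V →
      (∀ x ∈ V, S40DJ_New M' p x) → S40DJ_CaseB W A p →
      S40D_Rel W p (M' * p) V → S40D_Ker W p (M' * p) V → S40D_InvJ (M' * p) A p V →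
      ∀ x ∈ V, ∃ (hgen : PrincipalGeneratedByIntegral A (IsLocalRing.residue A) (M' * p))
        (u : ↥(modularFunctionFieldBar (M' * p))),
        S33DG_IsGen p x u ∧ S40JM_KumAt (S34M_T2 M' p hp hpM A hgen) p u

/-- **(F2-OUT) from the two one-sided statements.** -/
theorem S40F2NM_out (h1 : S40F2NM_Kum1) (h2 : S40F2NM_Kum2) : S40JM_F2Out := by
  intro W hΔ p hp hp5 hirr M' _ _ _ hpM A hA V hVV0 hV hnew hB hR hK hI x hx
  obtain ⟨hgen, u₁, hu₁, hk₁⟩ :=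
    h1 W hΔ p hp hp5 hirr M' hpM A hA V hVV0 hV hnew hB hR hK hI x hx
  obtain ⟨hgen', u₂, hu₂, hk₂⟩ :=
    h2 W hΔ p hp hp5 hirr M' hpM A hA V hVV0 hV hnew hB hR hK hI x hx
  have hu₁0 := S33DG_isGen_ne_zero hu₁
  have hu₂0 := S33DG_isGen_ne_zero hu₂
  obtain ⟨c, h, hc, hh, hv1, hv2⟩ := S40F2NM_norm M' p hp hpM A hgen hA u₁ hu₁0
  -- `u₁ / u₂` is trivial
  have h0 : S33DG_IsGen p (0 : JZero (M' * p)) (u₁ * u₂⁻¹) := by
    have := S33DG_isGen_mul hu₁ (S33DG_isGen_inv hu₂)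
    rwa [add_neg_cancel] at this
  obtain ⟨c', g, hc', hg, e'⟩ := S33DG_isTriv_of_zero h0
  have hu₁₂ : u₁ = u₂ * (algebraMap ℚbar ↥(modularFunctionFieldBar (M' * p)) c' * g ^ p) := by
    rw [← e']
    field_simp
  refine ⟨hgen, u₁ * algebraMap ℚbar ↥(modularFunctionFieldBar (M' * p)) c * h ^ p, ?_, ?_, ?_⟩
  · have := S40G5W_isGen_mul_triv hu₁ ⟨c, h, hc, hh, rfl⟩
    rwa [← mul_assoc] at this
  · exact S40F2NM_kum_congr (S34M_T1 M' p A hgen) p (S40F2NM_const₁ M' p A hgen) c h hh rfl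
      hv1 hk₁
  · refine S40F2NM_kum_congr (S34M_T2 M' p hp hpM A hgen) p
      (S40F2NM_const₂ M' p hp hpM A hgen) (c' * c) (g * h) (mul_ne_zero hg hh) ?_ hv2 hk₂
    rw [map_mul, mul_pow]
    conv_lhs => rw [hu₁₂]
    ring

end Fermat.Agent.S40
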