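import Mathlib
import Fermat.Agent.Lib.RiemannBasic
import Fermat.Agent.GalRep.KMDefs

/-!
# TRACK 13 (row 38), GEO-5 route 2, step (iv-a), GENERIC part (helper19).  Prefix `S40GCA_`.

`F / K` a function field with principal divisors.  For a Kummer generator `f` of exponent `n`
(`n ∣ ord_v f` at all places):

* `S40GCA_exists_div` : there is `D` of degree `0` with `n • D = div f`;
* `S40GCA_tors`       : `n • [D] = 0` in `Pic⁰`;
* `S40GCA_ne_zero`    : if all places have degree one, `K` is algebraically closed and `f` is not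
  an `n`-th power, then `[D] ≠ 0`.
-/

set_option autoImplicit false

open AlgebraicCurve WithZero

namespace Fermat.Agent.S40

open Fermat.Agent.Lib Fermat.Agent.GalRep

variable {K F : Type} [Field K] [Field F] [Algebra K F]

/-- a Kummer generator of exponent `n` has a divisor divisible by `n`. -/
theorem S40GCA_exists_div (hP : HasPrincipalDivisors K F) {n : ℕ} (hn : 0 < n) {f : F}
    (hf : KM_IsKum K F n f) :
    ∃ D : Divisor.degZero (K := K) (F := F), n • (D : Divisor K F) = RR_div hP f := by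
  classical
  have hn0 : (n : ℤ) ≠ 0 := by exact_mod_cast hn.ne'
  let D' : Divisor K F :=
    Finsupp.mapRange (fun m : ℤ => m / (n : ℤ)) (by simp) (RR_div hP f)
  have hD' : n • D' = RR_div hP f := by
    ext v
    rw [Finsupp.smul_apply, Finsupp.mapRange_apply, RR_div_apply, nsmul_eq_mul]
    exact Int.mul_ediv_cancel' (hf.2 v)
  have hdeg : Divisor.degree D' = 0 := by
    have h1 : n • Divisor.degree D' = 0 := by
      rw [← map_nsmul, hD', RR_div_degree]
    rw [nsmul_eq_mul] at h1
    rcases mul_eq_zero.mp h1 with h | h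
    · exact absurd h hn0
    · exact h
  exact ⟨⟨D', hdeg⟩, hD'⟩

/-- the class of `D` with `n • D = div f` is killed by `n`. -/
theorem S40GCA_tors (hP : HasPrincipalDivisors K F) {n : ℕ} {f : F} (hf0 : f ≠ 0)
    (D : Divisor.degZero (K := K) (F := F)) (hD : n • (D : Divisor K F) = RR_div hP f) :
    n • Pic0.mk D = 0 := by
  have h1 : n • Pic0.mk D = Pic0.mk (n • D) := rfl
  rw [h1]
  refine (QuotientAddGroup.eq_zero_iff _).mpr ?_
  rw [AddSubgroup.mem_addSubgroupOf]
  refine ⟨f, hf0, fun v => ?_⟩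
  have : ((n • D : Divisor.degZero (K := K) (F := F)) : Divisor K F) = n • (D : Divisor K F) :=
    rfl
  rw [this, hD, RR_div_apply]

/-- the class of `D` is nonzero if `f` is not an `n`-th power. -/
theorem S40GCA_ne_zero [IsAlgClosed K] (hdeg : ∀ v : Place K F, v.deg = 1)
    (hP : HasPrincipalDivisors K F) (v₀ : Place K F) {n : ℕ} (hn : 0 < n) {f : F} (hf0 : f ≠ 0)
    (hnp : ∀ w : F, w ≠ 0 → f ≠ w ^ n)
    (D : Divisor.degZero (K := K) (F := F)) (hD : n • (D : Divisor K F) = RR_div hP f) :
    Pic0.mk D ≠ 0 := by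
  intro h0
  have hmem := (QuotientAddGroup.eq_zero_iff _).mp h0
  rw [AddSubgroup.mem_addSubgroupOf] at hmem
  obtain ⟨g, hg0, hg⟩ := hmem
  -- `ord_v f = n * ord_v g` at all places
  have hord : ∀ v : Place K F, v.ord f = (n : ℤ) * v.ord g := by
    intro v
    have h1 := congrArg (fun E : Divisor K F => E v) hD
    simp only [Finsupp.smul_apply, RR_div_apply, nsmul_eq_mul] at h1
    rw [← h1, hg v]
  have hgn : g ^ n ≠ 0 := pow_ne_zero n hg0
  set h : F := f / g ^ n with hh
  have hh0 : h ≠ 0 := div_ne_zero hf0 hgn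
  have hordh : ∀ v : Place K F, v.ord h = 0 := by
    intro v
    have h1 : v.ord (g ^ n) = (n : ℤ) * v.ord g := by
      have := v.ord_zpow g (n : ℤ)
      rwa [zpow_natCast] at this
    rw [hh, div_eq_mul_inv, v.ord_mul hf0 (inv_ne_zero hgn), v.ord_inv, h1, hord v]
    ring
  have hmem0 : h ∈ riemannRochSpace (0 : Divisor K F) := by
    rw [RR_mem_iff_val]
    intro v
    rw [v.adicValuation_eq_exp_neg_ord hh0, hordh v]
    simp
  obtain ⟨c, hc⟩ := (RR_mem_zero_iff hdeg hP v₀).mp hmem0
  have hc0 : c ≠ 0 := by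
    rintro rfl
    rw [map_zero] at hc
    exact hh0 hc
  obtain ⟨e, he⟩ := IsAlgClosed.exists_pow_nat_eq c hn
  have he0 : e ≠ 0 := by
    rintro rfl
    rw [zero_pow hn.ne'] at he
    exact hc0 he.symm
  have hf : f = (algebraMap K F e * g) ^ n := by
    rw [mul_pow, ← map_pow, he, ← hc, hh, div_mul_cancel₀ f hgn]
  exact hnp _ (mul_ne_zero ((map_ne_zero _).mpr he0) hg0) hf

end Fermat.Agent.S40
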