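import Mathlib
import Fermat.Agent.S40.G5ClsAbs
import Fermat.Agent.S18.Sep
import Fermat.Agent.S18.Reduce
import Fermat.Agent.S18.ResField

/-!
# TRACK 13 (row 38), GEO-5 route 2, step (iv-a) (helper19).  Prefix `S40GC_`.

Level `N` (`= M'`), `A` a place of `ℚ̄` over `p ∤ N`, `k` its residue field, `Fk` the function field
of `X₀(N)` over `k`, `r = placeReductionModL h`.

INPUT (= the output of helper5's TRANSPORT `S40/G5Tr.lean`): `gb ∈ Fk`, a Kummer generator of
exponent `p` (`KM_IsKum k Fk p gb`) which is not a `p`-th power.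

OUTPUT (`S40GC_main`): a divisor `D₀` of degree `0` of `F_N` (characteristic `0`) with
`p • r_* D₀ = div gb`, and for `y₀ := Pic0.mk D₀`:
`p • reductionModL A N y₀ = 0`, `reductionModL A N y₀ ≠ 0`
(= (iv-a) of helper9's `S40R2IK_core`, with the interface of helper13's (iv-b)).
-/

set_option autoImplicit false
set_option linter.unusedSectionVars false
set_option linter.unusedVariables false
set_option linter.style.haveILetI false
set_option synthInstance.maxHeartbeats 400000
set_option maxHeartbeats 1000000

open AlgebraicCurve ModularCurve IntermediateField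

noncomputable section

namespace Fermat.Agent.S40

open Fermat.Agent.S18 Fermat.Agent.Lib Fermat.Agent.GalRep

variable (N : ℕ) [NeZero N] (A : ValuationSubring (AlgebraicClosure ℚ))

/-- every divisor of the fibre is `r_*` of a divisor of the same degree. -/
theorem S40GC_lift_divisor (h : ReductionInputsModL A N)
    (E : Divisor (IsLocalRing.ResidueField A)
      ↥(modularFunctionFieldFullC (IsLocalRing.ResidueField A) N)) :
    ∃ D : Divisor (AlgebraicClosure ℚ) ↥(modularFunctionFieldBar N),
      Finsupp.mapDomain (placeReductionModL h) D = E ∧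
        Divisor.degree D = Divisor.degree E := by
  classical
  have hr := isPlaceReductionModL_placeReductionModL h
  have hsurj : Function.Surjective (placeReductionModL h) :=
    (S18_specModL N A h).r_surjective (S18_hPD N)
  choose s hs using hsurj
  refine ⟨Finsupp.mapDomain s E, ?_, ?_⟩
  · rw [← Finsupp.mapDomain_comp]
    have hrs : placeReductionModL h ∘ s = id := funext hs
    rw [hrs, Finsupp.mapDomain_id]
  · induction E using Finsupp.induction with
    | zero => simp
    | single_add Q n E _ _ ih =>
      rw [Finsupp.mapDomain_add, map_add, map_add, ih, Finsupp.mapDomain_single,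
        Divisor.degree_single, Divisor.degree_single, ← hr.1 (s Q), hs Q]

/-- **(iv-a)**. -/
theorem S40GC_main {p : ℕ} (hp : p.Prime) (hA : A.LiesOverPrime p) (hpN : ¬ p ∣ N)
    (h : ReductionInputsModL A N)
    (gb : ↥(modularFunctionFieldFullC (IsLocalRing.ResidueField A) N))
    (hK : KM_IsKum (IsLocalRing.ResidueField A)
      ↥(modularFunctionFieldFullC (IsLocalRing.ResidueField A) N) p gb)
    (hnp : ∀ w : ↥(modularFunctionFieldFullC (IsLocalRing.ResidueField A) N),
      w ≠ 0 → gb ≠ w ^ p) :
    ∃ D₀ : Divisor.degZero (K := AlgebraicClosure ℚ) (F := ↥(modularFunctionFieldBar N)),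
      p • Finsupp.mapDomain (placeReductionModL h)
          (D₀ : Divisor (AlgebraicClosure ℚ) ↥(modularFunctionFieldBar N))
        = RR_div (S18_hk N A hp hA hpN).principal gb ∧
      p • reductionModL A N (Pic0.mk D₀) = 0 ∧ reductionModL A N (Pic0.mk D₀) ≠ 0 := by
  classical
  haveI : IsAlgClosed (IsLocalRing.ResidueField A) := S18_residue_isAlgClosed A
  have hk := S18_hk N A hp hA hpN
  obtain ⟨Db, hDb⟩ := S40GCA_exists_div hk.principal hp.pos hK
  obtain ⟨D, hD, hdeg⟩ := S40GC_lift_divisor N A h
    (Db : Divisor (IsLocalRing.ResidueField A)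
      ↥(modularFunctionFieldFullC (IsLocalRing.ResidueField A) N))
  have hD0 : D ∈ Divisor.degZero (K := AlgebraicClosure ℚ)
      (F := ↥(modularFunctionFieldBar N)) := by
    rw [Divisor.mem_degZero, hdeg]
    exact Db.2
  have hred : reductionModL A N (Pic0.mk ⟨D, hD0⟩) = Pic0.mk Db := by
    rw [reductionModL_mk h]
    exact congrArg Pic0.mk (Subtype.ext hD)
  refine ⟨⟨D, hD0⟩, ?_, ?_, ?_⟩
  · show p • Finsupp.mapDomain (placeReductionModL h) D = _
    rw [hD, hDb]
  · rw [hred]
    exact S40GCA_tors hk.principal hK.1 Db hDb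
  · rw [hred]
    exact S40GCA_ne_zero hk.deg_one hk.principal hk.nonempty.some hp.pos hK.1 hnp Db hDb

end Fermat.Agent.S40
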