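import Mathlib
import Fermat.Agent.S19.EqvInst

/-!
# TRACK 13 (S40/S44), GEO-5 route 2, item (iii)-instance, part (d) (helper4)

`A ⊂ ℚ̄` a valuation subring over `ℓ ∤ N`, `k` its residue field, `F_k = modularFunctionFieldFullC k N`,
`γ_g := S19EQ_gb N A g = S19GR_bar k N (S19GR_resAut A g)` for `g ∈ D_A`.

* `S40FI_red_smul`   : `red (g • y) = γ_g • red y` for EVERY class `y : JZero N` (not only torsion);
* `S40FI_red_fixed`  : `g • y = y → γ_g • red y = red y`;
* `S40FI_gb_one/_mul/_pow` : `g ↦ γ_g` is multiplicative, so `γ_{g^n} = γ_g^n`;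
* `S40FI_red_smul_pow`, `S40FI_red_fixed_pow` : `red (σ^M • y) = γ_σ^M • red y`, and
  `σ^M • y = y → γ_σ^M • red y = red y`;
* `S40FI_iterate_place`, `S40FI_iterate_class` : iterates of `γ •` are the action of `γ^M`;
* `S40FI_gb_principal` : `γ_g` preserves principal divisors of `F_k`;
* `S40FI_hredg` : the hypothesis `hredg` of `S40R2_main` (S40/R2Abs.lean).
Riemann–Roch for `F_k` is `S19IN_hk` (S19/Inst.lean), principal divisors `S19IN_hPDk`.
Prefix `S40FI_`.
-/

set_option autoImplicit false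
set_option synthInstance.maxHeartbeats 400000
set_option maxHeartbeats 1000000
set_option linter.unusedSectionVars false
set_option linter.unusedVariables false

open HahnSeries IntermediateField AlgebraicCurve ModularCurve

namespace Fermat.Agent.S40

open Fermat.Agent.S18 Fermat.Agent.Lib Fermat.Agent.GalRep Fermat.Agent.S17 Fermat.Agent.S19

variable (N : ℕ) [NeZero N] (A : ValuationSubring (AlgebraicClosure ℚ)) {ℓ : ℕ}

/-- **(d)**: the reduction map is equivariant for the decomposition group, on ALL classes: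
`red (g • y) = γ_g • red y`. -/
theorem S40FI_red_smul (hℓ : ℓ.Prime) (hA : A.LiesOverPrime ℓ) (hℓN : ¬ ℓ ∣ N)
    (g : A.decompositionSubgroup ℚ) (y : JZero N) :
    reductionModL A N ((g : AlgebraicClosure ℚ ≃ₐ[ℚ] AlgebraicClosure ℚ) • y) =
      S19EQ_gb N A g • reductionModL A N y := by
  have h : ReductionInputsModL A N := S19IN_RI N A hℓ hA hℓN
  obtain ⟨D, rfl⟩ := Pic0.mk_surjective y
  rw [galois_smul_pic0_def, SemilinearAut.pic0_smul_mk, S19IN_red_mk N A h, S19IN_red_mk N A h,
    SemilinearAut.pic0_smul_mk]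
  congr 1
  apply Subtype.ext
  rw [coe_reductionDegZeroAlong, SemilinearAut.coe_degZeroSMulHom,
    SemilinearAut.coe_degZeroSMulHom, coe_reductionDegZeroAlong]
  have h1 := S19EQ_rdiv_smul (S19EQ_compat_dec N A h hℓ hA hℓN g)
    (D : Divisor (AlgebraicClosure ℚ) ↥(modularFunctionFieldBar N))
  unfold S19IF_rdiv at h1
  rw [S18_specModL_r N A h] at h1
  exact h1

/-- `g ↦ γ_g` respects the unit. -/
theorem S40FI_gb_one : S19EQ_gb N A 1 = 1 := by
  apply Subtype.ext
  refine Prod.ext (RingEquiv.ext fun x => Subtype.ext ?_) (RingEquiv.ext fun a => ?_)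
  · show coeffMap ((S19GR_resAut A 1 : IsLocalRing.ResidueField A ≃+* IsLocalRing.ResidueField A) :
        IsLocalRing.ResidueField A →+* IsLocalRing.ResidueField A) (x : LaurentSeries _) = x
    have h1 := coeffMap_congr
      (f := ((S19GR_resAut A 1 : IsLocalRing.ResidueField A ≃+* IsLocalRing.ResidueField A) :
        IsLocalRing.ResidueField A →+* IsLocalRing.ResidueField A))
      (g := RingHom.id _)
      (RingHom.ext fun a => (one_smul (A.decompositionSubgroup ℚ) a :
        (1 : A.decompositionSubgroup ℚ) • a = a))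
      (x : LaurentSeries (IsLocalRing.ResidueField A))
    rw [h1, coeffMap_id]
  · exact (one_smul (A.decompositionSubgroup ℚ) a : (1 : A.decompositionSubgroup ℚ) • a = a)

/-- `g ↦ γ_g` is multiplicative. -/
theorem S40FI_gb_mul (g g' : A.decompositionSubgroup ℚ) :
    S19EQ_gb N A (g * g') = S19EQ_gb N A g * S19EQ_gb N A g' := by
  apply Subtype.ext
  refine Prod.ext (RingEquiv.ext fun x => Subtype.ext ?_) (RingEquiv.ext fun a => ?_)
  · show coeffMap ((S19GR_resAut A (g * g') :
        IsLocalRing.ResidueField A ≃+* IsLocalRing.ResidueField A) :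
        IsLocalRing.ResidueField A →+* IsLocalRing.ResidueField A) (x : LaurentSeries _) =
      coeffMap ((S19GR_resAut A g : IsLocalRing.ResidueField A ≃+* IsLocalRing.ResidueField A) :
        IsLocalRing.ResidueField A →+* IsLocalRing.ResidueField A)
        (coeffMap ((S19GR_resAut A g' :
          IsLocalRing.ResidueField A ≃+* IsLocalRing.ResidueField A) :
          IsLocalRing.ResidueField A →+* IsLocalRing.ResidueField A) (x : LaurentSeries _))
    rw [coeffMap_coeffMap]
    exact coeffMap_congr (RingHom.ext fun a => (mul_smul g g' a : (g * g') • a = g • g' • a)) _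
  · exact (mul_smul g g' a : (g * g') • a = g • g' • a)

/-- `γ_{g^n} = γ_g^n`. -/
theorem S40FI_gb_pow (g : A.decompositionSubgroup ℚ) (n : ℕ) :
    S19EQ_gb N A (g ^ n) = S19EQ_gb N A g ^ n := by
  induction n with
  | zero => rw [pow_zero, pow_zero, S40FI_gb_one]
  | succ n ih => rw [pow_succ, pow_succ, S40FI_gb_mul, ih]

/-- the reduction of a `g`-fixed class is `γ_g`-fixed. -/
theorem S40FI_red_fixed (hℓ : ℓ.Prime) (hA : A.LiesOverPrime ℓ) (hℓN : ¬ ℓ ∣ N)
    (g : A.decompositionSubgroup ℚ) (y : JZero N)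
    (hy : (g : AlgebraicClosure ℚ ≃ₐ[ℚ] AlgebraicClosure ℚ) • y = y) :
    S19EQ_gb N A g • reductionModL A N y = reductionModL A N y := by
  rw [← S40FI_red_smul N A hℓ hA hℓN g y, hy]

/-- `red (σ^M • y) = γ_σ^M • red y` for `σ ∈ D_A`. -/
theorem S40FI_red_smul_pow (hℓ : ℓ.Prime) (hA : A.LiesOverPrime ℓ) (hℓN : ¬ ℓ ∣ N)
    (σ : AlgebraicClosure ℚ ≃ₐ[ℚ] AlgebraicClosure ℚ) (hσ : σ ∈ A.decompositionSubgroup ℚ)
    (M : ℕ) (y : JZero N) :
    reductionModL A N (σ ^ M • y) =
      S19EQ_gb N A ⟨σ, hσ⟩ ^ M • reductionModL A N y := by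
  have h1 := S40FI_red_smul N A hℓ hA hℓN (⟨σ, hσ⟩ ^ M) y
  rw [S40FI_gb_pow] at h1
  rw [← h1]
  rfl

/-- the reduction of a `σ^M`-fixed class is `γ_σ^M`-fixed. -/
theorem S40FI_red_fixed_pow (hℓ : ℓ.Prime) (hA : A.LiesOverPrime ℓ) (hℓN : ¬ ℓ ∣ N)
    (σ : AlgebraicClosure ℚ ≃ₐ[ℚ] AlgebraicClosure ℚ) (hσ : σ ∈ A.decompositionSubgroup ℚ)
    (M : ℕ) (y : JZero N) (hy : σ ^ M • y = y) :
    S19EQ_gb N A ⟨σ, hσ⟩ ^ M • reductionModL A N y = reductionModL A N y := by
  rw [← S40FI_red_smul_pow N A hℓ hA hℓN σ hσ M y, hy]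

/-- the action of `γ_g^M` on the places of `F_k` is the `M`-th iterate of the action of `γ_g`. -/
theorem S40FI_iterate_place (g : A.decompositionSubgroup ℚ) (M : ℕ)
    (P : Place (IsLocalRing.ResidueField A)
      ↥(modularFunctionFieldFullC (IsLocalRing.ResidueField A) N)) :
    (fun Q => S19EQ_gb N A g • Q)^[M] P = S19EQ_gb N A g ^ M • P := by
  induction M with
  | zero => rw [Function.iterate_zero, id, pow_zero, one_smul]
  | succ n ih => rw [Function.iterate_succ_apply', ih, pow_succ', mul_smul]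

/-- the same on classes. -/
theorem S40FI_iterate_class (g : A.decompositionSubgroup ℚ) (M : ℕ)
    (c : JZeroC (IsLocalRing.ResidueField A) N) :
    (fun x => S19EQ_gb N A g • x)^[M] c = S19EQ_gb N A g ^ M • c := by
  induction M with
  | zero => rw [Function.iterate_zero, id, pow_zero, one_smul]
  | succ n ih => rw [Function.iterate_succ_apply', ih, pow_succ', mul_smul]

/-- `γ` preserves principal divisors of `F_k` (any semilinear automorphism does). -/
theorem S40FI_gb_principal (g : A.decompositionSubgroup ℚ)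
    {D : Divisor (IsLocalRing.ResidueField A)
      ↥(modularFunctionFieldFullC (IsLocalRing.ResidueField A) N)}
    (hD : D ∈ Divisor.principal (K := IsLocalRing.ResidueField A)
      (F := ↥(modularFunctionFieldFullC (IsLocalRing.ResidueField A) N))) :
    S19EQ_gb N A g • D ∈ Divisor.principal (K := IsLocalRing.ResidueField A)
      (F := ↥(modularFunctionFieldFullC (IsLocalRing.ResidueField A) N)) :=
  SemilinearAut.smul_mem_principal _ hD

/-- **the input `hredg` of `S40R2_main`** (route-2 abstract wire), for `g := (σ^M • ·)` and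
`γ := (γ_σ^M • ·)`. -/
theorem S40FI_hredg (hℓ : ℓ.Prime) (hA : A.LiesOverPrime ℓ) (hℓN : ¬ ℓ ∣ N)
    (σ : AlgebraicClosure ℚ ≃ₐ[ℚ] AlgebraicClosure ℚ) (hσ : σ ∈ A.decompositionSubgroup ℚ)
    (M : ℕ) :
    ∀ y : JZero N, reductionModL A N
        (DistribSMul.toAddMonoidHom (JZero N) (σ ^ M) y) =
      (fun c => S19EQ_gb N A ⟨σ, hσ⟩ ^ M • c) (reductionModL A N y) :=
  fun y => S40FI_red_smul_pow N A hℓ hA hℓN σ hσ M y

end Fermat.Agent.S40
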