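import Fermat.Agent.Lib.RiemannThm

/-!
# TRACK 13 (S40), GEO-5 / G5c route 2, piece (iii), ABSTRACT (helper27) — prefix `S40FC_`

**Finiteness of the classes fixed by a "Frobenius"** (class number of a function field over a
finite field, in the language of places over the algebraic closure).

`F/K` a function field with `RR_Hyp K F` (all places of degree one, Riemann's inequality),
`π` an injective self-map of the places (the action of a Frobenius `φ` on the places) which maps
principal divisors to principal divisors and fixes one place `P₀`, and such that every power of `π`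
has only finitely many fixed places.  Then only finitely many classes `c ∈ Pic⁰` are fixed by `π`:

* `S40FC_repr`   : a fixed class `[D]` is `[E − m P₀]` with `E ≥ 0` of degree `m ≤ g`, `π E = E`
  (NO Hilbert 90: take `m` minimal with `L(D + m P₀) ≠ 0`; then `dim L = 1`, so the effective
  divisor of the class is unique, hence fixed by `π`);
* `S40FC_periodic` : the support of such an `E` consists of places fixed by `π^[g!]`;
* `S40FC_finite` : **the set of fixed classes is finite**.
-/

set_option autoImplicit false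
set_option linter.unusedVariables false
set_option linter.unusedSectionVars false
set_option linter.style.haveILetI false

open AlgebraicCurve

namespace Fermat.Agent.S40

open Fermat.Agent.Lib

variable {K F : Type*} [Field K] [Field F] [Algebra K F]

/-- a principal divisor is the divisor of a function. -/
theorem S40FC_principal_eq (hP : HasPrincipalDivisors K F) {D : Divisor K F}
    (hD : D ∈ Divisor.principal (K := K) (F := F)) : ∃ f : F, f ≠ 0 ∧ D = RR_div hP f := by
  obtain ⟨f, hf, h⟩ := hD
  exact ⟨f, hf, Finsupp.ext fun v => by rw [h v, RR_div_apply]⟩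

/-- the divisor of a function is principal. -/
theorem S40FC_div_mem (hP : HasPrincipalDivisors K F) {f : F} (hf : f ≠ 0) :
    RR_div hP f ∈ Divisor.principal (K := K) (F := F) :=
  ⟨f, hf, fun v => RR_div_apply hP f v⟩

/-- `π` preserves effectivity. -/
theorem S40FC_map_nonneg (π : Place K F → Place K F) {E : Divisor K F} (hE : 0 ≤ E) :
    0 ≤ Finsupp.mapDomain π E := by
  classical
  rw [Finsupp.le_def]
  intro Q
  rw [Finsupp.zero_apply, Finsupp.mapDomain, Finsupp.sum, Finsupp.finsetSum_apply]
  refine Finset.sum_nonneg fun P _ => ?_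
  rw [Finsupp.single_apply]
  split_ifs
  · exact (Finsupp.le_def.1 hE) P
  · exact le_rfl

/-- **uniqueness**: if `L(B) = 0`, all nonzero functions of `L(B + P₀)` have the same divisor. -/
theorem S40FC_unique (h : RR_Hyp K F) (P₀ : Place K F) (B : Divisor K F)
    (hB : riemannRochSpace B = ⊥) {f f' : F} (hf0 : f ≠ 0) (hf'0 : f' ≠ 0)
    (hf : f ∈ riemannRochSpace (B + Finsupp.single P₀ 1))
    (hf' : f' ∈ riemannRochSpace (B + Finsupp.single P₀ 1)) :
    RR_div h.principal f' = RR_div h.principal f := by
  have hfB : f ∉ riemannRochSpace B := by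
    rw [hB, Submodule.mem_bot]
    exact hf0
  obtain ⟨c, hc⟩ := RR_exists_sub_mem P₀ (h.deg_one P₀) B hf hfB hf'
  rw [hB, Submodule.mem_bot, sub_eq_zero] at hc
  have hc0 : c ≠ 0 := by
    rintro rfl
    rw [zero_smul] at hc
    exact hf'0 hc
  have hinv : f = c⁻¹ • f' := by
    rw [hc, smul_smul, inv_mul_cancel₀ hc0, one_smul]
  have key1 : ∀ X : Divisor K F, f ∈ riemannRochSpace X → f' ∈ riemannRochSpace X := by
    intro X hX
    rw [hc]
    exact Submodule.smul_mem _ c hX
  have key2 : ∀ X : Divisor K F, f' ∈ riemannRochSpace X → f ∈ riemannRochSpace X := by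
    intro X hX
    rw [hinv]
    exact Submodule.smul_mem _ _ hX
  have h1 : f' ∈ riemannRochSpace (-(RR_div h.principal f')) :=
    (RR_mem_iff_div h.principal hf'0).2 (by rw [neg_add_cancel])
  have h2 : f ∈ riemannRochSpace (-(RR_div h.principal f)) :=
    (RR_mem_iff_div h.principal hf0).2 (by rw [neg_add_cancel])
  have h3 := (RR_mem_iff_div h.principal hf0).1 (key2 _ h1)
  have h4 := (RR_mem_iff_div h.principal hf'0).1 (key1 _ h2)
  rw [Finsupp.le_def] at h3 h4
  refine Finsupp.ext fun v => ?_
  have e3 := h3 v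
  have e4 := h4 v
  rw [Finsupp.zero_apply, Finsupp.add_apply, Finsupp.neg_apply] at e3 e4
  omega

/-- **the canonical representative** of a class fixed by `π`. -/
theorem S40FC_repr (h : RR_Hyp K F) (π : Place K F → Place K F)
    (hprin : ∀ D : Divisor K F, D ∈ Divisor.principal (K := K) (F := F) →
      Finsupp.mapDomain π D ∈ Divisor.principal (K := K) (F := F))
    (P₀ : Place K F) (hP₀ : π P₀ = P₀) (D : Divisor K F) (hD0 : D.degree = 0)
    (hD : Finsupp.mapDomain π D - D ∈ Divisor.principal (K := K) (F := F)) :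
    ∃ (E : Divisor K F) (m : ℕ), m ≤ RR_genus K F ∧ 0 ≤ E ∧ E.degree = m ∧
      Finsupp.mapDomain π E = E ∧
      (E - Finsupp.single P₀ (m : ℤ)) - D ∈ Divisor.principal (K := K) (F := F) := by
  classical
  have hdeg := h.deg_one
  have hP := h.principal
  have hdegs : ∀ n : ℤ, (D + Finsupp.single P₀ n).degree = n := by
    intro n
    rw [map_add, hD0, zero_add, Divisor.degree_single, hdeg, Nat.cast_one, mul_one]
  -- existence of `m`
  have hex : ∃ n : ℕ, riemannRochSpace (D + Finsupp.single P₀ (n : ℤ)) ≠ ⊥ := by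
    refine ⟨RR_genus K F, fun hbot => ?_⟩
    have h1 := RR_riemann_ineq h (D + Finsupp.single P₀ ((RR_genus K F : ℕ) : ℤ))
    rw [hdegs, hbot, finrank_bot] at h1
    simp at h1
  set m := Nat.find hex with hm
  have hmS : riemannRochSpace (D + Finsupp.single P₀ (m : ℤ)) ≠ ⊥ := Nat.find_spec hex
  have hmg : m ≤ RR_genus K F := by
    apply Nat.find_min' hex
    intro hbot
    have h1 := RR_riemann_ineq h (D + Finsupp.single P₀ ((RR_genus K F : ℕ) : ℤ))
    rw [hdegs, hbot, finrank_bot] at h1
    simp at h1
  set B : Divisor K F := D + Finsupp.single P₀ ((m : ℤ) - 1) with hBdef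
  have hBA : B + Finsupp.single P₀ 1 = D + Finsupp.single P₀ (m : ℤ) := by
    rw [hBdef, add_assoc, ← Finsupp.single_add, sub_add_cancel]
  have hB : riemannRochSpace B = ⊥ := by
    rcases Nat.eq_zero_or_pos m with h0 | hpos
    · apply RR_eq_bot_of_degree_neg hdeg hP
      rw [hBdef, hdegs, h0]
      norm_num
    · by_contra hne
      have hk : m - 1 < m := Nat.sub_lt hpos one_pos
      apply Nat.find_min hex hk
      have e : ((m - 1 : ℕ) : ℤ) = (m : ℤ) - 1 := by
        rw [Nat.cast_sub hpos, Nat.cast_one]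
      rw [e]
      exact hne
  obtain ⟨f, hf, hf0⟩ := (Submodule.ne_bot_iff _).1 hmS
  rw [← hBA] at hf
  set E : Divisor K F := (B + Finsupp.single P₀ 1) + RR_div hP f with hEdef
  have hE0 : 0 ≤ E := (RR_mem_iff_div hP hf0).1 hf
  have hEdeg : E.degree = m := by
    rw [hEdef, map_add, RR_div_degree, add_zero, hBA, hdegs]
  -- `π E = E`
  obtain ⟨f₁, hf₁0, hf₁⟩ := S40FC_principal_eq hP hD
  have hsum : RR_div hP f₁ + Finsupp.mapDomain π (RR_div hP f) ∈
      Divisor.principal (K := K) (F := F) :=
    AddSubgroup.add_mem _ (S40FC_div_mem hP hf₁0) (hprin _ (S40FC_div_mem hP hf0))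
  obtain ⟨f', hf'0, hf'⟩ := S40FC_principal_eq hP hsum
  have hπD : Finsupp.mapDomain π D = D + RR_div hP f₁ := by
    rw [← hf₁]
    abel
  have hπE : Finsupp.mapDomain π E = (B + Finsupp.single P₀ 1) + RR_div hP f' := by
    rw [hEdef, Finsupp.mapDomain_add, hBA, Finsupp.mapDomain_add, Finsupp.mapDomain_single,
      hP₀, hπD, ← hf']
    abel
  have hf'mem : f' ∈ riemannRochSpace (B + Finsupp.single P₀ 1) := by
    rw [RR_mem_iff_div hP hf'0, ← hπE]
    exact S40FC_map_nonneg π hE0
  have huniq := S40FC_unique h P₀ B hB hf0 hf'0 hf hf'mem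
  refine ⟨E, m, hmg, hE0, hEdeg, ?_, ?_⟩
  · rw [hπE, huniq]
  · have : (E - Finsupp.single P₀ (m : ℤ)) - D = RR_div hP f := by
      rw [hEdef, hBA]
      abel
    rw [this]
    exact S40FC_div_mem hP hf0

/-- the support of an effective `π`-fixed divisor of degree `≤ g` consists of places fixed by
`π^[g!]`. -/
theorem S40FC_periodic (hdeg : ∀ v : Place K F, v.deg = 1) (π : Place K F → Place K F)
    (hπ : Function.Injective π) (E : Divisor K F) (hE : 0 ≤ E) (m : ℕ)
    (hdegE : E.degree = m) (hπE : Finsupp.mapDomain π E = E) (g : ℕ) (hmg : m ≤ g) :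
    ∀ P ∈ E.support, π^[g.factorial] P = P := by
  classical
  -- the support is stable
  have hstab : ∀ P ∈ E.support, π P ∈ E.support := by
    intro P hP
    rw [Finsupp.mem_support_iff] at hP ⊢
    have : E (π P) = E P := by
      conv_lhs => rw [← hπE]
      exact Finsupp.mapDomain_apply hπ E P
    rwa [this]
  have hiter : ∀ (i : ℕ) (P : Place K F), P ∈ E.support → π^[i] P ∈ E.support := by
    intro i
    induction i with
    | zero => intro P hP; exact hP
    | succ i ih =>
      intro P hP
      rw [Function.iterate_succ_apply']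
      exact hstab _ (ih P hP)
  -- the cardinality of the support is at most `m`
  have hcard : E.support.card ≤ m := by
    have h1 : (E.support.card : ℤ) ≤ ∑ v ∈ E.support, E v := by
      rw [Finset.card_eq_sum_ones, Nat.cast_sum]
      refine Finset.sum_le_sum fun v hv => ?_
      have h0 : 0 ≤ E v := (Finsupp.le_def.1 hE) v
      have h1 : E v ≠ 0 := Finsupp.mem_support_iff.1 hv
      push_cast
      omega
    rw [← RR_degree_eq_sum hdeg, hdegE] at h1
    exact_mod_cast h1
  intro P hP
  -- pigeonhole
  have hlt : E.support.card < (Finset.range (E.support.card + 1)).card := by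
    rw [Finset.card_range]
    exact Nat.lt_succ_self _
  obtain ⟨i, hi, j, hj, hij, heq⟩ := Finset.exists_ne_map_eq_of_card_lt_of_maps_to hlt
    (f := fun i => π^[i] P) (fun i _ => hiter i P hP)
  rw [Finset.mem_range] at hi hj
  -- wlog `i < j`
  have key : ∀ a b : ℕ, a < b → b < E.support.card + 1 → π^[a] P = π^[b] P →
      π^[g.factorial] P = P := by
    intro a b hab hb heq
    have hk : π^[b - a] P = P := by
      apply (hπ.iterate a)
      rw [← Function.iterate_add_apply, Nat.add_sub_cancel' hab.le]
      exact heq.symm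
    have hkpos : 0 < b - a := Nat.sub_pos_of_lt hab
    have hkle : b - a ≤ g := by omega
    have hper : Function.IsPeriodicPt π (b - a) P := hk
    exact hper.trans_dvd (Nat.dvd_factorial hkpos hkle)
  rcases lt_or_gt_of_ne hij with h1 | h1
  · exact key i j h1 hj heq
  · exact key j i h1 hi heq.symm

/-- **finiteness of the classes fixed by `π`**. -/
theorem S40FC_finite (h : RR_Hyp K F) (π : Place K F → Place K F) (hπ : Function.Injective π)
    (hprin : ∀ D : Divisor K F, D ∈ Divisor.principal (K := K) (F := F) →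
      Finsupp.mapDomain π D ∈ Divisor.principal (K := K) (F := F))
    (P₀ : Place K F) (hP₀ : π P₀ = P₀)
    (hfix : ∀ N : ℕ, 0 < N → {P : Place K F | π^[N] P = P}.Finite) :
    {c : Pic0 K F | ∃ D : Divisor.degZero (K := K) (F := F), Pic0.mk D = c ∧
      Finsupp.mapDomain π D.1 - D.1 ∈ Divisor.principal (K := K) (F := F)}.Finite := by
  classical
  set g := RR_genus K F with hg
  have hT := hfix g.factorial (Nat.factorial_pos g)
  set T : Finset (Place K F) := hT.toFinset with hTdef
  set 𝓔 : Finset (Divisor K F) := T.finsupp (fun _ => Finset.Icc (0 : ℤ) g) with h𝓔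
  -- the map `(E, m) ↦ [E − m P₀]`
  let Θ : Divisor K F × ℕ → Pic0 K F := fun x =>
    if hd : (x.1 - Finsupp.single P₀ (x.2 : ℤ)) ∈ Divisor.degZero (K := K) (F := F) then
      Pic0.mk ⟨x.1 - Finsupp.single P₀ (x.2 : ℤ), hd⟩ else 0
  have hfin : (Θ '' ((𝓔 : Set (Divisor K F)) ×ˢ (Finset.range (g + 1) : Set ℕ))).Finite :=
    ((Finset.finite_toSet 𝓔).prod (Finset.finite_toSet _)).image Θ
  refine hfin.subset ?_
  rintro c ⟨D, rfl, hD⟩
  obtain ⟨E, m, hmg, hE0, hEdeg, hπE, hED⟩ :=
    S40FC_repr h π hprin P₀ hP₀ D.1 (Divisor.mem_degZero.1 D.2) hD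
  have hper := S40FC_periodic h.deg_one π hπ E hE0 m hEdeg hπE g hmg
  have hEmem : E ∈ 𝓔 := by
    rw [h𝓔, Finset.mem_finsupp_iff]
    refine ⟨fun P hP => ?_, fun P _ => ?_⟩
    · rw [hTdef, Set.Finite.mem_toFinset]
      exact hper P hP
    · rw [Finset.mem_Icc]
      refine ⟨(Finsupp.le_def.1 hE0) P, ?_⟩
      by_cases hP : P ∈ E.support
      · have h1 : E P ≤ ∑ v ∈ E.support, E v :=
          Finset.single_le_sum (fun v _ => (Finsupp.le_def.1 hE0) v) hP
        rw [← RR_degree_eq_sum h.deg_one, hEdeg] at h1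
        have : (m : ℤ) ≤ g := by exact_mod_cast hmg
        omega
      · rw [Finsupp.notMem_support_iff.1 hP]
        positivity
  have hd : (E - Finsupp.single P₀ (m : ℤ)) ∈ Divisor.degZero (K := K) (F := F) := by
    rw [Divisor.mem_degZero, map_sub, hEdeg, Divisor.degree_single, h.deg_one, Nat.cast_one,
      mul_one, sub_self]
  refine ⟨(E, m), ⟨hEmem, ?_⟩, ?_⟩
  · rw [Finset.mem_coe, Finset.mem_range]
    omega
  · show Θ (E, m) = Pic0.mk D
    simp only [Θ]
    rw [dif_pos hd]
    rw [Pic0.mk, Pic0.mk, QuotientAddGroup.eq, AddSubgroup.mem_addSubgroupOf]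
    have : ((-(⟨E - Finsupp.single P₀ (m : ℤ), hd⟩ : Divisor.degZero (K := K) (F := F)) + D :
        Divisor.degZero (K := K) (F := F)) : Divisor K F) =
        -((E - Finsupp.single P₀ (m : ℤ)) - D.1) := by
      push_cast
      abel
    rw [this]
    exact AddSubgroup.neg_mem _ hED

end Fermat.Agent.S40
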