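import Mathlib
import Fermat.Prelude.Def_AlgebraicCurve_BaseChangeGalois
import Fermat.Agent.Lib.HurwitzGlue
import Fermat.Agent.Lib.FrobExists
import Fermat.Agent.S24.PlaceVal
import Fermat.Agent.S17.Stab
import Fermat.Agent.S19.EqvInst

/-!
# TRACK 13 (row 38), GEO-5 / G5c route 2, packages (iii)-INSTANCE and (vi) (helper8).  Prefix `S40FF_`.

Route 2 for G5c (helper4, helper19's `S40R2_main`, helper27's `S40FC_finite`) needs ONE element
`g` of the decomposition group `D_A` (`A ⊂ ℚ̄` over `p ∤ N`) with `g • y₀ = y₀` whose action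
`γ_g = S19EQ_gb N A g` on the reduced function field `F_k` has finitely many fixed classes.

* `S40FF_fix_finite`, `S40FF_fix_pow_finite` : ABSTRACT: a semilinear automorphism `g` of `F / K`
  (all places of degree one, principal divisors) fixing a transcendental `x`, whose base
  automorphism has finitely many fixed points, fixes only finitely many places.
* `S40FF_exists_frob` : Frobenius elements exist at EVERY valuation subring `A` of `ℚ̄` over `ℓ`
  (the proof of `exists_isFrobeniusAt` with `A` as a parameter).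
* `S40FF_exists_pow` : (vi) a positive power of any `σ` fixes a given `y ∈ J₀(N)`.
* `S40FF_fix_inst`, `S40FF_fix_inst'` : the fixed places of `γ_g ^ m` are finite (`j̄` is fixed).
* `S40FF_cusp_fixed` : `γ_g` fixes the reduction of the cusp `∞`.
* `S40FF_main` : all of it for a given `y₀`.
-/

set_option autoImplicit false
set_option synthInstance.maxHeartbeats 400000
set_option maxHeartbeats 1000000
set_option linter.unusedSectionVars false
set_option linter.unusedVariables false
set_option linter.style.haveILetI false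

open scoped Pointwise
open HahnSeries IntermediateField AlgebraicCurve ModularCurve

namespace Fermat.Agent.S40

open Fermat.Agent.S18 Fermat.Agent.Lib Fermat.Agent.GalRep Fermat.Agent.S17 Fermat.Agent.S19
  Fermat.Agent.S24

local notation "ℚbar" => AlgebraicClosure ℚ
local notation "GQ" => (AlgebraicClosure ℚ ≃ₐ[ℚ] AlgebraicClosure ℚ)



section abs

variable {K F : Type*} [Field K] [Field F] [Algebra K F]

/-- the places where a non-zero function has non-zero order form a finite set. -/
theorem S40FF_ord_ne_zero_finite (hP : HasPrincipalDivisors K F) {f : F} (hf : f ≠ 0) :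
    {v : Place K F | v.ord f ≠ 0}.Finite := by
  classical
  obtain ⟨D, hD, -⟩ := hP.exists_divisor f hf
  refine Set.Finite.subset (Finset.finite_toSet D.support) ?_
  intro v hv
  simp only [Set.mem_ofPred_eq] at hv
  rw [Finset.mem_coe, Finsupp.mem_support_iff, hD v]
  exact hv

/-- `g • (x - c) = x - φ(c)` for a `g`-fixed `x`. -/
theorem S40FF_smul_sub (g : SemilinearAut K F) {x : F} (hgx : g • x = x) (c : K) :
    g • (x - algebraMap K F c) = x - algebraMap K F (SemilinearAut.baseAut g c) := by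
  have h1 : g • (x - algebraMap K F c) = g • x - g • algebraMap K F c := smul_sub g x _
  rw [h1, hgx]
  congr 1
  exact SemilinearAut.commutes g c

/-- **the value of a fixed function at a fixed place is a fixed constant.** -/
theorem S40FF_const_fixed (g : SemilinearAut K F) {x : F} (hgx : g • x = x)
    {P : Place K F} (hgP : g • P = P) {c : K} (hc : 0 < P.ord (x - algebraMap K F c)) :
    SemilinearAut.baseAut g c = c := by
  by_contra hne
  have h1 : (g • P).ord (g • (x - algebraMap K F c)) = P.ord (x - algebraMap K F c) :=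
    SemilinearAut.ord_smul g P _
  rw [hgP, S40FF_smul_sub g hgx] at h1
  set c' := SemilinearAut.baseAut g c with hc'
  have hd : (x - algebraMap K F c) + (-(x - algebraMap K F c')) = algebraMap K F (c' - c) := by
    rw [map_sub]; ring
  have hcc : c' - c ≠ 0 := sub_ne_zero.2 hne
  have hcc' : algebraMap K F (c' - c) ≠ 0 := by
    rw [Ne, map_eq_zero_iff _ (algebraMap K F).injective]
    exact hcc
  have ha : x - algebraMap K F c ≠ 0 := by
    intro h0
    rw [h0, Place.ord_zero] at hc
    exact lt_irrefl _ hc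
  have hb : x - algebraMap K F c' ≠ 0 := by
    intro h0
    rw [h0, Place.ord_zero] at h1
    rw [← h1] at hc
    exact lt_irrefl _ hc
  have hb' : -(x - algebraMap K F c') ≠ 0 := neg_ne_zero.2 hb
  have h2 := S24_ord_add P ha hb' (by rw [hd]; exact hcc')
  rw [hd, BL_ord_algebraMap] at h2
  have h3 : P.ord (-(x - algebraMap K F c')) = P.ord (x - algebraMap K F c') := by
    have hm : -(x - algebraMap K F c') = algebraMap K F (-1) * (x - algebraMap K F c') := by
      rw [map_neg, map_one]; ring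
    rw [hm, P.ord_mul (by rw [map_neg, map_one]; exact neg_ne_zero.2 one_ne_zero) hb,
      BL_ord_algebraMap, zero_add]
  rw [h3, h1] at h2
  have : 0 < min (P.ord (x - algebraMap K F c)) (P.ord (x - algebraMap K F c)) := lt_min hc hc
  omega

/-- **finitely many fixed places**: if `g` fixes a transcendental `x` and the base automorphism
of `g` has finitely many fixed points, then `g` fixes only finitely many places. -/
theorem S40FF_fix_finite (hdeg : ∀ v : Place K F, v.deg = 1) (hP : HasPrincipalDivisors K F)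
    (g : SemilinearAut K F) (x : F) (hx : Transcendental K x) (hgx : g • x = x)
    (hfin : {a : K | SemilinearAut.baseAut g a = a}.Finite) :
    {P : Place K F | g • P = P}.Finite := by
  classical
  have hx0 : x ≠ 0 := fun h0 => hx (h0 ▸ isAlgebraic_zero)
  have hxc : ∀ c : K, x - algebraMap K F c ≠ 0 := by
    intro c h0
    apply hx
    rw [sub_eq_zero.1 h0]
    exact isAlgebraic_algebraMap c
  refine Set.Finite.subset ((S40FF_ord_ne_zero_finite hP hx0).union
    (hfin.biUnion (fun c _ => S40FF_ord_ne_zero_finite hP (hxc c)))) ?_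
  intro P hP'
  simp only [Set.mem_ofPred_eq] at hP'
  by_cases hneg : P.ord x < 0
  · left
    exact ne_of_lt hneg
  · right
    push Not at hneg
    obtain ⟨c, hc⟩ := HWG_exists_sub_pos P (hdeg P) hx hneg
    have hφ := S40FF_const_fixed g hgx hP' hc
    simp only [Set.mem_iUnion, Set.mem_ofPred_eq]
    exact ⟨c, hφ, ne_of_gt hc⟩

/-- the powers of `g`. -/
theorem S40FF_fix_pow_finite (hdeg : ∀ v : Place K F, v.deg = 1) (hP : HasPrincipalDivisors K F)
    (g : SemilinearAut K F) (x : F) (hx : Transcendental K x) (hgx : g • x = x)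
    (hfin : ∀ n : ℕ, 0 < n → {a : K | (SemilinearAut.baseAut g ^ n) a = a}.Finite)
    (n : ℕ) (hn : 0 < n) :
    {P : Place K F | g ^ n • P = P}.Finite := by
  have hgx' : g ^ n • x = x := by
    clear hn
    induction n with
    | zero => simp
    | succ m ih => rw [pow_succ, mul_smul, hgx, ih]
  have hb : SemilinearAut.baseAut (g ^ n) = SemilinearAut.baseAut g ^ n := by
    clear hn hgx'
    induction n with
    | zero => simp
    | succ m ih => rw [pow_succ, pow_succ, SemilinearAut.baseAut_mul, ih]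
  refine S40FF_fix_finite hdeg hP (g ^ n) x hx hgx' ?_
  rw [hb]
  exact hfin n hn

end abs




noncomputable section

/-- The Galois action on algebraic integers. -/
local instance S40FF_mulSemiringAction :
    MulSemiringAction (AlgebraicClosure ℚ ≃ₐ[ℚ] AlgebraicClosure ℚ) FrobExistsZbar where
  smul σ b := ⟨σ b.1, b.2.map (σ.toAlgHom.restrictScalars ℤ)⟩
  one_smul _ := rfl
  mul_smul _ _ _ := rfl
  smul_zero σ := Subtype.ext (map_zero σ)
  smul_add σ _ _ := Subtype.ext (map_add σ _ _)
  smul_one σ := Subtype.ext (map_one σ)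
  smul_mul σ _ _ := Subtype.ext (map_mul σ _ _)

local instance S40FF_smulCommClass :
    SMulCommClass (AlgebraicClosure ℚ ≃ₐ[ℚ] AlgebraicClosure ℚ) ℤ FrobExistsZbar where
  smul_comm σ n b := Subtype.ext (by
    show σ ((n • b : FrobExistsZbar) : AlgebraicClosure ℚ) = n • σ b.1
    rw [Subalgebra.coe_smul, map_zsmul])

local instance S40FF_topologicalSpace : TopologicalSpace FrobExistsZbar := ⊥

local instance S40FF_discreteTopology : DiscreteTopology FrobExistsZbar := ⟨rfl⟩

local instance S40FF_continuousSMul :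
    ContinuousSMul (AlgebraicClosure ℚ ≃ₐ[ℚ] AlgebraicClosure ℚ) FrobExistsZbar := by
  have : Algebra.IsAlgebraic ℚ (AlgebraicClosure ℚ) := AlgebraicClosure.isAlgebraic ℚ
  have : Algebra.IsIntegral ℚ (AlgebraicClosure ℚ) := Algebra.IsAlgebraic.isIntegral
  rw [continuousSMul_iff_stabilizer_isOpen]
  intro b
  convert stabilizer_isOpen_of_isIntegral (K := ℚ) (L := AlgebraicClosure ℚ) b.1 using 1
  ext σ
  simp only [SetLike.mem_coe, MulAction.mem_stabilizer_iff]
  exact ⟨fun h => congrArg Subtype.val h, fun h => Subtype.ext h⟩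

local instance S40FF_isInvariant :
    Algebra.IsInvariant ℤ FrobExistsZbar (AlgebraicClosure ℚ ≃ₐ[ℚ] AlgebraicClosure ℚ) := by
  have := frobExists_isGalois
  refine ⟨fun b hb => ?_⟩
  have hb' : (b : AlgebraicClosure ℚ) ∈
      IntermediateField.fixedField (⊤ : Subgroup (AlgebraicClosure ℚ ≃ₐ[ℚ] AlgebraicClosure ℚ)) := by
    rintro ⟨g, -⟩
    exact congrArg Subtype.val (hb g)
  rw [InfiniteGalois.fixedField_bot, IntermediateField.mem_bot] at hb'
  obtain ⟨k, hk⟩ := hb'
  have hint : IsIntegral ℤ (algebraMap ℚ (AlgebraicClosure ℚ) k) := hk ▸ b.2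
  rw [isIntegral_algebraMap_iff (FaithfulSMul.algebraMap_injective ℚ (AlgebraicClosure ℚ))] at hint
  obtain ⟨a, rfl⟩ := IsIntegrallyClosed.algebraMap_eq_of_integral hint
  refine ⟨a, Subtype.ext ?_⟩
  rw [← hk]
  simp

/-- Core statement for a GIVEN valuation subring `A` over `ℓ`: a Galois element which is
congruent to the `ℓ`-th power map on all algebraic integers modulo the maximal ideal of `A`. -/
theorem S40FF_frob_core (ℓ : ℕ) (hℓ : ℓ.Prime) (A : ValuationSubring (AlgebraicClosure ℚ))
    (hA : (ℓ : AlgebraicClosure ℚ) ∈ A.nonunits) :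
    ∃ σ : AlgebraicClosure ℚ ≃ₐ[ℚ] AlgebraicClosure ℚ,
      ∀ x : AlgebraicClosure ℚ, IsIntegral ℤ x → σ x - x ^ ℓ ∈ A.nonunits := by
  haveI : Fact ℓ.Prime := ⟨hℓ⟩
  haveI := frobExists_isGalois
  haveI : Algebra.IsAlgebraic ℚ (AlgebraicClosure ℚ) := AlgebraicClosure.isAlgebraic ℚ
  haveI : Algebra.IsIntegral ℚ (AlgebraicClosure ℚ) := Algebra.IsAlgebraic.isIntegral
  -- the inclusion of the algebraic integers into `A`
  let ι : FrobExistsZbar →+* A :=
    { toFun := fun b => ⟨b.1, frobExists_mem_of_isIntegral A b.2⟩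
      map_one' := rfl
      map_mul' := fun _ _ => rfl
      map_zero' := rfl
      map_add' := fun _ _ => rfl }
  let Q : Ideal FrobExistsZbar := Ideal.comap ι (IsLocalRing.maximalIdeal A)
  have hQmem : ∀ b : FrobExistsZbar, b ∈ Q ↔ (b : AlgebraicClosure ℚ) ∈ A.nonunits := by
    intro b
    rw [Ideal.mem_comap, ← ValuationSubring.coe_mem_nonunits_iff]
    rfl
  haveI hQprime : Q.IsPrime := Ideal.comap_isPrime ι _
  let P : Ideal ℤ := Ideal.span {(ℓ : ℤ)}
  haveI hPmax : P.IsMaximal := Int.ideal_span_isMaximal_of_prime ℓ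
  haveI hQP : Q.LiesOver P := by
    constructor
    refine hPmax.eq_of_le Ideal.IsPrime.ne_top' ?_
    rw [Ideal.span_singleton_le_iff_mem, Ideal.under_def, Ideal.mem_comap, hQmem]
    simpa using hA
  haveI hQmax : Q.IsMaximal := Ideal.IsMaximal.of_liesOver_isMaximal Q P
  letI := Ideal.Quotient.field P
  letI := Ideal.Quotient.field Q
  have hℓQ : ((ℓ : ℕ) : FrobExistsZbar ⧸ Q) = 0 := by
    have h1 : ((ℓ : ℕ) : FrobExistsZbar) ∈ Q := by
      rw [hQmem]
      simpa using hA
    have h2 := Ideal.Quotient.eq_zero_iff_mem.mpr h1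
    simpa using h2
  haveI : CharP (FrobExistsZbar ⧸ Q) ℓ := (CharP.charP_iff_prime_eq_zero hℓ).mpr hℓQ
  let φ₀ : (FrobExistsZbar ⧸ Q) →ₐ[ℤ ⧸ P] (FrobExistsZbar ⧸ Q) :=
    { frobenius (FrobExistsZbar ⧸ Q) ℓ with
      commutes' := by
        intro r
        obtain ⟨n, rfl⟩ := Ideal.Quotient.mk_surjective r
        have : algebraMap (ℤ ⧸ P) (FrobExistsZbar ⧸ Q) (Ideal.Quotient.mk P n) =
            ((n : ℤ) : FrobExistsZbar ⧸ Q) := by
          rw [← Ideal.Quotient.algebraMap_eq, ← IsScalarTower.algebraMap_apply]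
          simp
        simp only [RingHom.toMonoidHom_eq_coe, OneHom.toFun_eq_coe, MonoidHom.toOneHom_coe,
          MonoidHom.coe_coe]
        rw [this, map_intCast] }
  have hbij : Function.Bijective φ₀ := Algebra.IsAlgebraic.algHom_bijective φ₀
  let φ : (FrobExistsZbar ⧸ Q) ≃ₐ[ℤ ⧸ P] (FrobExistsZbar ⧸ Q) := AlgEquiv.ofBijective φ₀ hbij
  obtain ⟨σ, hσ⟩ := Ideal.Quotient.stabilizerHom_surjective_of_profinite
    (G := AlgebraicClosure ℚ ≃ₐ[ℚ] AlgebraicClosure ℚ) P Q φ
  refine ⟨σ.1, fun x hx => ?_⟩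
  have h1 := DFunLike.congr_fun hσ (Ideal.Quotient.mk Q ⟨x, hx⟩)
  rw [Ideal.Quotient.stabilizerHom_apply] at h1
  have h2 : φ (Ideal.Quotient.mk Q ⟨x, hx⟩) = Ideal.Quotient.mk Q (⟨x, hx⟩ ^ ℓ) := by
    rw [map_pow]
    rfl
  rw [h2, Ideal.Quotient.eq, hQmem] at h1
  exact h1

/-- **Frobenius elements exist at every valuation subring `A` of `ℚ̄` over `ℓ`.** -/
theorem S40FF_exists_frob (ℓ : ℕ) (hℓ : ℓ.Prime) (A : ValuationSubring (AlgebraicClosure ℚ))
    (hA : A.LiesOverPrime ℓ) :
    ∃ σ : AlgebraicClosure ℚ ≃ₐ[ℚ] AlgebraicClosure ℚ, A.IsFrobeniusAt σ ℓ := by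
  obtain ⟨σ, hσ⟩ := S40FF_frob_core ℓ hℓ A hA
  have halg : ∀ x : AlgebraicClosure ℚ, IsAlgebraic ℤ x := fun x =>
    (IsFractionRing.isAlgebraic_iff ℤ ℚ (AlgebraicClosure ℚ)).mpr
      ((AlgebraicClosure.isAlgebraic ℚ).isAlgebraic x)
  exact ⟨σ, isFrobeniusAt_of_forall_isIntegral halg hℓ A hA σ hσ⟩

end





section inst

variable (N : ℕ) [NeZero N] (A : ValuationSubring (AlgebraicClosure ℚ))

/-- (vi) a positive power of any Galois element fixes a given point of `J₀(N)`. -/
theorem S40FF_exists_pow (y : JZero N) (σ : GQ) : ∃ n : ℕ, 0 < n ∧ σ ^ n • y = y := by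
  obtain ⟨L, hL, hLσ⟩ := S17ST_open_stab N y
  haveI := hL
  haveI := frobExists_isGalois
  haveI : Algebra.IsAlgebraic ℚ (AlgebraicClosure ℚ) := AlgebraicClosure.isAlgebraic ℚ
  haveI : Algebra.IsIntegral ℚ (AlgebraicClosure ℚ) := Algebra.IsAlgebraic.isIntegral
  have hopen : IsOpen (L.fixingSubgroup : Set GQ) := IntermediateField.fixingSubgroup_isOpen L
  haveI : Finite (GQ ⧸ L.fixingSubgroup) := Subgroup.quotient_finite_of_isOpen _ hopen
  haveI : (L.fixingSubgroup).FiniteIndex := Subgroup.finiteIndex_of_finite_quotient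
  obtain ⟨m, hm0, -, hm⟩ := Subgroup.exists_pow_mem_of_index_ne_zero
    (Subgroup.FiniteIndex.index_ne_zero (H := L.fixingSubgroup)) σ
  refine ⟨m, hm0, hLσ _ fun a ha => ?_⟩
  exact hm ⟨a, ha⟩

/-- the powers of a Frobenius on the residue field. -/
theorem S40FF_pow_smul {q : ℕ} (g : A.decompositionSubgroup ℚ)
    (hg : ∀ x : IsLocalRing.ResidueField A, g • x = x ^ q) (n : ℕ)
    (x : IsLocalRing.ResidueField A) : g ^ n • x = x ^ (q ^ n) := by
  induction n generalizing x with
  | zero => simp
  | succ m ih => rw [pow_succ, mul_smul, hg, ih, ← pow_mul, pow_succ']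

/-- the powers of the residue automorphism. -/
theorem S40FF_resAut_pow (g : A.decompositionSubgroup ℚ) (m : ℕ)
    (x : IsLocalRing.ResidueField A) : (S19GR_resAut A g ^ m) x = g ^ m • x := by
  induction m generalizing x with
  | zero => simp
  | succ m ih =>
    rw [pow_succ, pow_succ, mul_smul, ← ih]
    rfl

/-- the fixed points of a non-trivial power map on a field are finite in number. -/
theorem S40FF_fix_k_finite {k : Type*} [Field k] {Q : ℕ} (hQ : 1 < Q) :
    {a : k | a ^ Q = a}.Finite := by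
  have hne : (Polynomial.X ^ Q - Polynomial.X : Polynomial k) ≠ 0 :=
    FiniteField.X_pow_card_sub_X_ne_zero k hQ
  refine Set.Finite.subset (Polynomial.finite_setOfPred_isRoot hne) ?_
  intro a ha
  simp only [Set.mem_ofPred_eq] at ha ⊢
  rw [Polynomial.IsRoot.def, Polynomial.eval_sub, Polynomial.eval_pow, Polynomial.eval_X, ha,
    sub_self]

end inst

section inst2

variable (N : ℕ) [NeZero N] (A : ValuationSubring (AlgebraicClosure ℚ)) {p : ℕ}

/-- `γ_g` fixes `j̄`. -/
theorem S40FF_bar_jbar (φ : IsLocalRing.ResidueField A ≃+* IsLocalRing.ResidueField A) :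
    S19GR_bar (IsLocalRing.ResidueField A) N φ • S18_jbar N (IsLocalRing.ResidueField A) =
      S18_jbar N (IsLocalRing.ResidueField A) := by
  apply Subtype.ext
  rw [S19GR_coe_bar_smul, S18_jbar_coe, coeffMap_jqModC]

/-- the base automorphism of `γ_g`. -/
theorem S40FF_baseAut (g : A.decompositionSubgroup ℚ) :
    SemilinearAut.baseAut (S19EQ_gb N A g) = S19GR_resAut A g := rfl

/-- **(iii)-instance, the fixed places**: for `g ∈ D_A` acting on the residue field as a
non-trivial power map, `γ_g^m` fixes only finitely many places of `F_k`, for every `m > 0`. -/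
theorem S40FF_fix_inst (hp : p.Prime) (hA : A.LiesOverPrime p) (hpN : ¬ p ∣ N)
    (g : A.decompositionSubgroup ℚ) {q : ℕ} (hq : 1 < q)
    (hg : ∀ x : IsLocalRing.ResidueField A, g • x = x ^ q) (m : ℕ) (hm : 0 < m) :
    {P : Place (IsLocalRing.ResidueField A)
        ↥(modularFunctionFieldFullC (IsLocalRing.ResidueField A) N) |
      (S19EQ_gb N A g) ^ m • P = P}.Finite := by
  haveI : IsAlgClosed (IsLocalRing.ResidueField A) := S18_residue_isAlgClosed A
  have hk := S18_hk N A hp hA hpN
  refine S40FF_fix_pow_finite hk.deg_one hk.principal (S19EQ_gb N A g)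
    (S18_jbar N (IsLocalRing.ResidueField A)) (S18_transcendental_jbar N)
    (S40FF_bar_jbar N A _) ?_ m hm
  intro n hn
  have hQ : 1 < q ^ n := Nat.one_lt_pow (Nat.pos_iff_ne_zero.1 hn) hq
  refine Set.Finite.subset (S40FF_fix_k_finite (k := IsLocalRing.ResidueField A) hQ) ?_
  intro a ha
  simp only [Set.mem_ofPred_eq] at ha ⊢
  rw [S40FF_baseAut, S40FF_resAut_pow, S40FF_pow_smul A g hg] at ha
  exact ha

/-- the same with iterates of the map `P ↦ γ_g • P` (the shape of `S40FC_finite`). -/
theorem S40FF_fix_inst' (hp : p.Prime) (hA : A.LiesOverPrime p) (hpN : ¬ p ∣ N)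
    (g : A.decompositionSubgroup ℚ) {q : ℕ} (hq : 1 < q)
    (hg : ∀ x : IsLocalRing.ResidueField A, g • x = x ^ q) (m : ℕ) (hm : 0 < m) :
    {P : Place (IsLocalRing.ResidueField A)
        ↥(modularFunctionFieldFullC (IsLocalRing.ResidueField A) N) |
      (fun P => S19EQ_gb N A g • P)^[m] P = P}.Finite := by
  have h := S40FF_fix_inst N A hp hA hpN g hq hg m hm
  have e : ∀ P : Place (IsLocalRing.ResidueField A)
      ↥(modularFunctionFieldFullC (IsLocalRing.ResidueField A) N),
      (fun P => S19EQ_gb N A g • P)^[m] P = (S19EQ_gb N A g) ^ m • P := by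
    intro P
    rw [smul_iterate]
  simpa only [e] using h

/-- **the cusp is fixed**: the reduction of the cusp `∞` is fixed by `γ_g`, `g ∈ D_A`. -/
theorem S40FF_cusp_fixed (h : ReductionInputsModL A N) (hp : p.Prime) (hA : A.LiesOverPrime p)
    (hpN : ¬ p ∣ N) (g : A.decompositionSubgroup ℚ) :
    S19EQ_gb N A g • placeReductionModL h (S17EM_O N) = placeReductionModL h (S17EM_O N) := by
  rw [← S19GR_dec N A h hp hA hpN g, S17EM_smul_O]

/-- **(vi) + (iii)-instance**: for every point `y₀` of `J₀(N)` there is `g ∈ D_A` with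
`g • y₀ = y₀`, acting on the residue field as `x ↦ x ^ (p ^ n)`, `n > 0`; all positive powers of
`γ_g` have finitely many fixed places, and `γ_g` fixes the reduction of the cusp. -/
theorem S40FF_main (h : ReductionInputsModL A N) (hp : p.Prime) (hA : A.LiesOverPrime p)
    (hpN : ¬ p ∣ N) (y₀ : JZero N) :
    ∃ (g : A.decompositionSubgroup ℚ) (n : ℕ), 0 < n ∧
      (g : GQ) • y₀ = y₀ ∧
      (∀ x : IsLocalRing.ResidueField A, g • x = x ^ (p ^ n)) ∧
      (∀ m : ℕ, 0 < m →
        {P : Place (IsLocalRing.ResidueField A)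
            ↥(modularFunctionFieldFullC (IsLocalRing.ResidueField A) N) |
          (fun P => S19EQ_gb N A g • P)^[m] P = P}.Finite) ∧
      S19EQ_gb N A g • placeReductionModL h (S17EM_O N) = placeReductionModL h (S17EM_O N) := by
  obtain ⟨σ, hσ⟩ := S40FF_exists_frob p hp A hA
  obtain ⟨n, hn, hny⟩ := S40FF_exists_pow N y₀ σ
  set g₀ : A.decompositionSubgroup ℚ := ⟨σ, hσ.mem_decompositionSubgroup⟩ with hg₀
  have hg₀x : ∀ x : IsLocalRing.ResidueField A, g₀ • x = x ^ p := fun x => hσ.smul_residue_eq x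
  have hgx : ∀ x : IsLocalRing.ResidueField A, g₀ ^ n • x = x ^ (p ^ n) :=
    fun x => S40FF_pow_smul A g₀ hg₀x n x
  have hq : 1 < p ^ n := Nat.one_lt_pow (Nat.pos_iff_ne_zero.1 hn) hp.one_lt
  refine ⟨g₀ ^ n, n, hn, ?_, hgx, fun m hm => S40FF_fix_inst' N A hp hA hpN (g₀ ^ n) hq hgx m hm,
    S40FF_cusp_fixed N A h hp hA hpN (g₀ ^ n)⟩
  rw [Subgroup.coe_pow]
  exact hny

end inst2


end Fermat.Agent.S40
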