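import Mathlib
import Fermat.Agent.S40.FrobFix
import Fermat.Agent.S40.FinCls

/-!
# TRACK 13 (row 38), GEO-5 / G5c route 2: the Frobenius-fixed classes are finite (helper8).
Prefix `S40FF_` (continuation of `S40/FrobFix.lean`).

* `S40FF_fix_classes_abs` : ABSTRACT: for a semilinear automorphism `γ` of `F / K` (`RR_Hyp`) with a
  fixed place and finitely many fixed places of `γ ^ m` for every `m > 0`, the classes of `Pic⁰`
  fixed by `γ` are finite in number (`S40FC_finite` of helper27 for `π := (γ • ·)`).
* `S40FF_fix_classes` : the instance `γ = γ_g = S19EQ_gb N A g` on `JZeroC k N`, `g ∈ D_A` acting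
  on the residue field as a non-trivial power map.
* `S40FF_main_cls` : for every `y₀ ∈ J₀(N)` there is `g ∈ D_A` with `g • y₀ = y₀` and finitely
  many `γ_g`-fixed classes = hypothesis (iii) `hfin` of `S40R2_main` (with `hg`).
-/

set_option autoImplicit false
set_option synthInstance.maxHeartbeats 400000
set_option maxHeartbeats 1000000
set_option linter.unusedSectionVars false
set_option linter.unusedVariables false
set_option linter.style.haveILetI false

open HahnSeries IntermediateField AlgebraicCurve ModularCurve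

namespace Fermat.Agent.S40

open Fermat.Agent.S18 Fermat.Agent.Lib Fermat.Agent.GalRep Fermat.Agent.S17 Fermat.Agent.S19

local notation "ℚbar" => AlgebraicClosure ℚ
local notation "GQ" => (AlgebraicClosure ℚ ≃ₐ[ℚ] AlgebraicClosure ℚ)

section abs

variable {K F : Type*} [Field K] [Field F] [Algebra K F]

/-- **the classes fixed by a semilinear automorphism are finite** (abstract form). -/
theorem S40FF_fix_classes_abs (h : RR_Hyp K F) (γ : SemilinearAut K F) (P₀ : Place K F)
    (hP₀ : γ • P₀ = P₀)
    (hfix : ∀ m : ℕ, 0 < m → {P : Place K F | (fun P => γ • P)^[m] P = P}.Finite) :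
    {c : Pic0 K F | γ • c = c}.Finite := by
  have hfin := S40FC_finite h (fun P => γ • P) (MulAction.injective γ)
    (fun D hD => by
      have := SemilinearAut.smul_mem_principal γ hD
      rwa [SemilinearAut.divisor_smul_def] at this)
    P₀ hP₀ hfix
  refine Set.Finite.subset hfin ?_
  intro c hc
  simp only [Set.mem_ofPred_eq] at hc ⊢
  obtain ⟨D, rfl⟩ := Pic0.mk_surjective c
  refine ⟨D, rfl, ?_⟩
  rw [SemilinearAut.pic0_smul_mk] at hc
  have h1 : SemilinearAut.degZeroSMulHom γ D - D ∈
      (Divisor.principal (K := K) (F := F)).addSubgroupOf (Divisor.degZero (K := K) (F := F)) := by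
    have h2 := (QuotientAddGroup.eq (s := (Divisor.principal (K := K) (F := F)).addSubgroupOf
      (Divisor.degZero (K := K) (F := F)))).1 hc
    have h3 := AddSubgroup.neg_mem _ h2
    have e : -(-(SemilinearAut.degZeroSMulHom γ D) + D) = SemilinearAut.degZeroSMulHom γ D - D := by
      abel
    rwa [e] at h3
  rw [AddSubgroup.mem_addSubgroupOf] at h1
  have h4 : ((SemilinearAut.degZeroSMulHom γ D - D : Divisor.degZero (K := K) (F := F)) :
      Divisor K F) = Finsupp.mapDomain (fun P => γ • P) D.1 - D.1 := by
    rw [AddSubgroup.coe_sub, SemilinearAut.coe_degZeroSMulHom, SemilinearAut.divisor_smul_def]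
  rwa [h4] at h1

end abs

section inst

variable (N : ℕ) [NeZero N] (A : ValuationSubring (AlgebraicClosure ℚ)) {p : ℕ}

/-- **(iii)**: the classes of `JZeroC k N` fixed by `γ_g` are finite in number, for `g ∈ D_A`
acting on the residue field as a non-trivial power map. -/
theorem S40FF_fix_classes (h : ReductionInputsModL A N) (hp : p.Prime) (hA : A.LiesOverPrime p)
    (hpN : ¬ p ∣ N) (g : A.decompositionSubgroup ℚ) {q : ℕ} (hq : 1 < q)
    (hg : ∀ x : IsLocalRing.ResidueField A, g • x = x ^ q) :
    {c : JZeroC (IsLocalRing.ResidueField A) N | S19EQ_gb N A g • c = c}.Finite :=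
  S40FF_fix_classes_abs (S18_hk N A hp hA hpN) (S19EQ_gb N A g)
    (placeReductionModL h (S17EM_O N)) (S40FF_cusp_fixed N A h hp hA hpN g)
    (fun m hm => S40FF_fix_inst' N A hp hA hpN g hq hg m hm)

/-- **(vi) + (iii)**: for every point `y₀` of `J₀(N)` there is `g ∈ D_A` with `g • y₀ = y₀`
such that the classes of `JZeroC k N` fixed by `γ_g` are finite in number. -/
theorem S40FF_main_cls (h : ReductionInputsModL A N) (hp : p.Prime) (hA : A.LiesOverPrime p)
    (hpN : ¬ p ∣ N) (y₀ : JZero N) :
    ∃ g : A.decompositionSubgroup ℚ, (g : GQ) • y₀ = y₀ ∧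
      {c : JZeroC (IsLocalRing.ResidueField A) N | S19EQ_gb N A g • c = c}.Finite := by
  obtain ⟨g, n, hn, hgy, hgx, -, -⟩ := S40FF_main N A h hp hA hpN y₀
  exact ⟨g, hgy, S40FF_fix_classes N A h hp hA hpN g
    (Nat.one_lt_pow (Nat.pos_iff_ne_zero.1 hn) hp.one_lt) hgx⟩

end inst

end Fermat.Agent.S40
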