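import Mathlib
import Fermat.Agent.S33.Degen
import Fermat.Agent.S37.HeckeP
import Fermat.Agent.S18.RiDescNorm
import Fermat.Prelude.Def_ModularCurve_HeckeModule

/-!
# S40 (Mazur–Ribet at `p`, row 38), GEO-5 route 2, item (ii) (helper9): the Hecke operators
commute with `G_ℚ` on ALL classes of `J₀(N)(ℚ̄)`.  Prefix `S40GG_`.

Transport of structure for pull-back and push-forward of divisors along `φ : F → F'` which
commutes with semilinear automorphisms `g` of `F`, `g'` of `F'`.

* `S40GG_restrict_smul`, `S40GG_ram_smul` : `(g' w)|_F = g (w|_F)`, `e(g' w) = e(w)`;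
* `S40GG_pullback_smul`, `S40GG_pushforward_smul` : on divisors;
* `S40GG_pullHom_smul`, `S40GG_pushHom_smul` : on `Pic0`, for ALL classes;
* `S40GG_hecke_smul` : `heckeOperatorBar N ℓ (σ • y) = σ • heckeOperatorBar N ℓ y`, all `y`.
-/

set_option autoImplicit false
set_option linter.style.haveILetI false
set_option linter.unusedSectionVars false
set_option linter.unusedVariables false
set_option synthInstance.maxHeartbeats 400000
set_option maxHeartbeats 1000000

open AlgebraicCurve ModularCurve IntermediateField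
open scoped Pointwise

noncomputable section

namespace Fermat.Agent.S40

open Fermat.Agent.S17 Fermat.Agent.S18 Fermat.Agent.S19 Fermat.Agent.S24 Fermat.Agent.S35
  Fermat.Agent.S37 Fermat.Agent.GalRep Fermat.Agent.S33

section alg

variable {K F F' : Type*} [Field K] [Field F] [Field F'] [Algebra K F] [Algebra K F']
variable [Algebra F F'] [IsScalarTower K F F'] [Algebra.IsIntegral F F']
variable (g : SemilinearAut K F) (g' : SemilinearAut K F')

/-- the compatibility passes to the inverses. -/
theorem S40GG_inv (hg : ∀ f : F, algebraMap F F' (g • f) = g' • algebraMap F F' f) (f : F) :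
    algebraMap F F' (g⁻¹ • f) = g'⁻¹ • algebraMap F F' f := by
  have h := hg (g⁻¹ • f)
  rw [smul_inv_smul] at h
  rw [h, inv_smul_smul]

/-- `(g' w)|_F = g (w|_F)`. -/
theorem S40GG_restrict_smul (hg : ∀ f : F, algebraMap F F' (g • f) = g' • algebraMap F F' f)
    (w : Place K F') : (g' • w).restrict F = g • (w.restrict F) := by
  apply Place.ext
  ext f
  rw [Place.restrict_toValuationSubring, ValuationSubring.mem_comap,
    SemilinearAut.smul_toValuationSubring, SemilinearAut.smul_toValuationSubring,
    ValuationSubring.mem_pointwise_smul_iff_inv_smul_mem,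
    ValuationSubring.mem_pointwise_smul_iff_inv_smul_mem,
    Place.restrict_toValuationSubring, ValuationSubring.mem_comap,
    S40GG_inv g g' hg f]

/-- `e(g' w) = e(w)`. -/
theorem S40GG_ram_smul (hg : ∀ f : F, algebraMap F F' (g • f) = g' • algebraMap F F' f)
    (w : Place K F') : (g' • w).ramificationIndex F = w.ramificationIndex F := by
  obtain ⟨f, hf0, hf⟩ := w.exists_ord_eq_ramificationIndex (F := F)
  have hepos := w.ramificationIndex_pos (F := F)
  have h1 := w.ord_restrict (F := F) f
  have h2 := (g' • w).ord_restrict (F := F) (g • f)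
  rw [hg f, SemilinearAut.ord_smul, S40GG_restrict_smul g g' hg w,
    SemilinearAut.ord_smul] at h2
  rw [h1] at h2
  have hne : (w.restrict F).ord f ≠ 0 := by
    intro h0
    rw [h0, mul_zero] at h1
    rw [h1] at hf
    have : (0 : ℤ) < (w.ramificationIndex F : ℤ) := by exact_mod_cast hepos
    omega
  have h3 := mul_right_cancel₀ hne h2
  exact_mod_cast h3.symm

variable [HasPrincipalDivisors K F']

/-- pull-back of divisors commutes with the automorphisms. -/
theorem S40GG_pullback_smul (hg : ∀ f : F, algebraMap F F' (g • f) = g' • algebraMap F F' f)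
    (D : Divisor K F) : Divisor.pullback F' (g • D) = g' • Divisor.pullback F' D := by
  apply Finsupp.ext
  intro w
  have hg' : ∀ f : F, algebraMap F F' (g⁻¹ • f) = g'⁻¹ • algebraMap F F' f :=
    S40GG_inv g g' hg
  rw [Divisor.pullback_apply, SemilinearAut.divisor_smul_apply,
    SemilinearAut.divisor_smul_apply, Divisor.pullback_apply,
    S40GG_restrict_smul g⁻¹ g'⁻¹ hg' w, S40GG_ram_smul g⁻¹ g'⁻¹ hg' w]

/-- push-forward of divisors commutes with the automorphisms (inertia degrees one). -/
theorem S40GG_pushforward_smul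
    (hg : ∀ f : F, algebraMap F F' (g • f) = g' • algebraMap F F' f)
    (hdeg : ∀ w : Place K F', w.inertiaDeg F = 1)
    (D : Divisor K F') : Divisor.pushforward F (g' • D) = g • Divisor.pushforward F D := by
  induction D using Finsupp.induction with
  | zero => simp
  | single_add w n D _ _ ih =>
    rw [smul_add, map_add, map_add, smul_add, ih]
    congr 1
    rw [SemilinearAut.smul_single, Divisor.pushforward_single, Divisor.pushforward_single,
      SemilinearAut.smul_single, hdeg, hdeg, S40GG_restrict_smul g g' hg w]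

end alg

section along

variable {K F F' : Type*} [Field K] [Field F] [Field F'] [Algebra K F] [Algebra K F']
variable [HasPrincipalDivisors K F']
variable (φ ψ : F →ₐ[K] F') (hφ : φ.toRingHom.IsIntegral) (hψ : ψ.toRingHom.IsIntegral)
variable (g : SemilinearAut K F) (g' : SemilinearAut K F')

/-- pull-back along `φ` commutes with the automorphisms. -/
theorem S40GG_pullbackAlong_smul (hg : ∀ f : F, φ (g • f) = g' • φ f) (D : Divisor K F) :
    Divisor.pullbackAlong φ hφ (g • D) = g' • Divisor.pullbackAlong φ hφ D := by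
  letI := algebraAlong φ
  haveI := isScalarTower_along φ
  haveI := isIntegral_along φ hφ
  exact S40GG_pullback_smul g g' hg D

/-- push-forward along `ψ` commutes with the automorphisms (inertia degrees one). -/
theorem S40GG_pushforwardAlong_smul (hg : ∀ f : F, ψ (g • f) = g' • ψ f)
    (hdeg : ∀ w : Place K F', (letI := algebraAlong ψ; haveI := isScalarTower_along ψ;
      haveI := isIntegral_along ψ hψ; w.inertiaDeg F) = 1)
    (D : Divisor K F') :
    Divisor.pushforwardAlong ψ hψ (g' • D) = g • Divisor.pushforwardAlong ψ hψ D := by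
  letI := algebraAlong ψ
  haveI := isScalarTower_along ψ
  haveI := isIntegral_along ψ hψ
  exact S40GG_pushforward_smul g g' hg hdeg D

/-- **the correspondence `ψ_* φ^*` commutes with the automorphisms, on ALL classes.** -/
theorem S40GG_correspondence_smul (hFI : FundamentalIdentityAlong K φ hφ)
    (hfin : FiniteAlong K ψ) (hN : NormFormulaAlong K ψ hfin)
    (hgφ : ∀ f : F, φ (g • f) = g' • φ f) (hgψ : ∀ f : F, ψ (g • f) = g' • ψ f)
    (hdeg : ∀ w : Place K F', (letI := algebraAlong ψ; haveI := isScalarTower_along ψ;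
      haveI := isIntegral_along ψ hψ; w.inertiaDeg F) = 1)
    (x : Pic0 K F) :
    Pic0.correspondence φ ψ hφ hψ hFI hfin hN (g • x)
      = g • Pic0.correspondence φ ψ hφ hψ hFI hfin hN x := by
  obtain ⟨D, rfl⟩ := Pic0.mk_surjective x
  rw [SemilinearAut.pic0_smul_mk, Pic0.correspondence_mk, Pic0.correspondence_mk,
    SemilinearAut.pic0_smul_mk]
  refine congrArg Pic0.mk (Subtype.ext ?_)
  rw [Pic0.coe_degZeroCorrespondence, SemilinearAut.coe_degZeroSMulHom,
    SemilinearAut.coe_degZeroSMulHom, Pic0.coe_degZeroCorrespondence,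
    Divisor.correspondence_apply, Divisor.correspondence_apply,
    S40GG_pullbackAlong_smul φ hφ g g' hgφ, S40GG_pushforwardAlong_smul ψ hψ g g' hgψ hdeg]

/-- the push-forward `ψ_*` commutes with the automorphisms, on ALL classes. -/
theorem S40GG_push_smul (hfin : FiniteAlong K ψ) (hN : NormFormulaAlong K ψ hfin)
    (hgψ : ∀ f : F, ψ (g • f) = g' • ψ f)
    (hdeg : ∀ w : Place K F', (letI := algebraAlong ψ; haveI := isScalarTower_along ψ;
      haveI := isIntegral_along ψ hψ; w.inertiaDeg F) = 1)
    (x : Pic0 K F') :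
    S33DG_push ψ hψ hfin hN (g' • x) = g • S33DG_push ψ hψ hfin hN x := by
  letI := algebraAlong ψ
  haveI := isScalarTower_along ψ
  haveI := isIntegral_along ψ hψ
  haveI : Module.Finite F F' := hfin
  obtain ⟨D, rfl⟩ := Pic0.mk_surjective x
  rw [SemilinearAut.pic0_smul_mk]
  show Pic0.pushforwardHom K F F' hN (Pic0.mk _) = g • Pic0.pushforwardHom K F F' hN (Pic0.mk D)
  rw [Pic0.pushforwardHom_mk, Pic0.pushforwardHom_mk, SemilinearAut.pic0_smul_mk]
  refine congrArg Pic0.mk (Subtype.ext ?_)
  rw [Pic0.coe_pushforwardDegZeroHom, SemilinearAut.coe_degZeroSMulHom,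
    SemilinearAut.coe_degZeroSMulHom, Pic0.coe_pushforwardDegZeroHom]
  exact S40GG_pushforward_smul g g' hgψ hdeg (D : Divisor K F')

end along

section concrete

variable (N : ℕ) [NeZero N]

local notation "Kb" => AlgebraicClosure ℚ

/-- the inertia degrees along `α` are one. -/
theorem S40GG_deg_alpha (ℓ : ℕ) [NeZero ℓ]
    (w : Place Kb ↥(modularFunctionFieldBar (N * ℓ))) :
    (letI := algebraAlong (heckeAlphaBar Kb N ℓ);
      haveI := isScalarTower_along (heckeAlphaBar Kb N ℓ);
      haveI := isIntegral_along (heckeAlphaBar Kb N ℓ) (S37P_alpha_integral N ℓ);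
      w.inertiaDeg ↥(modularFunctionFieldBar N)) = 1 := by
  letI := algebraAlong (heckeAlphaBar Kb N ℓ)
  haveI := isScalarTower_along (heckeAlphaBar Kb N ℓ)
  haveI := isIntegral_along (heckeAlphaBar Kb N ℓ) (S37P_alpha_integral N ℓ)
  exact RID_inertiaDeg_eq_one (S37P_isFunctionField1 (N * ℓ)) w

/-- the inertia degrees along `β` are one. -/
theorem S40GG_deg_beta (ℓ : ℕ) [NeZero ℓ]
    (w : Place Kb ↥(modularFunctionFieldBar (N * ℓ))) :
    (letI := algebraAlong (heckeBetaBar Kb N ℓ);
      haveI := isScalarTower_along (heckeBetaBar Kb N ℓ);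
      haveI := isIntegral_along (heckeBetaBar Kb N ℓ) (S37P_beta_integral N ℓ);
      w.inertiaDeg ↥(modularFunctionFieldBar N)) = 1 := by
  letI := algebraAlong (heckeBetaBar Kb N ℓ)
  haveI := isScalarTower_along (heckeBetaBar Kb N ℓ)
  haveI := isIntegral_along (heckeBetaBar Kb N ℓ) (S37P_beta_integral N ℓ)
  exact RID_inertiaDeg_eq_one (S37P_isFunctionField1 (N * ℓ)) w

/-- **the Hecke operators commute with `G_ℚ` on ALL of `J₀(N)(ℚ̄)`.** -/
theorem S40GG_hecke_smul (ℓ : Nat.Primes) (σ : GQ) (y : JZero N) :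
    heckeOperatorBar N ℓ (σ • y) = σ • heckeOperatorBar N ℓ y := by
  haveI : NeZero (ℓ : ℕ) := ⟨ℓ.2.ne_zero⟩
  haveI := S18_hPD (N * (ℓ : ℕ))
  rw [heckeOperatorBar_apply, heckeOperatorBar_apply,
    heckeOperatorAlong_eq (S37P_alpha_integral N ℓ) (S37P_beta_integral N ℓ)
      (S37P_fundamentalIdentity_beta N ℓ) (S37P_finiteAlong_alpha N ℓ)
      (S37P_normFormula_alpha N ℓ)]
  exact S40GG_correspondence_smul (heckeBetaBar Kb N ℓ) (heckeAlphaBar Kb N ℓ)
    (S37P_beta_integral N ℓ) (S37P_alpha_integral N ℓ)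
    (arithmeticGalois (modularFunctionFieldFull N) σ)
    (arithmeticGalois (modularFunctionFieldFull (N * (ℓ : ℕ))) σ)
    (S37P_fundamentalIdentity_beta N ℓ) (S37P_finiteAlong_alpha N ℓ)
    (S37P_normFormula_alpha N ℓ) (S33DG_beta_gal N ℓ σ) (S33DG_alpha_gal N ℓ σ)
    (S40GG_deg_alpha N ℓ) y

/-- `α_* : J₀(M p) → J₀(M)` commutes with `G_ℚ` on ALL classes. -/
theorem S40GG_aJ_smul (M p : ℕ) [NeZero M] [NeZero p] (σ : GQ) (x : JZero (M * p)) :
    S33DG_aJ M p (σ • x) = σ • S33DG_aJ M p x := by
  haveI := S18_hPD (M * p)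
  exact S40GG_push_smul (heckeAlphaBar Kb M p) (S37P_alpha_integral M p)
    (arithmeticGalois (modularFunctionFieldFull M) σ)
    (arithmeticGalois (modularFunctionFieldFull (M * p)) σ)
    (S37P_finiteAlong_alpha M p) (S37P_normFormula_alpha M p) (S33DG_alpha_gal M p σ)
    (S40GG_deg_alpha M p) x

/-- `β_* : J₀(M p) → J₀(M)` commutes with `G_ℚ` on ALL classes. -/
theorem S40GG_bJ_smul (M p : ℕ) [NeZero M] [NeZero p] (σ : GQ) (x : JZero (M * p)) :
    S33DG_bJ M p (σ • x) = σ • S33DG_bJ M p x := by
  haveI := S18_hPD (M * p)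
  exact S40GG_push_smul (heckeBetaBar Kb M p) (S37P_beta_integral M p)
    (arithmeticGalois (modularFunctionFieldFull M) σ)
    (arithmeticGalois (modularFunctionFieldFull (M * p)) σ)
    (S37P_finiteAlong_beta M p) (S37P_normFormula_beta M p) (S33DG_beta_gal M p σ)
    (S40GG_deg_beta M p) x

end concrete

end Fermat.Agent.S40
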