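import Mathlib
import Fermat.Agent.S40.KappaHecke

/-!
# TRACK 13 (S40/S44), GEO-5 route 2, instance "`R = 0` on `parInt` ⇒ `R(T)` kills torsion"
(helper25) — prefix `S40KT_`

The Hecke operators `heckeOperatorBar N q` on `J₀(N)(ℚ̄)` are not known to commute, so polynomials
in them are handled through the **pair closure** `S40KT_Pair N n f g`: `f` an endomorphism of
`J₀(N)`, `g` an endomorphism of `parInt N`, built IN PARALLEL from the generators
`(heckeOperatorBar N q, GR_hT N q)` (`q ∤ N`, `q ∤ n`) by `0`, `1`, `+`, `-`, `c • ·`, `*`.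

* `S40KT_kappa` : `κ (f x) = g.baseChange (κ x)` on `J₀(N)[n^k]`  (`κ = S32Q_kappa N n k`);
* `S40KT_kill`  : `g = 0 ⇒ f x = 0` for every `x` with `n ^ k • x = 0`;
* `S40KT_eq`    : two words with the same `g` agree on `J₀(N)[n^k]`;
* `S40KT_indep` : `n ^ k • z = n ^ k • z'`, `g = 0` ⇒ `f z = f z'` (independence of the division);
* `S40KT_free`  : the pair of a noncommutative polynomial (`FreeAlgebra ℤ ι`) in good primes;
* `S40KT_free_kill` : `R : FreeAlgebra ℤ ι` with `R = 0` on `parInt N` kills `J₀(N)[n^k]`;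
* `S40KT_evL_eq` : the `parInt` side of a word is `GRD_heckeL` of its commutative image.
-/

set_option autoImplicit false
set_option maxHeartbeats 1600000
set_option synthInstance.maxHeartbeats 400000
set_option linter.unusedSectionVars false
set_option linter.unusedVariables false
set_option linter.style.haveILetI false

open ModularCurve AlgebraicCurve
open scoped TensorProduct

namespace Fermat.Agent.S40

open Fermat.Agent.GalRep Fermat.Agent.S32 Fermat.Agent.S17 Fermat.Agent.S18 Fermat.Agent.S37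
  Fermat.Agent.S19 Fermat.Agent.Lib Fermat.Agent.S16

/-- **the pair closure**: endomorphisms of `J₀(N)` and of `parInt N` built in parallel from the
Hecke operators at the primes `q ∤ N`, `q ∤ n`. -/
inductive S40KT_Pair (N : ℕ) [NeZero N] (n : ℕ) :
    Module.End ℤ (JZero N) → Module.End ℤ ↥(parInt N) → Prop
  | hecke (q : Nat.Primes) (hqN : ¬ (q : ℕ) ∣ N) (hqn : ¬ (q : ℕ) ∣ n) :
      S40KT_Pair N n (heckeOperatorBar N q) (GR_hT N (q : ℕ))
  | one : S40KT_Pair N n 1 1
  | zero : S40KT_Pair N n 0 0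
  | add {f f' : Module.End ℤ (JZero N)} {g g' : Module.End ℤ ↥(parInt N)} :
      S40KT_Pair N n f g → S40KT_Pair N n f' g' → S40KT_Pair N n (f + f') (g + g')
  | neg {f : Module.End ℤ (JZero N)} {g : Module.End ℤ ↥(parInt N)} :
      S40KT_Pair N n f g → S40KT_Pair N n (-f) (-g)
  | zsmul (c : ℤ) {f : Module.End ℤ (JZero N)} {g : Module.End ℤ ↥(parInt N)} :
      S40KT_Pair N n f g → S40KT_Pair N n (c • f) (c • g)
  | mul {f f' : Module.End ℤ (JZero N)} {g g' : Module.End ℤ ↥(parInt N)} :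
      S40KT_Pair N n f g → S40KT_Pair N n f' g' → S40KT_Pair N n (f * f') (g * g')

variable (N : ℕ) [NeZero N] (n k : ℕ) [NeZero (n ^ k)]

omit [NeZero (n ^ k)] in
/-- every endomorphism preserves `J₀(N)[n^k]`. -/
theorem S40KT_mem (f : Module.End ℤ (JZero N))
    (x : ↥(Submodule.torsionBy ℤ (JZero N) ((n : ℤ) ^ k))) :
    f (x : JZero N) ∈ Submodule.torsionBy ℤ (JZero N) ((n : ℤ) ^ k) := by
  have h := x.2
  rw [Submodule.mem_torsionBy_iff] at h ⊢
  rw [← map_zsmul, h, map_zero]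

omit [NeZero (n ^ k)] in
theorem S40KT_not_dvd_pow (q : Nat.Primes) (hqn : ¬ (q : ℕ) ∣ n) : ¬ (q : ℕ) ∣ n ^ k :=
  fun h => hqn (q.2.dvd_of_dvd_pow h)

/-- **the Kummer map intertwines the two sides of a pair**. -/
theorem S40KT_kappa {f : Module.End ℤ (JZero N)} {g : Module.End ℤ ↥(parInt N)}
    (hP : S40KT_Pair N n f g) :
    ∀ (x y : ↥(Submodule.torsionBy ℤ (JZero N) ((n : ℤ) ^ k))),
      (y : JZero N) = f (x : JZero N) →
      S32Q_kappa N n k y = g.baseChange (ZMod (n ^ k)) (S32Q_kappa N n k x) := by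
  induction hP with
  | hecke q hqN hqn =>
    intro x y hxy
    exact S40KH_kappa_hecke N n k q hqN (S40KT_not_dvd_pow n k q hqn) x y hxy
  | one =>
    intro x y hxy
    have : y = x := Subtype.ext hxy
    rw [this, Module.End.one_eq_id, LinearMap.baseChange_id, LinearMap.id_apply]
  | zero =>
    intro x y hxy
    have : y = 0 := Subtype.ext hxy
    rw [this, map_zero, LinearMap.baseChange_zero, LinearMap.zero_apply]
  | add h1 h2 ih1 ih2 =>
    rename_i f f' g g'
    intro x y hxy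
    have e : y = ⟨f x, S40KT_mem N n k f x⟩ + ⟨f' x, S40KT_mem N n k f' x⟩ :=
      Subtype.ext hxy
    rw [e, map_add, ih1 x ⟨f x, S40KT_mem N n k f x⟩ rfl,
      ih2 x ⟨f' x, S40KT_mem N n k f' x⟩ rfl, LinearMap.baseChange_add, LinearMap.add_apply]
  | neg h1 ih1 =>
    rename_i f g
    intro x y hxy
    have e : y = - ⟨f x, S40KT_mem N n k f x⟩ := Subtype.ext hxy
    rw [e, map_neg, ih1 x ⟨f x, S40KT_mem N n k f x⟩ rfl, LinearMap.baseChange_neg,
      LinearMap.neg_apply]
  | zsmul c h1 ih1 =>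
    rename_i f g
    intro x y hxy
    have e : y = c • ⟨f x, S40KT_mem N n k f x⟩ := Subtype.ext hxy
    rw [e, map_zsmul, ih1 x ⟨f x, S40KT_mem N n k f x⟩ rfl, LinearMap.baseChange_smul,
      LinearMap.smul_apply]
  | mul h1 h2 ih1 ih2 =>
    rename_i f f' g g'
    intro x y hxy
    have e : (y : JZero N) = f ((⟨f' x, S40KT_mem N n k f' x⟩ :
        ↥(Submodule.torsionBy ℤ (JZero N) ((n : ℤ) ^ k))) : JZero N) := hxy
    rw [ih1 ⟨f' x, S40KT_mem N n k f' x⟩ y e, ih2 x ⟨f' x, S40KT_mem N n k f' x⟩ rfl,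
      Module.End.mul_eq_comp, LinearMap.baseChange_comp, LinearMap.comp_apply]

omit [NeZero (n ^ k)] in
theorem S40KT_nsmul_mem (hnk : n ^ k ≠ 0) (x : JZero N) (hx : (n ^ k) • x = 0) :
    x ∈ Submodule.torsionBy ℤ (JZero N) ((n : ℤ) ^ k) := by
  rw [Submodule.mem_torsionBy_iff]
  have h : ((n : ℤ) ^ k) • x = ((n ^ k : ℕ) : ℤ) • x := by
    rw [Nat.cast_pow]
  rw [h, natCast_zsmul]
  exact hx

/-- **`g = 0` on `parInt N` ⇒ `f` kills `J₀(N)[n^k]`**. -/
theorem S40KT_kill {f : Module.End ℤ (JZero N)} {g : Module.End ℤ ↥(parInt N)}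
    (hP : S40KT_Pair N n f g) (hg : g = 0) (x : JZero N) (hx : (n ^ k) • x = 0) : f x = 0 := by
  have hnk : n ^ k ≠ 0 := NeZero.ne (n ^ k)
  let x' : ↥(Submodule.torsionBy ℤ (JZero N) ((n : ℤ) ^ k)) :=
    ⟨x, S40KT_nsmul_mem N n k hnk x hx⟩
  let y' : ↥(Submodule.torsionBy ℤ (JZero N) ((n : ℤ) ^ k)) := ⟨f x, S40KT_mem N n k f x'⟩
  have h := S40KT_kappa N n k hP x' y' rfl
  rw [hg, LinearMap.baseChange_zero, LinearMap.zero_apply] at h
  have h0 : S32Q_kappa N n k y' = S32Q_kappa N n k 0 := by rw [h, map_zero]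
  have := S40KI_kappa_injective N n k h0
  exact congrArg Subtype.val this

omit [NeZero (n ^ k)] in
theorem S40KT_sub {f f' : Module.End ℤ (JZero N)} {g g' : Module.End ℤ ↥(parInt N)}
    (h : S40KT_Pair N n f g) (h' : S40KT_Pair N n f' g') : S40KT_Pair N n (f - f') (g - g') := by
  rw [sub_eq_add_neg, sub_eq_add_neg]
  exact S40KT_Pair.add h (S40KT_Pair.neg h')

/-- two words with the same `parInt` side agree on `J₀(N)[n^k]`. -/
theorem S40KT_eq {f f' : Module.End ℤ (JZero N)} {g : Module.End ℤ ↥(parInt N)}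
    (h : S40KT_Pair N n f g) (h' : S40KT_Pair N n f' g) (x : JZero N)
    (hx : (n ^ k) • x = 0) : f x = f' x := by
  have := S40KT_kill N n k (S40KT_sub N n h h') (sub_self g) x hx
  rw [LinearMap.sub_apply] at this
  exact sub_eq_zero.1 this

/-- two words whose `parInt` sides commute, commute on `J₀(N)[n^k]`. -/
theorem S40KT_comm {f f' : Module.End ℤ (JZero N)} {g g' : Module.End ℤ ↥(parInt N)}
    (h : S40KT_Pair N n f g) (h' : S40KT_Pair N n f' g') (hc : g * g' = g' * g) (x : JZero N)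
    (hx : (n ^ k) • x = 0) : f (f' x) = f' (f x) := by
  have h1 : S40KT_Pair N n (f * f') (g * g') := S40KT_Pair.mul h h'
  have h2 : S40KT_Pair N n (f' * f) (g * g') := hc ▸ S40KT_Pair.mul h' h
  exact S40KT_eq N n k h1 h2 x hx

omit [NeZero N] [NeZero (n ^ k)] in
theorem S40KT_aux_sub {J : Type*} [AddCommGroup J] (m : ℕ) (z z' : J) (hz : m • z = m • z') :
    m • (z - z') = 0 := by
  rw [smul_sub, hz, sub_self]

/-- **independence of the division**: if `g = 0` then `f z` only depends on `n ^ k • z`. -/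
theorem S40KT_indep {f : Module.End ℤ (JZero N)} {g : Module.End ℤ ↥(parInt N)}
    (hP : S40KT_Pair N n f g) (hg : g = 0) (z z' : JZero N)
    (hz : (n ^ k) • z = (n ^ k) • z') : f z = f z' := by
  have h : (n ^ k) • (z - z') = 0 := S40KT_aux_sub (n ^ k) z z' hz
  have := S40KT_kill N n k hP hg (z - z') h
  rw [map_sub] at this
  exact sub_eq_zero.1 this

/-! ### noncommutative polynomials -/

section free

variable {ι : Type*} (q : ι → Nat.Primes)

/-- a noncommutative polynomial in the Hecke operators, on `J₀(N)`. -/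
noncomputable def S40KT_evJ : FreeAlgebra ℤ ι →ₐ[ℤ] Module.End ℤ (JZero N) :=
  FreeAlgebra.lift ℤ (fun i => heckeOperatorBar N (q i))

/-- a noncommutative polynomial in the Hecke operators, on `parInt N`. -/
noncomputable def S40KT_evL : FreeAlgebra ℤ ι →ₐ[ℤ] Module.End ℤ ↥(parInt N) :=
  FreeAlgebra.lift ℤ (fun i => GR_hT N ((q i : Nat.Primes) : ℕ))

/-- the commutative image of a noncommutative polynomial. -/
noncomputable def S40KT_ab : FreeAlgebra ℤ ι →ₐ[ℤ] ModularCurve.HeckeAlg :=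
  FreeAlgebra.lift ℤ (fun i => ModularCurve.heckeGen (q i))

theorem S40KT_evJ_ι (i : ι) : S40KT_evJ N q (FreeAlgebra.ι ℤ i) = heckeOperatorBar N (q i) := by
  rw [S40KT_evJ, FreeAlgebra.lift_ι_apply]

theorem S40KT_evL_ι (i : ι) :
    S40KT_evL N q (FreeAlgebra.ι ℤ i) = GR_hT N ((q i : Nat.Primes) : ℕ) := by
  rw [S40KT_evL, FreeAlgebra.lift_ι_apply]

omit [NeZero (n ^ k)] in
/-- **the pair of a noncommutative polynomial in good primes**. -/
theorem S40KT_free (hq : ∀ i, ¬ ((q i : Nat.Primes) : ℕ) ∣ N ∧ ¬ ((q i : Nat.Primes) : ℕ) ∣ n)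
    (R : FreeAlgebra ℤ ι) : S40KT_Pair N n (S40KT_evJ N q R) (S40KT_evL N q R) := by
  induction R using FreeAlgebra.induction with
  | grade0 r =>
    have e1 : S40KT_evJ N q (algebraMap ℤ (FreeAlgebra ℤ ι) r) = r • 1 := by
      rw [AlgHom.commutes, Algebra.algebraMap_eq_smul_one]
    have e2 : S40KT_evL N q (algebraMap ℤ (FreeAlgebra ℤ ι) r) = r • 1 := by
      rw [AlgHom.commutes, Algebra.algebraMap_eq_smul_one]
    rw [e1, e2]
    exact S40KT_Pair.zsmul r S40KT_Pair.one
  | grade1 i =>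
    rw [S40KT_evJ_ι, S40KT_evL_ι]
    exact S40KT_Pair.hecke (q i) (hq i).1 (hq i).2
  | mul a b ha hb =>
    rw [map_mul, map_mul]
    exact S40KT_Pair.mul ha hb
  | add a b ha hb =>
    rw [map_add, map_add]
    exact S40KT_Pair.add ha hb

/-- **a noncommutative polynomial in good primes that is `0` on `parInt N` kills
`J₀(N)[n^k]`**. -/
theorem S40KT_free_kill
    (hq : ∀ i, ¬ ((q i : Nat.Primes) : ℕ) ∣ N ∧ ¬ ((q i : Nat.Primes) : ℕ) ∣ n)
    (R : FreeAlgebra ℤ ι) (hR : S40KT_evL N q R = 0) (x : JZero N) (hx : (n ^ k) • x = 0) :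
    S40KT_evJ N q R x = 0 :=
  S40KT_kill N n k (S40KT_free N n q hq R) hR x hx

/-- the `parInt` side of a word is `GRD_heckeL` of its commutative image. -/
theorem S40KT_evL_eq (R : FreeAlgebra ℤ ι) :
    S40KT_evL N q R = GRD_heckeL N (S40KT_ab q R) := by
  induction R using FreeAlgebra.induction with
  | grade0 r =>
    rw [AlgHom.commutes, AlgHom.commutes, Algebra.algebraMap_eq_smul_one,
      Algebra.algebraMap_eq_smul_one, map_zsmul, map_one]
  | grade1 i =>
    rw [S40KT_evL_ι, S40KT_ab, FreeAlgebra.lift_ι_apply, GR_hT, dif_pos (q i).2]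
    rfl
  | mul a b ha hb => rw [map_mul, map_mul, map_mul, ha, hb]
  | add a b ha hb => rw [map_add, map_add, map_add, ha, hb]

/-- every commutative polynomial in the variables `q i` is the image of a word. -/
theorem S40KT_ab_surj (P : MvPolynomial ι ℤ) :
    ∃ R : FreeAlgebra ℤ ι, S40KT_ab q R = MvPolynomial.rename q P := by
  induction P using MvPolynomial.induction_on with
  | C a =>
    refine ⟨algebraMap ℤ _ a, ?_⟩
    rw [AlgHom.commutes, MvPolynomial.rename_C]
    rfl
  | add p p' hp hp' =>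
    obtain ⟨R, hR⟩ := hp
    obtain ⟨R', hR'⟩ := hp'
    exact ⟨R + R', by rw [map_add, map_add, hR, hR']⟩
  | mul_X p i hp =>
    obtain ⟨R, hR⟩ := hp
    refine ⟨R * FreeAlgebra.ι ℤ i, ?_⟩
    rw [map_mul, map_mul, hR, MvPolynomial.rename_X, S40KT_ab, FreeAlgebra.lift_ι_apply]
    rfl

end free

end Fermat.Agent.S40
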