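import Mathlib
import Fermat.Agent.S41.Dict
import Fermat.Agent.S49.CommonEigen
import Fermat.Agent.S40.Wire

/-!
# S40 (TRACK 13), package GEO-2 LIFT, algebra half (helper26).  Prefix `S40LA_`.

`B` a finite free `ℤ`-module with an action `ρ` of the polynomial Hecke ring `HeckeAlg` which factors
through the Hecke algebra of `S₂(Γ₀(M'))` (e.g. `B = parInt M'`, `ρ = GRD_heckeL M'`), `k` ANY field of
characteristic `p`.

* `S40LA_ext k K B : k ⊗ B → K ⊗ B` (scalar extension), injective for free `B`, semilinear,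
  commuting with base-changed endomorphisms.
* `S40LA_form_of_partial_eigvec` : a nonzero `y ∈ k ⊗ B` which is an eigenvector of the `X_ℓ`, `ℓ ∈ S`
  ONLY (eigenvalues `θ ℓ`), gives a normalised eigenform `g` of level `M'` and a maximal ideal
  `𝔪' ∋ p` of `ℤ̄` with `a_ℓ(g) ≡ c mod 𝔪'` whenever `ℓ ∈ S` and `θ ℓ = c ∈ ℤ`.
  (Common eigenvector over the algebraic closure + `S41F_form_of_eigvec`.)
* `S40LA_core_of_eigvec` : **GEO-2, algebra half**: a nonzero class `y ∈ k ⊗ parInt M'`, `M' ∣ M / p`,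
  with `T_ℓ y = a_ℓ(W) y` for the primes `ℓ ≠ p`, `ℓ ∤ M`, good for `W`, gives `S40W_Core W p M`.
-/

set_option autoImplicit false
set_option linter.style.haveILetI false
set_option linter.unusedSectionVars false
open scoped TensorProduct
open CuspForm ModularCurve CongruenceSubgroup ModularFormClass ModularCurve.Period

namespace Fermat.Agent.S40

open Fermat.Agent.S16 Fermat.Agent.GalRep Fermat.Agent.S41 Fermat.Agent.S49

section ext

variable (k K : Type*) [Field k] [Field K] [Algebra k K] (B : Type*) [AddCommGroup B]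

/-- the scalar extension `k ⊗ B → K ⊗ B`. -/
noncomputable def S40LA_ext : k ⊗[ℤ] B →ₗ[ℤ] K ⊗[ℤ] B :=
  LinearMap.rTensor B ((Algebra.linearMap k K).restrictScalars ℤ)

variable {k K B}

theorem S40LA_ext_tmul (a : k) (b : B) :
    S40LA_ext k K B (a ⊗ₜ[ℤ] b) = algebraMap k K a ⊗ₜ[ℤ] b := rfl

theorem S40LA_ext_injective [Module.Free ℤ B] : Function.Injective (S40LA_ext k K B) :=
  Module.Flat.rTensor_preserves_injective_linearMap _ (algebraMap k K).injective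

theorem S40LA_ext_smul (c : k) (y : k ⊗[ℤ] B) :
    S40LA_ext k K B (c • y) = algebraMap k K c • S40LA_ext k K B y := by
  induction y using TensorProduct.induction_on with
  | zero => simp
  | tmul a b =>
    rw [TensorProduct.smul_tmul', S40LA_ext_tmul, S40LA_ext_tmul, TensorProduct.smul_tmul',
      smul_eq_mul, smul_eq_mul, map_mul]
  | add x y hx hy => rw [smul_add, map_add, hx, hy, map_add, smul_add]

theorem S40LA_ext_baseChange (T : Module.End ℤ B) (y : k ⊗[ℤ] B) :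
    T.baseChange K (S40LA_ext k K B y) = S40LA_ext k K B (T.baseChange k y) := by
  induction y using TensorProduct.induction_on with
  | zero => simp
  | tmul a b =>
    rw [S40LA_ext_tmul, LinearMap.baseChange_tmul, LinearMap.baseChange_tmul, S40LA_ext_tmul]
  | add x y hx hy => rw [map_add, map_add, hx, hy, map_add, map_add]

end ext

/-- auxiliary form of `S40LA_form_of_partial_eigvec`, with an algebraically closed extension
`K` of `k` given. -/
theorem S40LA_form_of_partial_eigvec_aux (M : ℕ) [NeZero M] {B : Type*} [AddCommGroup B]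
    [Module.Free ℤ B] [Module.Finite ℤ B] (ρ : HeckeAlg →+* Module.End ℤ B)
    (hρ : ∀ P, heckeEvalForms M 2 P = 0 → ρ P = 0)
    (p : ℕ) [Fact p.Prime] {k K : Type*} [Field k] [Field K] [Algebra k K] [IsAlgClosed K]
    [CharP K p] (S : Set Nat.Primes)
    (θ : Nat.Primes → k) (y : k ⊗[ℤ] B) (hy : y ≠ 0)
    (hye : ∀ ℓ ∈ S, (ρ (heckeGen ℓ)).baseChange k y = θ ℓ • y) :
    ∃ (g : CuspForm (Gamma0 M) 2) (𝔪' : Ideal (integralClosure ℤ ℂ)),
      g.IsNormalizedEigenform ∧ 𝔪'.IsMaximal ∧ ((p : ℕ) : integralClosure ℤ ℂ) ∈ 𝔪' ∧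
      (∀ ℓ ∈ S, ∀ c : ℤ, θ ℓ = (c : k) →
        ∃ a : integralClosure ℤ ℂ, (a : ℂ) = qCoeff g (ℓ : ℕ) ∧
          a - (c : integralClosure ℤ ℂ) ∈ 𝔪') := by
  classical
  set y₁ : K ⊗[ℤ] B := S40LA_ext k K B y with hy₁
  have hy₁0 : y₁ ≠ 0 := fun h => hy (S40LA_ext_injective (by rw [← hy₁, h, map_zero]))
  have hy₁e : ∀ ℓ ∈ S, (ρ (heckeGen ℓ)).baseChange K y₁ = algebraMap k K (θ ℓ) • y₁ := by
    intro ℓ hℓ
    rw [hy₁, S40LA_ext_baseChange, hye ℓ hℓ, S40LA_ext_smul]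
  -- the commuting family and the stable subspace
  set fam : Set (Module.End K (K ⊗[ℤ] B)) :=
    Set.range fun P : HeckeAlg => (ρ P).baseChange K with hfam
  have hcomm : ∀ s ∈ fam, ∀ t ∈ fam, Commute s t := by
    rintro _ ⟨P, rfl⟩ _ ⟨Q, rfl⟩
    exact S41F_commute_baseChange ρ K P Q
  set E : Submodule K (K ⊗[ℤ] B) :=
    ⨅ ℓ : S, LinearMap.ker ((ρ (heckeGen (ℓ : Nat.Primes))).baseChange K
      - algebraMap k K (θ ℓ) • (1 : Module.End K (K ⊗[ℤ] B))) with hE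
  have hmemE : ∀ v : K ⊗[ℤ] B, v ∈ E ↔
      ∀ ℓ ∈ S, (ρ (heckeGen ℓ)).baseChange K v = algebraMap k K (θ ℓ) • v := by
    intro v
    simp only [hE, Submodule.mem_iInf, LinearMap.mem_ker, LinearMap.sub_apply,
      LinearMap.smul_apply, Module.End.one_apply, sub_eq_zero, Subtype.forall]
  have hEne : E ≠ ⊥ := by
    intro h
    have : y₁ ∈ E := (hmemE y₁).2 hy₁e
    rw [h, Submodule.mem_bot] at this
    exact hy₁0 this
  have hstab : ∀ s ∈ fam, ∀ w ∈ E, s w ∈ E := by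
    rintro _ ⟨P, rfl⟩ w hw
    change (ρ P).baseChange K w ∈ E
    refine (hmemE _).2 fun ℓ hℓ => ?_
    have hc := congrArg (fun f : Module.End K (K ⊗[ℤ] B) => f w)
      (S41F_commute_baseChange ρ K (heckeGen ℓ) P).eq
    simp only [Module.End.mul_apply] at hc
    rw [hc, (hmemE w).1 hw ℓ hℓ, map_smul]
  obtain ⟨v, hvE, hv0, hv⟩ :=
    S49_exists_common_eigenvector fam hcomm (Module.finrank K E) E rfl hEne hstab
  -- the eigenvalues at the generators
  have hgen' : ∀ ℓ : Nat.Primes, ∃ μ : K, (ρ (heckeGen ℓ)).baseChange K v = μ • v :=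
    fun ℓ => hv _ ⟨heckeGen ℓ, rfl⟩
  choose μ hμ using hgen'
  have hμS : ∀ ℓ ∈ S, μ ℓ = algebraMap k K (θ ℓ) := by
    intro ℓ hℓ
    have h1 := (hmemE v).1 hvE ℓ hℓ
    rw [hμ ℓ] at h1
    exact smul_left_injective K hv0 h1
  set θ' : HeckeAlg →+* K := (MvPolynomial.aeval μ).toRingHom with hθ'
  have hθ'X : ∀ ℓ : Nat.Primes, θ' (heckeGen ℓ) = μ ℓ := fun ℓ => MvPolynomial.aeval_X _ ℓ
  have hall : ∀ P : HeckeAlg, (ρ P).baseChange K v = θ' P • v := by
    intro P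
    induction P using MvPolynomial.induction_on with
    | C z =>
      rw [show (MvPolynomial.C z : HeckeAlg) = (z : HeckeAlg) from eq_intCast _ z, map_intCast,
        map_intCast]
      have : ((z : Module.End ℤ B)).baseChange K = (z : Module.End K (K ⊗[ℤ] B)) := by
        have := map_intCast (Module.End.baseChangeHom ℤ K B) z
        exact this
      rw [this, Module.End.intCast_apply, Int.cast_smul_eq_zsmul]
    | add P Q hP hQ =>
      rw [map_add, LinearMap.baseChange_add, LinearMap.add_apply, hP, hQ, map_add, add_smul]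
    | mul_X P ℓ hP =>
      rw [map_mul, LinearMap.baseChange_mul, Module.End.mul_apply,
        show (MvPolynomial.X ℓ : HeckeAlg) = heckeGen ℓ from rfl, hμ ℓ, map_smul, hP, map_mul,
        hθ'X, smul_smul, mul_comm]
  obtain ⟨g, 𝔪', lam, hnorm, hmax, hp, hcoef, -, hlamθ⟩ :=
    S41F_form_of_eigvec M ρ hρ p θ' v hv0 hall
  refine ⟨g, 𝔪', hnorm, hmax, hp, fun ℓ hℓ c hc => ⟨lam (heckeGen ℓ), hcoef ℓ, ?_⟩⟩
  have h0 : θ' (heckeGen ℓ - (c : HeckeAlg)) = 0 := by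
    rw [map_sub, hθ'X, hμS ℓ hℓ, map_intCast, hc, map_intCast, sub_self]
  have := hlamθ _ h0
  rwa [map_sub, map_intCast] at this

/-- **partial eigenvector ⇒ eigenform**. -/
theorem S40LA_form_of_partial_eigvec (M : ℕ) [NeZero M] {B : Type*} [AddCommGroup B]
    [Module.Free ℤ B] [Module.Finite ℤ B] (ρ : HeckeAlg →+* Module.End ℤ B)
    (hρ : ∀ P, heckeEvalForms M 2 P = 0 → ρ P = 0)
    (p : ℕ) [Fact p.Prime] {k : Type*} [Field k] [CharP k p] (S : Set Nat.Primes)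
    (θ : Nat.Primes → k) (y : k ⊗[ℤ] B) (hy : y ≠ 0)
    (hye : ∀ ℓ ∈ S, (ρ (heckeGen ℓ)).baseChange k y = θ ℓ • y) :
    ∃ (g : CuspForm (Gamma0 M) 2) (𝔪' : Ideal (integralClosure ℤ ℂ)),
      g.IsNormalizedEigenform ∧ 𝔪'.IsMaximal ∧ ((p : ℕ) : integralClosure ℤ ℂ) ∈ 𝔪' ∧
      (∀ ℓ ∈ S, ∀ c : ℤ, θ ℓ = (c : k) →
        ∃ a : integralClosure ℤ ℂ, (a : ℂ) = qCoeff g (ℓ : ℕ) ∧
          a - (c : integralClosure ℤ ℂ) ∈ 𝔪') := by
  haveI : CharP (AlgebraicClosure k) p :=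
    charP_of_injective_algebraMap (algebraMap k (AlgebraicClosure k)).injective p
  exact S40LA_form_of_partial_eigvec_aux M ρ hρ p (K := AlgebraicClosure k) S θ y hy hye

/-- **GEO-2 LIFT, algebra half**: a nonzero class in `k ⊗ parInt M'` (`M' ∣ M / p`, `k` any field
of characteristic `p`) on which `T_ℓ` acts by `a_ℓ(W)` for all primes `ℓ ≠ p`, `ℓ ∤ M`, good for `W`,
gives the core `S40W_Core W p M`. -/
theorem S40LA_core_of_eigvec (W : WeierstrassCurve ℤ) (p M M' : ℕ) [Fact p.Prime] [NeZero M']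
    (hM' : M' ∣ M / p) {k : Type*} [Field k] [CharP k p]
    (y : k ⊗[ℤ] ↥(parInt M')) (hy : y ≠ 0)
    (hye : ∀ ℓ : Nat.Primes, W.IsGoodPrimeFor ℓ → ¬ (ℓ : ℕ) ∣ M → (ℓ : ℕ) ≠ p →
      (GRD_heckeL M' (heckeGen ℓ)).baseChange k y = ((W.apOfModel ℓ : ℤ) : k) • y) :
    S40W_Core W p M := by
  haveI := finite_parInt M'
  haveI := free_parInt M'
  obtain ⟨g, 𝔪', hg, hmax, hp, hcong⟩ :=
    S40LA_form_of_partial_eigvec M' (GRD_heckeL M')
      (fun P h => (S41F_heckeL_eq_zero_iff M' P).mpr h) p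
      {ℓ : Nat.Primes | W.IsGoodPrimeFor ℓ ∧ ¬ (ℓ : ℕ) ∣ M ∧ (ℓ : ℕ) ≠ p}
      (fun ℓ => ((W.apOfModel ℓ : ℤ) : k)) y hy
      (fun ℓ hℓ => hye ℓ hℓ.1 hℓ.2.1 hℓ.2.2)
  refine ⟨M', hM', g, 𝔪', hg, hmax, hp, fun ℓ hℓ hgood hℓM hℓp => ?_⟩
  exact hcong ⟨ℓ, hℓ⟩ ⟨hgood, hℓM, hℓp⟩ (W.apOfModel ℓ) rfl

end Fermat.Agent.S40
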