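import Mathlib

/-!
# TRACK 13 (row 38), GEO-5 / G5c, ROUTE 2: the ABSTRACT WIRE (helper19).  Prefix `S40R2_`.  Mathlib only.

Route 2 (helper4, helper6, helper9, helper27) replaces the lifting of `p`-torsion classes from the
special fibre by an ALGEBRAICITY argument.  Abstractly:

* `J` (think `J₀(M')(ℚ̄)`) is `p`-divisible, `red : J →+ Jb` (think `J₀(M')(k̄)`) is additive;
* `T i : J →+ J`, `Tb i : Jb →+ Jb` (Hecke operators; NOT assumed to commute) with
  `red ∘ T i = Tb i ∘ red`                                                     [(i) = G5b];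
* `g : J →+ J` (the action of ONE Frobenius lift) commutes with every `T i`        [(ii)],
  `red ∘ g = γ ∘ red`, and the set of `γ`-fixed elements of `Jb` is FINITE           [(iii)];
* `ρ : ℤ[X_i] →+* End_ℤ L` (think `L = parInt`, commuting Hecke operators) and every `x ∈ J` with
  `p ^ K • x = 0` is `κ l` for an additive `κ : L →+ J` with `T i ∘ κ = κ ∘ ρ X_i`   [kappa];
* `y₀ ∈ J` with `g y₀ = y₀`, `c := red y₀ ≠ 0`, `p • c = 0`, `Tb i c = a i • c`.

Then (`S40R2_main`) every polynomial `P` with `ρ P = 0` has `p ∣ P(a)`: the character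
`X_i ↦ a i mod p` kills the annihilator of `L`, which is the hypothesis `hθ` of
`S41F_exists_eigvec` (on main).  No torsion lift is used.

* `S40R2_core`  : the core for ONE endomorphism `E` of `J` killing the `p`-power torsion;
* `S40R2_ev`    : evaluation of a NON-commutative polynomial (element of `FreeAlgebra ℤ ι`) at a
  family of endomorphisms; `S40R2_ev_intertwine`, `S40R2_ev_eigen`, `S40R2_ev_comm`,
  `S40R2_ab_surjective`;
* `S40R2_main`  : the wire.
-/

set_option autoImplicit false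

namespace Fermat.Agent.S40

section core

variable {J Jb : Type*} [AddCommGroup J] [AddCommGroup Jb]

/-- **The core of route 2** for one endomorphism `E` of `J`: if `J` is `p`-divisible, `E` kills
the `p`-power torsion and commutes with `g`, `red` intertwines `E` with `Eb` and `g` with `γ`,
the `γ`-fixed elements of `Jb` are finitely many, `g y₀ = y₀` and `p • red y₀ = 0`, then
`Eb (red y₀) = 0`. -/
theorem S40R2_core (p : ℕ) (red : J →+ Jb) (E g : J →+ J) (Eb : Jb →+ Jb) (γ : Jb → Jb)
    (hdiv : ∀ y : J, ∃ z : J, p • z = y)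
    (hredE : ∀ y, red (E y) = Eb (red y))
    (hredg : ∀ y, red (g y) = γ (red y))
    (hgE : ∀ y, E (g y) = g (E y))
    (htors : ∀ (K : ℕ) (x : J), p ^ K • x = 0 → E x = 0)
    (hfin : {c : Jb | γ c = c}.Finite)
    (y₀ : J) (hg : g y₀ = y₀) (hpc : p • red y₀ = 0) :
    Eb (red y₀) = 0 := by
  classical
  choose r hr using hdiv
  let z : ℕ → J := fun k => Nat.rec y₀ (fun _ x => r x) k
  have hz0 : z 0 = y₀ := rfl
  have hzs : ∀ k, p • z (k + 1) = z k := fun k => hr (z k)
  have hzp : ∀ k, p ^ k • z k = y₀ := by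
    intro k
    induction k with
    | zero => simp [hz0]
    | succ k ih => rw [pow_succ, mul_smul, hzs, ih]
  have hfix : ∀ k, g (E (z k)) = E (z k) := by
    intro k
    have h1 : p ^ k • (g (z k) - z k) = 0 := by
      rw [smul_sub, ← map_nsmul, hzp, hg, sub_self]
    have h2 := htors k _ h1
    rw [map_sub, sub_eq_zero] at h2
    rw [← hgE, h2]
  let φ : ℕ → Jb := fun k => red (E (z k))
  have hφmem : ∀ k, φ k ∈ {c : Jb | γ c = c} := by
    intro k
    show γ (red (E (z k))) = red (E (z k))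
    rw [← hredg, hfix]
  have hφs : ∀ k, p • φ (k + 1) = φ k := by
    intro k
    show p • red (E (z (k + 1))) = red (E (z k))
    rw [← map_nsmul, ← map_nsmul, hzs]
  have hφp : ∀ d k, p ^ d • φ (k + d) = φ k := by
    intro d
    induction d with
    | zero => intro k; simp
    | succ d ih =>
      intro k
      rw [pow_succ, mul_smul, ← add_assoc, hφs, ih]
  have hφ0 : φ 0 = Eb (red y₀) := by
    show red (E (z 0)) = _
    rw [hz0, hredE]
  have hpφ0 : p • φ 0 = 0 := by
    rw [hφ0, ← map_nsmul, hpc, map_zero]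
  by_contra hne
  have hne' : φ 0 ≠ 0 := by rwa [hφ0]
  -- `φ 0 = φ (d + 1)` is impossible
  have hkey : ∀ d, φ 0 ≠ φ (d + 1) := by
    intro d h
    have h1 : p ^ (d + 1) • φ (0 + (d + 1)) = φ 0 := hφp (d + 1) 0
    rw [Nat.zero_add, ← h, pow_succ, mul_smul, hpφ0, smul_zero] at h1
    exact hne' h1.symm
  have hlt : ∀ i j, i < j → φ i ≠ φ j := by
    intro i j hij h
    obtain ⟨d, rfl⟩ := Nat.exists_eq_add_of_lt hij
    have h1 : p ^ i • φ (0 + i) = φ 0 := hφp i 0
    have h2 : p ^ i • φ ((d + 1) + i) = φ (d + 1) := hφp i (d + 1)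
    rw [Nat.zero_add] at h1
    have h3 : i + d + 1 = (d + 1) + i := by omega
    rw [h3] at h
    rw [← h, h1] at h2
    exact hkey d h2
  have hinj : Function.Injective φ := by
    intro i j hij
    by_contra hne_ij
    rcases Nat.lt_or_gt_of_ne hne_ij with h | h
    · exact hlt i j h hij
    · exact hlt j i h hij.symm
  exact (Set.infinite_of_injective_forall_mem hinj hφmem) hfin

end core

section words

variable {ι : Type*} {X Y : Type*} [AddCommGroup X] [AddCommGroup Y]

/-- evaluation of a NON-commutative integer polynomial at a family of endomorphisms. -/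
noncomputable def S40R2_ev (T : ι → Module.End ℤ X) : FreeAlgebra ℤ ι →ₐ[ℤ] Module.End ℤ X :=
  FreeAlgebra.lift ℤ T

@[simp] theorem S40R2_ev_ι (T : ι → Module.End ℤ X) (i : ι) :
    S40R2_ev T (FreeAlgebra.ι ℤ i) = T i := by
  simp [S40R2_ev]

/-- the abelianisation `ℤ⟨X_i⟩ → ℤ[X_i]`. -/
noncomputable def S40R2_ab (ι : Type*) : FreeAlgebra ℤ ι →ₐ[ℤ] MvPolynomial ι ℤ :=
  FreeAlgebra.lift ℤ (MvPolynomial.X : ι → MvPolynomial ι ℤ)

@[simp] theorem S40R2_ab_ι (i : ι) : S40R2_ab ι (FreeAlgebra.ι ℤ i) = MvPolynomial.X i := by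
  simp [S40R2_ab]

theorem S40R2_ab_surjective (P : MvPolynomial ι ℤ) : ∃ w : FreeAlgebra ℤ ι, S40R2_ab ι w = P := by
  induction P using MvPolynomial.induction_on with
  | C a => exact ⟨algebraMap ℤ _ a, by simp⟩
  | add P Q hP hQ =>
    obtain ⟨u, rfl⟩ := hP
    obtain ⟨v, rfl⟩ := hQ
    exact ⟨u + v, map_add _ _ _⟩
  | mul_X P i hP =>
    obtain ⟨u, rfl⟩ := hP
    exact ⟨u * FreeAlgebra.ι ℤ i, by simp⟩

/-- an additive map intertwining the generators intertwines every word. -/
theorem S40R2_ev_intertwine (T : ι → Module.End ℤ X) (S : ι → Module.End ℤ Y) (f : X →+ Y)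
    (h : ∀ i x, f (T i x) = S i (f x)) (w : FreeAlgebra ℤ ι) :
    ∀ x : X, f (S40R2_ev T w x) = S40R2_ev S w (f x) := by
  induction w using FreeAlgebra.induction with
  | grade0 r =>
    intro x
    simp
  | grade1 i =>
    intro x
    simp [h]
  | mul a b ha hb =>
    intro x
    simp only [map_mul, Module.End.mul_apply]
    rw [ha, hb]
  | add a b ha hb =>
    intro x
    simp only [map_add, LinearMap.add_apply]
    rw [ha, hb]

/-- on a simultaneous eigenvector every word acts through the commutative evaluation. -/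
theorem S40R2_ev_eigen (S : ι → Module.End ℤ Y) (a : ι → ℤ) (c : Y)
    (h : ∀ i, S i c = a i • c) (w : FreeAlgebra ℤ ι) :
    S40R2_ev S w c = MvPolynomial.eval a (S40R2_ab ι w) • c := by
  induction w using FreeAlgebra.induction with
  | grade0 r =>
    simp
  | grade1 i =>
    simp [h]
  | mul u v hu hv =>
    simp only [map_mul, Module.End.mul_apply]
    rw [hv, map_zsmul, hu, smul_smul, mul_comm]
  | add u v hu hv =>
    simp only [map_add, LinearMap.add_apply]
    rw [hu, hv, add_smul]

/-- for a commutative action `ρ` the evaluation of a word is `ρ` of its abelianisation. -/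
theorem S40R2_ev_comm (ρ : MvPolynomial ι ℤ →+* Module.End ℤ Y) (w : FreeAlgebra ℤ ι) :
    S40R2_ev (fun i => ρ (MvPolynomial.X i)) w = ρ (S40R2_ab ι w) := by
  induction w using FreeAlgebra.induction with
  | grade0 r =>
    simp
  | grade1 i =>
    simp
  | mul u v hu hv =>
    simp only [map_mul]
    rw [hu, hv]
  | add u v hu hv =>
    simp only [map_add]
    rw [hu, hv]

end words

section main

variable {ι J Jb L : Type*} [AddCommGroup J] [AddCommGroup Jb] [AddCommGroup L]

/-- **Route 2, the wire.**  See the header.  The conclusion is the hypothesis `hθ` of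
`S41F_exists_eigvec` for the character `P ↦ P(a) mod p`. -/
theorem S40R2_main (p : ℕ) (hp : p.Prime) (a : ι → ℤ)
    (T : ι → J →+ J) (Tb : ι → Jb →+ Jb) (ρ : MvPolynomial ι ℤ →+* Module.End ℤ L)
    (red : J →+ Jb) (g : J →+ J) (γ : Jb → Jb)
    (hdiv : ∀ y : J, ∃ z : J, p • z = y)
    (hredT : ∀ i y, red (T i y) = Tb i (red y))
    (hgT : ∀ i y, g (T i y) = T i (g y))
    (hredg : ∀ y, red (g y) = γ (red y))
    (hfin : {c : Jb | γ c = c}.Finite)
    (hκ : ∀ (K : ℕ) (x : J), p ^ K • x = 0 → ∃ (κ : L →+ J) (l : L), κ l = x ∧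
      ∀ i l', κ (ρ (MvPolynomial.X i) l') = T i (κ l'))
    (y₀ : J) (hg : g y₀ = y₀) (hpc : p • red y₀ = 0) (hc0 : red y₀ ≠ 0)
    (heig : ∀ i, Tb i (red y₀) = a i • red y₀) :
    ∀ P : MvPolynomial ι ℤ, ρ P = 0 → (p : ℤ) ∣ MvPolynomial.eval a P := by
  intro P hP
  obtain ⟨w, rfl⟩ := S40R2_ab_surjective P
  set TL : ι → Module.End ℤ J := fun i => (T i).toIntLinearMap with hTL
  set TbL : ι → Module.End ℤ Jb := fun i => (Tb i).toIntLinearMap with hTbL
  set E : J →+ J := (S40R2_ev TL w).toAddMonoidHom with hE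
  set Eb : Jb →+ Jb := (S40R2_ev TbL w).toAddMonoidHom with hEb
  have hredE : ∀ y, red (E y) = Eb (red y) := fun y =>
    S40R2_ev_intertwine TL TbL red (fun i x => hredT i x) w y
  have hgE : ∀ y, E (g y) = g (E y) := fun y =>
    (S40R2_ev_intertwine TL TL g (fun i x => hgT i x) w y).symm
  have htors : ∀ (K : ℕ) (x : J), p ^ K • x = 0 → E x = 0 := by
    intro K x hx
    obtain ⟨κ, l, rfl, hκT⟩ := hκ K x hx
    have h1 := S40R2_ev_intertwine (fun i => ρ (MvPolynomial.X i)) TL κ
      (fun i l' => hκT i l') w l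
    have h2 : S40R2_ev (fun i => ρ (MvPolynomial.X i)) w = 0 := by
      rw [S40R2_ev_comm, hP]
    rw [h2, LinearMap.zero_apply, map_zero] at h1
    exact h1.symm
  have h0 : Eb (red y₀) = 0 :=
    S40R2_core p red E g Eb γ hdiv hredE hredg hgE htors hfin y₀ hg hpc
  have h1 : Eb (red y₀) = MvPolynomial.eval a (S40R2_ab ι w) • red y₀ :=
    S40R2_ev_eigen TbL a (red y₀) (fun i => heig i) w
  rw [h0] at h1
  by_contra hnd
  have hcop : IsCoprime (p : ℤ) (MvPolynomial.eval a (S40R2_ab ι w)) :=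
    (Nat.prime_iff_prime_int.mp hp).coprime_iff_not_dvd.mpr hnd
  obtain ⟨u, v, huv⟩ := hcop
  apply hc0
  have h2 : ((u * (p : ℤ) + v * MvPolynomial.eval a (S40R2_ab ι w)) : ℤ) • red y₀ = 0 := by
    rw [add_smul, mul_smul, mul_smul, ← h1, smul_zero, add_zero, Nat.cast_smul_eq_nsmul ℤ,
      hpc, smul_zero]
  rwa [huv, one_smul] at h2

end main

end Fermat.Agent.S40
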