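import Mathlib
import Fermat.Agent.S40.R2Abs
import Fermat.Agent.S40.KappaTors
import Fermat.Agent.S40.G5Gal
import Fermat.Agent.S40.FinInst
import Fermat.Agent.S40.FrobFixCls
import Fermat.Agent.S40.LiftAlg
import Fermat.Agent.S17.DivMain
import Fermat.Agent.S41.DictAlg

/-!
# TRACK 13 (row 38), GEO-5 / G5c, ROUTE 2: the CONCRETE WIRE (helper9).  Prefix `S40R2I_`.

The abstract wire `S40R2_core` (helper19, S40/R2Abs.lean) at `J = J₀(N)(ℚ̄)`, `L = parInt N`,
with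

* `hdiv`  : `S17DIV_main` (divisibility of `J₀(N)(ℚ̄)`);
* `hgT`   : `S40GG_hecke_smul` (the Hecke operators commute with the Galois action, helper9);
* `htors` : `S40KT_free_kill` (a word in the Hecke operators that is `0` on `parInt N` kills the
  `p`-power torsion, helper25);
* `hredg` : `S40FI_red_smul` (helper4);  `hg`, `hfin` : `S40FF_main_cls` (helper8);
* conclusion through `S41F_exists_eigvec` and `S40LA_core_of_eigvec` (helper26).

What REMAINS as a hypothesis: the Hecke operators `Tb ℓ` on the special fibre with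
`red ∘ T_ℓ = Tb ℓ ∘ red` (item (i)) and the class `y₀` whose reduction is a nonzero `p`-torsion
eigenclass with the eigenvalues `a_ℓ` (item (iv)).

* `S40R2I_dvd`  : for every word `w` with `evL w = 0` : `p ∣ w(a)`;
* `S40R2I_coh`  : a nonzero eigenvector in `k ⊗ parInt N` (general `Jb`, `red`, `g`);
* `S40R2I_main` : the same at `red = reductionModL A N`, `A` over `p ∤ N`;
* `S40R2I_core` : `S40W_Core W p M` from the data at a level `M' ∣ M / p`, `p ∤ M'`.
-/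

set_option autoImplicit false
set_option linter.unusedSectionVars false
set_option linter.unusedVariables false
set_option linter.style.haveILetI false

open ModularCurve AlgebraicCurve
open scoped TensorProduct

namespace Fermat.Agent.S40

open Fermat.Agent.GalRep Fermat.Agent.S32 Fermat.Agent.S17 Fermat.Agent.S18 Fermat.Agent.S19
  Fermat.Agent.S16 Fermat.Agent.S41

section proj

variable (G : Set Nat.Primes)

open Classical in
/-- the projection of the Hecke ring onto the polynomial ring in the variables of `G`. -/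
noncomputable def S40R2I_pi : HeckeAlg →+* MvPolynomial G ℤ :=
  MvPolynomial.eval₂Hom MvPolynomial.C
    (fun ℓ : Nat.Primes => if h : ℓ ∈ G then MvPolynomial.X (⟨ℓ, h⟩ : G) else 0)

theorem S40R2I_pi_gen (ℓ : Nat.Primes) (h : ℓ ∈ G) :
    S40R2I_pi G (heckeGen ℓ) = MvPolynomial.X (⟨ℓ, h⟩ : G) := by
  classical
  rw [S40R2I_pi, heckeGen, MvPolynomial.coe_eval₂Hom, MvPolynomial.eval₂_X, dif_pos h]

/-- the commutative image of a word, in the variables of `G` and in all variables. -/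
theorem S40R2I_ab (w : FreeAlgebra ℤ G) :
    MvPolynomial.rename (Subtype.val : G → Nat.Primes) (S40R2_ab G w)
      = S40KT_ab (Subtype.val : G → Nat.Primes) w := by
  induction w using FreeAlgebra.induction with
  | grade0 r =>
    rw [AlgHom.commutes, AlgHom.commutes, AlgHom.commutes]
  | grade1 i =>
    rw [S40R2_ab_ι, MvPolynomial.rename_X, S40KT_ab, FreeAlgebra.lift_ι_apply]
    rfl
  | mul a b ha hb => rw [map_mul, map_mul, map_mul, ha, hb]
  | add a b ha hb => rw [map_add, map_add, map_add, ha, hb]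

end proj

section abs

variable (N : ℕ) [NeZero N] (p : ℕ) [hp : Fact p.Prime] (G : Set Nat.Primes)
variable {Jb : Type*} [AddCommGroup Jb]

/-- **route 2, concrete core**: a word in the Hecke operators at the primes of `G` which is `0`
on `parInt N` has value divisible by `p` at the eigenvalues `a`. -/
theorem S40R2I_dvd (hG : ∀ ℓ ∈ G, ¬ ((ℓ : Nat.Primes) : ℕ) ∣ N ∧ ((ℓ : Nat.Primes) : ℕ) ≠ p)
    (a : Nat.Primes → ℤ) (red : JZero N →+ Jb) (Tb : Nat.Primes → Jb →+ Jb)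
    (hredT : ∀ ℓ ∈ G, ∀ y, red (heckeOperatorBar N ℓ y) = Tb ℓ (red y))
    (g : GQ) (γ : Jb → Jb) (hredg : ∀ y : JZero N, red (g • y) = γ (red y))
    (hfin : {c : Jb | γ c = c}.Finite)
    (y₀ : JZero N) (hg : g • y₀ = y₀) (hpc : p • red y₀ = 0) (hc0 : red y₀ ≠ 0)
    (heig : ∀ ℓ ∈ G, Tb ℓ (red y₀) = a ℓ • red y₀)
    (w : FreeAlgebra ℤ G) (hw : S40KT_evL N (Subtype.val : G → Nat.Primes) w = 0) :
    (p : ℤ) ∣ MvPolynomial.eval (fun i : G => a (i : Nat.Primes)) (S40R2_ab G w) := by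
  classical
  set q : G → Nat.Primes := Subtype.val with hq
  set TL : G → Module.End ℤ (JZero N) := fun i => heckeOperatorBar N (q i) with hTL
  set TbL : G → Module.End ℤ Jb := fun i => (Tb (q i)).toIntLinearMap with hTbL
  set gA : JZero N →+ JZero N := DistribSMul.toAddMonoidHom (JZero N) g with hgA
  have hgA_apply : ∀ y, gA y = g • y := fun y => rfl
  set E : JZero N →+ JZero N := (S40R2_ev TL w).toAddMonoidHom with hE
  set Eb : Jb →+ Jb := (S40R2_ev TbL w).toAddMonoidHom with hEb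
  have hEJ : ∀ y, E y = S40KT_evJ N q w y := fun y => rfl
  have hredE : ∀ y, red (E y) = Eb (red y) := fun y =>
    S40R2_ev_intertwine TL TbL red (fun i x => hredT (q i) i.2 x) w y
  have hgE : ∀ y, E (gA y) = gA (E y) := fun y =>
    (S40R2_ev_intertwine TL TL gA (fun i x => (S40GG_hecke_smul N (q i) g x).symm) w y).symm
  have hqG : ∀ i : G, ¬ ((q i : Nat.Primes) : ℕ) ∣ N ∧ ¬ ((q i : Nat.Primes) : ℕ) ∣ p := by
    intro i
    refine ⟨(hG i i.2).1, fun hd => (hG i i.2).2 ?_⟩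
    exact (Nat.prime_dvd_prime_iff_eq (q i).2 hp.out).mp hd
  have htors : ∀ (K : ℕ) (x : JZero N), p ^ K • x = 0 → E x = 0 := by
    intro K x hx
    haveI : NeZero (p ^ K) := ⟨pow_ne_zero K hp.out.ne_zero⟩
    rw [hEJ]
    exact S40KT_free_kill N p K q hqG w hw x hx
  have hdiv : ∀ y : JZero N, ∃ z : JZero N, p • z = y := fun y =>
    S17DIV_main N p hp.out.ne_zero y
  have h0 : Eb (red y₀) = 0 :=
    S40R2_core p red E gA Eb γ hdiv hredE (fun y => hredg y) hgE htors hfin y₀ hg hpc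
  have h1 : Eb (red y₀) = MvPolynomial.eval (fun i : G => a (q i)) (S40R2_ab G w) • red y₀ :=
    S40R2_ev_eigen TbL (fun i : G => a (q i)) (red y₀) (fun i => heig (q i) i.2) w
  rw [h0] at h1
  by_contra hnd
  have hcop : IsCoprime (p : ℤ) (MvPolynomial.eval (fun i : G => a (q i)) (S40R2_ab G w)) :=
    (Nat.prime_iff_prime_int.mp hp.out).coprime_iff_not_dvd.mpr hnd
  obtain ⟨u, v, huv⟩ := hcop
  apply hc0
  have h2 : ((u * (p : ℤ) + v * MvPolynomial.eval (fun i : G => a (q i)) (S40R2_ab G w)) : ℤ)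
      • red y₀ = 0 := by
    rw [add_smul, mul_smul, mul_smul, ← h1, smul_zero, add_zero, Nat.cast_smul_eq_nsmul ℤ,
      hpc, smul_zero]
  rwa [huv, one_smul] at h2

/-- **route 2, cohomology form**: the eigensystem `a` occurs in `k ⊗ parInt N`. -/
theorem S40R2I_coh (hG : ∀ ℓ ∈ G, ¬ ((ℓ : Nat.Primes) : ℕ) ∣ N ∧ ((ℓ : Nat.Primes) : ℕ) ≠ p)
    (a : Nat.Primes → ℤ) (red : JZero N →+ Jb) (Tb : Nat.Primes → Jb →+ Jb)
    (hredT : ∀ ℓ ∈ G, ∀ y, red (heckeOperatorBar N ℓ y) = Tb ℓ (red y))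
    (g : GQ) (γ : Jb → Jb) (hredg : ∀ y : JZero N, red (g • y) = γ (red y))
    (hfin : {c : Jb | γ c = c}.Finite)
    (y₀ : JZero N) (hg : g • y₀ = y₀) (hpc : p • red y₀ = 0) (hc0 : red y₀ ≠ 0)
    (heig : ∀ ℓ ∈ G, Tb ℓ (red y₀) = a ℓ • red y₀)
    (k : Type*) [Field k] [CharP k p] :
    ∃ x : k ⊗[ℤ] ↥(parInt N), x ≠ 0 ∧ ∀ ℓ ∈ G,
      (GRD_heckeL N (heckeGen ℓ)).baseChange k x = ((a ℓ : ℤ) : k) • x := by
  classical
  haveI := finite_parInt N
  haveI := free_parInt N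
  set q : G → Nat.Primes := Subtype.val with hq
  set ρ : HeckeAlg →+* Module.End ℤ ↥(parInt N) :=
    (GRD_heckeL N).comp ((MvPolynomial.rename q).toRingHom.comp (S40R2I_pi G)) with hρ
  set θ : HeckeAlg →+* k :=
    (Int.castRingHom k).comp
      ((MvPolynomial.eval (fun i : G => a (i : Nat.Primes))).comp (S40R2I_pi G)) with hθdef
  have hθ : ∀ P : HeckeAlg, ρ P = 0 → θ P = 0 := by
    intro P hP
    obtain ⟨w, hw⟩ := S40R2_ab_surjective (S40R2I_pi G P)
    have hw0 : S40KT_evL N q w = 0 := by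
      rw [S40KT_evL_eq, ← S40R2I_ab, hw]
      exact hP
    have hd := S40R2I_dvd N p G hG a red Tb hredT g γ hredg hfin y₀ hg hpc hc0 heig w hw0
    rw [hw] at hd
    show ((Int.castRingHom k) (MvPolynomial.eval (fun i : G => a (i : Nat.Primes))
      (S40R2I_pi G P))) = 0
    rw [eq_intCast]
    exact (CharP.intCast_eq_zero_iff k p _).2 hd
  obtain ⟨x, hx0, hx⟩ := S41F_exists_eigvec ρ p θ hθ
  refine ⟨x, hx0, fun ℓ hℓ => ?_⟩
  have h1 := hx (heckeGen ℓ)
  have e1 : ρ (heckeGen ℓ) = GRD_heckeL N (heckeGen ℓ) := by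
    show GRD_heckeL N (MvPolynomial.rename q (S40R2I_pi G (heckeGen ℓ))) = _
    rw [S40R2I_pi_gen G ℓ hℓ, MvPolynomial.rename_X]
    rfl
  have e2 : θ (heckeGen ℓ) = ((a ℓ : ℤ) : k) := by
    show (Int.castRingHom k) (MvPolynomial.eval (fun i : G => a (i : Nat.Primes))
      (S40R2I_pi G (heckeGen ℓ))) = _
    rw [S40R2I_pi_gen G ℓ hℓ, MvPolynomial.eval_X, eq_intCast]
  rw [e1, e2] at h1
  exact h1

end abs

section inst

variable (N : ℕ) [NeZero N] (p : ℕ) [hp : Fact p.Prime] (G : Set Nat.Primes)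
variable (A : ValuationSubring (AlgebraicClosure ℚ))

/-- **route 2 at the reduction modulo `A`** (`A` over `p ∤ N`): items (ii), (iii), (v), (vi),
kappa and divisibility are discharged; (i) `hredT` and (iv) `y₀` remain. -/
theorem S40R2I_main (hA : A.LiesOverPrime p) (hpN : ¬ p ∣ N)
    (hG : ∀ ℓ ∈ G, ¬ ((ℓ : Nat.Primes) : ℕ) ∣ N ∧ ((ℓ : Nat.Primes) : ℕ) ≠ p)
    (a : Nat.Primes → ℤ)
    (Tb : Nat.Primes → JZeroC (IsLocalRing.ResidueField A) N →+
      JZeroC (IsLocalRing.ResidueField A) N)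
    (hredT : ∀ ℓ ∈ G, ∀ y, reductionModL A N (heckeOperatorBar N ℓ y)
      = Tb ℓ (reductionModL A N y))
    (y₀ : JZero N) (hpc : p • reductionModL A N y₀ = 0) (hc0 : reductionModL A N y₀ ≠ 0)
    (heig : ∀ ℓ ∈ G, Tb ℓ (reductionModL A N y₀) = a ℓ • reductionModL A N y₀)
    (k : Type*) [Field k] [CharP k p] :
    ∃ x : k ⊗[ℤ] ↥(parInt N), x ≠ 0 ∧ ∀ ℓ ∈ G,
      (GRD_heckeL N (heckeGen ℓ)).baseChange k x = ((a ℓ : ℤ) : k) • x := by
  have h : ReductionInputsModL A N := S19IN_RI N A hp.out hA hpN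
  obtain ⟨g, hg, hfin⟩ := S40FF_main_cls N A h hp.out hA hpN y₀
  exact S40R2I_coh N p G hG a (reductionModL A N) Tb hredT
    (g : GQ) (fun c => S19EQ_gb N A g • c)
    (fun y => S40FI_red_smul N A hp.out hA hpN g y) hfin y₀ hg hpc hc0 heig k

/-- **route 2 ⇒ the core**: at a level `M' ∣ M / p` with `p ∤ M'`, a class `y₀` of `J₀(M')(ℚ̄)`
whose reduction modulo `A` is a nonzero `p`-torsion eigenclass with the eigenvalues `a_ℓ(W)`
gives the core `S40W_Core W p M`. -/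
theorem S40R2I_core (W : WeierstrassCurve ℤ) (M M' : ℕ) [NeZero M'] (hpM : p ∣ M)
    (hM' : M' ∣ M / p) (hpM' : ¬ p ∣ M') (hA : A.LiesOverPrime p)
    (Tb : Nat.Primes → JZeroC (IsLocalRing.ResidueField A) M' →+
      JZeroC (IsLocalRing.ResidueField A) M')
    (hredT : ∀ ℓ : Nat.Primes, ¬ (ℓ : ℕ) ∣ M' → (ℓ : ℕ) ≠ p →
      ∀ y, reductionModL A M' (heckeOperatorBar M' ℓ y) = Tb ℓ (reductionModL A M' y))
    (y₀ : JZero M') (hpc : p • reductionModL A M' y₀ = 0) (hc0 : reductionModL A M' y₀ ≠ 0)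
    (heig : ∀ ℓ : Nat.Primes, W.IsGoodPrimeFor ℓ → ¬ (ℓ : ℕ) ∣ M → (ℓ : ℕ) ≠ p →
      Tb ℓ (reductionModL A M' y₀) = (W.apOfModel ℓ : ℤ) • reductionModL A M' y₀) :
    S40W_Core W p M := by
  have hM'M : M' ∣ M := hM'.trans (Nat.div_dvd_of_dvd hpM)
  obtain ⟨x, hx0, hx⟩ := S40R2I_main M' p
    {ℓ : Nat.Primes | W.IsGoodPrimeFor ℓ ∧ ¬ (ℓ : ℕ) ∣ M ∧ (ℓ : ℕ) ≠ p} A hA hpM'
    (fun ℓ hℓ => ⟨fun hd => hℓ.2.1 (hd.trans hM'M), hℓ.2.2⟩)
    (fun ℓ => (W.apOfModel ℓ : ℤ)) Tb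
    (fun ℓ hℓ y => hredT ℓ (fun hd => hℓ.2.1 (hd.trans hM'M)) hℓ.2.2 y)
    y₀ hpc hc0 (fun ℓ hℓ => heig ℓ hℓ.1 hℓ.2.1 hℓ.2.2) (ZMod p)
  exact S40LA_core_of_eigvec W p M M' hM' x hx0
    (fun ℓ hgood hℓM hℓp => hx ℓ ⟨hgood, hℓM, hℓp⟩)

end inst

end Fermat.Agent.S40
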