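import Mathlib
import Fermat.Agent.S40.R2Inst

/-!
# TRACK 13 (row 38), GEO-5 / G5c, ROUTE 2: the CONCRETE WIRE in KERNEL FORM (helper9).
Prefix `S40R2IK_`.

The twin of `S40R2I_coh / _main / _core` (S40/R2Inst.lean) with NO operator on the special fibre:

* (i)  `hT   : red y = 0 → red (T_ℓ y) = 0`   (the Hecke operators preserve the kernel of the
  reduction);
* (iv) `heig : red (T_ℓ y₀) = a_ℓ • red y₀`.

Proof: `S40R2I_coh` at `Jb := J₀(N)(ℚ̄) ⧸ ker red`.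

* `S40R2IK_coh`  : general `Jb`, `red`, `g` (kernel form of the Galois side as well);
* `S40R2IK_main` : `red = reductionModL A N`, `A` over `p ∤ N` (Galois side discharged);
* `S40R2IK_core` : `S40W_Core W p M` from the data at a level `M' ∣ M / p`, `p ∤ M'`.
-/

set_option autoImplicit false
set_option linter.unusedSectionVars false
set_option linter.unusedVariables false
set_option linter.style.haveILetI false

open ModularCurve AlgebraicCurve
open scoped TensorProduct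

namespace Fermat.Agent.S40

open Fermat.Agent.GalRep Fermat.Agent.S32 Fermat.Agent.S17 Fermat.Agent.S18 Fermat.Agent.S19
  Fermat.Agent.S16 Fermat.Agent.S41

section abs

variable (N : ℕ) [NeZero N] (p : ℕ) [hp : Fact p.Prime] (G : Set Nat.Primes)
variable {Jb : Type*} [AddCommGroup Jb]

/-- **route 2, cohomology form, kernel form**. -/
theorem S40R2IK_coh (hG : ∀ ℓ ∈ G, ¬ ((ℓ : Nat.Primes) : ℕ) ∣ N ∧ ((ℓ : Nat.Primes) : ℕ) ≠ p)
    (a : Nat.Primes → ℤ) (red : JZero N →+ Jb)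
    (hT : ∀ ℓ ∈ G, ∀ y, red y = 0 → red (heckeOperatorBar N ℓ y) = 0)
    (g : GQ) (hgk : ∀ y : JZero N, red y = 0 → red (g • y) = 0)
    (hfin : (red '' {w : JZero N | red (g • w) = red w}).Finite)
    (y₀ : JZero N) (hg : g • y₀ = y₀) (hpc : p • red y₀ = 0) (hc0 : red y₀ ≠ 0)
    (heig : ∀ ℓ ∈ G, red (heckeOperatorBar N ℓ y₀) = a ℓ • red y₀)
    (k : Type*) [Field k] [CharP k p] :
    ∃ x : k ⊗[ℤ] ↥(parInt N), x ≠ 0 ∧ ∀ ℓ ∈ G,
      (GRD_heckeL N (heckeGen ℓ)).baseChange k x = ((a ℓ : ℤ) : k) • x := by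
  classical
  set K : AddSubgroup (JZero N) := red.ker with hK
  let red' : JZero N →+ JZero N ⧸ K := QuotientAddGroup.mk' K
  let ι₀ : JZero N ⧸ K →+ Jb := QuotientAddGroup.kerLift red
  have hι₀ : ∀ y : JZero N, ι₀ (red' y) = red y := fun y => rfl
  have hι₀inj : Function.Injective ι₀ := QuotientAddGroup.kerLift_injective red
  have hred'0 : ∀ y : JZero N, red' y = 0 ↔ red y = 0 := by
    intro y
    rw [← hι₀ y]
    constructor
    · intro h; rw [h, map_zero]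
    · intro h; exact hι₀inj (by rw [h, map_zero])
  set gA : JZero N →+ JZero N := DistribSMul.toAddMonoidHom (JZero N) g with hgA
  have hTK : ∀ ℓ ∈ G, K ≤ AddSubgroup.comap (heckeOperatorBar N ℓ).toAddMonoidHom K := by
    intro ℓ hℓ y hy
    rw [AddSubgroup.mem_comap, hK, AddMonoidHom.mem_ker]
    exact hT ℓ hℓ y (AddMonoidHom.mem_ker.mp hy)
  have hgK : K ≤ AddSubgroup.comap gA K := by
    intro y hy
    rw [AddSubgroup.mem_comap, hK, AddMonoidHom.mem_ker]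
    exact hgk y (AddMonoidHom.mem_ker.mp hy)
  let Tb : Nat.Primes → (JZero N ⧸ K) →+ (JZero N ⧸ K) := fun ℓ =>
    if h : ℓ ∈ G then QuotientAddGroup.map K K (heckeOperatorBar N ℓ).toAddMonoidHom (hTK ℓ h)
    else 0
  let γ : (JZero N ⧸ K) →+ (JZero N ⧸ K) := QuotientAddGroup.map K K gA hgK
  have hTb : ∀ ℓ ∈ G, ∀ y, red' (heckeOperatorBar N ℓ y) = Tb ℓ (red' y) := by
    intro ℓ hℓ y
    show _ = (if h : ℓ ∈ G then
      QuotientAddGroup.map K K (heckeOperatorBar N ℓ).toAddMonoidHom (hTK ℓ h) else 0) (red' y)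
    rw [dif_pos hℓ]
    rfl
  have hγ : ∀ y : JZero N, red' (g • y) = γ (red' y) := fun y => rfl
  have hfin' : {c : JZero N ⧸ K | γ c = c}.Finite := by
    refine Set.Finite.of_finite_image (f := ι₀) ?_ hι₀inj.injOn
    refine hfin.subset ?_
    rintro _ ⟨c, hc, rfl⟩
    obtain ⟨w, rfl⟩ := QuotientAddGroup.mk'_surjective K c
    refine ⟨w, ?_, (hι₀ w).symm⟩
    show red (g • w) = red w
    have h1 : γ (red' w) = red' w := hc
    rw [← hγ] at h1
    rw [← hι₀ (g • w), ← hι₀ w, h1]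
  refine S40R2I_coh N p G hG a red' Tb hTb g (fun c => γ c) hγ hfin' y₀ hg ?_ ?_ ?_ k
  · apply hι₀inj
    rw [map_nsmul, hι₀, hpc, map_zero]
  · intro h
    exact hc0 ((hred'0 y₀).mp h)
  · intro ℓ hℓ
    apply hι₀inj
    rw [← hTb ℓ hℓ, hι₀, heig ℓ hℓ, map_zsmul, hι₀]

end abs

section inst

variable (N : ℕ) [NeZero N] (p : ℕ) [hp : Fact p.Prime] (G : Set Nat.Primes)
variable (A : ValuationSubring (AlgebraicClosure ℚ))

/-- **route 2 at the reduction modulo `A`, kernel form** (`A` over `p ∤ N`). -/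
theorem S40R2IK_main (hA : A.LiesOverPrime p) (hpN : ¬ p ∣ N)
    (hG : ∀ ℓ ∈ G, ¬ ((ℓ : Nat.Primes) : ℕ) ∣ N ∧ ((ℓ : Nat.Primes) : ℕ) ≠ p)
    (a : Nat.Primes → ℤ)
    (hT : ∀ ℓ ∈ G, ∀ y, reductionModL A N y = 0 →
      reductionModL A N (heckeOperatorBar N ℓ y) = 0)
    (y₀ : JZero N) (hpc : p • reductionModL A N y₀ = 0) (hc0 : reductionModL A N y₀ ≠ 0)
    (heig : ∀ ℓ ∈ G, reductionModL A N (heckeOperatorBar N ℓ y₀) = a ℓ • reductionModL A N y₀)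
    (k : Type*) [Field k] [CharP k p] :
    ∃ x : k ⊗[ℤ] ↥(parInt N), x ≠ 0 ∧ ∀ ℓ ∈ G,
      (GRD_heckeL N (heckeGen ℓ)).baseChange k x = ((a ℓ : ℤ) : k) • x := by
  have h : ReductionInputsModL A N := S19IN_RI N A hp.out hA hpN
  obtain ⟨g, hg, hfin⟩ := S40FF_main_cls N A h hp.out hA hpN y₀
  have hredg : ∀ y : JZero N, reductionModL A N ((g : GQ) • y)
      = S19EQ_gb N A g • reductionModL A N y := fun y => S40FI_red_smul N A hp.out hA hpN g y
  refine S40R2IK_coh N p G hG a (reductionModL A N) hT (g : GQ) ?_ ?_ y₀ hg hpc hc0 heig k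
  · intro y hy
    have h0 := hredg 0
    have hz : (g : GQ) • (0 : JZero N) = 0 :=
      (DistribSMul.toAddMonoidHom (JZero N) (g : GQ)).map_zero
    rw [hz, map_zero] at h0
    rw [hredg, hy]
    exact h0.symm
  · refine hfin.subset ?_
    rintro _ ⟨w, hw, rfl⟩
    show S19EQ_gb N A g • reductionModL A N w = reductionModL A N w
    rw [← hredg]
    exact hw

/-- **route 2 ⇒ the core, kernel form**. -/
theorem S40R2IK_core (W : WeierstrassCurve ℤ) (M M' : ℕ) [NeZero M'] (hpM : p ∣ M)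
    (hM' : M' ∣ M / p) (hpM' : ¬ p ∣ M') (hA : A.LiesOverPrime p)
    (hT : ∀ ℓ : Nat.Primes, ¬ (ℓ : ℕ) ∣ M' → (ℓ : ℕ) ≠ p →
      ∀ y, reductionModL A M' y = 0 → reductionModL A M' (heckeOperatorBar M' ℓ y) = 0)
    (y₀ : JZero M') (hpc : p • reductionModL A M' y₀ = 0) (hc0 : reductionModL A M' y₀ ≠ 0)
    (heig : ∀ ℓ : Nat.Primes, W.IsGoodPrimeFor ℓ → ¬ (ℓ : ℕ) ∣ M → (ℓ : ℕ) ≠ p →
      reductionModL A M' (heckeOperatorBar M' ℓ y₀)
        = (W.apOfModel ℓ : ℤ) • reductionModL A M' y₀) :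
    S40W_Core W p M := by
  have hM'M : M' ∣ M := hM'.trans (Nat.div_dvd_of_dvd hpM)
  obtain ⟨x, hx0, hx⟩ := S40R2IK_main M' p
    {ℓ : Nat.Primes | W.IsGoodPrimeFor ℓ ∧ ¬ (ℓ : ℕ) ∣ M ∧ (ℓ : ℕ) ≠ p} A hA hpM'
    (fun ℓ hℓ => ⟨fun hd => hℓ.2.1 (hd.trans hM'M), hℓ.2.2⟩)
    (fun ℓ => (W.apOfModel ℓ : ℤ))
    (fun ℓ hℓ y => hT ℓ (fun hd => hℓ.2.1 (hd.trans hM'M)) hℓ.2.2 y)
    y₀ hpc hc0 (fun ℓ hℓ => heig ℓ hℓ.1 hℓ.2.1 hℓ.2.2) (ZMod p)
  exact S40LA_core_of_eigvec W p M M' hM' x hx0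
    (fun ℓ hgood hℓM hℓp => hx ℓ ⟨hgood, hℓM, hℓp⟩)

end inst

end Fermat.Agent.S40
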