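import Mathlib
import Fermat.Agent.S40.JMid
import Fermat.Agent.S40.R2InstK
import Fermat.Agent.S40.Geo5Red

/-!
# TRACK 13 (row 38), GEO-5: the TOP wire (helper5).  Prefix `S40G5T_`.

`S40JM_G5` (the hole (GEO-5) of helper2's mid wire `S40/JMid.lean`) from the ONE combined hole
`S40G5T_IV` = steps (iv-a) + (iv-b) of route 2:

* `S40G5T_IV` : a `W`-eigen-class `x` of `J₀(M'p)[p]` with a Kummer generator `u` whose reduction
  at `T₁` is a Kummer generator of the fibre, not a `p`-th power, gives a point `y₀` of `J₀(M')`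
  whose reduction mod `A` is a nonzero class killed by `p`, with
  `red (T_ℓ y₀) = a_ℓ(W) • red y₀` at the good primes `ℓ ∤ M' p`.
* `S40G5T_main : S40G5T_IV → S40JM_G5` : helper9's concrete route-2 wire `S40R2IK_core`
  (kernel form) with step (i) discharged by helper10's `S40G5R_red_zero_bar`.
-/

set_option autoImplicit false
set_option linter.style.haveILetI false
set_option linter.unusedSectionVars false
set_option linter.unusedVariables false
set_option synthInstance.maxHeartbeats 400000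
set_option maxHeartbeats 1000000

open AlgebraicCurve ModularCurve IntermediateField

noncomputable section

namespace Fermat.Agent.S40

open Fermat.Agent.S17 Fermat.Agent.S18 Fermat.Agent.S19 Fermat.Agent.S24 Fermat.Agent.S34
  Fermat.Agent.S35 Fermat.Agent.S36 Fermat.Agent.S37 Fermat.Agent.GalRep Fermat.Agent.S33

local notation "ℚbar" => AlgebraicClosure ℚ

/-- **the ONE combined hole of GEO-5** (steps (iv-a) + (iv-b) of route 2). -/
def S40G5T_IV : Prop :=
  ∀ (W : WeierstrassCurve ℤ), W.Δ ≠ 0 → ∀ (p : ℕ) (hp : p.Prime), 5 ≤ p →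
    W.ModRepIsIrreducible p → ∀ (M' : ℕ) [NeZero M'] [NeZero p] [NeZero (M' * p)]
    (hpM : ¬ p ∣ M'),
    ∀ (A : ValuationSubring ℚbar), A.LiesOverPrime p →
    ∀ (hgen : PrincipalGeneratedByIntegral A (IsLocalRing.residue A) (M' * p))
      (x : JZero (M' * p)), x ∈ S40D_V0 W p (M' * p) →
      ∀ u : ↥(modularFunctionFieldBar (M' * p)), S33DG_IsGen p x u →
        S40JM_KumAt (S34M_T1 M' p A hgen) p u → ¬ S40JM_PthAt (S34M_T1 M' p A hgen) p u →
        ∃ y₀ : JZero M', p • reductionModL A M' y₀ = 0 ∧ reductionModL A M' y₀ ≠ 0 ∧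
          ∀ ℓ : Nat.Primes, W.IsGoodPrimeFor ℓ → ¬ (ℓ : ℕ) ∣ M' * p → (ℓ : ℕ) ≠ p →
            reductionModL A M' (heckeOperatorBar M' ℓ y₀)
              = (W.apOfModel ℓ : ℤ) • reductionModL A M' y₀

/-- **GEO-5, the top wire**: the hole (GEO-5) of the mid wire from the combined hole (iv). -/
theorem S40G5T_main (h : S40G5T_IV) : S40JM_G5 := by
  intro W hΔ p hp hp5 hirr M' _ _ _ hpM A hA hgen x hx u hu hK hnP
  obtain ⟨y₀, hpc, hc0, heig⟩ := h W hΔ p hp hp5 hirr M' hpM A hA hgen x hx u hu hK hnP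
  haveI : Fact p.Prime := ⟨hp⟩
  refine S40R2IK_core (p := p) (A := A) W (M' * p) M' (dvd_mul_left p M') ?_ hpM hA ?_
    y₀ hpc hc0 heig
  · rw [Nat.mul_div_cancel _ hp.pos]
  · intro ℓ hℓM hℓp y hy
    exact S40G5R_red_zero_bar M' A hp hA hpM ℓ hℓM y hy

end Fermat.Agent.S40
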