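import Mathlib
import Fermat.Agent.S40.JMid
import Fermat.Agent.S40.G5Res

/-!
# TRACK 13 (row 38), GEO-5 route 2, step (iv-a), TRANSPORT (helper5).  Prefix `S40G5X_`.

The fibre field of level `M p` in characteristic `p` IS the fibre field of level `M`
(`S34FI_full_eq`, an equality of intermediate fields of `k((t))`).  This file transports the
hypotheses of `S40JM_G5` (on the reduction `red₁ u` of a Kummer generator `u` of level `M p`) to a
function `g` of level `M`:

* `S40G5X_kum_of_eq`, `S40G5X_pth_of_eq` : transport of `KM_IsKum` and of `p`-th powers along an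
  equality of intermediate fields;
* `S40G5X_main` : `S40JM_KumAt T₁ p u`, `¬ S40JM_PthAt T₁ p u` ⇒ there is `g` in the Gauss ring
  of level `M` with `red_{Mp} u = red_M g` in `k((t))`, `red_M g` a Kummer generator of exponent
  `p` of the fibre field of level `M`, and `red_M g ≠ e · h ^ p` for every constant `e` and
  every `h` (the residue field is algebraically closed).
-/

set_option autoImplicit false
set_option linter.style.haveILetI false
set_option linter.unusedSectionVars false
set_option linter.unusedVariables false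
set_option synthInstance.maxHeartbeats 400000
set_option maxHeartbeats 1000000

open HahnSeries AlgebraicCurve ModularCurve IntermediateField

noncomputable section

namespace Fermat.Agent.S40

open Fermat.Agent.S17 Fermat.Agent.S18 Fermat.Agent.S19 Fermat.Agent.S24 Fermat.Agent.S34
  Fermat.Agent.S35 Fermat.Agent.S36 Fermat.Agent.S37 Fermat.Agent.GalRep Fermat.Agent.S33
  Fermat.Agent.Lib

local notation "ℚbar" => AlgebraicClosure ℚ

section generic

variable {K L : Type} [Field K] [Field L] [Algebra K L]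

/-- transport of `KM_IsKum` along an equality of intermediate fields. -/
theorem S40G5X_kum_of_eq {E₁ E₂ : IntermediateField K L} (h : E₁ = E₂) (n : ℕ)
    (f₁ : ↥E₁) (f₂ : ↥E₂) (hf : (f₁ : L) = (f₂ : L)) (hk : KM_IsKum K ↥E₁ n f₁) :
    KM_IsKum K ↥E₂ n f₂ := by
  subst h
  have e : f₁ = f₂ := Subtype.ext hf
  rw [← e]
  exact hk

/-- transport of `p`-th powers along an equality of intermediate fields. -/
theorem S40G5X_pth_of_eq {E₁ E₂ : IntermediateField K L} (h : E₁ = E₂) (n : ℕ)
    (f₁ : ↥E₁) (f₂ : ↥E₂) (hf : (f₁ : L) = (f₂ : L)) (g₂ : ↥E₂) (hg : f₂ = g₂ ^ n) :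
    ∃ g₁ : ↥E₁, f₁ = g₁ ^ n := by
  subst h
  have e : f₁ = f₂ := Subtype.ext hf
  exact ⟨g₂, by rw [e, hg]⟩

end generic

variable (M p : ℕ) [NeZero M] [NeZero p] [NeZero (M * p)]
  (A : ValuationSubring (AlgebraicClosure ℚ))

/-- **TRANSPORT**: the hypotheses of `S40JM_G5` seen at level `M`. -/
theorem S40G5X_main (hp : p.Prime) (hA : A.LiesOverPrime p)
    (hgen : PrincipalGeneratedByIntegral A (IsLocalRing.residue A) (M * p))
    (u : ↥(modularFunctionFieldBar (M * p)))
    (hK : S40JM_KumAt (S34M_T1 M p A hgen) p u)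
    (hnP : ¬ S40JM_PthAt (S34M_T1 M p A hgen) p u) :
    ∃ (hu : u ∈ S18_O A (M * p)) (g : ↥(modularFunctionFieldBar M)) (hg : g ∈ S18_O A M),
      ((S18_red A (M * p) ⟨u, hu⟩ :
          ↥(modularFunctionFieldFullC (IsLocalRing.ResidueField A) (M * p))) :
        LaurentSeries (IsLocalRing.ResidueField A))
      = ((S18_red A M ⟨g, hg⟩ : ↥(modularFunctionFieldFullC (IsLocalRing.ResidueField A) M)) :
        LaurentSeries (IsLocalRing.ResidueField A)) ∧
      KM_IsKum (IsLocalRing.ResidueField A)
        ↥(modularFunctionFieldFullC (IsLocalRing.ResidueField A) M) p (S18_red A M ⟨g, hg⟩) ∧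
      ∀ (e : IsLocalRing.ResidueField A)
        (h : ↥(modularFunctionFieldFullC (IsLocalRing.ResidueField A) M)),
        S18_red A M ⟨g, hg⟩ ≠ algebraMap (IsLocalRing.ResidueField A) _ e * h ^ p := by
  haveI : CharP (IsLocalRing.ResidueField A) p := S18_residue_charP A p hp hA
  haveI : Fact p.Prime := ⟨hp⟩
  haveI : IsAlgClosed (IsLocalRing.ResidueField A) := S18_residue_isAlgClosed A
  obtain ⟨hu, hk⟩ := hK
  have hu' : u ∈ S18_O A (M * p) := hu
  obtain ⟨g, hg, hred⟩ := S40GR_exists_red M p A hp hA u hu'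
  have hEq : modularFunctionFieldFullC (IsLocalRing.ResidueField A) (M * p)
      = modularFunctionFieldFullC (IsLocalRing.ResidueField A) M :=
    S34FI_full_eq (IsLocalRing.ResidueField A) p M
  have hk' : KM_IsKum (IsLocalRing.ResidueField A)
      ↥(modularFunctionFieldFullC (IsLocalRing.ResidueField A) (M * p)) p
      (S18_red A (M * p) ⟨u, hu'⟩) := hk
  refine ⟨hu', g, hg, hred, S40G5X_kum_of_eq hEq p _ _ hred hk', ?_⟩
  intro e h hpow
  -- `e` is a `p`-th power in `k`
  obtain ⟨e', he'⟩ := IsAlgClosed.exists_pow_nat_eq e hp.pos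
  have hpow' : S18_red A M ⟨g, hg⟩
      = (algebraMap (IsLocalRing.ResidueField A)
          ↥(modularFunctionFieldFullC (IsLocalRing.ResidueField A) M) e' * h) ^ p := by
    rw [hpow, mul_pow, ← map_pow, he']
  obtain ⟨g₁, hg₁⟩ := S40G5X_pth_of_eq hEq p (S18_red A (M * p) ⟨u, hu'⟩)
    (S18_red A M ⟨g, hg⟩) hred _ hpow'
  have hg₁0 : g₁ ≠ 0 := by
    rintro rfl
    rw [zero_pow hp.ne_zero] at hg₁
    exact hk'.1 hg₁
  exact hnP ⟨hu, g₁, hg₁0, hg₁⟩

end Fermat.Agent.S40
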