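import Mathlib
import Fermat.Agent.S40.G5Top
import Fermat.Agent.S40.G5Tr
import Fermat.Agent.S40.G5Cls
import Fermat.Agent.S40.R4Eigen

/-!
# TRACK 13 (row 38), GEO-5: the hole (GEO-5) of the mid wire is CLOSED (helper5).
Prefix `S40G5V_`.

* `S40G5V_iv : S40G5T_IV` : steps (iv-a) + (iv-b) of route 2, assembled from
  the TRANSPORT `S40G5X_main` (helper5, `S40/G5Tr.lean`), the class `S40GC_main` (helper19,
  `S40/G5Cls.lean`) and the eigen-relation `S40R4_eigen` (helper13, `S40/R4Eigen.lean`).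
* `S40G5V_G5 : S40JM_G5` : the hole (GEO-5) of `S40/JMid.lean`, by `S40G5T_main`
  (`S40/G5Top.lean`: helper9's route-2 wire `S40R2IK_core` + helper10's step (i)).
-/

set_option autoImplicit false
set_option linter.style.haveILetI false
set_option linter.unusedSectionVars false
set_option linter.unusedVariables false
set_option synthInstance.maxHeartbeats 400000
set_option maxHeartbeats 1000000

open HahnSeries AlgebraicCurve ModularCurve IntermediateField

noncomputable section

namespace Fermat.Agent.S40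

open Fermat.Agent.S17 Fermat.Agent.S18 Fermat.Agent.S19 Fermat.Agent.S24 Fermat.Agent.S34
  Fermat.Agent.S35 Fermat.Agent.S36 Fermat.Agent.S37 Fermat.Agent.GalRep Fermat.Agent.S33
  Fermat.Agent.Lib

local notation "ℚbar" => AlgebraicClosure ℚ

/-- **steps (iv-a) + (iv-b) of route 2.** -/
theorem S40G5V_iv : S40G5T_IV := by
  intro W hΔ p hp hp5 hirr M' _ _ _ hpM A hA hgen x hx u hu hK hnP
  obtain ⟨huO, g, hg, hred, hKg, hnpg⟩ := S40G5X_main M' p A hp hA hgen u hK hnP
  have h : ReductionInputsModL A M' := S19IN_RI M' A hp hA hpM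
  have hured : S18_red A (M' * p) ⟨u, huO⟩ ≠ 0 := by
    obtain ⟨hu1, hk⟩ := hK
    exact hk.1
  obtain ⟨D₀, hD₀, hpc, hc0⟩ := S40GC_main M' A hp hA hpM h (S18_red A M' ⟨g, hg⟩) hKg
    (fun w hw hpow => hnpg 1 w (by rw [map_one, one_mul]; exact hpow))
  refine ⟨Pic0.mk D₀, hpc, hc0, ?_⟩
  intro ℓ hgood hℓ hℓp
  have hD₀' : ∀ Q, (p : ℤ) * Finsupp.mapDomain (placeReductionModL h)
      (D₀ : Divisor ℚbar ↥(modularFunctionFieldBar M')) Q
      = Q.ord (S18_red A M' ⟨g, hg⟩) := by
    intro Q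
    have := congrArg (fun E => E Q) hD₀
    simp only [Finsupp.smul_apply, RR_div_apply] at this
    rw [← this, nsmul_eq_mul]
  exact S40R4_eigen M' p A hp hA hpM hgen h ℓ hℓ (W.apOfModel ℓ : ℤ) x
    (hx.2 ℓ hgood hℓ hℓp) u hu huO hured g hg hred D₀ hD₀'

/-- **the hole (GEO-5) of the mid wire is closed.** -/
theorem S40G5V_G5 : S40JM_G5 := S40G5T_main S40G5V_iv

end Fermat.Agent.S40
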