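import Mathlib
import Fermat.Agent.S40.JMid
import Fermat.Agent.S40.JDich

/-!
# TRACK 13 (row 38): the hole (DICH) of `S40/JMid.lean` is CLOSED (helper6).  Prefix `S40JD_`.

* `S40JD_hole : S40JM_Dich` : from `S40JD_typeA` (`S40/JDich.lean`).
-/

set_option autoImplicit false
set_option linter.style.haveILetI false
set_option linter.unusedSectionVars false
set_option linter.unusedVariables false
set_option synthInstance.maxHeartbeats 400000
set_option maxHeartbeats 1000000

open AlgebraicCurve ModularCurve IntermediateField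

namespace Fermat.Agent.S40

open Fermat.Agent.S17 Fermat.Agent.S18 Fermat.Agent.S19 Fermat.Agent.S24 Fermat.Agent.S34
  Fermat.Agent.S35 Fermat.Agent.S36 Fermat.Agent.S37 Fermat.Agent.GalRep Fermat.Agent.S33

/-- **the hole (DICH) of the J-MID wire is closed.** -/
theorem S40JD_hole : S40JM_Dich := by
  intro p hp M' _ _ _ hpM A hA hgen x u hu h1 h2
  obtain ⟨h1m, a, ha0, ha⟩ := h1
  obtain ⟨h2m, b, hb0, hb⟩ := h2
  exact S40JD_typeA M' p hp hpM A hA hgen x u hu h1m h2m a b ha0 hb0 ha hb

end Fermat.Agent.S40
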