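import Mathlib
import Fermat.Agent.S40.JMid
import Fermat.Agent.S40.TWq
import Fermat.Agent.S40.Geo5Wire

/-!
# TRACK 13 (row 38): the hole (SYM) of `S40/JMid.lean` is CLOSED (helper2).  Prefix `S40JS_`.

`w_p = S34DF_wq` as a semilinear automorphism of `F_{M'p}` (trivial on `ℚ̄`); the class `w_p • x`
has the Kummer generator `w_p u` (`S33DG_isGen_smul`), and `T_ℓ (w_p • x) = w_p • T_ℓ x` for
`ℓ ∤ M' p` because both classes have the Kummer generator `t (w_p u) = w_p (t u)`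
(`S40G5W_hecke_gen`, `S40TW_t_wq_DF`).

* `S40JS_hole : S40JM_Sym`.
-/

set_option autoImplicit false
set_option linter.style.haveILetI false
set_option linter.unusedSectionVars false
set_option linter.unusedVariables false
set_option synthInstance.maxHeartbeats 400000
set_option maxHeartbeats 1000000

open AlgebraicCurve ModularCurve IntermediateField

noncomputable section

namespace Fermat.Agent.S40

open Fermat.Agent.S17 Fermat.Agent.S18 Fermat.Agent.S19 Fermat.Agent.S24 Fermat.Agent.S34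
  Fermat.Agent.S35 Fermat.Agent.S36 Fermat.Agent.S37 Fermat.Agent.GalRep Fermat.Agent.S33

local notation "ℚbar" => AlgebraicClosure ℚ

section sym

variable (M p : ℕ) [NeZero M] [NeZero p] [NeZero (M * p)] (hp : p.Prime) (hpM : ¬ p ∣ M)

/-- `w_p` as a semilinear automorphism (trivial on the constants). -/
def S40JS_w : SemilinearAut ℚbar ↥(modularFunctionFieldBar (M * p)) :=
  SemilinearAut.ofAlgAut (S34DF_wq M p hp hpM)

theorem S40JS_w_smul (u : ↥(modularFunctionFieldBar (M * p))) :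
    S40JS_w M p hp hpM • u = S34DF_wq M p hp hpM u := rfl

/-- `w_p u` is a Kummer generator of `w_p • x`. -/
theorem S40JS_isGen {n : ℕ} {x : JZero (M * p)} {u : ↥(modularFunctionFieldBar (M * p))}
    (h : S33DG_IsGen n x u) :
    S33DG_IsGen n (S40JS_w M p hp hpM • x) (S34DF_wq M p hp hpM u) :=
  S33DG_isGen_smul h (S40JS_w M p hp hpM)

include hp hpM in
/-- `T_ℓ` commutes with `w_p` on the `p`-torsion classes (`ℓ ∤ M p`). -/
theorem S40JS_hecke (q : Nat.Primes) (hqN : ¬ (q : ℕ) ∣ M * p) (x : JZero (M * p))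
    (hx : p • x = 0) :
    heckeOperatorBar (M * p) q (S40JS_w M p hp hpM • x) =
      S40JS_w M p hp hpM • heckeOperatorBar (M * p) q x := by
  haveI : NeZero (q : ℕ) := ⟨q.2.ne_zero⟩
  have hqp : ¬ (q : ℕ) ∣ p := fun hd => hqN (Dvd.dvd.mul_left hd M)
  have hqp' : (q : ℕ) ≠ p := fun h => hqp (h ▸ dvd_rfl)
  obtain ⟨u, hu⟩ := S33DG_isGen_exists p x hx
  obtain ⟨ζ, hζ⟩ := GRS_exists_zeta (q : ℕ)
  have hst : GRS_Stab (M * p) (q : ℕ) ζ := GRHS_stab ζ hζ q.2
  have h1 : S33DG_IsGen p (heckeOperatorBar (M * p) q x) (GRS_t hst u) :=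
    S40G5W_hecke_gen q hqN hp.pos hqp hζ hst hu
  have h2 : S33DG_IsGen p (heckeOperatorBar (M * p) q (S40JS_w M p hp hpM • x))
      (GRS_t hst (S34DF_wq M p hp hpM u)) :=
    S40G5W_hecke_gen q hqN hp.pos hqp hζ hst (S40JS_isGen M p hp hpM hu)
  rw [S40TW_t_wq_DF M p (q : ℕ) hp hpM q.2 hqp' ζ hζ hst u] at h2
  exact S33DG_isGen_unique hp.pos h2 (S40JS_isGen M p hp hpM h1)

end sym

/-- **the hole (SYM) of the J-MID wire is closed.** -/
theorem S40JS_hole : S40JM_Sym := by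
  intro W p hp M' _ _ _ hpM x hx u hu
  refine ⟨S40JS_w M' p hp hpM • x, ⟨?_, ?_⟩, S40JS_isGen M' p hp hpM hu⟩
  · exact S33DG_isGen_tors (S40JS_isGen M' p hp hpM hu)
  · intro ℓ hgood hℓN hℓp
    rw [S40JS_hecke M' p hp hpM ℓ hℓN x hx.1, hx.2 ℓ hgood hℓN hℓp]
    exact map_zsmul (DistribSMul.toAddMonoidHom (JZero (M' * p)) (S40JS_w M' p hp hpM))
      (W.apOfModel (ℓ : ℕ)) x

end Fermat.Agent.S40
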