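import Mathlib
import Fermat.Agent.S05.Final
import Fermat.Agent.S40.F1b
import Fermat.Agent.S40.F1c

/-!
# TRACK 13 (S40 / S44), W-MULT, node depth, CASE E (helper7).  Prefix `S40WE_`.

CASE E: `P = (x, y)` with `x ∉ A` (`P` in the kernel of reduction).  NO formal group: we translate
`P` by a point `T = (e, y_T)` of order `2` (`2 y_T + a₁ e + a₃ = 0`) with SMOOTH reduction, i.e.
`c := 3e² + 2a₂e + a₄ − a₁y_T` a unit of `A`:

  `(x(P + T) − e) · (x − e) = c`        (`S40WE_add_X`),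

so `P₁ = P + T = (x₁, y₁)` is integral, `x₁ ≡ e`, `y₁ ≡ y_T` modulo the maximal ideal, the partial
derivative `D_x(P₁) ≡ −c` is a unit and `D_y(P₁)` is not (`S40WE_translate`).  If `T` is fixed by
`σ` then `σ P₁ − P₁ = σ P − P`, and the chord isometry `S40Fc_chord` (package W-C) applies at `P₁`
when `σ P ≠ − P`; when `σ P = − P` the tangent at `P₁` gives the same conclusion with `z = y₁`.

* `S40WE_add_X`, `S40WE_translate` : the translation;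
* `S40WE_val_tangent` : the valuation of the `X`-coordinate of `2 P₁`;
* `S40WE_chord` : `Q = σ P − P` has an `X`-coordinate `x_Q ∉ A` with
  `max (v (σ x₁ − x₁)) (v (σ y₁ − y₁)) ^ 2 * v x_Q = 1`;
* **`S40WE_depth`** : there is `z ∈ {x₁, y₁}` with `v(p) ≤ v(σ z − z) ^ (p − 1)`.
-/

set_option autoImplicit false
set_option linter.unusedSectionVars false
set_option linter.unusedVariables false

namespace Fermat.Agent.S40

open WeierstrassCurve WeierstrassCurve.Affine WeierstrassCurve.Affine.Point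
open Fermat.Agent.S05 Fermat.Agent.S51

section Alg

variable {K : Type*} [Field K] {W : WeierstrassCurve.Affine K}

/-- the Weierstrass equation relative to a point `T = (e, y_T)` of order two. -/
theorem S40WE_rel {e yT x y : K} (hT : W.Equation e yT) (h : W.Equation x y)
    (h2T : 2 * yT + W.a₁ * e + W.a₃ = 0) :
    (y - yT) ^ 2 + W.a₁ * (x - e) * (y - yT) =
      (3 * e ^ 2 + 2 * W.a₂ * e + W.a₄ - W.a₁ * yT) * (x - e) + (3 * e + W.a₂) * (x - e) ^ 2 +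
        (x - e) ^ 3 := by
  have hE := (Affine.equation_iff _ _).mp h
  have hE' := (Affine.equation_iff _ _).mp hT
  linear_combination hE - hE' - (y - yT) * h2T

/-- **translation by a point of order two**: `(x(P + T) − e)(x − e) = c`. -/
theorem S40WE_add_X {e yT x y : K} (hT : W.Equation e yT) (h : W.Equation x y)
    (h2T : 2 * yT + W.a₁ * e + W.a₃ = 0) (hxe : x ≠ e) :
    (W.addX x e ((y - yT) / (x - e)) - e) * (x - e) =
      3 * e ^ 2 + 2 * W.a₂ * e + W.a₄ - W.a₁ * yT := by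
  have hX : x - e ≠ 0 := sub_ne_zero.mpr hxe
  have hrel := S40WE_rel hT h h2T
  simp only [Affine.addX]
  field_simp
  linear_combination hrel

end Alg

section Pts

variable {K : Type*} [Field K] [DecidableEq K] (A : ValuationSubring K)
  {W : WeierstrassCurve.Affine K}

local notation "v" => ValuationSubring.valuation A

/-- **the translate of a point of the kernel of reduction by a smooth point of order two.** -/
theorem S40WE_translate (hW : S05_Integral W A) {e yT x y : K} (hT : W.Nonsingular e yT)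
    (h : W.Nonsingular x y) (h2T : 2 * yT + W.a₁ * e + W.a₃ = 0) (he : e ∈ A)
    (hc : 3 * e ^ 2 + 2 * W.a₂ * e + W.a₄ - W.a₁ * yT ∉ A.nonunits) (hx : x ∉ A) :
    ∃ (x₁ y₁ : K) (h₁ : W.Nonsingular x₁ y₁),
      (Point.some x y h : W.Point) + Point.some e yT hT = Point.some x₁ y₁ h₁ ∧
      x₁ ∈ A ∧ y₁ ∈ A ∧
      W.a₁ * y₁ - (3 * x₁ ^ 2 + 2 * W.a₂ * x₁ + W.a₄) ∉ A.nonunits ∧
      2 * y₁ + W.a₁ * x₁ + W.a₃ ∈ A.nonunits := by
  have hle : ∀ {z : K}, z ∈ A → v z ≤ 1 := fun hz => (A.valuation_le_one_iff _).mpr hz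
  have hxe : x ≠ e := fun h0 => hx (h0 ▸ he)
  have hxy : ¬(x = e ∧ y = W.negY e yT) := fun hh => hxe hh.1
  have hyT : yT ∈ A := S05_y_mem A hW.a₁ hW.a₂ hW.a₃ hW.a₄ hW.a₆ hT.1 he
  set c : K := 3 * e ^ 2 + 2 * W.a₂ * e + W.a₄ - W.a₁ * yT with hcdef
  have h3 : (3 : K) ∈ A := by exact_mod_cast natCast_mem A 3
  have hcA : c ∈ A :=
    sub_mem (add_mem (add_mem (mul_mem h3 (pow_mem he 2))
      (mul_mem (mul_mem (S05_two_mem A) hW.a₂) he)) hW.a₄) (mul_mem hW.a₁ hyT)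
  have hvc : v c = 1 := by
    rw [A.mem_nonunits_iff, not_lt] at hc
    exact le_antisymm (hle hcA) hc
  have hvx : 1 < v x := by
    rw [← not_le, A.valuation_le_one_iff]
    exact hx
  have hvX : v (x - e) = v x :=
    Valuation.map_sub_eq_of_lt_left _ (lt_of_le_of_lt (hle he) hvx)
  refine ⟨_, _, _, Affine.Point.add_some hxy, ?_⟩
  rw [Affine.slope_of_X_ne hxe]
  set x₁ : K := W.addX x e ((y - yT) / (x - e)) with hx₁def
  set y₁ : K := W.addY x e y ((y - yT) / (x - e)) with hy₁def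
  have h₁ : W.Nonsingular x₁ y₁ := by
    have := Affine.nonsingular_add h hT hxy
    rwa [Affine.slope_of_X_ne hxe] at this
  have hkey : (x₁ - e) * (x - e) = c := S40WE_add_X hT.1 h.1 h2T hxe
  have hvX₁ : v (x₁ - e) < 1 := by
    have h1 := congrArg v hkey
    rw [map_mul, hvX, hvc] at h1
    have hx0 : v x ≠ 0 := ne_of_gt (lt_trans zero_lt_one hvx)
    have h2 : v (x₁ - e) = (v x)⁻¹ := eq_inv_of_mul_eq_one_left h1
    rw [h2]
    exact inv_lt_one_of_one_lt₀ hvx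
  have hx₁A : x₁ ∈ A := by
    have : x₁ = (x₁ - e) + e := by ring
    rw [this]
    exact add_mem ((A.valuation_le_one_iff _).mp hvX₁.le) he
  have hy₁A : y₁ ∈ A := S05_y_mem A hW.a₁ hW.a₂ hW.a₃ hW.a₄ hW.a₆ h₁.1 hx₁A
  -- `y₁ ≡ y_T`
  have hrel := S40WE_rel hT.1 h₁.1 h2T
  have hY₁A : y₁ - yT ∈ A := sub_mem hy₁A hyT
  have hX₁A : x₁ - e ∈ A := (A.valuation_le_one_iff _).mp hvX₁.le
  have hX₁n : x₁ - e ∈ A.nonunits := A.mem_nonunits_iff.mpr hvX₁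
  have hvY₁ : v (y₁ - yT) < 1 := by
    by_contra hcon
    rw [not_lt] at hcon
    have hY1 : v (y₁ - yT) = 1 := le_antisymm (hle hY₁A) hcon
    have hsum : v (y₁ - yT + W.a₁ * (x₁ - e)) = 1 := by
      rw [Valuation.map_add_eq_of_lt_left, hY1]
      rw [hY1]
      exact A.mem_nonunits_iff.mp (S05_mul_mem_nonunits A hW.a₁ hX₁n)
    have hL : v ((y₁ - yT) ^ 2 + W.a₁ * (x₁ - e) * (y₁ - yT)) = 1 := by
      have : (y₁ - yT) ^ 2 + W.a₁ * (x₁ - e) * (y₁ - yT) =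
          (y₁ - yT) * (y₁ - yT + W.a₁ * (x₁ - e)) := by ring
      rw [this, map_mul, hY1, hsum, one_mul]
    have hR : v (c * (x₁ - e) + (3 * e + W.a₂) * (x₁ - e) ^ 2 + (x₁ - e) ^ 3) < 1 := by
      have : c * (x₁ - e) + (3 * e + W.a₂) * (x₁ - e) ^ 2 + (x₁ - e) ^ 3 =
          (c + (3 * e + W.a₂) * (x₁ - e) + (x₁ - e) ^ 2) * (x₁ - e) := by ring
      rw [this]
      refine A.mem_nonunits_iff.mp (S05_mul_mem_nonunits A ?_ hX₁n)
      exact add_mem (add_mem hcA (mul_mem (add_mem (mul_mem h3 he) hW.a₂) hX₁A))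
        (pow_mem hX₁A 2)
    rw [hrel] at hL
    rw [hL] at hR
    exact lt_irrefl _ hR
  have hY₁n : y₁ - yT ∈ A.nonunits := A.mem_nonunits_iff.mpr hvY₁
  refine ⟨hx₁A, hy₁A, ?_, ?_⟩
  · -- `D_x(P₁) ≡ − c`
    intro hD
    apply hc
    have e1 : c = -(W.a₁ * y₁ - (3 * x₁ ^ 2 + 2 * W.a₂ * x₁ + W.a₄)) +
        (W.a₁ * (y₁ - yT) - (3 * (x₁ + e) + 2 * W.a₂) * (x₁ - e)) := by
      rw [hcdef]
      ring
    rw [e1]
    refine S05_add_mem_nonunits A (neg_mem hD) (S05_sub_mem_nonunits A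
      (S05_mul_mem_nonunits A hW.a₁ hY₁n) (S05_mul_mem_nonunits A ?_ hX₁n))
    exact add_mem (mul_mem h3 (add_mem hx₁A he)) (mul_mem (S05_two_mem A) hW.a₂)
  · have e2 : 2 * y₁ + W.a₁ * x₁ + W.a₃ = 2 * (y₁ - yT) + W.a₁ * (x₁ - e) := by
      linear_combination h2T
    rw [e2]
    exact S05_add_mem_nonunits A (S05_mul_mem_nonunits A (S05_two_mem A) hY₁n)
      (S05_mul_mem_nonunits A hW.a₁ hX₁n)

/-- **the tangent at a point with `D_x` a unit and `D_y ≠ 0` in the maximal ideal**: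
`v(D_y)² · v(x(2P₁)) = 1`. -/
theorem S40WE_val_tangent (hW : S05_Integral W A) {x₁ y₁ : K} (h₁ : W.Nonsingular x₁ y₁)
    (hx₁ : x₁ ∈ A)
    (hDx : W.a₁ * y₁ - (3 * x₁ ^ 2 + 2 * W.a₂ * x₁ + W.a₄) ∉ A.nonunits)
    (hDy : 2 * y₁ + W.a₁ * x₁ + W.a₃ ∈ A.nonunits)
    (hDy0 : y₁ ≠ W.negY x₁ y₁) :
    ∃ x₂, S51_c_IsX ((Point.some x₁ y₁ h₁ : W.Point) + Point.some x₁ y₁ h₁) x₂ ∧ x₂ ∉ A ∧
      v (2 * y₁ + W.a₁ * x₁ + W.a₃) ^ 2 * v x₂ = 1 := by
  have hle : ∀ {z : K}, z ∈ A → v z ≤ 1 := fun hz => (A.valuation_le_one_iff _).mpr hz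
  have hy₁ : y₁ ∈ A := S05_y_mem A hW.a₁ hW.a₂ hW.a₃ hW.a₄ hW.a₆ h₁.1 hx₁
  have h3 : (3 : K) ∈ A := by exact_mod_cast natCast_mem A 3
  have hDxA : W.a₁ * y₁ - (3 * x₁ ^ 2 + 2 * W.a₂ * x₁ + W.a₄) ∈ A :=
    sub_mem (mul_mem hW.a₁ hy₁) (add_mem (add_mem (mul_mem h3 (pow_mem hx₁ 2))
      (mul_mem (mul_mem (S05_two_mem A) hW.a₂) hx₁)) hW.a₄)
  have hvDx : v (W.a₁ * y₁ - (3 * x₁ ^ 2 + 2 * W.a₂ * x₁ + W.a₄)) = 1 := by
    rw [A.mem_nonunits_iff, not_lt] at hDx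
    exact le_antisymm (hle hDxA) hDx
  have hxy : ¬(x₁ = x₁ ∧ y₁ = W.negY x₁ y₁) := fun hh => hDy0 hh.2
  have hD0 : 2 * y₁ + W.a₁ * x₁ + W.a₃ ≠ 0 := by
    intro h0
    apply hDy0
    simp only [Affine.negY]
    linear_combination h0
  have hvD0 : v (2 * y₁ + W.a₁ * x₁ + W.a₃) ≠ 0 := (Valuation.ne_zero_iff _).mpr hD0
  have hvDlt : v (2 * y₁ + W.a₁ * x₁ + W.a₃) < 1 := A.mem_nonunits_iff.mp hDy
  set l : K := (3 * x₁ ^ 2 + 2 * W.a₂ * x₁ + W.a₄ - W.a₁ * y₁) / (y₁ - W.negY x₁ y₁) with hl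
  have hden : y₁ - W.negY x₁ y₁ = 2 * y₁ + W.a₁ * x₁ + W.a₃ := by
    simp only [Affine.negY]
    ring
  have hnum : 3 * x₁ ^ 2 + 2 * W.a₂ * x₁ + W.a₄ - W.a₁ * y₁ =
      -(W.a₁ * y₁ - (3 * x₁ ^ 2 + 2 * W.a₂ * x₁ + W.a₄)) := by ring
  have hvl : v l = (v (2 * y₁ + W.a₁ * x₁ + W.a₃))⁻¹ := by
    rw [hl, map_div₀, hden, hnum, Valuation.map_neg, hvDx, one_div]
  have hl1 : 1 < v l := by
    rw [hvl]
    exact (one_lt_inv₀ (zero_lt_iff.mpr hvD0)).mpr hvDlt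
  have hval := S40Fc_val_addX_eq A.valuation (hle hW.a₁) (hle hW.a₂) (hle hx₁) (hle hx₁) hl1
  rw [Affine.Point.add_some hxy]
  refine ⟨_, ⟨_, _, rfl⟩, ?_, ?_⟩
  · rw [Affine.slope_of_Y_ne rfl hDy0]
    intro hmem
    have h1 := hle hmem
    simp only [Affine.addX] at h1
    rw [← hl, hval] at h1
    exact absurd h1 (not_le.mpr (one_lt_pow₀ hl1 (by norm_num)))
  · rw [Affine.slope_of_Y_ne rfl hDy0]
    simp only [Affine.addX]
    rw [← hl, hval, hvl, inv_pow, mul_inv_cancel₀ (pow_ne_zero 2 hvD0)]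

end Pts

section general

variable {R : Type*} {S : Type*} {K : Type*} [CommRing R] [CommRing S] [Field K]
  [DecidableEq K] {W' : Affine R} [Algebra R S] [Algebra R K] [Algebra S K]
  [IsScalarTower R S K] (A : ValuationSubring K)

local notation "v" => ValuationSubring.valuation A

/-- equality of affine points from equality of coordinates. -/
theorem S40WE_some_eq {x y a b : K} (h : (W'⁄K).Nonsingular x y)
    (hab : (W'⁄K).Nonsingular a b) (ha : a = x) (hb : b = y) :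
    (Point.some a b hab : (W'⁄K).Point) = Point.some x y h := by
  subst ha
  subst hb
  rfl

/-- the Galois action is additive. -/
theorem S40WE_smul_add (σ : K ≃ₐ[S] K) (P Q : (W'⁄K).Point) : σ • (P + Q) = σ • P + σ • Q :=
  (Point.map σ.toAlgHom).map_add P Q

/-- **CASE E, the chord isometry** at `P₁ = P + T`. -/
theorem S40WE_chord (hW : S05_Integral (W'⁄K) A) {e yT : K} (hT : (W'⁄K).Nonsingular e yT)
    (h2T : 2 * yT + (W'⁄K).a₁ * e + (W'⁄K).a₃ = 0) (he : e ∈ A)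
    (hc : 3 * e ^ 2 + 2 * (W'⁄K).a₂ * e + (W'⁄K).a₄ - (W'⁄K).a₁ * yT ∉ A.nonunits)
    (σ : K ≃ₐ[S] K) (hσ : ∀ x ∈ A, σ x - x ∈ A.nonunits) (hσA : ∀ x, σ x ∈ A ↔ x ∈ A)
    (hσe : σ e = e) (hσy : σ yT = yT)
    {x y : K} (h : (W'⁄K).Nonsingular x y) (hx : x ∉ A)
    (hne : σ • (Point.some x y h : (W'⁄K).Point) ≠ Point.some x y h) :
    ∃ (x₁ y₁ : K) (h₁ : (W'⁄K).Nonsingular x₁ y₁),
      (Point.some x y h : (W'⁄K).Point) + Point.some e yT hT = Point.some x₁ y₁ h₁ ∧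
      x₁ ∈ A ∧ y₁ ∈ A ∧
      ∃ xQ, S51_c_IsX (σ • (Point.some x y h : (W'⁄K).Point) - Point.some x y h) xQ ∧
        xQ ∉ A ∧ max (v (σ x₁ - x₁)) (v (σ y₁ - y₁)) ^ 2 * v xQ = 1 := by
  obtain ⟨x₁, y₁, h₁, hadd, hx₁A, hy₁A, hDx, hDy⟩ := S40WE_translate A hW hT h h2T he hc hx
  refine ⟨x₁, y₁, h₁, hadd, hx₁A, hy₁A, ?_⟩
  have hns : (W'⁄K).Nonsingular (σ x₁) (σ y₁) :=
    (W'.baseChange_nonsingular σ.toAlgHom.injective ..).mpr h₁
  have hσT : σ • (Point.some e yT hT : (W'⁄K).Point) = Point.some e yT hT := by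
    rw [S05_smul_some]
    exact S40WE_some_eq hT _ hσe hσy
  have hσP₁ : σ • (Point.some x₁ y₁ h₁ : (W'⁄K).Point) =
      σ • (Point.some x y h : (W'⁄K).Point) + Point.some e yT hT := by
    rw [← hadd, S40WE_smul_add, hσT]
  have hdiff : σ • (Point.some x₁ y₁ h₁ : (W'⁄K).Point) - Point.some x₁ y₁ h₁ =
      σ • (Point.some x y h : (W'⁄K).Point) - Point.some x y h := by
    rw [hσP₁, ← hadd]
    abel
  have hne₁ : σ • (Point.some x₁ y₁ h₁ : (W'⁄K).Point) ≠ Point.some x₁ y₁ h₁ := by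
    intro h0
    apply hne
    rw [hσP₁, ← hadd] at h0
    exact add_right_cancel h0
  have hσP₁' : σ • (Point.some x₁ y₁ h₁ : (W'⁄K).Point) = Point.some (σ x₁) (σ y₁) hns :=
    S05_smul_some σ h₁
  by_cases hxe : σ x₁ = x₁
  · -- the degenerate case `σ P₁ = − P₁`
    have hyne : σ y₁ ≠ y₁ := by
      intro hye
      apply hne₁
      rw [hσP₁']
      exact S40WE_some_eq h₁ hns hxe hye
    have hyneg : σ y₁ = (W'⁄K).negY x₁ y₁ := by
      rcases Affine.Y_eq_of_X_eq hns.1 h₁.1 hxe with h0 | h0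
      · exact absurd h0 hyne
      · exact h0
    have hDy0 : y₁ ≠ (W'⁄K).negY x₁ y₁ := fun h0 => hyne (hyneg.trans h0.symm)
    obtain ⟨x₂, hx₂, hx₂A, hval⟩ := S40WE_val_tangent A hW h₁ hx₁A hDx hDy hDy0
    have hnegP₁ : σ • (Point.some x₁ y₁ h₁ : (W'⁄K).Point) = -Point.some x₁ y₁ h₁ := by
      rw [hσP₁', Affine.Point.neg_some]
      exact S40WE_some_eq _ hns hxe hyneg
    refine ⟨x₂, ?_, hx₂A, ?_⟩
    · rw [← hdiff, hnegP₁]
      have : -(Point.some x₁ y₁ h₁ : (W'⁄K).Point) - Point.some x₁ y₁ h₁ =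
          -(Point.some x₁ y₁ h₁ + Point.some x₁ y₁ h₁) := by abel
      rw [this]
      exact hx₂.neg
    · have e1 : σ x₁ - x₁ = 0 := sub_eq_zero.mpr hxe
      have e2 : σ y₁ - y₁ = -(2 * y₁ + (W'⁄K).a₁ * x₁ + (W'⁄K).a₃) := by
        rw [hyneg]
        simp only [Affine.negY]
        ring
      rw [e1, e2, _root_.map_zero, Valuation.map_neg, max_eq_right zero_le]
      exact hval
  · obtain ⟨xQ, hxQ, hxQA, hmax⟩ := S40Fc_chord A hW h₁ hns hx₁A ((hσA x₁).2 hx₁A)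
      (hσ x₁ hx₁A) (hσ y₁ hy₁A) hxe (Or.inr hDx)
    refine ⟨xQ, ?_, hxQA, hmax⟩
    rw [← hdiff, hσP₁']
    exact hxQ

/-- **CASE E, depth**: a coordinate `z` of `P₁ = P + T` with `v(p) ≤ v(σ z − z) ^ (p − 1)`. -/
theorem S40WE_depth [CharZero K] (hW : S05_Integral (W'⁄K) A) {e yT : K}
    (hT : (W'⁄K).Nonsingular e yT)
    (h2T : 2 * yT + (W'⁄K).a₁ * e + (W'⁄K).a₃ = 0) (he : e ∈ A)
    (hc : 3 * e ^ 2 + 2 * (W'⁄K).a₂ * e + (W'⁄K).a₄ - (W'⁄K).a₁ * yT ∉ A.nonunits)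
    {p : ℕ} (hp : p.Prime) (hp2 : p ≠ 2)
    (σ : K ≃ₐ[S] K) (hσ : ∀ x ∈ A, σ x - x ∈ A.nonunits) (hσA : ∀ x, σ x ∈ A ↔ x ∈ A)
    (hσe : σ e = e) (hσy : σ yT = yT)
    {x y : K} (h : (W'⁄K).Nonsingular x y) (hx : x ∉ A)
    (hQ : p • (Point.some x y h : (W'⁄K).Point) = 0)
    (hne : σ • (Point.some x y h : (W'⁄K).Point) ≠ Point.some x y h) :
    ∃ (x₁ y₁ : K) (h₁ : (W'⁄K).Nonsingular x₁ y₁),
      (Point.some x y h : (W'⁄K).Point) + Point.some e yT hT = Point.some x₁ y₁ h₁ ∧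
      ∃ z : K, z ∈ A ∧ (z = x₁ ∨ z = y₁) ∧ v (p : K) ≤ v (σ z - z) ^ (p - 1) := by
  have hodd : Odd p := hp.odd_of_ne_two hp2
  obtain ⟨x₁, y₁, h₁, hadd, hx₁A, hy₁A, xQ, hxQ, hxQA, hmax⟩ :=
    S40WE_chord A hW hT h2T he hc σ hσ hσA hσe hσy h hx hne
  refine ⟨x₁, y₁, h₁, hadd, ?_⟩
  have hpQ : p • (σ • (Point.some x y h : (W'⁄K).Point) - Point.some x y h) = 0 := by
    rw [nsmul_sub, ← S05_smul_nsmul, hQ, S05_smul_zero, sub_zero]
  have hb := S40Fb_main A hW hp hp2 hxQ hxQA hpQ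
  set M := max (v (σ x₁ - x₁)) (v (σ y₁ - y₁)) with hM
  have hxQ0 : xQ ≠ 0 := by
    rintro rfl
    exact hxQA (zero_mem A)
  have hvxQ0 : v xQ ≠ 0 := (Valuation.ne_zero_iff _).2 hxQ0
  have hinv : (v xQ)⁻¹ = M ^ 2 := by
    rw [eq_comm, ← mul_inv_eq_one₀ (inv_ne_zero hvxQ0), inv_inv]
    exact hmax
  have hpow : ((v xQ)⁻¹) ^ ((p - 1) / 2) = M ^ (p - 1) := by
    rw [hinv, ← pow_mul]
    congr 1
    obtain ⟨m, hm⟩ := hodd
    omega
  rw [hpow] at hb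
  rcases le_total (v (σ x₁ - x₁)) (v (σ y₁ - y₁)) with hle | hle
  · refine ⟨y₁, hy₁A, Or.inr rfl, ?_⟩
    rwa [hM, max_eq_right hle] at hb
  · refine ⟨x₁, hx₁A, Or.inl rfl, ?_⟩
    rwa [hM, max_eq_left hle] at hb

end general

end Fermat.Agent.S40
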