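import Mathlib
import Fermat.Agent.S05.Near
import Fermat.Agent.S05.NodeLevelFinal
import Fermat.Agent.S05.Final
import Fermat.Agent.S40.F1b
import Fermat.Agent.S40.F1c
import Fermat.Agent.S13.AtPSub
import Fermat.Agent.S05.FreyNode

/-!
# TRACK 13 (row 38, target S44), package W-MULT, CASE N: NODE DEPTH (helper28).  Prefix `S40WN_`.

`E` a Weierstrass curve with integral coefficients at a valuation ring `A`, with a NODE datum
`S05_Node E A x₀` (multiplicative reduction, `β = b₄ + b₂x₀ + 6x₀²` a nonzero non-unit).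
`P = (x, y)` a point of odd prime order `p` REDUCING TO THE NODE (`v (x − x₀) < 1`), `σ` in the
inertia group with `σ P ≠ P`, `Q := σ P − P` in the kernel of reduction.

* `S40WN_val_N`      : valuation algebra: `v d < v N` (`d = x' − x`, `N = y' + y + a₁x + a₃`)
  forces `v N = v (x − x₀)` (both points on the SAME branch of the node).
* `S40WN_chord_node` : **the chord formula at the node**:
  `v (x' − x)² · v (x_Q) = v (x − x₀)²`.
* `S40WN_ne_neg`     : `σ P ≠ − P`.
* `S40WN_depth_node` : **depth at the node**: with the node level `v (x − x₀) = v (r ^ (2k))`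
  (`S05_node_level`, `v β = v r ^ p`, `r` fixed by `σ`), `z := (x − x₀) / r ^ (2k)` is a unit
  of `A` with `v p ≤ v (σ z − z) ^ (p − 1)`  (uses (b) = `S40Fb_main`).
* `S40WN_depth_frey_at`, `S40WN_depth_frey_ab`, `S40WN_depth_frey_c` : the same for the Frey curve
  of a Frey package at a place over `p ∣ abc`, in the shape of the depth property
  (`z ∈ A`, `g P = g' P ⇒ g z = g' z` for ALL `g, g' ∈ G_ℚ`, depth inequality); here
  `Q ∈ E₁` is `S05_sub_inE1_node_of` (on main).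
-/

set_option autoImplicit false
set_option linter.unusedSectionVars false
set_option linter.unusedVariables false

namespace Fermat.Agent.S40

open WeierstrassCurve WeierstrassCurve.Affine WeierstrassCurve.Affine.Point
open Fermat.Agent.S05 Fermat.Agent.S51 Fermat.Agent.S13

section Val

variable {K : Type*} [Field K] {Γ : Type*} [LinearOrderedCommGroupWithZero Γ] (v : Valuation K Γ)

/-- **node chord, valuation form**: `D² = X·G(X)`, `D'² = X'·G(X')` (`G(T) = 4T² + uT + 2β`),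
`v D = v X`, `v D' = v X'`, `d = X' − X`, `2N = D + D' − a₁ d`, and `v d < v N`
(the difference lies in the kernel of reduction).  Then `v N = v X`. -/
theorem S40WN_val_N {X X' D D' a₁ u β N d : K}
    (h2 : v (2 : K) = 1) (h4 : v (4 : K) ≤ 1) (hu : v u ≤ 1) (ha₁ : v a₁ ≤ 1)
    (hD : D ^ 2 = X * (4 * X ^ 2 + u * X + 2 * β))
    (hD' : D' ^ 2 = X' * (4 * X' ^ 2 + u * X' + 2 * β))
    (hvD : v D = v X) (hvD' : v D' = v X')
    (hd : d = X' - X) (hN : 2 * N = D + D' - a₁ * d)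
    (hX : v X < 1) (hβ : v β < v X)
    (hdN : v d < v N) : v N = v X ∧ v X' = v X ∧ v d < v X := by
  have hN2 : v N = v (D + D' - a₁ * d) := by rw [← hN, map_mul, h2, one_mul]
  have had : v (a₁ * d) ≤ v d := by
    rw [map_mul]
    exact mul_le_of_le_one_left' ha₁
  -- Step 1
  have hXX : v X' = v X := by
    by_contra hne
    have hdmax : v d = max (v X') (v X) := by
      rw [hd, sub_eq_add_neg]
      have h0 := Valuation.map_add_of_distinct_val v (x := X') (y := -X)
        (by rwa [Valuation.map_neg])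
      rwa [Valuation.map_neg] at h0
    have h1 : v N ≤ v d := by
      rw [hN2]
      refine Valuation.map_sub_le v (Valuation.map_add_le v ?_ ?_) had
      · rw [hvD, hdmax]; exact le_max_right _ _
      · rw [hvD', hdmax]; exact le_max_left _ _
    exact absurd hdN (not_lt.2 h1)
  rw [hXX] at hvD'
  have hX0 : 0 < v X := lt_of_le_of_lt zero_le hβ
  -- Step 2
  have hdX : v d < v X := by
    by_contra hcon
    rw [not_lt] at hcon
    have h1 : v N ≤ v d := by
      rw [hN2]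
      refine Valuation.map_sub_le v (Valuation.map_add_le v ?_ ?_) had
      · rw [hvD]; exact hcon
      · rw [hvD']; exact hcon
    exact absurd hdN (not_lt.2 h1)
  -- Step 3
  have hsum_le : v (D + D') ≤ v X := Valuation.map_add_le v hvD.le hvD'.le
  have hsum : v (D + D') = v X := by
    refine le_antisymm hsum_le ?_
    by_contra hlt
    rw [not_le] at hlt
    have h2D : v (2 * D) = v X := by rw [map_mul, h2, one_mul, hvD]
    have hdiff : v (D' - D) = v X := by
      have e : D' - D = (D + D') - 2 * D := by ring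
      rw [e, Valuation.map_sub_eq_of_lt_right v (by rw [h2D]; exact hlt), h2D]
    have hid : (D' - D) * (D + D') =
        d * (4 * (X' ^ 2 + X' * X + X ^ 2) + u * (X' + X) + 2 * β) := by
      rw [hd]
      linear_combination hD' - hD
    have hXsq : v X * v X ≤ v X := by
      calc v X * v X ≤ v X * 1 := mul_le_mul_right hX.le _
        _ = v X := mul_one _
    have hH : v (4 * (X' ^ 2 + X' * X + X ^ 2) + u * (X' + X) + 2 * β) ≤ v X := by
      refine Valuation.map_add_le v (Valuation.map_add_le v ?_ ?_) ?_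
      · rw [map_mul]
        refine le_trans (mul_le_of_le_one_left' h4) ?_
        refine Valuation.map_add_le v (Valuation.map_add_le v ?_ ?_) ?_
        · rw [map_pow, hXX, pow_two]; exact hXsq
        · rw [map_mul, hXX]; exact hXsq
        · rw [map_pow, pow_two]; exact hXsq
      · rw [map_mul]
        refine le_trans (mul_le_of_le_one_left' hu) ?_
        exact Valuation.map_add_le v hXX.le le_rfl
      · rw [map_mul, h2, one_mul]; exact hβ.le
    have h3 := congrArg v hid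
    rw [map_mul, map_mul, hdiff] at h3
    have h4' : v X * v (D + D') ≤ v X * v d := by
      rw [h3, mul_comm (v X) (v d)]
      exact mul_le_mul_right hH _
    have h5 : v (D + D') ≤ v d := le_of_mul_le_mul_left h4' hX0
    have h1 : v N ≤ v d := by
      rw [hN2]
      exact Valuation.map_sub_le v h5 had
    exact absurd hdN (not_lt.2 h1)
  refine ⟨?_, hXX, hdX⟩
  rw [hN2, Valuation.map_sub_eq_of_lt_left v (by rw [hsum]; exact lt_of_le_of_lt had hdX), hsum]

end Val

section Pts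

variable {K : Type*} [Field K] [DecidableEq K] (A : ValuationSubring K)
  {W : WeierstrassCurve.Affine K}

/-- `D_y² = X · (4X² + (b₂ + 12x₀)X + 2β)` at a point of the curve. -/
theorem S40WN_D_sq {x₀ : K} (root : W.Ψ₂Sq.eval x₀ = 0) {x y : K} (h : W.Nonsingular x y) :
    (2 * y + W.a₁ * x + W.a₃) ^ 2 = (x - x₀) * (4 * (x - x₀) ^ 2 + (W.b₂ + 12 * x₀) * (x - x₀)
      + 2 * (W.b₄ + W.b₂ * x₀ + 6 * x₀ ^ 2)) := by
  rw [← S05_eval_Ψ₂Sq_shift W root x, S51_c_eval_Ψ₂Sq_eq h.1]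
  simp only [Affine.negY]
  ring

/-- **the chord formula at the node**: `P = (x, y)`, `P' = (x', y')` two points reducing to the
node, both of level above `v β`, `x' ≠ x`, with `P' − P` in the kernel of reduction
(`X`-coordinate `x_Q ∉ A`).  Then `v (x' − x)² · v (x_Q) = v (x − x₀)²`. -/
theorem S40WN_chord_node (hW : S05_Integral W A) (h2 : A.valuation (2 : K) = 1) {x₀ : K}
    (x₀_mem : x₀ ∈ A) (root : W.Ψ₂Sq.eval x₀ = 0)
    (b₂_unit : A.valuation (W.b₂ + 12 * x₀) = 1)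
    {x y x' y' : K} (h : W.Nonsingular x y) (h' : W.Nonsingular x' y')
    (hX : A.valuation (x - x₀) < 1)
    (hβ : A.valuation (W.b₄ + W.b₂ * x₀ + 6 * x₀ ^ 2) < A.valuation (x - x₀))
    (hX' : A.valuation (x' - x₀) < 1)
    (hβ' : A.valuation (W.b₄ + W.b₂ * x₀ + 6 * x₀ ^ 2) < A.valuation (x' - x₀))
    (hxe : x' ≠ x) {xQ : K}
    (hxQ : S51_c_IsX ((Affine.Point.some x' y' h' : W.Point) - Affine.Point.some x y h) xQ)
    (hxQA : xQ ∉ A) :
    A.valuation (x' - x) ^ 2 * A.valuation xQ = A.valuation (x - x₀) ^ 2 ∧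
      A.valuation (x' - x₀) = A.valuation (x - x₀) := by
  set v := A.valuation with hv
  have hle : ∀ {z : K}, z ∈ A → v z ≤ 1 := fun hz => (A.valuation_le_one_iff _).mpr hz
  have hxA : x ∈ A := by
    have : x = (x - x₀) + x₀ := by ring
    rw [this]
    exact add_mem ((A.valuation_le_one_iff _).mp hX.le) x₀_mem
  have hx'A : x' ∈ A := by
    have : x' = (x' - x₀) + x₀ := by ring
    rw [this]
    exact add_mem ((A.valuation_le_one_iff _).mp hX'.le) x₀_mem
  have hneg : -(Affine.Point.some x y h : W.Point) =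
      Affine.Point.some x (W.negY x y) ((Affine.nonsingular_neg ..).mpr h) :=
    Affine.Point.neg_some h
  have hxy : ¬(x' = x ∧ y' = W.negY x (W.negY x y)) := fun hh => hxe hh.1
  rw [sub_eq_add_neg, hneg, Affine.Point.add_some hxy] at hxQ
  have hxQeq : xQ = W.addX x' x (W.slope x' x y' (W.negY x y)) := by
    obtain ⟨yQ, hQ, e⟩ := hxQ
    simp only [Affine.Point.some.injEq] at e
    exact e.1.symm
  rw [Affine.slope_of_X_ne hxe] at hxQeq
  have hNeq : y' - W.negY x y = y' + y + W.a₁ * x + W.a₃ := by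
    simp only [Affine.negY]; ring
  rw [hNeq] at hxQeq
  set N : K := y' + y + W.a₁ * x + W.a₃ with hNdef
  set d : K := x' - x with hddef
  have hd0 : d ≠ 0 := sub_ne_zero.mpr hxe
  have hvd0 : v d ≠ 0 := (Valuation.ne_zero_iff _).mpr hd0
  have hvdpos : 0 < v d := zero_lt_iff.mpr hvd0
  -- `1 < v (N / d)`
  have hl1 : 1 < v (N / d) := by
    by_contra hcon
    rw [not_lt] at hcon
    apply hxQA
    rw [hxQeq]
    have hlA : N / d ∈ A := (A.valuation_le_one_iff _).mp hcon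
    simp only [Affine.addX]
    exact sub_mem (sub_mem (sub_mem (add_mem (pow_mem hlA 2) (mul_mem hW.a₁ hlA)) hW.a₂) hx'A) hxA
  have hvxQ : v xQ = v (N / d) ^ 2 := by
    rw [hxQeq]
    simp only [Affine.addX]
    exact S40Fc_val_addX_eq v (hle hW.a₁) (hle hW.a₂) (hle hxA) (hle hx'A) hl1
  have hdN : v d < v N := by
    by_contra hcon
    rw [not_lt] at hcon
    rw [map_div₀] at hl1
    exact absurd hl1 (not_lt.2 ((div_le_one₀ hvdpos).mpr hcon))
  -- the valuation lemma
  have hb₂ : v (W.b₂ + 12 * x₀) ≤ 1 := b₂_unit.le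
  have key := S40WN_val_N v (X := x - x₀) (X' := x' - x₀) (D := 2 * y + W.a₁ * x + W.a₃)
    (D' := 2 * y' + W.a₁ * x' + W.a₃) (a₁ := W.a₁) (u := W.b₂ + 12 * x₀)
    (β := W.b₄ + W.b₂ * x₀ + 6 * x₀ ^ 2) (N := N) (d := d) h2 (hle (S05_four_mem A)) hb₂
    (hle hW.a₁) (S40WN_D_sq root h) (S40WN_D_sq root h')
    (S05_val_D_eq A h2 root b₂_unit h hX hβ) (S05_val_D_eq A h2 root b₂_unit h' hX' hβ')
    (by rw [hddef]; ring) (by rw [hNdef, hddef]; ring) hX hβ hdN
  refine ⟨?_, key.2.1⟩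
  rw [hvxQ, map_div₀, div_pow, key.1, mul_div_assoc', mul_comm, mul_div_assoc,
    div_self (pow_ne_zero 2 hvd0), mul_one]

end Pts

section general

variable {R : Type*} {S : Type*} {K : Type*} [CommRing R] [CommRing S] [Field K] [CharZero K]
  [DecidableEq K] {W' : Affine R} [Algebra R S] [Algebra R K] [Algebra S K]
  [IsScalarTower R S K] (A : ValuationSubring K)

local notation "v" => ValuationSubring.valuation A

/-- the kernel of reduction is stable under negation. -/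
theorem S40WN_inE1_neg {W : WeierstrassCurve.Affine K} {Q : W.Point} (hQ : S05_InE1 A Q) :
    S05_InE1 A (-Q) := by
  rcases hQ with rfl | ⟨x, hx, hxA⟩
  · left; simp
  · right; exact ⟨x, hx.neg, hxA⟩

/-- an integral point of odd order `p` is not sent to its negative by `σ` if `σ P − P` lies in
the kernel of reduction. -/
theorem S40WN_ne_neg {W : WeierstrassCurve.Affine K} (hW : S05_Integral W A) {p : ℕ}
    (hp : Odd p) {P P' : W.Point} {x : K} (hPx : S51_c_IsX P x) (hx : x ∈ A)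
    (hP : p • P = 0) (hQ : S05_InE1 A (P' - P)) : P' ≠ -P := by
  intro hneg
  rw [hneg] at hQ
  have h2 : S05_InE1 A (2 • P) := by
    have e : 2 • P = -(-P - P) := by rw [two_nsmul]; abel
    rw [e]
    exact S40WN_inE1_neg A hQ
  obtain ⟨m, rfl⟩ := hp
  have h3 := S05_inE1_nsmul_gen A hW h2 (m + 1)
  have e : (m + 1) • (2 • P) = P := by
    have : (m + 1) • (2 • P) = (2 * m + 1) • P + P := by module
    rw [this, hP, zero_add]
  rw [e] at h3
  rcases h3 with h0 | ⟨x', hx', hx'A⟩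
  · exact hPx.ne_zero h0
  · exact hx'A (hx'.unique hPx ▸ hx)

/-- **NODE DEPTH (case N)**, general form.  `P = (x, y)` a point of odd prime order `p` reducing
to the node (`v (x − x₀) < 1`), `σ` acting trivially on the residue field with `σ x₀ = x₀`,
`σ r = r` (`v β = v r ^ p`), `σ P ≠ P`, `σ P − P` in the kernel of reduction.  Then
`z := (x − x₀) / r ^ (2k)` (the `k` of the node level) is a unit of `A` with
`v p ≤ v (σ z − z) ^ (p − 1)`. -/
theorem S40WN_depth_node {x₀ : K} (hN : S05_Node (W'⁄K) A x₀)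
    {p : ℕ} (hp : p.Prime) (hp2 : p ≠ 2) (σ : K ≃ₐ[S] K)
    (hσ : ∀ x ∈ A, σ x - x ∈ A.nonunits)
    (hσx₀ : σ x₀ = x₀) {r : K} (hr : σ r = r)
    (hβr : v ((W'⁄K).b₄ + (W'⁄K).b₂ * x₀ + 6 * x₀ ^ 2) = v r ^ p)
    {x y : K} (h : (W'⁄K).Nonsingular x y) (hX : v (x - x₀) < 1)
    (hP : p • (Point.some x y h : (W'⁄K).Point) = 0)
    (hσP : σ • (Point.some x y h : (W'⁄K).Point) ≠ Point.some x y h)
    (hQ : S05_InE1 A (σ • (Point.some x y h : (W'⁄K).Point) - Point.some x y h)) :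
    ∃ k : ℤ, v ((x - x₀) / r ^ (2 * k)) = 1 ∧
      v (p : K) ≤ v (σ ((x - x₀) / r ^ (2 * k)) - (x - x₀) / r ^ (2 * k)) ^ (p - 1) := by
  have hW := hN.int
  have h2 := hN.two
  have hodd : Odd p := hp.odd_of_ne_two hp2
  have hxA : x ∈ A := by
    have : x = (x - x₀) + x₀ := by ring
    rw [this]
    exact add_mem ((A.valuation_le_one_iff _).mp hX.le) hN.x₀_mem
  obtain ⟨hβX, k, hk⟩ := S05_node_level A hN h hp hp2 hP hX
  -- the conjugate point
  have hns : (W'⁄K).Nonsingular (σ x) (σ y) :=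
    (W'.baseChange_nonsingular σ.toAlgHom.injective ..).mpr h
  have hσsome : σ • (Point.some x y h : (W'⁄K).Point) = Point.some (σ x) (σ y) hns := rfl
  have hP' : p • (Point.some (σ x) (σ y) hns : (W'⁄K).Point) = 0 := by
    rw [← hσsome, ← S05_smul_nsmul, hP, S05_smul_zero]
  have hX' : v (σ x - x₀) < 1 := by
    have e : σ x - x₀ = (σ x - x) + (x - x₀) := by ring
    rw [e]
    exact Valuation.map_add_lt _ (A.mem_nonunits_iff.1 (hσ x hxA)) hX
  obtain ⟨hβX', -, -⟩ := S05_node_level A hN hns hp hp2 hP' hX'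
  rw [hσsome] at hσP hQ
  -- `σ x ≠ x`
  have hPx : S51_c_IsX (Point.some x y h : (W'⁄K).Point) x := ⟨y, h, rfl⟩
  have hnn := S40WN_ne_neg A hW hodd hPx hxA hP hQ
  have hxe : σ x ≠ x := by
    intro hxe
    rcases Affine.Y_eq_of_X_eq hns.1 h.1 hxe with hyy | hyy
    · exact hσP (by simp only [hxe, hyy])
    · apply hnn
      rw [Affine.Point.neg_some h]
      simp only [hxe, hyy]
  -- the `X`-coordinate of `Q`
  obtain ⟨xQ, hxQ, hxQA⟩ : ∃ xQ, S51_c_IsX ((Point.some (σ x) (σ y) hns : (W'⁄K).Point) -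
      Point.some x y h) xQ ∧ xQ ∉ A := by
    rcases hQ with h0 | h0
    · exact absurd (sub_eq_zero.1 h0) hσP
    · exact h0
  have hpQ : p • ((Point.some (σ x) (σ y) hns : (W'⁄K).Point) - Point.some x y h) = 0 := by
    rw [nsmul_sub, hP', hP, sub_zero]
  have hb := S40Fb_main A hW hp hp2 hxQ hxQA hpQ
  obtain ⟨hchord, -⟩ := S40WN_chord_node A hW h2 hN.x₀_mem hN.root hN.b₂_unit h hns hX hβX hX'
    hβX' hxe hxQ hxQA
  -- the constant `ρ = r ^ (2k)`
  set β : K := (W'⁄K).b₄ + (W'⁄K).b₂ * x₀ + 6 * x₀ ^ 2 with hβdef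
  set X : K := x - x₀ with hXdef
  have hβ0 : v β ≠ 0 := by
    rw [ne_eq, map_eq_zero]; exact hN.β_ne
  have hX0 : v X ≠ 0 := ne_of_gt (lt_of_le_of_lt zero_le hβX)
  have hr0 : r ≠ 0 := by
    rintro rfl
    rw [_root_.map_zero, zero_pow hp.ne_zero] at hβr
    exact hβ0 hβr
  set ρ : K := r ^ (2 * k) with hρdef
  have hρ0 : ρ ≠ 0 := zpow_ne_zero _ hr0
  have hvρ : v ρ = v X := by
    have h1 : v X ^ p = (v r ^ (2 * k)) ^ p := by
      rw [hk, hβr, ← zpow_natCast, ← zpow_natCast, ← zpow_mul, ← zpow_mul, mul_comm]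
    rw [hρdef, map_zpow₀]
    exact ((pow_left_inj₀ zero_le zero_le hp.ne_zero).1 h1).symm
  have hσρ : σ ρ = ρ := by rw [hρdef, map_zpow₀, hr]
  refine ⟨k, ?_, ?_⟩
  · rw [map_div₀, hvρ, div_self hX0]
  -- `σ z − z = (σ x − x) / ρ`
  have hz : σ (X / ρ) - X / ρ = (σ x - x) / ρ := by
    rw [map_div₀, hσρ, hXdef, map_sub, hσx₀]
    ring
  rw [hz, map_div₀, hvρ]
  -- `(v x_Q)⁻¹ = (v (σ x − x) / v X) ^ 2`
  have hxQ0 : v xQ ≠ 0 := by
    rw [ne_eq, map_eq_zero]
    rintro rfl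
    exact hxQA (zero_mem A)
  have hinv : (v xQ)⁻¹ = (v (σ x - x) / v X) ^ 2 := by
    have hd0 : v (σ x - x) ≠ 0 := by
      rw [ne_eq, map_eq_zero]
      exact sub_ne_zero.2 hxe
    rw [div_pow, ← hchord, div_mul_cancel_left₀ (pow_ne_zero 2 hd0)]
  have hpow : ((v xQ)⁻¹) ^ ((p - 1) / 2) = (v (σ x - x) / v X) ^ (p - 1) := by
    rw [hinv, ← pow_mul]
    congr 1
    obtain ⟨m, hm⟩ := hodd
    omega
  rw [hpow] at hb
  exact hb

end general

section Frey

local notation "ℚbar" => AlgebraicClosure ℚ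
local notation "Gℚ" => (AlgebraicClosure ℚ ≃ₐ[ℚ] AlgebraicClosure ℚ)

variable (P : FreyPackage) (A : ValuationSubring ℚbar)

/-- **NODE DEPTH (case N) for the Frey curve**, at a node datum `x₀` with rational `x₀`, `r`. -/
theorem S40WN_depth_frey_at {x₀ : ℚbar} (hN : S05_Node (P.freyCurve⁄ℚbar) A x₀)
    (hx₀ : ∀ g : Gℚ, g x₀ = x₀) {r : ℚbar} (hr : ∀ g : Gℚ, g r = r)
    (hβr : A.valuation ((P.freyCurve⁄ℚbar).b₄ + (P.freyCurve⁄ℚbar).b₂ * x₀ + 6 * x₀ ^ 2) =
      A.valuation r ^ P.p)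
    (σ : Gℚ) (hσ : S13_Inert A σ) {x y : ℚbar} (h : (P.freyCurve⁄ℚbar).Nonsingular x y)
    (hX : A.valuation (x - x₀) < 1)
    (hP : P.p • (Point.some x y h : (P.freyCurve⁄ℚbar).Point) = 0)
    (hσP : σ • (Point.some x y h : (P.freyCurve⁄ℚbar).Point) ≠ Point.some x y h) :
    ∃ z : ℚbar, z ∈ A ∧
      (∀ g g' : Gℚ, g • (Point.some x y h : (P.freyCurve⁄ℚbar).Point) =
        g' • (Point.some x y h : (P.freyCurve⁄ℚbar).Point) → g z = g' z) ∧
      A.valuation (P.p : ℚbar) ≤ A.valuation (σ z - z) ^ (P.p - 1) := by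
  have hq : P.p.Prime := P.pp
  have hq2 : P.p ≠ 2 := by have := P.hp5; omega
  obtain ⟨hσA, hσ'⟩ := hσ
  have hxA : x ∈ A := by
    have : x = (x - x₀) + x₀ := by ring
    rw [this]
    exact add_mem ((A.valuation_le_one_iff _).mp hX.le) hN.x₀_mem
  have hQ := S05_sub_inE1_node_of A hN hq hq2 σ hσ' hσA (hx₀ σ) (hr σ) hβr
    (fun h hP hX => S05_node_level_of_node A hN (S05_lvl_add_sub A hN) h hq hq2 hP hX)
    (fun h h' hX hβ hXX hbr => S05_near_node A hN h h' hX hβ hXX hbr) h hxA hP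
  obtain ⟨k, hz1, hdepth⟩ := S40WN_depth_node A hN hq hq2 σ hσ' (hx₀ σ) (hr σ) hβr h hX hP hσP hQ
  refine ⟨(x - x₀) / r ^ (2 * k), (A.valuation_le_one_iff _).1 hz1.le, ?_, hdepth⟩
  intro g g' hgg
  have hns : ∀ τ : Gℚ, (P.freyCurve⁄ℚbar).Nonsingular (τ x) (τ y) := fun τ =>
    (WeierstrassCurve.Affine.baseChange_nonsingular (W := P.freyCurve.toAffine)
      (f := τ.toAlgHom) τ.injective x y).mpr h
  have hτP : ∀ τ : Gℚ, τ • (Point.some x y h : (P.freyCurve⁄ℚbar).Point) =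
      Point.some (τ x) (τ y) (hns τ) := fun τ => rfl
  rw [hτP g, hτP g'] at hgg
  simp only [Affine.Point.some.injEq] at hgg
  rw [map_div₀, map_div₀, map_sub, map_sub, hx₀ g, hx₀ g', map_zpow₀, map_zpow₀, hr g, hr g',
    hgg.1]

/-- case N for the Frey curve, `p ∣ ab` (node at `x₀ = 0`). -/
theorem S40WN_depth_frey_ab (hA : (P.p : ℚbar) ∈ A.nonunits) (hab : (P.p : ℤ) ∣ P.a * P.b)
    (σ : Gℚ) (hσ : S13_Inert A σ) {x y : ℚbar} (h : (P.freyCurve⁄ℚbar).Nonsingular x y)
    (hX : A.valuation (x - 0) < 1)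
    (hP : P.p • (Point.some x y h : (P.freyCurve⁄ℚbar).Point) = 0)
    (hσP : σ • (Point.some x y h : (P.freyCurve⁄ℚbar).Point) ≠ Point.some x y h) :
    ∃ z : ℚbar, z ∈ A ∧
      (∀ g g' : Gℚ, g • (Point.some x y h : (P.freyCurve⁄ℚbar).Point) =
        g' • (Point.some x y h : (P.freyCurve⁄ℚbar).Point) → g z = g' z) ∧
      A.valuation (P.p : ℚbar) ≤ A.valuation (σ z - z) ^ (P.p - 1) := by
  have hq : P.p.Prime := P.pp
  have hq2 : P.p ≠ 2 := by have := P.hp5; omega
  obtain ⟨hN, hβ⟩ := S05_frey_node_ab (P := P) hq hq2 hA hab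
  exact S40WN_depth_frey_at P A hN (fun g => map_zero g)
    (r := ((P.a * P.b : ℤ) : ℚbar)) (fun g => map_intCast g _) hβ σ hσ h hX hP hσP

/-- case N for the Frey curve, `p ∣ c` (node at `x₀ = a ^ p / 4`). -/
theorem S40WN_depth_frey_c (hA : (P.p : ℚbar) ∈ A.nonunits) (hc : (P.p : ℤ) ∣ P.c)
    (σ : Gℚ) (hσ : S13_Inert A σ) {x y : ℚbar} (h : (P.freyCurve⁄ℚbar).Nonsingular x y)
    (hX : A.valuation (x - (P.a : ℚbar) ^ P.p / 4) < 1)
    (hP : P.p • (Point.some x y h : (P.freyCurve⁄ℚbar).Point) = 0)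
    (hσP : σ • (Point.some x y h : (P.freyCurve⁄ℚbar).Point) ≠ Point.some x y h) :
    ∃ z : ℚbar, z ∈ A ∧
      (∀ g g' : Gℚ, g • (Point.some x y h : (P.freyCurve⁄ℚbar).Point) =
        g' • (Point.some x y h : (P.freyCurve⁄ℚbar).Point) → g z = g' z) ∧
      A.valuation (P.p : ℚbar) ≤ A.valuation (σ z - z) ^ (P.p - 1) := by
  have hq : P.p.Prime := P.pp
  have hq2 : P.p ≠ 2 := by have := P.hp5; omega
  obtain ⟨hN, hβ⟩ := S05_frey_node_c (P := P) hq hq2 hA hc
  have hx₀ : ∀ g : Gℚ, g ((P.a : ℚbar) ^ P.p / 4) = (P.a : ℚbar) ^ P.p / 4 := by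
    intro g
    rw [map_div₀, map_pow, map_intCast, map_ofNat]
  exact S40WN_depth_frey_at P A hN hx₀
    (r := ((P.a * P.c : ℤ) : ℚbar)) (fun g => map_intCast g _) hβ σ hσ h hX hP hσP

end Frey

end Fermat.Agent.S40
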