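import Mathlib
import Fermat.Agent.S05.Final
import Fermat.Agent.S40.F1b
import Fermat.Agent.S40.F1c

/-!
# TRACK 13 (S40 / S44), W-MULT, node depth, CASE S (helper7).  Prefix `S40WS_`.

`K/S` a field extension, `W'` a Weierstrass curve, `A ⊂ K` a valuation ring, `hN : S05_Node`
the node datum at `x₀`, `σ ∈ Aut(K/S)` with `σ A = A` acting trivially on the residue field.

CASE S: `P = (x, y)` an INTEGRAL point of odd order `p` (the residue characteristic is allowed)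
with `v(x − x₀) = 1` (`P` reduces to a smooth point), `σ P ≠ P`.

* `S40WS_sigma_x_ne`     : `σ x ≠ x` (so `σ P ≠ − P`);
* `S40WS_chord_smooth`   : `Q = σ P − P` has an `X`-coordinate `x_Q ∉ A` with
  `max (v (σ x − x)) (v (σ y − y)) ^ 2 * v x_Q = 1`;
* **`S40WS_depth_smooth`** : there is `z ∈ {x, y}` with `v(p) ≤ v(σ z − z) ^ (p − 1)`.
-/

set_option autoImplicit false
set_option linter.unusedSectionVars false
set_option linter.unusedVariables false

namespace Fermat.Agent.S40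

open WeierstrassCurve WeierstrassCurve.Affine WeierstrassCurve.Affine.Point
open Fermat.Agent.S05 Fermat.Agent.S51

section general

variable {R : Type*} {S : Type*} {K : Type*} [CommRing R] [CommRing S] [Field K]
  [DecidableEq K] {W' : Affine R} [Algebra R S] [Algebra R K] [Algebra S K]
  [IsScalarTower R S K] (A : ValuationSubring K)

local notation "v" => ValuationSubring.valuation A

/-- CASE S: `σ` moves the `X`-coordinate of `P` (the derivative `D_y` is a unit and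
`σ y − y` is not). -/
theorem S40WS_sigma_x_ne {x₀ : K} (hN : S05_Node (W'⁄K) A x₀) {p : ℕ} (hp : Odd p)
    (σ : K ≃ₐ[S] K) (hσ : ∀ x ∈ A, σ x - x ∈ A.nonunits)
    {x y : K} (h : (W'⁄K).Nonsingular x y) (hx : x ∈ A)
    (hQ : p • (Point.some x y h : (W'⁄K).Point) = 0) (hX : v (x - x₀) = 1)
    (hne : σ • (Point.some x y h : (W'⁄K).Point) ≠ Point.some x y h) : σ x ≠ x := by
  have hW := hN.int
  have hy : y ∈ A := S05_y_mem A hW.a₁ hW.a₂ hW.a₃ hW.a₄ hW.a₆ h.1 hx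
  have hD := S05_unit_away_from_node A hN hp h hx hQ hX
  have hns : (W'⁄K).Nonsingular (σ x) (σ y) :=
    (W'.baseChange_nonsingular σ.toAlgHom.injective ..).mpr h
  intro hxe
  rcases Affine.Y_eq_of_X_eq hns.1 h.1 hxe with hy' | hy'
  · apply hne
    rw [S05_smul_some]
    have key : ∀ (a b : K) (hab : (W'⁄K).Nonsingular a b), a = x → b = y →
        (Point.some a b hab : (W'⁄K).Point) = Point.some x y h := by
      intro a b hab ha hb
      subst ha
      subst hb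
      rfl
    exact key _ _ _ hxe hy'
  · apply hD
    have e : 2 * y + (W'⁄K).a₁ * x + (W'⁄K).a₃ = -(σ y - y) := by
      rw [hy']
      simp only [Affine.negY]
      ring
    rw [e]
    exact neg_mem (hσ y hy)

/-- CASE S, the chord isometry. -/
theorem S40WS_chord_smooth {x₀ : K} (hN : S05_Node (W'⁄K) A x₀) {p : ℕ} (hp : Odd p)
    (σ : K ≃ₐ[S] K) (hσ : ∀ x ∈ A, σ x - x ∈ A.nonunits) (hσA : ∀ x, σ x ∈ A ↔ x ∈ A)
    {x y : K} (h : (W'⁄K).Nonsingular x y) (hx : x ∈ A)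
    (hQ : p • (Point.some x y h : (W'⁄K).Point) = 0) (hX : v (x - x₀) = 1)
    (hne : σ • (Point.some x y h : (W'⁄K).Point) ≠ Point.some x y h) :
    ∃ xQ, S51_c_IsX (σ • (Point.some x y h : (W'⁄K).Point) - Point.some x y h) xQ ∧ xQ ∉ A ∧
      max (v (σ x - x)) (v (σ y - y)) ^ 2 * v xQ = 1 := by
  have hW := hN.int
  have hy : y ∈ A := S05_y_mem A hW.a₁ hW.a₂ hW.a₃ hW.a₄ hW.a₆ h.1 hx
  have hD := S05_unit_away_from_node A hN hp h hx hQ hX
  have hns : (W'⁄K).Nonsingular (σ x) (σ y) :=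
    (W'.baseChange_nonsingular σ.toAlgHom.injective ..).mpr h
  have hxe := S40WS_sigma_x_ne A hN hp σ hσ h hx hQ hX hne
  rw [S05_smul_some]
  exact S40Fc_chord A hW h hns hx ((hσA x).2 hx) (hσ x hx) (hσ y hy) hxe (Or.inl hD)

/-- **CASE S, depth**: a coordinate `z` of `P` with `v(p) ≤ v(σ z − z) ^ (p − 1)`. -/
theorem S40WS_depth_smooth [CharZero K] {x₀ : K} (hN : S05_Node (W'⁄K) A x₀) {p : ℕ} (hp : p.Prime)
    (hp2 : p ≠ 2)
    (σ : K ≃ₐ[S] K) (hσ : ∀ x ∈ A, σ x - x ∈ A.nonunits) (hσA : ∀ x, σ x ∈ A ↔ x ∈ A)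
    {x y : K} (h : (W'⁄K).Nonsingular x y) (hx : x ∈ A)
    (hQ : p • (Point.some x y h : (W'⁄K).Point) = 0) (hX : v (x - x₀) = 1)
    (hne : σ • (Point.some x y h : (W'⁄K).Point) ≠ Point.some x y h) :
    ∃ z : K, z ∈ A ∧ (z = x ∨ z = y) ∧ v (p : K) ≤ v (σ z - z) ^ (p - 1) := by
  have hW := hN.int
  have hodd : Odd p := hp.odd_of_ne_two hp2
  have hy : y ∈ A := S05_y_mem A hW.a₁ hW.a₂ hW.a₃ hW.a₄ hW.a₆ h.1 hx
  obtain ⟨xQ, hxQ, hxQA, hmax⟩ := S40WS_chord_smooth A hN hodd σ hσ hσA h hx hQ hX hne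
  have hpQ : p • (σ • (Point.some x y h : (W'⁄K).Point) - Point.some x y h) = 0 := by
    rw [nsmul_sub, ← S05_smul_nsmul, hQ, S05_smul_zero, sub_zero]
  have hb := S40Fb_main A hW hp hp2 hxQ hxQA hpQ
  set M := max (v (σ x - x)) (v (σ y - y)) with hM
  have hxQ0 : xQ ≠ 0 := by
    rintro rfl
    exact hxQA (zero_mem A)
  have hvxQ0 : v xQ ≠ 0 := (Valuation.ne_zero_iff _).2 hxQ0
  have hinv : (v xQ)⁻¹ = M ^ 2 := by
    rw [eq_comm, ← mul_inv_eq_one₀ (inv_ne_zero hvxQ0), inv_inv]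
    exact hmax
  have hpow : ((v xQ)⁻¹) ^ ((p - 1) / 2) = M ^ (p - 1) := by
    rw [hinv, ← pow_mul]
    congr 1
    obtain ⟨m, hm⟩ := hodd
    omega
  rw [hpow] at hb
  rcases le_total (v (σ x - x)) (v (σ y - y)) with hle | hle
  · refine ⟨y, hy, Or.inr rfl, ?_⟩
    rwa [hM, max_eq_right hle] at hb
  · refine ⟨x, hx, Or.inl rfl, ?_⟩
    rwa [hM, max_eq_left hle] at hb

end general

end Fermat.Agent.S40
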