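import Fermat.Agent.S40.WPeu

/-!
# TRACK 13 (S40 / S44), package W-PEU, general form (helper24) — prefix `S40WP_`

The assembly of `S40/WPeu.lean` WITHOUT any hypothesis on the reduction type of `W` at `p`:
the only geometric input is the DEPTH property

  `S40WP_Depth W A p` : for `σ ∈ I¹` and `P ∈ W[p]` with `σ P ≠ P` there is an integral `z ∈ ℚ̄`
  with `g z = g' z` whenever `g, g' ∈ I¹` and `g P = g' P`, and `v(p) ≤ v(σ z − z) ^ (p − 1)`.

* `S40WP_depth_good` : the depth property at a prime of good reduction (= `S40WG_depth_good`);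
* **`S40WP_invW_of_depth`** : `W.Δ ≠ 0`, `p` odd, CASE B and `S40WP_Depth W A p` give
  `S40D_InvW W A p`.

For `S44` (Frey curve, multiplicative reduction at `p`, `p ∣ v_p(Δ)`) only `S40WP_Depth W A p`
has to be supplied (package W-MULT).
-/

set_option autoImplicit false
set_option linter.unusedSectionVars false
set_option linter.unusedVariables false
set_option linter.style.haveILetI false

open scoped Pointwise

namespace Fermat.Agent.S40

open WeierstrassCurve Fermat.Agent.Lib Fermat.Agent.GalRep Fermat.Agent.S41 Fermat.Agent.S58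
  Fermat.Agent.S31

local notation "ℚbar" => AlgebraicClosure ℚ

variable (W : WeierstrassCurve ℤ) {p : ℕ} (A : ValuationSubring ℚbar)

/-- **the depth property** of `W[p]` at `A`: the output of the glue (a) + (b) + (c). -/
def S40WP_Depth (p : ℕ) : Prop :=
  ∀ σ ∈ S40D_I1 A p, ∀ P : (W.baseChange ℚbar).toAffine.Point, p • P = 0 → σ • P ≠ P →
    ∃ z : ℚbar, z ∈ A ∧
      (∀ g g' : GQ, g ∈ S40D_I1 A p → g' ∈ S40D_I1 A p → g • P = g' • P → g z = g' z) ∧
      A.valuation (p : ℚbar) ≤ A.valuation (σ z - z) ^ (p - 1)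

/-- the depth property at a prime of good reduction. -/
theorem S40WP_depth_good (hp : p.Prime) (hp2 : p ≠ 2) (hA : A.LiesOverPrime p)
    (hgood : ¬ (p : ℤ) ∣ W.Δ) : S40WP_Depth W A p := by
  intro σ hσ P hP hσP
  obtain ⟨z, hz, hgg, hb⟩ := S40WG_depth_good W A hp hp2 hA hgood σ hσ.1 P hP hσP
  exact ⟨z, hz, fun g g' hg hg' h => hgg g g' hg.1 hg'.1 h, hb⟩

/-- **W-PEU in the form (INV), from the depth property**: no hypothesis on the reduction type of
`W` at `p`. -/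
theorem S40WP_invW_of_depth (hΔ : W.Δ ≠ 0) (hp : p.Prime) (hp2 : p ≠ 2)
    (hdep : S40WP_Depth W A p)
    (hB : ∀ g ∈ S40D_I1 A p, ∃ P : (W.baseChange ℚbar).toAffine.Point,
      P ≠ 0 ∧ p • P = 0 ∧ g • P = P) :
    S40D_InvW W A p := by
  classical
  haveI : Fact p.Prime := ⟨hp⟩
  rintro β ⟨hβ0, hβp, hβv⟩
  by_contra hcon
  push Not at hcon
  -- Step 1: `σ ∈ I¹` moving `β`
  obtain ⟨σ, hσ, hσβ⟩ : ∃ σ ∈ S40D_I1 A p, σ β ≠ β := by
    by_contra h
    push Not at h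
    exact hβv β h hβ0 rfl
  obtain ⟨P₀, hP₀, hσP₀⟩ : ∃ P₀ : (W.baseChange ℚbar).toAffine.Point,
      p • P₀ = 0 ∧ σ • P₀ ≠ P₀ := by
    by_contra h
    push Not at h
    exact hσβ (hcon σ hσ h)
  set ζ : ℚbar := σ β / β with hζdef
  have hζp : ζ ^ p = 1 := by
    rw [hζdef, div_pow, ← map_pow, hβp σ hσ, div_self (pow_ne_zero _ hβ0)]
  have hζ1 : ζ ≠ 1 := by
    intro h
    rw [hζdef, div_eq_one_iff_eq hβ0] at h
    exact hσβ h
  have hσβ' : σ β = ζ * β := by
    rw [hζdef, div_mul_cancel₀ _ hβ0]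
  have hprim : IsPrimitiveRoot ζ p := S40WK_isPrimitiveRoot hp hζp hζ1
  have hζ0 : ζ ≠ 0 := S40WK_zeta_ne_zero hp hζp
  have hI1ζ : ∀ h ∈ S40D_I1 A p, h ζ = ζ := fun h hh => hh.2 ζ hζp
  -- the action on `X = W[p]`
  set act : GQ → S58ER_K W p → S58ER_K W p := fun g x => (S58ER_F W p g) x with hact
  have hact1 : ∀ x, act 1 x = x := fun x => Subtype.ext (S41NE_gsmul_one W x.1)
  have hactmul : ∀ g h x, act (g * h) x = act g (act h x) :=
    fun g h x => Subtype.ext (S41NE_gsmul_mul W g h x.1)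
  have hactadd : ∀ g x y, act g (x + y) = act g x + act g y :=
    fun g x y => map_add (S58ER_F W p g) x y
  have hXp : ∀ x : S58ER_K W p, p • x = 0 :=
    fun x => Subtype.ext ((S58ER_mem_K W p x.1).1 x.2)
  have hcard : Nat.card (S58ER_K W p) = p ^ 2 := S41NE_card_X W hΔ hp hp2
  -- Step 2: unipotency
  have hunip : ∀ h ∈ S40D_I1 A p, ∀ x : S58ER_K W p,
      act h (act h x) - (2 : ℤ) • act h x + x = 0 := by
    intro h hh x
    obtain ⟨t, d, hrelh, hζd⟩ := S40WP_relW W hΔ hp hp2 h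
    have hd : (p : ℤ) ∣ (d : ℤ) - 1 := by
      have h1 : ζ ^ d = ζ := by rw [← hζd ζ hζp, hI1ζ h hh]
      apply (hprim.zpow_eq_one_iff_dvd _).1
      rw [zpow_sub₀ hζ0, zpow_natCast, zpow_one, h1, div_self hζ0]
    obtain ⟨P, hP0, hpP, hhP⟩ := hB h hh
    refine S40WP_unip_of_rel act p hXp h t (d : ℤ) hd (fun y => ?_)
      ⟨P, (S58ER_mem_K W p P).2 hpP⟩ (fun h0 => hP0 (congrArg Subtype.val h0))
      (Subtype.ext hhP) x
    apply Subtype.ext
    rw [AddSubgroup.coe_add, AddSubgroup.coe_sub, AddSubgroup.coe_zsmul, AddSubgroup.coe_zsmul]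
    exact hrelh y.1 ((S58ER_mem_K W p y.1).1 y.2)
  -- the image of `I¹` is generated by `σ`
  have hcyc : ∀ h ∈ S40D_I1 A p, ∃ a : ℕ,
      ∀ P : (W.baseChange ℚbar).toAffine.Point, p • P = 0 → h • P = (σ ^ a) • P := by
    intro h hh
    obtain ⟨a, ha⟩ := S40WP_cyclic act hact1 hactmul hactadd p hXp hcard (S40D_I1 A p) hunip
      σ hσ ⟨P₀, (S58ER_mem_K W p P₀).2 hP₀⟩ (fun h0 => hσP₀ (congrArg Subtype.val h0)) h hh
    refine ⟨a, fun P hP => ?_⟩
    exact congrArg Subtype.val (ha ⟨P, (S58ER_mem_K W p P).2 hP⟩)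
  -- powers of `σ` on `β`
  have hσpowβ : ∀ a : ℕ, (σ ^ a) β = ζ ^ a * β := by
    intro a
    induction a with
    | zero => simp
    | succ a ih =>
      rw [pow_succ', AlgEquiv.mul_apply, ih, map_mul, map_pow, hI1ζ σ hσ, hσβ', pow_succ]
      ring
  -- every `h ∈ I¹` acts on `β` through the same exponent
  have hhβ : ∀ h ∈ S40D_I1 A p, ∀ a : ℕ,
      (∀ P : (W.baseChange ℚbar).toAffine.Point, p • P = 0 → h • P = (σ ^ a) • P) →
      h β = ζ ^ a * β := by
    intro h hh a ha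
    have hmem : (σ ^ a)⁻¹ * h ∈ S40D_I1 A p :=
      mul_mem (inv_mem (pow_mem hσ a)) hh
    have htriv : ∀ P : (W.baseChange ℚbar).toAffine.Point, p • P = 0 →
        ((σ ^ a)⁻¹ * h) • P = P := by
      intro P hP
      rw [S41NE_gsmul_mul, ha P hP, ← S41NE_gsmul_mul, inv_mul_cancel, S41NE_gsmul_one]
    have h1 := hcon _ hmem htriv
    rw [AlgEquiv.mul_apply] at h1
    have h2 : (σ ^ a) ((σ ^ a)⁻¹ (h β)) = (σ ^ a) β := congrArg (σ ^ a) h1
    rw [← AlgEquiv.mul_apply, mul_inv_cancel, AlgEquiv.one_apply] at h2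
    rw [h2, hσpowβ]
  -- Step 3: the coordinate
  obtain ⟨z, hzA, hzgg, hdepth⟩ := hdep σ hσ P₀ hP₀ hσP₀
  have hσpowP : ∀ k : ℕ, p • ((σ ^ k) • P₀) = 0 := by
    intro k
    rw [← S41NE_gsmul_nsmul, hP₀, S41NE_gsmul_zero]
  have hσp : (σ ^ p) • P₀ = P₀ := by
    have := S58H_pow_act act hact1 hactmul hactadd p hXp σ (hunip σ hσ)
      ⟨P₀, (S58ER_mem_K W p P₀).2 hP₀⟩
    exact congrArg Subtype.val this
  set s : ℚbar →+* ℚbar := S40WP_hom σ with hs
  have hsz : s^[p] z = z := by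
    rw [hs, S40WP_hom_iterate]
    have := hzgg (σ ^ p) 1 (pow_mem hσ p) (one_mem _) (by rw [hσp, S41NE_gsmul_one])
    simpa using this
  have hsζ : s ζ = ζ := hI1ζ σ hσ
  have hsβ : s β = ζ * β := hσβ'
  have hpΩ : ((p : ℕ) : ℚbar) ≠ 0 := Nat.cast_ne_zero.2 hp.ne_zero
  -- the coefficients lie in `F`
  have hcoef : ∀ i, i < p → S40RD_coef s p ζ β z i ∈ S40WP_F A p := by
    intro i _
    rw [S40WP_mem_F]
    intro h hh
    obtain ⟨a, ha⟩ := hcyc h hh
    have hgz : ∀ k : ℕ, (S40WP_hom h) (s^[k] z) = s^[a + k] z := by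
      intro k
      rw [hs, S40WP_hom_iterate, S40WP_hom_iterate, S40WP_hom_apply]
      have h1 : (h * σ ^ k) • P₀ = (σ ^ (a + k)) • P₀ := by
        rw [S41NE_gsmul_mul, ha _ (hσpowP k), ← S41NE_gsmul_mul, ← pow_add]
      have h2 := hzgg (h * σ ^ k) (σ ^ (a + k)) (mul_mem hh (pow_mem hσ k))
        (pow_mem hσ (a + k)) h1
      rwa [AlgEquiv.mul_apply] at h2
    exact S40RD_coef_fixed_of s (S40WP_hom h) hp.pos hζp (hI1ζ h hh) hβ0 hsz a
      (hhβ h hh a ha) hgz i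
  -- the distinctness hypothesis
  have hβpF : β ^ p ∈ S40WP_F A p := (S40WP_mem_F A).2 hβp
  have hv : ∀ c ∈ S40WP_F A p, c ≠ 0 → A.valuation (c * β) ≠ 1 := by
    intro c hc hc0 h1
    have hc' : c⁻¹ ∈ S40WP_F A p := (S40WP_F A p).inv_mem hc
    refine hβv c⁻¹ ((S40WP_mem_F A).1 hc') (inv_ne_zero hc0) ?_
    rw [map_mul] at h1
    rw [map_inv₀]
    exact eq_inv_of_mul_eq_one_right h1
  have hdist := S40RD_dist A (S40WP_F A p) hp hβ0 hβpF hv
  obtain ⟨m, hm, hmz⟩ := S40RD_main A (S40WP_F A p) s hp hprim hsζ hsβ hβ0 hpΩ hsz hzA hcoef hdist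
  -- the contradiction
  have hlt : A.valuation (σ z - z) < A.valuation (ζ - 1) := by
    have e : σ z - z = (ζ - 1) * m := hmz
    rw [e, map_mul]
    have hpos : 0 < A.valuation (ζ - 1) :=
      zero_lt_iff.2 ((Valuation.ne_zero_iff _).2 (sub_ne_zero.2 hζ1))
    calc A.valuation (ζ - 1) * A.valuation m < A.valuation (ζ - 1) * 1 :=
          mul_lt_mul_of_pos_left hm hpos
      _ = A.valuation (ζ - 1) := mul_one _
  exact S40WK_not_lt A hp hζp hζ1 hdepth hlt

end Fermat.Agent.S40
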