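import Fermat.Agent.S40.WMultT
import Fermat.Agent.S40.WPeu2
import Fermat.Agent.S05.Frey

/-!
# TRACK 13 (S44 target), package W-MULT, TRANSPORT in the shape of the assembly (helper11)

Prefix `S40WT_`.  The depth property `S40WP_Depth W A p` (helper24, `S40/WPeu2.lean`: `σ, g, g'`
in `I¹`) for ANY integral model `W` of `E / ℚ` from the same property for the points of `E⁄ℚ̄`;
the instance `E = P.freyCurve`.

* `S40WT_DepthE1 E A p`   : the depth property for the points of `E⁄ℚ̄` (`σ, g, g' ∈ I¹`);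
* `S40WT_depth1`          : `S40WT_DepthE1 E A p → S40WP_Depth W A p` for an integral model `W`;
* `S40WT_frey_isElliptic` : `P.freyCurve` is elliptic;
* `S40WT_invW_frey`       : **(INV) on the W-side for S44**: for an integral model `W` of the
  Frey curve, (INV) from the depth property of `P.freyCurve⁄ℚ̄` and case B.
-/

set_option autoImplicit false
set_option linter.unusedSectionVars false
set_option linter.unusedVariables false

namespace Fermat.Agent.S40

open WeierstrassCurve Fermat.Agent.S41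

local notation "ℚbar" => AlgebraicClosure ℚ
local notation "GQ" => (AlgebraicClosure ℚ ≃ₐ[ℚ] AlgebraicClosure ℚ)

/-- the depth property for the points of `E⁄ℚ̄`, with `σ, g, g' ∈ I¹`. -/
def S40WT_DepthE1 (E : WeierstrassCurve ℚ) (A : ValuationSubring ℚbar) (p : ℕ) : Prop :=
  ∀ σ ∈ S40D_I1 A p, ∀ P : (E.baseChange ℚbar).toAffine.Point, p • P = 0 → σ • P ≠ P →
    ∃ z : ℚbar, z ∈ A ∧
      (∀ g g' : GQ, g ∈ S40D_I1 A p → g' ∈ S40D_I1 A p → g • P = g' • P → g z = g' z) ∧
      A.valuation (p : ℚbar) ≤ A.valuation (σ z - z) ^ (p - 1)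

/-- **TRANSPORT of the depth property** to any integral model. -/
theorem S40WT_depth1 (E : WeierstrassCurve ℚ) [E.IsElliptic] {W : WeierstrassCurve ℤ}
    (hW : W.IsIntegralModelOf E) (A : ValuationSubring ℚbar) (p : ℕ)
    (h : S40WT_DepthE1 E A p) : S40WP_Depth W A p := by
  obtain ⟨C, hC⟩ := hW
  intro σ hσ P hP hσP
  have hσQ : σ • S41NT_theta E W C hC P ≠ S41NT_theta E W C hC P :=
    fun hh => hσP ((S40WT_fix_pt_iff E W C hC σ P).2 hh)
  obtain ⟨z, hz, hstab, hdepth⟩ := h σ hσ _ (S40WT_theta_tors E W C hC hP) hσQ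
  exact ⟨z, hz, fun g g' hg hg' hgP =>
    hstab g g' hg hg' ((S40WT_eq_pt_iff E W C hC g g' P).1 hgP), hdepth⟩

/-- the depth property of an integral model passes to `E`. -/
theorem S40WT_depth1_rev (E : WeierstrassCurve ℚ) [E.IsElliptic] {W : WeierstrassCurve ℤ}
    (hW : W.IsIntegralModelOf E) (A : ValuationSubring ℚbar) (p : ℕ)
    (h : S40WP_Depth W A p) : S40WT_DepthE1 E A p := by
  obtain ⟨C, hC⟩ := hW
  intro σ hσ Q hQ hσQ
  obtain ⟨P, rfl⟩ := S41NT_theta_surjective E W C hC Q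
  have hσP : σ • P ≠ P := fun hh => hσQ ((S40WT_fix_pt_iff E W C hC σ P).1 hh)
  obtain ⟨z, hz, hstab, hdepth⟩ := h σ hσ P ((S40WT_theta_tors_iff E W C hC P).1 hQ) hσP
  exact ⟨z, hz, fun g g' hg hg' hgQ =>
    hstab g g' hg hg' ((S40WT_eq_pt_iff E W C hC g g' P).2 hgQ), hdepth⟩

/-- the Frey curve is elliptic. -/
theorem S40WT_frey_isElliptic (P : FreyPackage) : P.freyCurve.IsElliptic := by
  refine ⟨isUnit_iff_ne_zero.mpr ?_⟩
  rw [Fermat.Agent.S05.S05_frey_Δ]
  have h : ((P.a * P.b * P.c : ℤ) : ℚ) ≠ 0 := by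
    exact_mod_cast mul_ne_zero (mul_ne_zero P.ha0 P.hb0) P.hc0
  exact div_ne_zero (pow_ne_zero 2 (pow_ne_zero _ h)) (by norm_num)

/-- **(INV) on the W-side for S44**: `W` any integral model of the Frey curve of `P`; from the
depth property of the points of `P.freyCurve⁄ℚ̄` at `A` and case B. -/
theorem S40WT_invW_frey (P : FreyPackage) {W : WeierstrassCurve ℤ}
    (hW : W.IsIntegralModelOf P.freyCurve) (A : ValuationSubring ℚbar)
    (hdep : S40WT_DepthE1 P.freyCurve A P.p)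
    (hB : ∀ g ∈ S40D_I1 A P.p, ∃ Q : (W.baseChange ℚbar).toAffine.Point,
      Q ≠ 0 ∧ P.p • Q = 0 ∧ g • Q = Q) :
    S40D_InvW W A P.p := by
  haveI := S40WT_frey_isElliptic P
  have hΔ : W.Δ ≠ 0 := by
    obtain ⟨C, hC⟩ := hW
    exact S41NT_Δ_ne_zero P.freyCurve W C hC
  have hp2 : P.p ≠ 2 := by have := P.hp5; omega
  exact S40WP_invW_of_depth W A hΔ P.pp hp2 (S40WT_depth1 P.freyCurve hW A P.p hdep) hB

end Fermat.Agent.S40
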