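import Mathlib
import Fermat.Agent.S40.WMultN
import Fermat.Agent.S40.WMultS
import Fermat.Agent.S40.WMultE
import Fermat.Agent.S40.WMultT2

/-!
# TRACK 13 (row 38, target S44), package W-MULT: the FREY GLUE (helper7).  Prefix `S40WM_`.

`P` a Frey package, `A` a valuation ring of `ℚ̄` over `p = P.p`, `p ∣ abc` (the Frey curve has
multiplicative reduction at `p`).  The three cases of the node depth

* CASE N (`S40WN_depth_frey_ab / _c`, helper28): `P₀` integral, reducing to the node;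
* CASE S (`S40WS_depth_smooth`): `P₀` integral with smooth reduction;
* CASE E (`S40WE_depth`): `P₀` in the kernel of reduction, translated by the rational point of
  order two `T = (e, −e/2)` with smooth reduction (`e = −b^p/4, a^p/4, 0` for `p ∣ a, b, c`)

give the depth property of the points of `P.freyCurve⁄ℚ̄`:

* **`S40WM_depth_frey`** : `S40WT_DepthE1 P.freyCurve A P.p`;
* **`S40WM_invW_frey`**  : (INV) on the W-side for every integral model `W` of the Frey curve,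
  in case B (`= S40WT_invW_frey` of helper11 with the depth property discharged).
-/

set_option autoImplicit false
set_option linter.unusedSectionVars false
set_option linter.unusedVariables false

namespace Fermat.Agent.S40

open WeierstrassCurve WeierstrassCurve.Affine WeierstrassCurve.Affine.Point
open Fermat.Agent.S05 Fermat.Agent.S51 Fermat.Agent.S13

section Frey

local notation "ℚbar" => AlgebraicClosure ℚ
local notation "Gℚ" => (AlgebraicClosure ℚ ≃ₐ[ℚ] AlgebraicClosure ℚ)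

variable (P : FreyPackage) (A : ValuationSubring ℚbar)

/-- the coordinates of a point are moved in the same way by `g`, `g'` with `g P₀ = g' P₀`. -/
theorem S40WM_coord_eq (g g' : Gℚ) {x y : ℚbar} (h : (P.freyCurve⁄ℚbar).Nonsingular x y)
    (hgg : g • (Point.some x y h : (P.freyCurve⁄ℚbar).Point) =
      g' • (Point.some x y h : (P.freyCurve⁄ℚbar).Point)) : g x = g' x ∧ g y = g' y := by
  have hns : ∀ τ : Gℚ, (P.freyCurve⁄ℚbar).Nonsingular (τ x) (τ y) := fun τ =>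
    (WeierstrassCurve.Affine.baseChange_nonsingular (W := P.freyCurve.toAffine)
      (f := τ.toAlgHom) τ.injective x y).mpr h
  have hτP : ∀ τ : Gℚ, τ • (Point.some x y h : (P.freyCurve⁄ℚbar).Point) =
      Point.some (τ x) (τ y) (hns τ) := fun τ => rfl
  rw [hτP g, hτP g'] at hgg
  simp only [Affine.Point.some.injEq] at hgg
  exact hgg

/-- **CASE S for the Frey curve** at a node datum. -/
theorem S40WM_depth_smooth_frey {x₀ : ℚbar} (hN : S05_Node (P.freyCurve⁄ℚbar) A x₀)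
    (σ : Gℚ) (hσ : S13_Inert A σ) {x y : ℚbar} (h : (P.freyCurve⁄ℚbar).Nonsingular x y)
    (hx : x ∈ A) (hX : A.valuation (x - x₀) = 1)
    (hP : P.p • (Point.some x y h : (P.freyCurve⁄ℚbar).Point) = 0)
    (hσP : σ • (Point.some x y h : (P.freyCurve⁄ℚbar).Point) ≠ Point.some x y h) :
    ∃ z : ℚbar, z ∈ A ∧
      (∀ g g' : Gℚ, g • (Point.some x y h : (P.freyCurve⁄ℚbar).Point) =
        g' • (Point.some x y h : (P.freyCurve⁄ℚbar).Point) → g z = g' z) ∧
      A.valuation (P.p : ℚbar) ≤ A.valuation (σ z - z) ^ (P.p - 1) := by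
  have hq : P.p.Prime := P.pp
  have hq2 : P.p ≠ 2 := by have := P.hp5; omega
  obtain ⟨hσA, hσ'⟩ := hσ
  obtain ⟨z, hzA, hz, hdepth⟩ := S40WS_depth_smooth A hN hq hq2 σ hσ' hσA h hx hP hX hσP
  refine ⟨z, hzA, fun g g' hgg => ?_, hdepth⟩
  have hc := S40WM_coord_eq P g g' h hgg
  rcases hz with rfl | rfl
  · exact hc.1
  · exact hc.2

/-- **CASE E for the Frey curve**, with a rational point `T = (e, −e/2)` of order two with
smooth reduction. -/
theorem S40WM_depth_E_frey (hA : (P.p : ℚbar) ∈ A.nonunits) {e : ℚbar} (heA : e ∈ A)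
    (hfix : ∀ g : Gℚ, g e = e)
    (heq : e ^ 3 + (P.freyCurve⁄ℚbar).a₂ * e ^ 2 + (P.freyCurve⁄ℚbar).a₄ * e = -(e ^ 2) / 4)
    (hc : A.valuation (3 * e ^ 2 + 2 * (P.freyCurve⁄ℚbar).a₂ * e + (P.freyCurve⁄ℚbar).a₄
      + e / 2) = 1)
    (σ : Gℚ) (hσ : S13_Inert A σ) {x y : ℚbar} (h : (P.freyCurve⁄ℚbar).Nonsingular x y)
    (hx : x ∉ A)
    (hP : P.p • (Point.some x y h : (P.freyCurve⁄ℚbar).Point) = 0)
    (hσP : σ • (Point.some x y h : (P.freyCurve⁄ℚbar).Point) ≠ Point.some x y h) :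
    ∃ z : ℚbar, z ∈ A ∧
      (∀ g g' : Gℚ, g • (Point.some x y h : (P.freyCurve⁄ℚbar).Point) =
        g' • (Point.some x y h : (P.freyCurve⁄ℚbar).Point) → g z = g' z) ∧
      A.valuation (P.p : ℚbar) ≤ A.valuation (σ z - z) ^ (P.p - 1) := by
  have hq : P.p.Prime := P.pp
  have hq2 : P.p ≠ 2 := by have := P.hp5; omega
  obtain ⟨hσA, hσ'⟩ := hσ
  have hW : S05_Integral (P.freyCurve⁄ℚbar) A := S05_freyQbar_integral hq hq2 hA
  have ha₁ : (P.freyCurve⁄ℚbar).a₁ = 1 := S05_frey_a₁ P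
  have ha₃ : (P.freyCurve⁄ℚbar).a₃ = 0 := S05_frey_a₃ P
  have ha₆ : (P.freyCurve⁄ℚbar).a₆ = 0 := S05_frey_a₆ P
  have hcval : 3 * e ^ 2 + 2 * (P.freyCurve⁄ℚbar).a₂ * e + (P.freyCurve⁄ℚbar).a₄ -
      (P.freyCurve⁄ℚbar).a₁ * (-e / 2) =
      3 * e ^ 2 + 2 * (P.freyCurve⁄ℚbar).a₂ * e + (P.freyCurve⁄ℚbar).a₄ + e / 2 := by
    rw [ha₁]
    ring
  have hcn : 3 * e ^ 2 + 2 * (P.freyCurve⁄ℚbar).a₂ * e + (P.freyCurve⁄ℚbar).a₄ -
      (P.freyCurve⁄ℚbar).a₁ * (-e / 2) ∉ A.nonunits := by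
    rw [hcval, A.mem_nonunits_iff, hc]
    exact lt_irrefl _
  have hc0 : 3 * e ^ 2 + 2 * (P.freyCurve⁄ℚbar).a₂ * e + (P.freyCurve⁄ℚbar).a₄ -
      (P.freyCurve⁄ℚbar).a₁ * (-e / 2) ≠ 0 := by
    intro h0
    apply hcn
    rw [h0]
    exact A.mem_nonunits_iff.mpr (by rw [_root_.map_zero]; exact zero_lt_one)
  have hTeq : (P.freyCurve⁄ℚbar).Equation e (-e / 2) := by
    rw [Affine.equation_iff, ha₁, ha₃, ha₆]
    linear_combination -heq
  have hT : (P.freyCurve⁄ℚbar).Nonsingular e (-e / 2) := by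
    rw [Affine.nonsingular_iff]
    refine ⟨hTeq, Or.inl ?_⟩
    intro h0
    apply hc0
    rw [h0]
    ring
  have h2T : 2 * (-e / 2) + (P.freyCurve⁄ℚbar).a₁ * e + (P.freyCurve⁄ℚbar).a₃ = 0 := by
    rw [ha₁, ha₃]
    ring
  have hfixy : ∀ g : Gℚ, g (-e / 2) = -e / 2 := by
    intro g
    rw [map_div₀, map_neg, hfix g, map_ofNat]
  obtain ⟨x₁, y₁, h₁, hadd, z, hzA, hz, hdepth⟩ :=
    S40WE_depth A hW hT h2T heA hcn hq hq2 σ hσ' hσA (hfix σ) (hfixy σ) h hx hP hσP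
  refine ⟨z, hzA, fun g g' hgg => ?_, hdepth⟩
  have hgT : ∀ τ : Gℚ, τ • (Point.some e (-e / 2) hT : (P.freyCurve⁄ℚbar).Point) =
      Point.some e (-e / 2) hT := by
    intro τ
    rw [S05_smul_some]
    exact S40WE_some_eq hT _ (hfix τ) (hfixy τ)
  have hgg₁ : g • (Point.some x₁ y₁ h₁ : (P.freyCurve⁄ℚbar).Point) =
      g' • (Point.some x₁ y₁ h₁ : (P.freyCurve⁄ℚbar).Point) := by
    rw [← hadd, S40WE_smul_add, S40WE_smul_add, hgT g, hgT g', hgg]
  have hc₁ := S40WM_coord_eq P g g' h₁ hgg₁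
  rcases hz with rfl | rfl
  · exact hc₁.1
  · exact hc₁.2

/-- `16` is a unit of a valuation ring over an odd prime. -/
theorem S40WM_val_sixteen {q : ℕ} (hq : q.Prime) (hq2 : q ≠ 2) (hA : (q : ℚbar) ∈ A.nonunits) :
    A.valuation (16 : ℚbar) = 1 := by
  have h4 := S05_fn_valuation_four hq hq2 hA
  have : (16 : ℚbar) = 4 * 4 := by norm_num
  rw [this, map_mul, h4, one_mul]

/-- CASE E, `p ∣ c`: `T = (0, 0)`. -/
theorem S40WM_depth_E_c (hA : (P.p : ℚbar) ∈ A.nonunits) (hc : (P.p : ℤ) ∣ P.c)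
    (σ : Gℚ) (hσ : S13_Inert A σ) {x y : ℚbar} (h : (P.freyCurve⁄ℚbar).Nonsingular x y)
    (hx : x ∉ A)
    (hP : P.p • (Point.some x y h : (P.freyCurve⁄ℚbar).Point) = 0)
    (hσP : σ • (Point.some x y h : (P.freyCurve⁄ℚbar).Point) ≠ Point.some x y h) :
    ∃ z : ℚbar, z ∈ A ∧
      (∀ g g' : Gℚ, g • (Point.some x y h : (P.freyCurve⁄ℚbar).Point) =
        g' • (Point.some x y h : (P.freyCurve⁄ℚbar).Point) → g z = g' z) ∧
      A.valuation (P.p : ℚbar) ≤ A.valuation (σ z - z) ^ (P.p - 1) := by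
  have hq : P.p.Prime := P.pp
  have hq2 : P.p ≠ 2 := by have := P.hp5; omega
  have hc' : (P.c : ℚbar) ∈ A.nonunits := (S05_intCast_mem_nonunits_iff hq hA _).mpr hc
  have ha' : (P.a : ℚbar) ∉ A.nonunits := fun ha' => S05_frey_not_both_ac hq hA ha' hc'
  have hb' : (P.b : ℚbar) ∉ A.nonunits := fun hb' => S05_frey_not_both_bc hq hA hb' hc'
  have hva : A.valuation (P.a : ℚbar) = 1 := S05_valuation_eq_one A (S05_intCast_mem A _) ha'
  have hvb : A.valuation (P.b : ℚbar) = 1 := S05_valuation_eq_one A (S05_intCast_mem A _) hb'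
  refine S40WM_depth_E_frey P A hA (e := 0) (zero_mem A) (fun g => map_zero g) (by ring) ?_
    σ hσ h hx hP hσP
  have e1 : 3 * (0 : ℚbar) ^ 2 + 2 * (P.freyCurve⁄ℚbar).a₂ * 0 + (P.freyCurve⁄ℚbar).a₄ + 0 / 2 =
      -((P.a : ℚbar) ^ P.p * (P.b : ℚbar) ^ P.p) / 16 := by
    rw [S05_freyQbar_a₄]
    ring
  rw [e1, map_div₀, Valuation.map_neg, map_mul, map_pow, map_pow, hva, hvb,
    S40WM_val_sixteen A hq hq2 hA]
  simp

/-- CASE E, `p ∣ b`: `T = (a^p/4, −a^p/8)`. -/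
theorem S40WM_depth_E_b (hA : (P.p : ℚbar) ∈ A.nonunits) (hb : (P.p : ℤ) ∣ P.b)
    (σ : Gℚ) (hσ : S13_Inert A σ) {x y : ℚbar} (h : (P.freyCurve⁄ℚbar).Nonsingular x y)
    (hx : x ∉ A)
    (hP : P.p • (Point.some x y h : (P.freyCurve⁄ℚbar).Point) = 0)
    (hσP : σ • (Point.some x y h : (P.freyCurve⁄ℚbar).Point) ≠ Point.some x y h) :
    ∃ z : ℚbar, z ∈ A ∧
      (∀ g g' : Gℚ, g • (Point.some x y h : (P.freyCurve⁄ℚbar).Point) =
        g' • (Point.some x y h : (P.freyCurve⁄ℚbar).Point) → g z = g' z) ∧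
      A.valuation (P.p : ℚbar) ≤ A.valuation (σ z - z) ^ (P.p - 1) := by
  have hq : P.p.Prime := P.pp
  have hq2 : P.p ≠ 2 := by have := P.hp5; omega
  have h4 := S05_fn_valuation_four hq hq2 hA
  have hb' : (P.b : ℚbar) ∈ A.nonunits := (S05_intCast_mem_nonunits_iff hq hA _).mpr hb
  have ha' : (P.a : ℚbar) ∉ A.nonunits := fun ha' => S05_frey_not_both_ab hq hA ha' hb'
  have hc' : (P.c : ℚbar) ∉ A.nonunits := S05_frey_not_both_bc hq hA hb'
  have hva : A.valuation (P.a : ℚbar) = 1 := S05_valuation_eq_one A (S05_intCast_mem A _) ha'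
  have hvc : A.valuation (P.c : ℚbar) = 1 := S05_valuation_eq_one A (S05_intCast_mem A _) hc'
  have heA : (P.a : ℚbar) ^ P.p / 4 ∈ A := by
    rw [← A.valuation_le_one_iff, map_div₀, h4, div_one, map_pow, hva, one_pow]
  have hfix : ∀ g : Gℚ, g ((P.a : ℚbar) ^ P.p / 4) = (P.a : ℚbar) ^ P.p / 4 := by
    intro g
    rw [map_div₀, map_pow, map_intCast, map_ofNat]
  refine S40WM_depth_E_frey P A hA heA hfix ?_ ?_ σ hσ h hx hP hσP
  · rw [S05_freyQbar_a₂, S05_freyQbar_a₄]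
    ring
  · have e1 : 3 * ((P.a : ℚbar) ^ P.p / 4) ^ 2 +
        2 * (P.freyCurve⁄ℚbar).a₂ * ((P.a : ℚbar) ^ P.p / 4) + (P.freyCurve⁄ℚbar).a₄ +
        (P.a : ℚbar) ^ P.p / 4 / 2 = (P.a : ℚbar) ^ P.p * (P.c : ℚbar) ^ P.p / 16 := by
      rw [S05_freyQbar_a₂, S05_freyQbar_a₄, ← S05_frey_eq P]
      ring
    rw [e1, map_div₀, map_mul, map_pow, map_pow, hva, hvc, S40WM_val_sixteen A hq hq2 hA]
    simp

/-- CASE E, `p ∣ a`: `T = (−b^p/4, b^p/8)`. -/
theorem S40WM_depth_E_a (hA : (P.p : ℚbar) ∈ A.nonunits) (ha : (P.p : ℤ) ∣ P.a)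
    (σ : Gℚ) (hσ : S13_Inert A σ) {x y : ℚbar} (h : (P.freyCurve⁄ℚbar).Nonsingular x y)
    (hx : x ∉ A)
    (hP : P.p • (Point.some x y h : (P.freyCurve⁄ℚbar).Point) = 0)
    (hσP : σ • (Point.some x y h : (P.freyCurve⁄ℚbar).Point) ≠ Point.some x y h) :
    ∃ z : ℚbar, z ∈ A ∧
      (∀ g g' : Gℚ, g • (Point.some x y h : (P.freyCurve⁄ℚbar).Point) =
        g' • (Point.some x y h : (P.freyCurve⁄ℚbar).Point) → g z = g' z) ∧
      A.valuation (P.p : ℚbar) ≤ A.valuation (σ z - z) ^ (P.p - 1) := by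
  have hq : P.p.Prime := P.pp
  have hq2 : P.p ≠ 2 := by have := P.hp5; omega
  have h4 := S05_fn_valuation_four hq hq2 hA
  have ha' : (P.a : ℚbar) ∈ A.nonunits := (S05_intCast_mem_nonunits_iff hq hA _).mpr ha
  have hb' : (P.b : ℚbar) ∉ A.nonunits := S05_frey_not_both_ab hq hA ha'
  have hc' : (P.c : ℚbar) ∉ A.nonunits := S05_frey_not_both_ac hq hA ha'
  have hvb : A.valuation (P.b : ℚbar) = 1 := S05_valuation_eq_one A (S05_intCast_mem A _) hb'
  have hvc : A.valuation (P.c : ℚbar) = 1 := S05_valuation_eq_one A (S05_intCast_mem A _) hc'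
  have heA : -((P.b : ℚbar) ^ P.p) / 4 ∈ A := by
    rw [← A.valuation_le_one_iff, map_div₀, h4, div_one, Valuation.map_neg, map_pow, hvb, one_pow]
  have hfix : ∀ g : Gℚ, g (-((P.b : ℚbar) ^ P.p) / 4) = -((P.b : ℚbar) ^ P.p) / 4 := by
    intro g
    rw [map_div₀, map_neg, map_pow, map_intCast, map_ofNat]
  refine S40WM_depth_E_frey P A hA heA hfix ?_ ?_ σ hσ h hx hP hσP
  · rw [S05_freyQbar_a₂, S05_freyQbar_a₄]
    ring
  · have e1 : 3 * (-((P.b : ℚbar) ^ P.p) / 4) ^ 2 +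
        2 * (P.freyCurve⁄ℚbar).a₂ * (-((P.b : ℚbar) ^ P.p) / 4) + (P.freyCurve⁄ℚbar).a₄ +
        -((P.b : ℚbar) ^ P.p) / 4 / 2 = (P.b : ℚbar) ^ P.p * (P.c : ℚbar) ^ P.p / 16 := by
      rw [S05_freyQbar_a₂, S05_freyQbar_a₄, ← S05_frey_eq P]
      ring
    rw [e1, map_div₀, map_mul, map_pow, map_pow, hvb, hvc, S40WM_val_sixteen A hq hq2 hA]
    simp

/-- **the depth property of the Frey curve at a place over `p ∣ abc`**, for all `σ` in the
inertia group (elementwise form) and all `g, g' ∈ G_ℚ`. -/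
theorem S40WM_depth_frey_pt (hA : (P.p : ℚbar) ∈ A.nonunits)
    (habc : (P.p : ℤ) ∣ P.a * P.b * P.c)
    (σ : Gℚ) (hσ : S13_Inert A σ) (Pt : (P.freyCurve⁄ℚbar).Point) (hP : P.p • Pt = 0)
    (hσP : σ • Pt ≠ Pt) :
    ∃ z : ℚbar, z ∈ A ∧ (∀ g g' : Gℚ, g • Pt = g' • Pt → g z = g' z) ∧
      A.valuation (P.p : ℚbar) ≤ A.valuation (σ z - z) ^ (P.p - 1) := by
  have hq : P.p.Prime := P.pp
  have hq2 : P.p ≠ 2 := by have := P.hp5; omega
  have hqZ : Prime (P.p : ℤ) := Int.prime_iff_natAbs_prime.mpr (by simpa using hq)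
  rcases Pt with _ | ⟨x, y, h⟩
  · exact absurd rfl hσP
  by_cases hx : x ∈ A
  · rcases hqZ.dvd_or_dvd habc with hab | hc
    · obtain ⟨hN, -⟩ := S05_frey_node_ab (P := P) hq hq2 hA hab
      have hXle : A.valuation (x - 0) ≤ 1 := by
        rw [sub_zero]
        exact (A.valuation_le_one_iff _).2 hx
      rcases hXle.eq_or_lt with hX | hX
      · exact S40WM_depth_smooth_frey P A hN σ hσ h hx hX hP hσP
      · exact S40WN_depth_frey_ab P A hA hab σ hσ h hX hP hσP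
    · obtain ⟨hN, -⟩ := S05_frey_node_c (P := P) hq hq2 hA hc
      have hXle : A.valuation (x - (P.a : ℚbar) ^ P.p / 4) ≤ 1 :=
        (A.valuation_le_one_iff _).2 (sub_mem hx hN.x₀_mem)
      rcases hXle.eq_or_lt with hX | hX
      · exact S40WM_depth_smooth_frey P A hN σ hσ h hx hX hP hσP
      · exact S40WN_depth_frey_c P A hA hc σ hσ h hX hP hσP
  · rcases hqZ.dvd_or_dvd habc with hab | hc
    · rcases hqZ.dvd_or_dvd hab with ha | hb
      · exact S40WM_depth_E_a P A hA ha σ hσ h hx hP hσP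
      · exact S40WM_depth_E_b P A hA hb σ hσ h hx hP hσP
    · exact S40WM_depth_E_c P A hA hc σ hσ h hx hP hσP

/-- **DEPTH for the Frey curve** at a place over `p ∣ abc`, in the shape of the transport. -/
theorem S40WM_depth_frey (hA : (P.p : ℚbar) ∈ A.nonunits)
    (habc : (P.p : ℤ) ∣ P.a * P.b * P.c) : S40WT_DepthE1 P.freyCurve A P.p := by
  intro σ hσ Pt hPt hσPt
  have hin : S13_Inert A σ := S13_inert_of_mem A σ hσ.1
  obtain ⟨z, hz, hgg, hd⟩ := S40WM_depth_frey_pt P A hA habc σ hin Pt hPt hσPt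
  exact ⟨z, hz, fun g g' _ _ hg => hgg g g' hg, hd⟩

/-- **(INV) on the W-side for S44**: `W` any integral model of the Frey curve of `P`, `A` a place
over `p ∣ abc`, in case B. -/
theorem S40WM_invW_frey {W : WeierstrassCurve ℤ} (hW : W.IsIntegralModelOf P.freyCurve)
    (hA : (P.p : ℚbar) ∈ A.nonunits) (habc : (P.p : ℤ) ∣ P.a * P.b * P.c)
    (hB : ∀ g ∈ S40D_I1 A P.p, ∃ Q : (W.baseChange ℚbar).toAffine.Point,
      Q ≠ 0 ∧ P.p • Q = 0 ∧ g • Q = Q) :
    S40D_InvW W A P.p :=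
  S40WT_invW_frey P hW A (S40WM_depth_frey P A hA habc) hB

end Frey

end Fermat.Agent.S40
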