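import Mathlib
import Fermat.Agent.S40.Wire
import Fermat.Agent.S41.Dict
import Fermat.Agent.S32.SubQKappa

/-!
# S40 (Mazur–Ribet at `p`, row 38), package GEO-1 (helper9): `V₀ ≠ 0`.  Prefix `S40G1_`.

`W` residually modular of level `M` at `p` (witness `f`, `𝔪 ∋ p`).  Then the system of INTEGER
eigenvalues `a_ℓ(W)` (`ℓ ∤ M`, `ℓ ≠ p`, `ℓ` good for `W`) occurs

* `S40G1_coh` : in `k ⊗ parInt M` for every field `k` of characteristic `p` (cohomology side);
* `S40G1_main` : in `J₀(M)[p]`, through the Kummer map `S32Q_kappa M p 1`.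

`S40G1_V0` is the common eigenspace in `J₀(M)[p]` (an additive subgroup), `S40G1_V0_ne_bot`.
-/

set_option autoImplicit false
set_option linter.style.haveILetI false
set_option linter.unusedSectionVars false

open scoped TensorProduct
open CuspForm ModularCurve CongruenceSubgroup ModularFormClass

namespace Fermat.Agent.S40

open Fermat.Agent.S16 Fermat.Agent.S41 Fermat.Agent.GalRep Fermat.Agent.S32 Fermat.Agent.S49

/-- the primes that carry the congruence: good for `W`, prime to `M`, different from `p`. -/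
def S40G1_Good (W : WeierstrassCurve ℤ) (p M : ℕ) (ℓ : Nat.Primes) : Prop :=
  W.IsGoodPrimeFor (ℓ : ℕ) ∧ ¬ (ℓ : ℕ) ∣ M ∧ (ℓ : ℕ) ≠ p

open Classical in
/-- the endomorphism of the polynomial Hecke ring that forgets the variables at the other primes. -/
noncomputable def S40G1_iota (W : WeierstrassCurve ℤ) (p M : ℕ) : HeckeAlg →+* HeckeAlg :=
  MvPolynomial.eval₂Hom MvPolynomial.C
    (fun ℓ : Nat.Primes => if S40G1_Good W p M ℓ then MvPolynomial.X ℓ else 0)

open Classical in
/-- the integer character `X_ℓ ↦ a_ℓ(W)` (good `ℓ`), `X_ℓ ↦ 0` (other `ℓ`). -/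
noncomputable def S40G1_psi (W : WeierstrassCurve ℤ) (p M : ℕ) : HeckeAlg →+* ℤ :=
  MvPolynomial.eval₂Hom (RingHom.id ℤ)
    (fun ℓ : Nat.Primes => if S40G1_Good W p M ℓ then W.apOfModel (ℓ : ℕ) else 0)

theorem S40G1_iota_gen (W : WeierstrassCurve ℤ) (p M : ℕ) (ℓ : Nat.Primes)
    (h : S40G1_Good W p M ℓ) : S40G1_iota W p M (heckeGen ℓ) = heckeGen ℓ := by
  classical
  rw [S40G1_iota, heckeGen, MvPolynomial.coe_eval₂Hom, MvPolynomial.eval₂_X, if_pos h]

theorem S40G1_psi_gen (W : WeierstrassCurve ℤ) (p M : ℕ) (ℓ : Nat.Primes)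
    (h : S40G1_Good W p M ℓ) : S40G1_psi W p M (heckeGen ℓ) = W.apOfModel (ℓ : ℕ) := by
  classical
  rw [S40G1_psi, heckeGen, MvPolynomial.coe_eval₂Hom, MvPolynomial.eval₂_X, if_pos h]

variable (W : WeierstrassCurve ℤ) {p M : ℕ} [hp : Fact p.Prime] [NeZero M]

/-- the eigencharacter of the witness, restricted to the good variables, is congruent to the
integer character modulo `𝔪`. -/
theorem S40G1_cong (f : CuspForm (Gamma0 M) 2) (𝔪 : Ideal (integralClosure ℤ ℂ))
    (hf : f.IsNormalizedEigenform) (hcong : S40W_Cong W p M f 𝔪) (P : HeckeAlg) :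
    S41F_char hf (S40G1_iota W p M P)
      - ((S40G1_psi W p M P : ℤ) : integralClosure ℤ ℂ) ∈ 𝔪 := by
  classical
  have key : (Ideal.Quotient.mk 𝔪).comp ((S41F_char hf).comp (S40G1_iota W p M))
      = (Ideal.Quotient.mk 𝔪).comp
          ((Int.castRingHom (integralClosure ℤ ℂ)).comp (S40G1_psi W p M)) := by
    apply MvPolynomial.ringHom_ext
    · intro n
      simp [S40G1_iota, S40G1_psi]
    · intro ℓ
      by_cases h : S40G1_Good W p M ℓ
      · have h1 := S40G1_iota_gen W p M ℓ h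
        have h2 := S40G1_psi_gen W p M ℓ h
        rw [heckeGen] at h1 h2
        simp only [RingHom.comp_apply, h1, h2]
        obtain ⟨a, ha, ham⟩ := hcong ℓ ℓ.2 h.1 h.2.1 h.2.2
        have hae : a = S41F_char hf (heckeGen ℓ) := by
          apply Subtype.ext
          rw [ha, S41F_char_heckeGen]
        rw [hae, heckeGen] at ham
        rw [eq_intCast]
        exact (Ideal.Quotient.eq).2 ham
      · simp [S40G1_iota, S40G1_psi, h]
  have := congrArg (fun φ : HeckeAlg →+* (integralClosure ℤ ℂ ⧸ 𝔪) => φ P) key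
  simp only [RingHom.comp_apply, eq_intCast] at this
  exact (Ideal.Quotient.eq).1 this

/-- **GEO-1, cohomology side**: the integer eigensystem `a_ℓ(W)` occurs in `k ⊗ parInt M`. -/
theorem S40G1_coh (f : CuspForm (Gamma0 M) 2) (𝔪 : Ideal (integralClosure ℤ ℂ))
    (hf : f.IsNormalizedEigenform) (h𝔪 : 𝔪.IsMaximal) (hp𝔪 : (p : integralClosure ℤ ℂ) ∈ 𝔪)
    (hcong : S40W_Cong W p M f 𝔪) (k : Type*) [Field k] [CharP k p] :
    ∃ y : k ⊗[ℤ] ↥(parInt M), y ≠ 0 ∧ ∀ ℓ : Nat.Primes, S40G1_Good W p M ℓ →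
      (GRD_heckeL M (heckeGen ℓ)).baseChange k y = (W.apOfModel (ℓ : ℕ) : ℤ) • y := by
  classical
  haveI := finite_parInt M
  haveI := free_parInt M
  have hθ : ∀ P : HeckeAlg, ((GRD_heckeL M).comp (S40G1_iota W p M)) P = 0 →
      ((Int.castRingHom k).comp (S40G1_psi W p M)) P = 0 := by
    intro P hP
    rw [RingHom.comp_apply] at hP
    have h0 := S41F_char_eq_zero hf _ hP
    have h1 := S40G1_cong W f 𝔪 hf hcong P
    rw [h0, zero_sub, neg_mem_iff] at h1
    rw [RingHom.comp_apply, eq_intCast, CharP.intCast_eq_zero_iff k p]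
    by_contra hnd
    have hcop : IsCoprime (p : ℤ) (S40G1_psi W p M P) :=
      (Int.isCoprime_iff_gcd_eq_one).2
        ((Nat.Coprime.gcd_eq_one) (by
          rw [Int.natAbs_natCast]
          exact (Nat.Prime.coprime_iff_not_dvd hp.out).2 (fun hd =>
            hnd (Int.natCast_dvd.2 hd))))
    obtain ⟨u, v, huv⟩ := hcop
    apply h𝔪.ne_top
    rw [Ideal.eq_top_iff_one]
    have : (1 : integralClosure ℤ ℂ)
        = (u : integralClosure ℤ ℂ) * (p : integralClosure ℤ ℂ)
          + (v : integralClosure ℤ ℂ) * ((S40G1_psi W p M P : ℤ) : integralClosure ℤ ℂ) := by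
      have := congrArg (fun n : ℤ => (n : integralClosure ℤ ℂ)) huv
      simp only [Int.cast_add, Int.cast_mul, Int.cast_natCast, Int.cast_one] at this
      exact this.symm
    rw [this]
    exact 𝔪.add_mem (𝔪.mul_mem_left _ hp𝔪) (𝔪.mul_mem_left _ h1)
  obtain ⟨x, hx0, hx⟩ := S41F_exists_eigvec ((GRD_heckeL M).comp (S40G1_iota W p M)) p
    ((Int.castRingHom k).comp (S40G1_psi W p M)) hθ
  refine ⟨x, hx0, fun ℓ hℓ => ?_⟩
  have := hx (heckeGen ℓ)
  rw [RingHom.comp_apply, RingHom.comp_apply, S40G1_iota_gen W p M ℓ hℓ,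
    S40G1_psi_gen W p M ℓ hℓ, eq_intCast] at this
  rw [this, Int.cast_smul_eq_zsmul]

end Fermat.Agent.S40
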