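import Mathlib
import Fermat.Prelude.Def_ModularCurve_HeckeModule
import Fermat.Agent.S40.Geo1
import Fermat.Agent.S32.SubQMain
import Fermat.Agent.Lib.FrobExists

/-!
# S40 (Mazur–Ribet at `p`, row 38), package GEO-1 (helper9), part 2: the BRIDGE.
Prefix `S40G1_`.

The Kummer map `κ = S32Q_kappa N p k : J₀(N)[p^k] → ℤ/p^k ⊗ parInt N` intertwines the Hecke
operator `T_ℓ = heckeOperatorBar N ℓ` of the Jacobian with the cohomological Hecke operator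
`GR_hT N ℓ` (`ℓ ∤ N p`), because both sides satisfy the Eichler–Shimura relation for the same
Frobenius elements and `κ` is Galois-equivariant.

* `S40G1_ESJ N ℓ` : the Eichler–Shimura relation on the torsion of `J₀(N)` prime to `ℓ`
  (package GEO-3, `S40G3_es`), as a `Prop`.
* `S40G1_coh_es` : `T_ℓ z = r(σ) z + ℓ r(σ⁻¹) z` on `ℤ/p^k ⊗ parInt N`.
* `S40G1_bridge` : `κ (T_ℓ x) = T_ℓ (κ x)`.
-/

set_option autoImplicit false
set_option linter.style.haveILetI false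
set_option linter.unusedSectionVars false
set_option linter.unusedVariables false

open scoped TensorProduct
open CuspForm ModularCurve CongruenceSubgroup ModularFormClass

namespace Fermat.Agent.S40

open Fermat.Agent.S16 Fermat.Agent.S41 Fermat.Agent.GalRep Fermat.Agent.S32 Fermat.Agent.S49
  Fermat.Agent.S19

/-- **J-side Eichler–Shimura on torsion** (the shape of `S40G3_es`): for a Frobenius `σ` at `ℓ`
and a point `y` killed by some `m` prime to `ℓ`: `T_ℓ y = σ y + ℓ σ⁻¹ y`. -/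
def S40G1_ESJ (N : ℕ) [NeZero N] (ℓ : Nat.Primes) : Prop :=
  ∀ σ : GQ, GR_IsFrob (ℓ : ℕ) σ → ∀ m : ℕ, ¬ (ℓ : ℕ) ∣ m → ∀ y : JZero N, m • y = 0 →
    heckeOperatorBar N ℓ y = σ • y + (ℓ : ℕ) • (σ⁻¹ • y)

variable (N : ℕ) [NeZero N] (p : ℕ) [hp : Fact p.Prime] (k : ℕ)

/-- the Hecke operators preserve the torsion. -/
theorem S40G1_hecke_mem (ℓ : Nat.Primes) (x : JZero N)
    (hx : x ∈ Submodule.torsionBy ℤ (JZero N) ((p : ℤ) ^ k)) :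
    heckeOperatorBar N ℓ x ∈ Submodule.torsionBy ℤ (JZero N) ((p : ℤ) ^ k) := by
  rw [Submodule.mem_torsionBy_iff] at hx ⊢
  rw [← map_smul, hx, map_zero]

/-- the Hecke operator on `J₀(N)[p^k]`. -/
noncomputable def S40G1_TJ (ℓ : Nat.Primes) :
    ↥(Submodule.torsionBy ℤ (JZero N) ((p : ℤ) ^ k)) →+
      ↥(Submodule.torsionBy ℤ (JZero N) ((p : ℤ) ^ k)) :=
  AddMonoidHom.mk' (fun x => ⟨heckeOperatorBar N ℓ (x : JZero N),
    S40G1_hecke_mem N p k ℓ x x.2⟩) (by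
      intro x y
      apply Subtype.ext
      simp)

@[simp] theorem S40G1_TJ_coe (ℓ : Nat.Primes)
    (x : ↥(Submodule.torsionBy ℤ (JZero N) ((p : ℤ) ^ k))) :
    ((S40G1_TJ N p k ℓ x : ↥(Submodule.torsionBy ℤ (JZero N) ((p : ℤ) ^ k))) : JZero N)
      = heckeOperatorBar N ℓ (x : JZero N) := rfl

/-- the cohomological Eichler–Shimura relation, solved for `T_ℓ`. -/
theorem S40G1_coh_es (ℓ : Nat.Primes) (hℓN : ¬ (ℓ : ℕ) ∣ N) (hℓp : (ℓ : ℕ) ≠ p) (σ : GQ)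
    (hσ : GR_IsFrob (ℓ : ℕ) σ) (z : ZMod (p ^ k) ⊗[ℤ] ↥(parInt N)) :
    (GR_hT N (ℓ : ℕ)).baseChange (ZMod (p ^ k)) z
      = @GRT_r N _ (KMF_kappa_final N) (p ^ k) ⟨pow_ne_zero k hp.out.ne_zero⟩ σ z
        + (ℓ : ℕ) • @GRT_r N _ (KMF_kappa_final N) (p ^ k) ⟨pow_ne_zero k hp.out.ne_zero⟩ σ⁻¹ z := by
  haveI : NeZero (p ^ k) := ⟨pow_ne_zero k hp.out.ne_zero⟩
  haveI : Fact (ℓ : ℕ).Prime := ⟨ℓ.2⟩
  obtain ⟨H⟩ := GRHX_heckeES N (ℓ : ℕ)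
  have hnd : ¬ (ℓ : ℕ) ∣ p ^ k := fun hdvd =>
    hℓp ((Nat.prime_dvd_prime_iff_eq ℓ.2 hp.out).mp (ℓ.2.dvd_of_dvd_pow hdvd))
  have hes := GRT_r_es (N := N) (KMF_kappa_final N) (p ^ k) (ℓ : ℕ) H hℓN hnd σ hσ
  have h1 := congrArg (fun φ : Module.End (ZMod (p ^ k)) (ZMod (p ^ k) ⊗[ℤ] ↥(parInt N)) =>
    φ (GRT_r (KMF_kappa_final N) (p ^ k) σ⁻¹ z)) hes
  simp only [LinearMap.add_apply, LinearMap.sub_apply, Module.End.mul_apply,
    LinearMap.smul_apply, Module.End.one_apply, LinearMap.zero_apply] at h1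
  have hinv : GRT_r (KMF_kappa_final N) (p ^ k) σ (GRT_r (KMF_kappa_final N) (p ^ k) σ⁻¹ z) = z := by
    rw [← Module.End.mul_apply, ← map_mul, mul_inv_cancel, map_one, Module.End.one_apply]
  rw [hinv] at h1
  rw [Nat.cast_smul_eq_nsmul] at h1
  have h2 : (GR_hT N (ℓ : ℕ)).baseChange (ZMod (p ^ k)) z
      = GRT_r (KMF_kappa_final N) (p ^ k) σ z
        + (ℓ : ℕ) • GRT_r (KMF_kappa_final N) (p ^ k) σ⁻¹ z := by
    have h3 := sub_eq_zero.1 (by rw [← h1]; abel :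
      GRT_r (KMF_kappa_final N) (p ^ k) σ z
        + (ℓ : ℕ) • GRT_r (KMF_kappa_final N) (p ^ k) σ⁻¹ z
        - (GR_hT N (ℓ : ℕ)).baseChange (ZMod (p ^ k)) z = 0)
    exact h3.symm
  exact h2

/-- **the BRIDGE**: the Kummer map intertwines the Hecke operators `T_ℓ`, `ℓ ∤ N p`. -/
theorem S40G1_bridge (ℓ : Nat.Primes) (hℓN : ¬ (ℓ : ℕ) ∣ N) (hℓp : (ℓ : ℕ) ≠ p)
    (hES : S40G1_ESJ N ℓ) (x : ↥(Submodule.torsionBy ℤ (JZero N) ((p : ℤ) ^ k))) :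
    @S32Q_kappa N _ p k ⟨pow_ne_zero k hp.out.ne_zero⟩ (S40G1_TJ N p k ℓ x)
      = (GR_hT N (ℓ : ℕ)).baseChange (ZMod (p ^ k))
          (@S32Q_kappa N _ p k ⟨pow_ne_zero k hp.out.ne_zero⟩ x) := by
  haveI : NeZero (p ^ k) := ⟨pow_ne_zero k hp.out.ne_zero⟩
  obtain ⟨A, σ, hA, hσ⟩ := Fermat.Agent.Lib.exists_isFrobeniusAt (ℓ : ℕ) ℓ.2
  have hF : GR_IsFrob (ℓ : ℕ) σ := ⟨A, hA, hσ⟩
  have hnd : ¬ (ℓ : ℕ) ∣ p ^ k := fun hdvd =>
    hℓp ((Nat.prime_dvd_prime_iff_eq ℓ.2 hp.out).mp (ℓ.2.dvd_of_dvd_pow hdvd))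
  have hx : (p ^ k) • (x : JZero N) = 0 := by
    have := x.2
    rw [Submodule.mem_torsionBy_iff] at this
    rw [← this, ← Nat.cast_smul_eq_nsmul ℤ]
    push_cast
    rfl
  have h1 := hES σ hF (p ^ k) hnd (x : JZero N) hx
  have h2 : S40G1_TJ N p k ℓ x
      = S19F_act N p k σ x + (ℓ : ℕ) • S19F_act N p k σ⁻¹ x := by
    apply Subtype.ext
    rw [S40G1_TJ_coe, h1]
    simp
  rw [h2, map_add, map_nsmul, S40G1_coh_es N p k ℓ hℓN hℓp σ hF]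
  rw [S32Q_kappa_gal N p k σ x (S19F_act N p k σ x) rfl,
    S32Q_kappa_gal N p k σ⁻¹ x (S19F_act N p k σ⁻¹ x) rfl]

end Fermat.Agent.S40
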