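import Mathlib
import Fermat.Agent.S32.SubQMain

/-!
# TRACK 13 (S40), package GEO-2 LIFT, the BRIDGE half (helper13).  Prefix `S40BR_` (NOT `S40LB_`, which is helper23's LocB).

From a nonzero eigen-class `y ∈ J₀(N)[p]` (Jacobian side, Galois form of the eigen-equation:
`σ y + ℓ σ⁻¹ y = c_ℓ y` for a Frobenius `σ` at `ℓ`, `ℓ ∤ N p`) to a nonzero eigenvector
`x ∈ ℤ/p ⊗ parInt N` (cohomology side) with `T_ℓ x = c_ℓ x`.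

* `S40BR_kappa_injective` : the Kummer map `S32Q_kappa N ℓ k : J₀(N)[ℓ^k] →+ ℤ/ℓ^k ⊗ parInt N`
  is injective (so bijective, with `S32Q_kappa_surjective`).
* `S40BR_tw N p` : the finite-level tower on `parInt N`, unconditional.
* `S40BR_kappa_hecke` : Hecke-equivariance of `κ` in Eichler–Shimura form:
  `T_ℓ (κ x) = κ (σ x + ℓ σ⁻¹ x)` for a Frobenius `σ` at `ℓ ∤ N p`.
* `S40BR_bridge_pow` : the bridge at level `p^k`.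
* `S40BR_bridge` : the bridge at level `p` (with `ℤ/p`, not `ℤ/p^1`).
-/

set_option autoImplicit false
set_option linter.unusedSectionVars false
set_option linter.unusedVariables false
set_option linter.style.haveILetI false

open ModularCurve AlgebraicCurve
open scoped TensorProduct

namespace Fermat.Agent.S40

open Fermat.Agent.GalRep Fermat.Agent.S16 Fermat.Agent.S17 Fermat.Agent.S19 Fermat.Agent.S32

/-- **the Kummer map is injective**. -/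
theorem S40BR_kappa_injective (N ℓ k : ℕ) [NeZero N] [NeZero (ℓ ^ k)] :
    Function.Injective (S32Q_kappa N ℓ k) := by
  intro x y hxy
  have h1 : S32Q_chi N ℓ k x = S32Q_chi N ℓ k y := by
    have h := congrArg (GRT_iso N (ℓ ^ k)) hxy
    rwa [S32Q_kappa_apply, S32Q_kappa_apply, LinearEquiv.apply_symm_apply,
      LinearEquiv.apply_symm_apply] at h
  obtain ⟨D, f, hD, hf0, hf, hχ⟩ := S32Q_chi_spec N ℓ k x
  obtain ⟨D', f', hD', hf0', hf', hχ'⟩ := S32Q_chi_spec N ℓ k y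
  rw [h1] at hχ
  have h2 := S17ST_eq_of_char N (ℓ ^ k) (Nat.pos_of_ne_zero (NeZero.ne (ℓ ^ k))) D D' f f'
    hf0 hf0' hf hf' _ hχ hχ'
  exact Subtype.ext (by rw [← hD, ← hD', h2])

/-- the Eichler–Shimura relation of a tower, applied to a vector:
`T_ℓ z = r(σ) z + ℓ r(σ⁻¹) z` for a Frobenius `σ` at `ℓ ∤ N p`. -/
theorem S40BR_es_apply {p N : ℕ} {L : Type} [AddCommGroup L] {T : ℕ → Module.End ℤ L}
    (tw : GR_Tower p N L T) (k : ℕ) {ℓ : ℕ} (hℓ : ℓ.Prime) (hℓN : ¬ ℓ ∣ N) (hℓp : ℓ ≠ p)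
    (σ : GQ) (hσ : GR_IsFrob ℓ σ) (z : ZMod (p ^ k) ⊗[ℤ] L) :
    (T ℓ).baseChange (ZMod (p ^ k)) z = tw.r k σ z + ℓ • tw.r k σ⁻¹ z := by
  have hes := tw.es k ℓ hℓ hℓN hℓp σ hσ
  have h1 := LinearMap.congr_fun hes (tw.r k σ⁻¹ z)
  have h2 : tw.r k σ (tw.r k σ⁻¹ z) = z := by
    rw [← Module.End.mul_apply, ← map_mul, mul_inv_cancel, map_one, Module.End.one_apply]
  rw [LinearMap.add_apply, LinearMap.sub_apply, Module.End.mul_apply, Module.End.mul_apply,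
    LinearMap.smul_apply, Module.End.one_apply, LinearMap.zero_apply, h2,
    Nat.cast_smul_eq_nsmul] at h1
  have h4 := sub_eq_zero.mp (show (tw.r k σ z + ℓ • tw.r k σ⁻¹ z)
    - (T ℓ).baseChange (ZMod (p ^ k)) z = 0 by rw [← h1]; abel)
  exact h4.symm

section tower

variable (N : ℕ) [NeZero N] (p : ℕ) [hp : Fact p.Prime]

/-- the finite-level tower on `parInt N`, unconditional. -/
noncomputable def S40BR_tw : GR_Tower p N ↥(parInt N) (GR_hT N) :=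
  S32Q_tw N p (fun ℓ _ => GRHX_heckeES N ℓ) (ES_unram GRT3_s18 GRT3_ri N)
    (GR_fin N (KMF_kappa_final N))

/-- `κ` at level `p^k`, with the instance filled in. -/
noncomputable def S40BR_kappa (k : ℕ) :
    ↥(Submodule.torsionBy ℤ (JZero N) ((p : ℤ) ^ k)) →+ (ZMod (p ^ k) ⊗[ℤ] ↥(parInt N)) :=
  @S32Q_kappa N _ p k ⟨pow_ne_zero k hp.out.ne_zero⟩

theorem S40BR_kappa_inj (k : ℕ) : Function.Injective (S40BR_kappa N p k) :=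
  @S40BR_kappa_injective N p k _ ⟨pow_ne_zero k hp.out.ne_zero⟩

theorem S40BR_kappa_surj (k : ℕ) : Function.Surjective (S40BR_kappa N p k) :=
  @S32Q_kappa_surjective N _ p k ⟨pow_ne_zero k hp.out.ne_zero⟩

/-- Galois-equivariance of `κ`. -/
theorem S40BR_kappa_gal (k : ℕ) (σ : GQ)
    (x : ↥(Submodule.torsionBy ℤ (JZero N) ((p : ℤ) ^ k))) :
    S40BR_kappa N p k (S19F_act N p k σ x) = (S40BR_tw N p).r k σ (S40BR_kappa N p k x) :=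
  S32Q_kappa_tw N p _ _ _ k σ x

/-- **Hecke-equivariance of `κ`, Eichler–Shimura form**: for a Frobenius `σ` at `ℓ ∤ N p`,
`T_ℓ (κ x) = κ (σ x + ℓ σ⁻¹ x)`. -/
theorem S40BR_kappa_hecke (k : ℕ) {ℓ : ℕ} (hℓ : ℓ.Prime) (hℓN : ¬ ℓ ∣ N) (hℓp : ℓ ≠ p)
    (σ : GQ) (hσ : GR_IsFrob ℓ σ) (x : ↥(Submodule.torsionBy ℤ (JZero N) ((p : ℤ) ^ k))) :
    (GR_hT N ℓ).baseChange (ZMod (p ^ k)) (S40BR_kappa N p k x)
      = S40BR_kappa N p k (S19F_act N p k σ x + ℓ • S19F_act N p k σ⁻¹ x) := by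
  rw [map_add, map_nsmul, S40BR_kappa_gal, S40BR_kappa_gal]
  exact S40BR_es_apply (S40BR_tw N p) k hℓ hℓN hℓp σ hσ _

end tower

/-- transport of an eigenvector along `n = m`. -/
theorem S40BR_transport {L : Type} [AddCommGroup L] {ι : Type} (T : ι → Module.End ℤ L)
    {n m : ℕ} (h : n = m) (x : ZMod n ⊗[ℤ] L) (hx : x ≠ 0) (c : ι → ℤ) (P : ι → Prop)
    (hc : ∀ i, P i → (T i).baseChange (ZMod n) x = (c i : ZMod n) • x) :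
    ∃ x' : ZMod m ⊗[ℤ] L, x' ≠ 0 ∧
      ∀ i, P i → (T i).baseChange (ZMod m) x' = (c i : ZMod m) • x' := by
  subst h
  exact ⟨x, hx, hc⟩

section bridge

variable (N : ℕ) [NeZero N] (p : ℕ) [hp : Fact p.Prime]

/-- **the bridge at level `p^k`**: a nonzero class `y ∈ J₀(N)[p^k]` with
`σ y + ℓ σ⁻¹ y = c_ℓ y` (`σ` SOME Frobenius at `ℓ`, `ℓ ∈ S`, `ℓ ∤ N p`) gives a nonzero
`x ∈ ℤ/p^k ⊗ parInt N` with `T_ℓ x = c_ℓ x` for all `ℓ ∈ S`. -/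
theorem S40BR_bridge_pow (k : ℕ) (y : JZero N) (hy0 : y ≠ 0) (hpy : (p ^ k) • y = 0)
    (S : Set ℕ) (hS : ∀ ℓ ∈ S, ℓ.Prime ∧ ¬ ℓ ∣ N ∧ ℓ ≠ p) (c : ℕ → ℤ)
    (hc : ∀ ℓ ∈ S, ∃ σ : GQ, GR_IsFrob ℓ σ ∧ σ • y + ℓ • σ⁻¹ • y = c ℓ • y) :
    ∃ x : ZMod (p ^ k) ⊗[ℤ] ↥(parInt N), x ≠ 0 ∧ ∀ ℓ : ℕ, ℓ ∈ S →
      (GR_hT N ℓ).baseChange (ZMod (p ^ k)) x = (c ℓ : ZMod (p ^ k)) • x := by
  have hy : y ∈ Submodule.torsionBy ℤ (JZero N) ((p : ℤ) ^ k) := by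
    rw [Submodule.mem_torsionBy_iff, ← Nat.cast_pow, natCast_zsmul]
    exact hpy
  refine ⟨S40BR_kappa N p k ⟨y, hy⟩, ?_, fun ℓ hℓS => ?_⟩
  · intro h0
    have h1 := S40BR_kappa_inj N p k (h0.trans (map_zero (S40BR_kappa N p k)).symm)
    exact hy0 (congrArg Subtype.val h1)
  · obtain ⟨hℓ, hℓN, hℓp⟩ := hS ℓ hℓS
    obtain ⟨σ, hσ, hrel⟩ := hc ℓ hℓS
    rw [S40BR_kappa_hecke N p k hℓ hℓN hℓp σ hσ ⟨y, hy⟩]
    have h1 : S19F_act N p k σ ⟨y, hy⟩ + ℓ • S19F_act N p k σ⁻¹ ⟨y, hy⟩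
        = c ℓ • (⟨y, hy⟩ : ↥(Submodule.torsionBy ℤ (JZero N) ((p : ℤ) ^ k))) := by
      apply Subtype.ext
      simpa using hrel
    rw [h1, map_zsmul]
    exact (Int.cast_smul_eq_zsmul _ _ _).symm

/-- **THE BRIDGE (GEO-2 LIFT, Jacobian ⇒ cohomology)**: a nonzero class `y ∈ J₀(N)[p]` with
`σ y + ℓ σ⁻¹ y = c_ℓ y` (`σ` SOME Frobenius at `ℓ`) for all `ℓ ∈ S` (primes `ℓ ∤ N p`) gives a
nonzero `x ∈ ℤ/p ⊗ parInt N` with `T_ℓ x = c_ℓ x` for all `ℓ ∈ S`. -/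
theorem S40BR_bridge (y : JZero N) (hy0 : y ≠ 0) (hpy : p • y = 0)
    (S : Set ℕ) (hS : ∀ ℓ ∈ S, ℓ.Prime ∧ ¬ ℓ ∣ N ∧ ℓ ≠ p) (c : ℕ → ℤ)
    (hc : ∀ ℓ ∈ S, ∃ σ : GQ, GR_IsFrob ℓ σ ∧ σ • y + ℓ • σ⁻¹ • y = c ℓ • y) :
    ∃ x : ZMod p ⊗[ℤ] ↥(parInt N), x ≠ 0 ∧ ∀ (ℓ : ℕ) (hℓ : ℓ.Prime), ℓ ∈ S →
      (GRD_heckeL N (ModularCurve.heckeGen ⟨ℓ, hℓ⟩)).baseChange (ZMod p) x
        = (c ℓ : ZMod p) • x := by
  obtain ⟨x₁, hx₁, hT₁⟩ := S40BR_bridge_pow N p 1 y hy0 (by rwa [pow_one]) S hS c hc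
  obtain ⟨x, hx, hT⟩ := S40BR_transport (GR_hT N) (pow_one p) x₁ hx₁ c (fun ℓ => ℓ ∈ S) hT₁
  refine ⟨x, hx, fun ℓ hℓ hℓS => ?_⟩
  have h := hT ℓ hℓS
  have e : GR_hT N ℓ = GRD_heckeL N (ModularCurve.heckeGen ⟨ℓ, hℓ⟩) := by
    unfold GR_hT
    rw [dif_pos hℓ]
  rwa [e] at h

/-- **the bridge, reverse direction at level `p^k`** (cohomology ⇒ Jacobian): a nonzero
`x ∈ ℤ/p^k ⊗ parInt N` with `T_ℓ x = c_ℓ x` (`ℓ ∈ S`, primes `ℓ ∤ N p`) is `κ y` for a nonzero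
class `y ∈ J₀(N)[p^k]` with `σ y + ℓ σ⁻¹ y = c_ℓ y` for EVERY Frobenius `σ` at `ℓ ∈ S`. -/
theorem S40BR_bridge_rev_pow (k : ℕ) (x : ZMod (p ^ k) ⊗[ℤ] ↥(parInt N)) (hx : x ≠ 0)
    (S : Set ℕ) (hS : ∀ ℓ ∈ S, ℓ.Prime ∧ ¬ ℓ ∣ N ∧ ℓ ≠ p) (c : ℕ → ℤ)
    (hc : ∀ ℓ : ℕ, ℓ ∈ S → (GR_hT N ℓ).baseChange (ZMod (p ^ k)) x = (c ℓ : ZMod (p ^ k)) • x) :
    ∃ y : ↥(Submodule.torsionBy ℤ (JZero N) ((p : ℤ) ^ k)), S40BR_kappa N p k y = x ∧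
      (y : JZero N) ≠ 0 ∧ (p ^ k) • (y : JZero N) = 0 ∧
      ∀ ℓ ∈ S, ∀ σ : GQ, GR_IsFrob ℓ σ →
        σ • (y : JZero N) + ℓ • σ⁻¹ • (y : JZero N) = c ℓ • (y : JZero N) := by
  obtain ⟨y, rfl⟩ := S40BR_kappa_surj N p k x
  refine ⟨y, rfl, ?_, ?_, fun ℓ hℓS σ hσ => ?_⟩
  · intro h0
    apply hx
    have : y = 0 := Subtype.ext h0
    rw [this, map_zero]
  · exact S32Q_tors_nsmul N p k y
  · obtain ⟨hℓ, hℓN, hℓp⟩ := hS ℓ hℓS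
    have h1 := hc ℓ hℓS
    rw [S40BR_kappa_hecke N p k hℓ hℓN hℓp σ hσ y, Int.cast_smul_eq_zsmul, ← map_zsmul] at h1
    have h2 := congrArg Subtype.val (S40BR_kappa_inj N p k h1)
    simpa using h2

/-- **the bridge, reverse direction** (cohomology ⇒ Jacobian, level `p`): a nonzero
`x ∈ ℤ/p ⊗ parInt N` with `T_ℓ x = c_ℓ x` (`ℓ ∈ S`, primes `ℓ ∤ N p`) gives a nonzero class
`y ∈ J₀(N)[p]` with `σ y + ℓ σ⁻¹ y = c_ℓ y` for EVERY Frobenius `σ` at `ℓ ∈ S`. -/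
theorem S40BR_bridge_rev (x : ZMod p ⊗[ℤ] ↥(parInt N)) (hx : x ≠ 0)
    (S : Set ℕ) (hS : ∀ ℓ ∈ S, ℓ.Prime ∧ ¬ ℓ ∣ N ∧ ℓ ≠ p) (c : ℕ → ℤ)
    (hc : ∀ (ℓ : ℕ) (hℓ : ℓ.Prime), ℓ ∈ S →
      (GRD_heckeL N (ModularCurve.heckeGen ⟨ℓ, hℓ⟩)).baseChange (ZMod p) x
        = (c ℓ : ZMod p) • x) :
    ∃ y : JZero N, y ≠ 0 ∧ p • y = 0 ∧
      ∀ ℓ ∈ S, ∀ σ : GQ, GR_IsFrob ℓ σ → σ • y + ℓ • σ⁻¹ • y = c ℓ • y := by
  have hc' : ∀ ℓ : ℕ, ℓ ∈ S → (GR_hT N ℓ).baseChange (ZMod p) x = (c ℓ : ZMod p) • x := by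
    intro ℓ hℓS
    have hℓ := (hS ℓ hℓS).1
    have e : GR_hT N ℓ = GRD_heckeL N (ModularCurve.heckeGen ⟨ℓ, hℓ⟩) := by
      unfold GR_hT
      rw [dif_pos hℓ]
    rw [e]
    exact hc ℓ hℓ hℓS
  obtain ⟨x₁, hx₁, hT₁⟩ :=
    S40BR_transport (GR_hT N) (pow_one p).symm x hx c (fun ℓ => ℓ ∈ S) hc'
  obtain ⟨y, -, hy0, hpy, hy⟩ := S40BR_bridge_rev_pow N p 1 x₁ hx₁ S hS c hT₁
  exact ⟨y, hy0, by rwa [pow_one] at hpy, hy⟩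

end bridge

end Fermat.Agent.S40
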