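import Mathlib
import Fermat.Agent.S40.Geo1
import Fermat.Agent.S40.Geo1Bridge
import Fermat.Agent.S40.LiftBridge
import Fermat.Agent.S40.Defs

/-!
# S40 (Mazur–Ribet at `p`, row 38), package GEO-1 (helper9), part 3: `V₀ ≠ 0` on the J side.
Prefix `S40G1_`.

`W` residually modular of level `M` at `p` (witness `f`, `𝔪 ∋ p`).

* `S40G1_gal` (UNCONDITIONAL) : there is `x ≠ 0` in `J₀(M)[p]` with
  `σ x + ℓ σ⁻¹ x = a_ℓ(W) x` for every Frobenius `σ` at every good `ℓ ∤ M p`.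
* `S40G1_main` : `x ∈ S40D_V0 W p M` (the `heckeOperatorBar` form of helper6's `Defs.lean`),
  from the Eichler–Shimura relation on torsion `S40G1_ESJ` (package GEO-3, `S40G3_es`).
-/

set_option autoImplicit false
set_option linter.style.haveILetI false
set_option linter.unusedSectionVars false
set_option linter.unusedVariables false

open scoped TensorProduct
open CuspForm ModularCurve CongruenceSubgroup ModularFormClass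

namespace Fermat.Agent.S40

open Fermat.Agent.S16 Fermat.Agent.S41 Fermat.Agent.GalRep Fermat.Agent.S32 Fermat.Agent.S49
  Fermat.Agent.S19

variable (W : WeierstrassCurve ℤ) {p M : ℕ} [hp : Fact p.Prime] [NeZero M]

/-- **GEO-1, Galois form** (unconditional): a nonzero `W`-eigen-class in `J₀(M)[p]`, the Hecke
operators `T_ℓ` written as `σ + ℓ σ⁻¹` (`σ` any Frobenius at `ℓ`). -/
theorem S40G1_gal (f : CuspForm (Gamma0 M) 2) (𝔪 : Ideal (integralClosure ℤ ℂ))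
    (hf : f.IsNormalizedEigenform) (h𝔪 : 𝔪.IsMaximal) (hp𝔪 : (p : integralClosure ℤ ℂ) ∈ 𝔪)
    (hcong : S40W_Cong W p M f 𝔪) :
    ∃ x : JZero M, x ≠ 0 ∧ p • x = 0 ∧
      ∀ ℓ : Nat.Primes, S40G1_Good W p M ℓ → ∀ σ : GQ, GR_IsFrob (ℓ : ℕ) σ →
        σ • x + (ℓ : ℕ) • σ⁻¹ • x = W.apOfModel (ℓ : ℕ) • x := by
  obtain ⟨y, hy0, hy⟩ := S40G1_coh W f 𝔪 hf h𝔪 hp𝔪 hcong (ZMod p)
  obtain ⟨x, hx0, hpx, hx⟩ := S40BR_bridge_rev M p y hy0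
    {ℓ | ∃ hℓ : ℓ.Prime, S40G1_Good W p M ⟨ℓ, hℓ⟩}
    (fun ℓ hℓS => by
      obtain ⟨hℓ, hg⟩ := hℓS
      exact ⟨hℓ, hg.2.1, hg.2.2⟩)
    (fun ℓ => W.apOfModel ℓ)
    (fun ℓ hℓ hℓS => by
      obtain ⟨hℓ', hg⟩ := hℓS
      rw [hy ⟨ℓ, hℓ⟩ hg, Int.cast_smul_eq_zsmul])
  refine ⟨x, hx0, hpx, fun ℓ hg σ hσ => ?_⟩
  exact hx (ℓ : ℕ) ⟨ℓ.2, hg⟩ σ hσ

/-- **GEO-1** (`V₀ ≠ 0`): a nonzero element of `S40D_V0 W p M`, from the Eichler–Shimura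
relation on the torsion of `J₀(M)` at the good primes. -/
theorem S40G1_main (hES : ∀ ℓ : Nat.Primes, ¬ (ℓ : ℕ) ∣ M → (ℓ : ℕ) ≠ p → S40G1_ESJ M ℓ)
    (f : CuspForm (Gamma0 M) 2) (𝔪 : Ideal (integralClosure ℤ ℂ))
    (hf : f.IsNormalizedEigenform) (h𝔪 : 𝔪.IsMaximal) (hp𝔪 : (p : integralClosure ℤ ℂ) ∈ 𝔪)
    (hcong : S40W_Cong W p M f 𝔪) :
    ∃ x : JZero M, x ≠ 0 ∧ x ∈ S40D_V0 W p M := by
  obtain ⟨x, hx0, hpx, hx⟩ := S40G1_gal W f 𝔪 hf h𝔪 hp𝔪 hcong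
  refine ⟨x, hx0, hpx, fun ℓ hgood hℓM hℓp => ?_⟩
  obtain ⟨A, σ, hA, hσ⟩ := Fermat.Agent.Lib.exists_isFrobeniusAt (ℓ : ℕ) ℓ.2
  have hF : GR_IsFrob (ℓ : ℕ) σ := ⟨A, hA, hσ⟩
  have hnd : ¬ (ℓ : ℕ) ∣ p := fun hdvd =>
    hℓp ((Nat.prime_dvd_prime_iff_eq ℓ.2 hp.out).mp hdvd)
  rw [hES ℓ hℓM hℓp σ hF p hnd x hpx]
  exact hx ℓ ⟨hgood, hℓM, hℓp⟩ σ hF

end Fermat.Agent.S40
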