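import Mathlib
import Fermat.Agent.S40.Geo1Main
import Fermat.Agent.S40.Geo3

/-!
# S40 (Mazur–Ribet at `p`, row 38), package GEO-1 (helper9), part 4: `V₀ ≠ 0`, UNCONDITIONAL.
Prefix `S40G1_`.

* `S40G1_esj` : the Eichler–Shimura relation on torsion `S40G1_ESJ N ℓ` (`ℓ ∤ N`), from
  helper1's `S40G3_es`.
* `S40G1_V0_ne` : **GEO-1**: for a witness `f`, `𝔪 ∋ p` of `W.IsResiduallyModularOfLevel p M`
  there is a nonzero element of `S40D_V0 W p M`.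
* `S40G1_V0_ne'` : the same from `W.IsResiduallyModularOfLevel p M`.
-/

set_option autoImplicit false
set_option linter.style.haveILetI false
set_option linter.unusedSectionVars false
set_option linter.unusedVariables false

open CuspForm ModularCurve CongruenceSubgroup ModularFormClass

namespace Fermat.Agent.S40

open Fermat.Agent.GalRep

/-- the Eichler–Shimura relation on the torsion of `J₀(N)` prime to `ℓ`, `ℓ ∤ N`. -/
theorem S40G1_esj (N : ℕ) [NeZero N] (ℓ : Nat.Primes) (hℓN : ¬ (ℓ : ℕ) ∣ N) :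
    S40G1_ESJ N ℓ := by
  rintro σ ⟨A, hA, hσ⟩ m hm y hy
  exact S40G3_es N ℓ hℓN A hA σ hσ hm y hy

/-- **GEO-1** (`V₀ ≠ 0`), unconditional. -/
theorem S40G1_V0_ne (W : WeierstrassCurve ℤ) {p M : ℕ} [hp : Fact p.Prime] [NeZero M]
    (f : CuspForm (Gamma0 M) 2) (𝔪 : Ideal (integralClosure ℤ ℂ))
    (hf : f.IsNormalizedEigenform) (h𝔪 : 𝔪.IsMaximal) (hp𝔪 : (p : integralClosure ℤ ℂ) ∈ 𝔪)
    (hcong : S40W_Cong W p M f 𝔪) :
    ∃ x : JZero M, x ≠ 0 ∧ x ∈ S40D_V0 W p M :=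
  S40G1_main W (fun ℓ hℓM _ => S40G1_esj M ℓ hℓM) f 𝔪 hf h𝔪 hp𝔪 hcong

/-- **GEO-1** from the hypothesis of the frozen statement. -/
theorem S40G1_V0_ne' (W : WeierstrassCurve ℤ) {p M : ℕ} [hp : Fact p.Prime] [NeZero M]
    (hmod : W.IsResiduallyModularOfLevel p M) :
    ∃ x : JZero M, x ≠ 0 ∧ x ∈ S40D_V0 W p M := by
  obtain ⟨f, 𝔪, hf, h𝔪, hp𝔪, hcong⟩ := hmod
  exact S40G1_V0_ne W f 𝔪 hf h𝔪 hp𝔪 hcong

end Fermat.Agent.S40
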