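import Mathlib
import Fermat.Agent.S40.Geo1Final
import Fermat.Agent.S40.WireAbs
import Fermat.Agent.S31.FrobElt
import Fermat.Agent.S19.HopfJZero

/-!
# S40 (Mazur–Ribet at `p`, row 38), package GEO-1 (helper9), part 5: `V₀` as a finite
`G_ℚ`-stable subgroup (the interface to `S40WA_main`).  Prefix `S40G1_`.

* `S40G1_hecke_gal` : `T_ℓ (g y) = g (T_ℓ y)` on the torsion of `J₀(N)` prime to `ℓ`, `ℓ ∤ N`
  (Eichler–Shimura on torsion + a conjugate of a Frobenius is a Frobenius);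
* `S40G1_V0 W p N : AddSubgroup (JZero N)` with carrier `S40D_V0 W p N`;
* `S40G1_V0_finite`, `S40G1_V0_stable`, `S40G1_V0_ne_bot`.
-/

set_option autoImplicit false
set_option linter.style.haveILetI false
set_option linter.unusedSectionVars false
set_option linter.unusedVariables false

open CuspForm ModularCurve CongruenceSubgroup ModularFormClass

namespace Fermat.Agent.S40

open Fermat.Agent.GalRep Fermat.Agent.S31 Fermat.Agent.S19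

/-- **the Hecke operators commute with `G_ℚ` on torsion** prime to `ℓ` (`ℓ ∤ N`). -/
theorem S40G1_hecke_gal (N : ℕ) [NeZero N] (ℓ : Nat.Primes) (hℓN : ¬ (ℓ : ℕ) ∣ N)
    {m : ℕ} (hm : ¬ (ℓ : ℕ) ∣ m) (y : JZero N) (hy : m • y = 0) (g : GQ) :
    heckeOperatorBar N ℓ (g • y) = g • heckeOperatorBar N ℓ y := by
  obtain ⟨A, σ, hA, hσ⟩ := Fermat.Agent.Lib.exists_isFrobeniusAt (ℓ : ℕ) ℓ.2
  have hF : GR_IsFrob (ℓ : ℕ) σ := ⟨A, hA, hσ⟩
  have hF' : GR_IsFrob (ℓ : ℕ) (g⁻¹ * σ * g⁻¹⁻¹) := FDE_isFrob_conj ℓ.2 hF g⁻¹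
  have hgy : m • (g • y) = 0 := by
    have e : m • (g • y) = g • (m • y) := smul_comm m g y
    rw [e, hy]
    exact smul_zero (A := JZero N) g
  rw [S40G1_esj N ℓ hℓN σ hF m hm (g • y) hgy,
    S40G1_esj N ℓ hℓN (g⁻¹ * σ * g⁻¹⁻¹) hF' m hm y hy]
  have e1 : g • ((g⁻¹ * σ * g⁻¹⁻¹) • y) = σ • g • y := by
    rw [← mul_smul, ← mul_smul]
    congr 1
    group
  have e2 : g • ((g⁻¹ * σ * g⁻¹⁻¹)⁻¹ • y) = σ⁻¹ • g • y := by
    rw [← mul_smul, ← mul_smul]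
    congr 1
    group
  have e3 : g • ((ℓ : ℕ) • ((g⁻¹ * σ * g⁻¹⁻¹)⁻¹ • y))
      = (ℓ : ℕ) • (g • ((g⁻¹ * σ * g⁻¹⁻¹)⁻¹ • y)) := (smul_comm (ℓ : ℕ) g _).symm
  rw [smul_add, e1, e3, e2]

/-- `V₀`, the `W`-eigenspace of `J₀(N)[p]`, as an additive subgroup. -/
def S40G1_V0 (W : WeierstrassCurve ℤ) (p N : ℕ) [NeZero N] : AddSubgroup (JZero N) where
  carrier := S40D_V0 W p N
  zero_mem' := ⟨smul_zero p, fun ℓ _ _ _ => by rw [map_zero, smul_zero]⟩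
  add_mem' := by
    rintro x y ⟨hx, hx'⟩ ⟨hy, hy'⟩
    refine ⟨by rw [nsmul_add, hx, hy, add_zero], fun ℓ h1 h2 h3 => ?_⟩
    rw [map_add, hx' ℓ h1 h2 h3, hy' ℓ h1 h2 h3, zsmul_add]
  neg_mem' := by
    rintro x ⟨hx, hx'⟩
    refine ⟨by rw [neg_nsmul, hx, neg_zero], fun ℓ h1 h2 h3 => ?_⟩
    rw [map_neg, hx' ℓ h1 h2 h3, zsmul_neg]

theorem S40G1_mem_V0 {W : WeierstrassCurve ℤ} {p N : ℕ} [NeZero N] {x : JZero N} :
    x ∈ S40G1_V0 W p N ↔ x ∈ S40D_V0 W p N := Iff.rfl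

/-- `V₀` is finite. -/
theorem S40G1_V0_finite (W : WeierstrassCurve ℤ) (p N : ℕ) [NeZero N] [hp : Fact p.Prime] :
    Finite (S40G1_V0 W p N) := by
  haveI := S19F_jzero_finite N p 1
  refine Finite.of_injective
    (fun x : S40G1_V0 W p N =>
      (⟨(x : JZero N), by
        rw [Submodule.mem_torsionBy_iff, pow_one, Nat.cast_smul_eq_nsmul]
        exact x.2.1⟩ : ↥(Submodule.torsionBy ℤ (JZero N) ((p : ℤ) ^ 1)))) ?_
  intro x y hxy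
  have h := congrArg
    (fun z : ↥(Submodule.torsionBy ℤ (JZero N) ((p : ℤ) ^ 1)) => (z : JZero N)) hxy
  exact Subtype.ext h

/-- `V₀` is stable under `G_ℚ`. -/
theorem S40G1_V0_stable (W : WeierstrassCurve ℤ) (p N : ℕ) [NeZero N] [hp : Fact p.Prime] :
    S40WA_Stable GQ (S40G1_V0 W p N) := by
  rintro g x ⟨hx, hx'⟩
  refine ⟨?_, fun ℓ h1 h2 h3 => ?_⟩
  · have e : p • (g • x) = g • (p • x) := smul_comm p g x
    rw [e, hx]
    exact smul_zero (A := JZero N) g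
  · have hnd : ¬ (ℓ : ℕ) ∣ p := fun hdvd =>
      h3 ((Nat.prime_dvd_prime_iff_eq ℓ.2 hp.out).mp hdvd)
    rw [S40G1_hecke_gal N ℓ h2 hnd x hx g, hx' ℓ h1 h2 h3]
    exact (smul_comm (W.apOfModel (ℓ : ℕ)) g x).symm

/-- **GEO-1**: `V₀ ≠ ⊥`. -/
theorem S40G1_V0_ne_bot (W : WeierstrassCurve ℤ) {p M : ℕ} [hp : Fact p.Prime] [NeZero M]
    (hmod : W.IsResiduallyModularOfLevel p M) : S40G1_V0 W p M ≠ ⊥ := by
  obtain ⟨x, hx0, hx⟩ := S40G1_V0_ne' W hmod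
  intro hbot
  have : x ∈ S40G1_V0 W p M := hx
  rw [hbot, AddSubgroup.mem_bot] at this
  exact hx0 this

end Fermat.Agent.S40
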