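import Mathlib
import Fermat.Agent.S40.LiftAlg
import Fermat.Agent.S40.LiftBridge
import Fermat.Agent.Lib.FrobExists
import Fermat.Prelude.Def_ModularCurve_HeckeModule

/-!
# TRACK 13 (S40), package GEO-2 LIFT: the composite (helper13).  Prefix `S40LF_`.

An eigen-class `y ≠ 0` in `J₀(M')[p]`, `M' ∣ M / p`, with the eigenvalues `a_ℓ(W)` at the primes
`ℓ ≠ p`, `ℓ ∤ M`, good for `W`, gives the core `S40W_Core W p M` (a normalised eigenform of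
level `M'` congruent to `W` modulo some maximal ideal over `p`).

* `S40LF_lift_gal` : Galois form of the eigen-equation (`σ y + ℓ σ⁻¹ y = a_ℓ(W) y` for SOME
  Frobenius `σ` at `ℓ`).  = `S40BR_bridge` (helper13) + `S40LA_core_of_eigvec` (helper26).
* `S40LF_ES N` : Eichler–Shimura on the torsion of `J₀(N)` for the prelude's Hecke operator
  `heckeOperatorBar` (= the statement of helper1's `S40G3_es`), as a `Prop`.
* `S40LF_lift` : Hecke form of the eigen-equation (`heckeOperatorBar M' ℓ y = a_ℓ(W) y`), from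
  `S40LF_ES M'`.
-/

set_option autoImplicit false
set_option linter.unusedSectionVars false
set_option linter.unusedVariables false
set_option linter.style.haveILetI false

open ModularCurve AlgebraicCurve
open scoped TensorProduct

namespace Fermat.Agent.S40

open Fermat.Agent.GalRep Fermat.Agent.S16

/-- **GEO-2 LIFT, Galois form**. -/
theorem S40LF_lift_gal (W : WeierstrassCurve ℤ) (p M M' : ℕ) [Fact p.Prime] [NeZero M']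
    (hpM : p ∣ M) (hM' : M' ∣ M / p)
    (y : JZero M') (hy0 : y ≠ 0) (hpy : p • y = 0)
    (hc : ∀ ℓ : ℕ, ℓ.Prime → W.IsGoodPrimeFor ℓ → ¬ ℓ ∣ M → ℓ ≠ p →
      ∃ σ : GQ, GR_IsFrob ℓ σ ∧ σ • y + ℓ • σ⁻¹ • y = (W.apOfModel ℓ : ℤ) • y) :
    S40W_Core W p M := by
  have hM'M : M' ∣ M := hM'.trans (Nat.div_dvd_of_dvd hpM)
  obtain ⟨x, hx, hT⟩ := S40BR_bridge M' p y hy0 hpy
    {ℓ : ℕ | ℓ.Prime ∧ W.IsGoodPrimeFor ℓ ∧ ¬ ℓ ∣ M ∧ ℓ ≠ p}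
    (fun ℓ hℓ => ⟨hℓ.1, fun h => hℓ.2.2.1 (h.trans hM'M), hℓ.2.2.2⟩)
    (fun ℓ => (W.apOfModel ℓ : ℤ))
    (fun ℓ hℓ => hc ℓ hℓ.1 hℓ.2.1 hℓ.2.2.1 hℓ.2.2.2)
  exact S40LA_core_of_eigvec W p M M' hM' x hx
    (fun ℓ hgood hℓM hℓp => hT ℓ ℓ.2 ⟨ℓ.2, hgood, hℓM, hℓp⟩)

/-- **Eichler–Shimura on the torsion of `J₀(N)`** for the prelude's Hecke operator
(the statement of helper1's `S40G3_es`), as a `Prop`. -/
def S40LF_ES (N : ℕ) [NeZero N] : Prop :=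
  ∀ (ℓ : ℕ) (hℓ : ℓ.Prime), ¬ ℓ ∣ N →
    ∀ A : ValuationSubring (AlgebraicClosure ℚ), A.LiesOverPrime ℓ →
      ∀ σ : GQ, A.IsFrobeniusAt σ ℓ → ∀ m : ℕ, ¬ ℓ ∣ m → ∀ y : JZero N, m • y = 0 →
        heckeOperatorBar N ⟨ℓ, hℓ⟩ y = σ • y + ℓ • σ⁻¹ • y

/-- **GEO-2 LIFT, Hecke form** (from Eichler–Shimura on the torsion of `J₀(M')`). -/
theorem S40LF_lift (W : WeierstrassCurve ℤ) (p M M' : ℕ) [Fact p.Prime] [NeZero M']
    (hES : S40LF_ES M') (hpM : p ∣ M) (hM' : M' ∣ M / p)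
    (y : JZero M') (hy0 : y ≠ 0) (hpy : p • y = 0)
    (hc : ∀ (ℓ : ℕ) (hℓ : ℓ.Prime), W.IsGoodPrimeFor ℓ → ¬ ℓ ∣ M → ℓ ≠ p →
      heckeOperatorBar M' ⟨ℓ, hℓ⟩ y = (W.apOfModel ℓ : ℤ) • y) :
    S40W_Core W p M := by
  have hM'M : M' ∣ M := hM'.trans (Nat.div_dvd_of_dvd hpM)
  refine S40LF_lift_gal W p M M' hpM hM' y hy0 hpy (fun ℓ hℓ hgood hℓM hℓp => ?_)
  obtain ⟨A, σ, hA, hσ⟩ := Fermat.Agent.Lib.exists_isFrobeniusAt ℓ hℓ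
  refine ⟨σ, ⟨A, hA, hσ⟩, ?_⟩
  have hℓp' : ¬ ℓ ∣ p := fun h =>
    hℓp ((Nat.prime_dvd_prime_iff_eq hℓ (Fact.out : p.Prime)).mp h)
  rw [← hES ℓ hℓ (fun h => hℓM (h.trans hM'M)) A hA σ hσ p hℓp' y hpy]
  exact hc ℓ hℓ hgood hℓM hℓp

end Fermat.Agent.S40
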