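import Mathlib
import Fermat.Agent.S40.Geo3
import Fermat.Agent.S40.Lift
import Fermat.Agent.S40.DefsJ

/-!
# TRACK 13 (S40), package GEO-3, the composite (helper1): step 1 of the skeleton

Prefix `S40G3_`.

* `S40G3_es_prop N`        : `S40LF_ES N` (helper13's hypothesis of `S40LF_lift`), unconditional;
* `S40G3_core_of_a`, `S40G3_core_of_b` : a `W`-eigen-class `x ∈ J₀(M'p)[p]` with `a x ≠ 0`
  (resp. `b x ≠ 0`) gives the core `S40W_Core W p (M' * p)`;
* `S40G3_core_of_not_new`  : **step 1**: `x ∈ S40D_V0 W p (M' * p)` not NEW `⇒` core;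
* `S40G3_new_of_not_core`  : contrapositive: if the core fails, all of `V₀` is NEW.
-/

set_option autoImplicit false
set_option linter.style.haveILetI false
set_option linter.unusedSectionVars false
set_option linter.unusedVariables false
set_option synthInstance.maxHeartbeats 400000
set_option maxHeartbeats 1000000

open AlgebraicCurve ModularCurve

noncomputable section

namespace Fermat.Agent.S40

open Fermat.Agent.S33

/-- **Eichler–Shimura on torsion**, in the form of `S40LF_ES`. -/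
theorem S40G3_es_prop (N : ℕ) [NeZero N] : S40LF_ES N := by
  intro ℓ hℓ hℓN A hA σ hσ m hm y hy
  exact S40G3_es N ⟨ℓ, hℓ⟩ hℓN A hA σ hσ hm y hy

section core

variable (W : WeierstrassCurve ℤ) (p M' : ℕ) [hp : Fact p.Prime] [NeZero M'] [NeZero p]
  [NeZero (M' * p)]

theorem S40G3_dvd_div : M' ∣ M' * p / p := by
  rw [Nat.mul_div_cancel _ hp.out.pos]

/-- the additive-map part: an eigen-class whose image under an additive, "Hecke-equivariant on
torsion" map `φ : J₀(M'p) → J₀(M')` is nonzero gives the core. -/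
theorem S40G3_core_of_map (φ : JZero (M' * p) →+ JZero M')
    (hφ : ∀ (q : Nat.Primes), ¬ (q : ℕ) ∣ M' * p → ∀ (x : JZero (M' * p)), p • x = 0 →
      ∀ c : ℤ, heckeOperatorBar (M' * p) q x = c • x →
        heckeOperatorBar M' q (φ x) = c • φ x)
    (x : JZero (M' * p)) (hx : x ∈ S40D_V0 W p (M' * p)) (hne : φ x ≠ 0) :
    S40W_Core W p (M' * p) := by
  obtain ⟨hpx, hxe⟩ := hx
  have hpy : p • φ x = 0 := by rw [← map_nsmul, hpx, map_zero]
  refine S40LF_lift W p (M' * p) M' (S40G3_es_prop M') (Dvd.intro_left M' rfl)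
    (S40G3_dvd_div p M') (φ x) hne hpy (fun ℓ hℓ hgood hℓM hℓp => ?_)
  exact hφ ⟨ℓ, hℓ⟩ hℓM x hpx (W.apOfModel ℓ) (hxe ⟨ℓ, hℓ⟩ hgood hℓM hℓp)

theorem S40G3_not_dvd_p (q : Nat.Primes) (hℓMp : ¬ (q : ℕ) ∣ M' * p) : ¬ (q : ℕ) ∣ p :=
  fun hd => hℓMp (Dvd.dvd.mul_left hd M')

/-- a `W`-eigen-class with `a x ≠ 0` gives the core. -/
theorem S40G3_core_of_a (x : JZero (M' * p)) (hx : x ∈ S40D_V0 W p (M' * p))
    (hne : S33DG_aJ M' p x ≠ 0) : S40W_Core W p (M' * p) :=
  S40G3_core_of_map W p M' (S33DG_aJ M' p)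
    (fun q hq x hpx c hc => S40G3_aJ_eigen M' p q hq hp.out.pos (S40G3_not_dvd_p p M' q hq)
      x hpx c hc) x hx hne

/-- a `W`-eigen-class with `b x ≠ 0` gives the core. -/
theorem S40G3_core_of_b (x : JZero (M' * p)) (hx : x ∈ S40D_V0 W p (M' * p))
    (hne : S33DG_bJ M' p x ≠ 0) : S40W_Core W p (M' * p) :=
  S40G3_core_of_map W p M' (S33DG_bJ M' p)
    (fun q hq x hpx c hc => S40G3_bJ_eigen M' p q hq hp.out.pos (S40G3_not_dvd_p p M' q hq)
      x hpx c hc) x hx hne

/-- **step 1 of the skeleton**: a `W`-eigen-class of `J₀(M'p)[p]` which is not NEW gives the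
core. -/
theorem S40G3_core_of_not_new (x : JZero (M' * p)) (hx : x ∈ S40D_V0 W p (M' * p))
    (hnew : ¬ S40DJ_New M' p x) : S40W_Core W p (M' * p) := by
  by_cases ha : S33DG_aJ M' p x = 0
  · by_cases hb : S33DG_bJ M' p x = 0
    · exact absurd ⟨ha, hb⟩ hnew
    · exact S40G3_core_of_b W p M' x hx hb
  · exact S40G3_core_of_a W p M' x hx ha

/-- contrapositive: if the core fails, every `W`-eigen-class of `J₀(M'p)[p]` is NEW. -/
theorem S40G3_new_of_not_core (hcore : ¬ S40W_Core W p (M' * p))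
    (x : JZero (M' * p)) (hx : x ∈ S40D_V0 W p (M' * p)) : S40DJ_New M' p x := by
  by_contra hnew
  exact hcore (S40G3_core_of_not_new W p M' x hx hnew)

end core

end Fermat.Agent.S40
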