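import Mathlib
import Fermat.Prelude.Def_FLTPrelim_FreyPackage
import Fermat.Prelude.Def_FLTPrelim_GaloisRep
import Fermat.Prelude.Def_FLTPrelim_Modularity
import Fermat.Prelude.Def_FLTPrelim_ModularRep
import Fermat.Prelude.Def_FreyPackage_IsConductorLevel

/-!
# S44 (Mazur–Ribet at `p`, Frey form, row 38): the TOP WIRE (helper2).  Prefix `S44W_`.

`P.ModularRepOfLevel N` = an integral model `W` of the Frey curve with
`W.IsResiduallyModularOfLevel P.p N`.  The model `W` of the hypothesis is kept in the conclusion.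

* `S44W_HoleLevel` : **the ONLY hole**: for an integral model `W` of the Frey curve of `P` with
  irreducible `E[p]`, `p ∣ abc`, `p ∤ M'`:
  `W.IsResiduallyModularOfLevel p (M' * p) → W.IsResiduallyModularOfLevel p M'`.
* `S44W_main : S44W_HoleLevel →` frozen S44, verbatim (`M := N / p`).
-/

set_option autoImplicit false

open WeierstrassCurve WeierstrassCurve.Affine WeierstrassCurve.Affine.Point
open FreyPackage

namespace Fermat.Agent.S40

/-- **the ONLY hole of the top wire of S44.** -/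
def S44W_HoleLevel : Prop :=
  ∀ (P : FreyPackage) (W : WeierstrassCurve ℤ), W.IsIntegralModelOf P.freyCurve →
    GaloisRepIsIrreducible (K := AlgebraicClosure ℚ) ℚ P.freyCurve P.p →
    (P.p : ℤ) ∣ P.a * P.b * P.c →
    ∀ M' : ℕ, 0 < M' → ¬ P.p ∣ M' →
    W.IsResiduallyModularOfLevel P.p (M' * P.p) → W.IsResiduallyModularOfLevel P.p M'

/-- **TOP WIRE of S44**: the frozen statement from `S44W_HoleLevel`. -/
theorem S44W_main (hlev : S44W_HoleLevel)
    (P : FreyPackage) {N : ℕ} (hcond : P.IsConductorLevel N) (hpN : P.p ∣ N)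
    (hirr : GaloisRepIsIrreducible (K := AlgebraicClosure ℚ) ℚ P.freyCurve P.p)
    (hmod : P.ModularRepOfLevel N) :
    ∃ M : ℕ, M ∣ N ∧ ¬ P.p ∣ M ∧ P.ModularRepOfLevel M := by
  obtain ⟨f, W, 𝔪, hf, hW, h𝔪, hp𝔪, hcong⟩ := hmod
  have habc : (P.p : ℤ) ∣ P.a * P.b * P.c := hcond.p_dvd_abc hpN
  obtain ⟨M', hM'⟩ := hpN
  have hNeq : N = M' * P.p := by rw [hM', mul_comm]
  subst hNeq
  have hM'pos : 0 < M' := by
    rcases Nat.eq_zero_or_pos M' with h | h
    · have := hcond.pos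
      rw [h, zero_mul] at this
      exact absurd this (lt_irrefl 0)
    · exact h
  have hpM' : ¬ P.p ∣ M' := by
    rintro ⟨k, rfl⟩
    exact hcond.sq_not_dvd P.pp ⟨k, by ring⟩
  obtain ⟨g, 𝔪', hg, h𝔪', hp𝔪', hcong'⟩ :=
    hlev P W hW hirr habc M' hM'pos hpM' ⟨f, 𝔪, hf, h𝔪, hp𝔪, hcong⟩
  exact ⟨M', Dvd.intro _ rfl, hpM', g, W, 𝔪', hg, hW, h𝔪', hp𝔪', hcong'⟩

end Fermat.Agent.S40
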