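import Mathlib
import Fermat.Agent.S40.Wire
import Fermat.Agent.S40.Wire44
import Fermat.Agent.S40.Bridge44
import Fermat.Agent.S40.DefsJ3
import Fermat.Agent.S40.Geo1V0
import Fermat.Agent.S40.Geo3Core
import Fermat.Agent.S40.AlgRel
import Fermat.Agent.S40.AlgKerJ
import Fermat.Agent.S40.AlgScInst
import Fermat.Agent.S19.Inst

/-!
# S44 (row 38): the concrete MID WIRE (helper2).  Prefix `S44W_`.

* `S44W_mid` : GENERIC mid wire (any `W`, `5 ≤ p`): from the J-side hole `S40DJ_Hole3` and the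
  W-side (INV) in CASE B at every place over `p`:
  `W.IsResiduallyModularOfLevel p (M' * p) → W.IsResiduallyModularOfLevel p M'`.
  Uses GEO-1 (`S40G1_V0_*`), the simple submodule (`S40WA_exists_simple`), GEO-3 + LIFT
  (`S40G3_new_of_not_core`), (ALG-R) (`S40AR_main`), (ALG-K) (`S40AK_ker`), CASE A
  (`S40AI_caseA`), and the OLD wire (`S40W_of_core`).
* `S44W_HoleInvW` : the W-side hole of S44: an integral model `W` of the Frey curve, `p ∣ abc`,
  CASE B at `A | p` ⇒ `S40D_InvW W A p`.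
* `S44W_holeLevel : S40DJ_Hole3 → S44W_HoleInvW → S44W_HoleLevel`.
* `S44W_final : S40DJ_Hole3 → S44W_HoleInvW →` frozen S44.
-/

set_option autoImplicit false
set_option linter.unusedSectionVars false
set_option linter.unusedVariables false
set_option linter.style.haveILetI false

namespace Fermat.Agent.S40

open WeierstrassCurve ModularCurve Fermat.Agent.S33

local notation "ℚbar" => AlgebraicClosure ℚ
local notation "GQ" => (AlgebraicClosure ℚ ≃ₐ[ℚ] AlgebraicClosure ℚ)

/-- **the GENERIC mid wire** (`5 ≤ p`, any `W`). -/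
theorem S44W_mid (hJ : S40DJ_Hole3) (W : WeierstrassCurve ℤ) (hΔ : W.Δ ≠ 0) (p : ℕ)
    (hp : p.Prime) (hp5 : 5 ≤ p) (hirr : W.ModRepIsIrreducible p) (M' : ℕ) (hM' : 0 < M')
    (hpM' : ¬ p ∣ M')
    (hinvW : ∀ A : ValuationSubring ℚbar, A.LiesOverPrime p → S40DJ_CaseB W A p →
      S40D_InvW W A p)
    (hmod : W.IsResiduallyModularOfLevel p (M' * p)) :
    W.IsResiduallyModularOfLevel p M' := by
  haveI : Fact p.Prime := ⟨hp⟩
  haveI : NeZero M' := ⟨hM'.ne'⟩
  haveI : NeZero p := ⟨hp.ne_zero⟩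
  haveI : NeZero (M' * p) := ⟨Nat.mul_ne_zero hM'.ne' hp.ne_zero⟩
  have hp2 : p ≠ 2 := by omega
  -- the core
  have hcore : S40W_Core W p (M' * p) := by
    by_contra hncore
    -- GEO-1 : `V₀ ≠ 0`, finite, stable
    have hV0ne : S40G1_V0 W p (M' * p) ≠ ⊥ := S40G1_V0_ne_bot W hmod
    haveI : Finite (S40G1_V0 W p (M' * p)) := S40G1_V0_finite W p (M' * p)
    have hV0st : S40WA_Stable GQ (S40G1_V0 W p (M' * p)) := S40G1_V0_stable W p (M' * p)
    -- a simple stable `V ≤ V₀`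
    obtain ⟨V, hVle, hV⟩ := S40WA_exists_simple (G := GQ) (S40G1_V0 W p (M' * p)) hV0ne hV0st
    have hV0 : ∀ x ∈ V, x ∈ S40D_V0 W p (M' * p) := fun x hx => hVle hx
    have hVp : ∀ x ∈ V, p • x = 0 := fun x hx => (hV0 x hx).1
    haveI : Finite V := Finite.of_injective (AddSubgroup.inclusion hVle)
      (AddSubgroup.inclusion_injective hVle)
    -- GEO-3 + LIFT : `V` is NEW
    have hnew : ∀ x ∈ V, S40DJ_New M' p x := fun x hx =>
      S40G3_new_of_not_core W p M' hncore x (hV0 x hx)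
    -- a place over `p`
    obtain ⟨A, hA⟩ := Fermat.Agent.S19.S19IN_exists_A p hp
    -- (ALG-R), (ALG-K)
    have hR : S40D_Rel W p (M' * p) V := S40AR_main W hΔ hp (M' * p) V hV0
    have hK : S40D_Ker W p (M' * p) V := S40AK_ker W hΔ hp hp2 hirr V hVp hV hR
    by_cases hB : S40DJ_CaseB W A p
    · -- CASE B : the J-side hole
      exact hncore (hJ W hΔ p hp hp5 hirr M' hpM' A hA V hV0 hV hnew hB hR hK
        (S40D_invJ_of_invW hK (hinvW A hA hB)))
    · -- CASE A
      exact S40AI_caseA W hΔ p hp hp2 hirr M' hpM' A hA V hVp hV hnew hR hB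
  -- the OLD wire
  have h := S40W_of_core W hp (Nat.mul_pos hM' hp.pos) (Dvd.intro_left M' rfl) hcore
  rwa [Nat.mul_div_cancel M' hp.pos] at h

/-- **the W-side hole of S44** (W-MULT): `W` an integral model of the Frey curve of `P`,
`p ∣ abc`, CASE B at a place `A` over `p` ⇒ (INV) on the W-side. -/
def S44W_HoleInvW : Prop :=
  ∀ (P : FreyPackage) (W : WeierstrassCurve ℤ), W.IsIntegralModelOf P.freyCurve →
    (P.p : ℤ) ∣ P.a * P.b * P.c →
    ∀ A : ValuationSubring ℚbar, A.LiesOverPrime P.p → S40DJ_CaseB W A P.p →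
      S40D_InvW W A P.p

/-- the hole of the top wire of S44 from the two holes (J-side, W-side). -/
theorem S44W_holeLevel (hJ : S40DJ_Hole3) (hW : S44W_HoleInvW) : S44W_HoleLevel := by
  intro P W hWP hirr habc M' hM' hpM' hmod
  obtain ⟨hΔ, hirrW⟩ := S44B_bridge P W hWP hirr
  exact S44W_mid hJ W hΔ P.p P.pp P.hp5 hirrW M' hM' hpM'
    (fun A hA hB => hW P W hWP habc A hA hB) hmod

/-- **frozen S44 from the two holes** (J-side `S40DJ_Hole3`, W-side `S44W_HoleInvW`). -/
theorem S44W_final (hJ : S40DJ_Hole3) (hW : S44W_HoleInvW)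
    (P : FreyPackage) {N : ℕ} (hcond : P.IsConductorLevel N) (hpN : P.p ∣ N)
    (hirr : WeierstrassCurve.Affine.Point.GaloisRepIsIrreducible (K := AlgebraicClosure ℚ) ℚ
      P.freyCurve P.p)
    (hmod : P.ModularRepOfLevel N) :
    ∃ M : ℕ, M ∣ N ∧ ¬ P.p ∣ M ∧ P.ModularRepOfLevel M :=
  S44W_main (S44W_holeLevel hJ hW) P hcond hpN hirr hmod

end Fermat.Agent.S40
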