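import Mathlib
import Fermat.Agent.S40.Wire44Mid
import Fermat.Agent.S40.WMultT2

/-!
# S44 (row 38): the W-side of the top wire (helper2).  Prefix `S44W_`.

* `S44W_HoleDepth` : the depth property of the `p`-torsion of the Frey curve at every place
  `A | p`, when `p ∣ abc` (the output of W-MULT: cases N, S, E glued).
* `S44W_holeInvW_of_depth : S44W_HoleDepth → S44W_HoleInvW` (transport `S40WT_invW_frey`).
* `S44W_final' : S40DJ_Hole3 → S44W_HoleDepth →` frozen S44.
-/

set_option autoImplicit false
set_option linter.unusedSectionVars false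
set_option linter.unusedVariables false

namespace Fermat.Agent.S40

open WeierstrassCurve

local notation "ℚbar" => AlgebraicClosure ℚ
local notation "GQ" => (AlgebraicClosure ℚ ≃ₐ[ℚ] AlgebraicClosure ℚ)

/-- **the depth hole of the W-side of S44**: for a Frey package `P` with `p ∣ abc` and a place
`A` of `ℚ̄` over `p`, the depth property of the points of `P.freyCurve⁄ℚ̄`. -/
def S44W_HoleDepth : Prop :=
  ∀ (P : FreyPackage), (P.p : ℤ) ∣ P.a * P.b * P.c →
    ∀ A : ValuationSubring ℚbar, A.LiesOverPrime P.p → S40WT_DepthE1 P.freyCurve A P.p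

/-- the W-side hole of S44 from the depth property. -/
theorem S44W_holeInvW_of_depth (hD : S44W_HoleDepth) : S44W_HoleInvW := by
  intro P W hW habc A hA hB
  exact S40WT_invW_frey P hW A (hD P habc A hA) (fun g hg => hB g hg.1)

/-- **frozen S44 from the J-side hole and the depth property of the Frey curve.** -/
theorem S44W_final' (hJ : S40DJ_Hole3) (hD : S44W_HoleDepth)
    (P : FreyPackage) {N : ℕ} (hcond : P.IsConductorLevel N) (hpN : P.p ∣ N)
    (hirr : WeierstrassCurve.Affine.Point.GaloisRepIsIrreducible (K := AlgebraicClosure ℚ) ℚ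
      P.freyCurve P.p)
    (hmod : P.ModularRepOfLevel N) :
    ∃ M : ℕ, M ∣ N ∧ ¬ P.p ∣ M ∧ P.ModularRepOfLevel M :=
  S44W_final hJ (S44W_holeInvW_of_depth hD) P hcond hpN hirr hmod

end Fermat.Agent.S40
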