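import Mathlib
import Fermat.Agent.S40.Wire44W
import Fermat.Agent.S40.WMultG

/-!
# S44 (row 38): the W-side hole is CLOSED (helper2, from helper7's `S40WM_depth_frey`).
Prefix `S44W_`.

* `S44W_holeDepth : S44W_HoleDepth`  (W-MULT: cases N, S, E glued, `S40/WMultG.lean`);
* `S44W_holeInvW : S44W_HoleInvW`;
* `S44W_final_J : S40DJ_Hole3 →` frozen S44: **the J-side hole is the ONLY hole left**.
-/

set_option autoImplicit false
set_option linter.unusedSectionVars false
set_option linter.unusedVariables false

namespace Fermat.Agent.S40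

open WeierstrassCurve

local notation "ℚbar" => AlgebraicClosure ℚ

/-- the depth hole of the W-side of S44 is closed. -/
theorem S44W_holeDepth : S44W_HoleDepth := by
  intro P habc A hA
  exact S40WM_depth_frey P A hA habc

/-- the W-side hole of S44 is closed. -/
theorem S44W_holeInvW : S44W_HoleInvW :=
  S44W_holeInvW_of_depth S44W_holeDepth

/-- **frozen S44 from the J-side hole alone.** -/
theorem S44W_final_J (hJ : S40DJ_Hole3)
    (P : FreyPackage) {N : ℕ} (hcond : P.IsConductorLevel N) (hpN : P.p ∣ N)
    (hirr : WeierstrassCurve.Affine.Point.GaloisRepIsIrreducible (K := AlgebraicClosure ℚ) ℚ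
      P.freyCurve P.p)
    (hmod : P.ModularRepOfLevel N) :
    ∃ M : ℕ, M ∣ N ∧ ¬ P.p ∣ M ∧ P.ModularRepOfLevel M :=
  S44W_final hJ S44W_holeInvW P hcond hpN hirr hmod

end Fermat.Agent.S40
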