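import Mathlib
import Fermat.Agent.S40.Wire44WFinal
import Fermat.Agent.S40.JMid
import Fermat.Agent.S40.JSym
import Fermat.Agent.S40.JDichInst

/-!
# S44 (row 38): the TOP WIRE down to the two J-side holes (helper2).  Prefix `S44W_`.

* `S44W_jhole : S40JM_F2Out → S40JM_G5 → S40JT_Hole`   ((SYM), (DICH) are closed);
* `S44W_final_2 : S40JM_F2Out → S40JM_G5 →` frozen S44: **(F2-OUT) and (GEO-5) are the ONLY
  holes left** for S44 (`S40/JMid.lean` for their statements).
-/

set_option autoImplicit false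
set_option linter.unusedSectionVars false
set_option linter.unusedVariables false

namespace Fermat.Agent.S40

open WeierstrassCurve

/-- the sharp J-hole from (F2-OUT) and (GEO-5). -/
theorem S44W_jhole (hF : S40JM_F2Out) (hG : S40JM_G5) : S40JT_Hole :=
  S40JM_hole hF hG S40JS_hole S40JD_hole

/-- **frozen S44 from (F2-OUT) and (GEO-5).** -/
theorem S44W_final_2 (hF : S40JM_F2Out) (hG : S40JM_G5)
    (P : FreyPackage) {N : ℕ} (hcond : P.IsConductorLevel N) (hpN : P.p ∣ N)
    (hirr : WeierstrassCurve.Affine.Point.GaloisRepIsIrreducible (K := AlgebraicClosure ℚ) ℚ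
      P.freyCurve P.p)
    (hmod : P.ModularRepOfLevel N) :
    ∃ M : ℕ, M ∣ N ∧ ¬ P.p ∣ M ∧ P.ModularRepOfLevel M :=
  S44W_final_J (S40JT_hole3 (S44W_jhole hF hG)) P hcond hpN hirr hmod

end Fermat.Agent.S40
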