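import Mathlib
import Fermat.Agent.S40.Wire44J
import Fermat.Agent.S40.G5IV

/-!
# S44 (row 38): the TOP WIRE with a SQUAREFREE level (helper2).  Prefix `S44Q_`.

The level `N = M' * p` of S44 is a conductor level, hence squarefree.  This file threads the
hypothesis `Squarefree (M' * p)` from the frozen statement down to the hole (F2-OUT), so that
the cusps of the fibre are the `w_D (∞)`, `D ∣ M'` (for (D-CUSP)).

* `S44Q_F2Out` : **the ONLY hole**: `S40JM_F2Out` with the extra hypothesis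
  `Squarefree (M' * p)` (everything else verbatim);
* `S44Q_f2out_of : S40JM_F2Out → S44Q_F2Out` (the old hole is stronger);
* `S44Q_JHole`, `S44Q_Hole3`, `S44Q_HoleLevel` : the squarefree forms of `S40JT_Hole`,
  `S40DJ_Hole3`, `S44W_HoleLevel`;
* `S44Q_final : S44Q_F2Out →` frozen S44  ((GEO-5), (SYM), (DICH), W-side are closed).
-/

set_option autoImplicit false
set_option linter.style.haveILetI false
set_option linter.unusedSectionVars false
set_option linter.unusedVariables false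
set_option synthInstance.maxHeartbeats 400000
set_option maxHeartbeats 1000000

open AlgebraicCurve ModularCurve IntermediateField

noncomputable section

namespace Fermat.Agent.S40

open WeierstrassCurve
open Fermat.Agent.S17 Fermat.Agent.S18 Fermat.Agent.S19 Fermat.Agent.S24 Fermat.Agent.S34
  Fermat.Agent.S35 Fermat.Agent.S36 Fermat.Agent.S37 Fermat.Agent.GalRep Fermat.Agent.S33

local notation "ℚbar" => AlgebraicClosure ℚ
local notation "GQ" => (AlgebraicClosure ℚ ≃ₐ[ℚ] AlgebraicClosure ℚ)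

/-- **hole (F2-OUT), squarefree level**: `S40JM_F2Out` with `Squarefree (M' * p)`. -/
def S44Q_F2Out : Prop :=
  ∀ (W : WeierstrassCurve ℤ), W.Δ ≠ 0 → ∀ (p : ℕ) (hp : p.Prime), 5 ≤ p →
    W.ModRepIsIrreducible p → ∀ (M' : ℕ) [NeZero M'] [NeZero p] [NeZero (M' * p)]
    (hpM : ¬ p ∣ M'), Squarefree (M' * p) →
    ∀ (A : ValuationSubring ℚbar), A.LiesOverPrime p →
    ∀ V : AddSubgroup (JZero (M' * p)),
      (∀ x ∈ V, x ∈ S40D_V0 W p (M' * p)) → S40WA_Simple GQ V →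
      (∀ x ∈ V, S40DJ_New M' p x) → S40DJ_CaseB W A p →
      S40D_Rel W p (M' * p) V → S40D_Ker W p (M' * p) V → S40D_InvJ (M' * p) A p V →
      ∀ x ∈ V, ∃ (hgen : PrincipalGeneratedByIntegral A (IsLocalRing.residue A) (M' * p))
        (u : ↥(modularFunctionFieldBar (M' * p))),
        S33DG_IsGen p x u ∧ S40JM_KumAt (S34M_T1 M' p A hgen) p u ∧
          S40JM_KumAt (S34M_T2 M' p hp hpM A hgen) p u

/-- the hole for all levels gives the hole for squarefree levels. -/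
theorem S44Q_f2out_of (h : S40JM_F2Out) : S44Q_F2Out := by
  intro W hΔ p hp hp5 hirr M' _ _ _ hpM _ A hA V hVV0 hV hnew hB hR hK hI x hx
  exact h W hΔ p hp hp5 hirr M' hpM A hA V hVV0 hV hnew hB hR hK hI x hx

/-- the sharp J-hole, squarefree level. -/
def S44Q_JHole : Prop :=
  ∀ (W : WeierstrassCurve ℤ), W.Δ ≠ 0 → ∀ (p : ℕ) (hp : p.Prime), 5 ≤ p →
    W.ModRepIsIrreducible p → ∀ (M' : ℕ) [NeZero M'] [NeZero p] [NeZero (M' * p)]
    (hpM : ¬ p ∣ M'), Squarefree (M' * p) →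
    ∀ (A : ValuationSubring ℚbar), A.LiesOverPrime p →
    ∀ V : AddSubgroup (JZero (M' * p)),
      (∀ x ∈ V, x ∈ S40D_V0 W p (M' * p)) → S40WA_Simple GQ V →
      (∀ x ∈ V, S40DJ_New M' p x) → S40DJ_CaseB W A p →
      S40D_Rel W p (M' * p) V → S40D_Ker W p (M' * p) V → S40D_InvJ (M' * p) A p V →
      ∀ x ∈ V, ¬ S40JT_TypeA M' p hp hpM A x → S40W_Core W p (M' * p)

/-- the hole of the J-side, squarefree level. -/
def S44Q_Hole3 : Prop :=
  ∀ (W : WeierstrassCurve ℤ), W.Δ ≠ 0 → ∀ (p : ℕ), p.Prime → 5 ≤ p →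
    W.ModRepIsIrreducible p → ∀ (M' : ℕ) [NeZero M'] [NeZero p] [NeZero (M' * p)], ¬ p ∣ M' →
    Squarefree (M' * p) →
    ∀ (A : ValuationSubring ℚbar), A.LiesOverPrime p →
    ∀ V : AddSubgroup (JZero (M' * p)),
      (∀ x ∈ V, x ∈ S40D_V0 W p (M' * p)) → S40WA_Simple GQ V →
      (∀ x ∈ V, S40DJ_New M' p x) → S40DJ_CaseB W A p →
      S40D_Rel W p (M' * p) V → S40D_Ker W p (M' * p) V → S40D_InvJ (M' * p) A p V →
      S40W_Core W p (M' * p)

/-- the MID WIRE of the J-side, squarefree level. -/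
theorem S44Q_jhole (hF : S44Q_F2Out) (hG : S40JM_G5) (hS : S40JM_Sym) (hD : S40JM_Dich) :
    S44Q_JHole := by
  intro W hΔ p hp hp5 hirr M' _ _ _ hpM hsq A hA V hVV0 hV hnew hB hR hK hI x hx hna
  obtain ⟨hgen, u, hu, hK1, hK2⟩ :=
    hF W hΔ p hp hp5 hirr M' hpM hsq A hA V hVV0 hV hnew hB hR hK hI x hx
  by_cases h1 : S40JM_PthAt (S34M_T1 M' p A hgen) p u
  · by_cases h2 : S40JM_PthAt (S34M_T2 M' p hp hpM A hgen) p u
    · exact absurd (hD p hp M' hpM A hA hgen x u hu h1 h2) hna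
    · obtain ⟨x', hx', hu'⟩ := hS W p hp M' hpM x (hVV0 x hx) u hu
      exact hG W hΔ p hp hp5 hirr M' hpM A hA hgen x' hx' _ hu'
        (S40JM_kumAt_wq M' p hp hpM A hgen hK2)
        (fun h => h2 (S40JM_pthAt_of_wq M' p hp hpM A hgen h))
  · exact hG W hΔ p hp hp5 hirr M' hpM A hA hgen x (hVV0 x hx) u hu hK1 h1

/-- the TOP of the J-side, squarefree level. -/
theorem S44Q_hole3 (h : S44Q_JHole) : S44Q_Hole3 := by
  intro W hΔ p hp hp5 hirr M' _ _ _ hpM hsq A hA V hVV0 hV hnew hB hR hK hI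
  by_contra hncore
  have hp2 : p ≠ 2 := by omega
  have hall : ∀ x ∈ V, S40JT_TypeA M' p hp hpM A x := by
    intro x hx
    by_contra hna
    exact hncore (h W hΔ p hp hp5 hirr M' hpM hsq A hA V hVV0 hV hnew hB hR hK hI x hx hna)
  obtain ⟨τ₀, c, c', k, ζ, hD⟩ := S33NFR_exists_data p hp hp2 A hA
  obtain ⟨hV0, hVst, -⟩ := hV
  exact S40AI_false_of_tau W hΔ hp hp2 hirr V (fun x hx => (hVV0 x hx).1)
    (fun g x hx => hVst g x hx) hV0 hR τ₀ c ζ hD.2.1 hD.2.2.1 hD.2.2.2.1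
    (fun x hx => S40JT_tau_of_typeA M' p hp hpM hp2 A hA τ₀ c c' k ζ hD x (hall x hx)
      (hnew x hx))

/-- the GENERIC mid wire, squarefree level. -/
theorem S44Q_mid (hJ : S44Q_Hole3) (W : WeierstrassCurve ℤ) (hΔ : W.Δ ≠ 0) (p : ℕ)
    (hp : p.Prime) (hp5 : 5 ≤ p) (hirr : W.ModRepIsIrreducible p) (M' : ℕ) (hM' : 0 < M')
    (hpM' : ¬ p ∣ M') (hsq : Squarefree (M' * p))
    (hinvW : ∀ A : ValuationSubring ℚbar, A.LiesOverPrime p → S40DJ_CaseB W A p →
      S40D_InvW W A p)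
    (hmod : W.IsResiduallyModularOfLevel p (M' * p)) :
    W.IsResiduallyModularOfLevel p M' := by
  haveI : Fact p.Prime := ⟨hp⟩
  haveI : NeZero M' := ⟨hM'.ne'⟩
  haveI : NeZero p := ⟨hp.ne_zero⟩
  haveI : NeZero (M' * p) := ⟨Nat.mul_ne_zero hM'.ne' hp.ne_zero⟩
  have hp2 : p ≠ 2 := by omega
  have hcore : S40W_Core W p (M' * p) := by
    by_contra hncore
    have hV0ne : S40G1_V0 W p (M' * p) ≠ ⊥ := S40G1_V0_ne_bot W hmod
    haveI : Finite (S40G1_V0 W p (M' * p)) := S40G1_V0_finite W p (M' * p)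
    have hV0st : S40WA_Stable GQ (S40G1_V0 W p (M' * p)) := S40G1_V0_stable W p (M' * p)
    obtain ⟨V, hVle, hV⟩ := S40WA_exists_simple (G := GQ) (S40G1_V0 W p (M' * p)) hV0ne hV0st
    have hV0 : ∀ x ∈ V, x ∈ S40D_V0 W p (M' * p) := fun x hx => hVle hx
    have hVp : ∀ x ∈ V, p • x = 0 := fun x hx => (hV0 x hx).1
    haveI : Finite V := Finite.of_injective (AddSubgroup.inclusion hVle)
      (AddSubgroup.inclusion_injective hVle)
    have hnew : ∀ x ∈ V, S40DJ_New M' p x := fun x hx =>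
      S40G3_new_of_not_core W p M' hncore x (hV0 x hx)
    obtain ⟨A, hA⟩ := Fermat.Agent.S19.S19IN_exists_A p hp
    have hR : S40D_Rel W p (M' * p) V := S40AR_main W hΔ hp (M' * p) V hV0
    have hK : S40D_Ker W p (M' * p) V := S40AK_ker W hΔ hp hp2 hirr V hVp hV hR
    by_cases hB : S40DJ_CaseB W A p
    · exact hncore (hJ W hΔ p hp hp5 hirr M' hpM' hsq A hA V hV0 hV hnew hB hR hK
        (S40D_invJ_of_invW hK (hinvW A hA hB)))
    · exact S40AI_caseA W hΔ p hp hp2 hirr M' hpM' A hA V hVp hV hnew hR hB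
  have h := S40W_of_core W hp (Nat.mul_pos hM' hp.pos) (Dvd.intro_left M' rfl) hcore
  rwa [Nat.mul_div_cancel M' hp.pos] at h

/-- **frozen S44 from the squarefree J-side hole.** -/
theorem S44Q_final_J (hJ : S44Q_Hole3)
    (P : FreyPackage) {N : ℕ} (hcond : P.IsConductorLevel N) (hpN : P.p ∣ N)
    (hirr : WeierstrassCurve.Affine.Point.GaloisRepIsIrreducible (K := AlgebraicClosure ℚ) ℚ
      P.freyCurve P.p)
    (hmod : P.ModularRepOfLevel N) :
    ∃ M : ℕ, M ∣ N ∧ ¬ P.p ∣ M ∧ P.ModularRepOfLevel M := by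
  obtain ⟨f, W, 𝔪, hf, hW, h𝔪, hp𝔪, hcong⟩ := hmod
  have habc : (P.p : ℤ) ∣ P.a * P.b * P.c := hcond.p_dvd_abc hpN
  have hsqN : Squarefree N := hcond.squarefree
  obtain ⟨M', hM'⟩ := hpN
  have hNeq : N = M' * P.p := by rw [hM', mul_comm]
  subst hNeq
  have hM'pos : 0 < M' := by
    rcases Nat.eq_zero_or_pos M' with h | h
    · have := hcond.pos
      rw [h, zero_mul] at this
      exact absurd this (lt_irrefl 0)
    · exact h
  have hpM' : ¬ P.p ∣ M' := by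
    rintro ⟨k, rfl⟩
    exact hcond.sq_not_dvd P.pp ⟨k, by ring⟩
  obtain ⟨hΔ, hirrW⟩ := S44B_bridge P W hW hirr
  obtain ⟨g, 𝔪', hg, h𝔪', hp𝔪', hcong'⟩ :=
    S44Q_mid hJ W hΔ P.p P.pp P.hp5 hirrW M' hM'pos hpM' hsqN
      (fun A hA hB => S44W_holeInvW P W hW habc A hA hB) ⟨f, 𝔪, hf, h𝔪, hp𝔪, hcong⟩
  exact ⟨M', Dvd.intro _ rfl, hpM', g, W, 𝔪', hg, hW, h𝔪', hp𝔪', hcong'⟩

/-- **frozen S44 from the hole (F2-OUT) at squarefree levels**: the ONLY hole left. -/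
theorem S44Q_final (hF : S44Q_F2Out)
    (P : FreyPackage) {N : ℕ} (hcond : P.IsConductorLevel N) (hpN : P.p ∣ N)
    (hirr : WeierstrassCurve.Affine.Point.GaloisRepIsIrreducible (K := AlgebraicClosure ℚ) ℚ
      P.freyCurve P.p)
    (hmod : P.ModularRepOfLevel N) :
    ∃ M : ℕ, M ∣ N ∧ ¬ P.p ∣ M ∧ P.ModularRepOfLevel M :=
  S44Q_final_J (S44Q_hole3 (S44Q_jhole hF S40G5V_G5 S40JS_hole S40JD_hole)) P hcond hpN hirr hmod

end Fermat.Agent.S40
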