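import Mathlib
import Fermat.Agent.S40.Wire44Sq
import Fermat.Agent.S40.F2Norm

/-!
# S44 (row 38): the squarefree wire down to the ONE-SIDED Kummer statements (helper2).
Prefix `S44Q_`.

* `S44Q_Kum1`, `S44Q_Kum2` : `S40F2NM_Kum1`, `S40F2NM_Kum2` (helper20, `S40/F2Norm.lean`) with
  the extra hypothesis `Squarefree (M' * p)` right after `hpM`;
* `S44Q_kum1_of`, `S44Q_kum2_of` : the old statements give the squarefree ones;
* `S44Q_out : S44Q_Kum1 → S44Q_Kum2 → S44Q_F2Out` (free normalisation, as `S40F2NM_out`);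
* `S44Q_final_K : S44Q_Kum1 → S44Q_Kum2 →` frozen S44.
-/

set_option autoImplicit false
set_option linter.style.haveILetI false
set_option linter.unusedSectionVars false
set_option linter.unusedVariables false
set_option synthInstance.maxHeartbeats 400000
set_option maxHeartbeats 1000000

open AlgebraicCurve ModularCurve IntermediateField

noncomputable section

namespace Fermat.Agent.S40

open WeierstrassCurve
open Fermat.Agent.S17 Fermat.Agent.S18 Fermat.Agent.S19 Fermat.Agent.S24 Fermat.Agent.S34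
  Fermat.Agent.S35 Fermat.Agent.S36 Fermat.Agent.S37 Fermat.Agent.GalRep Fermat.Agent.S33

local notation "ℚbar" => AlgebraicClosure ℚ
local notation "GQ" => (AlgebraicClosure ℚ ≃ₐ[ℚ] AlgebraicClosure ℚ)

/-- **(KUM₁), squarefree level**: every `x ∈ V` has a generator with Kummer reduction at `T₁`. -/
def S44Q_Kum1 : Prop :=
  ∀ (W : WeierstrassCurve ℤ), W.Δ ≠ 0 → ∀ (p : ℕ) (hp : p.Prime), 5 ≤ p →
    W.ModRepIsIrreducible p → ∀ (M' : ℕ) [NeZero M'] [NeZero p] [NeZero (M' * p)]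
    (hpM : ¬ p ∣ M'), Squarefree (M' * p) →
    ∀ (A : ValuationSubring ℚbar), A.LiesOverPrime p →
    ∀ V : AddSubgroup (JZero (M' * p)),
      (∀ x ∈ V, x ∈ S40D_V0 W p (M' * p)) → S40WA_Simple GQ V →
      (∀ x ∈ V, S40DJ_New M' p x) → S40DJ_CaseB W A p →
      S40D_Rel W p (M' * p) V → S40D_Ker W p (M' * p) V → S40D_InvJ (M' * p) A p V →
      ∀ x ∈ V, ∃ (hgen : PrincipalGeneratedByIntegral A (IsLocalRing.residue A) (M' * p))
        (u : ↥(modularFunctionFieldBar (M' * p))),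
        S33DG_IsGen p x u ∧ S40JM_KumAt (S34M_T1 M' p A hgen) p u

/-- **(KUM₂), squarefree level**: the same at `T₂`. -/
def S44Q_Kum2 : Prop :=
  ∀ (W : WeierstrassCurve ℤ), W.Δ ≠ 0 → ∀ (p : ℕ) (hp : p.Prime), 5 ≤ p →
    W.ModRepIsIrreducible p → ∀ (M' : ℕ) [NeZero M'] [NeZero p] [NeZero (M' * p)]
    (hpM : ¬ p ∣ M'), Squarefree (M' * p) →
    ∀ (A : ValuationSubring ℚbar), A.LiesOverPrime p →
    ∀ V : AddSubgroup (JZero (M' * p)),
      (∀ x ∈ V, x ∈ S40D_V0 W p (M' * p)) → S40WA_Simple GQ V →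
      (∀ x ∈ V, S40DJ_New M' p x) → S40DJ_CaseB W A p →
      S40D_Rel W p (M' * p) V → S40D_Ker W p (M' * p) V → S40D_InvJ (M' * p) A p V →
      ∀ x ∈ V, ∃ (hgen : PrincipalGeneratedByIntegral A (IsLocalRing.residue A) (M' * p))
        (u : ↥(modularFunctionFieldBar (M' * p))),
        S33DG_IsGen p x u ∧ S40JM_KumAt (S34M_T2 M' p hp hpM A hgen) p u

theorem S44Q_kum1_of (h : S40F2NM_Kum1) : S44Q_Kum1 := by
  intro W hΔ p hp hp5 hirr M' _ _ _ hpM _ A hA V hVV0 hV hnew hB hR hK hI x hx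
  exact h W hΔ p hp hp5 hirr M' hpM A hA V hVV0 hV hnew hB hR hK hI x hx

theorem S44Q_kum2_of (h : S40F2NM_Kum2) : S44Q_Kum2 := by
  intro W hΔ p hp hp5 hirr M' _ _ _ hpM _ A hA V hVV0 hV hnew hB hR hK hI x hx
  exact h W hΔ p hp hp5 hirr M' hpM A hA V hVV0 hV hnew hB hR hK hI x hx

/-- **(F2-OUT), squarefree level, from the two one-sided statements.** -/
theorem S44Q_out (h1 : S44Q_Kum1) (h2 : S44Q_Kum2) : S44Q_F2Out := by
  intro W hΔ p hp hp5 hirr M' _ _ _ hpM hsq A hA V hVV0 hV hnew hB hR hK hI x hx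
  obtain ⟨hgen, u₁, hu₁, hk₁⟩ :=
    h1 W hΔ p hp hp5 hirr M' hpM hsq A hA V hVV0 hV hnew hB hR hK hI x hx
  obtain ⟨hgen', u₂, hu₂, hk₂⟩ :=
    h2 W hΔ p hp hp5 hirr M' hpM hsq A hA V hVV0 hV hnew hB hR hK hI x hx
  have hu₁0 := S33DG_isGen_ne_zero hu₁
  have hu₂0 := S33DG_isGen_ne_zero hu₂
  obtain ⟨c, h, hc, hh, hv1, hv2⟩ := S40F2NM_norm M' p hp hpM A hgen hA u₁ hu₁0
  have h0 : S33DG_IsGen p (0 : JZero (M' * p)) (u₁ * u₂⁻¹) := by
    have := S33DG_isGen_mul hu₁ (S33DG_isGen_inv hu₂)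
    rwa [add_neg_cancel] at this
  obtain ⟨c', g, hc', hg, e'⟩ := S33DG_isTriv_of_zero h0
  have hu₁₂ : u₁ = u₂ * (algebraMap ℚbar ↥(modularFunctionFieldBar (M' * p)) c' * g ^ p) := by
    rw [← e']
    field_simp
  refine ⟨hgen, u₁ * algebraMap ℚbar ↥(modularFunctionFieldBar (M' * p)) c * h ^ p, ?_, ?_, ?_⟩
  · have := S40G5W_isGen_mul_triv hu₁ ⟨c, h, hc, hh, rfl⟩
    rwa [← mul_assoc] at this
  · exact S40F2NM_kum_congr (S34M_T1 M' p A hgen) p (S40F2NM_const₁ M' p A hgen) c h hh rfl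
      hv1 hk₁
  · refine S40F2NM_kum_congr (S34M_T2 M' p hp hpM A hgen) p
      (S40F2NM_const₂ M' p hp hpM A hgen) (c' * c) (g * h) (mul_ne_zero hg hh) ?_ hv2 hk₂
    rw [map_mul, mul_pow]
    conv_lhs => rw [hu₁₂]
    ring

/-- **frozen S44 from the two one-sided Kummer statements at squarefree levels.** -/
theorem S44Q_final_K (h1 : S44Q_Kum1) (h2 : S44Q_Kum2)
    (P : FreyPackage) {N : ℕ} (hcond : P.IsConductorLevel N) (hpN : P.p ∣ N)
    (hirr : WeierstrassCurve.Affine.Point.GaloisRepIsIrreducible (K := AlgebraicClosure ℚ) ℚ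
      P.freyCurve P.p)
    (hmod : P.ModularRepOfLevel N) :
    ∃ M : ℕ, M ∣ N ∧ ¬ P.p ∣ M ∧ P.ModularRepOfLevel M :=
  S44Q_final (S44Q_out h1 h2) P hcond hpN hirr hmod

end Fermat.Agent.S40
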