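import Mathlib
import Fermat.Agent.S40.F2Norm
import Fermat.Agent.S40.Wire44SqK
import Fermat.Agent.S34.ValHgenAsm

/-!
# TRACK 13 (row 38), (F2-OUT): the TOP ASSEMBLY, place by place (helper20).  Prefix `S40F2TP_`.

`S44Q_F2Out` (the only hole of S44) asks for ONE generator `u` of `x` whose reductions at `T₁`
and at `T₂` are Kummer generators of the fibre (`p ∣ ord_v` at EVERY place `v`).  Here it is
reduced to statements about ONE place and ONE side at a time, each with its OWN generator: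

* `S40F2TP_ord_congr` : the order at a place `v` of the reduction of a unit generator changes
  by a multiple of `p` under `u ↦ u · c · h ^ p`;
* `S40F2TP_Loc1`, `S40F2TP_Loc2` : **(LOC₁), (LOC₂)**: for every `x ∈ V`, every `hgen` and every
  place `v` of the fibre there is a generator `u` of `x`, in `T_j.O` with non-zero reduction,
  with `p ∣ ord_v (red_j u)`;
* `S40F2TP_out : S40F2TP_Loc1 → S40F2TP_Loc2 → S44Q_F2Out`;
* `S40F2TP_kum1 : S40F2TP_Loc1 → S44Q_Kum1` (with `S44Y_final`, helper2: S44 from `Loc1` alone).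
-/

set_option autoImplicit false
set_option linter.style.haveILetI false
set_option linter.unusedSectionVars false
set_option linter.unusedVariables false
set_option synthInstance.maxHeartbeats 400000
set_option maxHeartbeats 1000000

open AlgebraicCurve ModularCurve IntermediateField

noncomputable section

namespace Fermat.Agent.S40

open WeierstrassCurve
open Fermat.Agent.S17 Fermat.Agent.S18 Fermat.Agent.S19 Fermat.Agent.S24 Fermat.Agent.S34
  Fermat.Agent.S35 Fermat.Agent.S36 Fermat.Agent.S37 Fermat.Agent.GalRep Fermat.Agent.S33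

local notation "ℚbar" => AlgebraicClosure ℚ
local notation "GQ" => (AlgebraicClosure ℚ ≃ₐ[ℚ] AlgebraicClosure ℚ)

section congr

variable {F k Fk : Type} [Field F] [Algebra ℚbar F] [Field k] [Field Fk] [Algebra k Fk]

/-- **independence of the generator, place by place**. -/
theorem S40F2TP_ord_congr (T : S18_Val ℚbar F k Fk) (p : ℕ)
    (hconst : ∀ f : F, f ≠ 0 →
      ∃ c : ℚbar, c ≠ 0 ∧ T.O.valuation (f * (algebraMap ℚbar F c)⁻¹) = 1)
    (v : Place k Fk) {u u' : F} (c : ℚbar) (h : F) (hh : h ≠ 0)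
    (e : u' = u * algebraMap ℚbar F c * h ^ p)
    (hu : u ∈ T.O) (hne : T.red ⟨u, hu⟩ ≠ 0) (hdiv : (p : ℤ) ∣ v.ord (T.red ⟨u, hu⟩))
    (hu' : u' ∈ T.O) (hne' : T.red ⟨u', hu'⟩ ≠ 0) :
    (p : ℤ) ∣ v.ord (T.red ⟨u', hu'⟩) := by
  have hvu : T.O.valuation u = 1 :=
    (T.O.valuation_eq_one_iff ⟨u, hu⟩).1 ((T.red_ne_zero_iff ⟨u, hu⟩).1 hne)
  have hvu' : T.O.valuation u' = 1 :=
    (T.O.valuation_eq_one_iff ⟨u', hu'⟩).1 ((T.red_ne_zero_iff ⟨u', hu'⟩).1 hne')
  obtain ⟨a, ha0, hva⟩ := hconst h hh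
  have ha' : algebraMap ℚbar F a ≠ 0 := (map_ne_zero _).2 ha0
  set w : F := h * (algebraMap ℚbar F a)⁻¹ with hw
  have hhw : h = w * algebraMap ℚbar F a := by
    rw [hw, inv_mul_cancel_right₀ ha']
  have e' : u' = u * algebraMap ℚbar F (c * a ^ p) * w ^ p := by
    rw [e, hhw, map_mul, map_pow, mul_pow]
    ring
  have hvb : T.O.valuation (algebraMap ℚbar F (c * a ^ p)) = 1 := by
    have h1 := hvu'
    rw [e', map_mul, map_mul, map_pow, hvu, hva, one_pow, one_mul, mul_one] at h1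
    exact h1
  obtain ⟨hbm, hbr⟩ := S40F2NM_red_ne T hvb
  obtain ⟨hwm, hwr⟩ := S40F2NM_red_ne T hva
  have hbA : c * a ^ p ∈ T.A := (T.algebraMap_mem_iff _).1 hbm
  have hred : T.red ⟨u', hu'⟩ =
      T.red ⟨u, hu⟩ * algebraMap k Fk (T.res ⟨c * a ^ p, hbA⟩) * T.red ⟨w, hwm⟩ ^ p := by
    have e2 : (⟨u', hu'⟩ : T.O) =
        ⟨u, hu⟩ * ⟨algebraMap ℚbar F (c * a ^ p), hbm⟩ * ⟨w, hwm⟩ ^ p := Subtype.ext e'
    rw [e2, map_mul, map_mul, map_pow, T.red_algebraMap _ hbA hbm]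
  have hcr : algebraMap k Fk (T.res ⟨c * a ^ p, hbA⟩) ≠ 0 := by
    rw [← T.red_algebraMap _ hbA hbm]
    exact hbr
  rw [hred, v.ord_mul (mul_ne_zero hne hcr) (pow_ne_zero p hwr), v.ord_mul hne hcr,
    S33DG_ord_algebraMap, add_zero, S17ST_ord_pow]
  exact dvd_add hdiv (dvd_mul_right _ _)

end congr

/-- **(LOC₁)**: under the hypotheses of (F2-OUT) (squarefree level), for every `x ∈ V`, every
`hgen` and every place `v` of the fibre, SOME generator of `x` is a unit at `T₁` with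
`p ∣ ord_v (red₁ u)`. -/
def S40F2TP_Loc1 : Prop :=
  ∀ (W : WeierstrassCurve ℤ), W.Δ ≠ 0 → ∀ (p : ℕ) (hp : p.Prime), 5 ≤ p →
    W.ModRepIsIrreducible p → ∀ (M' : ℕ) [NeZero M'] [NeZero p] [NeZero (M' * p)]
    (hpM : ¬ p ∣ M'), Squarefree (M' * p) →
    ∀ (A : ValuationSubring ℚbar), A.LiesOverPrime p →
    ∀ V : AddSubgroup (JZero (M' * p)),
      (∀ x ∈ V, x ∈ S40D_V0 W p (M' * p)) → S40WA_Simple GQ V →
      (∀ x ∈ V, S40DJ_New M' p x) → S40DJ_CaseB W A p →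
      S40D_Rel W p (M' * p) V → S40D_Ker W p (M' * p) V → S40D_InvJ (M' * p) A p V →
      ∀ x ∈ V, ∀ (hgen : PrincipalGeneratedByIntegral A (IsLocalRing.residue A) (M' * p))
        (v : Place (IsLocalRing.ResidueField A)
          ↥(modularFunctionFieldFullC (IsLocalRing.ResidueField A) (M' * p))),
        ∃ (u : ↥(modularFunctionFieldBar (M' * p))) (h : u ∈ (S34M_T1 M' p A hgen).O),
          S33DG_IsGen p x u ∧ (S34M_T1 M' p A hgen).red ⟨u, h⟩ ≠ 0 ∧
            (p : ℤ) ∣ v.ord ((S34M_T1 M' p A hgen).red ⟨u, h⟩)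

/-- **(LOC₂)**: the same at `T₂`. -/
def S40F2TP_Loc2 : Prop :=
  ∀ (W : WeierstrassCurve ℤ), W.Δ ≠ 0 → ∀ (p : ℕ) (hp : p.Prime), 5 ≤ p →
    W.ModRepIsIrreducible p → ∀ (M' : ℕ) [NeZero M'] [NeZero p] [NeZero (M' * p)]
    (hpM : ¬ p ∣ M'), Squarefree (M' * p) →
    ∀ (A : ValuationSubring ℚbar), A.LiesOverPrime p →
    ∀ V : AddSubgroup (JZero (M' * p)),
      (∀ x ∈ V, x ∈ S40D_V0 W p (M' * p)) → S40WA_Simple GQ V →
      (∀ x ∈ V, S40DJ_New M' p x) → S40DJ_CaseB W A p →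
      S40D_Rel W p (M' * p) V → S40D_Ker W p (M' * p) V → S40D_InvJ (M' * p) A p V →
      ∀ x ∈ V, ∀ (hgen : PrincipalGeneratedByIntegral A (IsLocalRing.residue A) (M' * p))
        (v : Place (IsLocalRing.ResidueField A)
          ↥(modularFunctionFieldFullC (IsLocalRing.ResidueField A) (M' * p))),
        ∃ (u : ↥(modularFunctionFieldBar (M' * p)))
          (h : u ∈ (S34M_T2 M' p hp hpM A hgen).O),
          S33DG_IsGen p x u ∧ (S34M_T2 M' p hp hpM A hgen).red ⟨u, h⟩ ≠ 0 ∧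
            (p : ℤ) ∣ v.ord ((S34M_T2 M' p hp hpM A hgen).red ⟨u, h⟩)

/-- **(F2-OUT), squarefree level, from the two place-wise statements.** -/
theorem S40F2TP_out (h1 : S40F2TP_Loc1) (h2 : S40F2TP_Loc2) : S44Q_F2Out := by
  intro W hΔ p hp hp5 hirr M' _ _ _ hpM hsq A hA V hVV0 hV hnew hB hR hK hI x hx
  have hgen : PrincipalGeneratedByIntegral A (IsLocalRing.residue A) (M' * p) :=
    S34VH_hgen M' p hp hpM A hA
  obtain ⟨u₀, hu₀⟩ := S33DG_isGen_exists p x (hVV0 x hx).1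
  have hu₀0 := S33DG_isGen_ne_zero hu₀
  obtain ⟨c, h, hc, hh, hv1, hv2⟩ := S40F2NM_norm M' p hp hpM A hgen hA u₀ hu₀0
  set u : ↥(modularFunctionFieldBar (M' * p)) :=
    u₀ * algebraMap ℚbar ↥(modularFunctionFieldBar (M' * p)) c * h ^ p with hu_def
  have hu : S33DG_IsGen p x u := by
    have := S40G5W_isGen_mul_triv hu₀ ⟨c, h, hc, hh, rfl⟩
    rwa [← mul_assoc] at this
  -- any other generator differs from `u` by `c' · g ^ p`
  have key : ∀ u' : ↥(modularFunctionFieldBar (M' * p)), S33DG_IsGen p x u' →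
      ∃ (c' : ℚbar) (g : ↥(modularFunctionFieldBar (M' * p))), g ≠ 0 ∧
        u = u' * algebraMap ℚbar ↥(modularFunctionFieldBar (M' * p)) c' * g ^ p := by
    intro u' hu'
    have h0 : S33DG_IsGen p (0 : JZero (M' * p)) (u * u'⁻¹) := by
      have := S33DG_isGen_mul hu (S33DG_isGen_inv hu')
      rwa [add_neg_cancel] at this
    obtain ⟨c', g, hc', hg, e'⟩ := S33DG_isTriv_of_zero h0
    have hu'0 := S33DG_isGen_ne_zero hu'
    refine ⟨c', g, hg, ?_⟩
    have : u = u' * (algebraMap ℚbar ↥(modularFunctionFieldBar (M' * p)) c' * g ^ p) := by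
      rw [← e']
      field_simp
    rw [this, mul_assoc]
  obtain ⟨hm1, hr1⟩ := S40F2NM_red_ne (S34M_T1 M' p A hgen) hv1
  obtain ⟨hm2, hr2⟩ := S40F2NM_red_ne (S34M_T2 M' p hp hpM A hgen) hv2
  refine ⟨hgen, u, hu, ⟨hm1, hr1, fun v => ?_⟩, ⟨hm2, hr2, fun v => ?_⟩⟩
  · obtain ⟨u', hu'm, hu', hne', hd'⟩ :=
      h1 W hΔ p hp hp5 hirr M' hpM hsq A hA V hVV0 hV hnew hB hR hK hI x hx hgen v
    obtain ⟨c', g, hg, e⟩ := key u' hu'
    exact S40F2TP_ord_congr (S34M_T1 M' p A hgen) p (S40F2NM_const₁ M' p A hgen) v c' g hg e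
      hu'm hne' hd' hm1 hr1
  · obtain ⟨u', hu'm, hu', hne', hd'⟩ :=
      h2 W hΔ p hp hp5 hirr M' hpM hsq A hA V hVV0 hV hnew hB hR hK hI x hx hgen v
    obtain ⟨c', g, hg, e⟩ := key u' hu'
    exact S40F2TP_ord_congr (S34M_T2 M' p hp hpM A hgen) p
      (S40F2NM_const₂ M' p hp hpM A hgen) v c' g hg e hu'm hne' hd' hm2 hr2

/-- **(KUM₁), squarefree level, from the place-wise statement at `T₁`.** -/
theorem S40F2TP_kum1 (h1 : S40F2TP_Loc1) : S44Q_Kum1 := by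
  intro W hΔ p hp hp5 hirr M' _ _ _ hpM hsq A hA V hVV0 hV hnew hB hR hK hI x hx
  have hgen : PrincipalGeneratedByIntegral A (IsLocalRing.residue A) (M' * p) :=
    S34VH_hgen M' p hp hpM A hA
  obtain ⟨u₀, hu₀⟩ := S33DG_isGen_exists p x (hVV0 x hx).1
  have hu₀0 := S33DG_isGen_ne_zero hu₀
  obtain ⟨c, h, hc, hh, hv1, -⟩ := S40F2NM_norm M' p hp hpM A hgen hA u₀ hu₀0
  set u : ↥(modularFunctionFieldBar (M' * p)) :=
    u₀ * algebraMap ℚbar ↥(modularFunctionFieldBar (M' * p)) c * h ^ p with hu_def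
  have hu : S33DG_IsGen p x u := by
    have := S40G5W_isGen_mul_triv hu₀ ⟨c, h, hc, hh, rfl⟩
    rwa [← mul_assoc] at this
  obtain ⟨hm1, hr1⟩ := S40F2NM_red_ne (S34M_T1 M' p A hgen) hv1
  refine ⟨hgen, u, hu, ⟨hm1, hr1, fun v => ?_⟩⟩
  obtain ⟨u', hu'm, hu', hne', hd'⟩ :=
    h1 W hΔ p hp hp5 hirr M' hpM hsq A hA V hVV0 hV hnew hB hR hK hI x hx hgen v
  have h0 : S33DG_IsGen p (0 : JZero (M' * p)) (u * u'⁻¹) := by
    have := S33DG_isGen_mul hu (S33DG_isGen_inv hu')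
    rwa [add_neg_cancel] at this
  obtain ⟨c', g, hc', hg, e'⟩ := S33DG_isTriv_of_zero h0
  have hu'0 := S33DG_isGen_ne_zero hu'
  have e : u = u' * algebraMap ℚbar ↥(modularFunctionFieldBar (M' * p)) c' * g ^ p := by
    have : u = u' * (algebraMap ℚbar ↥(modularFunctionFieldBar (M' * p)) c' * g ^ p) := by
      rw [← e']
      field_simp
    rw [this, mul_assoc]
  exact S40F2TP_ord_congr (S34M_T1 M' p A hgen) p (S40F2NM_const₁ M' p A hgen) v c' g hg e
    hu'm hne' hd' hm1 hr1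

end Fermat.Agent.S40
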