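import Fermat.Agent.S40.OrdCover

/-!
# TRACK 13 (S40/S44), (F2-OUT): the trichotomy at `T₂` (helper18).  Prefix `S40OC2_`.

The nodes `P' i` (seen on the second component) are places of the SAME field `F̄` as the nodes
`P i`, and `red₂ = red₁ ∘ w_p`.  With `ψ₀ = p ^ 12 f₀ ∈ Λ` (`red₁ ψ₀ = 0`, `w_p ψ₀ = f₀⁻¹ = φ₀`):

* `S40OC2_red₂_psi`  : `red₂ ψ₀ = red₁ φ₀`;
* **`S40OC2_cover`**  : `v` with `0 ≤ ord_v (j̄ ^ p)` and `v ≠ P' i` for all `i` ⇒ `ord_v (red₁ φ₀) = 0`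
  (`v` is ORDINARY in the sense of `S40OC_trichotomy`);
* `S40OC2_node_pos`  : `0 < ord_{P' i} (red₁ φ₀)`;
* **`S40OC2_trichotomy`** : every place of `F̄` is a cusp, some `P' i`, or ordinary;
* **`S40OC2_P_sub`**, **`S40OC2_P'_sub`** : `{P i} = {P' i}` as sets of places:
  `∀ i, ∃ j, P i = P' j` and `∀ i, ∃ j, P' i = P j`.
-/

set_option autoImplicit false
set_option synthInstance.maxHeartbeats 400000
set_option maxHeartbeats 1000000
set_option linter.unusedSectionVars false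
set_option linter.unusedVariables false
set_option linter.style.haveILetI false

open HahnSeries IntermediateField AlgebraicCurve ModularCurve

noncomputable section

namespace Fermat.Agent.S40

open Fermat.Agent.Lib Fermat.Agent.S17 Fermat.Agent.S18 Fermat.Agent.S24 Fermat.Agent.S34
  Fermat.Agent.S36 Fermat.Agent.GalRep Fermat.Agent.S33

local notation "Ω" => AlgebraicClosure ℚ

section abs

variable {k F₁ F₂ Λ ι : Type*} [Field k] [Field F₁] [Field F₂] [Algebra k F₁]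
  [Algebra k F₂] [CommRing Λ] [Fintype ι] [Infinite k]

/-- off the cusps and the nodes of the second component, some element of the ideal of `C₁` does
not vanish. -/
theorem S40OC2_abs_s (H : S40F2PB_Fib k F₁ F₂ Λ ι) (v : Place k F₂) (hv : v ∉ H.cusps₂)
    (hvn : ∀ i, v ≠ H.P' i) :
    ∃ s : Λ, H.red₁ s = 0 ∧ H.red₂ s ≠ 0 ∧ v.ord (H.red₂ s) = 0 :=
  S40F2PE_ex_ord₂ H.red₁ H.red₂ H.rr₂ H.cusps₂ H.c₂ H.hc₂ H.P' H.P'_not_cusp H.lift₁' v hv hvn

end abs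

section inst

variable (M p : ℕ) [NeZero (M * p)] [NeZero p] (hp : p.Prime) (hpM : ¬ p ∣ M)
  (A : ValuationSubring Ω) (hA : A.LiesOverPrime p)
  (hgen : PrincipalGeneratedByIntegral A (IsLocalRing.residue A) (M * p))
  (H : Subgroup (Ω ≃ₐ[ℚ] Ω)) (hH : H ≤ A.inertiaSubgroupIn ℚ)
  (hU : S33NL2_Unif A H (p : Ω))

/-! ### `ψ₀ = p ^ 12 f₀` -/

theorem S40OC2_g_coe :
    ((S40F2PV_g M p H : S33NX_F M p H) : ↥(modularFunctionFieldBar (M * p))) =
      algebraMap Ω ↥(modularFunctionFieldBar (M * p)) ((p : Ω) ^ 12) * S36F0_f0 M p := by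
  rw [map_pow]
  rfl

include hA in
/-- `ψ₀ ∈ Λ`. -/
theorem S40OC2_g_mem_Lam : S40F2PV_g M p H ∈ S33NX_Lam M p hp hpM A hgen H := by
  rw [S33NX_mem_Lam]
  refine ⟨⟨?_, S40F2PV_g_mem_O₂ M p hp hpM A hA hgen H⟩, ?_⟩
  · exact Subring.mul_mem _ (Subring.pow_mem _ (S40F2PV_pi_mem_O M p hp hpM A hA hgen H 0) 12)
      (S40F2PV_f0_mem_O₁ M p hp hpM A hA hgen H)
  · rw [S40OC2_g_coe]
    exact mul_mem (Subalgebra.algebraMap_mem _ _) (S40F2PV_f0_mem_B M p)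

/-- `ψ₀` as an element of `Λ`. -/
def S40OC2_psiL : ↥(S33NX_Lam M p hp hpM A hgen H) :=
  ⟨S40F2PV_g M p H, S40OC2_g_mem_Lam M p hp hpM A hA hgen H⟩

include hA in
/-- **`red₂ ψ₀ = red₁ φ₀`**. -/
theorem S40OC2_red₂_psi :
    S40F2PV_red₂ M p hp hpM A hgen H (S40OC2_psiL M p hp hpM A hA hgen H) =
      S40F2PV_red₁ M p hp hpM A hgen H (S40F2PV_phiL M p hp hpM A hA hgen H) := by
  have h2 : ((S40F2PV_g M p H : S33NX_F M p H) : ↥(modularFunctionFieldBar (M * p))) ∈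
      (S34M_T2 M p hp hpM A hgen).O :=
    (S40F2PV_toO₂ M p hp hpM A hgen H (S40OC2_psiL M p hp hpM A hA hgen H)).2
  have h1 : ((S40F2PV_phi M p H : S33NX_F M p H) : ↥(modularFunctionFieldBar (M * p))) ∈
      (S34M_T1 M p A hgen).O :=
    (S40F2PV_toO₁ M p hp hpM A hgen H (S40F2PV_phiL M p hp hpM A hA hgen H)).2
  have e₂ : S40F2PV_red₂ M p hp hpM A hgen H (S40OC2_psiL M p hp hpM A hA hgen H) =
      (S34M_T2 M p hp hpM A hgen).red ⟨_, h2⟩ := rfl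
  have e₁ : S40F2PV_red₁ M p hp hpM A hgen H (S40F2PV_phiL M p hp hpM A hA hgen H) =
      (S34M_T1 M p A hgen).red ⟨_, h1⟩ := rfl
  rw [e₂, e₁]
  have hw : S34DF_wq M p hp hpM
      ((S40F2PV_g M p H : S33NX_F M p H) : ↥(modularFunctionFieldBar (M * p))) =
      ((S40F2PV_phi M p H : S33NX_F M p H) : ↥(modularFunctionFieldBar (M * p))) := by
    rw [S40OC2_g_coe, S40F2PV_wq_p12_f0 M p hp hpM A hA]
    rfl
  have hmem : S34DF_wq M p hp hpM
      ((S40F2PV_g M p H : S33NX_F M p H) : ↥(modularFunctionFieldBar (M * p))) ∈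
      (S34M_T1 M p A hgen).O := by
    rw [hw]; exact h1
  have e₃ : (S34M_T2 M p hp hpM A hgen).red ⟨_, h2⟩ = (S34M_T1 M p A hgen).red ⟨_, hmem⟩ := rfl
  rw [e₃]
  exact congrArg (S34M_T1 M p A hgen).red (Subtype.ext hw)

variable {s : ℕ}
  (e₁ : Fin s → ↥(S34M_chart M p A 1 Nat.one_pos).Rb₁ →ₐ[IsLocalRing.ResidueField A]
    IsLocalRing.ResidueField A)
  (e₂ : Fin s → ↥(S34M_chart M p A 1 Nat.one_pos).Rb₂ →ₐ[IsLocalRing.ResidueField A]
    IsLocalRing.ResidueField A)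
  (P P' : Fin s → Place (IsLocalRing.ResidueField A)
    ↥(modularFunctionFieldFullC (IsLocalRing.ResidueField A) (M * p)))
  (hE : Function.Surjective (S34B_E e₁ e₂))
  (hW1 : S34K_W (S34M_same M p hp hpM A hgen) (S34M_chart M p A 1 Nat.one_pos) 1 =
    S34B_W e₁ e₂)
  (hP : ∀ i, 0 ≤ (P i).ord (S34M_xb M p A))
  (hP' : ∀ i, 0 ≤ (P' i).ord (S34M_xb M p A ^ p))
  (he₁ : ∀ i (a : ↥(S34M_chart M p A 1 Nat.one_pos).Rb₁), e₁ i a = FD_c0 (P i) (a : _))
  (he₂ : ∀ i (b : ↥(S34M_chart M p A 1 Nat.one_pos).Rb₂), e₂ i b = FD_c0 (P' i) (b : _))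

include hA hH hU hE hW1 hP hP' he₁ he₂ in
/-- the element `s` of the ideal of `C₁` which does not vanish at `v`. -/
theorem S40OC2_exists_s (v : Place (IsLocalRing.ResidueField A)
      ↥(modularFunctionFieldFullC (IsLocalRing.ResidueField A) (M * p)))
    (hv : 0 ≤ v.ord (S34M_xb M p A ^ p)) (hvn : ∀ i, v ≠ P' i) :
    ∃ y : ↥(S33NX_Lam M p hp hpM A hgen H),
      S40F2PV_red₁ M p hp hpM A hgen H y = 0 ∧ S40F2PV_red₂ M p hp hpM A hgen H y ≠ 0 ∧
        v.ord (S40F2PV_red₂ M p hp hpM A hgen H y) = 0 := by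
  haveI : IsAlgClosed (IsLocalRing.ResidueField A) := S18_residue_isAlgClosed A
  haveI : Infinite (IsLocalRing.ResidueField A) := IsAlgClosed.instInfinite
  obtain ⟨c₁, hc₁⟩ := S40NP_pole₁ M p hp hpM A hA
  obtain ⟨c₂, hc₂⟩ := S40NP_pole₂ M p hp hpM A hA
  exact S40OC2_abs_s (S40F2PF_fib M p hp hpM A hA hgen H hH hU e₁ e₂ P P' hE hW1 hP hP'
    he₁ he₂ c₁ c₂ hc₁ hc₂) v
    (show v ∉ S40F2PI_cusps (S40F2PF_hk M p hp hpM A hA).principal (S34M_xb M p A ^ p) from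
      (S40F2PI_not_mem_cusps _ _ _).2 hv) hvn

include hA hH hU hE hW1 hP hP' he₁ he₂ in
/-- **COVER at `T₂`**: a place where `j̄ ^ p` is regular and which is no `P' i` is ordinary. -/
theorem S40OC2_cover (v : Place (IsLocalRing.ResidueField A)
      ↥(modularFunctionFieldFullC (IsLocalRing.ResidueField A) (M * p)))
    (hv : 0 ≤ v.ord (S34M_xb M p A ^ p)) (hvn : ∀ i, v ≠ P' i) :
    v.ord (S40F2PV_red₁ M p hp hpM A hgen H (S40F2PV_phiL M p hp hpM A hA hgen H)) = 0 := by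
  obtain ⟨y, hy₁, hy₂, hy⟩ := S40OC2_exists_s M p hp hpM A hA hgen H hH hU e₁ e₂ P P' hE hW1
    hP hP' he₁ he₂ v hv hvn
  -- `y = p · y₁`, `y₁ ∈ O₁''`
  have hmem₁ : ((y : S33NX_F M p H) : ↥(modularFunctionFieldBar (M * p))) ∈
      (S34M_T1 M p A hgen).O := (S40F2PV_toO₁ M p hp hpM A hgen H y).2
  have hy₁' : (S34M_T1 M p A hgen).red ⟨_, hmem₁⟩ = 0 := hy₁
  have hdiv : S33N1_Div (S33NX_O M p hp hpM A hgen H 0) (S40F2PV_pi M p H) 1
      (y : S33NX_F M p H) :=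
    S33LF_div_of_red (S34M_T1 M p A hgen) _ _ (S33LF_hO_zero M p hp hpM A hgen H) _
      (S33ND_isDV_zero M p hp hpM A hA hgen H hU) hmem₁ hy₁'
  obtain ⟨y₁, hy₁O, ey⟩ := hdiv
  rw [pow_one] at ey
  have hπ0 : S40F2PV_pi M p H ≠ 0 := S40F2PV_pi_ne M p H
  -- `h' = y₁ ^ 12 φ₀ = y ^ 12 g'`
  have hq_eq : y₁ ^ 12 * S40F2PV_phi M p H =
      (y : S33NX_F M p H) ^ 12 * S40F2PV_g' M p H := by
    rw [ey, S40F2PV_g', mul_pow]
    field_simp
  have hyLam := y.2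
  rw [S33NX_mem_Lam] at hyLam
  have hyO₂ : (y : S33NX_F M p H) ∈ S33NX_O M p hp hpM A hgen H 1 :=
    (S33NX_mem_O_one M p hp hpM A hgen H _).2 (S40F2PV_toO₂ M p hp hpM A hgen H y).2
  have hy₁B : ((y₁ : S33NX_F M p H) : ↥(modularFunctionFieldBar (M * p))) ∈ S33NX_B M p := by
    have e1 : y₁ = (y : S33NX_F M p H) * (S40F2PV_pi M p H)⁻¹ := by
      rw [ey]; field_simp
    rw [e1]
    have e2 : (((y : S33NX_F M p H) * (S40F2PV_pi M p H)⁻¹ : S33NX_F M p H) :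
        ↥(modularFunctionFieldBar (M * p))) =
        ((y : S33NX_F M p H) : ↥(modularFunctionFieldBar (M * p))) *
          algebraMap Ω ↥(modularFunctionFieldBar (M * p)) ((p : Ω)⁻¹) := by
      rw [map_inv₀]
      rfl
    rw [e2]
    exact mul_mem hyLam.2 (Subalgebra.algebraMap_mem _ _)
  have hqLam : y₁ ^ 12 * S40F2PV_phi M p H ∈ S33NX_Lam M p hp hpM A hgen H := by
    rw [S33NX_mem_Lam]
    refine ⟨⟨?_, ?_⟩, ?_⟩
    · exact Subring.mul_mem _ (Subring.pow_mem _ hy₁O 12)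
        (S40F2PV_phi_mem_O₁ M p hp hpM A hA hgen H)
    · rw [hq_eq]
      exact Subring.mul_mem _ (Subring.pow_mem _ hyO₂ 12)
        (S40F2PV_g'_mem_O₂ M p hp hpM A hA hgen H)
    · show ((y₁ : S33NX_F M p H) : ↥(modularFunctionFieldBar (M * p))) ^ 12 *
        (S36F0_f0 M p)⁻¹ ∈ S33NX_B M p
      exact mul_mem (pow_mem hy₁B 12) (S40F2PV_phi_mem_B M p)
  -- `y ^ 12 = h' ψ₀` in `Λ`
  have hid : y ^ 12 = (⟨y₁ ^ 12 * S40F2PV_phi M p H, hqLam⟩ :
      ↥(S33NX_Lam M p hp hpM A hgen H)) * S40OC2_psiL M p hp hpM A hA hgen H := by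
    apply Subtype.ext
    show (y : S33NX_F M p H) ^ 12 =
      y₁ ^ 12 * S40F2PV_phi M p H * S40F2PV_g M p H
    rw [ey, S40F2PV_g, mul_pow]
    have h1 := S40F2PV_phi_mul_f0 M p H
    linear_combination (-(S40F2PV_pi M p H ^ 12 * y₁ ^ 12)) * h1
  have hred := congrArg (S40F2PV_red₂ M p hp hpM A hgen H) hid
  rw [map_pow, map_mul, S40OC2_red₂_psi M p hp hpM A hA hgen H] at hred
  set a := S40F2PV_red₂ M p hp hpM A hgen H
    (⟨y₁ ^ 12 * S40F2PV_phi M p H, hqLam⟩ : ↥(S33NX_Lam M p hp hpM A hgen H)) with ha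
  set b := S40F2PV_red₁ M p hp hpM A hgen H (S40F2PV_phiL M p hp hpM A hA hgen H) with hb
  have hab0 : a * b ≠ 0 := by
    rw [← hred]
    exact pow_ne_zero _ hy₂
  have ha0 : a ≠ 0 := left_ne_zero_of_mul hab0
  have hb0 : b ≠ 0 := right_ne_zero_of_mul hab0
  have hord := congrArg v.ord hred
  rw [S36RC_ord_pow, hy, mul_zero, v.ord_mul ha0 hb0] at hord
  have hvc : v ∉ S40F2PI_cusps (S40F2PF_hk M p hp hpM A hA).principal (S34M_xb M p A ^ p) :=
    (S40F2PI_not_mem_cusps _ _ _).2 hv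
  have h1 : 0 ≤ v.ord a := S40F2PF_reg₂ M p hp hpM A hA hgen H _ v hvc
  have hvj : 0 ≤ v.ord (S34M_xb M p A) := by
    rw [S36RC_ord_pow] at hv
    have hp0 : (0 : ℤ) < (p : ℤ) := by exact_mod_cast hp.pos
    by_contra hneg
    push Not at hneg
    have := mul_neg_of_pos_of_neg hp0 hneg
    omega
  have hvc₁ : v ∉ S40F2PI_cusps (S40F2PF_hk M p hp hpM A hA).principal (S34M_xb M p A) :=
    (S40F2PI_not_mem_cusps _ _ _).2 hvj
  have h2 : 0 ≤ v.ord b := S40F2PF_reg₁ M p hp hpM A hA hgen H _ v hvc₁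
  omega

include hA hH hU hE hW1 hP hP' he₁ he₂ in
/-- at a node (seen on the second component), `red₁ φ₀` vanishes. -/
theorem S40OC2_node_pos (i : Fin s) :
    0 < (P' i).ord
      (S40F2PV_red₁ M p hp hpM A hgen H (S40F2PV_phiL M p hp hpM A hA hgen H)) := by
  by_contra hcon
  have h0 : (P' i).ord
      (S40F2PV_red₁ M p hp hpM A hgen H (S40F2PV_phiL M p hp hpM A hA hgen H)) = 0 := by
    have hvj : 0 ≤ (P' i).ord (S34M_xb M p A) := by
      have hv := hP' i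
      rw [S36RC_ord_pow] at hv
      have hp0 : (0 : ℤ) < (p : ℤ) := by exact_mod_cast hp.pos
      by_contra hneg
      push Not at hneg
      have := mul_neg_of_pos_of_neg hp0 hneg
      omega
    have hvc₁ : P' i ∉ S40F2PI_cusps (S40F2PF_hk M p hp hpM A hA).principal (S34M_xb M p A) :=
      (S40F2PI_not_mem_cusps _ _ _).2 hvj
    have h2 := S40F2PF_reg₁ M p hp hpM A hA hgen H
      (S40F2PV_phiL M p hp hpM A hA hgen H) (P' i) hvc₁
    omega
  -- `red₂ ψ₀ = red₁ φ₀` does not vanish at `P' i`, but `red₁ ψ₀ = 0`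
  have hc := (S40F2PF_compat M p hp hpM A hA hgen H e₁ e₂ P P' hW1 hP hP' he₁ he₂ i
    (S40OC2_psiL M p hp hpM A hA hgen H)).1
  have hψ₁ : S40F2PV_red₁ M p hp hpM A hgen H (S40OC2_psiL M p hp hpM A hA hgen H) = 0 := by
    have hm : ((S40F2PV_g M p H : S33NX_F M p H) : ↥(modularFunctionFieldBar (M * p))) ∈
        (S34M_T1 M p A hgen).O :=
      (S40F2PV_toO₁ M p hp hpM A hgen H (S40OC2_psiL M p hp hpM A hA hgen H)).2
    have hd : S33N1_Div (S33NX_O M p hp hpM A hgen H 0) (S40F2PV_pi M p H) 1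
        (S40F2PV_g M p H) := by
      refine ⟨S40F2PV_pi M p H ^ 11 * S40F2PV_f0 M p H, ?_, ?_⟩
      · exact Subring.mul_mem _
          (Subring.pow_mem _ (S40F2PV_pi_mem_O M p hp hpM A hA hgen H 0) 11)
          (S40F2PV_f0_mem_O₁ M p hp hpM A hA hgen H)
      · rw [S40F2PV_g]; ring
    obtain ⟨hm', e⟩ := S33LF_red_of_div (S34M_T1 M p A hgen) _ _
      (S33LF_hO_zero M p hp hpM A hgen H) _ (S33ND_isDV_zero M p hp hpM A hA hgen H hU) hd
    exact e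
  rcases hc (Or.inl hψ₁) with hz | hpos
  · rw [S40OC2_red₂_psi M p hp hpM A hA hgen H] at hz
    exact S40F2PV_L_φ₀_ne M p hp hpM A hA hgen H hz
  · rw [S40OC2_red₂_psi M p hp hpM A hA hgen H, h0] at hpos
    exact lt_irrefl _ hpos

include hA hH hU hE hW1 hP hP' he₁ he₂ in
/-- **trichotomy at `T₂`**: every place of `F̄` is a cusp, some `P' i`, or ordinary. -/
theorem S40OC2_trichotomy (v : Place (IsLocalRing.ResidueField A)
      ↥(modularFunctionFieldFullC (IsLocalRing.ResidueField A) (M * p))) :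
    v.ord (S34M_xb M p A) < 0 ∨ (∃ i, v = P' i) ∨
      (0 ≤ v.ord (S34M_xb M p A) ∧
        v.ord (S40F2PV_red₁ M p hp hpM A hgen H (S40F2PV_phiL M p hp hpM A hA hgen H)) = 0) := by
  by_cases hv : v.ord (S34M_xb M p A) < 0
  · exact Or.inl hv
  by_cases hn : ∃ i, v = P' i
  · exact Or.inr (Or.inl hn)
  · refine Or.inr (Or.inr ⟨not_lt.1 hv, ?_⟩)
    have hvp : 0 ≤ v.ord (S34M_xb M p A ^ p) := by
      rw [S36RC_ord_pow]
      exact mul_nonneg (by exact_mod_cast Nat.zero_le p) (not_lt.1 hv)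
    exact S40OC2_cover M p hp hpM A hA hgen H hH hU e₁ e₂ P P' hE hW1 hP hP' he₁ he₂ v hvp
      (fun i hi => hn ⟨i, hi⟩)

include hA hH hU hE hW1 hP hP' he₁ he₂ in
/-- every node `P i` is some `P' j`. -/
theorem S40OC2_P_sub (i : Fin s) : ∃ j, P i = P' j := by
  rcases S40OC2_trichotomy M p hp hpM A hA hgen H hH hU e₁ e₂ P P' hE hW1 hP hP' he₁ he₂ (P i)
    with h | h | h
  · exact absurd (hP i) (not_le.2 h)
  · exact h
  · have := S40OC_node_pos M p hp hpM A hA hgen H hH hU e₁ e₂ P P' hE hW1 hP hP' he₁ he₂ i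
    rw [h.2] at this
    exact absurd this (lt_irrefl _)

include hA hH hU hE hW1 hP hP' he₁ he₂ in
/-- every node `P' i` is some `P j`. -/
theorem S40OC2_P'_sub (i : Fin s) : ∃ j, P' i = P j := by
  rcases S40OC_trichotomy M p hp hpM A hA hgen H hH hU e₁ e₂ P P' hE hW1 hP hP' he₁ he₂ (P' i)
    with h | h | h
  · have hv := hP' i
    rw [S36RC_ord_pow] at hv
    have hp0 : (0 : ℤ) < (p : ℤ) := by exact_mod_cast hp.pos
    have := mul_neg_of_pos_of_neg hp0 h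
    omega
  · exact h
  · have := S40OC2_node_pos M p hp hpM A hA hgen H hH hU e₁ e₂ P P' hE hW1 hP hP' he₁ he₂ i
    rw [h.2] at this
    exact absurd this (lt_irrefl _)

end inst

end Fermat.Agent.S40
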