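import Mathlib
import Fermat.Agent.S40.F2Top
import Fermat.Agent.S40.OrdCover2
import Fermat.Agent.S40.CuspTop
import Fermat.Agent.S40.CuspEx
import Fermat.Agent.S40.DiscAsm
import Fermat.Agent.S40.JSym

/-!
# TRACK 13 (row 38), (F2-OUT): the FINAL ASSEMBLY (helper20).  Prefix `S40F2FN_`.

`S44Q_Kum1` (the only hole of S44, `S44Y_final`, helper2) from ONE input:

* `S40F2FN_Node1` : **(N₁)** at every node `i` of any node data with the properties of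
  `S40NP_canon`, SOME generator of `x ∈ V` is a unit at `T₁` with `p ∣ ord_{P i} (red₁ u)`
  (`S40F2FN_Node2` : the same at `T₂` and `P' i`, only for `S40F2FN_out`).

Inside: the cusps (`S40CTP_main` + `S40CX_L1`, route C0, helper9/13/3/25), the ordinary places
(`S40DA_ord`, helper5), the trichotomies (`S40OC_trichotomy`, `S40OC2_trichotomy`, helper18),
the transport `red₂ u = red₁ (w_p u)` with (SYM) (`S40JS_hole`, helper2), and the normalisation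
/ independence of the generator (`S40F2TP_kum1`, `S40F2TP_out`).

* `S40F2FN_co`  : cusps + ordinary places at `T₁`, any unit generator of any `x ∈ V₀`;
* `S40F2FN_co₂` : the same at `T₂`;
* `S40F2FN_loc1 : Node1 → Loc1`, `S40F2FN_loc2 : Node2 → Loc2`;
* **`S40F2FN_kum1 : Node1 → S44Q_Kum1`**, `S40F2FN_out : Node1 → Node2 → S44Q_F2Out`.
-/

set_option autoImplicit false
set_option linter.style.haveILetI false
set_option linter.unusedSectionVars false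
set_option linter.unusedVariables false
set_option synthInstance.maxHeartbeats 400000
set_option maxHeartbeats 1000000

open AlgebraicCurve ModularCurve IntermediateField

noncomputable section

namespace Fermat.Agent.S40

open WeierstrassCurve
open Fermat.Agent.Lib Fermat.Agent.S17 Fermat.Agent.S18 Fermat.Agent.S19 Fermat.Agent.S24
  Fermat.Agent.S34 Fermat.Agent.S35 Fermat.Agent.S36 Fermat.Agent.S37 Fermat.Agent.GalRep
  Fermat.Agent.S33

local notation "ℚbar" => AlgebraicClosure ℚ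
local notation "GQ" => (AlgebraicClosure ℚ ≃ₐ[ℚ] AlgebraicClosure ℚ)

section inst

variable (M p : ℕ) [NeZero M] [NeZero p] [NeZero (M * p)] (hp : p.Prime) (hpM : ¬ p ∣ M)
  (A : ValuationSubring ℚbar) (hA : A.LiesOverPrime p)
  (hgen : PrincipalGeneratedByIntegral A (IsLocalRing.residue A) (M * p))

include hA in
/-- **cusps and ordinary places at `T₁`**: any unit generator of any class of `V₀`. -/
theorem S40F2FN_co (W : WeierstrassCurve ℤ) (hΔ : W.Δ ≠ 0)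
    (hp5 : 5 ≤ p) (hirr : W.ModRepIsIrreducible p) (hsq : Squarefree (M * p))
    (x : JZero (M * p)) (hx : x ∈ S40D_V0 W p (M * p))
    (u : ↥(modularFunctionFieldBar (M * p))) (hu : S33DG_IsGen p x u)
    (huO : u ∈ (S34M_T1 M p A hgen).O) (hred : (S34M_T1 M p A hgen).red ⟨u, huO⟩ ≠ 0)
    (v : Place (IsLocalRing.ResidueField A)
      ↥(modularFunctionFieldFullC (IsLocalRing.ResidueField A) (M * p)))
    (hv : v.ord (S34M_xb M p A) < 0 ∨ (0 ≤ v.ord (S34M_xb M p A) ∧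
      v.ord (S40F2PV_red₁ M p hp hpM A hgen (A.inertiaSubgroupIn ℚ)
        (S40F2PV_phiL M p hp hpM A hA hgen (A.inertiaSubgroupIn ℚ))) = 0)) :
    (p : ℤ) ∣ v.ord ((S34M_T1 M p A hgen).red ⟨u, huO⟩) := by
  have hp2 : p ≠ 2 := by omega
  rcases hv with hv | ⟨hv, hord⟩
  · exact S40CTP_main M p A hgen W hΔ hp hp2 hirr hpM hA
      (fun ℓ _ hℓ hℓM => S40CX_L1 M (Squarefree.of_mul_left hsq) ℓ hℓ hℓM)
      x hx u hu huO hred v hv
  · have hvu : S40F2S_IsU (S34M_T1 M p A hgen).O u :=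
      ((S34M_T1 M p A hgen).O.valuation_eq_one_iff ⟨u, huO⟩).1
        (((S34M_T1 M p A hgen).red_ne_zero_iff ⟨u, huO⟩).1 hred)
    have hφ : (S36F0_f0 M p)⁻¹ ∈ (S34M_T1 M p A hgen).O :=
      (S40F2PV_toO₁ M p hp hpM A hgen (A.inertiaSubgroupIn ℚ)
        (S40F2PV_phiL M p hp hpM A hA hgen (A.inertiaSubgroupIn ℚ))).2
    have hdiv : ∀ w : Place ℚbar ↥(modularFunctionFieldBar (M * p)),
        0 ≤ w.ord (jB (M * p)) → (p : ℤ) ∣ w.ord u := by
      obtain ⟨D, -, -, hD⟩ := hu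
      intro w _
      exact ⟨_, (hD w).symm⟩
    exact S40DA_ord M p hp hpM A hA hgen v hv hφ hord hvu hdiv

include hA in
/-- **cusps and ordinary places at `T₂`**: `red₂ u = red₁ (w_p u)` and (SYM). -/
theorem S40F2FN_co₂ (W : WeierstrassCurve ℤ) (hΔ : W.Δ ≠ 0)
    (hp5 : 5 ≤ p) (hirr : W.ModRepIsIrreducible p) (hsq : Squarefree (M * p))
    (x : JZero (M * p)) (hx : x ∈ S40D_V0 W p (M * p))
    (u : ↥(modularFunctionFieldBar (M * p))) (hu : S33DG_IsGen p x u)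
    (huO : u ∈ (S34M_T2 M p hp hpM A hgen).O)
    (hred : (S34M_T2 M p hp hpM A hgen).red ⟨u, huO⟩ ≠ 0)
    (v : Place (IsLocalRing.ResidueField A)
      ↥(modularFunctionFieldFullC (IsLocalRing.ResidueField A) (M * p)))
    (hv : v.ord (S34M_xb M p A) < 0 ∨ (0 ≤ v.ord (S34M_xb M p A) ∧
      v.ord (S40F2PV_red₁ M p hp hpM A hgen (A.inertiaSubgroupIn ℚ)
        (S40F2PV_phiL M p hp hpM A hA hgen (A.inertiaSubgroupIn ℚ))) = 0)) :
    (p : ℤ) ∣ v.ord ((S34M_T2 M p hp hpM A hgen).red ⟨u, huO⟩) := by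
  obtain ⟨x', hx', hu'⟩ := S40JS_hole W p hp M hpM x hx u hu
  have huO' : S34DF_wq M p hp hpM u ∈ (S34M_T1 M p A hgen).O := huO
  have hred' : (S34M_T1 M p A hgen).red ⟨S34DF_wq M p hp hpM u, huO'⟩ ≠ 0 := hred
  exact S40F2FN_co M p hp hpM A hA hgen W hΔ hp5 hirr hsq x' hx' _ hu' huO' hred' v hv

end inst

/-- **(N₁)**: the NODES at `T₁`. -/
def S40F2FN_Node1 : Prop :=
  ∀ (W : WeierstrassCurve ℤ), W.Δ ≠ 0 → ∀ (p : ℕ) (hp : p.Prime), 5 ≤ p →
    W.ModRepIsIrreducible p → ∀ (M' : ℕ) [NeZero M'] [NeZero p] [NeZero (M' * p)]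
    (hpM : ¬ p ∣ M'), Squarefree (M' * p) →
    ∀ (A : ValuationSubring ℚbar), A.LiesOverPrime p →
    ∀ V : AddSubgroup (JZero (M' * p)),
      (∀ x ∈ V, x ∈ S40D_V0 W p (M' * p)) → S40WA_Simple GQ V →
      (∀ x ∈ V, S40DJ_New M' p x) → S40DJ_CaseB W A p →
      S40D_Rel W p (M' * p) V → S40D_Ker W p (M' * p) V → S40D_InvJ (M' * p) A p V →
      ∀ x ∈ V, ∀ (hgen : PrincipalGeneratedByIntegral A (IsLocalRing.residue A) (M' * p))
        (s : ℕ)
        (e₁ : Fin s → ↥(S34M_chart M' p A 1 Nat.one_pos).Rb₁ →ₐ[IsLocalRing.ResidueField A]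
          IsLocalRing.ResidueField A)
        (e₂ : Fin s → ↥(S34M_chart M' p A 1 Nat.one_pos).Rb₂ →ₐ[IsLocalRing.ResidueField A]
          IsLocalRing.ResidueField A)
        (P P' : Fin s → Place (IsLocalRing.ResidueField A)
          ↥(modularFunctionFieldFullC (IsLocalRing.ResidueField A) (M' * p))),
        Function.Surjective (S34B_E e₁ e₂) →
        S34K_W (S34M_same M' p hp hpM A hgen) (S34M_chart M' p A 1 Nat.one_pos) 1 =
          S34B_W e₁ e₂ →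
        S34P_Hyp (S34M_T1 M' p A hgen) (S34M_T2 M' p hp hpM A hgen)
          (S34M_same M' p hp hpM A hgen) (S34PX_j M' p hp hpM A hgen) →
        S34P_red (S34M_T1 M' p A hgen) (S34M_T2 M' p hp hpM A hgen)
          (S34PX_j M' p hp hpM A hgen) = (S34M_xb M' p A, S34M_xb M' p A ^ p) →
        (∀ i, 0 ≤ (P i).ord (S34M_xb M' p A)) → (∀ i, 0 ≤ (P' i).ord (S34M_xb M' p A ^ p)) →
        (∀ i (a : ↥(S34M_chart M' p A 1 Nat.one_pos).Rb₁), e₁ i a = FD_c0 (P i) (a : _)) →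
        (∀ i (b : ↥(S34M_chart M' p A 1 Nat.one_pos).Rb₂), e₂ i b = FD_c0 (P' i) (b : _)) →
        ∀ i : Fin s,
          ∃ (u : ↥(modularFunctionFieldBar (M' * p))) (h : u ∈ (S34M_T1 M' p A hgen).O),
            S33DG_IsGen p x u ∧ (S34M_T1 M' p A hgen).red ⟨u, h⟩ ≠ 0 ∧
              (p : ℤ) ∣ (P i).ord ((S34M_T1 M' p A hgen).red ⟨u, h⟩)

/-- **(N₂)**: the NODES at `T₂`. -/
def S40F2FN_Node2 : Prop :=
  ∀ (W : WeierstrassCurve ℤ), W.Δ ≠ 0 → ∀ (p : ℕ) (hp : p.Prime), 5 ≤ p →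
    W.ModRepIsIrreducible p → ∀ (M' : ℕ) [NeZero M'] [NeZero p] [NeZero (M' * p)]
    (hpM : ¬ p ∣ M'), Squarefree (M' * p) →
    ∀ (A : ValuationSubring ℚbar), A.LiesOverPrime p →
    ∀ V : AddSubgroup (JZero (M' * p)),
      (∀ x ∈ V, x ∈ S40D_V0 W p (M' * p)) → S40WA_Simple GQ V →
      (∀ x ∈ V, S40DJ_New M' p x) → S40DJ_CaseB W A p →
      S40D_Rel W p (M' * p) V → S40D_Ker W p (M' * p) V → S40D_InvJ (M' * p) A p V →
      ∀ x ∈ V, ∀ (hgen : PrincipalGeneratedByIntegral A (IsLocalRing.residue A) (M' * p))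
        (s : ℕ)
        (e₁ : Fin s → ↥(S34M_chart M' p A 1 Nat.one_pos).Rb₁ →ₐ[IsLocalRing.ResidueField A]
          IsLocalRing.ResidueField A)
        (e₂ : Fin s → ↥(S34M_chart M' p A 1 Nat.one_pos).Rb₂ →ₐ[IsLocalRing.ResidueField A]
          IsLocalRing.ResidueField A)
        (P P' : Fin s → Place (IsLocalRing.ResidueField A)
          ↥(modularFunctionFieldFullC (IsLocalRing.ResidueField A) (M' * p))),
        Function.Surjective (S34B_E e₁ e₂) →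
        S34K_W (S34M_same M' p hp hpM A hgen) (S34M_chart M' p A 1 Nat.one_pos) 1 =
          S34B_W e₁ e₂ →
        S34P_Hyp (S34M_T1 M' p A hgen) (S34M_T2 M' p hp hpM A hgen)
          (S34M_same M' p hp hpM A hgen) (S34PX_j M' p hp hpM A hgen) →
        S34P_red (S34M_T1 M' p A hgen) (S34M_T2 M' p hp hpM A hgen)
          (S34PX_j M' p hp hpM A hgen) = (S34M_xb M' p A, S34M_xb M' p A ^ p) →
        (∀ i, 0 ≤ (P i).ord (S34M_xb M' p A)) → (∀ i, 0 ≤ (P' i).ord (S34M_xb M' p A ^ p)) →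
        (∀ i (a : ↥(S34M_chart M' p A 1 Nat.one_pos).Rb₁), e₁ i a = FD_c0 (P i) (a : _)) →
        (∀ i (b : ↥(S34M_chart M' p A 1 Nat.one_pos).Rb₂), e₂ i b = FD_c0 (P' i) (b : _)) →
        ∀ i : Fin s,
          ∃ (u : ↥(modularFunctionFieldBar (M' * p)))
            (h : u ∈ (S34M_T2 M' p hp hpM A hgen).O),
            S33DG_IsGen p x u ∧ (S34M_T2 M' p hp hpM A hgen).red ⟨u, h⟩ ≠ 0 ∧
              (p : ℤ) ∣ (P' i).ord ((S34M_T2 M' p hp hpM A hgen).red ⟨u, h⟩)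

/-- **(LOC₁)** from (a) and (N₁). -/
theorem S40F2FN_loc1 (hN : S40F2FN_Node1) : S40F2TP_Loc1 := by
  intro W hΔ p hp hp5 hirr M' _ _ _ hpM hsq A hA V hVV0 hV hnew hB hR hK hI x hx hgen v
  obtain ⟨s, e₁, e₂, P, P', hE, hW1, hx', hred, hP, hP', he₁, he₂⟩ :=
    S40NP_canon M' p hp hpM A hgen hA
  rcases S40OC_trichotomy M' p hp hpM A hA hgen (A.inertiaSubgroupIn ℚ) le_rfl
    (S40F2PV_unif hp A hA) e₁ e₂ P P' hE hW1 hP hP' he₁ he₂ v with h | ⟨i, rfl⟩ | h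
  · obtain ⟨u₀, hu₀⟩ := S33DG_isGen_exists p x (hVV0 x hx).1
    obtain ⟨c, g, hc, hg, hv1, -⟩ :=
      S40F2NM_norm M' p hp hpM A hgen hA u₀ (S33DG_isGen_ne_zero hu₀)
    have hu : S33DG_IsGen p x
        (u₀ * algebraMap ℚbar ↥(modularFunctionFieldBar (M' * p)) c * g ^ p) := by
      have := S40G5W_isGen_mul_triv hu₀ ⟨c, g, hc, hg, rfl⟩
      rwa [← mul_assoc] at this
    obtain ⟨hm, hr⟩ := S40F2NM_red_ne (S34M_T1 M' p A hgen) hv1
    exact ⟨_, hm, hu, hr, S40F2FN_co M' p hp hpM A hA hgen W hΔ hp5 hirr hsq x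
      (hVV0 x hx) _ hu hm hr v (Or.inl h)⟩
  · exact hN W hΔ p hp hp5 hirr M' hpM hsq A hA V hVV0 hV hnew hB hR hK hI x hx hgen s e₁ e₂
      P P' hE hW1 hx' hred hP hP' he₁ he₂ i
  · obtain ⟨u₀, hu₀⟩ := S33DG_isGen_exists p x (hVV0 x hx).1
    obtain ⟨c, g, hc, hg, hv1, -⟩ :=
      S40F2NM_norm M' p hp hpM A hgen hA u₀ (S33DG_isGen_ne_zero hu₀)
    have hu : S33DG_IsGen p x
        (u₀ * algebraMap ℚbar ↥(modularFunctionFieldBar (M' * p)) c * g ^ p) := by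
      have := S40G5W_isGen_mul_triv hu₀ ⟨c, g, hc, hg, rfl⟩
      rwa [← mul_assoc] at this
    obtain ⟨hm, hr⟩ := S40F2NM_red_ne (S34M_T1 M' p A hgen) hv1
    exact ⟨_, hm, hu, hr, S40F2FN_co M' p hp hpM A hA hgen W hΔ hp5 hirr hsq x
      (hVV0 x hx) _ hu hm hr v (Or.inr h)⟩

/-- **(LOC₂)** from (a) and (N₂). -/
theorem S40F2FN_loc2 (hN : S40F2FN_Node2) : S40F2TP_Loc2 := by
  intro W hΔ p hp hp5 hirr M' _ _ _ hpM hsq A hA V hVV0 hV hnew hB hR hK hI x hx hgen v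
  obtain ⟨s, e₁, e₂, P, P', hE, hW1, hx', hred, hP, hP', he₁, he₂⟩ :=
    S40NP_canon M' p hp hpM A hgen hA
  rcases S40OC2_trichotomy M' p hp hpM A hA hgen (A.inertiaSubgroupIn ℚ) le_rfl
    (S40F2PV_unif hp A hA) e₁ e₂ P P' hE hW1 hP hP' he₁ he₂ v with h | ⟨i, rfl⟩ | h
  · obtain ⟨u₀, hu₀⟩ := S33DG_isGen_exists p x (hVV0 x hx).1
    obtain ⟨c, g, hc, hg, -, hv2⟩ :=
      S40F2NM_norm M' p hp hpM A hgen hA u₀ (S33DG_isGen_ne_zero hu₀)
    have hu : S33DG_IsGen p x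
        (u₀ * algebraMap ℚbar ↥(modularFunctionFieldBar (M' * p)) c * g ^ p) := by
      have := S40G5W_isGen_mul_triv hu₀ ⟨c, g, hc, hg, rfl⟩
      rwa [← mul_assoc] at this
    obtain ⟨hm, hr⟩ := S40F2NM_red_ne (S34M_T2 M' p hp hpM A hgen) hv2
    exact ⟨_, hm, hu, hr, S40F2FN_co₂ M' p hp hpM A hA hgen W hΔ hp5 hirr hsq x
      (hVV0 x hx) _ hu hm hr v (Or.inl h)⟩
  · exact hN W hΔ p hp hp5 hirr M' hpM hsq A hA V hVV0 hV hnew hB hR hK hI x hx hgen s e₁ e₂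
      P P' hE hW1 hx' hred hP hP' he₁ he₂ i
  · obtain ⟨u₀, hu₀⟩ := S33DG_isGen_exists p x (hVV0 x hx).1
    obtain ⟨c, g, hc, hg, -, hv2⟩ :=
      S40F2NM_norm M' p hp hpM A hgen hA u₀ (S33DG_isGen_ne_zero hu₀)
    have hu : S33DG_IsGen p x
        (u₀ * algebraMap ℚbar ↥(modularFunctionFieldBar (M' * p)) c * g ^ p) := by
      have := S40G5W_isGen_mul_triv hu₀ ⟨c, g, hc, hg, rfl⟩
      rwa [← mul_assoc] at this
    obtain ⟨hm, hr⟩ := S40F2NM_red_ne (S34M_T2 M' p hp hpM A hgen) hv2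
    exact ⟨_, hm, hu, hr, S40F2FN_co₂ M' p hp hpM A hA hgen W hΔ hp5 hirr hsq x
      (hVV0 x hx) _ hu hm hr v (Or.inr h)⟩

/-- **(F2-OUT), squarefree level, from (a), (N₁), (N₂).** -/
theorem S40F2FN_out (hN₁ : S40F2FN_Node1) (hN₂ : S40F2FN_Node2) :
    S44Q_F2Out :=
  S40F2TP_out (S40F2FN_loc1 hN₁) (S40F2FN_loc2 hN₂)

/-- **(KUM₁), squarefree level, from (a) and (N₁)**: with `S44Y_final` (helper2) this is S44. -/
theorem S40F2FN_kum1 (hN₁ : S40F2FN_Node1) : S44Q_Kum1 :=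
  S40F2TP_kum1 (S40F2FN_loc1 hN₁)

end Fermat.Agent.S40
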