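import Mathlib
import Fermat.Agent.S40.Wire44SqK
import Fermat.Agent.S40.JSym
import Fermat.Agent.S34.WqInst

/-!
# S44 (row 38): `(KUM₁) ⇒ (KUM₂)` by the `w_p`-symmetry (helper2).  Prefix `S44Y_`.

`ω = w_p` on `J₀(M' p)` is an involution commuting with `G_ℚ` and the `T_ℓ`, swapping `α_*`,
`β_*`.  So all the hypotheses of (KUM₁) pass from `V` to `ω V`, and a generator `u'` of `ω x` with
Kummer reduction at `T₁` gives the generator `w_p u'` of `x` with Kummer reduction at `T₂`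
(`red₂ (w_p u') = red₁ (w_p (w_p u')) = red₁ u'`).

* `S44Y_simple`, `S44Y_rel`, `S44Y_ker`, `S44Y_invJ` : transport along an equivariant involution;
* `S44Y_v0`, `S44Y_new` : `w_p` keeps `V₀` and the new classes;
* `S44Y_kum2 : S44Q_Kum1 → S44Q_Kum2`;
* `S44Y_final : S44Q_Kum1 →` frozen S44.
-/

set_option autoImplicit false
set_option linter.style.haveILetI false
set_option linter.unusedSectionVars false
set_option linter.unusedVariables false
set_option synthInstance.maxHeartbeats 400000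
set_option maxHeartbeats 1000000

open AlgebraicCurve ModularCurve IntermediateField

noncomputable section

namespace Fermat.Agent.S40

open WeierstrassCurve
open Fermat.Agent.S17 Fermat.Agent.S18 Fermat.Agent.S19 Fermat.Agent.S24 Fermat.Agent.S34
  Fermat.Agent.S35 Fermat.Agent.S36 Fermat.Agent.S37 Fermat.Agent.GalRep Fermat.Agent.S33

local notation "ℚbar" => AlgebraicClosure ℚ
local notation "GQ" => (AlgebraicClosure ℚ ≃ₐ[ℚ] AlgebraicClosure ℚ)

section abs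

variable {G : Type*} [Group G] {J : Type*} [AddCommGroup J] [DistribMulAction G J]
  (ω : J →+ J) (hωω : ∀ x, ω (ω x) = x) (hωg : ∀ (g : G) (x : J), ω (g • x) = g • ω x)

include hωω in
theorem S44Y_map_map (U : AddSubgroup J) : (U.map ω).map ω = U := by
  ext z
  constructor
  · rintro ⟨_, ⟨y, hy, rfl⟩, rfl⟩
    rw [hωω]
    exact hy
  · intro hz
    exact ⟨ω z, ⟨z, hz, rfl⟩, hωω z⟩

include hωg in
theorem S44Y_stable {V : AddSubgroup J} (hst : S40WA_Stable G V) :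
    S40WA_Stable G (V.map ω) := by
  rintro g _ ⟨x, hx, rfl⟩
  rw [← hωg]
  exact AddSubgroup.mem_map_of_mem ω (hst g x hx)

include hωω hωg in
/-- a simple stable subgroup stays simple under an equivariant involution. -/
theorem S44Y_simple {V : AddSubgroup J} (hV : S40WA_Simple G V) :
    S40WA_Simple G (V.map ω) := by
  obtain ⟨hne, hst, hsimp⟩ := hV
  refine ⟨?_, S44Y_stable ω hωg hst, ?_⟩
  · intro h
    apply hne
    rw [← S44Y_map_map ω hωω V, h]
    exact AddSubgroup.map_bot ω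
  · intro V' hV' hst'
    have h1 : V'.map ω ≤ V := by
      rw [← S44Y_map_map ω hωω V]
      exact AddSubgroup.map_mono hV'
    rcases hsimp _ h1 (S44Y_stable ω hωg hst') with h | h
    · left
      rw [← S44Y_map_map ω hωω V', h]
      exact AddSubgroup.map_bot ω
    · right
      rw [← S44Y_map_map ω hωω V', h]

end abs

section JZ

variable {N : ℕ} (ω : JZero N →+ JZero N)
  (hωg : ∀ (g : GQ) (x : JZero N), ω (g • x) = g • ω x)

include hωg in
theorem S44Y_rel (W : WeierstrassCurve ℤ) (p : ℕ) {V : AddSubgroup (JZero N)}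
    (hR : S40D_Rel W p N V) : S40D_Rel W p N (V.map ω) := by
  intro g
  obtain ⟨t, d, h1, h2, h3⟩ := hR g
  refine ⟨t, d, h1, ?_, h3⟩
  rintro _ ⟨x, hx, rfl⟩
  have := congrArg ω (h2 x hx)
  simp only [map_add, map_sub, map_zsmul, map_nsmul, hωg, map_zero] at this
  exact this

include hωg in
theorem S44Y_ker (W : WeierstrassCurve ℤ) (p : ℕ) {V : AddSubgroup (JZero N)}
    (hK : S40D_Ker W p N V) : S40D_Ker W p N (V.map ω) := by
  intro g hg
  rintro _ ⟨x, hx, rfl⟩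
  rw [← hωg, hK g hg x hx]

include hωg in
theorem S44Y_invJ (A : ValuationSubring ℚbar) (p : ℕ) {V : AddSubgroup (JZero N)}
    (hI : S40D_InvJ N A p V) : S40D_InvJ N A p (V.map ω) := by
  intro β hβ
  obtain ⟨g, hg, h1, h2⟩ := hI β hβ
  refine ⟨g, hg, ?_, h2⟩
  rintro _ ⟨x, hx, rfl⟩
  rw [← hωg, h1 x hx]

end JZ

section inst

variable (M p : ℕ) [NeZero M] [NeZero p] [NeZero (M * p)] (hp : p.Prime) (hpM : ¬ p ∣ M)

/-- `ω = w_p` on `J₀(M p)`. -/
def S44Y_om : JZero (M * p) →+ JZero (M * p) :=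
  S34WJ_pic (S34WJ_wq hp hpM)

theorem S44Y_om_apply (x : JZero (M * p)) :
    S44Y_om M p hp hpM x = S40JS_w M p hp hpM • x := rfl

theorem S44Y_om_om (x : JZero (M * p)) : S44Y_om M p hp hpM (S44Y_om M p hp hpM x) = x :=
  S34WJ_pic_pic hp (S34WJ_wq_isAL hp hpM) x

theorem S44Y_om_gal (g : GQ) (x : JZero (M * p)) :
    S44Y_om M p hp hpM (g • x) = g • S44Y_om M p hp hpM x :=
  S34WJ_pic_galois hp (S34WJ_wq_isAL hp hpM) g x

/-- `w_p` keeps `V₀`. -/
theorem S44Y_v0 (W : WeierstrassCurve ℤ) (x : JZero (M * p)) (hx : x ∈ S40D_V0 W p (M * p)) :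
    S44Y_om M p hp hpM x ∈ S40D_V0 W p (M * p) := by
  obtain ⟨u, hu⟩ := S33DG_isGen_exists p x hx.1
  rw [S44Y_om_apply]
  refine ⟨S33DG_isGen_tors (S40JS_isGen M p hp hpM hu), ?_⟩
  intro ℓ hgood hℓN hℓp
  rw [S40JS_hecke M p hp hpM ℓ hℓN x hx.1, hx.2 ℓ hgood hℓN hℓp]
  exact map_zsmul (DistribSMul.toAddMonoidHom (JZero (M * p)) (S40JS_w M p hp hpM))
    (W.apOfModel (ℓ : ℕ)) x

/-- `w_p` keeps the new classes (`p`-torsion). -/
theorem S44Y_new (x : JZero (M * p)) (hx : p • x = 0) (hnew : S40DJ_New M p x) :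
    S40DJ_New M p (S44Y_om M p hp hpM x) := by
  obtain ⟨u, hu⟩ := S33DG_isGen_exists p x hx
  have hwu : S33DG_IsGen p (S44Y_om M p hp hpM x) (S34DF_wq M p hp hpM u) :=
    S40JS_isGen M p hp hpM hu
  have ha := S33DG_aJ_gen M p hwu
  have hb := S33DG_bJ_gen M p hwu
  have ea : S35B_NA M p (S34DF_wq M p hp hpM u) = S35B_NB M p u :=
    (S34WJ_wq_norm_beta hp hpM u).symm
  have eb : S35B_NB M p (S34DF_wq M p hp hpM u) = S35B_NA M p u :=
    (S34WJ_wq_norm_alpha hp hpM u).symm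
  rw [ea] at ha
  rw [eb] at hb
  exact ⟨S33DG_zero_of_isTriv hp.pos ha (S33DG_bJ_kum M p hu hnew.2),
    S33DG_zero_of_isTriv hp.pos hb (S33DG_aJ_kum M p hu hnew.1)⟩

end inst

section inst2

variable (M p : ℕ) [NeZero M] [NeZero p] [NeZero (M * p)] (hp : p.Prime) (hpM : ¬ p ∣ M)

theorem S44Y_simple_om {V : AddSubgroup (JZero (M * p))} (hV : S40WA_Simple GQ V) :
    S40WA_Simple GQ (V.map (S44Y_om M p hp hpM)) :=
  S44Y_simple (S44Y_om M p hp hpM) (S44Y_om_om M p hp hpM) (S44Y_om_gal M p hp hpM) hV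

theorem S44Y_rel_om (W : WeierstrassCurve ℤ) {V : AddSubgroup (JZero (M * p))}
    (hR : S40D_Rel W p (M * p) V) : S40D_Rel W p (M * p) (V.map (S44Y_om M p hp hpM)) :=
  S44Y_rel (S44Y_om M p hp hpM) (S44Y_om_gal M p hp hpM) W p hR

theorem S44Y_ker_om (W : WeierstrassCurve ℤ) {V : AddSubgroup (JZero (M * p))}
    (hK : S40D_Ker W p (M * p) V) : S40D_Ker W p (M * p) (V.map (S44Y_om M p hp hpM)) :=
  S44Y_ker (S44Y_om M p hp hpM) (S44Y_om_gal M p hp hpM) W p hK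

theorem S44Y_invJ_om (A : ValuationSubring ℚbar) {V : AddSubgroup (JZero (M * p))}
    (hI : S40D_InvJ (M * p) A p V) : S40D_InvJ (M * p) A p (V.map (S44Y_om M p hp hpM)) :=
  S44Y_invJ (S44Y_om M p hp hpM) (S44Y_om_gal M p hp hpM) A p hI

theorem S44Y_v0_om (W : WeierstrassCurve ℤ) {V : AddSubgroup (JZero (M * p))}
    (hVV0 : ∀ x ∈ V, x ∈ S40D_V0 W p (M * p)) :
    ∀ x ∈ V.map (S44Y_om M p hp hpM), x ∈ S40D_V0 W p (M * p) := by
  rintro _ ⟨y, hy, rfl⟩
  exact S44Y_v0 M p hp hpM W y (hVV0 y hy)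

theorem S44Y_new_om (W : WeierstrassCurve ℤ) {V : AddSubgroup (JZero (M * p))}
    (hVV0 : ∀ x ∈ V, x ∈ S40D_V0 W p (M * p)) (hnew : ∀ x ∈ V, S40DJ_New M p x) :
    ∀ x ∈ V.map (S44Y_om M p hp hpM), S40DJ_New M p x := by
  rintro _ ⟨y, hy, rfl⟩
  exact S44Y_new M p hp hpM y (hVV0 y hy).1 (hnew y hy)

/-- a generator of `ω x` gives the generator `w_p u'` of `x`. -/
theorem S44Y_isGen_back {x : JZero (M * p)} {u' : ↥(modularFunctionFieldBar (M * p))}
    (hu' : S33DG_IsGen p (S44Y_om M p hp hpM x) u') :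
    S33DG_IsGen p x (S34DF_wq M p hp hpM u') := by
  have h := S40JS_isGen M p hp hpM hu'
  rw [← S44Y_om_apply, S44Y_om_om] at h
  exact h

variable (A : ValuationSubring ℚbar)
  (hgen : PrincipalGeneratedByIntegral A (IsLocalRing.residue A) (M * p))

/-- `red₂ u = red₁ (w_p u)`, converse direction of `S40JM_kumAt_wq`. -/
theorem S44Y_kumAt_T2 {u : ↥(modularFunctionFieldBar (M * p))}
    (h : S40JM_KumAt (S34M_T1 M p A hgen) p (S34DF_wq M p hp hpM u)) :
    S40JM_KumAt (S34M_T2 M p hp hpM A hgen) p u := by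
  obtain ⟨hu, hk⟩ := h
  exact ⟨hu, hk⟩

theorem S44Y_kumAt_back {u' : ↥(modularFunctionFieldBar (M * p))}
    (h : S40JM_KumAt (S34M_T1 M p A hgen) p u') :
    S40JM_KumAt (S34M_T2 M p hp hpM A hgen) p (S34DF_wq M p hp hpM u') := by
  apply S44Y_kumAt_T2
  rw [S34DF_wq_wq]
  exact h

end inst2

/-- **(KUM₂) from (KUM₁)** by the `w_p`-symmetry (squarefree level). -/
theorem S44Y_kum2 (h1 : S44Q_Kum1) : S44Q_Kum2 := by
  intro W hΔ p hp hp5 hirr M' _ _ _ hpM hsq A hA V hVV0 hV hnew hB hR hK hI x hx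
  obtain ⟨hgen, u', hu', hk⟩ := h1 W hΔ p hp hp5 hirr M' hpM hsq A hA
    (V.map (S44Y_om M' p hp hpM))
    (S44Y_v0_om M' p hp hpM W hVV0) (S44Y_simple_om M' p hp hpM hV)
    (S44Y_new_om M' p hp hpM W hVV0 hnew) hB
    (S44Y_rel_om M' p hp hpM W hR) (S44Y_ker_om M' p hp hpM W hK)
    (S44Y_invJ_om M' p hp hpM A hI)
    (S44Y_om M' p hp hpM x) (AddSubgroup.mem_map_of_mem _ hx)
  exact ⟨hgen, S34DF_wq M' p hp hpM u', S44Y_isGen_back M' p hp hpM hu',
    S44Y_kumAt_back M' p hp hpM A hgen hk⟩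

/-- the same for the statements at all levels. -/
theorem S44Y_kum2_all (h1 : S40F2NM_Kum1) : S44Q_Kum2 :=
  S44Y_kum2 (S44Q_kum1_of h1)

/-- **frozen S44 from (KUM₁) at squarefree levels alone.** -/
theorem S44Y_final (h1 : S44Q_Kum1)
    (P : FreyPackage) {N : ℕ} (hcond : P.IsConductorLevel N) (hpN : P.p ∣ N)
    (hirr : WeierstrassCurve.Affine.Point.GaloisRepIsIrreducible (K := AlgebraicClosure ℚ) ℚ
      P.freyCurve P.p)
    (hmod : P.ModularRepOfLevel N) :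
    ∃ M : ℕ, M ∣ N ∧ ¬ P.p ∣ M ∧ P.ModularRepOfLevel M :=
  S44Q_final_K h1 (S44Y_kum2 h1) P hcond hpN hirr hmod

end Fermat.Agent.S40
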