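import Mathlib
import Fermat.Agent.S40.F2AsmTop
import Fermat.Agent.S40.F2Final
import Fermat.Agent.S40.Wire44Sym

/-!
# TRACK 13 (S40 / S44), the pure WIRE from the node chain to the frozen statement (helper3).
Prefix `S40F2NW_`.

`S40F2AT_node` (helper16) proves (Loc₁) at a canonical node from two leaves `hSTART`, `hHDIV`;
`S40F2FN_kum1` (helper20) needs `S40F2FN_Node1`; `S44Y_final` (helper2) gives the frozen S44 from
`S44Q_Kum1`.  Here the two leaves are stated as `∀`-Props with the FULL context of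
`S40F2FN_Node1` as hypotheses, and the chain is closed:

* `S40F2NW_Start`, `S40F2NW_Hdiv` : the two leaves;
* `S40F2NW_node1 : S40F2NW_Start → S40F2NW_Hdiv → S40F2FN_Node1`;
* `S40F2NW_kum1  : S40F2NW_Start → S40F2NW_Hdiv → S44Q_Kum1`;
* `S40F2NW_final : S40F2NW_Start → S40F2NW_Hdiv → ` the frozen statement S44.
-/

set_option autoImplicit false
set_option linter.style.haveILetI false
set_option linter.unusedSectionVars false
set_option linter.unusedVariables false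
set_option synthInstance.maxHeartbeats 400000
set_option maxHeartbeats 2000000

open HahnSeries IntermediateField AlgebraicCurve ModularCurve

noncomputable section

namespace Fermat.Agent.S40

open WeierstrassCurve
open Fermat.Agent.Lib Fermat.Agent.S17 Fermat.Agent.S18 Fermat.Agent.S19 Fermat.Agent.S24
  Fermat.Agent.S34 Fermat.Agent.S35 Fermat.Agent.S36 Fermat.Agent.S37 Fermat.Agent.GalRep
  Fermat.Agent.S33

local notation "Ω" => AlgebraicClosure ℚ
local notation "Γ" => (AlgebraicClosure ℚ ≃ₐ[ℚ] AlgebraicClosure ℚ)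

/-- **leaf START** with the full context of `S40F2FN_Node1`. -/
def S40F2NW_Start : Prop :=
  ∀ (W : WeierstrassCurve ℤ), W.Δ ≠ 0 → ∀ (p : ℕ) (hp : p.Prime), 5 ≤ p →
    W.ModRepIsIrreducible p → ∀ (M' : ℕ) [NeZero M'] [NeZero p] [NeZero (M' * p)]
    (hpM : ¬ p ∣ M'), Squarefree (M' * p) →
    ∀ (A : ValuationSubring Ω), A.LiesOverPrime p →
    ∀ V : AddSubgroup (JZero (M' * p)),
      (∀ x ∈ V, x ∈ S40D_V0 W p (M' * p)) → S40WA_Simple Γ V →
      (∀ x ∈ V, S40DJ_New M' p x) → S40DJ_CaseB W A p →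
      S40D_Rel W p (M' * p) V → S40D_Ker W p (M' * p) V → S40D_InvJ (M' * p) A p V →
      ∀ x ∈ V, ∀ (hgen : PrincipalGeneratedByIntegral A (IsLocalRing.residue A) (M' * p))
        (ζ₀ : Ω), IsPrimitiveRoot ζ₀ p →
        ∀ (σ : Γ) (H : Subgroup Γ) (π c r : Ω) (t : ℕ),
          S40F2AT_Data M' p A V ζ₀ σ H π c r t →
            S40F2AT_Start M' p hp hpM A hgen ζ₀ σ H t x

/-- **leaf HDIV** (with the coordinate of the node) with the full context of
`S40F2FN_Node1`. -/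
def S40F2NW_Hdiv : Prop :=
  ∀ (W : WeierstrassCurve ℤ), W.Δ ≠ 0 → ∀ (p : ℕ) (hp : p.Prime), 5 ≤ p →
    W.ModRepIsIrreducible p → ∀ (M' : ℕ) [NeZero M'] [NeZero p] [NeZero (M' * p)]
    (hpM : ¬ p ∣ M'), Squarefree (M' * p) →
    ∀ (A : ValuationSubring Ω), A.LiesOverPrime p →
    ∀ V : AddSubgroup (JZero (M' * p)),
      (∀ x ∈ V, x ∈ S40D_V0 W p (M' * p)) → S40WA_Simple Γ V →
      (∀ x ∈ V, S40DJ_New M' p x) → S40DJ_CaseB W A p →
      S40D_Rel W p (M' * p) V → S40D_Ker W p (M' * p) V → S40D_InvJ (M' * p) A p V →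
      ∀ x ∈ V, ∀ (hgen : PrincipalGeneratedByIntegral A (IsLocalRing.residue A) (M' * p))
        (s : ℕ)
        (e₁ : Fin s → ↥(S34M_chart M' p A 1 Nat.one_pos).Rb₁ →ₐ[IsLocalRing.ResidueField A]
          IsLocalRing.ResidueField A)
        (e₂ : Fin s → ↥(S34M_chart M' p A 1 Nat.one_pos).Rb₂ →ₐ[IsLocalRing.ResidueField A]
          IsLocalRing.ResidueField A)
        (P P' : Fin s → Place (IsLocalRing.ResidueField A)
          ↥(modularFunctionFieldFullC (IsLocalRing.ResidueField A) (M' * p))),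
        Function.Surjective (S34B_E e₁ e₂) →
        ∀ (hW1 : S34K_W (S34M_same M' p hp hpM A hgen) (S34M_chart M' p A 1 Nat.one_pos) 1 =
          S34B_W e₁ e₂)
        (hx : S34P_Hyp (S34M_T1 M' p A hgen) (S34M_T2 M' p hp hpM A hgen)
          (S34M_same M' p hp hpM A hgen) (S34PX_j M' p hp hpM A hgen))
        (hred : S34P_red (S34M_T1 M' p A hgen) (S34M_T2 M' p hp hpM A hgen)
          (S34PX_j M' p hp hpM A hgen) = (S34M_xb M' p A, S34M_xb M' p A ^ p)),
        (∀ i, 0 ≤ (P i).ord (S34M_xb M' p A)) → (∀ i, 0 ≤ (P' i).ord (S34M_xb M' p A ^ p)) →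
        (∀ i (a : ↥(S34M_chart M' p A 1 Nat.one_pos).Rb₁), e₁ i a = FD_c0 (P i) (a : _)) →
        (∀ i (b : ↥(S34M_chart M' p A 1 Nat.one_pos).Rb₂), e₂ i b = FD_c0 (P' i) (b : _)) →
        ∀ (i : Fin s) (ζ₀ : Ω), IsPrimitiveRoot ζ₀ p →
        ∀ (σ : Γ) (H : Subgroup Γ) (π c r : Ω) (t : ℕ),
          S40F2AT_Data M' p A V ζ₀ σ H π c r t →
          ∃ (Cn : S40F2N_Coord
              (S40NI_nodeGen (S18_hRR (M' * p)).deg_one 1 Nat.one_pos hx hred e₁ e₂ hW1 i))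
            (e : ℕ) (hXU : S40F2S_IsU (S34M_T1 M' p A hgen).O Cn.X),
            Cn.ϖ = (p : Ω) ^ e ∧
            (P i).ord ((S34M_T1 M' p A hgen).red ⟨Cn.X, hXU.mem⟩) = 1 ∧
            ∀ u₀ : ↥(modularFunctionFieldBar (M' * p)), u₀ ≠ 0 →
              (∀ g ∈ H, GR_gal (M' * p) g u₀ = u₀) →
              (∀ v : Place Ω ↥(modularFunctionFieldBar (M' * p)), (p : ℤ) ∣ v.ord u₀) →
              S40F2AT_Hdiv M' p
                (S40NI_nodeGen (S18_hRR (M' * p)).deg_one 1 Nat.one_pos hx hred e₁ e₂ hW1 i) Cn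
                (S36FI_act (M' * p) H).fixK π c t u₀ (GR_gal (M' * p) σ u₀ / u₀)

/-- **(N₁) from the two leaves.** -/
theorem S40F2NW_node1 (hS : S40F2NW_Start) (hH : S40F2NW_Hdiv) : S40F2FN_Node1 := by
  intro W hΔ p hp hp5 hirr M' _ _ _ hpM hsq A hA V hVV0 hV hnew hB hR hK hI x hx hgen s e₁ e₂
    P P' hE hW1 hx' hred hP hP' he₁ he₂ i
  obtain ⟨ζ₀, hprim⟩ : ∃ ζ : Ω, IsPrimitiveRoot ζ p :=
    HasEnoughRootsOfUnity.exists_primitiveRoot Ω p
  exact S40F2AT_node M' p hp hpM A hA hgen e₁ e₂ P hE hW1 hx' hred hP he₁ W hΔ hp5 hirr V hVV0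
    (fun y hy => (hVV0 y hy).1) (fun g y hy => hV.2.1 g y hy) hB hR hK hI hprim x hx i
    (fun σ H π c r t hD => hS W hΔ p hp hp5 hirr M' hpM hsq A hA V hVV0 hV hnew hB hR hK hI
      x hx hgen ζ₀ hprim σ H π c r t hD)
    (fun σ H π c r t hD => hH W hΔ p hp hp5 hirr M' hpM hsq A hA V hVV0 hV hnew hB hR hK hI
      x hx hgen s e₁ e₂ P P' hE hW1 hx' hred hP hP' he₁ he₂ i ζ₀ hprim σ H π c r t hD)

/-- **(KUM₁) from the two leaves.** -/
theorem S40F2NW_kum1 (hS : S40F2NW_Start) (hH : S40F2NW_Hdiv) : S44Q_Kum1 :=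
  S40F2FN_kum1 (S40F2NW_node1 hS hH)

/-- **the frozen statement S44 from the two leaves.** -/
theorem S40F2NW_final (hS : S40F2NW_Start) (hH : S40F2NW_Hdiv)
    (P : FreyPackage) {N : ℕ} (hcond : P.IsConductorLevel N) (hpN : P.p ∣ N)
    (hirr : WeierstrassCurve.Affine.Point.GaloisRepIsIrreducible (K := AlgebraicClosure ℚ) ℚ
      P.freyCurve P.p)
    (hmod : P.ModularRepOfLevel N) :
    ∃ M : ℕ, M ∣ N ∧ ¬ P.p ∣ M ∧ P.ModularRepOfLevel M :=
  S44Y_final (S40F2NW_kum1 hS hH) P hcond hpN hirr hmod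

end Fermat.Agent.S40
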