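import Fermat.Agent.S40.F2PolyLeaf
import Fermat.Agent.S40.NodeChartI
import Fermat.Agent.S40.F2N9

/-!
# TRACK 13 (S40 / S44), (F2'), leaf (g) AT THE CANONICAL NODES (helper1).  Prefix `S40F2YH_`.

`S40F2YH_hdiv` : the hypothesis `hHDIV` of helper16's `S40F2AT_node` (`S40/F2AsmTop.lean`), with
`S40F2AT_Data` and `S40F2AT_Hdiv` unfolded: at the node `i` of ARBITRARY node data
(`e₁ e₂ P P' hE hW1 hx hred hP hP' he₁ he₂`), for `σ ∈ I¹`, `H ≤ I¹` and the break datum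
`π c r t` of `S40F2GK2_top`, there are a coordinate `Cn` (the one of `S40NX4_exists`, fixed by the
inertia group), of thickness `p ^ e`, with `ord_{P i} (red₁ X) = 1`, such that for every `u₀ ≠ 0`
fixed by `H` with `p ∣ ord_v u₀` at every place the field `hdiv` of `S40F2M2_Gen` holds for
`(u₀, GR_gal σ u₀ / u₀)` with the constants `C₀ = Ω^H`, `π`, `c`.

Everything is discharged inside: `HX` (`S40F2N9_hyp`), `hC` (`S40F2MC_coord`), `hres`, `hσA`
(`S40F2YG_res`), `hact`, `hσZP` (`S40F2YC_act`), `hpow` (`S40F2YP_hpow`), `hσX`, `hHX`, `hσϖ`.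
-/

set_option autoImplicit false
set_option synthInstance.maxHeartbeats 400000
set_option maxHeartbeats 1000000
set_option linter.unusedSectionVars false
set_option linter.unusedVariables false
set_option linter.style.haveILetI false

open HahnSeries IntermediateField AlgebraicCurve ModularCurve

noncomputable section

namespace Fermat.Agent.S40

open Fermat.Agent.Lib Fermat.Agent.S17 Fermat.Agent.S18 Fermat.Agent.S24 Fermat.Agent.S34
  Fermat.Agent.S36 Fermat.Agent.GalRep Fermat.Agent.S33 Fermat.Agent.S19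

local notation "Ω" => AlgebraicClosure ℚ
local notation "Γ" => (AlgebraicClosure ℚ ≃ₐ[ℚ] AlgebraicClosure ℚ)

section top

variable (M p : ℕ) [NeZero (M * p)] [NeZero p] (hp : p.Prime) (hpM : ¬ p ∣ M)
  (A : ValuationSubring Ω) (hA : A.LiesOverPrime p)
  (hgen : PrincipalGeneratedByIntegral A (IsLocalRing.residue A) (M * p))

variable {s : ℕ}
  (e₁ : Fin s → ↥(S34M_chart M p A 1 Nat.one_pos).Rb₁ →ₐ[IsLocalRing.ResidueField A]
    IsLocalRing.ResidueField A)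
  (e₂ : Fin s → ↥(S34M_chart M p A 1 Nat.one_pos).Rb₂ →ₐ[IsLocalRing.ResidueField A]
    IsLocalRing.ResidueField A)
  (P P' : Fin s → Place (IsLocalRing.ResidueField A)
    ↥(modularFunctionFieldFullC (IsLocalRing.ResidueField A) (M * p)))
  (hE : Function.Surjective (S34B_E e₁ e₂))
  (hW1 : S34K_W (S34M_same M p hp hpM A hgen) (S34M_chart M p A 1 Nat.one_pos) 1 =
    S34B_W e₁ e₂)
  (hx : S34P_Hyp (S34M_T1 M p A hgen) (S34M_T2 M p hp hpM A hgen) (S34M_same M p hp hpM A hgen)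
    (S34PX_j M p hp hpM A hgen))
  (hred : S34P_red (S34M_T1 M p A hgen) (S34M_T2 M p hp hpM A hgen)
    (S34PX_j M p hp hpM A hgen) = (S34M_xb M p A, S34M_xb M p A ^ p))
  (hP : ∀ i, 0 ≤ (P i).ord (S34M_xb M p A))
  (hP' : ∀ i, 0 ≤ (P' i).ord (S34M_xb M p A ^ p))
  (he₁ : ∀ i (a : ↥(S34M_chart M p A 1 Nat.one_pos).Rb₁), e₁ i a = FD_c0 (P i) (a : _))
  (he₂ : ∀ i (b : ↥(S34M_chart M p A 1 Nat.one_pos).Rb₂), e₂ i b = FD_c0 (P' i) (b : _))

include hA hE hP hP' he₁ he₂ in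
/-- **leaf (g) at the canonical node `i`** (= `hHDIV` of `S40F2AT_node`, unfolded). -/
theorem S40F2YH_hdiv (i : Fin s) (σ : Γ) (hσ : σ ∈ S40D_I1 A p)
    (H : Subgroup Γ) (hHI : ∀ g ∈ H, g ∈ S40D_I1 A p)
    {π c r ζ₀ : Ω} {t : ℕ} (ht : 1 ≤ t)
    (hπH : ∀ g ∈ H, g π = π) (hcH : ∀ g ∈ H, g c = c)
    (hvπ : A.valuation π ^ p = A.valuation (1 - ζ₀)) (hvc : A.valuation c = 1)
    (hvr : A.valuation r ≤ 1)
    (hunif : σ π = π * (1 + c * π ^ t) + π ^ (t + 2) * r)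
    (hdisc : ∀ x : Ω, x ≠ 0 → (∀ g ∈ H, g x = x) → ∃ k : ℤ, A.valuation x = A.valuation π ^ k)
    (hπ0 : π ≠ 0) (hπ1 : A.valuation π < 1)
    (hζ₀ : A.valuation (1 - ζ₀) ^ (p - 1) = A.valuation (p : Ω)) :
    ∃ (Cn : S40F2N_Coord
        (S40NI_nodeGen (S18_hRR (M * p)).deg_one 1 Nat.one_pos hx hred e₁ e₂ hW1 i))
      (e : ℕ) (hXU : S40F2S_IsU (S34M_T1 M p A hgen).O Cn.X),
      Cn.ϖ = (p : Ω) ^ e ∧
      (P i).ord ((S34M_T1 M p A hgen).red ⟨Cn.X, hXU.mem⟩) = 1 ∧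
      ∀ u₀ : ↥(modularFunctionFieldBar (M * p)), u₀ ≠ 0 →
        (∀ g ∈ H, GR_gal (M * p) g u₀ = u₀) →
        (∀ v : Place Ω ↥(modularFunctionFieldBar (M * p)), (p : ℤ) ∣ v.ord u₀) →
        ∃ (ι : Type) (s' : Finset ι) (w : ι → ↥(modularFunctionFieldBar (M * p)))
          (m : ι → ℤ) (u' E : ↥(modularFunctionFieldBar (M * p))),
          (∀ i' ∈ s', w i' ≠ 0) ∧
          (∀ i' ∈ s', w i' ∈ (S40NI_nodeGen (S18_hRR (M * p)).deg_one 1 Nat.one_pos hx hred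
            e₁ e₂ hW1 i).O₁.nonunits) ∧
          (∀ i' ∈ s', algebraMap Ω ↥(modularFunctionFieldBar (M * p)) Cn.ϖ / w i' ∈
            (S40NI_nodeGen (S18_hRR (M * p)).deg_one 1 Nat.one_pos hx hred
              e₁ e₂ hW1 i).O₂.nonunits) ∧
          S40F2SN_NoZP (S40NI_nodeGen (S18_hRR (M * p)).deg_one 1 Nat.one_pos hx hred
            e₁ e₂ hW1 i) u' ∧
          u₀ = u' * ∏ i' ∈ s', (Cn.X - w i') ^ ((p : ℤ) * m i') ∧
          ∏ i' ∈ s', w i' ^ m i' ∈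
            ((S36FI_act (M * p) H).fixK).map
              (algebraMap Ω ↥(modularFunctionFieldBar (M * p))) ∧
          S40F2K_Reg (S40NI_nodeGen (S18_hRR (M * p)).deg_one 1 Nat.one_pos hx hred
            e₁ e₂ hW1 i) (GR_gal (M * p) σ u₀ / u₀ / E ^ p) ∧
          S40F2J_Cg (S40NI_nodeGen (S18_hRR (M * p)).deg_one 1 Nat.one_pos hx hred
            e₁ e₂ hW1 i).O₁.valuation (algebraMap Ω ↥(modularFunctionFieldBar (M * p)) π) t E 0 ∧
          S40F2J_Cg (S40NI_nodeGen (S18_hRR (M * p)).deg_one 1 Nat.one_pos hx hred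
            e₁ e₂ hW1 i).O₂.valuation (algebraMap Ω ↥(modularFunctionFieldBar (M * p)) π) t E
            (algebraMap Ω ↥(modularFunctionFieldBar (M * p)) c *
              ((S40F2MV_vL (S40NI_nodeGen (S18_hRR (M * p)).deg_one 1 Nat.one_pos hx hred
                e₁ e₂ hW1 i).O₁ (algebraMap Ω ↥(modularFunctionFieldBar (M * p)) π)
                (∏ i' ∈ s', w i' ^ m i') : ℤ) : ↥(modularFunctionFieldBar (M * p)))) := by
  haveI : IsAlgClosed (IsLocalRing.ResidueField A) := S18_residue_isAlgClosed A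
  haveI : Infinite (IsLocalRing.ResidueField A) := IsAlgClosed.instInfinite
  haveI : HasPrincipalDivisors Ω ↥(modularFunctionFieldBar (M * p)) :=
    (S18_hRR (M * p)).principal
  obtain ⟨e, t₀, y₀, w₀, C, Ch, he1, he24, hϖ, hX, hY, hH', hR, hπ', hIX, hIY, hIH, hX₂, hY₁,
      hX₁, hY₂, hordX, hordY, hV2⟩ :=
    S40NX4_exists M p hp hpM A hA hgen e₁ e₂ P P' hE hW1 hx hred hP hP' he₁ he₂ i
  have HX := S40F2N9_hyp M p hp hpM A hA hgen (A.inertiaSubgroupIn ℚ) le_rfl e₁ e₂ hW1 hx hred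
    (p : Ω) (S40F2PV_unif hp A hA) i C Ch hR
  obtain ⟨hNA, hNO₁, hNO₂, hNU, hNε⟩ :=
    S40NX4_node_props M p hp hpM A hgen e₁ e₂ hW1 hx hred i
  have hA₁ : ∀ a : Ω, algebraMap Ω ↥(modularFunctionFieldBar (M * p)) a ∈
      (S40NI_nodeGen (S18_hRR (M * p)).deg_one 1 Nat.one_pos hx hred e₁ e₂ hW1 i).O₁ →
      a ∈ (S40NI_nodeGen (S18_hRR (M * p)).deg_one 1 Nat.one_pos hx hred e₁ e₂ hW1 i).A :=
    fun a h => ((S34M_T1 M p A hgen).algebraMap_mem_iff a).1 h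
  have hA₂ : ∀ a : Ω, algebraMap Ω ↥(modularFunctionFieldBar (M * p)) a ∈
      (S40NI_nodeGen (S18_hRR (M * p)).deg_one 1 Nat.one_pos hx hred e₁ e₂ hW1 i).O₂ →
      a ∈ (S40NI_nodeGen (S18_hRR (M * p)).deg_one 1 Nat.one_pos hx hred e₁ e₂ hW1 i).A :=
    fun a h => ((S34M_T2 M p hp hpM A hgen).algebraMap_mem_iff a).1 h
  have hfin : ∀ g : ↥(modularFunctionFieldBar (M * p)),
      {Q : S40NA_Pt Ω ↥(modularFunctionFieldBar (M * p)) |
        Q ∈ (S40NI_nodeGen (S18_hRR (M * p)).deg_one 1 Nat.one_pos hx hred e₁ e₂ hW1 i).U ∧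
          g ∉ Q.P}.Finite :=
    fun g => S40NI_poles_finite (S18_hRR (M * p)).deg_one (jB (M * p)) g
  have hVp : (S40NI_nodeGen (S18_hRR (M * p)).deg_one 1 Nat.one_pos hx hred e₁ e₂
      hW1 i).A.valuation (p : Ω) < 1 := by
    have h1 : A.valuation (1 - ζ₀) < 1 := by
      rw [← hvπ]
      exact pow_lt_one₀ zero_le hπ1 hp.ne_zero
    have h2 : A.valuation (p : Ω) < 1 := by
      rw [← hζ₀]
      exact pow_lt_one₀ zero_le h1 (by have := hp.two_le; omega)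
    exact h2
  have hπC : π ∈ (S36FI_act (M * p) H).fixK := (S36FI_mem_fixK (M * p) H).2 hπH
  have hcC : c ∈ (S36FI_act (M * p) H).fixK := (S36FI_mem_fixK (M * p) H).2 hcH
  have hval : ∀ x ∈ (S36FI_act (M * p) H).fixK, x ≠ 0 →
      ∃ j : ℤ, A.valuation x = A.valuation π ^ j :=
    fun x hx hx0 => hdisc x hx0 ((S36FI_mem_fixK (M * p) H).1 hx)
  have hC := S40F2MC_coord
    (S40NI_nodeGen (S18_hRR (M * p)).deg_one 1 Nat.one_pos hx hred e₁ e₂ hW1 i) C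
    (S36FI_act (M * p) H).fixK hp e hϖ hA₁ hA₂ hπC hπ0 hπ1 hval hcC hvc hVp hfin hvπ hζ₀
  refine ⟨C, e, S40F2SC_hX C, hϖ, hordX, fun u₀ hu0 huH hdvd => ?_⟩
  exact S40F2YG_hdiv M p hp hpM A hgen
    (S40NI_nodeGen (S18_hRR (M * p)).deg_one 1 Nat.one_pos hx hred e₁ e₂ hW1 i)
    hNA hNO₁ hNO₂ hNU hNε hA C HX hIX e hϖ H (fun g hg => (S40D_mem_I1.1 (hHI g hg)).1)
    (S36FI_act (M * p) H).fixK (fun b => S36FI_mem_fixK (M * p) H) ht hC hπH hπ0 hπ1 hdisc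
    hvc.le hvr σ (S40D_mem_I1.1 hσ).1 hunif hu0 huH hdvd

end top

end Fermat.Agent.S40
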