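import Mathlib
import Fermat.Agent.S40.F2NodeW
import Fermat.Agent.S40.F2PolyTop

/-!
# TRACK 13 (S40 / S44), the pure WIRE, second form (helper3).  Prefix `S40F2NW_`.

* `S40F2NW_hdiv : S40F2NW_Hdiv` : the leaf HDIV is `S40F2YH_hdiv` (helper1);
* `S40F2NW_StartN` : the leaf START with the NODE DATA `s e₁ e₂ P P' hE … he₂` and the node
  `i : Fin s` IN ITS CONTEXT (they come before `ζ₀ σ H π c r t`);
* `S40F2NW_node1N : S40F2NW_StartN → S40F2FN_Node1`;
* `S40F2NW_finalN : S40F2NW_StartN → ` the frozen statement S44.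
-/

set_option autoImplicit false
set_option linter.style.haveILetI false
set_option linter.unusedSectionVars false
set_option linter.unusedVariables false
set_option synthInstance.maxHeartbeats 400000
set_option maxHeartbeats 2000000

open HahnSeries IntermediateField AlgebraicCurve ModularCurve

noncomputable section

namespace Fermat.Agent.S40

open WeierstrassCurve
open Fermat.Agent.Lib Fermat.Agent.S17 Fermat.Agent.S18 Fermat.Agent.S19 Fermat.Agent.S24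
  Fermat.Agent.S34 Fermat.Agent.S35 Fermat.Agent.S36 Fermat.Agent.S37 Fermat.Agent.GalRep
  Fermat.Agent.S33

local notation "Ω" => AlgebraicClosure ℚ
local notation "Γ" => (AlgebraicClosure ℚ ≃ₐ[ℚ] AlgebraicClosure ℚ)

/-- **the leaf HDIV holds** (helper1's `S40F2YH_hdiv`). -/
theorem S40F2NW_hdiv : S40F2NW_Hdiv := by
  intro W hΔ p hp hp5 hirr M' _ _ _ hpM hsq A hA V hVV0 hV hnew hB hR hK hI x hx hgen s e₁ e₂
    P P' hE hW1 hx' hred hP hP' he₁ he₂ i ζ₀ hprim σ H π c r t hD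
  obtain ⟨⟨hσ, hHV, hcyc, hσpV, hz, hHI, hdec, hconj, hnorm, hσp⟩, ht1, htp, hπH, hcH, hrH, hvπ,
    hvc, hvr, hunif, hdisc, hπC, hπ0, hπ1, hval, hcC, hζ₀⟩ := hD
  exact S40F2YH_hdiv M' p hp hpM A hA hgen e₁ e₂ P P' hE hW1 hx' hred hP hP' he₁ he₂ i σ hσ H hHI
    ht1 hπH hcH hvπ hvc hvr hunif hdisc hπ0 hπ1 hζ₀

/-- **leaf START with the node in its context.** -/
def S40F2NW_StartN : Prop :=
  ∀ (W : WeierstrassCurve ℤ), W.Δ ≠ 0 → ∀ (p : ℕ) (hp : p.Prime), 5 ≤ p →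
    W.ModRepIsIrreducible p → ∀ (M' : ℕ) [NeZero M'] [NeZero p] [NeZero (M' * p)]
    (hpM : ¬ p ∣ M'), Squarefree (M' * p) →
    ∀ (A : ValuationSubring Ω), A.LiesOverPrime p →
    ∀ V : AddSubgroup (JZero (M' * p)),
      (∀ x ∈ V, x ∈ S40D_V0 W p (M' * p)) → S40WA_Simple Γ V →
      (∀ x ∈ V, S40DJ_New M' p x) → S40DJ_CaseB W A p →
      S40D_Rel W p (M' * p) V → S40D_Ker W p (M' * p) V → S40D_InvJ (M' * p) A p V →
      ∀ x ∈ V, ∀ (hgen : PrincipalGeneratedByIntegral A (IsLocalRing.residue A) (M' * p))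
        (s : ℕ)
        (e₁ : Fin s → ↥(S34M_chart M' p A 1 Nat.one_pos).Rb₁ →ₐ[IsLocalRing.ResidueField A]
          IsLocalRing.ResidueField A)
        (e₂ : Fin s → ↥(S34M_chart M' p A 1 Nat.one_pos).Rb₂ →ₐ[IsLocalRing.ResidueField A]
          IsLocalRing.ResidueField A)
        (P P' : Fin s → Place (IsLocalRing.ResidueField A)
          ↥(modularFunctionFieldFullC (IsLocalRing.ResidueField A) (M' * p))),
        Function.Surjective (S34B_E e₁ e₂) →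
        S34K_W (S34M_same M' p hp hpM A hgen) (S34M_chart M' p A 1 Nat.one_pos) 1 =
          S34B_W e₁ e₂ →
        S34P_Hyp (S34M_T1 M' p A hgen) (S34M_T2 M' p hp hpM A hgen)
          (S34M_same M' p hp hpM A hgen) (S34PX_j M' p hp hpM A hgen) →
        S34P_red (S34M_T1 M' p A hgen) (S34M_T2 M' p hp hpM A hgen)
          (S34PX_j M' p hp hpM A hgen) = (S34M_xb M' p A, S34M_xb M' p A ^ p) →
        (∀ i, 0 ≤ (P i).ord (S34M_xb M' p A)) → (∀ i, 0 ≤ (P' i).ord (S34M_xb M' p A ^ p)) →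
        (∀ i (a : ↥(S34M_chart M' p A 1 Nat.one_pos).Rb₁), e₁ i a = FD_c0 (P i) (a : _)) →
        (∀ i (b : ↥(S34M_chart M' p A 1 Nat.one_pos).Rb₂), e₂ i b = FD_c0 (P' i) (b : _)) →
        ∀ (i : Fin s) (ζ₀ : Ω), IsPrimitiveRoot ζ₀ p →
        ∀ (σ : Γ) (H : Subgroup Γ) (π c r : Ω) (t : ℕ),
          S40F2AT_Data M' p A V ζ₀ σ H π c r t →
            S40F2AT_Start M' p hp hpM A hgen ζ₀ σ H t x

/-- **(N₁) from the leaf START (node in context).** -/
theorem S40F2NW_node1N (hS : S40F2NW_StartN) : S40F2FN_Node1 := by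
  intro W hΔ p hp hp5 hirr M' _ _ _ hpM hsq A hA V hVV0 hV hnew hB hR hK hI x hx hgen s e₁ e₂
    P P' hE hW1 hx' hred hP hP' he₁ he₂ i
  obtain ⟨ζ₀, hprim⟩ : ∃ ζ : Ω, IsPrimitiveRoot ζ p :=
    HasEnoughRootsOfUnity.exists_primitiveRoot Ω p
  exact S40F2AT_node M' p hp hpM A hA hgen e₁ e₂ P hE hW1 hx' hred hP he₁ W hΔ hp5 hirr V hVV0
    (fun y hy => (hVV0 y hy).1) (fun g y hy => hV.2.1 g y hy) hB hR hK hI hprim x hx i
    (fun σ H π c r t hD => hS W hΔ p hp hp5 hirr M' hpM hsq A hA V hVV0 hV hnew hB hR hK hI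
      x hx hgen s e₁ e₂ P P' hE hW1 hx' hred hP hP' he₁ he₂ i ζ₀ hprim σ H π c r t hD)
    (fun σ H π c r t hD => S40F2NW_hdiv W hΔ p hp hp5 hirr M' hpM hsq A hA V hVV0 hV hnew hB hR
      hK hI x hx hgen s e₁ e₂ P P' hE hW1 hx' hred hP hP' he₁ he₂ i ζ₀ hprim σ H π c r t hD)

/-- **the frozen statement S44 from the leaf START (node in context).** -/
theorem S40F2NW_finalN (hS : S40F2NW_StartN)
    (P : FreyPackage) {N : ℕ} (hcond : P.IsConductorLevel N) (hpN : P.p ∣ N)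
    (hirr : WeierstrassCurve.Affine.Point.GaloisRepIsIrreducible (K := AlgebraicClosure ℚ) ℚ
      P.freyCurve P.p)
    (hmod : P.ModularRepOfLevel N) :
    ∃ M : ℕ, M ∣ N ∧ ¬ P.p ∣ M ∧ P.ModularRepOfLevel M :=
  S44Y_final (S40F2FN_kum1 (S40F2NW_node1N hS)) P hcond hpN hirr hmod

end Fermat.Agent.S40
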