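import Fermat.Agent.S33.NewDisc
import Fermat.Agent.S40.F2Slope

/-!
# TRACK 13 (row 38), (F2'), field `hu₂` of `S40F2M_Gen` (helper7).  Prefix `S40F2VG_`.

Level `M p` (`p ∤ M` prime), `A ⊂ Ω = ℚ̄` over `p`, `H ⊂ G_ℚ` ANY set, `π ∈ Ω` fixed by `H` with
`0 < v(π) < 1` such that every `H`-fixed constant `c ≠ 0` has `v(c) ∈ v(π)^ℤ` (the last clause of
`S40F2B_main`).  Then every `H`-fixed modular function `u ≠ 0` of level `M p` (fixed =
coefficientwise, as delivered by `S40F2D_gen_fixed`) is a power of `π` times a unit at each of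
the two Gauss valuations `V₁ = S34DF_O1`, `V₂ = S34DF_O2`:

* `S40F2VG_fixed_closure` : fixed by `H` ⇒ fixed by the subgroup generated by `H`;
* `S40F2VG_unif` : `π` is a uniformiser of `A ∩ Ω^⟨H⟩` (`S33NL2_Unif`);
* **`S40F2VG_V1`** : `∃ n : ℤ, S40F2S_IsU O₁ (u / π ^ n)`;
* **`S40F2VG_V2`** : `∃ n : ℤ, S40F2S_IsU O₂ (u / π ^ n)`;
* `S40F2VG_main` : both.
-/

set_option autoImplicit false
set_option linter.unusedSectionVars false
set_option linter.unusedVariables false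
set_option linter.style.haveILetI false
set_option synthInstance.maxHeartbeats 400000
set_option maxHeartbeats 1000000

open HahnSeries ModularCurve IntermediateField

namespace Fermat.Agent.S40

open Fermat.Agent.S18 Fermat.Agent.S24 Fermat.Agent.S34 Fermat.Agent.S36 Fermat.Agent.GalRep
  Fermat.Agent.S33

local notation "Ω" => AlgebraicClosure ℚ

/-- fixed by a set `H` ⇒ fixed by the subgroup generated by `H`. -/
theorem S40F2VG_fixed_closure (H : Set (Ω ≃ₐ[ℚ] Ω)) {c : Ω} (h : ∀ g ∈ H, g c = c) :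
    ∀ g ∈ Subgroup.closure H, g c = c := by
  intro g hg
  induction hg using Subgroup.closure_induction with
  | mem x hx => exact h x hx
  | one => rfl
  | mul x y _ _ hx hy => rw [AlgEquiv.mul_apply, hy, hx]
  | inv x _ hx =>
    have h1 : x⁻¹ (x c) = c := by
      rw [← AlgEquiv.mul_apply, inv_mul_cancel, AlgEquiv.one_apply]
    rw [hx] at h1
    exact h1

/-- `π` is a uniformiser of `A ∩ Ω^⟨H⟩`. -/
theorem S40F2VG_unif (A : ValuationSubring Ω) (H : Set (Ω ≃ₐ[ℚ] Ω)) {π : Ω}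
    (hπH : ∀ g ∈ H, g π = π) (hπ0 : π ≠ 0) (hπ1 : A.valuation π < 1)
    (hval : ∀ x : Ω, x ≠ 0 → (∀ g ∈ H, g x = x) → ∃ k : ℤ, A.valuation x = A.valuation π ^ k) :
    S33NL2_Unif A (Subgroup.closure H) π where
  fixed := S40F2VG_fixed_closure H hπH
  lt_one := hπ1
  ne_zero := hπ0
  dv := by
    intro x hx hx0
    obtain ⟨m, hm⟩ := hval x hx0 (fun g hg => hx g (Subgroup.subset_closure hg))
    have hw0 : A.valuation π ≠ 0 := (map_ne_zero _).mpr hπ0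
    exact ⟨-m, by rw [map_mul, map_zpow₀, hm, ← zpow_add₀ hw0, add_neg_cancel, zpow_zero]⟩

variable (M p : ℕ) [NeZero (M * p)] (hp : p.Prime) (hpM : ¬ p ∣ M)
  (A : ValuationSubring Ω) (hA : A.LiesOverPrime p)
  (hgen : PrincipalGeneratedByIntegral A (IsLocalRing.residue A) (M * p))

/-- a function with `H`-fixed coefficients lies in the fixed field of `⟨H⟩`. -/
theorem S40F2VG_mem_fixF (H : Set (Ω ≃ₐ[ℚ] Ω)) (u : ↥(modularFunctionFieldBar (M * p)))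
    (hu : ∀ τ ∈ H, ∀ k : ℤ, τ ((u : LaurentSeries Ω).coeff k) = (u : LaurentSeries Ω).coeff k) :
    u ∈ (S36FI_act (M * p) (Subgroup.closure H)).fixF := by
  rw [S36FI_mem_fixF_iff_coeff]
  intro k
  rw [S36FI_mem_fixK]
  exact S40F2VG_fixed_closure H (fun g hg => hu g hg k)

include hp hpM hA in
/-- **`hu₁`-shape**: an `H`-fixed `u ≠ 0` is `π ^ n ·` (unit of `O₁`). -/
theorem S40F2VG_V1 (H : Set (Ω ≃ₐ[ℚ] Ω)) {π : Ω}
    (hπH : ∀ g ∈ H, g π = π) (hπ0 : π ≠ 0) (hπ1 : A.valuation π < 1)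
    (hval : ∀ x : Ω, x ≠ 0 → (∀ g ∈ H, g x = x) → ∃ k : ℤ, A.valuation x = A.valuation π ^ k)
    (u : ↥(modularFunctionFieldBar (M * p))) (hu0 : u ≠ 0)
    (hu : ∀ τ ∈ H, ∀ k : ℤ, τ ((u : LaurentSeries Ω).coeff k) = (u : LaurentSeries Ω).coeff k) :
    ∃ n : ℤ, S40F2S_IsU (S34DF_O1 M p A hgen)
      (u / algebraMap Ω ↥(modularFunctionFieldBar (M * p)) π ^ n) := by
  haveI : NeZero p := ⟨hp.ne_zero⟩
  haveI : NeZero M := ⟨fun h0 => NeZero.ne (M * p) (by rw [h0, zero_mul])⟩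
  have h := S40F2VG_unif A H hπH hπ0 hπ1 hval
  have hπF : algebraMap Ω ↥(modularFunctionFieldBar (M * p)) π ≠ 0 := (map_ne_zero _).mpr hπ0
  obtain ⟨k, hk1, hk2⟩ := S33NL2_dv_F M p hp A hA (Subgroup.closure H) h u
    (S40F2VG_mem_fixF M p H u hu) hu0
  rw [map_zpow₀] at hk1 hk2
  have h1 : u * algebraMap Ω ↥(modularFunctionFieldBar (M * p)) π ^ k ∈ S34DF_O1 M p A hgen :=
    S36NR_G_le_S18 M p hp hpM A hA hk1
  have h2 : (u * algebraMap Ω ↥(modularFunctionFieldBar (M * p)) π ^ k)⁻¹ ∈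
      S34DF_O1 M p A hgen := S36NR_G_le_S18 M p hp hpM A hA hk2
  refine ⟨-k, ?_⟩
  have e : u / algebraMap Ω ↥(modularFunctionFieldBar (M * p)) π ^ (-k) =
      u * algebraMap Ω ↥(modularFunctionFieldBar (M * p)) π ^ k := by
    rw [zpow_neg, div_eq_mul_inv, inv_inv]
  rw [e, S40F2S_isU_iff]
  exact ⟨h1, h2, mul_ne_zero hu0 (zpow_ne_zero _ hπF)⟩

include hA in
/-- **`hu₂`-shape**: an `H`-fixed `u ≠ 0` is `π ^ n ·` (unit of `O₂`). -/
theorem S40F2VG_V2 (H : Set (Ω ≃ₐ[ℚ] Ω)) {π : Ω}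
    (hπH : ∀ g ∈ H, g π = π) (hπ0 : π ≠ 0) (hπ1 : A.valuation π < 1)
    (hval : ∀ x : Ω, x ≠ 0 → (∀ g ∈ H, g x = x) → ∃ k : ℤ, A.valuation x = A.valuation π ^ k)
    (u : ↥(modularFunctionFieldBar (M * p))) (hu0 : u ≠ 0)
    (hu : ∀ τ ∈ H, ∀ k : ℤ, τ ((u : LaurentSeries Ω).coeff k) = (u : LaurentSeries Ω).coeff k) :
    ∃ n : ℤ, S40F2S_IsU (S34DF_O2 M p hp hpM A hgen)
      (u / algebraMap Ω ↥(modularFunctionFieldBar (M * p)) π ^ n) := by
  haveI : NeZero p := ⟨hp.ne_zero⟩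
  haveI : NeZero M := ⟨fun h0 => NeZero.ne (M * p) (by rw [h0, zero_mul])⟩
  have h := S40F2VG_unif A H hπH hπ0 hπ1 hval
  have hπF : algebraMap Ω ↥(modularFunctionFieldBar (M * p)) π ≠ 0 := (map_ne_zero _).mpr hπ0
  have hx := S40F2VG_mem_fixF M p H u hu
  have hwx : S34DF_wq M p hp hpM u ∈ (S36FI_act (M * p) (Subgroup.closure H)).fixF :=
    S33NL2_wq_fix M p hp hpM (Subgroup.closure H) u hx
  have hwx0 : S34DF_wq M p hp hpM u ≠ 0 := (map_ne_zero _).mpr hu0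
  obtain ⟨k, hk1, hk2⟩ := S33NL2_dv_F M p hp A hA (Subgroup.closure H) h _ hwx hwx0
  rw [map_zpow₀] at hk1 hk2
  have e : S34DF_wq M p hp hpM (u * algebraMap Ω ↥(modularFunctionFieldBar (M * p)) π ^ k) =
      S34DF_wq M p hp hpM u * algebraMap Ω ↥(modularFunctionFieldBar (M * p)) π ^ k := by
    rw [map_mul, map_zpow₀, AlgEquiv.commutes]
  have h1 : u * algebraMap Ω ↥(modularFunctionFieldBar (M * p)) π ^ k ∈
      S34DF_O2 M p hp hpM A hgen := by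
    show S34DF_wq M p hp hpM _ ∈ S18_O A (M * p)
    rw [e]
    exact S36NR_G_le_S18 M p hp hpM A hA hk1
  have h2 : (u * algebraMap Ω ↥(modularFunctionFieldBar (M * p)) π ^ k)⁻¹ ∈
      S34DF_O2 M p hp hpM A hgen := by
    show S34DF_wq M p hp hpM _ ∈ S18_O A (M * p)
    rw [map_inv₀, e]
    exact S36NR_G_le_S18 M p hp hpM A hA hk2
  refine ⟨-k, ?_⟩
  have e' : u / algebraMap Ω ↥(modularFunctionFieldBar (M * p)) π ^ (-k) =
      u * algebraMap Ω ↥(modularFunctionFieldBar (M * p)) π ^ k := by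
    rw [zpow_neg, div_eq_mul_inv, inv_inv]
  rw [e', S40F2S_isU_iff]
  exact ⟨h1, h2, mul_ne_zero hu0 (zpow_ne_zero _ hπF)⟩

include hA in
/-- both valuations. -/
theorem S40F2VG_main (H : Set (Ω ≃ₐ[ℚ] Ω)) {π : Ω}
    (hπH : ∀ g ∈ H, g π = π) (hπ0 : π ≠ 0) (hπ1 : A.valuation π < 1)
    (hval : ∀ x : Ω, x ≠ 0 → (∀ g ∈ H, g x = x) → ∃ k : ℤ, A.valuation x = A.valuation π ^ k)
    (u : ↥(modularFunctionFieldBar (M * p))) (hu0 : u ≠ 0)
    (hu : ∀ τ ∈ H, ∀ k : ℤ, τ ((u : LaurentSeries Ω).coeff k) = (u : LaurentSeries Ω).coeff k) :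
    (∃ n : ℤ, S40F2S_IsU (S34DF_O1 M p A hgen)
      (u / algebraMap Ω ↥(modularFunctionFieldBar (M * p)) π ^ n)) ∧
    ∃ n : ℤ, S40F2S_IsU (S34DF_O2 M p hp hpM A hgen)
      (u / algebraMap Ω ↥(modularFunctionFieldBar (M * p)) π ^ n) :=
  ⟨S40F2VG_V1 M p hp hpM A hA hgen H hπH hπ0 hπ1 hval u hu0 hu,
    S40F2VG_V2 M p hp hpM A hA hgen H hπH hπ0 hπ1 hval u hu0 hu⟩

end Fermat.Agent.S40
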