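import Fermat.Agent.S40.F2PV
import Fermat.Agent.S34.Asm4
import Fermat.Agent.S34.RedOneInst

/-!
# TRACK 13 (S40, row 38), (R2)/(F2'): the inertia group keeps the two Gauss valuations
(helper12).  Prefix `S40GV_`.

Level `M p`, `p ∤ M` prime, `A ⊂ ℚ̄` a valuation ring, `τ` in the inertia group of `A`, acting on
`F = ℚ̄(X₀(Mp))` on the `q`-coefficients (`GR_gal (M * p) τ`).

* `S40GV_abs` (abstract): a ring endomorphism `σ` of a field `F` with `σ O ⊆ O`, such that every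
  `x ≠ 0` is `c · u` with `u` a unit of `O` and `σ c / c` a unit of `O`, satisfies
  `V (σ x) = V x` for the valuation `V` of `O`.
* **`S40GV_V1`** : `V₁ (τ x) = V₁ x`;  **`S40GV_V2`** : `V₂ (τ x) = V₂ x`
  (`V₁ = (S34M_T1 M p A hgen).O.valuation`, `V₂ = (S34M_T2 M p hp hpM A hgen).O.valuation`):
  the hypotheses `hσV₁`, `hσV₂` of helper28's `S40R2T_val`.
* `S40GV_V1_mem`, `S40GV_V2_mem` : `τ x ∈ O_j ↔ x ∈ O_j`; `S40GV_V1_lt`, `S40GV_V2_lt`.
-/

set_option autoImplicit false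
set_option synthInstance.maxHeartbeats 400000
set_option maxHeartbeats 1000000
set_option linter.unusedSectionVars false
set_option linter.unusedVariables false
set_option linter.style.haveILetI false

open HahnSeries IntermediateField AlgebraicCurve ModularCurve

noncomputable section

namespace Fermat.Agent.S40

open Fermat.Agent.Lib Fermat.Agent.S18 Fermat.Agent.S24 Fermat.Agent.S34 Fermat.Agent.S36
  Fermat.Agent.GalRep Fermat.Agent.S33

local notation "Ω" => AlgebraicClosure ℚ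

section abs

variable {F : Type*} [Field F]

/-- `y, y⁻¹ ∈ O`, `y ≠ 0` ⇒ `v(y) = 1`. -/
theorem S40GV_val_one (O : ValuationSubring F) {y : F} (hy0 : y ≠ 0)
    (h1 : y ∈ O) (h2 : y⁻¹ ∈ O) : O.valuation y = 1 := by
  refine le_antisymm ((O.valuation_le_one_iff y).mpr h1) ?_
  have h3 : O.valuation y⁻¹ ≤ 1 := (O.valuation_le_one_iff _).mpr h2
  rw [map_inv₀] at h3
  have h0 : O.valuation y ≠ 0 := (map_ne_zero _).mpr hy0
  exact (inv_le_one₀ (zero_lt_iff.mpr h0)).mp h3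

/-- **abstract form**: `σ O ⊆ O`, every `x ≠ 0` is `c · u` with `u ∈ O^×` and `σ c / c ∈ O^×`
⇒ `V ∘ σ = V`. -/
theorem S40GV_abs (O : ValuationSubring F) (σ : F →+* F) (hO : ∀ f ∈ O, σ f ∈ O)
    (hdec : ∀ x : F, x ≠ 0 → ∃ c u : F, x = c * u ∧ u ∈ O ∧ u⁻¹ ∈ O ∧ c ≠ 0 ∧
      σ c / c ∈ O ∧ c / σ c ∈ O) (x : F) :
    O.valuation (σ x) = O.valuation x := by
  rcases eq_or_ne x 0 with rfl | hx0
  · rw [map_zero]
  obtain ⟨c, u, rfl, hu, hui, hc0, h1, h2⟩ := hdec x hx0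
  have hu0 : u ≠ 0 := right_ne_zero_of_mul hx0
  have hσc0 : σ c ≠ 0 := (map_ne_zero σ).mpr hc0
  have hσu0 : σ u ≠ 0 := (map_ne_zero σ).mpr hu0
  have hvu : O.valuation u = 1 := S40GV_val_one O hu0 hu hui
  have hvσu : O.valuation (σ u) = 1 := by
    refine S40GV_val_one O hσu0 (hO u hu) ?_
    rw [← map_inv₀]
    exact hO _ hui
  have hq0 : σ c / c ≠ 0 := div_ne_zero hσc0 hc0
  have hvq : O.valuation (σ c / c) = 1 := by
    refine S40GV_val_one O hq0 h1 ?_
    rw [inv_div]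
    exact h2
  have hvc : O.valuation (σ c) = O.valuation c := by
    have e : σ c = σ c / c * c := by
      rw [div_mul_cancel₀ _ hc0]
    rw [e, map_mul, hvq, one_mul]
  rw [map_mul, map_mul, map_mul, hvu, hvσu, hvc]

end abs

section inst

variable (M p : ℕ) [NeZero (M * p)] [NeZero p] (hp : p.Prime) (hpM : ¬ p ∣ M)
  (A : ValuationSubring Ω)
  (hgen : PrincipalGeneratedByIntegral A (IsLocalRing.residue A) (M * p))

/-- the inertia group preserves the valuation of `A`: `τ c / c` is a unit of `A`. -/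
theorem S40GV_const_unit {τ : Ω ≃ₐ[ℚ] Ω} (hτ : τ ∈ A.inertiaSubgroupIn ℚ) {c : Ω} (hc : c ≠ 0) :
    τ c / c ∈ A ∧ c / τ c ∈ A := by
  have hdec : τ ∈ A.decompositionSubgroup ℚ := by
    obtain ⟨g, -, rfl⟩ := hτ
    exact g.2
  have hv : A.valuation (τ c) = A.valuation c := S36BL_dec_val A hdec c
  have hc0 : A.valuation c ≠ 0 := (map_ne_zero _).mpr hc
  have hτc : τ c ≠ 0 := (map_ne_zero τ).mpr hc
  have hτc0 : A.valuation (τ c) ≠ 0 := (map_ne_zero _).mpr hτc
  constructor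
  · rw [← A.valuation_le_one_iff, map_div₀, hv, div_self hc0]
  · rw [← A.valuation_le_one_iff, map_div₀, hv, div_self hc0]

include hp hpM in
/-- **`V₁ ∘ τ = V₁`** for `τ` in the inertia group. -/
theorem S40GV_V1 {τ : Ω ≃ₐ[ℚ] Ω} (hτ : τ ∈ A.inertiaSubgroupIn ℚ)
    (x : ↥(modularFunctionFieldBar (M * p))) :
    (S34M_T1 M p A hgen).O.valuation (GR_gal (M * p) τ x) =
      (S34M_T1 M p A hgen).O.valuation x := by
  obtain ⟨hgO₁, -, -⟩ := S34M_straightTau M p hp hpM A hgen 1 one_pos τ hτ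
  refine S40GV_abs (S34M_T1 M p A hgen).O
    ((GR_gal (M * p) τ : ↥(modularFunctionFieldBar (M * p)) ≃+* ↥(modularFunctionFieldBar (M * p))) :
      ↥(modularFunctionFieldBar (M * p)) →+* ↥(modularFunctionFieldBar (M * p)))
    hgO₁ ?_ x
  intro y hy0
  obtain ⟨c, hc, hv⟩ := S34R_gauss_const (M * p) A hgen y hy0
  have hcF : algebraMap Ω ↥(modularFunctionFieldBar (M * p)) c ≠ 0 := (map_ne_zero _).mpr hc
  have hmem : ∀ z : ↥(modularFunctionFieldBar (M * p)),
      z ∈ (S18_gaussModL (M * p) A hgen).O → z ∈ (S34M_T1 M p A hgen).O := by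
    intro z hz
    rw [S34M_T1_O]
    exact hz
  have hu0 : y * (algebraMap Ω ↥(modularFunctionFieldBar (M * p)) c)⁻¹ ≠ 0 :=
    mul_ne_zero hy0 (inv_ne_zero hcF)
  refine ⟨algebraMap Ω ↥(modularFunctionFieldBar (M * p)) c,
    y * (algebraMap Ω ↥(modularFunctionFieldBar (M * p)) c)⁻¹, ?_, ?_, ?_, hcF, ?_, ?_⟩
  · rw [mul_comm y, ← mul_assoc, mul_inv_cancel₀ hcF, one_mul]
  · exact hmem _ (((S18_gaussModL (M * p) A hgen).O.valuation_le_one_iff _).1 (le_of_eq hv))
  · refine hmem _ (((S18_gaussModL (M * p) A hgen).O.valuation_le_one_iff _).1 ?_)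
    rw [map_inv₀, hv, inv_one]
  · have e : ((GR_gal (M * p) τ : ↥(modularFunctionFieldBar (M * p)) ≃+*
        ↥(modularFunctionFieldBar (M * p))) : ↥(modularFunctionFieldBar (M * p)) →+*
        ↥(modularFunctionFieldBar (M * p)))
        (algebraMap Ω ↥(modularFunctionFieldBar (M * p)) c) /
          algebraMap Ω ↥(modularFunctionFieldBar (M * p)) c =
        algebraMap Ω ↥(modularFunctionFieldBar (M * p)) (τ c / c) := by
      rw [map_div₀]
      congr 1
      exact arithmeticRingAut_algebraMap (modularFunctionFieldFull (M * p)) τ c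
    rw [e, S34M_T1_O]
    exact (S33ND_const_O1_iff M p A hgen).2 (S40GV_const_unit A hτ hc).1
  · have e : algebraMap Ω ↥(modularFunctionFieldBar (M * p)) c /
        ((GR_gal (M * p) τ : ↥(modularFunctionFieldBar (M * p)) ≃+*
        ↥(modularFunctionFieldBar (M * p))) : ↥(modularFunctionFieldBar (M * p)) →+*
        ↥(modularFunctionFieldBar (M * p)))
        (algebraMap Ω ↥(modularFunctionFieldBar (M * p)) c) =
        algebraMap Ω ↥(modularFunctionFieldBar (M * p)) (c / τ c) := by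
      rw [map_div₀]
      congr 1
      exact arithmeticRingAut_algebraMap (modularFunctionFieldFull (M * p)) τ c
    rw [e, S34M_T1_O]
    exact (S33ND_const_O1_iff M p A hgen).2 (S40GV_const_unit A hτ hc).2

include hp hpM in
/-- **`V₂ ∘ τ = V₂`** for `τ` in the inertia group. -/
theorem S40GV_V2 {τ : Ω ≃ₐ[ℚ] Ω} (hτ : τ ∈ A.inertiaSubgroupIn ℚ)
    (x : ↥(modularFunctionFieldBar (M * p))) :
    (S34M_T2 M p hp hpM A hgen).O.valuation (GR_gal (M * p) τ x) =
      (S34M_T2 M p hp hpM A hgen).O.valuation x := by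
  obtain ⟨-, hgO₂, -⟩ := S34M_straightTau M p hp hpM A hgen 1 one_pos τ hτ
  refine S40GV_abs (S34M_T2 M p hp hpM A hgen).O
    ((GR_gal (M * p) τ : ↥(modularFunctionFieldBar (M * p)) ≃+* ↥(modularFunctionFieldBar (M * p))) :
      ↥(modularFunctionFieldBar (M * p)) →+* ↥(modularFunctionFieldBar (M * p)))
    hgO₂ ?_ x
  intro y hy0
  have hwy0 : S34DF_wq M p hp hpM y ≠ 0 := (map_ne_zero _).mpr hy0
  obtain ⟨c, hc, hv⟩ := S34R_gauss_const (M * p) A hgen (S34DF_wq M p hp hpM y) hwy0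
  have hcF : algebraMap Ω ↥(modularFunctionFieldBar (M * p)) c ≠ 0 := (map_ne_zero _).mpr hc
  have hmem : ∀ z : ↥(modularFunctionFieldBar (M * p)),
      S34DF_wq M p hp hpM z ∈ (S18_gaussModL (M * p) A hgen).O →
        z ∈ (S34M_T2 M p hp hpM A hgen).O := by
    intro z hz
    rw [S34M_T2_O]
    exact hz
  have hw : S34DF_wq M p hp hpM (y * (algebraMap Ω ↥(modularFunctionFieldBar (M * p)) c)⁻¹) =
      S34DF_wq M p hp hpM y * (algebraMap Ω ↥(modularFunctionFieldBar (M * p)) c)⁻¹ := by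
    rw [map_mul, map_inv₀, AlgEquiv.commutes]
  refine ⟨algebraMap Ω ↥(modularFunctionFieldBar (M * p)) c,
    y * (algebraMap Ω ↥(modularFunctionFieldBar (M * p)) c)⁻¹, ?_, ?_, ?_, hcF, ?_, ?_⟩
  · rw [mul_comm y, ← mul_assoc, mul_inv_cancel₀ hcF, one_mul]
  · refine hmem _ ?_
    rw [hw]
    exact ((S18_gaussModL (M * p) A hgen).O.valuation_le_one_iff _).1 (le_of_eq hv)
  · refine hmem _ ?_
    rw [map_inv₀, hw]
    refine ((S18_gaussModL (M * p) A hgen).O.valuation_le_one_iff _).1 ?_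
    rw [map_inv₀, hv, inv_one]
  · have e : ((GR_gal (M * p) τ : ↥(modularFunctionFieldBar (M * p)) ≃+*
        ↥(modularFunctionFieldBar (M * p))) : ↥(modularFunctionFieldBar (M * p)) →+*
        ↥(modularFunctionFieldBar (M * p)))
        (algebraMap Ω ↥(modularFunctionFieldBar (M * p)) c) /
          algebraMap Ω ↥(modularFunctionFieldBar (M * p)) c =
        algebraMap Ω ↥(modularFunctionFieldBar (M * p)) (τ c / c) := by
      rw [map_div₀]
      congr 1
      exact arithmeticRingAut_algebraMap (modularFunctionFieldFull (M * p)) τ c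
    rw [e, S34M_T2_O]
    exact (S33ND_const_O2_iff M p hp hpM A hgen).2 (S40GV_const_unit A hτ hc).1
  · have e : algebraMap Ω ↥(modularFunctionFieldBar (M * p)) c /
        ((GR_gal (M * p) τ : ↥(modularFunctionFieldBar (M * p)) ≃+*
        ↥(modularFunctionFieldBar (M * p))) : ↥(modularFunctionFieldBar (M * p)) →+*
        ↥(modularFunctionFieldBar (M * p)))
        (algebraMap Ω ↥(modularFunctionFieldBar (M * p)) c) =
        algebraMap Ω ↥(modularFunctionFieldBar (M * p)) (c / τ c) := by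
      rw [map_div₀]
      congr 1
      exact arithmeticRingAut_algebraMap (modularFunctionFieldFull (M * p)) τ c
    rw [e, S34M_T2_O]
    exact (S33ND_const_O2_iff M p hp hpM A hgen).2 (S40GV_const_unit A hτ hc).2

include hp hpM in
/-- `τ x ∈ O₁ ↔ x ∈ O₁`. -/
theorem S40GV_V1_mem {τ : Ω ≃ₐ[ℚ] Ω} (hτ : τ ∈ A.inertiaSubgroupIn ℚ)
    (x : ↥(modularFunctionFieldBar (M * p))) :
    GR_gal (M * p) τ x ∈ (S34M_T1 M p A hgen).O ↔ x ∈ (S34M_T1 M p A hgen).O := by
  rw [← ValuationSubring.valuation_le_one_iff, ← ValuationSubring.valuation_le_one_iff,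
    S40GV_V1 M p hp hpM A hgen hτ x]

include hp hpM in
/-- `τ x ∈ O₂ ↔ x ∈ O₂`. -/
theorem S40GV_V2_mem {τ : Ω ≃ₐ[ℚ] Ω} (hτ : τ ∈ A.inertiaSubgroupIn ℚ)
    (x : ↥(modularFunctionFieldBar (M * p))) :
    GR_gal (M * p) τ x ∈ (S34M_T2 M p hp hpM A hgen).O ↔
      x ∈ (S34M_T2 M p hp hpM A hgen).O := by
  rw [← ValuationSubring.valuation_le_one_iff, ← ValuationSubring.valuation_le_one_iff,
    S40GV_V2 M p hp hpM A hgen hτ x]

include hp hpM in
/-- `τ x ∈ 𝔪₁ ↔ x ∈ 𝔪₁`. -/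
theorem S40GV_V1_lt {τ : Ω ≃ₐ[ℚ] Ω} (hτ : τ ∈ A.inertiaSubgroupIn ℚ)
    (x : ↥(modularFunctionFieldBar (M * p))) :
    GR_gal (M * p) τ x ∈ (S34M_T1 M p A hgen).O.nonunits ↔
      x ∈ (S34M_T1 M p A hgen).O.nonunits := by
  rw [ValuationSubring.mem_nonunits_iff, ValuationSubring.mem_nonunits_iff,
    S40GV_V1 M p hp hpM A hgen hτ x]

include hp hpM in
/-- `τ x ∈ 𝔪₂ ↔ x ∈ 𝔪₂`. -/
theorem S40GV_V2_lt {τ : Ω ≃ₐ[ℚ] Ω} (hτ : τ ∈ A.inertiaSubgroupIn ℚ)
    (x : ↥(modularFunctionFieldBar (M * p))) :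
    GR_gal (M * p) τ x ∈ (S34M_T2 M p hp hpM A hgen).O.nonunits ↔
      x ∈ (S34M_T2 M p hp hpM A hgen).O.nonunits := by
  rw [ValuationSubring.mem_nonunits_iff, ValuationSubring.mem_nonunits_iff,
    S40GV_V2 M p hp hpM A hgen hτ x]

end inst

end Fermat.Agent.S40
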