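import Mathlib

/-!
# TRACK 13 (row 38), leaf (HV) of START, NODE-FREE route: the arithmetic core (helper20).
Prefix `S40R2HK_`.  Mathlib only.

`O` a valuation subring of a field `F`, `P`, `ϖ ∈ F` of valuation `< 1`.

* `S40R2HK_transfer` : constants with the same valuation in `A` have the same valuation in `O`;
* `S40R2HK_core_rel` : `V C = V P ^ γ`, `V u_z = V P ^ (p m)`, `V h = V P ^ n`,
  `V (C u_z h ^ p) = 1` ⇒ `γ + p m + p n = 0`;
* `S40R2HK_core_t`   : `t` multiplicative, keeps the units, `t ϖ = ϖ ^ (ℓ + 1)` ⇒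
  `V (t u) = V ϖ ^ ((ℓ + 1) m)` if `V u = V ϖ ^ m`;
* `S40R2HK_core_hecke` : `t u = K u ^ a g ^ p` with `V K = V ϖ ^ k`, `V g = V ϖ ^ g'` ⇒
  `(ℓ + 1) m = k + a m + p g'`;
* `S40R2HK_index` : `p ∣ n₁ − n₂` ⇒ the SAME index `i < p` at the two valuations;
* `S40R2HK_abs` : all together.
-/

set_option autoImplicit false
set_option linter.unusedVariables false
set_option linter.unusedSectionVars false

namespace Fermat.Agent.S40

section transfer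

variable {L F : Type*} [Field L] [Field F] [Algebra L F]

/-- constants with the same valuation in `A` have the same valuation in `O`. -/
theorem S40R2HK_transfer (A : ValuationSubring L) (O : ValuationSubring F)
    (hA : ∀ a : L, algebraMap L F a ∈ O ↔ a ∈ A) {x y : L} (hy : y ≠ 0)
    (h : A.valuation x = A.valuation y) :
    O.valuation (algebraMap L F x) = O.valuation (algebraMap L F y) := by
  have hvy : A.valuation y ≠ 0 := (Valuation.ne_zero_iff _).2 hy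
  have hx : x ≠ 0 := by
    intro h0
    rw [h0, map_zero] at h
    exact hvy h.symm
  have h1 : x / y ∈ A := by
    rw [← A.valuation_le_one_iff, map_div₀, h, div_self hvy]
  have h2 : y / x ∈ A := by
    rw [← A.valuation_le_one_iff, map_div₀, h, div_self hvy]
  have h1' : O.valuation (algebraMap L F (x / y)) ≤ 1 :=
    (O.valuation_le_one_iff _).2 ((hA _).2 h1)
  have h2' : O.valuation (algebraMap L F (y / x)) ≤ 1 :=
    (O.valuation_le_one_iff _).2 ((hA _).2 h2)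
  have hy' : O.valuation (algebraMap L F y) ≠ 0 :=
    (Valuation.ne_zero_iff _).2 ((map_ne_zero _).2 hy)
  have hx' : O.valuation (algebraMap L F x) ≠ 0 :=
    (Valuation.ne_zero_iff _).2 ((map_ne_zero _).2 hx)
  rw [map_div₀, map_div₀] at h1' h2'
  have a1 : O.valuation (algebraMap L F x) ≤ O.valuation (algebraMap L F y) := by
    have := (div_le_one₀ (zero_lt_iff.2 hy')).1 h1'
    exact this
  have a2 : O.valuation (algebraMap L F y) ≤ O.valuation (algebraMap L F x) := by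
    have := (div_le_one₀ (zero_lt_iff.2 hx')).1 h2'
    exact this
  exact le_antisymm a1 a2

end transfer

section core

variable {F : Type*} [Field F]

theorem S40R2HK_core_rel (O : ValuationSubring F) {P : F} (hP0 : P ≠ 0)
    (hP1 : O.valuation P < 1) {C uz h : F} {p : ℕ} {γ m n : ℤ}
    (hC : O.valuation C = O.valuation P ^ γ)
    (huz : O.valuation uz = O.valuation P ^ ((p : ℤ) * m))
    (hh : O.valuation h = O.valuation P ^ n)
    (hrel : O.valuation (C * uz * h ^ p) = 1) :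
    γ + (p : ℤ) * m + (p : ℤ) * n = 0 := by
  have hq0 : O.valuation P ≠ 0 := (Valuation.ne_zero_iff _).2 hP0
  rw [map_mul, map_mul, map_pow, hC, huz, hh, ← zpow_natCast, ← zpow_mul, ← zpow_add₀ hq0,
    ← zpow_add₀ hq0] at hrel
  have := (zpow_eq_one_iff_right₀ zero_le (ne_of_lt hP1)).1 hrel
  linarith

theorem S40R2HK_core_t (O : ValuationSubring F) (t : F →*₀ F)
    (htU : ∀ w : F, O.valuation w = 1 → O.valuation (t w) = 1)
    {ϖ u : F} {l : ℕ} {m : ℤ} (htϖ : t ϖ = ϖ ^ (l + 1)) (hϖ0 : ϖ ≠ 0)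
    (hu : O.valuation u = O.valuation ϖ ^ m) :
    O.valuation (t u) = O.valuation ϖ ^ (((l : ℤ) + 1) * m) := by
  have hq0 : O.valuation ϖ ≠ 0 := (Valuation.ne_zero_iff _).2 hϖ0
  have hw : O.valuation (u / ϖ ^ m) = 1 := by
    rw [map_div₀, map_zpow₀, hu, div_self (zpow_ne_zero _ hq0)]
  have e : u = u / ϖ ^ m * ϖ ^ m := by
    rw [div_mul_cancel₀ _ (zpow_ne_zero _ hϖ0)]
  have e' : t u = t (u / ϖ ^ m) * (ϖ ^ (l + 1)) ^ m := by
    conv_lhs => rw [e]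
    rw [map_mul, map_zpow₀, htϖ]
  rw [e', map_mul, htU _ hw, one_mul, map_zpow₀, map_pow, ← zpow_natCast, ← zpow_mul]
  push_cast
  rfl

theorem S40R2HK_core_hecke (O : ValuationSubring F) {ϖ : F} (hϖ0 : ϖ ≠ 0)
    (hϖ1 : O.valuation ϖ < 1) {K u tu g : F} {p l : ℕ} {a k m g' : ℤ}
    (hK : O.valuation K = O.valuation ϖ ^ k)
    (hu : O.valuation u = O.valuation ϖ ^ m)
    (htu : O.valuation tu = O.valuation ϖ ^ (((l : ℤ) + 1) * m))
    (hg : O.valuation g = O.valuation ϖ ^ g')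
    (hrel : tu = K * u ^ a * g ^ p) :
    ((l : ℤ) + 1) * m = k + a * m + (p : ℤ) * g' := by
  have hq0 : O.valuation ϖ ≠ 0 := (Valuation.ne_zero_iff _).2 hϖ0
  have h1 := htu
  rw [hrel, map_mul, map_mul, map_zpow₀, map_pow, hK, hu, hg, ← zpow_natCast, ← zpow_mul,
    ← zpow_mul, ← zpow_add₀ hq0, ← zpow_add₀ hq0] at h1
  have := zpow_right_injective₀ (zero_lt_iff.2 hq0) (ne_of_lt hϖ1) h1
  linarith

theorem S40R2HK_index (O₁ O₂ : ValuationSubring F) {P ϖ h : F} {p : ℕ} (hp : 0 < p)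
    (hP0 : P ≠ 0)
    (hϖ₁ : O₁.valuation ϖ = O₁.valuation P ^ p) (hϖ₂ : O₂.valuation ϖ = O₂.valuation P ^ p)
    {n₁ n₂ : ℤ} (hh₁ : O₁.valuation h = O₁.valuation P ^ n₁)
    (hh₂ : O₂.valuation h = O₂.valuation P ^ n₂) (hdvd : (p : ℤ) ∣ n₁ - n₂) :
    ∃ i < p, ∃ k₁ k₂ : ℤ,
      O₁.valuation h = O₁.valuation ϖ ^ k₁ * O₁.valuation P ^ i ∧
      O₂.valuation h = O₂.valuation ϖ ^ k₂ * O₂.valuation P ^ i := by
  have hpZ : (0 : ℤ) < p := by exact_mod_cast hp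
  have hq1 : O₁.valuation P ≠ 0 := (Valuation.ne_zero_iff _).2 hP0
  have hq2 : O₂.valuation P ≠ 0 := (Valuation.ne_zero_iff _).2 hP0
  have hi0 : 0 ≤ n₁ % p := Int.emod_nonneg _ hpZ.ne'
  have hi1 : n₁ % p < p := Int.emod_lt_of_pos _ hpZ
  have hmod : n₂ % p = n₁ % p := by
    have : n₂ ≡ n₁ [ZMOD p] := (Int.modEq_iff_dvd).2 hdvd
    exact this
  refine ⟨(n₁ % p).toNat, ?_, n₁ / p, n₂ / p, ?_, ?_⟩
  · have : ((n₁ % p).toNat : ℤ) < p := by rw [Int.toNat_of_nonneg hi0]; exact hi1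
    exact_mod_cast this
  · have e : n₁ = (p : ℤ) * (n₁ / p) + ((n₁ % p).toNat : ℤ) := by
      rw [Int.toNat_of_nonneg hi0]
      exact (Int.mul_ediv_add_emod n₁ p).symm
    rw [hh₁, hϖ₁, ← zpow_natCast (O₁.valuation P) p, ← zpow_mul,
      ← zpow_natCast (O₁.valuation P) (n₁ % p).toNat, ← zpow_add₀ hq1, ← e]
  · have e : n₂ = (p : ℤ) * (n₂ / p) + ((n₁ % p).toNat : ℤ) := by
      rw [Int.toNat_of_nonneg hi0, ← hmod]
      exact (Int.mul_ediv_add_emod n₂ p).symm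
    rw [hh₂, hϖ₂, ← zpow_natCast (O₂.valuation P) p, ← zpow_mul,
      ← zpow_natCast (O₂.valuation P) (n₁ % p).toNat, ← zpow_add₀ hq2, ← e]

/-- **the arithmetic of (HV)**. -/
theorem S40R2HK_abs (O₁ O₂ : ValuationSubring F) {P ϖ : F} {p : ℕ} (hp : p.Prime)
    (hP0 : P ≠ 0) (hP₁ : O₁.valuation P < 1) (hP₂ : O₂.valuation P < 1)
    (hϖ₁ : O₁.valuation ϖ = O₁.valuation P ^ p) (hϖ₂ : O₂.valuation ϖ = O₂.valuation P ^ p)
    (t : F →*₀ F)
    (htU₁ : ∀ w : F, O₁.valuation w = 1 → O₁.valuation (t w) = 1)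
    (htU₂ : ∀ w : F, O₂.valuation w = 1 → O₂.valuation (t w) = 1)
    {l : ℕ} (htϖ : t ϖ = ϖ ^ (l + 1))
    {C uz h K g : F} {a γ k : ℤ} (ha : ¬ (p : ℤ) ∣ a - l - 1)
    -- the descent relation
    (hC₁ : O₁.valuation C = O₁.valuation P ^ γ) (hC₂ : O₂.valuation C = O₂.valuation P ^ γ)
    (hrel₁ : O₁.valuation (C * uz * h ^ p) = 1) (hrel₂ : O₂.valuation (C * uz * h ^ p) = 1)
    {n₁ n₂ : ℤ} (hh₁ : O₁.valuation h = O₁.valuation P ^ n₁)
    (hh₂ : O₂.valuation h = O₂.valuation P ^ n₂)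
    {m₁ m₂ : ℤ} (hu₁ : O₁.valuation uz = O₁.valuation ϖ ^ m₁)
    (hu₂ : O₂.valuation uz = O₂.valuation ϖ ^ m₂)
    -- the Hecke relation
    (hK₁ : O₁.valuation K = O₁.valuation ϖ ^ k) (hK₂ : O₂.valuation K = O₂.valuation ϖ ^ k)
    {g₁ g₂ : ℤ} (hg₁ : O₁.valuation g = O₁.valuation ϖ ^ g₁)
    (hg₂ : O₂.valuation g = O₂.valuation ϖ ^ g₂)
    (hE : t uz = K * uz ^ a * g ^ p) :
    ∃ i < p, ∃ k₁ k₂ : ℤ,
      O₁.valuation h = O₁.valuation ϖ ^ k₁ * O₁.valuation P ^ i ∧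
      O₂.valuation h = O₂.valuation ϖ ^ k₂ * O₂.valuation P ^ i := by
  have hq1 : O₁.valuation P ≠ 0 := (Valuation.ne_zero_iff _).2 hP0
  have hq2 : O₂.valuation P ≠ 0 := (Valuation.ne_zero_iff _).2 hP0
  have hϖ0 : ϖ ≠ 0 := by
    intro h0
    rw [h0, map_zero] at hϖ₁
    exact pow_ne_zero p hq1 hϖ₁.symm
  have hϖlt₁ : O₁.valuation ϖ < 1 := by
    rw [hϖ₁]; exact pow_lt_one₀ zero_le hP₁ hp.ne_zero
  have hϖlt₂ : O₂.valuation ϖ < 1 := by
    rw [hϖ₂]; exact pow_lt_one₀ zero_le hP₂ hp.ne_zero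
  -- Hecke
  have t1 := S40R2HK_core_t O₁ t htU₁ htϖ hϖ0 hu₁
  have t2 := S40R2HK_core_t O₂ t htU₂ htϖ hϖ0 hu₂
  have e1 := S40R2HK_core_hecke O₁ hϖ0 hϖlt₁ hK₁ hu₁ t1 hg₁ hE
  have e2 := S40R2HK_core_hecke O₂ hϖ0 hϖlt₂ hK₂ hu₂ t2 hg₂ hE
  have hm : (p : ℤ) ∣ m₁ - m₂ := by
    have h3 : (a - l - 1) * (m₁ - m₂) = (p : ℤ) * (g₂ - g₁) := by linear_combination e2 - e1
    have h4 : (p : ℤ) ∣ (a - l - 1) * (m₁ - m₂) := ⟨_, h3⟩
    exact ((Nat.prime_iff_prime_int.mp hp).dvd_or_dvd h4).resolve_left ha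
  -- descent
  have hu₁' : O₁.valuation uz = O₁.valuation P ^ ((p : ℤ) * m₁) := by
    rw [hu₁, hϖ₁, ← zpow_natCast, ← zpow_mul]
  have hu₂' : O₂.valuation uz = O₂.valuation P ^ ((p : ℤ) * m₂) := by
    rw [hu₂, hϖ₂, ← zpow_natCast, ← zpow_mul]
  have r1 := S40R2HK_core_rel O₁ hP0 hP₁ hC₁ hu₁' hh₁ hrel₁
  have r2 := S40R2HK_core_rel O₂ hP0 hP₂ hC₂ hu₂' hh₂ hrel₂
  have hpZ : (p : ℤ) ≠ 0 := by exact_mod_cast hp.ne_zero
  have hn : (p : ℤ) ∣ n₁ - n₂ := by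
    have h5 : (p : ℤ) * (n₁ - n₂) = (p : ℤ) * (m₂ - m₁) := by linear_combination r1 - r2
    have h6 : n₁ - n₂ = m₂ - m₁ := mul_left_cancel₀ hpZ h5
    rw [h6]
    obtain ⟨d, hd⟩ := hm
    exact ⟨-d, by linarith⟩
  exact S40R2HK_index O₁ O₂ hp.pos hP0 hϖ₁ hϖ₂ hh₁ hh₂ hn

end core

end Fermat.Agent.S40
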