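import Fermat.Agent.S34.Asm4
import Fermat.Agent.S40.F2CInst

/-!
# TRACK 13 (S40 / S44, row 38), (R2) START: the hypotheses `hy1`, `hy2` (helper28).
Prefix `S40R2Y_`.

`σ u / u ≡ 1` modulo the maximal ideal at the two Gauss valuations `V₁`, `V₂` of `ℚ̄(X₀(Mp))`,
for `σ` in the inertia group with `σ π / π ≡ 1` and `u ≠ 0` fixed by a subgroup `H` with
uniformiser `π` (`S33NL2_Unif A H π`).

* `S40R2Y_one_mul`, `S40R2Y_one_inv`, `S40R2Y_one_zpow` : the `1`-units form a group;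
* `S40R2Y_unit` : a ring automorphism which keeps `O` and is trivial on the reduction moves the
  units of `O` by `1`-units;
* `S40R2Y_gen` : `g u / u ≡ 1` if `u π ^ k` is a unit and `g π / π ≡ 1`;
* **`S40R2Y_V1`**, **`S40R2Y_V2`** : the real objects;
* **`S40R2Y_hy1`**, **`S40R2Y_hy2`** : in the shape of `hy1`, `hy2` of `S40R2ST_main` /
  `S40R2W_start`: `v_j(c · u_z · h ^ p − 1) < 1` from `σ u = c · u · u_z · h ^ p`.
-/

set_option autoImplicit false
set_option linter.unusedSectionVars false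
set_option linter.unusedVariables false
set_option linter.style.haveILetI false
set_option synthInstance.maxHeartbeats 400000
set_option maxHeartbeats 1000000

open HahnSeries ModularCurve IntermediateField

namespace Fermat.Agent.S40

open Fermat.Agent.S18 Fermat.Agent.S24 Fermat.Agent.S34 Fermat.Agent.S36 Fermat.Agent.GalRep
  Fermat.Agent.S33 Fermat.Agent.S19

local notation "Ω" => AlgebraicClosure ℚ

section abs

variable {F : Type*} [Field F] {Γ₀ : Type*} [LinearOrderedCommGroupWithZero Γ₀]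
  {V : Valuation F Γ₀}

theorem S40R2Y_val_one {x : F} (hx : V (x - 1) < 1) : V x = 1 := by
  have e : x = 1 + (x - 1) := by ring
  rw [e]
  exact V.map_one_add_of_lt hx

theorem S40R2Y_one_mul {x y : F} (hx : V (x - 1) < 1) (hy : V (y - 1) < 1) :
    V (x * y - 1) < 1 := by
  have e : x * y - 1 = x * (y - 1) + (x - 1) := by ring
  rw [e]
  refine lt_of_le_of_lt (V.map_add _ _) (max_lt ?_ hx)
  rw [map_mul, S40R2Y_val_one hx, one_mul]
  exact hy

theorem S40R2Y_one_inv {x : F} (hx : V (x - 1) < 1) : V (x⁻¹ - 1) < 1 := by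
  have hx1 := S40R2Y_val_one hx
  have hx0 : x ≠ 0 := by
    rintro rfl
    rw [map_zero] at hx1
    exact zero_ne_one hx1
  have e : x⁻¹ - 1 = -(x - 1) * x⁻¹ := by
    field_simp
    ring
  rw [e, map_mul, map_inv₀, hx1, inv_one, mul_one, Valuation.map_neg]
  exact hx

theorem S40R2Y_one_pow {x : F} (hx : V (x - 1) < 1) (n : ℕ) : V (x ^ n - 1) < 1 := by
  induction n with
  | zero => simp
  | succ k ih =>
    rw [pow_succ]
    exact S40R2Y_one_mul ih hx

theorem S40R2Y_one_zpow {x : F} (hx : V (x - 1) < 1) (n : ℤ) : V (x ^ n - 1) < 1 := by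
  obtain ⟨m, rfl | rfl⟩ := Int.eq_nat_or_neg n
  · rw [zpow_natCast]
    exact S40R2Y_one_pow hx m
  · rw [zpow_neg, zpow_natCast]
    exact S40R2Y_one_inv (S40R2Y_one_pow hx m)

end abs

section val

variable {L F k Fk : Type*} [Field L] [Field F] [Algebra L F] [Field k] [Field Fk]
  [Algebra k Fk]

/-- a ring automorphism which keeps `O` and is trivial on the reduction moves the units of `O` by
`1`-units. -/
theorem S40R2Y_unit (T : S18_Val L F k Fk) (g : F ≃+* F) (hgO : ∀ f ∈ T.O, g f ∈ T.O)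
    (hred : ∀ f : T.O, T.red ⟨g f, hgO f f.2⟩ = T.red f) {f : F}
    (hf : T.O.valuation f = 1) : T.O.valuation (g f / f - 1) < 1 := by
  have hfO : f ∈ T.O := (T.O.valuation_le_one_iff f).mp hf.le
  have hf0 : f ≠ 0 := by
    rintro rfl
    rw [map_zero] at hf
    exact zero_ne_one hf
  have hsub : g f - f ∈ T.O := sub_mem (hgO f hfO) hfO
  have h0 : T.red ⟨g f - f, hsub⟩ = 0 := by
    have e : (⟨g f - f, hsub⟩ : T.O) = ⟨g f, hgO f hfO⟩ - ⟨f, hfO⟩ := rfl
    rw [e, map_sub, sub_eq_zero]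
    exact hred ⟨f, hfO⟩
  have h1 : ¬ IsUnit (⟨g f - f, hsub⟩ : T.O) := by
    intro hu
    exact ((T.red_ne_zero_iff _).mpr hu) h0
  have h2 : T.O.valuation (g f - f) < 1 := by
    rcases lt_or_eq_of_le ((T.O.valuation_le_one_iff _).mpr hsub) with h | h
    · exact h
    · exact absurd ((ValuationSubring.valuation_eq_one_iff T.O ⟨g f - f, hsub⟩).mpr h) h1
  have e : g f / f - 1 = (g f - f) / f := by
    field_simp
  rw [e, map_div₀, hf, div_one]
  exact h2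

/-- `g u / u ≡ 1` if `u π ^ k` is a unit of `O` and `g π / π ≡ 1`. -/
theorem S40R2Y_gen (T : S18_Val L F k Fk) (g : F ≃+* F) (hgO : ∀ f ∈ T.O, g f ∈ T.O)
    (hred : ∀ f : T.O, T.red ⟨g f, hgO f f.2⟩ = T.red f) {π u : F} (hπ0 : π ≠ 0)
    (hπ : T.O.valuation (g π / π - 1) < 1) (hu0 : u ≠ 0)
    (hdv : ∃ j : ℤ, T.O.valuation (u * π ^ j) = 1) :
    T.O.valuation (g u / u - 1) < 1 := by
  obtain ⟨j, hj⟩ := hdv
  have h1 := S40R2Y_unit T g hgO hred hj
  have h2 : T.O.valuation ((g π / π) ^ (-j) - 1) < 1 := S40R2Y_one_zpow hπ (-j)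
  have hgπ0 : g π ≠ 0 := (map_ne_zero g).mpr hπ0
  have hgu0 : g u ≠ 0 := (map_ne_zero g).mpr hu0
  have e : g u / u = g (u * π ^ j) / (u * π ^ j) * (g π / π) ^ (-j) := by
    rw [map_mul, map_zpow₀, zpow_neg, div_zpow]
    have hπj : π ^ j ≠ 0 := zpow_ne_zero _ hπ0
    have hgπj : g π ^ j ≠ 0 := zpow_ne_zero _ hgπ0
    field_simp
  rw [e]
  exact S40R2Y_one_mul h1 h2

end val

section inst

variable (M p : ℕ) [NeZero (M * p)] (hp : p.Prime) (hpM : ¬ p ∣ M)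
  (A : ValuationSubring Ω) (hA : A.LiesOverPrime p)
  (hgen : PrincipalGeneratedByIntegral A (IsLocalRing.residue A) (M * p))
  (H : Subgroup (Ω ≃ₐ[ℚ] Ω)) {π : Ω}

/-- `τ π / π ≡ 1` for a constant, at any `S18_Val` over `A`. -/
theorem S40R2Y_const {k Fk : Type*} [Field k] [Field Fk] [Algebra k Fk]
    (T : S18_Val Ω ↥(modularFunctionFieldBar (M * p)) k Fk) (hT : T.A = A)
    (τ : Ω ≃ₐ[ℚ] Ω) (hπ0 : π ≠ 0) (hτπ : A.valuation (τ π / π - 1) < 1) :
    T.O.valuation (GR_gal (M * p) τ (algebraMap Ω ↥(modularFunctionFieldBar (M * p)) π) /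
      algebraMap Ω ↥(modularFunctionFieldBar (M * p)) π - 1) < 1 := by
  have e : GR_gal (M * p) τ (algebraMap Ω ↥(modularFunctionFieldBar (M * p)) π) =
      algebraMap Ω ↥(modularFunctionFieldBar (M * p)) (τ π) :=
    arithmeticRingAut_algebraMap (modularFunctionFieldFull (M * p)) τ π
  rw [e, ← map_div₀, ← map_one (algebraMap Ω ↥(modularFunctionFieldBar (M * p))), ← map_sub]
  exact (S40F2CI_val_const M p A T hT _).2 hτπ

include hp hpM hA in
/-- **`σ u / u ≡ 1` at `V₁`.** -/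
theorem S40R2Y_V1 (hU : S33NL2_Unif A H π) (τ : Ω ≃ₐ[ℚ] Ω) (hτ : τ ∈ A.inertiaSubgroupIn ℚ)
    (hτπ : A.valuation (τ π / π - 1) < 1)
    (u : ↥(modularFunctionFieldBar (M * p))) (hu : ∀ g ∈ H, GR_gal (M * p) g u = u)
    (hu0 : u ≠ 0) :
    (S34M_T1 M p A hgen).O.valuation (GR_gal (M * p) τ u / u - 1) < 1 := by
  obtain ⟨hgO₁, hgO₂, -, hred₁, hred₂⟩ := S34M_straightTau M p hp hpM A hgen 1 one_pos τ hτ
  exact S40R2Y_gen (S34M_T1 M p A hgen) (GR_gal (M * p) τ) hgO₁ hred₁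
    ((map_ne_zero _).mpr hU.ne_zero)
    (S40R2Y_const M p A (S34M_T1 M p A hgen) rfl τ hU.ne_zero hτπ) hu0
    (S40F2CI_dv1 M p hp hpM A hA hgen H hU u ((S36FI_mem_fixF (M * p) H).2 hu) hu0)

include hp hpM hA in
/-- **`σ u / u ≡ 1` at `V₂`.** -/
theorem S40R2Y_V2 (hU : S33NL2_Unif A H π) (τ : Ω ≃ₐ[ℚ] Ω) (hτ : τ ∈ A.inertiaSubgroupIn ℚ)
    (hτπ : A.valuation (τ π / π - 1) < 1)
    (u : ↥(modularFunctionFieldBar (M * p))) (hu : ∀ g ∈ H, GR_gal (M * p) g u = u)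
    (hu0 : u ≠ 0) :
    (S34M_T2 M p hp hpM A hgen).O.valuation (GR_gal (M * p) τ u / u - 1) < 1 := by
  obtain ⟨hgO₁, hgO₂, -, hred₁, hred₂⟩ := S34M_straightTau M p hp hpM A hgen 1 one_pos τ hτ
  exact S40R2Y_gen (S34M_T2 M p hp hpM A hgen) (GR_gal (M * p) τ) hgO₂ hred₂
    ((map_ne_zero _).mpr hU.ne_zero)
    (S40R2Y_const M p A (S34M_T2 M p hp hpM A hgen) rfl τ hU.ne_zero hτπ) hu0
    (S40F2CI_dv2 M p hp hpM A hA hgen H hU u ((S36FI_mem_fixF (M * p) H).2 hu) hu0)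

/-- the break gives `σ π / π ≡ 1`. -/
theorem S40R2Y_break {σ : Ω ≃ₐ[ℚ] Ω} {c r : Ω} {t : ℕ} (ht : 1 ≤ t) (hπ0 : π ≠ 0)
    (hπ1 : A.valuation π < 1) (hvc : A.valuation c ≤ 1) (hvr : A.valuation r ≤ 1)
    (hunif : σ π = π * (1 + c * π ^ t) + π ^ (t + 2) * r) :
    A.valuation (σ π / π - 1) < 1 := by
  have e : σ π / π - 1 = π ^ t * (c + π * r) := by
    rw [hunif]
    field_simp
    ring
  rw [e, map_mul, map_pow]
  have h1 : A.valuation π ^ t < 1 := pow_lt_one₀ zero_le hπ1 (by omega)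
  have h2 : A.valuation (c + π * r) ≤ 1 := by
    refine le_trans (A.valuation.map_add _ _) (max_le hvc ?_)
    rw [map_mul]
    exact mul_le_one' hπ1.le hvr
  calc A.valuation π ^ t * A.valuation (c + π * r) ≤ A.valuation π ^ t * 1 :=
        mul_le_mul' le_rfl h2
    _ = A.valuation π ^ t := mul_one _
    _ < 1 := h1

include hp hpM hA in
/-- **`hy1`, `hy2`** of `S40R2ST_main` / `S40R2W_start`, from the descent relation
`σ u = c · u · u_z · h ^ p`. -/
theorem S40R2Y_hy (hU : S33NL2_Unif A H π) (σ : Ω ≃ₐ[ℚ] Ω) (hσ : σ ∈ A.inertiaSubgroupIn ℚ)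
    (hσπ : A.valuation (σ π / π - 1) < 1)
    {u u_z h : ↥(modularFunctionFieldBar (M * p))} {c : Ω}
    (hu : ∀ g ∈ H, GR_gal (M * p) g u = u) (hu0 : u ≠ 0)
    (hσu : GR_gal (M * p) σ u =
      algebraMap Ω ↥(modularFunctionFieldBar (M * p)) c * u * u_z * h ^ p) :
    (S34M_T1 M p A hgen).O.valuation
      (algebraMap Ω ↥(modularFunctionFieldBar (M * p)) c * u_z * h ^ p - 1) < 1 ∧
    (S34M_T2 M p hp hpM A hgen).O.valuation
      (algebraMap Ω ↥(modularFunctionFieldBar (M * p)) c * u_z * h ^ p - 1) < 1 := by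
  have e : algebraMap Ω ↥(modularFunctionFieldBar (M * p)) c * u_z * h ^ p =
      GR_gal (M * p) σ u / u := by
    rw [hσu]
    field_simp
  rw [e]
  exact ⟨S40R2Y_V1 M p hp hpM A hA hgen H hU σ hσ hσπ u hu hu0,
    S40R2Y_V2 M p hp hpM A hA hgen H hU σ hσ hσπ u hu hu0⟩

end inst

end Fermat.Agent.S40
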