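import Mathlib
import Fermat.Agent.S33.Degen
import Fermat.Agent.S33.NewLocBridgeInst
import Fermat.Agent.S40.DefsJ

/-!
# TRACK 13 (row 38), (R2) START: NEWNESS in Kummer form (helper17).  Prefix `S40R2N_`.

`z ∈ J₀(M p)` NEW (`S40DJ_New M p z`: killed by the two degeneracy maps), `u` a Kummer generator of
`z` (`S33DG_IsGen p z u`).  Then the norms `N₁₂ u = α (N_α u)` and `N₂₁ u = β (N_β u)` are trivial
Kummer generators (`GR_IsTriv`): the hypotheses `hnew12`, `hnew21` of `S40R2ST_main` /
`S40R2W_start` / `S40PTF_V1/_V2`.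

* `S40R2N_new12`, `S40R2N_new21`.
-/

set_option autoImplicit false
set_option linter.style.haveILetI false
set_option linter.unusedSectionVars false
set_option linter.unusedVariables false
set_option synthInstance.maxHeartbeats 400000
set_option maxHeartbeats 1000000

open HahnSeries IntermediateField AlgebraicCurve ModularCurve

noncomputable section

namespace Fermat.Agent.S40

open Fermat.Agent.S18 Fermat.Agent.Lib Fermat.Agent.GalRep Fermat.Agent.S24 Fermat.Agent.S34
  Fermat.Agent.S35 Fermat.Agent.S36 Fermat.Agent.S33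

local notation "Ω" => AlgebraicClosure ℚ

variable (M p : ℕ) [NeZero M] [NeZero p] [NeZero (M * p)] (hp : p.Prime) (hpM : ¬ p ∣ M)

/-- **`hnew12`**: `N₁₂ u` is trivial for a Kummer generator `u` of a new class. -/
theorem S40R2N_new12 {n : ℕ} {z : JZero (M * p)} (hz : S40DJ_New M p z)
    {u : ↥(modularFunctionFieldBar (M * p))} (hu : S33DG_IsGen n z u) :
    GR_IsTriv (M * p) n (S33N0B_N12 M p hp hpM u) := by
  obtain ⟨c, g, hc, hg, e⟩ := S33DG_aJ_kum M p hu hz.1
  refine ⟨c, heckeAlphaBar Ω M p g, hc, (map_ne_zero _).mpr hg, ?_⟩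
  rw [S33N0B_N12_apply, e, map_mul, map_pow]
  first
    | (congr 1; done)
    | (congr 1; exact AlgHom.commutes _ _)

/-- **`hnew21`**: `N₂₁ u` is trivial for a Kummer generator `u` of a new class. -/
theorem S40R2N_new21 {n : ℕ} {z : JZero (M * p)} (hz : S40DJ_New M p z)
    {u : ↥(modularFunctionFieldBar (M * p))} (hu : S33DG_IsGen n z u) :
    GR_IsTriv (M * p) n (S33N0B_N21 M p hp u) := by
  obtain ⟨c, g, hc, hg, e⟩ := S33DG_bJ_kum M p hu hz.2
  refine ⟨c, heckeBetaBar Ω M p g, hc, (map_ne_zero _).mpr hg, ?_⟩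
  rw [S33N0B_N21_apply, e, map_mul, map_pow]
  first
    | (congr 1; done)
    | (congr 1; exact AlgHom.commutes _ _)

end Fermat.Agent.S40
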