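import Mathlib
import Fermat.Agent.S40.F2Desc

/-!
# TRACK 13 (S40 / S44, row 38), (R2) START: the conjugates `xs`, `ys` (helper23).
Prefix `S40R2P_`.

`σ ∈ I¹`, `H ≤ I¹` with `I¹ = ⋃ σ^k H` (`hdec`) and `σ ^ p ∈ H` (output of `S40F2GZ_main`),
`π ∈ Ω` and `h ∈ F = modularFunctionFieldBar N` fixed by `H`.  The conjugates

  `xs k := (σ ^ k) π`,   `ys k := GR_gal N (σ ^ k) h`

satisfy the hypotheses `hinj`, `hperm`, `hx0` of `S40R2DI_main` / `S40R2ST_main` /
`S40R2W_start` for the BIG group `I¹`: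

* `S40R2P_perm` : `∀ τ ∈ I¹, ∀ k < p, ∃ l < p, τ (xs k) = xs l ∧ GR_gal N τ (ys k) = ys l`;
* `S40R2P_inj`  : `σ π ≠ π` ⇒ `∀ k < p, ∀ l < p, xs k = xs l → k = l`;
* `S40R2P_x0`, `S40R2P_y0` : `xs 0 = π`, `ys 0 = h`.
-/

set_option autoImplicit false
set_option linter.unusedSectionVars false
set_option linter.unusedVariables false
set_option linter.style.haveILetI false
set_option synthInstance.maxHeartbeats 400000
set_option maxHeartbeats 1000000

open AlgebraicCurve ModularCurve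

noncomputable section

namespace Fermat.Agent.S40

open Fermat.Agent.S33 Fermat.Agent.S36 Fermat.Agent.GalRep Fermat.Agent.S24

local notation "Ω" => AlgebraicClosure ℚ
local notation "Γ" => (AlgebraicClosure ℚ ≃ₐ[ℚ] AlgebraicClosure ℚ)

section gal

variable (N : ℕ) [NeZero N]

theorem S40R2P_gal_mul (g h : Γ) (x : ↥(modularFunctionFieldBar N)) :
    GR_gal N (g * h) x = GR_gal N g (GR_gal N h x) := by
  rw [S36LD_gal_eq_smul, S36LD_gal_eq_smul, S36LD_gal_eq_smul, ← mul_smul, map_mul]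

theorem S40R2P_gal_one (x : ↥(modularFunctionFieldBar N)) : GR_gal N 1 x = x := by
  rw [S36LD_gal_eq_smul, map_one, one_smul]

/-- powers of an element fixing `x` fix `x` (constants). -/
theorem S40R2P_pow_fix {g : Γ} {x : Ω} (hx : g x = x) (m : ℕ) : (g ^ m) x = x := by
  induction m with
  | zero => rfl
  | succ m ih => rw [pow_succ, AlgEquiv.mul_apply, hx, ih]

/-- powers of an element fixing `f` fix `f` (functions). -/
theorem S40R2P_gal_pow_fix {g : Γ} {f : ↥(modularFunctionFieldBar N)} (hf : GR_gal N g f = f)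
    (m : ℕ) : GR_gal N (g ^ m) f = f := by
  induction m with
  | zero => rw [pow_zero]; exact S40R2P_gal_one N f
  | succ m ih => rw [pow_succ, S40R2P_gal_mul, hf, ih]

end gal

section perm

variable (N : ℕ) [NeZero N] (A : ValuationSubring Ω) {p : ℕ} (H : Subgroup Γ) {σ : Γ}

/-- the conjugates of the constant `π`. -/
def S40R2P_xs (σ : Γ) (π : Ω) (k : ℕ) : Ω := (σ ^ k) π

/-- the conjugates of the function `h`. -/
def S40R2P_ys (σ : Γ) (h : ↥(modularFunctionFieldBar N)) (k : ℕ) :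
    ↥(modularFunctionFieldBar N) := GR_gal N (σ ^ k) h

theorem S40R2P_x0 (π : Ω) : S40R2P_xs σ π 0 = π := rfl

theorem S40R2P_y0 (h : ↥(modularFunctionFieldBar N)) : S40R2P_ys N σ h 0 = h := by
  unfold S40R2P_ys
  rw [pow_zero]
  exact S40R2P_gal_one N h

/-- reduction of the exponent modulo `p` on an `H`-fixed constant. -/
theorem S40R2P_mod_const (hσp : σ ^ p ∈ H) {π : Ω} (hπH : ∀ g ∈ H, g π = π) (j : ℕ) :
    (σ ^ j) π = (σ ^ (j % p)) π := by
  conv_lhs => rw [← Nat.mod_add_div j p]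
  rw [pow_add, AlgEquiv.mul_apply, pow_mul, S40R2P_pow_fix (hπH _ hσp)]

/-- reduction of the exponent modulo `p` on an `H`-fixed function. -/
theorem S40R2P_mod_fun (hσp : σ ^ p ∈ H) {h : ↥(modularFunctionFieldBar N)}
    (hhH : ∀ g ∈ H, GR_gal N g h = h) (j : ℕ) :
    GR_gal N (σ ^ j) h = GR_gal N (σ ^ (j % p)) h := by
  conv_lhs => rw [← Nat.mod_add_div j p]
  rw [pow_add, S40R2P_gal_mul, pow_mul, S40R2P_gal_pow_fix N (hhH _ hσp)]

/-- **`hperm`**: the big group `I¹` permutes the conjugates `(xs k, ys k)`, `k < p`. -/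
theorem S40R2P_perm (hp : 0 < p) (hσ : σ ∈ S40D_I1 A p)
    (hdec : ∀ g ∈ S40D_I1 A p, ∃ k : ℕ, (σ ^ k)⁻¹ * g ∈ H) (hσp : σ ^ p ∈ H)
    {π : Ω} (hπH : ∀ g ∈ H, g π = π)
    {h : ↥(modularFunctionFieldBar N)} (hhH : ∀ g ∈ H, GR_gal N g h = h) :
    ∀ τ ∈ S40D_I1 A p, ∀ k < p, ∃ l < p,
      τ (S40R2P_xs σ π k) = S40R2P_xs σ π l ∧
      GR_gal N τ (S40R2P_ys N σ h k) = S40R2P_ys N σ h l := by
  intro τ hτ k _
  obtain ⟨j, hj⟩ := hdec (τ * σ ^ k) (mul_mem hτ (pow_mem hσ k))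
  have e : τ * σ ^ k = σ ^ j * ((σ ^ j)⁻¹ * (τ * σ ^ k)) := by
    rw [← mul_assoc, mul_inv_cancel, one_mul]
  refine ⟨j % p, Nat.mod_lt _ hp, ?_, ?_⟩
  · unfold S40R2P_xs
    rw [← AlgEquiv.mul_apply, e, AlgEquiv.mul_apply, hπH _ hj]
    exact S40R2P_mod_const H hσp hπH j
  · unfold S40R2P_ys
    rw [← S40R2P_gal_mul, e, S40R2P_gal_mul, hhH _ hj]
    exact S40R2P_mod_fun N H hσp hhH j

/-- **`hinj`**: the conjugates `xs k`, `k < p`, are pairwise distinct. -/
theorem S40R2P_inj (hp : p.Prime) (hσp : σ ^ p ∈ H) {π : Ω} (hπH : ∀ g ∈ H, g π = π)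
    (hσπ : σ π ≠ π) :
    ∀ k < p, ∀ l < p, S40R2P_xs σ π k = S40R2P_xs σ π l → k = l := by
  -- a nonzero exponent `d < p` with `σ^d π = π` is impossible
  have key : ∀ d : ℕ, 0 < d → d < p → (σ ^ d) π ≠ π := by
    intro d hd0 hdp hfix
    have hcop : Nat.Coprime d p :=
      ((Nat.Prime.coprime_iff_not_dvd hp).mpr (Nat.not_dvd_of_pos_of_lt hd0 hdp)).symm
    obtain ⟨m, -, hm⟩ := Nat.exists_mul_mod_eq_one_of_coprime hcop hp.one_lt
    have h1 : (σ ^ (d * m)) π = π := by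
      rw [pow_mul]
      exact S40R2P_pow_fix hfix m
    rw [S40R2P_mod_const H hσp hπH, hm, pow_one] at h1
    exact hσπ h1
  intro k hk l hl hkl
  unfold S40R2P_xs at hkl
  by_contra hne
  rcases Nat.lt_or_gt_of_ne hne with hlt | hgt
  · -- `k < l`
    have e : l = k + (l - k) := by omega
    rw [e, pow_add, AlgEquiv.mul_apply] at hkl
    have h2 := (σ ^ k).injective hkl
    exact key (l - k) (by omega) (by omega) h2.symm
  · have e : k = l + (k - l) := by omega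
    rw [e, pow_add, AlgEquiv.mul_apply] at hkl
    have h2 := (σ ^ l).injective hkl
    exact key (k - l) (by omega) (by omega) h2

end perm

end Fermat.Agent.S40
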