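import Fermat.Agent.S40.PTInst
import Fermat.Agent.S40.F2CInst

/-!
# TRACK 13 (S40/S44, row 38), package P7 (P-T), the WIRE (helper12): (R1) + instance

`S40/F2CInst.lean` (helper17: (R1), the rational trivialisation `N u = c h ^ p`,
`h = a₀ (1 + ϖ g)`) and `S40/PTInst.lean` (helper12: the instance of the abstract (P-T) on
`(NE₁)`, `(NE₂)`) together.  Prefix `S40PTF_`.

Level `M p`, `p ∤ M` prime, `A ⊂ ℚ̄` over `p`, `H ≤ G_ℚ` with a uniformiser `ϖ` of `A ∩ ℚ̄^H`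
(`S33NL2_Unif A H ϖ`), `O₁`, `O₂` the two Gauss valuation rings of `F = ℚ̄(X₀(Mp))`.

* `S40PTF_V1` : `u` fixed by `H`, START at both valuations (`u − 1 ∈ ϖ O₁`, `u − 1 ∈ ϖ O₂`),
  newness (`N₁₂ u` trivial: `GR_IsTriv (M p) p (N₁₂ u)`) ⇒ there is a constant `b ∈ A`, fixed by
  `H`, `b ≡ 1` modulo `𝔪_A`, with `u − b ∈ ϖ ^ n O₁`, for every `n ≤ p` with `p ϖ ∈ ϖ ^ n A`;
* `S40PTF_V2` : the same at `V₂` with `N₂₁`.
-/

set_option autoImplicit false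
set_option synthInstance.maxHeartbeats 400000
set_option maxHeartbeats 1000000
set_option linter.unusedSectionVars false
set_option linter.unusedVariables false
set_option linter.style.haveILetI false

open HahnSeries IntermediateField AlgebraicCurve ModularCurve

noncomputable section

namespace Fermat.Agent.S40

open Fermat.Agent.S18 Fermat.Agent.Lib Fermat.Agent.GalRep Fermat.Agent.S24 Fermat.Agent.S34
  Fermat.Agent.S35 Fermat.Agent.S36 Fermat.Agent.S33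

local notation "Ω" => AlgebraicClosure ℚ

section val

variable {F : Type*} [Field F] (O : ValuationSubring F)

theorem S40PTF_lt_mul {a l : F} (ha : O.valuation a < 1) (hl : l ∈ O) :
    O.valuation (a * l) < 1 := by
  rw [map_mul]
  calc O.valuation a * O.valuation l ≤ O.valuation a * 1 :=
        mul_le_mul' (le_refl _) ((O.valuation_le_one_iff l).2 hl)
    _ = O.valuation a := mul_one _
    _ < 1 := ha

theorem S40PTF_lt_mul' {a l : F} (ha : a ∈ O) (hl : O.valuation l < 1) :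
    O.valuation (a * l) < 1 := by
  rw [mul_comm]
  exact S40PTF_lt_mul O hl ha

theorem S40PTF_lt_add {x y : F} (hx : O.valuation x < 1) (hy : O.valuation y < 1) :
    O.valuation (x + y) < 1 :=
  lt_of_le_of_lt (O.valuation.map_add _ _) (max_lt hx hy)

/-- `u − 1 = a l`, `a` a non-unit, `l` integral ⇒ `u ∈ O`. -/
theorem S40PTF_mem_of_dep {a l u : F} (ha : O.valuation a < 1) (hl : l ∈ O)
    (e : u - 1 = a * l) : u ∈ O := by
  have h1 : u = 1 + a * l := by rw [← e]; ring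
  rw [h1]
  exact O.add_mem _ _ O.one_mem (O.mul_mem _ _ ((O.valuation_le_one_iff a).1 ha.le) hl)

/-- `N ≡ u ≡ 1`. -/
theorem S40PTF_norm_one {u N x : F} (hu : u ∈ O) (hu0 : u ≠ 0) (hu1 : O.valuation (u - 1) < 1)
    (hx : N / u - 1 = x) (hxlt : O.valuation x < 1) : O.valuation (N - 1) < 1 := by
  have e : N - 1 = u * x + (u - 1) := by
    rw [← hx]
    field_simp
    ring
  rw [e]
  exact S40PTF_lt_add O (S40PTF_lt_mul' O hu hxlt) hu1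

end val

section inst

variable (M p : ℕ) [NeZero (M * p)] (hp : p.Prime) (hpM : ¬ p ∣ M)
  (A : ValuationSubring Ω) (hA : A.LiesOverPrime p)
  (hgen : PrincipalGeneratedByIntegral A (IsLocalRing.residue A) (M * p))
  (H : Subgroup (Ω ≃ₐ[ℚ] Ω)) {ϖ : Ω}

include hA in
/-- **(P-T) at `V₁`, complete**: START at both valuations + newness ⇒ `u ≡ b` modulo `ϖ ^ n` at
`V₁`, `b` a constant of `A ∩ ℚ̄^H`, `b ≡ 1`. -/
theorem S40PTF_V1 (hU : S33NL2_Unif A H ϖ) {n : ℕ} (hn : n ≤ p)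
    (hpϖ : ∃ r ∈ A, (p : Ω) * ϖ = ϖ ^ n * r)
    (u : ↥(modularFunctionFieldBar (M * p)))
    (hufix : ∀ τ ∈ H, GR_gal (M * p) τ u = u)
    (hu1 : S33N0_Dep (S34M_T1 M p A hgen).O ϖ u)
    (hu2 : S33N0_Dep (S34M_T2 M p hp hpM A hgen).O ϖ u)
    (hnew : GR_IsTriv (M * p) p (S33N0B_N12 M p hp hpM u)) :
    ∃ b : Ω, b ∈ A ∧ A.valuation (b - 1) < 1 ∧ (∀ τ ∈ H, τ b = b) ∧
      ∃ l ∈ (S34M_T1 M p A hgen).O,
        u - algebraMap Ω ↥(modularFunctionFieldBar (M * p)) b =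
          algebraMap Ω ↥(modularFunctionFieldBar (M * p)) ϖ ^ n * l := by
  have hϖA : ϖ ∈ A := S33ND_unif_mem A H hU
  have hϖ1 : A.valuation ϖ < 1 := hU.lt_one
  have hc1 := S33N0B_const M p A (S34M_T1 M p A hgen) rfl
  have hc2 := S33N0B_const M p A (S34M_T2 M p hp hpM A hgen) rfl
  have hϖO1 := hc1.2 ϖ hϖA hϖ1
  have hϖO2 := hc2.2 ϖ hϖA hϖ1
  -- `u ∈ O₁`, `u ≠ 0`, `u ≡ 1`
  obtain ⟨l1, hl1, e1⟩ := hu1
  have huO : u ∈ (S34M_T1 M p A hgen).O := S40PTF_mem_of_dep _ hϖO1 hl1 e1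
  have hu0 : u ≠ 0 := S33NEZ_ne_zero (S34M_T1 M p A hgen).O hϖO1 hl1 e1
  have hu1' : (S34M_T1 M p A hgen).O.valuation (u - 1) < 1 := by
    rw [e1]
    exact S40PTF_lt_mul _ hϖO1 hl1
  -- `(NE₁)`
  obtain ⟨m₁, hm₁, m₂, hm₂, eN⟩ := S33NEZ_NE1 M p hp hpM A hA hgen ϖ hϖA hϖ1 u hu2
  have hpA : (p : Ω) ∈ A := (A.valuation_le_one_iff _).mp (le_of_lt (A.mem_nonunits_iff.mp hA))
  have hpϖA : (p : Ω) * ϖ ∈ A := A.mul_mem _ _ hpA hϖA
  have hpϖ1 : A.valuation ((p : Ω) * ϖ) < 1 := by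
    rw [mul_comm]
    exact S40PTF_lt_mul A hϖ1 hpA
  have hϖpA : ϖ ^ p ∈ A := A.pow_mem hϖA p
  have hϖp1 : A.valuation (ϖ ^ p) < 1 := by
    obtain ⟨k, hk⟩ := Nat.exists_eq_succ_of_ne_zero hp.ne_zero
    rw [hk, pow_succ]
    exact S40PTF_lt_mul' A (A.pow_mem hϖA k) hϖ1
  have hx : (S34M_T1 M p A hgen).O.valuation
      (algebraMap Ω ↥(modularFunctionFieldBar (M * p)) ((p : Ω) * ϖ) * m₁ +
        algebraMap Ω ↥(modularFunctionFieldBar (M * p)) (ϖ ^ p) * m₂) < 1 :=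
    S40PTF_lt_add _ (S40PTF_lt_mul _ (hc1.2 _ hpϖA hpϖ1) hm₁)
      (S40PTF_lt_mul _ (hc1.2 _ hϖpA hϖp1) hm₂)
  have hf1 : (S34M_T1 M p A hgen).O.valuation (S33N0B_N12 M p hp hpM u - 1) < 1 :=
    S40PTF_norm_one _ huO hu0 hu1' eN hx
  -- `N₁₂ u` is fixed by `H`
  have hfix : ∀ τ ∈ H, GR_gal (M * p) τ (S33N0B_N12 M p hp hpM u) = S33N0B_N12 M p hp hpM u := by
    have h1 : u ∈ (S36FI_act (M * p) H).fixF := (S36FI_mem_fixF (M * p) H).2 hufix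
    exact (S36FI_mem_fixF (M * p) H).1 (S33N0B_N12_fix M p hp hpM H u h1)
  -- (R1)
  obtain ⟨c, a₀, h, g, hN, hH, hg, hca, hca1, hcfix, hafix, -, -⟩ :=
    S40F2CI_R1_V1 M p hp hpM A hA hgen H hU _ hfix hnew hf1
  obtain ⟨l, hl, e⟩ := S40PTI_V1 M p hp hpM A hA hgen hn ϖ hϖA hϖ1 hpϖ u h g c a₀ huO hu2 hN hH
    hg hca
  refine ⟨c * a₀ ^ p, hca, hca1, fun τ hτ => ?_, l, hl, e⟩
  rw [map_mul, map_pow, hcfix τ hτ, hafix τ hτ]

include hA in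
/-- **(P-T) at `V₂`, complete**. -/
theorem S40PTF_V2 (hU : S33NL2_Unif A H ϖ) {n : ℕ} (hn : n ≤ p)
    (hpϖ : ∃ r ∈ A, (p : Ω) * ϖ = ϖ ^ n * r)
    (u : ↥(modularFunctionFieldBar (M * p)))
    (hufix : ∀ τ ∈ H, GR_gal (M * p) τ u = u)
    (hu1 : S33N0_Dep (S34M_T1 M p A hgen).O ϖ u)
    (hu2 : S33N0_Dep (S34M_T2 M p hp hpM A hgen).O ϖ u)
    (hnew : GR_IsTriv (M * p) p (S33N0B_N21 M p hp u)) :
    ∃ b : Ω, b ∈ A ∧ A.valuation (b - 1) < 1 ∧ (∀ τ ∈ H, τ b = b) ∧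
      ∃ l ∈ (S34M_T2 M p hp hpM A hgen).O,
        u - algebraMap Ω ↥(modularFunctionFieldBar (M * p)) b =
          algebraMap Ω ↥(modularFunctionFieldBar (M * p)) ϖ ^ n * l := by
  have hϖA : ϖ ∈ A := S33ND_unif_mem A H hU
  have hϖ1 : A.valuation ϖ < 1 := hU.lt_one
  have hc1 := S33N0B_const M p A (S34M_T1 M p A hgen) rfl
  have hc2 := S33N0B_const M p A (S34M_T2 M p hp hpM A hgen) rfl
  have hϖO1 := hc1.2 ϖ hϖA hϖ1
  have hϖO2 := hc2.2 ϖ hϖA hϖ1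
  obtain ⟨l2, hl2, e2⟩ := hu2
  have huO : u ∈ (S34M_T2 M p hp hpM A hgen).O := S40PTF_mem_of_dep _ hϖO2 hl2 e2
  have hu0 : u ≠ 0 := S33NEZ_ne_zero (S34M_T2 M p hp hpM A hgen).O hϖO2 hl2 e2
  have hu2' : (S34M_T2 M p hp hpM A hgen).O.valuation (u - 1) < 1 := by
    rw [e2]
    exact S40PTF_lt_mul _ hϖO2 hl2
  obtain ⟨m₁, hm₁, m₂, hm₂, eN⟩ := S33NEZ_NE2 M p hp hpM A hA hgen ϖ hϖA hϖ1 u hu1
  have hpA : (p : Ω) ∈ A := (A.valuation_le_one_iff _).mp (le_of_lt (A.mem_nonunits_iff.mp hA))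
  have hpϖA : (p : Ω) * ϖ ∈ A := A.mul_mem _ _ hpA hϖA
  have hpϖ1 : A.valuation ((p : Ω) * ϖ) < 1 := by
    rw [mul_comm]
    exact S40PTF_lt_mul A hϖ1 hpA
  have hϖpA : ϖ ^ p ∈ A := A.pow_mem hϖA p
  have hϖp1 : A.valuation (ϖ ^ p) < 1 := by
    obtain ⟨k, hk⟩ := Nat.exists_eq_succ_of_ne_zero hp.ne_zero
    rw [hk, pow_succ]
    exact S40PTF_lt_mul' A (A.pow_mem hϖA k) hϖ1
  have hx : (S34M_T2 M p hp hpM A hgen).O.valuation
      (algebraMap Ω ↥(modularFunctionFieldBar (M * p)) ((p : Ω) * ϖ) * m₁ +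
        algebraMap Ω ↥(modularFunctionFieldBar (M * p)) (ϖ ^ p) * m₂) < 1 :=
    S40PTF_lt_add _ (S40PTF_lt_mul _ (hc2.2 _ hpϖA hpϖ1) hm₁)
      (S40PTF_lt_mul _ (hc2.2 _ hϖpA hϖp1) hm₂)
  have hf1 : (S34M_T2 M p hp hpM A hgen).O.valuation (S33N0B_N21 M p hp u - 1) < 1 :=
    S40PTF_norm_one _ huO hu0 hu2' eN hx
  have hfix : ∀ τ ∈ H, GR_gal (M * p) τ (S33N0B_N21 M p hp u) = S33N0B_N21 M p hp u := by
    have h1 : u ∈ (S36FI_act (M * p) H).fixF := (S36FI_mem_fixF (M * p) H).2 hufix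
    exact (S36FI_mem_fixF (M * p) H).1 (S33N0B_N21_fix M p hp H u h1)
  obtain ⟨c, a₀, h, g, hN, hH, hg, hca, hca1, hcfix, hafix, -, -⟩ :=
    S40F2CI_R1_V2 M p hp hpM A hA hgen H hU _ hfix hnew hf1
  obtain ⟨l, hl, e⟩ := S40PTI_V2 M p hp hpM A hA hgen hn ϖ hϖA hϖ1 hpϖ u h g c a₀ huO
    hu1 hN hH hg hca
  refine ⟨c * a₀ ^ p, hca, hca1, fun τ hτ => ?_, l, hl, e⟩
  rw [map_mul, map_pow, hcfix τ hτ, hafix τ hτ]

end inst

end Fermat.Agent.S40
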