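import Fermat.Agent.S40.R2DescInst
import Fermat.Agent.S40.PTFull
import Fermat.Agent.S40.F2Break

/-!
# TRACK 13 (S40 / S44, row 38), (R2) START over `F`: the WIRE descent + (P-T) (helper17).
Prefix `S40R2ST_`.

Level `M p`, `p ∤ M` prime, `A ⊂ Ω = ℚ̄` over `p`, `H ≤ I_A` with a uniformiser `ϖ` of `A ∩ Ω^H`,
`O₁`, `O₂` the two Gauss valuation rings of `F = ℚ̄(X₀(Mp))`.

* `S40R2ST_unif` : `1 - ζ` is a uniformiser of `A ∩ Ω^{I¹}` (`S33NL2_Unif A (S40D_I1 A p) (1 - ζ)`);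
* `S40R2ST_dep1`, `S40R2ST_dep2` : an `H`-fixed `w` with `V_j (w − 1) < 1` has depth `ϖ` at `V_j`
  (`S33N0_Dep`): the form of START which `S40PTF_V1/_V2` consume;
* `S40R2ST_N12_const`, `S40R2ST_N21_const` : `N₁₂ c = c ^ D`, `N₂₁ c = c ^ D` on constants;
* `S40R2ST_triv12`, `S40R2ST_triv21` : newness passes from `u` to `c' · u · h' ^ p`;
* **`S40R2ST_main`** : the hypotheses of the descent `S40R2DI_main` (a normalising pair `(c, h)` of
  `u` over the ramified extension, same index at `V₁`, `V₂`) and newness of `u` give an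
  `H`-RATIONAL Kummer generator `u' = c' · u · h' ^ p` of the class of `u` which is congruent
  to constants `b₁`, `b₂ ≡ 1` of `A ∩ Ω^H` modulo `ϖ ^ n` at `V₁` and at `V₂`
  (`n ≤ p`, `p ϖ ∈ ϖ ^ n A`): START + (P-T), step 2 of the chain.
-/

set_option autoImplicit false
set_option synthInstance.maxHeartbeats 400000
set_option maxHeartbeats 1000000
set_option linter.unusedSectionVars false
set_option linter.unusedVariables false
set_option linter.style.haveILetI false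

open HahnSeries IntermediateField AlgebraicCurve ModularCurve

noncomputable section

namespace Fermat.Agent.S40

open Fermat.Agent.S18 Fermat.Agent.Lib Fermat.Agent.GalRep Fermat.Agent.S24 Fermat.Agent.S34
  Fermat.Agent.S35 Fermat.Agent.S36 Fermat.Agent.S33

local notation "Ω" => AlgebraicClosure ℚ

section unif

variable {p : ℕ} [hp : Fact p.Prime] (A : ValuationSubring Ω)

/-- `1 - ζ` is a uniformiser of `A ∩ Ω^{I¹}`. -/
theorem S40R2ST_unif (hA : A.LiesOverPrime p) {ζ : Ω} (hprim : IsPrimitiveRoot ζ p) :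
    S33NL2_Unif A (S40D_I1 A p) (1 - ζ) :=
  { fixed := fun g hg => by
      rw [map_sub, map_one, (S40D_mem_I1.1 hg).2 ζ hprim.pow_eq_one]
    lt_one := S33BZ_val_one_sub_lt A hA hprim
    ne_zero := S33BZ_one_sub_ne_zero hprim
    dv := fun x hx hx0 => by
      obtain ⟨m, hm⟩ := S33BZ_val_eq A hA hprim hx0
        (fun τ hτ hτζ => hx τ (S40F2B_mem_I1 A hprim hτ hτζ))
      exact ⟨-m, by
        rw [map_mul, map_zpow₀, hm,
          ← zpow_add₀ ((map_ne_zero A.valuation).mpr (S33BZ_one_sub_ne_zero hprim)),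
          add_neg_cancel, zpow_zero]⟩ }

end unif

section inst

variable (M p : ℕ) [NeZero (M * p)] (hp : p.Prime) (hpM : ¬ p ∣ M)
  (A : ValuationSubring Ω) (hA : A.LiesOverPrime p)
  (hgen : PrincipalGeneratedByIntegral A (IsLocalRing.residue A) (M * p))
  (H : Subgroup (Ω ≃ₐ[ℚ] Ω)) {ϖ : Ω}

include hp hpM hA in
/-- an `H`-fixed `w ≡ 1` at `V₁` has depth `ϖ` at `V₁`. -/
theorem S40R2ST_dep1 (hU : S33NL2_Unif A H ϖ) (w : ↥(modularFunctionFieldBar (M * p)))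
    (hw : ∀ τ ∈ H, GR_gal (M * p) τ w = w)
    (h1 : (S34M_T1 M p A hgen).O.valuation (w - 1) < 1) :
    S33N0_Dep (S34M_T1 M p A hgen).O ϖ w := by
  have hϖF : algebraMap Ω ↥(modularFunctionFieldBar (M * p)) ϖ ∈ (S36FI_act (M * p) H).fixF :=
    S40F2CI_C_le M p H (S40F2CI_mem_C M p H ((S36FI_mem_fixK (M * p) H).2 hU.fixed))
  have hϖ1 : (S34M_T1 M p A hgen).O.valuation
      (algebraMap Ω ↥(modularFunctionFieldBar (M * p)) ϖ) < 1 :=
    (S33N0B_const M p A (S34M_T1 M p A hgen) rfl).2 ϖ (S33ND_unif_mem A H hU) hU.lt_one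
  have hwF : w - 1 ∈ (S36FI_act (M * p) H).fixF :=
    sub_mem ((S36FI_mem_fixF (M * p) H).2 hw) (one_mem _)
  obtain ⟨t, -, ht, e⟩ := S40F2C_div (S34M_T1 M p A hgen).O (S36FI_act (M * p) H).fixF _ hϖF
    ((map_ne_zero _).mpr hU.ne_zero) hϖ1 (S40F2CI_dv1 M p hp hpM A hA hgen H hU) hwF h1
  exact ⟨t, ((S34M_T1 M p A hgen).O.valuation_le_one_iff t).mp ht, e⟩

include hp hpM hA in
/-- an `H`-fixed `w ≡ 1` at `V₂` has depth `ϖ` at `V₂`. -/
theorem S40R2ST_dep2 (hU : S33NL2_Unif A H ϖ) (w : ↥(modularFunctionFieldBar (M * p)))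
    (hw : ∀ τ ∈ H, GR_gal (M * p) τ w = w)
    (h1 : (S34M_T2 M p hp hpM A hgen).O.valuation (w - 1) < 1) :
    S33N0_Dep (S34M_T2 M p hp hpM A hgen).O ϖ w := by
  have hϖF : algebraMap Ω ↥(modularFunctionFieldBar (M * p)) ϖ ∈ (S36FI_act (M * p) H).fixF :=
    S40F2CI_C_le M p H (S40F2CI_mem_C M p H ((S36FI_mem_fixK (M * p) H).2 hU.fixed))
  have hϖ1 : (S34M_T2 M p hp hpM A hgen).O.valuation
      (algebraMap Ω ↥(modularFunctionFieldBar (M * p)) ϖ) < 1 :=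
    (S33N0B_const M p A (S34M_T2 M p hp hpM A hgen) rfl).2 ϖ (S33ND_unif_mem A H hU) hU.lt_one
  have hwF : w - 1 ∈ (S36FI_act (M * p) H).fixF :=
    sub_mem ((S36FI_mem_fixF (M * p) H).2 hw) (one_mem _)
  obtain ⟨t, -, ht, e⟩ := S40F2C_div (S34M_T2 M p hp hpM A hgen).O (S36FI_act (M * p) H).fixF _
    hϖF ((map_ne_zero _).mpr hU.ne_zero) hϖ1 (S40F2CI_dv2 M p hp hpM A hA hgen H hU) hwF h1
  exact ⟨t, ((S34M_T2 M p hp hpM A hgen).O.valuation_le_one_iff t).mp ht, e⟩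

/-- `N₁₂ c = c ^ D` on constants. -/
theorem S40R2ST_N12_const (c : Ω) :
    S33N0B_N12 M p hp hpM (algebraMap Ω ↥(modularFunctionFieldBar (M * p)) c) =
      algebraMap Ω ↥(modularFunctionFieldBar (M * p)) (c ^ S36XN_deg M p) := by
  haveI := S33N0B_neZero_left M p
  haveI := S33N0B_neZero_right M p
  have h : S35B_NA M p (algebraMap Ω ↥(modularFunctionFieldBar (M * p)) c) =
      algebraMap Ω ↥(modularFunctionFieldBar M) (c ^ S36XN_deg M p) :=
    S36XN_normAlpha_const M p hp c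
  rw [S33N0B_N12_apply, h]
  exact AlgHom.commutes _ _

/-- `N₂₁ c = c ^ D` on constants. -/
theorem S40R2ST_N21_const (c : Ω) :
    S33N0B_N21 M p hp (algebraMap Ω ↥(modularFunctionFieldBar (M * p)) c) =
      algebraMap Ω ↥(modularFunctionFieldBar (M * p)) (c ^ S36XN_deg M p) := by
  haveI := S33N0B_neZero_left M p
  haveI := S33N0B_neZero_right M p
  have h : S35B_NB M p (algebraMap Ω ↥(modularFunctionFieldBar (M * p)) c) =
      algebraMap Ω ↥(modularFunctionFieldBar M) (c ^ S36XN_deg M p) :=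
    S36XN_normBeta_const M p hp c
  rw [S33N0B_N21_apply, h]
  exact AlgHom.commutes _ _

/-- newness (`N₁₂`) passes from `u` to `c' · u · h' ^ p`. -/
theorem S40R2ST_triv12 (u h' : ↥(modularFunctionFieldBar (M * p))) (c' : Ω) (hc' : c' ≠ 0)
    (hh' : h' ≠ 0) (hnew : GR_IsTriv (M * p) p (S33N0B_N12 M p hp hpM u)) :
    GR_IsTriv (M * p) p (S33N0B_N12 M p hp hpM
      (algebraMap Ω ↥(modularFunctionFieldBar (M * p)) c' * u * h' ^ p)) := by
  obtain ⟨c, g, hc, hg, e⟩ := hnew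
  refine ⟨c' ^ S36XN_deg M p * c, g * S33N0B_N12 M p hp hpM h',
    mul_ne_zero (pow_ne_zero _ hc') hc, mul_ne_zero hg ((map_ne_zero _).mpr hh'), ?_⟩
  rw [map_mul, map_mul, map_pow, S40R2ST_N12_const, e, map_mul, mul_pow]
  ring

/-- newness (`N₂₁`) passes from `u` to `c' · u · h' ^ p`. -/
theorem S40R2ST_triv21 (u h' : ↥(modularFunctionFieldBar (M * p))) (c' : Ω) (hc' : c' ≠ 0)
    (hh' : h' ≠ 0) (hnew : GR_IsTriv (M * p) p (S33N0B_N21 M p hp u)) :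
    GR_IsTriv (M * p) p (S33N0B_N21 M p hp
      (algebraMap Ω ↥(modularFunctionFieldBar (M * p)) c' * u * h' ^ p)) := by
  obtain ⟨c, g, hc, hg, e⟩ := hnew
  refine ⟨c' ^ S36XN_deg M p * c, g * S33N0B_N21 M p hp h',
    mul_ne_zero (pow_ne_zero _ hc') hc, mul_ne_zero hg ((map_ne_zero _).mpr hh'), ?_⟩
  rw [map_mul, map_mul, map_pow, S40R2ST_N21_const, e, map_mul, mul_pow]
  ring

include hA in
/-- **(R2) START + (P-T)**: the descent `S40R2DI_main` and `S40PTF_V1/_V2` together. -/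
theorem S40R2ST_main (hU : S33NL2_Unif A H ϖ) (hHI : H ≤ A.inertiaSubgroupIn ℚ)
    (π : Ω) (hπ0 : π ≠ 0) (hπ1 : A.valuation π < 1)
    (hπp : A.valuation π ^ p = A.valuation ϖ)
    (xs : ℕ → Ω) (ys : ℕ → ↥(modularFunctionFieldBar (M * p)))
    (hinj : ∀ k < p, ∀ l < p, xs k = xs l → k = l)
    (hperm : ∀ τ ∈ H, ∀ k < p, ∃ l < p, τ (xs k) = xs l ∧ GR_gal (M * p) τ (ys k) = ys l)
    (hx0 : xs 0 = π)
    (u : ↥(modularFunctionFieldBar (M * p))) (c : Ω)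
    (hu : ∀ τ ∈ H, GR_gal (M * p) τ u = u) (hh0 : ys 0 ≠ 0)
    (hy1 : (S34M_T1 M p A hgen).O.valuation
      (algebraMap Ω ↥(modularFunctionFieldBar (M * p)) c * u * ys 0 ^ p - 1) < 1)
    (hy2 : (S34M_T2 M p hp hpM A hgen).O.valuation
      (algebraMap Ω ↥(modularFunctionFieldBar (M * p)) c * u * ys 0 ^ p - 1) < 1)
    (i : ℕ) (hi : i < p) (k₁ k₂ : ℤ)
    (hv1 : (S34M_T1 M p A hgen).O.valuation (ys 0) =
      (S34M_T1 M p A hgen).O.valuation (algebraMap Ω ↥(modularFunctionFieldBar (M * p)) ϖ) ^ k₁ *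
      (S34M_T1 M p A hgen).O.valuation (algebraMap Ω ↥(modularFunctionFieldBar (M * p)) π) ^ i)
    (hv2 : (S34M_T2 M p hp hpM A hgen).O.valuation (ys 0) =
      (S34M_T2 M p hp hpM A hgen).O.valuation
        (algebraMap Ω ↥(modularFunctionFieldBar (M * p)) ϖ) ^ k₂ *
      (S34M_T2 M p hp hpM A hgen).O.valuation
        (algebraMap Ω ↥(modularFunctionFieldBar (M * p)) π) ^ i)
    {n : ℕ} (hn : n ≤ p) (hpϖ : ∃ r ∈ A, (p : Ω) * ϖ = ϖ ^ n * r)
    (hnew12 : GR_IsTriv (M * p) p (S33N0B_N12 M p hp hpM u))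
    (hnew21 : GR_IsTriv (M * p) p (S33N0B_N21 M p hp u)) :
    ∃ (c' : Ω) (h' : ↥(modularFunctionFieldBar (M * p))),
      c' ≠ 0 ∧ h' ≠ 0 ∧ (∀ τ ∈ H, τ c' = c') ∧ (∀ τ ∈ H, GR_gal (M * p) τ h' = h') ∧
      (∃ b : Ω, b ∈ A ∧ A.valuation (b - 1) < 1 ∧ (∀ τ ∈ H, τ b = b) ∧
        ∃ l ∈ (S34M_T1 M p A hgen).O,
          algebraMap Ω ↥(modularFunctionFieldBar (M * p)) c' * u * h' ^ p -
            algebraMap Ω ↥(modularFunctionFieldBar (M * p)) b =
            algebraMap Ω ↥(modularFunctionFieldBar (M * p)) ϖ ^ n * l) ∧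
      (∃ b : Ω, b ∈ A ∧ A.valuation (b - 1) < 1 ∧ (∀ τ ∈ H, τ b = b) ∧
        ∃ l ∈ (S34M_T2 M p hp hpM A hgen).O,
          algebraMap Ω ↥(modularFunctionFieldBar (M * p)) c' * u * h' ^ p -
            algebraMap Ω ↥(modularFunctionFieldBar (M * p)) b =
            algebraMap Ω ↥(modularFunctionFieldBar (M * p)) ϖ ^ n * l) := by
  obtain ⟨c', h', hc'fix, hh'fix, hh'0, h1, h2⟩ := S40R2DI_main M p hp hpM A hA hgen H hU hHI π
    hπ0 hπ1 hπp xs ys hinj hperm hx0 u c hu hh0 hy1 hy2 i hi k₁ k₂ hv1 hv2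
  have hc'0 : c' ≠ 0 := by
    rintro rfl
    rw [map_zero, zero_mul, zero_mul, zero_sub, Valuation.map_neg, map_one] at h1
    exact lt_irrefl _ h1
  have hu'fix : ∀ τ ∈ H, GR_gal (M * p) τ
      (algebraMap Ω ↥(modularFunctionFieldBar (M * p)) c' * u * h' ^ p) =
      algebraMap Ω ↥(modularFunctionFieldBar (M * p)) c' * u * h' ^ p := by
    intro τ hτ
    have hcF : algebraMap Ω ↥(modularFunctionFieldBar (M * p)) c' ∈
        (S36FI_act (M * p) H).fixF :=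
      S40F2CI_C_le M p H (S40F2CI_mem_C M p H ((S36FI_mem_fixK (M * p) H).2 hc'fix))
    rw [map_mul, map_mul, map_pow, hu τ hτ, hh'fix τ hτ,
      (S36FI_mem_fixF (M * p) H).1 hcF τ hτ]
  have hd1 := S40R2ST_dep1 M p hp hpM A hA hgen H hU _ hu'fix h1
  have hd2 := S40R2ST_dep2 M p hp hpM A hA hgen H hU _ hu'fix h2
  refine ⟨c', h', hc'0, hh'0, hc'fix, hh'fix, ?_, ?_⟩
  · exact S40PTF_V1 M p hp hpM A hA hgen H hU hn hpϖ _ hu'fix hd1 hd2
      (S40R2ST_triv12 M p hp hpM u h' c' hc'0 hh'0 hnew12)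
  · exact S40PTF_V2 M p hp hpM A hA hgen H hU hn hpϖ _ hu'fix hd1 hd2
      (S40R2ST_triv21 M p hp u h' c' hc'0 hh'0 hnew21)

end inst

end Fermat.Agent.S40
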