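import Fermat.Agent.S40.F2AsmTop
import Fermat.Agent.S40.R2Start
import Fermat.Agent.S40.R2Hy
import Fermat.Agent.S40.R2Perm
import Fermat.Agent.S40.R2New
import Fermat.Agent.S40.Geo5Wire

/-!
# TRACK 13 (S40 / S44, row 38), the leaf START of the node chain: TOP plumbing (helper17).
Prefix `S40R2Z_`.

`S40R2Z_start` : for every datum `S40F2AT_Data` (the output of `S40F2GK2_top`) and `x ∈ V`,
the leaf `S40F2AT_Start` of helper16's `S40F2AT_node` follows from ONE hypothesis,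
`S40R2Z_HV` (the hypotheses `hv1`, `hv2` of `S40R2ST_main`: the normalising function `h` of
every descent relation `σ ux = c · ux · u_z · h ^ p` has THE SAME index `i < p` at `V₁`, `V₂`).

Wired inside:
* `ux` := `S40F2D_gen_fixed` (an `H`-rational generator of `x`), `u_z` := `S40F2D_gen_fixed`
  (an `I¹`-rational generator of `z = σ x − x`), `(c, h)` := `S40F2D_triv_fixed`;
* `hy1`, `hy2` := `S40R2Y_hy` with `S40R2Y_break` (helper28);
* `xs`, `ys`, `hperm`, `hinj` := `S40R2P_*` (helper23);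
* `hnew12`, `hnew21` := `S40R2N_new12/_new21`;
* `hpϖ` := `S40R2Z_hpϖ`, `n := p`, `S40R2ST_unif`;
* `S40R2ST_main`, then the conversion `S40R2Z_conv`.
-/

set_option autoImplicit false
set_option synthInstance.maxHeartbeats 400000
set_option maxHeartbeats 2000000
set_option linter.unusedSectionVars false
set_option linter.unusedVariables false
set_option linter.style.haveILetI false

open HahnSeries IntermediateField AlgebraicCurve ModularCurve

noncomputable section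

namespace Fermat.Agent.S40

open WeierstrassCurve Fermat.Agent.Lib Fermat.Agent.S18 Fermat.Agent.S24 Fermat.Agent.S34
  Fermat.Agent.S35 Fermat.Agent.S36 Fermat.Agent.GalRep Fermat.Agent.S33 Fermat.Agent.S19

local notation "Ω" => AlgebraicClosure ℚ
local notation "Γ" => (AlgebraicClosure ℚ ≃ₐ[ℚ] AlgebraicClosure ℚ)

section arith

variable (A : ValuationSubring Ω)

/-- `p · ϖ ∈ ϖ ^ p · A` if `v(ϖ) ^ (p - 1) = v(p)`. -/
theorem S40R2Z_hpϖ {p : ℕ} (hp : 1 ≤ p) {ϖ : Ω} (hϖ0 : ϖ ≠ 0)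
    (hvp : A.valuation ϖ ^ (p - 1) = A.valuation (p : Ω)) :
    ∃ r ∈ A, (p : Ω) * ϖ = ϖ ^ p * r := by
  refine ⟨(p : Ω) / ϖ ^ (p - 1), ?_, ?_⟩
  · rw [← A.valuation_le_one_iff, map_div₀, map_pow, hvp]
    rcases eq_or_ne (A.valuation (p : Ω)) 0 with h0 | h0
    · rw [h0, div_zero]
      exact zero_le_one
    · rw [div_self h0]
  · have hpow : ϖ ^ p = ϖ ^ (p - 1) * ϖ := by
      rw [← pow_succ, Nat.sub_add_cancel hp]
    rw [hpow]
    field_simp

theorem S40R2Z_val_one {b : Ω} (hb : A.valuation (b - 1) < 1) : A.valuation b = 1 := by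
  have e : b = 1 + (b - 1) := by ring
  rw [e]
  exact A.valuation.map_one_add_of_lt hb

/-- the break moves `π`. -/
theorem S40R2Z_break_ne {σ : Γ} {π c r : Ω} {t : ℕ} (hπ0 : π ≠ 0)
    (hπ1 : A.valuation π < 1) (hvc : A.valuation c = 1) (hvr : A.valuation r ≤ 1)
    (hunif : σ π = π * (1 + c * π ^ t) + π ^ (t + 2) * r) : σ π ≠ π := by
  intro h
  rw [h] at hunif
  have e : π ^ (t + 1) * (c + π * r) = 0 := by linear_combination (-1 : Ω) * hunif
  have e2 : c + π * r = 0 := by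
    rcases mul_eq_zero.1 e with h1 | h1
    · exact absurd (pow_eq_zero_iff (Nat.succ_ne_zero t) |>.1 h1) hπ0
    · exact h1
  have e3 : c = -(π * r) := by linear_combination e2
  have h4 : A.valuation c < 1 := by
    rw [e3, Valuation.map_neg, map_mul]
    calc A.valuation π * A.valuation r ≤ A.valuation π * 1 := mul_le_mul' le_rfl hvr
      _ = A.valuation π := mul_one _
      _ < 1 := hπ1
  rw [hvc] at h4
  exact lt_irrefl _ h4

/-- a uniformiser of the small group, from the discreteness of the datum. -/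
theorem S40R2Z_unif (H : Subgroup Γ) {π : Ω} (hπH : ∀ g ∈ H, g π = π) (hπ0 : π ≠ 0)
    (hπ1 : A.valuation π < 1)
    (hdisc : ∀ x : Ω, x ≠ 0 → (∀ g ∈ H, g x = x) →
      ∃ k : ℤ, A.valuation x = A.valuation π ^ k) :
    S33NL2_Unif A H π :=
  { fixed := hπH
    lt_one := hπ1
    ne_zero := hπ0
    dv := fun x hx hx0 => by
      obtain ⟨k, hk⟩ := hdisc x hx0 hx
      exact ⟨-k, by
        rw [map_mul, map_zpow₀, hk, ← zpow_add₀ ((map_ne_zero A.valuation).mpr hπ0),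
          add_neg_cancel, zpow_zero]⟩ }

end arith

section gen

variable {N : ℕ} [NeZero N]

/-- `c' · u · h' ^ n` is again a Kummer generator of the class of `u`. -/
theorem S40R2Z_isGen {n : ℕ} {x : JZero N} {u : ↥(modularFunctionFieldBar N)}
    (h : S33DG_IsGen n x u) {c' : Ω} (hc' : c' ≠ 0) {h' : ↥(modularFunctionFieldBar N)}
    (hh' : h' ≠ 0) :
    S33DG_IsGen n x (algebraMap Ω ↥(modularFunctionFieldBar N) c' * u * h' ^ n) := by
  have e : algebraMap Ω ↥(modularFunctionFieldBar N) c' * u * h' ^ n =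
      u * (algebraMap Ω ↥(modularFunctionFieldBar N) c' * h' ^ n) := by ring
  rw [e]
  exact S40G5W_isGen_mul_triv h ⟨c', h', hc', hh', rfl⟩

end gen

section defs

variable (M p : ℕ) [NeZero (M * p)] (hp : p.Prime) (hpM : ¬ p ∣ M)
  (A : ValuationSubring Ω)
  (hgen : PrincipalGeneratedByIntegral A (IsLocalRing.residue A) (M * p))

/-- **`hv1`, `hv2` as ONE hypothesis**: for EVERY descent relation
`σ ux = c · ux · u_z · h ^ p` (`ux` an `H`-rational generator of `x`, `u_z` an `I¹`-rational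
generator of `z = σ x − x`, `c`, `h` fixed by `H`), the function `h` has THE SAME index `i < p`
at `V₁` and at `V₂`. -/
def S40R2Z_HV (ζ : Ω) (σ : Γ) (H : Subgroup Γ) (π : Ω) (x : JZero (M * p)) : Prop :=
  ∀ (ux u_z h : ↥(modularFunctionFieldBar (M * p))) (c : Ω),
    S33DG_IsGen p x ux → (∀ g ∈ H, GR_gal (M * p) g ux = ux) →
    S33DG_IsGen p (σ • x - x) u_z → (∀ g ∈ S40D_I1 A p, GR_gal (M * p) g u_z = u_z) →
    c ≠ 0 → h ≠ 0 → (∀ g ∈ H, g c = c) → (∀ g ∈ H, GR_gal (M * p) g h = h) →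
    GR_gal (M * p) σ ux =
      algebraMap Ω ↥(modularFunctionFieldBar (M * p)) c * ux * u_z * h ^ p →
    ∃ i < p, ∃ k₁ k₂ : ℤ,
      (S34M_T1 M p A hgen).O.valuation h =
        (S34M_T1 M p A hgen).O.valuation
          (algebraMap Ω ↥(modularFunctionFieldBar (M * p)) (1 - ζ)) ^ k₁ *
        (S34M_T1 M p A hgen).O.valuation
          (algebraMap Ω ↥(modularFunctionFieldBar (M * p)) π) ^ i ∧
      (S34M_T2 M p hp hpM A hgen).O.valuation h =
        (S34M_T2 M p hp hpM A hgen).O.valuation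
          (algebraMap Ω ↥(modularFunctionFieldBar (M * p)) (1 - ζ)) ^ k₂ *
        (S34M_T2 M p hp hpM A hgen).O.valuation
          (algebraMap Ω ↥(modularFunctionFieldBar (M * p)) π) ^ i

/-- **START, the conversion**: the conclusion of `S40R2ST_main` / `S40R2W_start` at
`H := S40D_I1 A p`, `ϖ := 1 - ζ`, `n := p`, for a Kummer generator `u` of `z` fixed by `I¹`,
gives the leaf START of the node chain for every `(σ, H', t)` with `σ ∈ I¹`, `H' ≤ I¹`,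
`t ≤ p - 1`. -/
theorem S40R2Z_conv (ζ : Ω) (σ : Γ) (H' : Subgroup Γ) (t : ℕ)
    (ht : t ≤ p - 1) (hσ : σ ∈ S40D_I1 A p) (hH' : ∀ g ∈ H', g ∈ S40D_I1 A p)
    (z : JZero (M * p)) (u : ↥(modularFunctionFieldBar (M * p)))
    (hu : S33DG_IsGen p z u) (huI : ∀ τ ∈ S40D_I1 A p, GR_gal (M * p) τ u = u)
    (hst : ∃ (c' : Ω) (h' : ↥(modularFunctionFieldBar (M * p))),
      c' ≠ 0 ∧ h' ≠ 0 ∧ (∀ τ ∈ S40D_I1 A p, τ c' = c') ∧
      (∀ τ ∈ S40D_I1 A p, GR_gal (M * p) τ h' = h') ∧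
      (∃ b : Ω, b ∈ A ∧ A.valuation (b - 1) < 1 ∧ (∀ τ ∈ S40D_I1 A p, τ b = b) ∧
        ∃ l ∈ (S34M_T1 M p A hgen).O,
          algebraMap Ω ↥(modularFunctionFieldBar (M * p)) c' * u * h' ^ p -
            algebraMap Ω ↥(modularFunctionFieldBar (M * p)) b =
            algebraMap Ω ↥(modularFunctionFieldBar (M * p)) (1 - ζ) ^ p * l) ∧
      (∃ b : Ω, b ∈ A ∧ A.valuation (b - 1) < 1 ∧ (∀ τ ∈ S40D_I1 A p, τ b = b) ∧
        ∃ l ∈ (S34M_T2 M p hp hpM A hgen).O,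
          algebraMap Ω ↥(modularFunctionFieldBar (M * p)) c' * u * h' ^ p -
            algebraMap Ω ↥(modularFunctionFieldBar (M * p)) b =
            algebraMap Ω ↥(modularFunctionFieldBar (M * p)) (1 - ζ) ^ p * l)) :
    ∃ (u_z : ↥(modularFunctionFieldBar (M * p))) (n : ℕ) (b₁ b₂ : Ω),
      S33DG_IsGen p z u_z ∧
      (∀ g ∈ H', GR_gal (M * p) g u_z = u_z) ∧ GR_gal (M * p) σ u_z = u_z ∧
      p * t + 1 ≤ p * n ∧
      (∀ g ∈ H', g b₁ = b₁) ∧ A.valuation b₁ = 1 ∧ (∀ g ∈ H', g b₂ = b₂) ∧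
      A.valuation b₂ = 1 ∧
      (∃ l ∈ S34DF_O1 M p A hgen,
        u_z - algebraMap Ω ↥(modularFunctionFieldBar (M * p)) b₁ =
          algebraMap Ω ↥(modularFunctionFieldBar (M * p)) (1 - ζ) ^ n * l) ∧
      (∃ l ∈ S34DF_O2 M p hp hpM A hgen,
        u_z - algebraMap Ω ↥(modularFunctionFieldBar (M * p)) b₂ =
          algebraMap Ω ↥(modularFunctionFieldBar (M * p)) (1 - ζ) ^ n * l) := by
  obtain ⟨c', h', hc', hh', hc'I, hh'I, ⟨b₁, -, hb₁, hb₁I, l₁, hl₁, e₁⟩,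
    ⟨b₂, -, hb₂, hb₂I, l₂, hl₂, e₂⟩⟩ := hst
  have hfix : ∀ τ ∈ S40D_I1 A p, GR_gal (M * p) τ
      (algebraMap Ω ↥(modularFunctionFieldBar (M * p)) c' * u * h' ^ p) =
      algebraMap Ω ↥(modularFunctionFieldBar (M * p)) c' * u * h' ^ p := by
    intro τ hτ
    rw [map_mul, map_mul, map_pow, S36LD_gal_algebraMap, hc'I τ hτ, huI τ hτ, hh'I τ hτ]
  have hpt : p * t + 1 ≤ p * p := by
    have h1 : 1 ≤ p := hp.one_le
    calc p * t + 1 ≤ p * (p - 1) + 1 := by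
          exact Nat.add_le_add_right (Nat.mul_le_mul_left p ht) 1
      _ ≤ p * (p - 1) + p := Nat.add_le_add_left h1 _
      _ = p * p := by
          obtain ⟨k, rfl⟩ : ∃ k, p = k + 1 := ⟨p - 1, (Nat.sub_add_cancel h1).symm⟩
          simp only [Nat.add_sub_cancel]
          ring
  refine ⟨algebraMap Ω ↥(modularFunctionFieldBar (M * p)) c' * u * h' ^ p, p, b₁, b₂,
    S40R2Z_isGen hu hc' hh', fun g hg => hfix g (hH' g hg), hfix σ hσ, hpt,
    fun g hg => hb₁I g (hH' g hg), S40R2Z_val_one A hb₁,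
    fun g hg => hb₂I g (hH' g hg), S40R2Z_val_one A hb₂,
    ⟨l₁, ?_, e₁⟩, ⟨l₂, ?_, e₂⟩⟩
  · rw [← S34M_T1_O]
    exact hl₁
  · rw [← S34M_T2_O]
    exact hl₂

end defs

section inst

variable (M p : ℕ) [NeZero M] [NeZero (M * p)] [NeZero p] (hp : p.Prime) (hpM : ¬ p ∣ M)
  (A : ValuationSubring Ω) (hA : A.LiesOverPrime p)
  (hgen : PrincipalGeneratedByIntegral A (IsLocalRing.residue A) (M * p))

include hA in
/-- **the leaf START of the node chain** from `S40R2Z_HV`. -/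
theorem S40R2Z_start (V : AddSubgroup (JZero (M * p))) (hVp : ∀ y ∈ V, p • y = 0)
    (hNew : ∀ y ∈ V, S40DJ_New M p y) {ζ₀ : Ω} (hprim : IsPrimitiveRoot ζ₀ p)
    (x : JZero (M * p)) (hxV : x ∈ V) (σ : Γ) (H : Subgroup Γ) (π c r : Ω) (t : ℕ)
    (hData : S40F2AT_Data M p A V ζ₀ σ H π c r t)
    (hHV : S40R2Z_HV M p hp hpM A hgen ζ₀ σ H π x) :
    S40F2AT_Start M p hp hpM A hgen ζ₀ σ H t x := by
  obtain ⟨⟨hσ, hHVfix, hcyc, hσpV, hz, hHI, hdec, hconj, hnorm, hσp⟩, ht1, htp, hπH, hcH, hrH,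
    hvπ, hvc, hvr, hunif, hdisc, hπC, hπ0, hπ1, hval, hcC, hζ₀⟩ := hData
  haveI : Fact p.Prime := ⟨hp⟩
  obtain ⟨hzV, hzI⟩ := hz x hxV
  -- the generators
  obtain ⟨ux, hux, huxH, -⟩ := S40F2D_gen_fixed (N := M * p) (H : Set Γ) p hp.pos x
    (hVp x hxV) (fun τ hτ => hHVfix τ hτ x hxV)
  obtain ⟨u_z, huz, huzI, -⟩ := S40F2D_gen_fixed (N := M * p) (S40D_I1 A p : Set Γ) p hp.pos
    (σ • x - x) (hVp _ hzV) (fun τ hτ => hzI τ hτ)
  have hux0 : ux ≠ 0 := S33DG_isGen_ne_zero hux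
  have huz0 : u_z ≠ 0 := S33DG_isGen_ne_zero huz
  -- the descent relation
  have htriv := S40F2D_quot (M * p) hux σ rfl huz
  have hσux : ∀ τ ∈ H, GR_gal (M * p) τ (GR_gal (M * p) σ ux) = GR_gal (M * p) σ ux := by
    intro τ hτ
    have e : τ * σ = σ * (σ⁻¹ * τ * σ) := by
      rw [← mul_assoc, ← mul_assoc, mul_inv_cancel, one_mul]
    rw [← S40R2P_gal_mul, e, S40R2P_gal_mul, huxH _ (hnorm τ hτ)]
  have htfix : ∀ τ ∈ (H : Set Γ), GR_gal (M * p) τ (GR_gal (M * p) σ ux * ux⁻¹ * u_z⁻¹) =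
      GR_gal (M * p) σ ux * ux⁻¹ * u_z⁻¹ := by
    intro τ hτ
    rw [map_mul, map_mul, map_inv₀, map_inv₀, hσux τ hτ, huxH τ hτ, huzI τ (hHI τ hτ)]
  obtain ⟨c₀, h₀, hc₀, hh₀, hpres, hc₀H, hh₀H⟩ :=
    S40F2D_triv_fixed (M * p) (H : Set Γ) p hp.pos _ htriv htfix
  have hrel : GR_gal (M * p) σ ux =
      algebraMap Ω ↥(modularFunctionFieldBar (M * p)) c₀ * ux * u_z * h₀ ^ p := by
    have e : GR_gal (M * p) σ ux = (GR_gal (M * p) σ ux * ux⁻¹ * u_z⁻¹) * ux * u_z := by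
      field_simp
    rw [e, hpres]
    ring
  -- `hy1`, `hy2`
  have hUs : S33NL2_Unif A H π := S40R2Z_unif A H hπH hπ0 hπ1 hdisc
  have hσin : σ ∈ A.inertiaSubgroupIn ℚ := (S40D_mem_I1.1 hσ).1
  have hσπ : A.valuation (σ π / π - 1) < 1 :=
    S40R2Y_break A ht1 hπ0 hπ1 hvc.le hvr hunif
  obtain ⟨hy1, hy2⟩ := S40R2Y_hy M p hp hpM A hA hgen H hUs σ hσin hσπ huxH hux0 hrel
  -- `hv1`, `hv2`
  obtain ⟨i, hi, k₁, k₂, hv1, hv2⟩ := hHV ux u_z h₀ c₀ hux huxH huz huzI hc₀ hh₀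
    (fun g hg => hc₀H g hg) (fun g hg => hh₀H g hg) hrel
  -- the conjugates
  have hy0 : S40R2P_ys (M * p) σ h₀ 0 = h₀ := S40R2P_y0 (M * p) h₀
  have hperm := S40R2P_perm (M * p) A H hp.pos hσ hdec hσp hπH (h := h₀)
    (fun g hg => hh₀H g hg)
  have hinj := S40R2P_inj H hp hσp hπH (S40R2Z_break_ne A hπ0 hπ1 hvc hvr hunif)
  -- START + (P-T)
  have hϖ0 : (1 : Ω) - ζ₀ ≠ 0 := (S40R2ST_unif A hA hprim).ne_zero
  have hst := S40R2ST_main M p hp hpM A hA hgen (S40D_I1 A p) (S40R2ST_unif A hA hprim)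
    (fun g hg => (S40D_mem_I1.1 hg).1) π hπ0 hπ1 hvπ (S40R2P_xs σ π) (S40R2P_ys (M * p) σ h₀)
    hinj hperm (S40R2P_x0 π) u_z c₀ huzI (by rw [hy0]; exact hh₀)
    (by rw [hy0]; exact hy1) (by rw [hy0]; exact hy2) i hi k₁ k₂
    (by rw [hy0]; exact hv1) (by rw [hy0]; exact hv2) (n := p) le_rfl
    (S40R2Z_hpϖ A hp.one_le hϖ0 hζ₀)
    (S40R2N_new12 M p hp hpM (hNew _ hzV) huz) (S40R2N_new21 M p hp (hNew _ hzV) huz)
  exact S40R2Z_conv M p hp hpM A hgen ζ₀ σ H t htp hσ hHI (σ • x - x) u_z huz huzI hst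

end inst

end Fermat.Agent.S40
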