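import Mathlib
import Fermat.Agent.S40.R2HvHeckeAbs
import Fermat.Agent.S40.R2Plumb
import Fermat.Agent.S40.F2ValGrp
import Fermat.Agent.S40.GalVal
import Fermat.Agent.S40.F2MainT
import Fermat.Agent.S40.F2NormAbs
import Fermat.Agent.S40.F2E
import Fermat.Agent.S40.F2HJ

/-!
# TRACK 13 (row 38), leaf (HV) of START by the HECKE TRICK, no node (helper20).
Prefix `S40R2HK_`.

`S40R2Z_HV` (helper17, `S40/R2Plumb.lean`): in a descent relation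
`σ ux = c · ux · u_z · h ^ p` the function `h` has the same index `i < p` at `V₁` and `V₂`.

Proof.  `V_j (σ ux) = V_j ux` (`σ` in the inertia group), so `V_j (c u_z h ^ p) = 1`;
`V_j h = V_j π ^ n_j`, `V_j c = V_j π ^ γ`, `V_j u_z = V_j (1 − ζ) ^ m_j = V_j π ^ (p m_j)`,
hence `n₁ − n₂ = m₂ − m₁`.  Hecke: `t u_z = κ · u_z ^ a_ℓ · g ^ p` with `κ`, `g` rational over
`I¹` (`S40F2HJ_triv` + `S40F2D_triv_fixed`), `V_j (t u_z) = V_j u_z ^ (ℓ + 1)`, so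
`(ℓ + 1 − a_ℓ) m_j = k + p g_j`, `p ∣ m₁ − m₂` (`p ∤ a_ℓ − ℓ − 1`, `S40F2E_main`).

* `S40R2HK_val` : the valuations of an `H`-rational function are powers of `V_j π`;
* **`S40R2HK_hv`** : `S40R2Z_HV` for every `x ∈ V ⊂ V₀` under `S40F2AT_Data`.
-/

set_option autoImplicit false
set_option synthInstance.maxHeartbeats 400000
set_option maxHeartbeats 1000000
set_option linter.unusedSectionVars false
set_option linter.unusedVariables false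
set_option linter.style.haveILetI false

open HahnSeries IntermediateField AlgebraicCurve ModularCurve

noncomputable section

namespace Fermat.Agent.S40

open WeierstrassCurve Fermat.Agent.Lib Fermat.Agent.S18 Fermat.Agent.S24 Fermat.Agent.S34
  Fermat.Agent.S35 Fermat.Agent.S36 Fermat.Agent.GalRep Fermat.Agent.S33 Fermat.Agent.S19

local notation "Ω" => AlgebraicClosure ℚ
local notation "Γ" => (AlgebraicClosure ℚ ≃ₐ[ℚ] AlgebraicClosure ℚ)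

section inst

variable (M p : ℕ) [NeZero M] [NeZero (M * p)] [NeZero p] (hp : p.Prime) (hpM : ¬ p ∣ M)
  (A : ValuationSubring Ω) (hA : A.LiesOverPrime p)
  (hgen : PrincipalGeneratedByIntegral A (IsLocalRing.residue A) (M * p))

include hA in
/-- the valuations of an `H`-rational function are powers of `V_j π`. -/
theorem S40R2HK_val (H : Set Γ) {π : Ω}
    (hπH : ∀ g ∈ H, g π = π) (hπ0 : π ≠ 0) (hπ1 : A.valuation π < 1)
    (hval : ∀ x : Ω, x ≠ 0 → (∀ g ∈ H, g x = x) → ∃ k : ℤ, A.valuation x = A.valuation π ^ k)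
    (u : ↥(modularFunctionFieldBar (M * p))) (hu0 : u ≠ 0)
    (hu : ∀ τ ∈ H, GR_gal (M * p) τ u = u) :
    (∃ n : ℤ, (S34M_T1 M p A hgen).O.valuation u =
      (S34M_T1 M p A hgen).O.valuation
        (algebraMap Ω ↥(modularFunctionFieldBar (M * p)) π) ^ n) ∧
    (∃ n : ℤ, (S34M_T2 M p hp hpM A hgen).O.valuation u =
      (S34M_T2 M p hp hpM A hgen).O.valuation
        (algebraMap Ω ↥(modularFunctionFieldBar (M * p)) π) ^ n) := by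
  have hco : ∀ τ ∈ H, ∀ k : ℤ, τ ((u : LaurentSeries Ω).coeff k) =
      (u : LaurentSeries Ω).coeff k := by
    intro τ hτ k
    rw [← S36LD_coeff_gal (M * p) τ u k, hu τ hτ]
  have hπF : algebraMap Ω ↥(modularFunctionFieldBar (M * p)) π ≠ 0 := (map_ne_zero _).2 hπ0
  constructor
  · obtain ⟨n, hn⟩ := S40F2VG_V1 M p hp hpM A hA hgen H hπH hπ0 hπ1 hval u hu0 hco
    refine ⟨n, ?_⟩
    rw [S34M_T1_O]
    unfold S40F2S_IsU at hn
    rw [map_div₀, map_zpow₀] at hn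
    exact (div_eq_one_iff_eq (zpow_ne_zero _ ((Valuation.ne_zero_iff _).2 hπF))).1 hn
  · obtain ⟨n, hn⟩ := S40F2VG_V2 M p hp hpM A hA hgen H hπH hπ0 hπ1 hval u hu0 hco
    refine ⟨n, ?_⟩
    rw [S34M_T2_O]
    unfold S40F2S_IsU at hn
    rw [map_div₀, map_zpow₀] at hn
    exact (div_eq_one_iff_eq (zpow_ne_zero _ ((Valuation.ne_zero_iff _).2 hπF))).1 hn

include hA in
/-- **(HV) by the Hecke trick.** -/
theorem S40R2HK_hv (W : WeierstrassCurve ℤ) (hΔ : W.Δ ≠ 0) (hp2 : p ≠ 2)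
    (hirr : W.ModRepIsIrreducible p)
    (V : AddSubgroup (JZero (M * p))) (hVV0 : ∀ y ∈ V, y ∈ S40D_V0 W p (M * p))
    {ζ₀ : Ω} (hprim : IsPrimitiveRoot ζ₀ p)
    (x : JZero (M * p)) (hxV : x ∈ V) (σ : Γ) (H : Subgroup Γ) (π c r : Ω) (t : ℕ)
    (hData : S40F2AT_Data M p A V ζ₀ σ H π c r t) :
    S40R2Z_HV M p hp hpM A hgen ζ₀ σ H π x := by
  obtain ⟨⟨hσ, hHVfix, hcyc, hσpV, hz, hHI, hdec, hconj, hnorm, hσp⟩, ht1, htp, hπH, hcH, hrH,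
    hvπ, hvc, hvr, hunif, hdisc, hπC, hπ0, hπ1, hval, hcC, hζ₀⟩ := hData
  haveI : Fact p.Prime := ⟨hp⟩
  obtain ⟨hzV, hzI⟩ := hz x hxV
  intro ux u_z h c' hux huxH huz huzI hc0 hh0 hcH' hhH hrel
  have hux0 : ux ≠ 0 := S33DG_isGen_ne_zero hux
  have huz0 : u_z ≠ 0 := S33DG_isGen_ne_zero huz
  -- the Hecke prime
  obtain ⟨ℓ, hℓ, -, hgood, hℓN, hℓp, hnd⟩ :=
    S40F2E_main W hΔ hp hp2 hirr (M * p) (Nat.pos_of_ne_zero (NeZero.ne (M * p))) ∅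
  haveI : NeZero ℓ := ⟨hℓ.ne_zero⟩
  obtain ⟨ζℓ₀, hζℓ₀⟩ := HasEnoughRootsOfUnity.exists_primitiveRoot Ω ℓ
  obtain ⟨ζℓ, rfl⟩ : ∃ ζ : Ωˣ, (ζ : Ω) = ζℓ₀ :=
    ⟨Units.mk0 ζℓ₀ (hζℓ₀.ne_zero (NeZero.ne ℓ)), rfl⟩
  have hst : GRS_Stab (M * p) ℓ ζℓ := GRHS_stab ζℓ hζℓ₀ hℓ
  have hTz : heckeOperatorBar (M * p) ⟨ℓ, hℓ⟩ (σ • x - x) = W.apOfModel ℓ • (σ • x - x) :=
    (hVV0 _ hzV).2 ⟨ℓ, hℓ⟩ hgood hℓN hℓp
  have hqn : ¬ ((⟨ℓ, hℓ⟩ : Nat.Primes) : ℕ) ∣ p :=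
    fun hd => hℓp ((Nat.prime_dvd_prime_iff_eq hℓ hp).mp hd)
  have htriv := S40F2HJ_triv (N := M * p) ⟨ℓ, hℓ⟩ hℓN hp.pos hqn hζℓ₀ hst huz
    (W.apOfModel ℓ) hTz
  have hfix : ∀ τ ∈ (S40D_I1 A p : Set Γ),
      GR_gal (M * p) τ (GRS_t hst u_z * (u_z ^ W.apOfModel ℓ)⁻¹) =
        GRS_t hst u_z * (u_z ^ W.apOfModel ℓ)⁻¹ := by
    intro τ hτ
    rw [map_mul, map_inv₀, map_zpow₀, S40F2HJ_fixed ℓ hζℓ₀ hst τ u_z (huzI τ hτ), huzI τ hτ]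
  obtain ⟨κ, g, hκ0, hg0, e, hκI, hgI⟩ :=
    S40F2D_triv_fixed (M * p) (S40D_I1 A p : Set Γ) p hp.pos _ htriv hfix
  have hE : GRS_t hst u_z =
      algebraMap Ω ↥(modularFunctionFieldBar (M * p)) κ * u_z ^ W.apOfModel ℓ * g ^ p := by
    have hua : u_z ^ W.apOfModel ℓ ≠ 0 := zpow_ne_zero _ huz0
    calc GRS_t hst u_z = GRS_t hst u_z * (u_z ^ W.apOfModel ℓ)⁻¹ * u_z ^ W.apOfModel ℓ := by
          rw [mul_assoc, inv_mul_cancel₀ hua, mul_one]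
      _ = algebraMap Ω ↥(modularFunctionFieldBar (M * p)) κ * u_z ^ W.apOfModel ℓ * g ^ p := by
          rw [e]
          ring
  -- the uniformiser of `I¹`
  have hϖ0 : (1 - ζ₀ : Ω) ≠ 0 := S33BZ_one_sub_ne_zero hprim
  have hϖ1 : A.valuation (1 - ζ₀ : Ω) < 1 := S33BZ_val_one_sub_lt A hA hprim
  have hϖI : ∀ g ∈ (S40D_I1 A p : Set Γ), g (1 - ζ₀ : Ω) = 1 - ζ₀ := by
    intro g hg
    rw [map_sub, map_one, (S40D_mem_I1.1 hg).2 ζ₀ hprim.pow_eq_one]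
  have hvalI : ∀ y : Ω, y ≠ 0 → (∀ g ∈ (S40D_I1 A p : Set Γ), g y = y) →
      ∃ k : ℤ, A.valuation y = A.valuation (1 - ζ₀ : Ω) ^ k := by
    intro y hy0 hy
    exact S33BZ_val_eq A hA hprim hy0 (fun τ hτ hτζ => hy τ (S40F2B_mem_I1 A hprim hτ hτζ))
  -- the valuations of the functions
  obtain ⟨⟨n₁, hn₁⟩, ⟨n₂, hn₂⟩⟩ := S40R2HK_val M p hp hpM A hA hgen (H : Set Γ)
    (fun g hg => hπH g hg) hπ0 hπ1 (fun y hy0 hy => hdisc y hy0 (fun g hg => hy g hg))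
    h hh0 (fun τ hτ => hhH τ hτ)
  obtain ⟨⟨m₁, hm₁⟩, ⟨m₂, hm₂⟩⟩ := S40R2HK_val M p hp hpM A hA hgen (S40D_I1 A p : Set Γ)
    hϖI hϖ0 hϖ1 hvalI u_z huz0 (fun τ hτ => huzI τ hτ)
  obtain ⟨⟨g₁, hg₁⟩, ⟨g₂, hg₂⟩⟩ := S40R2HK_val M p hp hpM A hA hgen (S40D_I1 A p : Set Γ)
    hϖI hϖ0 hϖ1 hvalI g hg0 hgI
  obtain ⟨γ, hγ⟩ := hdisc c' hc0 hcH'
  obtain ⟨k, hk⟩ := hvalI κ hκ0 hκI
  -- the constants
  set T1 := S34M_T1 M p A hgen with hT1
  set T2 := S34M_T2 M p hp hpM A hgen with hT2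
  have hsame : S34P_Same T1 T2 := S34M_same M p hp hpM A hgen
  have hTA : T1.A = A := rfl
  have hA₁ : ∀ a : Ω, algebraMap Ω ↥(modularFunctionFieldBar (M * p)) a ∈ T1.O ↔ a ∈ T1.A :=
    fun a => T1.algebraMap_mem_iff a
  have hA₂ : ∀ a : Ω, algebraMap Ω ↥(modularFunctionFieldBar (M * p)) a ∈ T2.O ↔ a ∈ T1.A :=
    fun a => by rw [hsame.A_eq]; exact T2.algebraMap_mem_iff a
  have hπF : algebraMap Ω ↥(modularFunctionFieldBar (M * p)) π ≠ 0 := (map_ne_zero _).2 hπ0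
  have hπnu : π ∈ T1.A.nonunits := (ValuationSubring.mem_nonunits_iff T1.A).2 hπ1
  have hP₁ : T1.O.valuation (algebraMap Ω ↥(modularFunctionFieldBar (M * p)) π) < 1 :=
    (S40F2NM_const_lt (A := T1.A) T1.O hA₁ hπ0).2 hπnu
  have hP₂ : T2.O.valuation (algebraMap Ω ↥(modularFunctionFieldBar (M * p)) π) < 1 :=
    (S40F2NM_const_lt (A := T1.A) T2.O hA₂ hπ0).2 hπnu
  have hvπ' : T1.A.valuation (1 - ζ₀ : Ω) = T1.A.valuation (π ^ p) := by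
    rw [map_pow]; exact hvπ.symm
  have hϖ₁ : T1.O.valuation (algebraMap Ω ↥(modularFunctionFieldBar (M * p)) (1 - ζ₀)) =
      T1.O.valuation (algebraMap Ω ↥(modularFunctionFieldBar (M * p)) π) ^ p := by
    rw [S40R2HK_transfer T1.A T1.O hA₁ (pow_ne_zero p hπ0) hvπ', map_pow, map_pow]
  have hϖ₂ : T2.O.valuation (algebraMap Ω ↥(modularFunctionFieldBar (M * p)) (1 - ζ₀)) =
      T2.O.valuation (algebraMap Ω ↥(modularFunctionFieldBar (M * p)) π) ^ p := by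
    rw [S40R2HK_transfer T1.A T2.O hA₂ (pow_ne_zero p hπ0) hvπ', map_pow, map_pow]
  have hγ' : T1.A.valuation c' = T1.A.valuation (π ^ γ) := by
    rw [map_zpow₀]; exact hγ
  have hC₁ : T1.O.valuation (algebraMap Ω ↥(modularFunctionFieldBar (M * p)) c') =
      T1.O.valuation (algebraMap Ω ↥(modularFunctionFieldBar (M * p)) π) ^ γ := by
    rw [S40R2HK_transfer T1.A T1.O hA₁ (zpow_ne_zero γ hπ0) hγ', map_zpow₀, map_zpow₀]
  have hC₂ : T2.O.valuation (algebraMap Ω ↥(modularFunctionFieldBar (M * p)) c') =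
      T2.O.valuation (algebraMap Ω ↥(modularFunctionFieldBar (M * p)) π) ^ γ := by
    rw [S40R2HK_transfer T1.A T2.O hA₂ (zpow_ne_zero γ hπ0) hγ', map_zpow₀, map_zpow₀]
  have hk' : T1.A.valuation κ = T1.A.valuation ((1 - ζ₀ : Ω) ^ k) := by
    rw [map_zpow₀]; exact hk
  have hK₁ : T1.O.valuation (algebraMap Ω ↥(modularFunctionFieldBar (M * p)) κ) =
      T1.O.valuation (algebraMap Ω ↥(modularFunctionFieldBar (M * p)) (1 - ζ₀)) ^ k := by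
    rw [S40R2HK_transfer T1.A T1.O hA₁ (zpow_ne_zero k hϖ0) hk', map_zpow₀, map_zpow₀]
  have hK₂ : T2.O.valuation (algebraMap Ω ↥(modularFunctionFieldBar (M * p)) κ) =
      T2.O.valuation (algebraMap Ω ↥(modularFunctionFieldBar (M * p)) (1 - ζ₀)) ^ k := by
    rw [S40R2HK_transfer T1.A T2.O hA₂ (zpow_ne_zero k hϖ0) hk', map_zpow₀, map_zpow₀]
  -- the descent relation
  have hσI : σ ∈ A.inertiaSubgroupIn ℚ := (S40D_mem_I1.1 hσ).1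
  have e1 : algebraMap Ω ↥(modularFunctionFieldBar (M * p)) c' * u_z * h ^ p =
      GR_gal (M * p) σ ux / ux := by
    rw [hrel]
    field_simp
  have hrel₁ : T1.O.valuation
      (algebraMap Ω ↥(modularFunctionFieldBar (M * p)) c' * u_z * h ^ p) = 1 := by
    rw [e1, map_div₀, S40GV_V1 M p hp hpM A hgen hσI ux]
    exact div_self ((Valuation.ne_zero_iff _).2 hux0)
  have hrel₂ : T2.O.valuation
      (algebraMap Ω ↥(modularFunctionFieldBar (M * p)) c' * u_z * h ^ p) = 1 := by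
    rw [e1, map_div₀, S40GV_V2 M p hp hpM A hgen hσI ux]
    exact div_self ((Valuation.ne_zero_iff _).2 hux0)
  -- the Hecke operator
  have htϖ : GRS_t hst (algebraMap Ω ↥(modularFunctionFieldBar (M * p)) (1 - ζ₀)) =
      algebraMap Ω ↥(modularFunctionFieldBar (M * p)) (1 - ζ₀) ^ (ℓ + 1) := by
    rw [S40F2HJ_const ℓ hst hℓN, map_pow]
  have htU₁ : ∀ w : ↥(modularFunctionFieldBar (M * p)), T1.O.valuation w = 1 →
      T1.O.valuation (GRS_t hst w) = 1 := by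
    rw [hT1, S34M_T1_O]
    exact fun w hw => S40F2MT_isU₁ M p ℓ A ζℓ hζℓ₀ hgen hst w hw
  have htU₂ : ∀ w : ↥(modularFunctionFieldBar (M * p)), T2.O.valuation w = 1 →
      T2.O.valuation (GRS_t hst w) = 1 := by
    rw [hT2, S34M_T2_O]
    exact fun w hw => S40F2MT_isU₂ M p ℓ hp hpM hℓ hℓp A ζℓ hζℓ₀ hgen hst w hw
  exact S40R2HK_abs T1.O T2.O hp hπF hP₁ hP₂ hϖ₁ hϖ₂ (GRS_t hst) htU₁ htU₂ htϖ hnd
    hC₁ hC₂ hrel₁ hrel₂ hn₁ hn₂ hm₁ hm₂ hK₁ hK₂ hg₁ hg₂ hE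

end inst

end Fermat.Agent.S40
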