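import Mathlib
import Fermat.Agent.S40.F2NodeW2
import Fermat.Agent.S40.R2Plumb
import Fermat.Agent.S40.R2HvHecke

/-!
# TRACK 13 (S40 / S44): the chain is CLOSED (helper3, wire).  Prefix `S40F2CL_`.

* `S40F2CL_start : S40F2NW_Start` from helper17's `S40R2Z_start` and helper20's `S40R2HK_hv`;
* `S40F2CL_node1 : S40F2FN_Node1`;
* `S40F2CL_final` : the frozen statement S44
  (`S40F2NW_final S40F2CL_start S40F2NW_hdiv`, `S40F2NW_hdiv` = helper1's `S40F2YH_hdiv`).
-/

set_option autoImplicit false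
set_option linter.style.haveILetI false
set_option linter.unusedSectionVars false
set_option linter.unusedVariables false
set_option synthInstance.maxHeartbeats 400000
set_option maxHeartbeats 2000000

open HahnSeries IntermediateField AlgebraicCurve ModularCurve

noncomputable section

namespace Fermat.Agent.S40

open WeierstrassCurve
open Fermat.Agent.Lib Fermat.Agent.S17 Fermat.Agent.S18 Fermat.Agent.S19 Fermat.Agent.S24
  Fermat.Agent.S34 Fermat.Agent.S35 Fermat.Agent.S36 Fermat.Agent.S37 Fermat.Agent.GalRep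
  Fermat.Agent.S33

local notation "Ω" => AlgebraicClosure ℚ
local notation "Γ" => (AlgebraicClosure ℚ ≃ₐ[ℚ] AlgebraicClosure ℚ)

/-- **the leaf START holds.** -/
theorem S40F2CL_start : S40F2NW_Start := by
  intro W hΔ p hp hp5 hirr M' _ _ _ hpM hsq A hA V hVV0 hV hnew hB hR hK hI x hx hgen ζ₀ hprim
    σ H π c r t hD
  have hp2 : p ≠ 2 := by omega
  exact S40R2Z_start M' p hp hpM A hA hgen V (fun y hy => (hVV0 y hy).1) hnew hprim x hx
    σ H π c r t hD
    (S40R2HK_hv M' p hp hpM A hA hgen W hΔ hp2 hirr V hVV0 hprim x hx σ H π c r t hD)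

/-- **(N₁) holds.** -/
theorem S40F2CL_node1 : S40F2FN_Node1 :=
  S40F2NW_node1 S40F2CL_start S40F2NW_hdiv

/-- **the frozen statement S44.** -/
theorem S40F2CL_final
    (P : FreyPackage) {N : ℕ} (hcond : P.IsConductorLevel N) (hpN : P.p ∣ N)
    (hirr : WeierstrassCurve.Affine.Point.GaloisRepIsIrreducible (K := AlgebraicClosure ℚ) ℚ
      P.freyCurve P.p)
    (hmod : P.ModularRepOfLevel N) :
    ∃ M : ℕ, M ∣ N ∧ ¬ P.p ∣ M ∧ P.ModularRepOfLevel M :=
  S40F2NW_final S40F2CL_start S40F2NW_hdiv P hcond hpN hirr hmod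

end Fermat.Agent.S40
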