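import Mathlib

/-!
# S40 / S44 (row 38), package BREAK-INST, abstract part: the `res` field of the break datum
(helper23).  Prefix `S40LR_`.  Mathlib only.

`E` a field (think: the modular function field `𝔽`), `σ : E →+* E`, `p` prime, `π` with
`σ^p π = π`, `σ π ≠ π`;  `V` a valuation on `E` (think: a Gauss valuation `V_j`).

* `S40LR_fix_of_iterate`, `S40LR_injOn` : the conjugates `σ^j π`, `j < p`, are pairwise distinct;
* **`S40LR_decomp`** : every `z` with `σ^p z = z` is `Σ_{k<p} w_k π^k` with `σ w_k = w_k`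
  (Lagrange interpolation at the conjugates of `π`; no root of unity, no Kummer generator, no
  dimension count);
* `S40LR_le_sum`    : terms with pairwise distinct valuations are bounded by their sum;
* **`S40LR_res`**   : if every `σ`-fixed `w ≠ 0` has `V w ∈ V(π)^(pℤ)` (value group of the fixed
  field, `V ϖ = V(π)^p`) and `V π < 1`, then every `z` with `V z ≤ 1` is `a + π z'`, `σ a = a`,
  `V a ≤ 1`, `V z' ≤ 1`   (`O = R + π O`: the residue ring does not grow = field `res` of
  `S40LB_Break`);
* `S40LR_res_sub`   : the same inside a `σ`-stable subfield `K` of `E` (think: `𝔽^H`), with the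
  value-group hypothesis only for the `σ`-fixed elements of `K` (= `𝔽^{⟨σ,H⟩}`; on main:
  `S33ND_TDV_of_val` + `S40F2B_main`).
-/

set_option autoImplicit false

namespace Fermat.Agent.S40

open Finset Polynomial

section Decomp

variable {E : Type*} [Field E] {σ : E →+* E} {p : ℕ}

/-- the periods of `x` under `σ` are closed under subtraction. -/
theorem S40LR_iterate_sub {x : E} {m n : ℕ} (hmn : m ≤ n) (hm : σ^[m] x = x) (hn : σ^[n] x = x) :
    σ^[n - m] x = x := by
  have hinj : Function.Injective (σ^[m]) := Function.Injective.iterate σ.injective m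
  apply hinj
  rw [← Function.iterate_add_apply, Nat.add_sub_cancel' hmn, hn, hm]

/-- if `σ^p x = x` (`p` prime) and `σ^a x = x` for some `0 < a < p`, then `σ x = x`. -/
theorem S40LR_fix_of_iterate (hp : p.Prime) {x : E} (hx : σ^[p] x = x) :
    ∀ a : ℕ, 0 < a → a < p → σ^[a] x = x → σ x = x := by
  intro a
  induction a using Nat.strong_induction_on with
  | _ a ih =>
    intro ha0 hap hax
    by_cases ha1 : a = 1
    · subst ha1
      simpa using hax
    · -- `p = q a + r`, `0 < r < a`
      have hr0 : 0 < p % a := by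
        rcases Nat.eq_zero_or_pos (p % a) with h | h
        · have hdvd : a ∣ p := Nat.dvd_of_mod_eq_zero h
          rcases (Nat.dvd_prime hp).1 hdvd with h1 | h1
          · exact absurd h1 ha1
          · omega
        · exact h
      have hra : p % a < a := Nat.mod_lt _ ha0
      have hqa : σ^[a * (p / a)] x = x := by
        rw [Function.iterate_mul]
        exact Function.iterate_fixed hax _
      have hle : a * (p / a) ≤ p := Nat.mul_div_le p a
      have hsub := S40LR_iterate_sub (σ := σ) hle hqa hx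
      have hmod : p - a * (p / a) = p % a := by
        have := Nat.div_add_mod p a
        omega
      rw [hmod] at hsub
      exact ih (p % a) hra hr0 (lt_trans hra hap) hsub

/-- the conjugates `σ^j π`, `j < p`, are pairwise distinct when `σ π ≠ π`. -/
theorem S40LR_injOn (hp : p.Prime) {π : E} (hπp : σ^[p] π = π) (hσπ : σ π ≠ π) :
    Set.InjOn (fun j : ℕ => σ^[j] π) (range p : Finset ℕ) := by
  have key : ∀ j m : ℕ, j < m → m < p → σ^[j] π ≠ σ^[m] π := by
    intro j m hjm hmp h
    have hinj : Function.Injective (σ^[j]) := Function.Injective.iterate σ.injective j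
    have h2 : σ^[m - j] π = π := by
      apply hinj
      rw [← Function.iterate_add_apply, Nat.add_sub_cancel' hjm.le]
      exact h.symm
    exact hσπ (S40LR_fix_of_iterate hp hπp (m - j) (by omega) (by omega) h2)
  intro j hj m hm h
  simp only [coe_range, Set.mem_Iio] at hj hm
  rcases lt_trichotomy j m with h1 | h1 | h1
  · exact absurd h (key j m h1 hm)
  · exact h1
  · exact absurd h.symm (key m j h1 hj)

/-- **the `π`-basis decomposition**: every `z` with `σ^p z = z` is `Σ_{k<p} w_k π^k` with
`σ`-fixed coefficients `w_k` (Lagrange interpolation at the conjugates of `π`). -/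
theorem S40LR_decomp (hp : p.Prime) {π : E} (hπp : σ^[p] π = π) (hσπ : σ π ≠ π) (z : E)
    (hz : σ^[p] z = z) :
    ∃ w : ℕ → E, (∀ k, σ (w k) = w k) ∧ z = ∑ k ∈ range p, w k * π ^ k := by
  classical
  set v : ℕ → E := fun j => σ^[j] π with hv
  set r : ℕ → E := fun j => σ^[j] z with hr
  have hinj := S40LR_injOn hp hπp hσπ
  set P : E[X] := Lagrange.interpolate (range p) v r with hP
  have hdeg : P.degree < p := by
    have := Lagrange.degree_interpolate_lt (r := r) hinj
    rwa [card_range] at this
  have hQ : P.map σ = P := by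
    refine Lagrange.eq_interpolate_of_eval_eq (r := r) hinj ?_ ?_
    · rw [card_range]
      exact lt_of_le_of_lt (degree_map_le) hdeg
    · intro m hm
      rw [mem_range] at hm
      rcases Nat.eq_zero_or_pos m with h0 | hpos
      · subst h0
        have hpp : p = (p - 1) + 1 := (Nat.sub_add_cancel hp.pos).symm
        have e1 : v 0 = σ (v (p - 1)) := by
          have h1 : σ (σ^[p - 1] π) = σ^[(p - 1) + 1] π :=
            (Function.iterate_succ_apply' σ (p - 1) π).symm
          simp only [hv, Function.iterate_zero, id]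
          rw [h1, ← hpp, hπp]
        have e2 : r 0 = σ (r (p - 1)) := by
          have h1 : σ (σ^[p - 1] z) = σ^[(p - 1) + 1] z :=
            (Function.iterate_succ_apply' σ (p - 1) z).symm
          simp only [hr, Function.iterate_zero, id]
          rw [h1, ← hpp, hz]
        rw [e1, eval_map_apply, e2,
          Lagrange.eval_interpolate_at_node r hinj (mem_range.2 (by have := hp.pos; omega))]
      · obtain ⟨j, rfl⟩ : ∃ j, m = j + 1 := ⟨m - 1, by omega⟩
        have e1 : v (j + 1) = σ (v j) := by
          simp only [hv]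
          rw [Function.iterate_succ_apply']
        have e2 : r (j + 1) = σ (r j) := by
          simp only [hr]
          rw [Function.iterate_succ_apply']
        rw [e1, eval_map_apply, e2,
          Lagrange.eval_interpolate_at_node r hinj (mem_range.2 (by omega))]
  refine ⟨fun k => P.coeff k, fun k => ?_, ?_⟩
  · have := congrArg (fun Q : E[X] => Q.coeff k) hQ
    simpa only [coeff_map] using this
  · have h0 : eval (v 0) P = r 0 :=
      Lagrange.eval_interpolate_at_node r hinj (mem_range.2 hp.pos)
    have hv0 : v 0 = π := rfl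
    have hr0 : r 0 = z := rfl
    rw [hv0, hr0] at h0
    rw [← h0]
    rcases eq_or_ne P 0 with hP0 | hP0
    · rw [hP0]
      simp
    · have hnat : P.natDegree < p := by
        rw [degree_eq_natDegree hP0] at hdeg
        exact_mod_cast hdeg
      rw [eval_eq_sum_range' hnat]

end Decomp

section Val

variable {E : Type*} [Field E] {Γ₀ : Type*} [LinearOrderedCommGroupWithZero Γ₀]
  (V : Valuation E Γ₀)

/-- terms with pairwise distinct valuations: every term is bounded by the sum, and the sum has
the valuation of one of the terms. -/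
theorem S40LR_le_sum {ι : Type*} (s : Finset ι) (f : ι → E)
    (hd : ∀ i ∈ s, ∀ j ∈ s, i ≠ j → f i ≠ 0 → V (f i) ≠ V (f j)) :
    (∀ i ∈ s, V (f i) ≤ V (∑ j ∈ s, f j)) ∧
      (s.Nonempty → ∃ i₀ ∈ s, V (∑ j ∈ s, f j) = V (f i₀)) := by
  classical
  induction s using Finset.induction_on with
  | empty => exact ⟨fun i hi => absurd hi (notMem_empty i), fun h => absurd h not_nonempty_empty⟩
  | insert a s ha ih =>
    have hd' : ∀ i ∈ s, ∀ j ∈ s, i ≠ j → f i ≠ 0 → V (f i) ≠ V (f j) := fun i hi j hj =>
      hd i (mem_insert_of_mem hi) j (mem_insert_of_mem hj)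
    obtain ⟨ih1, ih2⟩ := ih hd'
    rw [sum_insert ha]
    rcases s.eq_empty_or_nonempty with hs | hs
    · subst hs
      simp
    · obtain ⟨i₀, hi₀, hi₀'⟩ := ih2 hs
      by_cases hfa : f a = 0
      · rw [hfa, zero_add]
        refine ⟨fun i hi => ?_, fun _ => ⟨i₀, mem_insert_of_mem hi₀, hi₀'⟩⟩
        rcases mem_insert.1 hi with rfl | hi
        · rw [hfa, map_zero]
          exact zero_le
        · exact ih1 i hi
      · have hne : V (f a) ≠ V (∑ j ∈ s, f j) := by
          rw [hi₀']
          exact hd a (mem_insert_self a s) i₀ (mem_insert_of_mem hi₀)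
            (fun h => ha (h ▸ hi₀)) hfa
        have hmax := Valuation.map_add_of_distinct_val V hne
        refine ⟨fun i hi => ?_, fun _ => ?_⟩
        · rw [hmax]
          rcases mem_insert.1 hi with rfl | hi
          · exact le_max_left _ _
          · exact le_trans (ih1 i hi) (le_max_right _ _)
        · rcases le_total (V (f a)) (V (∑ j ∈ s, f j)) with h | h
          · exact ⟨i₀, mem_insert_of_mem hi₀, by rw [hmax, max_eq_right h, hi₀']⟩
          · exact ⟨a, mem_insert_self a s, by rw [hmax, max_eq_left h]⟩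

variable {V}

/-- **the `res` field of the break datum**: if the fixed elements have valuation in
`V(π)^(pℤ)` and `σ π ≠ π`, then every integral `z` (with `σ^p z = z`) is `a + π z'` with `a`
fixed and integral, `z'` integral. -/
theorem S40LR_res {p : ℕ} (hp : p.Prime) {σ : E →+* E} {π : E} (hπp : σ^[p] π = π)
    (hσπ : σ π ≠ π) (hπ0 : π ≠ 0) (hπ1 : V π < 1)
    (hval : ∀ w : E, σ w = w → w ≠ 0 → ∃ m : ℤ, V w = V π ^ ((p : ℤ) * m))
    (z : E) (hz : σ^[p] z = z) (hVz : V z ≤ 1) :
    ∃ a z' : E, σ a = a ∧ V a ≤ 1 ∧ V z' ≤ 1 ∧ z = a + π * z' := by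
  obtain ⟨w, hw, hzw⟩ := S40LR_decomp hp hπp hσπ z hz
  have hVπ0 : 0 < V π := by
    rw [Valuation.pos_iff]
    exact hπ0
  have hinj := zpow_right_injective₀ hVπ0 hπ1.ne
  -- the valuation of a nonzero term
  have hterm : ∀ k, w k ≠ 0 → ∃ m : ℤ, V (w k * π ^ k) = V π ^ ((p : ℤ) * m + k) := by
    intro k hk
    obtain ⟨m, hm⟩ := hval (w k) (hw k) hk
    refine ⟨m, ?_⟩
    rw [map_mul, map_pow, hm, zpow_add₀ hVπ0.ne', zpow_natCast]
  -- distinctness
  have hd : ∀ i ∈ range p, ∀ j ∈ range p, i ≠ j → w i * π ^ i ≠ 0 →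
      V (w i * π ^ i) ≠ V (w j * π ^ j) := by
    intro i hi j hj hij hfi heq
    rw [mem_range] at hi hj
    have hwi : w i ≠ 0 := left_ne_zero_of_mul hfi
    by_cases hwj : w j = 0
    · rw [hwj, zero_mul, map_zero, Valuation.zero_iff] at heq
      exact hfi heq
    · obtain ⟨m, hm⟩ := hterm i hwi
      obtain ⟨m', hm'⟩ := hterm j hwj
      rw [hm, hm'] at heq
      have h1 : (p : ℤ) * m + i = (p : ℤ) * m' + j := hinj heq
      have h2 : (p : ℤ) ∣ (i : ℤ) - j := ⟨m' - m, by linarith⟩
      have h3 : |(i : ℤ) - j| < p := by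
        rw [abs_lt]
        constructor <;> omega
      have h4 := Int.eq_zero_of_abs_lt_dvd h2 h3
      omega
  obtain ⟨hle, -⟩ := S40LR_le_sum V (range p) (fun k => w k * π ^ k) hd
  rw [← hzw] at hle
  have hle1 : ∀ k < p, V (w k * π ^ k) ≤ 1 := fun k hk =>
    le_trans (hle k (mem_range.2 hk)) hVz
  obtain ⟨n, hn⟩ : ∃ n, p = n + 1 := ⟨p - 1, (Nat.sub_add_cancel hp.pos).symm⟩
  refine ⟨w 0, ∑ k ∈ range n, w (k + 1) * π ^ k, hw 0, ?_, ?_, ?_⟩
  · simpa using hle1 0 hp.pos
  · refine Valuation.map_sum_le V fun k hk => ?_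
    rw [mem_range] at hk
    by_cases hwk : w (k + 1) = 0
    · rw [hwk, zero_mul, map_zero]
      exact zero_le
    · obtain ⟨m, hm⟩ := hval (w (k + 1)) (hw _) hwk
      have h1 := hle1 (k + 1) (by omega)
      have e : V (w (k + 1) * π ^ (k + 1)) = V π ^ ((p : ℤ) * m + ((k + 1 : ℕ) : ℤ)) := by
        rw [map_mul, map_pow, hm, zpow_add₀ hVπ0.ne', zpow_natCast]
      rw [e, ← zpow_zero (V π), zpow_le_zpow_iff_right_of_lt_one₀ hVπ0 hπ1] at h1
      have hp0 : (0 : ℤ) ≤ p := by positivity
      have h3 : ((k + 1 : ℕ) : ℤ) < p := by exact_mod_cast (by omega : k + 1 < p)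
      have hm0 : 0 ≤ m := by
        by_contra hneg
        push Not at hneg
        have h2 : (p : ℤ) * m ≤ (p : ℤ) * (-1) :=
          mul_le_mul_of_nonneg_left (by omega) hp0
        omega
      rw [map_mul, map_pow, hm, ← zpow_natCast, ← zpow_add₀ hVπ0.ne', ← zpow_zero (V π),
        zpow_le_zpow_iff_right_of_lt_one₀ hVπ0 hπ1]
      have : 0 ≤ (p : ℤ) * m := mul_nonneg hp0 hm0
      omega
  · rw [hzw, hn, sum_range_succ', mul_sum]
    simp only [pow_zero, mul_one]
    rw [add_comm]
    congr 1
    refine sum_congr rfl fun k _ => ?_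
    rw [pow_succ]
    ring

/-- the same inside a `σ`-stable subfield `K` (think: the `H`-fixed functions): the fixed
elements OF `K` have valuation in `V(π)^(pℤ)`. -/
theorem S40LR_res_sub {p : ℕ} (hp : p.Prime) {σ : E →+* E} (K : Subfield E)
    (hσK : ∀ x ∈ K, σ x ∈ K) {π : E} (hπK : π ∈ K) (hπp : σ^[p] π = π)
    (hσπ : σ π ≠ π) (hπ0 : π ≠ 0) (hπ1 : V π < 1)
    (hval : ∀ w ∈ K, σ w = w → w ≠ 0 → ∃ m : ℤ, V w = V π ^ ((p : ℤ) * m))
    (z : E) (hzK : z ∈ K) (hz : σ^[p] z = z) (hVz : V z ≤ 1) :
    ∃ a ∈ K, ∃ z' ∈ K, σ a = a ∧ V a ≤ 1 ∧ V z' ≤ 1 ∧ z = a + π * z' := by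
  set σ' : K →+* K := (σ.comp K.subtype).codRestrict K (fun x => hσK x x.2) with hσ'
  have hσ'app : ∀ x : K, ((σ' x : K) : E) = σ (x : E) := fun x => rfl
  have hiter : ∀ (j : ℕ) (x : K), ((σ'^[j] x : K) : E) = σ^[j] (x : E) := by
    intro j
    induction j with
    | zero => intro x; rfl
    | succ j ih =>
      intro x
      rw [Function.iterate_succ_apply', Function.iterate_succ_apply', hσ'app, ih]
  obtain ⟨a, z', ha, hVa, hVz', hzz'⟩ := S40LR_res (V := V.comap K.subtype) hp
    (σ := σ') (π := ⟨π, hπK⟩)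
    (Subtype.ext (by rw [hiter]; exact hπp))
    (fun h => hσπ (by simpa [hσ'app] using congrArg (Subtype.val) h))
    (fun h => hπ0 (by simpa using congrArg (Subtype.val) h))
    (by simpa [Valuation.comap_apply] using hπ1)
    (fun w hw hw0 => by
      obtain ⟨m, hm⟩ := hval (w : E) w.2 (by simpa [hσ'app] using congrArg (Subtype.val) hw)
        (fun h => hw0 (Subtype.ext (by simpa using h)))
      exact ⟨m, by simpa [Valuation.comap_apply] using hm⟩)
    ⟨z, hzK⟩ (Subtype.ext (by rw [hiter]; exact hz))
    (by simpa [Valuation.comap_apply] using hVz)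
  refine ⟨a, a.2, z', z'.2, ?_, ?_, ?_, ?_⟩
  · simpa [hσ'app] using congrArg (Subtype.val) ha
  · simpa [Valuation.comap_apply] using hVa
  · simpa [Valuation.comap_apply] using hVz'
  · simpa using congrArg (Subtype.val) hzz'

end Val

end Fermat.Agent.S40
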