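import Mathlib
import Fermat.Agent.S40.F2GrpK2
import Fermat.Agent.S40.LocRes

/-!
# TRACK 13 (S40 / S44, row 38), (F2'): the break ON THE CONSTANTS, real objects (helper23).
Prefix `S40F2GR_`.

`σ ∈ I¹`, `H ≤ I¹` with the group facts and the break datum `π, c, r, t` (output of
`S40F2GZ_main` / `S40F2GK2_top`), `C₀ := (S36FI_act n H).fixK`, `σL : Ω →+* Ω` the ring
homomorphism of `σ`.  The hypotheses of helper1's `S40F2YM_hdiv` (leaf (g)) on the constants: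

* `S40F2GR_ne`    : `σ π ≠ π`;
* `S40F2GR_hσC`   : `σ` preserves `C₀`;
* `S40F2GR_hσA`   : `hσA : ∀ a ∈ C₀, a ∈ A → σL a ∈ A`;
* `S40F2GR_fixed_val` : a `σ`-fixed element of `C₀` has valuation `v(π)^(p m)`;
* **`S40F2GR_hres`** : `hres : ∀ z ∈ C₀, z ∈ A → ∃ b z', σL b = b ∧ z' ∈ C₀ ∧ z' ∈ A ∧
  z = b + π z'`   (`S40LR_res_sub` at `E = Ω`, `V = A.valuation`).
-/

set_option autoImplicit false
set_option linter.unusedSectionVars false
set_option linter.unusedVariables false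
set_option linter.style.haveILetI false
set_option synthInstance.maxHeartbeats 400000
set_option maxHeartbeats 1000000

open AlgebraicCurve ModularCurve

noncomputable section

namespace Fermat.Agent.S40

open Fermat.Agent.S18 Fermat.Agent.S24 Fermat.Agent.S34 Fermat.Agent.S36
  Fermat.Agent.GalRep Fermat.Agent.S33 Fermat.Agent.S19

local notation "Ω" => AlgebraicClosure ℚ
local notation "Γ" => (AlgebraicClosure ℚ ≃ₐ[ℚ] AlgebraicClosure ℚ)

section res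

variable (n : ℕ) (A : ValuationSubring Ω) {p : ℕ} (H : Subgroup Γ) {σ : Γ}

/-- `σ π ≠ π` from the break. -/
theorem S40F2GR_ne {π c r : Ω} {t : ℕ} (hπ0 : π ≠ 0) (hπ1 : A.valuation π < 1)
    (hvc : A.valuation c = 1) (hvr : A.valuation r ≤ 1)
    (hunif : σ π = π * (1 + c * π ^ t) + π ^ (t + 2) * r) : σ π ≠ π := by
  intro h
  rw [h] at hunif
  have e : π ^ (t + 1) * (c + π * r) = 0 := by
    have : π * (1 + c * π ^ t) + π ^ (t + 2) * r - π = π ^ (t + 1) * (c + π * r) := by ring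
    rw [← this, ← hunif, sub_self]
  rcases mul_eq_zero.mp e with h1 | h1
  · exact hπ0 (pow_eq_zero_iff (Nat.succ_ne_zero t) |>.mp h1)
  · have h2 : c = -(π * r) := eq_neg_of_add_eq_zero_left h1
    have h3 : A.valuation c < 1 := by
      rw [h2, Valuation.map_neg, map_mul]
      exact mul_lt_one_of_nonneg_of_lt_one_left zero_le hπ1 hvr
    rw [hvc] at h3
    exact lt_irrefl _ h3

/-- `σ` preserves the `H`-fixed constants. -/
theorem S40F2GR_hσC (hnorm : ∀ g ∈ H, σ⁻¹ * g * σ ∈ H) :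
    ∀ x ∈ (S36FI_act n H).fixK, σ x ∈ (S36FI_act n H).fixK := by
  intro x hx
  rw [S36FI_mem_fixK] at hx ⊢
  intro g hg
  have h1 := hx _ (hnorm g hg)
  have h2 : (σ⁻¹ * g * σ) x = σ⁻¹ (g (σ x)) := rfl
  rw [h2] at h1
  have h3 := congrArg σ h1
  have h4 : σ (σ⁻¹ (g (σ x))) = g (σ x) := by
    change (σ * σ⁻¹) (g (σ x)) = _
    rw [mul_inv_cancel]
    rfl
  rw [h4] at h3
  exact h3

/-- `hσA`: `σ` preserves the integral constants. -/
theorem S40F2GR_hσA [Fact p.Prime] (hσ : σ ∈ S40D_I1 A p) (σL : Ω →+* Ω)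
    (hσL : ∀ x, σL x = σ x) :
    ∀ a ∈ (S36FI_act n H).fixK, a ∈ A → σL a ∈ A := by
  intro a _ ha
  rw [hσL, ← ValuationSubring.valuation_le_one_iff, S40F2B_inertia_val A hσ.1]
  exact (A.valuation_le_one_iff a).mpr ha

/-- a `σ`-fixed element of `C₀` is fixed by `I¹`, so its valuation is `v(π)^(p m)`. -/
theorem S40F2GR_fixed_val [hp : Fact p.Prime] (hA : A.LiesOverPrime p) {ζ : Ω}
    (hprim : IsPrimitiveRoot ζ p) (hσ : σ ∈ S40D_I1 A p)
    (hdec : ∀ g ∈ S40D_I1 A p, ∃ k : ℕ, (σ ^ k)⁻¹ * g ∈ H)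
    {π : Ω} (hvπ : A.valuation π ^ p = A.valuation (1 - ζ))
    (w : Ω) (hwK : w ∈ (S36FI_act n H).fixK) (hσw : σ w = w) (hw0 : w ≠ 0) :
    ∃ m : ℤ, A.valuation w = A.valuation π ^ ((p : ℤ) * m) := by
  rw [S36FI_mem_fixK] at hwK
  haveI : NeZero p := ⟨hp.out.ne_zero⟩
  have hpow : ∀ k : ℕ, (σ ^ k) w = w := by
    intro k
    induction k with
    | zero => rfl
    | succ k ih => rw [pow_succ, AlgEquiv.mul_apply, hσw, ih]
  have hI : ∀ g ∈ S40D_I1 A p, g w = w := by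
    intro g hg
    obtain ⟨k, hk⟩ := hdec g hg
    have h1 := hwK _ hk
    have h2 : ((σ ^ k)⁻¹ * g) w = (σ ^ k)⁻¹ (g w) := rfl
    rw [h2] at h1
    have h3 := congrArg (σ ^ k) h1
    have h4 : (σ ^ k) ((σ ^ k)⁻¹ (g w)) = g w := by
      change ((σ ^ k) * (σ ^ k)⁻¹) (g w) = _
      rw [mul_inv_cancel]
      rfl
    rw [h4, hpow] at h3
    exact h3
  have hfix : ∀ τ ∈ A.inertiaSubgroupIn ℚ, τ ζ = ζ → τ w = w := by
    intro τ hτ hτζ
    refine hI τ ⟨hτ, fun ζ' hζ' => ?_⟩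
    obtain ⟨j, -, rfl⟩ := hprim.eq_pow_of_pow_eq_one hζ'
    rw [map_pow, hτζ]
  obtain ⟨m, hm⟩ := S33BZ_val_eq A hA hprim hw0 hfix
  exact ⟨m, by rw [hm, ← hvπ, zpow_mul, zpow_natCast]⟩

/-- **`hres`** of `S40F2YM_hdiv` on the real objects. -/
theorem S40F2GR_hres (hp : p.Prime) (hA : A.LiesOverPrime p) {ζ : Ω}
    (hprim : IsPrimitiveRoot ζ p) (hσ : σ ∈ S40D_I1 A p)
    (hdec : ∀ g ∈ S40D_I1 A p, ∃ k : ℕ, (σ ^ k)⁻¹ * g ∈ H)
    (hnorm : ∀ g ∈ H, σ⁻¹ * g * σ ∈ H) (hσp : σ ^ p ∈ H)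
    {π : Ω} (hπH : ∀ g ∈ H, g π = π) (hπ0 : π ≠ 0) (hπ1 : A.valuation π < 1)
    (hvπ : A.valuation π ^ p = A.valuation (1 - ζ)) (hσπ : σ π ≠ π)
    (σL : Ω →+* Ω) (hσL : ∀ x, σL x = σ x) :
    ∀ z ∈ (S36FI_act n H).fixK, z ∈ A →
      ∃ b z' : Ω, σL b = b ∧ z' ∈ (S36FI_act n H).fixK ∧ z' ∈ A ∧ z = b + π * z' := by
  haveI : Fact p.Prime := ⟨hp⟩
  intro z hzK hzA
  have hiter : ∀ (j : ℕ) (x : Ω), σL^[j] x = (σ ^ j) x := by
    intro j
    induction j with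
    | zero => intro x; rfl
    | succ j ih =>
      intro x
      rw [Function.iterate_succ_apply', ih, hσL, pow_succ', AlgEquiv.mul_apply]
  have hfixp : ∀ x ∈ (S36FI_act n H).fixK, σL^[p] x = x := by
    intro x hx
    rw [hiter]
    exact (S36FI_mem_fixK n H).1 hx _ hσp
  have hπK : π ∈ (S36FI_act n H).fixK := (S36FI_mem_fixK n H).2 hπH
  obtain ⟨a, -, z', hz'K, ha, -, hVz', hzz'⟩ := S40LR_res_sub (V := A.valuation) hp
    (σ := σL) (S36FI_act n H).fixK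
    (fun x hx => by rw [hσL]; exact S40F2GR_hσC n H hnorm x hx) hπK (hfixp π hπK)
    (by rw [hσL]; exact hσπ) hπ0 hπ1
    (fun w hwK hσw hw0 => S40F2GR_fixed_val n A H hA hprim hσ hdec hvπ w hwK
      (by rw [← hσL]; exact hσw) hw0)
    z hzK (hfixp z hzK) ((A.valuation_le_one_iff z).mpr hzA)
  exact ⟨a, z', ha, hz'K, (A.valuation_le_one_iff z').mp hVz', hzz'⟩

end res

end Fermat.Agent.S40
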