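import Mathlib
import Fermat.Agent.S40.F2H
import Fermat.Agent.S40.F2Jump
import Fermat.Agent.S40.TWq

/-!
# TRACK 13 (S40), GEO-6: the Hecke step at the two Gauss valuations of `X₀(Mp)` (helper29).
Prefix `S40F2HI_`.

`F = modularFunctionFieldBar (M * p)`, `O₁ = S34DF_O1`, `O₂ = S34DF_O2` (`= w_p⁻¹ O₁`),
`t = GRS_t hst` at a prime `ℓ ≠ p`, `ℓ ∤ M p`.

* `S40F2HI_cg_gen` : for a valuation ring `O = wq⁻¹ (S18_O A N)` (`wq` commuting with `t`):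
  `h ≡ d mod π^{i+1}` at `O`  ⇒  `t h ≡ d^{ℓ+1} mod π^{i+1}` at `O`   (in the form `S40F2J_Cg`).
* `S40F2HI_cg₁`, `S40F2HI_cg₂` : the instances `O₁`, `O₂` (with helper24's `S40TW_t_wq_DF`).
* `S40F2HI_isU_gen`, `S40F2HI_isU₁`, `S40F2HI_isU₂` : `V_j (u / c) = 1` ⇒
  `V_j (t u / c^{ℓ+1}) = 1` (the shape `S40F2S_IsU` of `F2Main.lean`).
-/

set_option autoImplicit false
set_option linter.unusedSectionVars false
set_option synthInstance.maxHeartbeats 400000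
set_option maxHeartbeats 1000000

open ModularCurve

namespace Fermat.Agent.S40

open Fermat.Agent.S24 Fermat.Agent.GalRep Fermat.Agent.S34 Fermat.Agent.S18

local notation "Ω" => AlgebraicClosure ℚ

section gen

variable (N : ℕ) [NeZero N] (A : ValuationSubring Ω) {ℓ : ℕ} [NeZero ℓ] {ζ : Ωˣ}

/-- **transport of a first-order congruence by `t`**, generic form. -/
theorem S40F2HI_cg_gen (hgen : PrincipalGeneratedByIntegral A (IsLocalRing.residue A) N)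
    (hζ : ζ ^ ℓ = 1) (hst : GRS_Stab N ℓ ζ) (hℓN : ¬ ℓ ∣ N)
    (wq : ↥(modularFunctionFieldBar N) ≃ₐ[Ω] ↥(modularFunctionFieldBar N))
    (hcomm : ∀ g : ↥(modularFunctionFieldBar N), wq (GRS_t hst g) = GRS_t hst (wq g))
    (O : ValuationSubring ↥(modularFunctionFieldBar N))
    (hO : ∀ x : ↥(modularFunctionFieldBar N), x ∈ O ↔ wq x ∈ S18_O A N)
    (π d : Ω) (hπA : π ∈ A) (hπ0 : π ≠ 0) (hd0 : d ≠ 0) (i : ℕ)
    (h : ↥(modularFunctionFieldBar N))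
    (H : S40F2J_Cg O.valuation (algebraMap Ω ↥(modularFunctionFieldBar N) π) i
      (h / algebraMap Ω ↥(modularFunctionFieldBar N) d) 0) :
    S40F2J_Cg O.valuation (algebraMap Ω ↥(modularFunctionFieldBar N) π) i
      (GRS_t hst h / algebraMap Ω ↥(modularFunctionFieldBar N) (d ^ (ℓ + 1))) 0 := by
  set cπ : ↥(modularFunctionFieldBar N) := algebraMap Ω ↥(modularFunctionFieldBar N) π with hcπ
  set cd : ↥(modularFunctionFieldBar N) := algebraMap Ω ↥(modularFunctionFieldBar N) d with hcd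
  have hcπ0 : cπ ≠ 0 := (map_ne_zero _).mpr hπ0
  have hcd0 : cd ≠ 0 := (map_ne_zero _).mpr hd0
  have hpow0 : cπ ^ (i + 1) ≠ 0 := pow_ne_zero _ hcπ0
  have hVpos : 0 < O.valuation cπ ^ (i + 1) :=
    pow_pos (zero_lt_iff.mpr ((Valuation.ne_zero_iff _).mpr hcπ0)) _
  unfold S40F2J_Cg at H ⊢
  -- `r = (h/d − 1)/π^{i+1} ∈ O`
  have hr : (h / cd - 1) / cπ ^ (i + 1) ∈ O := by
    rw [← ValuationSubring.valuation_le_one_iff, map_div₀, map_pow, div_le_iff₀ hVpos, one_mul]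
    have e : h / cd - 1 = h / cd - (1 + 0 * cπ ^ i) := by ring
    rw [e]
    exact H
  have ha : π ^ (i + 1) ∈ A := A.pow_mem hπA _
  have hu : h / cd = 1 + algebraMap Ω ↥(modularFunctionFieldBar N) (π ^ (i + 1)) *
      ((h / cd - 1) / cπ ^ (i + 1)) := by
    rw [map_pow]
    field_simp
    ring
  obtain ⟨w', hw', htu⟩ := S40F2H_one_unit_comap N A hgen hζ hst wq hcomm (π ^ (i + 1)) ha
    (h / cd) ((h / cd - 1) / cπ ^ (i + 1)) ((hO _).mp hr) hu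
  have hw'O : w' ∈ O := (hO _).mpr hw'
  have htd : GRS_t hst (h / cd) = GRS_t hst h / algebraMap Ω ↥(modularFunctionFieldBar N)
      (d ^ (ℓ + 1)) := by
    rw [map_div₀, hcd, S40F2H_const N hst hℓN]
  rw [← htd, htu]
  have e : 1 + algebraMap Ω ↥(modularFunctionFieldBar N) (π ^ (i + 1)) * w' - (1 + 0 * cπ ^ i)
      = cπ ^ (i + 1) * w' := by
    rw [map_pow]
    ring
  rw [e, map_mul, map_pow]
  exact mul_le_of_le_one_right' ((ValuationSubring.valuation_le_one_iff _ _).mpr hw'O)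

/-- units: `V (u / c) = 1` ⇒ `V (t u / c^{ℓ+1}) = 1`  (the constant of `t u` at `V` is
`c^{ℓ+1}`). -/
theorem S40F2HI_isU_gen (hgen : PrincipalGeneratedByIntegral A (IsLocalRing.residue A) N)
    (hζ : ζ ^ ℓ = 1) (hst : GRS_Stab N ℓ ζ) (hℓN : ¬ ℓ ∣ N)
    (wq : ↥(modularFunctionFieldBar N) ≃ₐ[Ω] ↥(modularFunctionFieldBar N))
    (hcomm : ∀ g : ↥(modularFunctionFieldBar N), wq (GRS_t hst g) = GRS_t hst (wq g))
    (O : ValuationSubring ↥(modularFunctionFieldBar N))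
    (hO : ∀ x : ↥(modularFunctionFieldBar N), x ∈ O ↔ wq x ∈ S18_O A N)
    (c : Ω) (hc0 : c ≠ 0) (u : ↥(modularFunctionFieldBar N))
    (hu : O.valuation (u / algebraMap Ω ↥(modularFunctionFieldBar N) c) = 1) :
    O.valuation (GRS_t hst u / algebraMap Ω ↥(modularFunctionFieldBar N) (c ^ (ℓ + 1))) = 1 := by
  set cc : ↥(modularFunctionFieldBar N) := algebraMap Ω ↥(modularFunctionFieldBar N) c with hcc
  have hcc0 : cc ≠ 0 := (map_ne_zero _).mpr hc0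
  set v : ↥(modularFunctionFieldBar N) := u / cc with hv
  have hv0 : v ≠ 0 := by
    intro h0
    rw [h0, map_zero] at hu
    exact zero_ne_one hu
  have hvO : v ∈ O := (ValuationSubring.valuation_le_one_iff _ _).mp hu.le
  have hviO : v⁻¹ ∈ O := by
    rw [← ValuationSubring.valuation_le_one_iff, map_inv₀, hu, inv_one]
  have hw : wq v ∈ S18_O A N := (hO _).mp hvO
  have hwi : wq v⁻¹ ∈ S18_O A N := (hO _).mp hviO
  have hred : S18_red A N ⟨wq v, hw⟩ ≠ 0 := by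
    intro h0
    have e : (⟨wq v, hw⟩ : ↥(S18_O A N)) * ⟨wq v⁻¹, hwi⟩ = 1 := by
      apply Subtype.ext
      show wq v * wq v⁻¹ = 1
      rw [← map_mul, mul_inv_cancel₀ hv0, map_one]
    have := congrArg (S18_red A N) e
    rw [map_mul, h0, zero_mul, map_one] at this
    exact zero_ne_one this
  have hgv : u = cc * v := by
    rw [hv]
    field_simp
  obtain ⟨v', hv', hr', e⟩ := S40F2H_unit_const_comap N A hgen hζ hst hℓN wq hcomm c u v
    hw hred hgv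
  have hc'0 : algebraMap Ω ↥(modularFunctionFieldBar N) (c ^ (ℓ + 1)) ≠ 0 :=
    (map_ne_zero _).mpr (pow_ne_zero _ hc0)
  have e' : GRS_t hst u / algebraMap Ω ↥(modularFunctionFieldBar N) (c ^ (ℓ + 1)) = v' := by
    rw [e]
    field_simp
  rw [e']
  have hv'O : v' ∈ O := (hO _).mpr hv'
  have hv'i : (wq v')⁻¹ ∈ S18_O A N := S18_inv_mem_O A N hv' hr'
  have hv'iO : v'⁻¹ ∈ O := by
    rw [hO, map_inv₀]
    exact hv'i
  have h1 : O.valuation v' ≤ 1 := (ValuationSubring.valuation_le_one_iff _ _).mpr hv'O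
  have h2 : O.valuation v'⁻¹ ≤ 1 := (ValuationSubring.valuation_le_one_iff _ _).mpr hv'iO
  have hv'0 : v' ≠ 0 := by
    intro h0
    apply hr'
    have : (⟨wq v', hv'⟩ : ↥(S18_O A N)) = 0 := by
      apply Subtype.ext
      show wq v' = 0
      rw [h0, map_zero]
    rw [this, map_zero]
  have hV0 : O.valuation v' ≠ 0 := (Valuation.ne_zero_iff _).mpr hv'0
  rw [map_inv₀, inv_le_one₀ (zero_lt_iff.mpr hV0)] at h2
  exact le_antisymm h1 h2

end gen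

section inst

variable (M p ℓ : ℕ) [NeZero M] [NeZero p] [NeZero ℓ] (hp : p.Prime) (hpM : ¬ p ∣ M)
  (hℓ : ℓ.Prime) (hℓp : ℓ ≠ p)
  (A : ValuationSubring Ω)
  (hgen : PrincipalGeneratedByIntegral A (IsLocalRing.residue A) (M * p))
  (ζ : Ωˣ) (hζ : IsPrimitiveRoot (ζ : Ω) ℓ)

include hζ in
theorem S40F2HI_zeta_pow : ζ ^ ℓ = 1 := by
  apply Units.ext
  rw [Units.val_pow_eq_pow_val]
  exact hζ.pow_eq_one

include hζ in
/-- **`h ≡ d` at `V₁` ⇒ `t h ≡ d^{ℓ+1}` at `V₁`** (modulo `π^{i+1}`). -/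
theorem S40F2HI_cg₁ (hst : GRS_Stab (M * p) ℓ ζ) (hℓN : ¬ ℓ ∣ M * p)
    (π d : Ω) (hπA : π ∈ A) (hπ0 : π ≠ 0) (hd0 : d ≠ 0) (i : ℕ)
    (h : ↥(modularFunctionFieldBar (M * p)))
    (H : S40F2J_Cg (S34DF_O1 M p A hgen).valuation
      (algebraMap Ω ↥(modularFunctionFieldBar (M * p)) π) i
      (h / algebraMap Ω ↥(modularFunctionFieldBar (M * p)) d) 0) :
    S40F2J_Cg (S34DF_O1 M p A hgen).valuation
      (algebraMap Ω ↥(modularFunctionFieldBar (M * p)) π) i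
      (GRS_t hst h / algebraMap Ω ↥(modularFunctionFieldBar (M * p)) (d ^ (ℓ + 1))) 0 :=
  S40F2HI_cg_gen (M * p) A hgen (S40F2HI_zeta_pow ℓ ζ hζ) hst hℓN AlgEquiv.refl
    (fun _ => rfl) (S34DF_O1 M p A hgen) (fun _ => Iff.rfl) π d hπA hπ0 hd0 i h H

include hζ hℓ hℓp in
/-- **`h ≡ d` at `V₂` ⇒ `t h ≡ d^{ℓ+1}` at `V₂`** (modulo `π^{i+1}`). -/
theorem S40F2HI_cg₂ (hst : GRS_Stab (M * p) ℓ ζ) (hℓN : ¬ ℓ ∣ M * p)
    (π d : Ω) (hπA : π ∈ A) (hπ0 : π ≠ 0) (hd0 : d ≠ 0) (i : ℕ)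
    (h : ↥(modularFunctionFieldBar (M * p)))
    (H : S40F2J_Cg (S34DF_O2 M p hp hpM A hgen).valuation
      (algebraMap Ω ↥(modularFunctionFieldBar (M * p)) π) i
      (h / algebraMap Ω ↥(modularFunctionFieldBar (M * p)) d) 0) :
    S40F2J_Cg (S34DF_O2 M p hp hpM A hgen).valuation
      (algebraMap Ω ↥(modularFunctionFieldBar (M * p)) π) i
      (GRS_t hst h / algebraMap Ω ↥(modularFunctionFieldBar (M * p)) (d ^ (ℓ + 1))) 0 :=
  S40F2HI_cg_gen (M * p) A hgen (S40F2HI_zeta_pow ℓ ζ hζ) hst hℓN (S34DF_wq M p hp hpM)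
    (fun g => (S40TW_t_wq_DF M p ℓ hp hpM hℓ hℓp ζ hζ hst g).symm)
    (S34DF_O2 M p hp hpM A hgen) (fun _ => Iff.rfl) π d hπA hπ0 hd0 i h H

include hζ in
/-- **`V₁ (u / c) = 1` ⇒ `V₁ (t u / c^{ℓ+1}) = 1`**. -/
theorem S40F2HI_isU₁ (hst : GRS_Stab (M * p) ℓ ζ) (hℓN : ¬ ℓ ∣ M * p)
    (c : Ω) (hc0 : c ≠ 0) (u : ↥(modularFunctionFieldBar (M * p)))
    (hu : (S34DF_O1 M p A hgen).valuation
      (u / algebraMap Ω ↥(modularFunctionFieldBar (M * p)) c) = 1) :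
    (S34DF_O1 M p A hgen).valuation
      (GRS_t hst u / algebraMap Ω ↥(modularFunctionFieldBar (M * p)) (c ^ (ℓ + 1))) = 1 :=
  S40F2HI_isU_gen (M * p) A hgen (S40F2HI_zeta_pow ℓ ζ hζ) hst hℓN AlgEquiv.refl
    (fun _ => rfl) (S34DF_O1 M p A hgen) (fun _ => Iff.rfl) c hc0 u hu

include hζ hℓ hℓp in
/-- **`V₂ (u / c) = 1` ⇒ `V₂ (t u / c^{ℓ+1}) = 1`**. -/
theorem S40F2HI_isU₂ (hst : GRS_Stab (M * p) ℓ ζ) (hℓN : ¬ ℓ ∣ M * p)
    (c : Ω) (hc0 : c ≠ 0) (u : ↥(modularFunctionFieldBar (M * p)))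
    (hu : (S34DF_O2 M p hp hpM A hgen).valuation
      (u / algebraMap Ω ↥(modularFunctionFieldBar (M * p)) c) = 1) :
    (S34DF_O2 M p hp hpM A hgen).valuation
      (GRS_t hst u / algebraMap Ω ↥(modularFunctionFieldBar (M * p)) (c ^ (ℓ + 1))) = 1 :=
  S40F2HI_isU_gen (M * p) A hgen (S40F2HI_zeta_pow ℓ ζ hζ) hst hℓN (S34DF_wq M p hp hpM)
    (fun g => (S40TW_t_wq_DF M p ℓ hp hpM hℓ hℓp ζ hζ hst g).symm)
    (S34DF_O2 M p hp hpM A hgen) (fun _ => Iff.rfl) c hc0 u hu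

end inst

end Fermat.Agent.S40
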