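import Mathlib

/-!
# TRACK 13 (S40), GEO-5, package H2-abs (helper14): norms of 1-units along a second embedding

Mathlib only.  Prefix `S40HA_`.

`F'/F` a finite separable extension of fields (the structure map `algebraMap F F'` is `β`),
`α : F →+* F'` a second embedding, `O` a valuation subring of `F`.  Assume that EVERY valuation
subring `O'` of `F'` lying over `O` along `β` lies over `O` along `α`.  Then for `u ∈ F` with
`u − 1 ∈ 𝔪_O` the norm `N_{F'/F}(α u)` is again a 1-unit: `N(α u) − 1 ∈ 𝔪_O`.

* `S40HA_exists_over` : a valuation subring of an extension field lying over `O`;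
* `S40HA_val_lt_iff`  : `v_O(z) < 1 ↔ v_B(z) < 1` for `B` over `O`;
* `S40HA_prod_one`    : a finite product of 1-units is a 1-unit;
* **`S40HA_main`**    : the statement above;
* `S40HA_main_unit`   : `v_O(N(α u)) = 1`.
-/

set_option autoImplicit false

namespace Fermat.Agent.S40

open Finset

section S40HA_sec_over

variable {F Ω : Type*} [Field F] [Field Ω]

/-- every valuation subring `O` of `F` is the contraction of a valuation subring of any
extension field `Ω`. -/
theorem S40HA_exists_over (f : F →+* Ω) (O : ValuationSubring F) :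
    ∃ B : ValuationSubring Ω, B.comap f = O := by
  -- the image of `O`, as a subring of `Ω`, and the image of its maximal ideal
  let R : Subring Ω := O.toSubring.map f
  let g : O →+* R := (f.comp O.subtype).codRestrict R (fun x => ⟨x.1, x.2, rfl⟩)
  have hg : Function.Surjective g := by
    rintro ⟨_, x, hx, rfl⟩
    exact ⟨⟨x, hx⟩, rfl⟩
  have hginj : Function.Injective g := by
    intro a b hab
    have h1 : f a.1 = f b.1 := congrArg Subtype.val hab
    exact Subtype.ext (f.injective h1)
  let I : Ideal R := (IsLocalRing.maximalIdeal O).map g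
  have hI : I ≠ ⊤ := by
    intro h
    have h1 : (1 : R) ∈ I := h ▸ Submodule.mem_top
    rw [Ideal.mem_map_iff_of_surjective g hg] at h1
    obtain ⟨a, ha, ha1⟩ := h1
    have h2 : a = 1 := hginj (ha1.trans (map_one g).symm)
    rw [h2] at ha
    exact (IsLocalRing.maximalIdeal.isMaximal O).ne_top
      ((Ideal.eq_top_iff_one _).2 ha)
  obtain ⟨B, hRB, hIB⟩ := Ideal.image_subset_nonunits_valuationSubring I hI
  refine ⟨B, ?_⟩
  ext z
  rw [ValuationSubring.mem_comap]
  constructor
  · intro hz
    by_contra hzO
    -- `z ∉ O` ⇒ `z⁻¹ ∈ 𝔪_O` ⇒ `f z⁻¹ ∈ 𝔪_B` ⇒ `f z ∉ B`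
    have hz0 : z ≠ 0 := fun h => hzO (h ▸ O.zero_mem)
    have h1 : z⁻¹ ∈ O.nonunits := (O.inv_mem_nonunits_iff).2 (Or.inr hzO)
    have h2 : z⁻¹ ∈ O := O.nonunits_subset h1
    have h3 : (⟨z⁻¹, h2⟩ : O) ∈ IsLocalRing.maximalIdeal O :=
      (ValuationSubring.coe_mem_nonunits_iff (A := O) (a := ⟨z⁻¹, h2⟩)).1 h1
    have h4 : f z⁻¹ ∈ B.nonunits :=
      hIB ⟨g ⟨z⁻¹, h2⟩, Ideal.mem_map_of_mem g h3, rfl⟩
    rw [map_inv₀, B.inv_mem_nonunits_iff] at h4
    rcases h4 with h4 | h4
    · exact hz0 ((map_eq_zero f).1 h4)
    · exact h4 hz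
  · intro hz
    exact hRB ⟨z, hz, rfl⟩

/-- for `B` over `O`, being in the maximal ideal can be tested upstairs. -/
theorem S40HA_val_lt_iff (f : F →+* Ω) {O : ValuationSubring F} {B : ValuationSubring Ω}
    (hB : B.comap f = O) (z : F) : O.valuation z < 1 ↔ B.valuation (f z) < 1 := by
  rw [← ValuationSubring.mem_nonunits_iff, ← ValuationSubring.mem_nonunits_iff,
    ValuationSubring.mem_nonunits_iff_or, ValuationSubring.mem_nonunits_iff_or,
    ← hB, ValuationSubring.mem_comap, map_inv₀, map_eq_zero]

end S40HA_sec_over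

section S40HA_sec_prod

variable {Ω : Type*} [Field Ω] (B : ValuationSubring Ω)

theorem S40HA_mul_one {a b : Ω} (ha : B.valuation (a - 1) < 1) (hb : B.valuation (b - 1) < 1) :
    B.valuation (a * b - 1) < 1 := by
  have ha1 : B.valuation a ≤ 1 := by
    have : a = (a - 1) + 1 := by ring
    rw [this]
    exact (B.valuation.map_add _ _).trans (max_le ha.le (by rw [map_one]))
  have h : a * b - 1 = a * (b - 1) + (a - 1) := by ring
  rw [h]
  refine lt_of_le_of_lt (B.valuation.map_add _ _) (max_lt ?_ ha)
  rw [map_mul]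
  calc B.valuation a * B.valuation (b - 1) ≤ 1 * B.valuation (b - 1) :=
        mul_le_mul_left ha1 _
    _ = B.valuation (b - 1) := one_mul _
    _ < 1 := hb

/-- a finite product of 1-units is a 1-unit. -/
theorem S40HA_prod_one {ι : Type*} (s : Finset ι) (a : ι → Ω)
    (h : ∀ i ∈ s, B.valuation (a i - 1) < 1) : B.valuation (∏ i ∈ s, a i - 1) < 1 := by
  classical
  induction s using Finset.induction_on with
  | empty => simp
  | insert i s hi ih =>
    rw [prod_insert hi]
    exact S40HA_mul_one B (h i (mem_insert_self i s))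
      (ih fun j hj => h j (mem_insert_of_mem hj))

end S40HA_sec_prod

section S40HA_sec_main

variable {F F' : Type*} [Field F] [Field F'] [Algebra F F'] [FiniteDimensional F F']
  [Algebra.IsSeparable F F']

/-- **H2-abs**: if every valuation subring of `F'` over `O` along `β = algebraMap F F'` lies over
`O` along `α`, then `N_{F'/F} ∘ α` maps 1-units of `O` to 1-units of `O`. -/
theorem S40HA_main (α : F →+* F') (O : ValuationSubring F)
    (h : ∀ O' : ValuationSubring F', O'.comap (algebraMap F F') = O → O'.comap α = O)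
    {u : F} (hu : O.valuation (u - 1) < 1) :
    O.valuation (Algebra.norm F (α u) - 1) < 1 := by
  classical
  let Ω := AlgebraicClosure F'
  obtain ⟨B, hB⟩ := S40HA_exists_over (algebraMap F Ω) O
  rw [S40HA_val_lt_iff (algebraMap F Ω) hB, map_sub, map_one,
    Algebra.norm_eq_prod_embeddings F Ω (α u)]
  refine S40HA_prod_one B univ _ fun σ _ => ?_
  -- the valuation ring `B ∘ σ` of `F'` lies over `O` along `β`, hence along `α`
  have h1 : (B.comap (σ : F' →+* Ω)).comap (algebraMap F F') = O := by
    rw [← hB]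
    ext z
    simp only [ValuationSubring.mem_comap]
    rw [show (σ : F' →+* Ω) (algebraMap F F' z) = algebraMap F Ω z from σ.commutes z]
  have h2 := h _ h1
  have h3 : O.valuation (u - 1) < 1 ↔ B.valuation ((σ : F' →+* Ω) (α (u - 1))) < 1 := by
    rw [← ValuationSubring.mem_nonunits_iff, ← ValuationSubring.mem_nonunits_iff,
      ValuationSubring.mem_nonunits_iff_or, ValuationSubring.mem_nonunits_iff_or]
    conv_lhs => rw [← h2]
    simp only [ValuationSubring.mem_comap, map_inv₀, map_eq_zero]
  have h4 := h3.1 hu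
  rwa [map_sub, map_sub, map_one, map_one] at h4

/-- the norm of `α u` is a unit of `O`. -/
theorem S40HA_main_unit (α : F →+* F') (O : ValuationSubring F)
    (h : ∀ O' : ValuationSubring F', O'.comap (algebraMap F F') = O → O'.comap α = O)
    {u : F} (hu : O.valuation (u - 1) < 1) :
    O.valuation (Algebra.norm F (α u)) = 1 := by
  have h1 := S40HA_main α O h hu
  have h2 : Algebra.norm F (α u) = (Algebra.norm F (α u) - 1) + 1 := by ring
  rw [h2, Valuation.map_add_eq_of_lt_right _ (by rwa [map_one]), map_one]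

end S40HA_sec_main

end Fermat.Agent.S40
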