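import Mathlib
import Fermat.Agent.S40.H2Abs

/-!
# TRACK 13 (S40/S44, row 38), (F2') package P6, the abstract part of (U) (helper12)

Mathlib only (+ `S40/H2Abs.lean`).  Prefix `S40F2HU_`.

"The multiplicative Hecke operator `t = N_β ∘ α` keeps units at the nodes", in the language of
valuation subrings.  `F'/F` finite separable (structure map `β = algebraMap F F'`),
`α : F →+* F'` a second embedding, `𝒩` a family of valuation subrings of `F` (the nodes).

* `S40F2HU_norm_unit` : **(U-abs)** if every valuation subring `S'` of `F'` which lies over a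
  member of `𝒩` along `β` lies over a member of `𝒩` along `α`, then `g` unit at every member of
  `𝒩` ⇒ `N_{F'/F}(α g)` unit at every member of `𝒩`  (family form of `S40HA_main_unit`);
* `S40F2HU_zeros`     : **(Z-abs)** (here the structure map plays the role of `α` and `β` is the
  second embedding): from `N (β φ) = c' φ ^ n` with `c'` a unit and `φ` integral on the family
  `𝒰`: if `β φ` is in the maximal ideal of `S'` and `S'` lies over a member `R` of `𝒰` along the
  structure map, then `φ` is in the maximal ideal of `R`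
  ("`ℓ`-isogenous to supersingular ⇒ supersingular", from the TRANSPOSED functional equation);
* `S40F2HU_main`      : the two together, `𝒩 = {S ∈ 𝒰 | φ ∈ 𝔪_S}`, with the `α`-structure explicit.
-/

set_option autoImplicit false

namespace Fermat.Agent.S40

open Finset

section S40F2HU_sec_basic

variable {F Ω : Type*} [Field F] [Field Ω]

/-- for `B` over `O`, integrality can be tested upstairs. -/
theorem S40F2HU_val_le_iff (f : F →+* Ω) {O : ValuationSubring F} {B : ValuationSubring Ω}
    (hB : B.comap f = O) (z : F) : O.valuation z ≤ 1 ↔ B.valuation (f z) ≤ 1 := by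
  rw [ValuationSubring.valuation_le_one_iff, ValuationSubring.valuation_le_one_iff, ← hB,
    ValuationSubring.mem_comap]

/-- for `B` over `O`, units can be tested upstairs. -/
theorem S40F2HU_val_eq_one_iff (f : F →+* Ω) {O : ValuationSubring F} {B : ValuationSubring Ω}
    (hB : B.comap f = O) (z : F) : O.valuation z = 1 ↔ B.valuation (f z) = 1 := by
  have h1 := S40HA_val_lt_iff f hB z
  have h2 := S40F2HU_val_le_iff f hB z
  constructor
  · intro h
    refine le_antisymm (h2.1 h.le) (not_lt.1 fun hlt => ?_)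
    have := h1.2 hlt
    rw [h] at this
    exact lt_irrefl _ this
  · intro h
    refine le_antisymm (h2.2 h.le) (not_lt.1 fun hlt => ?_)
    have := h1.1 hlt
    rw [h] at this
    exact lt_irrefl _ this

variable (B : ValuationSubring Ω)

theorem S40F2HU_prod_eq_one {ι : Type*} (s : Finset ι) (a : ι → Ω)
    (h : ∀ i ∈ s, B.valuation (a i) = 1) : B.valuation (∏ i ∈ s, a i) = 1 := by
  rw [map_prod]
  exact Finset.prod_eq_one h

theorem S40F2HU_prod_le_one {ι : Type*} (s : Finset ι) (a : ι → Ω)
    (h : ∀ i ∈ s, B.valuation (a i) ≤ 1) : B.valuation (∏ i ∈ s, a i) ≤ 1 := by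
  rw [ValuationSubring.valuation_le_one_iff]
  exact prod_mem fun i hi => (B.valuation_le_one_iff _).1 (h i hi)

theorem S40F2HU_prod_lt_one {ι : Type*} [DecidableEq ι] (s : Finset ι) (a : ι → Ω)
    (h : ∀ i ∈ s, B.valuation (a i) ≤ 1) {i₀ : ι} (hi₀ : i₀ ∈ s)
    (h₀ : B.valuation (a i₀) < 1) : B.valuation (∏ i ∈ s, a i) < 1 := by
  rw [← Finset.mul_prod_erase s a hi₀, map_mul]
  have h1 : B.valuation (∏ i ∈ s.erase i₀, a i) ≤ 1 :=
    S40F2HU_prod_le_one B _ a fun i hi => h i (Finset.mem_of_mem_erase hi)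
  calc B.valuation (a i₀) * B.valuation (∏ i ∈ s.erase i₀, a i)
      ≤ B.valuation (a i₀) * 1 := mul_le_mul' (le_refl _) h1
    _ = B.valuation (a i₀) := mul_one _
    _ < 1 := h₀

end S40F2HU_sec_basic

section S40F2HU_sec_main

variable {F F' : Type*} [Field F] [Field F'] [Algebra F F'] [FiniteDimensional F F']
  [Algebra.IsSeparable F F']

/-- **(U-abs)**: `N_{F'/F} ∘ α` keeps the units at the members of a family `𝒩` of valuation
subrings, if every valuation subring of `F'` over a member of `𝒩` along `β = algebraMap F F'`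
lies over a member of `𝒩` along `α`. -/
theorem S40F2HU_norm_unit (α : F →+* F') (𝒩 : Set (ValuationSubring F))
    (h𝒩 : ∀ S' : ValuationSubring F', S'.comap (algebraMap F F') ∈ 𝒩 → S'.comap α ∈ 𝒩)
    {g : F} (hg : ∀ S ∈ 𝒩, S.valuation g = 1) :
    ∀ S ∈ 𝒩, S.valuation (Algebra.norm F (α g)) = 1 := by
  classical
  intro S hS
  let Ω := AlgebraicClosure F'
  obtain ⟨B, hB⟩ := S40HA_exists_over (algebraMap F Ω) S
  rw [S40F2HU_val_eq_one_iff (algebraMap F Ω) hB, Algebra.norm_eq_prod_embeddings F Ω (α g)]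
  refine S40F2HU_prod_eq_one B univ _ fun σ _ => ?_
  have h1 : (B.comap (σ : F' →+* Ω)).comap (algebraMap F F') = S := by
    rw [← hB]
    ext z
    simp only [ValuationSubring.mem_comap]
    rw [show (σ : F' →+* Ω) (algebraMap F F' z) = algebraMap F Ω z from σ.commutes z]
  have h2 : (B.comap (σ : F' →+* Ω)).comap α ∈ 𝒩 := h𝒩 _ (h1 ▸ hS)
  have h3 := hg _ h2
  have h4 : ((B.comap (σ : F' →+* Ω)).comap α) = B.comap ((σ : F' →+* Ω).comp α) := by
    ext z
    simp only [ValuationSubring.mem_comap, RingHom.comp_apply]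
  exact (S40F2HU_val_eq_one_iff ((σ : F' →+* Ω).comp α) h4.symm g).1 h3

/-- **(Z-abs)**: the structure map `algebraMap F F'` plays the role of `α`, `β` is a second
embedding.  From the functional equation `N_{F'/F}(β φ) = c' φ ^ n`: if `β φ` lies in the maximal
ideal of `S'` and `S'` lies over the member `R` of `𝒰` along the structure map, then `φ` lies in
the maximal ideal of `R`. -/
theorem S40F2HU_zeros (β : F →+* F') (𝒰 : Set (ValuationSubring F)) (φ c' : F) (n : ℕ)
    (hc2 : ∀ S' : ValuationSubring F', S'.comap (algebraMap F F') ∈ 𝒰 → S'.comap β ∈ 𝒰)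
    (hφ : ∀ S ∈ 𝒰, S.valuation φ ≤ 1) (hc' : ∀ S ∈ 𝒰, S.valuation c' = 1)
    (hN : Algebra.norm F (β φ) = c' * φ ^ n)
    (S' : ValuationSubring F') (hS'𝒰 : S'.comap (algebraMap F F') ∈ 𝒰)
    (hS' : S'.valuation (β φ) < 1) :
    (S'.comap (algebraMap F F')).valuation φ < 1 := by
  classical
  let Ω := AlgebraicClosure F'
  obtain ⟨B, hB⟩ := S40HA_exists_over (algebraMap F' Ω) S'
  have hBR : B.comap (algebraMap F Ω) = S'.comap (algebraMap F F') := by
    rw [← hB]
    ext z
    simp only [ValuationSubring.mem_comap]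
    rw [IsScalarTower.algebraMap_apply F F' Ω]
  -- the norm lies in the maximal ideal
  have h1 : B.valuation (algebraMap F Ω (Algebra.norm F (β φ))) < 1 := by
    rw [Algebra.norm_eq_prod_embeddings F Ω (β φ)]
    refine S40F2HU_prod_lt_one B univ _ (fun σ _ => ?_)
      (Finset.mem_univ (IsScalarTower.toAlgHom F F' Ω)) ?_
    · -- every conjugate is integral
      have h2 : (B.comap (σ : F' →+* Ω)).comap (algebraMap F F') =
          S'.comap (algebraMap F F') := by
        rw [← hBR]
        ext z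
        simp only [ValuationSubring.mem_comap]
        rw [show (σ : F' →+* Ω) (algebraMap F F' z) = algebraMap F Ω z from σ.commutes z]
      have h3 : (B.comap (σ : F' →+* Ω)).comap β ∈ 𝒰 := hc2 _ (h2 ▸ hS'𝒰)
      have h4 := hφ _ h3
      have h5 : ((B.comap (σ : F' →+* Ω)).comap β) = B.comap ((σ : F' →+* Ω).comp β) := by
        ext z
        simp only [ValuationSubring.mem_comap, RingHom.comp_apply]
      exact (S40F2HU_val_le_iff ((σ : F' →+* Ω).comp β) h5.symm φ).1 h4
    · -- the conjugate under the canonical embedding is in the maximal ideal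
      exact (S40HA_val_lt_iff (algebraMap F' Ω) hB (β φ)).1 hS'
  rw [← S40HA_val_lt_iff (algebraMap F Ω) hBR, hN, map_mul, map_pow, hc' _ hS'𝒰, one_mul] at h1
  by_contra hcon
  have h6 : 1 ≤ (S'.comap (algebraMap F F')).valuation φ := not_lt.1 hcon
  exact absurd h1 (not_lt.2 (one_le_pow_of_one_le' h6 n))

/-- **(U) abstract**: `β = algebraMap F F'`, `α` a second embedding for which `F'/α(F)` is finite
separable too; `𝒰` a family of valuation subrings of `F` ("off the cusps") which is compatible
with `α`, `β` in both directions; `φ` integral on `𝒰` with the transposed functional equation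
`N_α(β φ) = c' φ ^ n`, `c'` a unit on `𝒰`.  Then `N_β ∘ α` keeps the units at the members of
`𝒩 = {S ∈ 𝒰 | φ ∈ 𝔪_S}` (the nodes). -/
theorem S40F2HU_main (α : F →+* F')
    (hfd : letI := α.toAlgebra; FiniteDimensional F F')
    (hsep : letI := α.toAlgebra; Algebra.IsSeparable F F')
    (𝒰 : Set (ValuationSubring F)) (φ c' : F) (n : ℕ)
    (hc1 : ∀ S' : ValuationSubring F', S'.comap (algebraMap F F') ∈ 𝒰 → S'.comap α ∈ 𝒰)
    (hc2 : ∀ S' : ValuationSubring F', S'.comap α ∈ 𝒰 → S'.comap (algebraMap F F') ∈ 𝒰)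
    (hφ : ∀ S ∈ 𝒰, S.valuation φ ≤ 1) (hc' : ∀ S ∈ 𝒰, S.valuation c' = 1)
    (hN : @Algebra.norm F F' _ _ α.toAlgebra (algebraMap F F' φ) = c' * φ ^ n)
    {g : F} (hg : ∀ S ∈ 𝒰, S.valuation φ < 1 → S.valuation g = 1) :
    ∀ S ∈ 𝒰, S.valuation φ < 1 → S.valuation (Algebra.norm F (α g)) = 1 := by
  have key := S40F2HU_norm_unit α {S | S ∈ 𝒰 ∧ S.valuation φ < 1} ?_
    (g := g) (fun S hS => hg S hS.1 hS.2)
  · exact fun S hS hlt => key S ⟨hS, hlt⟩
  · rintro S' ⟨hU, hlt⟩
    refine ⟨hc1 S' hU, ?_⟩
    have h1 : S'.valuation (algebraMap F F' φ) < 1 :=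
      (S40HA_val_lt_iff (algebraMap F F') rfl φ).1 hlt
    exact @S40F2HU_zeros F F' _ _ α.toAlgebra hfd hsep (algebraMap F F') 𝒰 φ c' n hc2 hφ hc' hN
      S' (hc1 S' hU) h1

end S40F2HU_sec_main

end Fermat.Agent.S40
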