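import Mathlib
import Fermat.Agent.S40.Geo5Pth

/-!
# TRACK 13 (S40/S44, row 38), (F2'): the leaf `hn` of `S40F2M_main` — slope additivity
(helper25).  Prefix `S40F2HN_`.

`G : S18_Gauss L F k Fk` a Gauss datum (valuation ring `O`, reduction `red : O → Fk`), `P` a
place of the fibre `Fk`.  If `w = c · v ^ a · g ^ p` with `w, v` units of `O` (P6-J:
`t u = c · u ^ a · g ^ p`, helper17's `S40F2HJ_main`), then

  `ord_P (red w) ≡ a · ord_P (red v)  mod p`.

* `S40F2HN_abs`    : the statement above;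
* `S40F2HN_scaled` : the same for `w / c'`, `v / c₁` (`c', c₁` constants), the form in which the
  slopes `n = ord_P (red₁ (u / c₁))`, `n' = ord_P (red₁ (t u / c₁ ^ (l + 1)))` occur.
-/

set_option autoImplicit false
set_option linter.unusedSectionVars false
set_option linter.unusedVariables false

open AlgebraicCurve

namespace Fermat.Agent.S40

open Fermat.Agent.S18

variable {L F k Fk : Type*} [Field L] [Field F] [Algebra L F] [Field k] [Field Fk]
  [Algebra k Fk]

/-- the reduction of an integer power of a unit. -/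
theorem S40F2HN_red_zpow (G : S18_Gauss L F k Fk) (v : G.Oˣ) (a : ℤ) :
    G.red ((v ^ a : G.Oˣ) : G.O) = G.red (v : G.O) ^ a := by
  have h := map_zpow (Units.map (G.red : G.O →* Fk)) v a
  have h2 := congrArg Units.val h
  rw [Units.val_zpow_eq_zpow_val] at h2
  exact h2

/-- the value in `F` of an integer power of a unit. -/
theorem S40F2HN_coe_zpow (G : S18_Gauss L F k Fk) (v : G.Oˣ) (a : ℤ) :
    (((v ^ a : G.Oˣ) : G.O) : F) = ((v : G.O) : F) ^ a := by
  have h := map_zpow (Units.map ((G.O.subtype : G.O →+* F) : G.O →* F)) v a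
  have h2 := congrArg Units.val h
  rw [Units.val_zpow_eq_zpow_val] at h2
  exact h2

/-- **slope additivity**: `w = c · v ^ a · g ^ p` ⇒ `ord_P (red w) ≡ a · ord_P (red v)` mod `p`. -/
theorem S40F2HN_abs (G : S18_Gauss L F k Fk) (p : ℕ) (a : ℤ) (w v : G.O)
    (hw : G.red w ≠ 0) (hv : G.red v ≠ 0) (c : L) (g : F) (hc : c ≠ 0) (hg : g ≠ 0)
    (e : (w : F) = algebraMap L F c * (v : F) ^ a * g ^ p) (P : Place k Fk) :
    (p : ℤ) ∣ P.ord (G.red w) - a * P.ord (G.red v) := by
  have hU : IsUnit v := (G.red_ne_zero_iff v).1 hv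
  set v' : G.Oˣ := hU.unit with hv'
  have hvv : ((v' : G.O) : F) = (v : F) := rfl
  have hv0 : (v : F) ≠ 0 := by
    intro h0
    apply hv
    have : v = 0 := Subtype.ext h0
    rw [this, map_zero]
  set x : G.O := w * ((v' ^ (-a) : G.Oˣ) : G.O) with hx
  have hxF : (x : F) = algebraMap L F c * g ^ p := by
    rw [hx]
    show (w : F) * (((v' ^ (-a) : G.Oˣ) : G.O) : F) = _
    rw [S40F2HN_coe_zpow, hvv, e, zpow_neg]
    field_simp
  have hxred : G.red x = G.red w * G.red v ^ (-a) := by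
    rw [hx, map_mul, S40F2HN_red_zpow]
    rfl
  have hxne : G.red x ≠ 0 := by
    rw [hxred]
    exact mul_ne_zero hw (zpow_ne_zero _ hv)
  obtain ⟨e', h', he', hh', hr, -⟩ := S40G5P_pth_abs G p x hxne c g hc hg hxF
  have h1 : P.ord (G.red x) = (p : ℤ) * P.ord h' := by
    rw [hr, P.ord_mul ((map_ne_zero (algebraMap k Fk)).2 he') (pow_ne_zero p hh'),
      S18_Spec.ord_algebraMap, zero_add, ← zpow_natCast, P.ord_zpow]
  have h2 : P.ord (G.red x) = P.ord (G.red w) - a * P.ord (G.red v) := by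
    rw [hxred, P.ord_mul hw (zpow_ne_zero _ hv), P.ord_zpow]
    ring
  rw [← h2, h1]
  exact dvd_mul_right _ _

/-- **slope additivity, scaled form**: `w = c · u ^ a · g ^ p`, `u / c₁` and `w / c'` units of
`O` ⇒ `ord_P (red (w / c')) ≡ a · ord_P (red (u / c₁))` mod `p`. -/
theorem S40F2HN_scaled (G : S18_Gauss L F k Fk) (p : ℕ) (a : ℤ) (u w : F) (c₁ c' : L)
    (hc₁ : c₁ ≠ 0) (hc' : c' ≠ 0)
    (hu : u / algebraMap L F c₁ ∈ G.O) (hw : w / algebraMap L F c' ∈ G.O)
    (hured : G.red ⟨u / algebraMap L F c₁, hu⟩ ≠ 0)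
    (hwred : G.red ⟨w / algebraMap L F c', hw⟩ ≠ 0)
    (c : L) (g : F) (hc : c ≠ 0) (hg : g ≠ 0)
    (e : w = algebraMap L F c * u ^ a * g ^ p) (P : Place k Fk) :
    (p : ℤ) ∣ P.ord (G.red ⟨w / algebraMap L F c', hw⟩)
      - a * P.ord (G.red ⟨u / algebraMap L F c₁, hu⟩) := by
  have h1 : algebraMap L F c₁ ≠ 0 := (map_ne_zero (algebraMap L F)).2 hc₁
  have h' : algebraMap L F c' ≠ 0 := (map_ne_zero (algebraMap L F)).2 hc'
  refine S40F2HN_abs G p a ⟨w / algebraMap L F c', hw⟩ ⟨u / algebraMap L F c₁, hu⟩ hwred hured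
    (c * c₁ ^ a / c') g ?_ hg ?_ P
  · exact div_ne_zero (mul_ne_zero hc (zpow_ne_zero _ hc₁)) hc'
  · show w / algebraMap L F c' = algebraMap L F (c * c₁ ^ a / c') *
      (u / algebraMap L F c₁) ^ a * g ^ p
    rw [e, map_div₀, map_mul, map_zpow₀, div_zpow]
    field_simp

end Fermat.Agent.S40
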