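import Mathlib
import Fermat.Agent.S40.F2Jump

/-!
# TRACK 13 (S40), GEO-6: the JUMP of `h` and of `t h` (helper29).  Prefix `S40F2JH_`.

Mathlib + `F2Jump.lean` only.  The Hecke step without the nodes: if `h ≡ c_j mod π^{i+1}` at `V_j`
and `h' = t h ≡ c_j^m mod π^{i+1}` at `V_j` (`m = ℓ + 1`; from `S40F2H_const`,
`S40F2H_one_unit(_comap)`), then the total depths `N_s` (of `h`) and `N_s'` (of `h'`) in the
annulus of a node `s` satisfy `N_s' ≡ m · N_s mod p`.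

* `S40F2JH_delta` : `(1 + δ π^i)^m = 1 + δ' π^i` ⇒ `δ' ≡ m δ`.
* `S40F2JH_scale` : the relation between the jumps `A`, `A'` of `h`, `h'`: `A' ≡ m A`.
* `S40F2JH_scale_int` : `p ∣ N_s' − m N_s`.
* `S40F2JH_cg_transport` : abstract form of the transport of `h ≡ c` to `t h ≡ c^m`.
-/

set_option autoImplicit false

namespace Fermat.Agent.S40

section

variable {F : Type*} [Field F] {Γ : Type*} [LinearOrderedCommGroupWithZero Γ]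
variable {V : Valuation F Γ} {π : F} {i : ℕ}

theorem S40F2JH_cg_self (δ : F) : S40F2J_Cg V π i (1 + δ * π ^ i) δ := by
  unfold S40F2J_Cg
  rw [sub_self, map_zero]
  exact zero_le

/-- `(1 + δ π^i)^m = 1 + δ' π^i` gives `δ' ≡ m δ` modulo `π`. -/
theorem S40F2JH_delta {δ δ' : F} (m : ℕ) (hδ : V δ ≤ 1) (hπ : V π < 1) (hπ0 : π ≠ 0)
    (hi : 1 ≤ i) (h : (1 + δ * π ^ i) ^ m = 1 + δ' * π ^ i) :
    V (δ' - (m : F) * δ) ≤ V π := by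
  have h1 := S40F2J_cg_pow (S40F2JH_cg_self (V := V) (π := π) (i := i) δ) hδ hπ hi m
  unfold S40F2J_Cg at h1
  rw [h] at h1
  have e : 1 + δ' * π ^ i - (1 + (m : F) * δ * π ^ i) = (δ' - (m : F) * δ) * π ^ i := by ring
  rw [e, map_mul, map_pow, pow_succ] at h1
  have hp : 0 < V π ^ i := pow_pos (zero_lt_iff.mpr ((Valuation.ne_zero_iff V).mpr hπ0)) i
  by_contra hcon
  have h2 : V π < V (δ' - (m : F) * δ) := not_le.mp hcon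
  have h3 : V π ^ i * V π < V (δ' - (m : F) * δ) * V π ^ i := by
    rw [mul_comm]
    exact mul_lt_mul_of_pos_right h2 hp
  exact absurd h1 (not_le.mpr h3)

end

section climb

variable {F : Type*} [Field F] {Γ₁ Γ₂ : Type*} [LinearOrderedCommGroupWithZero Γ₁]
  [LinearOrderedCommGroupWithZero Γ₂]
variable {V₁ : Valuation F Γ₁} {V₂ : Valuation F Γ₂} {C : Subfield F} {R : Subring F} {π : F}

/-- **the jumps of `h` and of `h' = t h` at one node**: `A' ≡ m A`. -/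
theorem S40F2JH_scale (N : S40F2J_Node V₁ V₂ C R π) {i : ℕ} (hi : 1 ≤ i) (m : ℕ)
    {h h' E E' c₁ c₂ A A' : F} (hR : h / E ∈ R) (hR' : h' / E' ∈ R)
    (hc₁ : c₁ ∈ C) (hc₂ : c₂ ∈ C) (hc₁0 : c₁ ≠ 0) (hc₂0 : c₂ ≠ 0)
    (hA : A ∈ C) (hA' : A' ∈ C) (hA1 : V₂ A ≤ 1) (hA'1 : V₂ A' ≤ 1)
    (H1 : S40F2J_Cg V₁ π i (h / c₁) 0) (H2 : S40F2J_Cg V₂ π i (h / c₂) 0)
    (H1' : S40F2J_Cg V₁ π i (h' / c₁ ^ m) 0) (H2' : S40F2J_Cg V₂ π i (h' / c₂ ^ m) 0)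
    (E1 : S40F2J_Cg V₁ π i E 0) (E2 : S40F2J_Cg V₂ π i E A)
    (E1' : S40F2J_Cg V₁ π i E' 0) (E2' : S40F2J_Cg V₂ π i E' A') :
    V₁ (A' - (m : F) * A) < 1 := by
  have hz1 : V₁ (0 : F) ≤ 1 := by simp
  have hz2 : V₂ (0 : F) ≤ 1 := by simp
  obtain ⟨δ, hδC, hδ1, hc, hδ⟩ := S40F2J_main N hi hR hc₁ hc₂ hc₁0 hc₂0 C.zero_mem C.zero_mem
    hA hz1 hz2 hA1 H1 H2 E1 E2
  obtain ⟨δ', hδ'C, hδ'1, hc', hδ'⟩ := S40F2J_main N hi hR' (C.pow_mem hc₁ m) (C.pow_mem hc₂ m)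
    (pow_ne_zero m hc₁0) (pow_ne_zero m hc₂0) C.zero_mem C.zero_mem hA' hz1 hz2 hA'1 H1' H2'
    E1' E2'
  have hpow : (1 + δ * π ^ i) ^ m = 1 + δ' * π ^ i := by
    have h1 : c₁ ^ m * (1 + δ * π ^ i) ^ m = c₁ ^ m * (1 + δ' * π ^ i) := by
      rw [← mul_pow, ← hc, hc']
    exact mul_left_cancel₀ (pow_ne_zero m hc₁0) h1
  have hd := S40F2JH_delta m hδ1 N.hπ1 N.hπ0 hi hpow
  have hd' : V₁ (δ' - (m : F) * δ) < 1 := hd.trans_lt N.hπ1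
  have hm : V₁ ((m : F) * (0 - 0 + A - δ)) < 1 := by
    rw [map_mul]
    calc V₁ (m : F) * V₁ (0 - 0 + A - δ) ≤ 1 * V₁ (0 - 0 + A - δ) :=
          mul_le_mul' (S40F2J_val_natCast m) le_rfl
      _ = V₁ (0 - 0 + A - δ) := one_mul _
      _ < 1 := hδ
  have e : A' - (m : F) * A
      = (0 - 0 + A' - δ') + ((δ' - (m : F) * δ) - (m : F) * (0 - 0 + A - δ)) := by ring
  rw [e]
  refine (V₁.map_add_le (g := max (V₁ (0 - 0 + A' - δ'))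
    (max (V₁ (δ' - (m : F) * δ)) (V₁ ((m : F) * (0 - 0 + A - δ))))) (le_max_left _ _)
    ((V₁.map_sub_le (le_max_left _ _) (le_max_right _ _)).trans (le_max_right _ _))).trans_lt
    (max_lt hδ' (max_lt hd' hm))

/-- **integer form**: `A = c · N_s`, `A' = c · N_s'` with `c` a unit constant, residue
characteristic `p`: `p ∣ N_s' − m · N_s`. -/
theorem S40F2JH_scale_int (N : S40F2J_Node V₁ V₂ C R π) {i : ℕ} (hi : 1 ≤ i) (m : ℕ) (p : ℕ)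
    (hp : ∀ n : ℤ, V₁ (n : F) < 1 → (p : ℤ) ∣ n)
    {h h' E E' c₁ c₂ c : F} (Ns Ns' : ℤ) (hR : h / E ∈ R) (hR' : h' / E' ∈ R)
    (hc₁ : c₁ ∈ C) (hc₂ : c₂ ∈ C) (hc₁0 : c₁ ≠ 0) (hc₂0 : c₂ ≠ 0)
    (hcC : c ∈ C) (hc1 : V₁ c = 1)
    (H1 : S40F2J_Cg V₁ π i (h / c₁) 0) (H2 : S40F2J_Cg V₂ π i (h / c₂) 0)
    (H1' : S40F2J_Cg V₁ π i (h' / c₁ ^ m) 0) (H2' : S40F2J_Cg V₂ π i (h' / c₂ ^ m) 0)
    (E1 : S40F2J_Cg V₁ π i E 0) (E2 : S40F2J_Cg V₂ π i E (c * (Ns : F)))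
    (E1' : S40F2J_Cg V₁ π i E' 0) (E2' : S40F2J_Cg V₂ π i E' (c * (Ns' : F))) :
    (p : ℤ) ∣ Ns' - m * Ns := by
  have hc2 : V₂ c ≤ 1 := (N.hC c hcC).mp hc1.le
  have hA : c * (Ns : F) ∈ C := C.mul_mem hcC (C.intCast_mem Ns)
  have hA' : c * (Ns' : F) ∈ C := C.mul_mem hcC (C.intCast_mem Ns')
  have hA1 : V₂ (c * (Ns : F)) ≤ 1 := by
    rw [map_mul]
    exact mul_le_one' hc2 (S40F2J_val_intCast Ns)
  have hA'1 : V₂ (c * (Ns' : F)) ≤ 1 := by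
    rw [map_mul]
    exact mul_le_one' hc2 (S40F2J_val_intCast Ns')
  have key := S40F2JH_scale N hi m hR hR' hc₁ hc₂ hc₁0 hc₂0 hA hA' hA1 hA'1 H1 H2 H1' H2'
    E1 E2 E1' E2'
  apply hp
  have e : c * (Ns' : F) - (m : F) * (c * (Ns : F)) = c * ((Ns' - m * Ns : ℤ) : F) := by
    push_cast
    ring
  rw [e, map_mul, hc1, one_mul] at key
  exact key

end climb

end Fermat.Agent.S40
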