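import Fermat.Agent.S40.DiscAsm
import Fermat.Agent.S40.JSym
import Fermat.Agent.S40.F2Norm
import Fermat.Agent.S40.OrdCover2

/-!
# TRACK 13 (S40/S44, row 38), (F2-OUT): the ORDINARY places, at `T₁` AND at `T₂` (helper5).
Prefix `S40L2O_`.

Level `M p`, `p ∤ M`, `A ⊂ ℚ̄` over `p`, `T₁ = S34M_T1`, `T₂ = S34M_T2` (`red₂ = red₁ ∘ w_p`).
A place `v` of the fibre field is ORDINARY if `0 ≤ ord_v j̄` and `ord_v (red₁ φ₀) = 0`
(`φ₀ = f₀⁻¹`): the third case of helper18's `S40OC_trichotomy` and `S40OC2_trichotomy`.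

* `S40L2O_dvd`  : a Kummer generator `u` of a class has `n ∣ ord_w u` at EVERY place `w`;
* `S40L2O_ord₁` : `u` a generator of any class, unit at `T₁` ⇒ `p ∣ ord_v (red₁ u)`, `v` ordinary;
* `S40L2O_ord₂` : `u` a generator of any class, unit at `T₂` ⇒ `p ∣ ord_v (red₂ u)`, `v` ordinary
  (transport by `w_p`: `w_p u` is a generator of `w_p • x` and a unit at `T₁`);
* `S40L2O_ord₁'`, `S40L2O_ord₂'` : the same with the ordinary hypothesis VERBATIM as in the third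
  case of the two trichotomies (`S40F2PV_red₁ … (S40F2PV_phiL …)`);
* `S40L2O_loc₁`, `S40L2O_loc₂` : the (Loc) shape: every `p`-torsion class `x` has, at an ordinary
  `v`, a generator `u ∈ T_j.O` with `red_j u ≠ 0` and `p ∣ ord_v (red_j u)`.
-/

set_option autoImplicit false
set_option synthInstance.maxHeartbeats 400000
set_option maxHeartbeats 1000000
set_option linter.unusedSectionVars false
set_option linter.unusedVariables false
set_option linter.style.haveILetI false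

open HahnSeries IntermediateField AlgebraicCurve ModularCurve

noncomputable section

namespace Fermat.Agent.S40

open Fermat.Agent.Lib Fermat.Agent.S17 Fermat.Agent.S18 Fermat.Agent.S24 Fermat.Agent.S34
  Fermat.Agent.S36 Fermat.Agent.GalRep Fermat.Agent.S33

local notation "Ω" => AlgebraicClosure ℚ

/-- a Kummer generator has all its orders divisible by the exponent. -/
theorem S40L2O_dvd {N n : ℕ} {x : JZero N} {u : ↥(modularFunctionFieldBar N)}
    (h : S33DG_IsGen n x u) (w : Place Ω ↥(modularFunctionFieldBar N)) :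
    (n : ℤ) ∣ w.ord u := by
  obtain ⟨D, -, -, hD⟩ := h
  exact ⟨_, (hD w).symm⟩

section inst

variable (M p : ℕ) [NeZero M] [NeZero p] [NeZero (M * p)] (hp : p.Prime) (hpM : ¬ p ∣ M)
  (A : ValuationSubring Ω) (hA : A.LiesOverPrime p)
  (hgen : PrincipalGeneratedByIntegral A (IsLocalRing.residue A) (M * p))

include hp hpM hA in
/-- **ordinary places at `T₁`.** -/
theorem S40L2O_ord₁ {x : JZero (M * p)} {u : ↥(modularFunctionFieldBar (M * p))}
    (hg : S33DG_IsGen p x u) (hu : S40F2S_IsU (S34M_T1 M p A hgen).O u)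
    (v : Place (IsLocalRing.ResidueField A)
      ↥(modularFunctionFieldFullC (IsLocalRing.ResidueField A) (M * p)))
    (hv : 0 ≤ v.ord (S34M_xb M p A))
    (h : (S36F0_f0 M p)⁻¹ ∈ (S34M_T1 M p A hgen).O)
    (hord : v.ord ((S34M_T1 M p A hgen).red ⟨(S36F0_f0 M p)⁻¹, h⟩) = 0) :
    (p : ℤ) ∣ v.ord ((S34M_T1 M p A hgen).red ⟨u, hu.mem⟩) :=
  S40DA_ord M p hp hpM A hA hgen v hv h hord hu (fun w _ => S40L2O_dvd hg w)

/-- a unit at `T₂` is sent by `w_p` to a unit at `T₁`. -/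
theorem S40L2O_isU_wq {u : ↥(modularFunctionFieldBar (M * p))}
    (hu : S40F2S_IsU (S34M_T2 M p hp hpM A hgen).O u) :
    S40F2S_IsU (S34M_T1 M p A hgen).O (S34DF_wq M p hp hpM u) := by
  obtain ⟨h1, h2, h0⟩ := S40F2S_isU_iff.1 hu
  refine S40F2S_isU_iff.2 ⟨?_, ?_, (map_ne_zero _).2 h0⟩
  · exact h1
  · rw [← map_inv₀]
    exact h2

include hA in
/-- **ordinary places at `T₂`.** -/
theorem S40L2O_ord₂ {x : JZero (M * p)} {u : ↥(modularFunctionFieldBar (M * p))}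
    (hg : S33DG_IsGen p x u) (hu : S40F2S_IsU (S34M_T2 M p hp hpM A hgen).O u)
    (v : Place (IsLocalRing.ResidueField A)
      ↥(modularFunctionFieldFullC (IsLocalRing.ResidueField A) (M * p)))
    (hv : 0 ≤ v.ord (S34M_xb M p A))
    (h : (S36F0_f0 M p)⁻¹ ∈ (S34M_T1 M p A hgen).O)
    (hord : v.ord ((S34M_T1 M p A hgen).red ⟨(S36F0_f0 M p)⁻¹, h⟩) = 0) :
    (p : ℤ) ∣ v.ord ((S34M_T2 M p hp hpM A hgen).red ⟨u, hu.mem⟩) := by
  have hg' : S33DG_IsGen p (S40JS_w M p hp hpM • x) (S34DF_wq M p hp hpM u) :=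
    S40JS_isGen M p hp hpM hg
  have hu' := S40L2O_isU_wq M p hp hpM A hgen hu
  have e : (S34M_T2 M p hp hpM A hgen).red ⟨u, hu.mem⟩ =
      (S34M_T1 M p A hgen).red ⟨S34DF_wq M p hp hpM u, hu'.mem⟩ := rfl
  rw [e]
  exact S40L2O_ord₁ M p hp hpM A hA hgen hg' hu' v hv h hord

variable (H : Subgroup (Ω ≃ₐ[ℚ] Ω))

include hA in
/-- `S40L2O_ord₁` with the ordinary hypothesis as in `S40OC_trichotomy`. -/
theorem S40L2O_ord₁' {x : JZero (M * p)} {u : ↥(modularFunctionFieldBar (M * p))}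
    (hg : S33DG_IsGen p x u) (hu : S40F2S_IsU (S34M_T1 M p A hgen).O u)
    (v : Place (IsLocalRing.ResidueField A)
      ↥(modularFunctionFieldFullC (IsLocalRing.ResidueField A) (M * p)))
    (hv : 0 ≤ v.ord (S34M_xb M p A))
    (hord : v.ord (S40F2PV_red₁ M p hp hpM A hgen H
      (S40F2PV_phiL M p hp hpM A hA hgen H)) = 0) :
    (p : ℤ) ∣ v.ord ((S34M_T1 M p A hgen).red ⟨u, hu.mem⟩) :=
  S40L2O_ord₁ M p hp hpM A hA hgen hg hu v hv
    (S40F2PV_toO₁ M p hp hpM A hgen H (S40F2PV_phiL M p hp hpM A hA hgen H)).2 hord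

include hA in
/-- `S40L2O_ord₂` with the ordinary hypothesis as in `S40OC2_trichotomy`. -/
theorem S40L2O_ord₂' {x : JZero (M * p)} {u : ↥(modularFunctionFieldBar (M * p))}
    (hg : S33DG_IsGen p x u) (hu : S40F2S_IsU (S34M_T2 M p hp hpM A hgen).O u)
    (v : Place (IsLocalRing.ResidueField A)
      ↥(modularFunctionFieldFullC (IsLocalRing.ResidueField A) (M * p)))
    (hv : 0 ≤ v.ord (S34M_xb M p A))
    (hord : v.ord (S40F2PV_red₁ M p hp hpM A hgen H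
      (S40F2PV_phiL M p hp hpM A hA hgen H)) = 0) :
    (p : ℤ) ∣ v.ord ((S34M_T2 M p hp hpM A hgen).red ⟨u, hu.mem⟩) :=
  S40L2O_ord₂ M p hp hpM A hA hgen hg hu v hv
    (S40F2PV_toO₁ M p hp hpM A hgen H (S40F2PV_phiL M p hp hpM A hA hgen H)).2 hord

/-! ### the (Loc) shape -/

/-- every `p`-torsion class has a generator which is a unit at `T₁`. -/
theorem S40L2O_exists_unit₁ (x : JZero (M * p)) (hx : p • x = 0) :
    ∃ u : ↥(modularFunctionFieldBar (M * p)), S33DG_IsGen p x u ∧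
      S40F2S_IsU (S34M_T1 M p A hgen).O u := by
  obtain ⟨u₀, hu₀⟩ := S33DG_isGen_exists p x hx
  obtain ⟨c, hc, hval⟩ := S40F2NM_const₁ M p A hgen u₀ (S33DG_isGen_ne_zero hu₀)
  refine ⟨u₀ * (algebraMap Ω ↥(modularFunctionFieldBar (M * p)) c)⁻¹, ?_, hval⟩
  refine S40G5W_isGen_mul_triv hu₀ ⟨c⁻¹, 1, inv_ne_zero hc, one_ne_zero, ?_⟩
  rw [one_pow, mul_one, map_inv₀]

include hp hpM in
/-- every `p`-torsion class has a generator which is a unit at `T₂`. -/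
theorem S40L2O_exists_unit₂ (x : JZero (M * p)) (hx : p • x = 0) :
    ∃ u : ↥(modularFunctionFieldBar (M * p)), S33DG_IsGen p x u ∧
      S40F2S_IsU (S34M_T2 M p hp hpM A hgen).O u := by
  obtain ⟨u₀, hu₀⟩ := S33DG_isGen_exists p x hx
  obtain ⟨c, hc, hval⟩ := S40F2NM_const₂ M p hp hpM A hgen u₀ (S33DG_isGen_ne_zero hu₀)
  refine ⟨u₀ * (algebraMap Ω ↥(modularFunctionFieldBar (M * p)) c)⁻¹, ?_, hval⟩
  refine S40G5W_isGen_mul_triv hu₀ ⟨c⁻¹, 1, inv_ne_zero hc, one_ne_zero, ?_⟩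
  rw [one_pow, mul_one, map_inv₀]

include hp hpM hA in
/-- **(Loc₁) at the ordinary places.** -/
theorem S40L2O_loc₁ (x : JZero (M * p)) (hx : p • x = 0)
    (v : Place (IsLocalRing.ResidueField A)
      ↥(modularFunctionFieldFullC (IsLocalRing.ResidueField A) (M * p)))
    (hv : 0 ≤ v.ord (S34M_xb M p A))
    (h : (S36F0_f0 M p)⁻¹ ∈ (S34M_T1 M p A hgen).O)
    (hord : v.ord ((S34M_T1 M p A hgen).red ⟨(S36F0_f0 M p)⁻¹, h⟩) = 0) :
    ∃ (u : ↥(modularFunctionFieldBar (M * p))) (hu : u ∈ (S34M_T1 M p A hgen).O),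
      S33DG_IsGen p x u ∧ (S34M_T1 M p A hgen).red ⟨u, hu⟩ ≠ 0 ∧
        (p : ℤ) ∣ v.ord ((S34M_T1 M p A hgen).red ⟨u, hu⟩) := by
  obtain ⟨u, hg, hu⟩ := S40L2O_exists_unit₁ M p A hgen x hx
  obtain ⟨hm, hne⟩ := S40F2NM_red_ne (S34M_T1 M p A hgen) hu
  exact ⟨u, hm, hg, hne, S40L2O_ord₁ M p hp hpM A hA hgen hg hu v hv h hord⟩

include hA in
/-- **(Loc₂) at the ordinary places.** -/
theorem S40L2O_loc₂ (x : JZero (M * p)) (hx : p • x = 0)
    (v : Place (IsLocalRing.ResidueField A)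
      ↥(modularFunctionFieldFullC (IsLocalRing.ResidueField A) (M * p)))
    (hv : 0 ≤ v.ord (S34M_xb M p A))
    (h : (S36F0_f0 M p)⁻¹ ∈ (S34M_T1 M p A hgen).O)
    (hord : v.ord ((S34M_T1 M p A hgen).red ⟨(S36F0_f0 M p)⁻¹, h⟩) = 0) :
    ∃ (u : ↥(modularFunctionFieldBar (M * p))) (hu : u ∈ (S34M_T2 M p hp hpM A hgen).O),
      S33DG_IsGen p x u ∧ (S34M_T2 M p hp hpM A hgen).red ⟨u, hu⟩ ≠ 0 ∧
        (p : ℤ) ∣ v.ord ((S34M_T2 M p hp hpM A hgen).red ⟨u, hu⟩) := by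
  obtain ⟨u, hg, hu⟩ := S40L2O_exists_unit₂ M p hp hpM A hgen x hx
  obtain ⟨hm, hne⟩ := S40F2NM_red_ne (S34M_T2 M p hp hpM A hgen) hu
  exact ⟨u, hm, hg, hne, S40L2O_ord₂ M p hp hpM A hA hgen hg hu v hv h hord⟩

end inst

end Fermat.Agent.S40
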