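import Mathlib
import Fermat.Agent.S40.F2Main

/-!
# TRACK 13 (S40/S44, row 38), (F2'): the integer valuation of the constants (helper16).
Prefix `S40F2MV_`.  Mathlib + `F2Main` only.

From the last clause of `S40F2B_main` (every nonzero `H`-fixed constant `x` has
`v x = v π ^ k`, `k ∈ ℤ`) to the fields `hv`, `hdisc`, `hϖe` of `S40F2M_Coord`:

* `S40F2MV_vL O π` : the integer valuation `vL`, `V x = V π ^ (vL x)`;
* `S40F2MV_val` : `S40F2SI_Val O' C vL` for every valuation ring `O'` which has the same units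
  among the elements of `C` (e.g. `O' = O₂`, `O = O₁`);
* `S40F2MV_disc` : `a ∈ C` a nonunit ⇒ `a / π ∈ O`;
* `S40F2MV_of_pow` : `V ϖ = (V π ^ p) ^ e` ⇒ `vL ϖ = p · e`;
* `S40F2MV_char` : `V p < 1` ⇒ `∀ n : ℤ, V n < 1 → p ∣ n`.
-/

set_option autoImplicit false

namespace Fermat.Agent.S40

variable {F : Type*} [Field F]

open Classical in
/-- the integer valuation of the constants: `V x = V π ^ (vL x)` (and `0` if there is no such
exponent). -/
noncomputable def S40F2MV_vL (O : ValuationSubring F) (π : F) (x : F) : ℤ :=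
  if h : ∃ k : ℤ, O.valuation x = O.valuation π ^ k then Classical.choose h else 0

variable (O : ValuationSubring F) {π : F}

theorem S40F2MV_zpow_inj (hπ0 : π ≠ 0) (hπ1 : O.valuation π < 1) {k k' : ℤ}
    (h : O.valuation π ^ k = O.valuation π ^ k') : k = k' := by
  have h0 : 0 < O.valuation π := zero_lt_iff.mpr ((Valuation.ne_zero_iff _).mpr hπ0)
  exact zpow_right_injective₀ h0 (ne_of_lt hπ1) h

theorem S40F2MV_spec {x : F} (h : ∃ k : ℤ, O.valuation x = O.valuation π ^ k) :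
    O.valuation x = O.valuation π ^ (S40F2MV_vL O π x) := by
  unfold S40F2MV_vL
  rw [dif_pos h]
  exact Classical.choose_spec h

theorem S40F2MV_eq (hπ0 : π ≠ 0) (hπ1 : O.valuation π < 1) {x : F} {k : ℤ}
    (h : O.valuation x = O.valuation π ^ k) : S40F2MV_vL O π x = k := by
  have h1 := S40F2MV_spec O ⟨k, h⟩
  rw [h] at h1
  exact (S40F2MV_zpow_inj O hπ0 hπ1 h1).symm

theorem S40F2MV_pi (hπ0 : π ≠ 0) (hπ1 : O.valuation π < 1) : S40F2MV_vL O π π = 1 :=
  S40F2MV_eq O hπ0 hπ1 (zpow_one _).symm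

/-- `vL` is an integer valuation on `C` in the sense of `S40F2SI_Val`, for every valuation ring
`O'` with the same units in `C`. -/
theorem S40F2MV_val (O' : ValuationSubring F) (C : Subfield F) (hπ0 : π ≠ 0)
    (hπ1 : O.valuation π < 1)
    (hval : ∀ x ∈ C, x ≠ 0 → ∃ k : ℤ, O.valuation x = O.valuation π ^ k)
    (hOO' : ∀ x ∈ C, S40F2S_IsU O' x → S40F2S_IsU O x) :
    S40F2SI_Val O' C (S40F2MV_vL O π) where
  mul := by
    intro x hx y hy hx0 hy0
    apply S40F2MV_eq O hπ0 hπ1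
    have h0 : O.valuation π ≠ 0 := (Valuation.ne_zero_iff _).mpr hπ0
    rw [map_mul, S40F2MV_spec O (hval x hx hx0), S40F2MV_spec O (hval y hy hy0), zpow_add₀ h0]
  unit := by
    intro x _ hu
    apply S40F2MV_eq O hπ0 hπ1
    have := hOO' x ‹_› hu
    unfold S40F2S_IsU at this
    rw [this, zpow_zero]

/-- discreteness: a nonunit of `C` is divisible by `π`. -/
theorem S40F2MV_disc (C : Subfield F) (hπ0 : π ≠ 0) (hπ1 : O.valuation π < 1)
    (hval : ∀ x ∈ C, x ≠ 0 → ∃ k : ℤ, O.valuation x = O.valuation π ^ k) :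
    ∀ a ∈ C, a ∈ O.nonunits → a / π ∈ O := by
  intro a ha hnu
  by_cases ha0 : a = 0
  · rw [ha0, zero_div]
    exact O.zero_mem
  obtain ⟨k, hk⟩ := hval a ha ha0
  have h0 : 0 < O.valuation π := zero_lt_iff.mpr ((Valuation.ne_zero_iff _).mpr hπ0)
  have hlt : O.valuation π ^ k < 1 := by
    rw [← hk]
    exact (ValuationSubring.mem_nonunits_iff (A := O)).mp hnu
  have hk1 : 1 ≤ k := by
    by_contra hcon
    have hk0 : k ≤ 0 := by omega
    have : 1 ≤ O.valuation π ^ k := by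
      obtain ⟨j, rfl⟩ : ∃ j : ℕ, k = -(j : ℤ) := ⟨(-k).toNat, by omega⟩
      rw [zpow_neg, zpow_natCast]
      exact (one_le_inv₀ (pow_pos h0 j)).mpr (pow_le_one₀ zero_le hπ1.le)
    exact absurd hlt (not_lt.mpr this)
  rw [← ValuationSubring.valuation_le_one_iff, map_div₀, hk, div_le_iff₀ h0, one_mul]
  obtain ⟨j, rfl⟩ : ∃ j : ℕ, k = (j : ℤ) + 1 := ⟨(k - 1).toNat, by omega⟩
  rw [zpow_add₀ (ne_of_gt h0), zpow_one, zpow_natCast]
  exact mul_le_of_le_one_left' (pow_le_one₀ zero_le hπ1.le)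

/-- `V ϖ = (V π ^ p) ^ e` ⇒ `vL ϖ = p · e`. -/
theorem S40F2MV_of_pow (hπ0 : π ≠ 0) (hπ1 : O.valuation π < 1) {ϖ : F} (p : ℕ) (e : ℤ)
    (h : O.valuation ϖ = (O.valuation π ^ p) ^ e) : S40F2MV_vL O π ϖ = p * e := by
  apply S40F2MV_eq O hπ0 hπ1
  rw [h, zpow_mul, zpow_natCast]

/-- residue characteristic `p`. -/
theorem S40F2MV_char {p : ℕ} (hp : p.Prime) (hVp : O.valuation (p : F) < 1) :
    ∀ n : ℤ, (n : F) ∈ O.nonunits → (p : ℤ) ∣ n := by
  intro n hn
  by_contra hnd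
  have hcop : IsCoprime n (p : ℤ) := by
    rw [isCoprime_comm]
    exact (Prime.coprime_iff_not_dvd (Nat.prime_iff_prime_int.mp hp)).mpr hnd
  obtain ⟨r, s, hrs⟩ := hcop
  have h1 : (r : F) * (n : F) + (s : F) * (p : F) = 1 := by exact_mod_cast congrArg (Int.cast : ℤ → F) hrs
  have hr : O.valuation (r : F) ≤ 1 := (ValuationSubring.valuation_le_one_iff _ _).mpr (intCast_mem O r)
  have hs : O.valuation (s : F) ≤ 1 := (ValuationSubring.valuation_le_one_iff _ _).mpr (intCast_mem O s)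
  have hn1 : O.valuation (n : F) < 1 := (ValuationSubring.mem_nonunits_iff (A := O)).mp hn
  have h2 : O.valuation ((r : F) * (n : F) + (s : F) * (p : F)) < 1 := by
    refine lt_of_le_of_lt (O.valuation.map_add _ _) (max_lt ?_ ?_)
    · rw [map_mul]
      exact mul_lt_one_of_nonneg_of_lt_one_right hr zero_le hn1
    · rw [map_mul]
      exact mul_lt_one_of_nonneg_of_lt_one_right hs zero_le hVp
  rw [h1, map_one] at h2
  exact lt_irrefl _ h2

/-! ### transfer from the constants `L` (valuation ring `A`) to the Gauss valuation rings -/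

section transfer

variable {L k : Type*} [Field L] [Algebra L F] [Field k]

/-- a unit of `A` is a unit of `O` (`O ⊇ A`). -/
theorem S40F2MV_isU_const (A : ValuationSubring L) (O : ValuationSubring F)
    (hAO : ∀ a : L, a ∈ A → algebraMap L F a ∈ O) {y : L} (hy : A.valuation y = 1) :
    O.valuation (algebraMap L F y) = 1 := by
  have hy0 : y ≠ 0 := by
    rintro rfl
    simp at hy
  have h1 : y ∈ A := (ValuationSubring.valuation_le_one_iff _ _).mp hy.le
  have h2 : y⁻¹ ∈ A := by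
    rw [← ValuationSubring.valuation_le_one_iff, map_inv₀, hy, inv_one]
  have h3 := hAO y h1
  have h4 := hAO y⁻¹ h2
  rw [map_inv₀] at h4
  exact S40F2S_isU_iff.2 ⟨h3, h4, (map_ne_zero _).mpr hy0⟩

/-- `v x = v π ^ k` in `A` ⇒ the same in `O`. -/
theorem S40F2MV_transfer (A : ValuationSubring L) (O : ValuationSubring F)
    (hAO : ∀ a : L, a ∈ A → algebraMap L F a ∈ O) {x π : L} (hπ0 : π ≠ 0) {k : ℤ}
    (h : A.valuation x = A.valuation π ^ k) :
    O.valuation (algebraMap L F x) = O.valuation (algebraMap L F π) ^ k := by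
  have hVπ : A.valuation π ≠ 0 := (Valuation.ne_zero_iff _).mpr hπ0
  have hy : A.valuation (x / π ^ k) = 1 := by
    rw [map_div₀, map_zpow₀, h, div_self (zpow_ne_zero _ hVπ)]
  have h1 := S40F2MV_isU_const A O hAO hy
  have hπk : (algebraMap L F π) ^ k ≠ 0 := zpow_ne_zero _ ((map_ne_zero _).mpr hπ0)
  have e : algebraMap L F x = algebraMap L F (x / π ^ k) * (algebraMap L F π) ^ k := by
    rw [map_div₀, map_zpow₀, div_mul_cancel₀ _ hπk]
  rw [e, map_mul, h1, one_mul, map_zpow₀]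

/-- **the constant fields of `S40F2M_Coord`** from the data of `S40F2B_main`: `C₀` a subfield of
the constants (`= Fix(H)`) with `v(C₀ˣ) = v(π)^ℤ`, `c` a unit, `v ϖ = (v π ^ p) ^ e'`. -/
theorem S40F2MV_coord (N : S40NA_Node L F k) (C₀ : Subfield L) {π c ϖ : L} {p : ℕ} (hp : p.Prime)
    {e' : ℤ} {X Y : F}
    (hA₁ : ∀ a : L, algebraMap L F a ∈ N.O₁ → a ∈ N.A)
    (hA₂ : ∀ a : L, algebraMap L F a ∈ N.O₂ → a ∈ N.A)
    (hπC : π ∈ C₀) (hπ0 : π ≠ 0) (hπ1 : N.A.valuation π < 1)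
    (hval : ∀ x ∈ C₀, x ≠ 0 → ∃ j : ℤ, N.A.valuation x = N.A.valuation π ^ j)
    (hcC : c ∈ C₀) (hc1 : N.A.valuation c = 1)
    (hVp : N.A.valuation (p : L) < 1)
    (hfin : ∀ g : F, {Q : S40NA_Pt L F | Q ∈ N.U ∧ g ∉ Q.P}.Finite)
    (hXY : X * Y = algebraMap L F ϖ) (hX : S40F2S_IsU N.O₁ X) (hY : S40F2S_IsU N.O₂ Y)
    (hXP : S40F2SN_NoZP N X)
    (hϖC : ϖ ∈ C₀) (hϖe : N.A.valuation ϖ = (N.A.valuation π ^ p) ^ e') :
    S40F2M_Coord N (C₀.map (algebraMap L F)) (S40F2MV_vL N.O₁ (algebraMap L F π))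
      (algebraMap L F π) (algebraMap L F c) X Y (algebraMap L F ϖ) p e' := by
  have hπ0' : algebraMap L F π ≠ 0 := (map_ne_zero _).mpr hπ0
  have hπnu : algebraMap L F π ∈ N.O₁.nonunits :=
    S40F2K_nonunit N.O₁ N.A hA₁ ((ValuationSubring.mem_nonunits_iff (A := N.A)).mpr hπ1)
  have hπ1' : N.O₁.valuation (algebraMap L F π) < 1 :=
    (ValuationSubring.mem_nonunits_iff (A := N.O₁)).mp hπnu
  have hval' : ∀ x ∈ C₀.map (algebraMap L F), x ≠ 0 →
      ∃ j : ℤ, N.O₁.valuation x = N.O₁.valuation (algebraMap L F π) ^ j := by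
    rintro x ⟨b, hb, rfl⟩ hx0
    have hb0 : b ≠ 0 := fun h => hx0 (by rw [h, map_zero])
    obtain ⟨j, hj⟩ := hval b hb hb0
    exact ⟨j, S40F2MV_transfer N.A N.O₁ N.const₁ hπ0 hj⟩
  refine
    { hCL := ?_, hA₁ := hA₁, hA₂ := hA₂, hπC := ⟨π, hπC, rfl⟩, hπ0 := hπ0', hπ1 := hπnu,
      hdisc := S40F2MV_disc N.O₁ _ hπ0' hπ1' hval', hcC := ⟨c, hcC, rfl⟩,
      hc1 := S40F2MV_isU_const N.A N.O₁ N.const₁ hc1, hchar := ?_, hfin := hfin, hXY := hXY,
      hX := hX, hY := hY, hXP := hXP, hv := ?_, hϖL := ⟨ϖ, hϖC, rfl⟩, hϖe := ?_ }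
  · rintro a ⟨b, -, rfl⟩
    exact ⟨b, rfl⟩
  · apply S40F2MV_char N.O₁ hp
    have h1 := S40F2K_nonunit N.O₁ N.A hA₁
      ((ValuationSubring.mem_nonunits_iff (A := N.A)).mpr hVp)
    rw [map_natCast] at h1
    exact (ValuationSubring.mem_nonunits_iff (A := N.O₁)).mp h1
  · refine S40F2MV_val N.O₁ N.O₂ _ hπ0' hπ1' hval' ?_
    rintro x ⟨b, -, rfl⟩ hu
    have hu' := S40F2S_isU_iff.1 hu
    have h1 : b ∈ N.A := hA₂ b hu'.1
    have h2 : b⁻¹ ∈ N.A := hA₂ b⁻¹ (by rw [map_inv₀]; exact hu'.2.1)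
    have h3 := N.const₁ b h1
    have h4 := N.const₁ b⁻¹ h2
    rw [map_inv₀] at h4
    exact S40F2S_isU_iff.2 ⟨h3, h4, hu'.2.2⟩
  · apply S40F2MV_of_pow N.O₁ hπ0' hπ1'
    have h1 : N.A.valuation ϖ = N.A.valuation π ^ ((p : ℤ) * e') := by
      rw [hϖe, zpow_mul, zpow_natCast]
    have h2 := S40F2MV_transfer N.A N.O₁ N.const₁ hπ0 h1
    rw [h2, zpow_mul, zpow_natCast]

end transfer

end Fermat.Agent.S40
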