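import Mathlib
import Fermat.Agent.S40.F2MainVal

/-!
# TRACK 13 (S40/S44, row 38), (F2'): the fields `hϖe` and `he` of the integrator (helper22).  Prefix `S40F2ME_`.

`L` the constants (`ℚ̄`), `A` its valuation ring over `p`, `π` the uniformiser of `Fix(H)` of `S40F2B_main`
(`v π ^ p = v (1 − ζ)`), `ζ` a primitive `p`-th root of unity (`v (1 − ζ) ^ (p − 1) = v p`,
`S36BL_val_one_sub_zeta`), and the thickness constant of a node `ϖ = p ^ e` (P1-INST, `H = I_A`).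

* `S40F2ME_val_p`   : `v p = (v π ^ p) ^ (p − 1)`;
* `S40F2ME_hϖe`     : `v (p ^ e) = (v π ^ p) ^ ((p − 1) · e)`        (= `hϖe` of `S40F2MV_coord`, `e' = (p − 1) · e`);
* `S40F2ME_vL_p`    : `vL p = p · (p − 1)` for `vL = S40F2MV_vL O π`;
* `S40F2ME_vL_ϖ`    : `vL (p ^ e) = p · ((p − 1) · e)`;
* `S40F2ME_arith`   : `− 12 · vp = m · vϖ`, `vp = p (p − 1)`, `vϖ = p · e'`, `5 ≤ p` ⇒ `p ∤ e'`;
* `S40F2ME_he`      : from the slope of the modular unit `f₀` (`S40F2US_slope_val'`: `− 12 · vL p = m · vL ϖ`):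
  `p ∤ (p − 1) · e`                                                   (= `he` of `S40F2M_main`);
* `S40F2ME_e_dvd`   : moreover `m · e = − 12` (the thickness divides `12`).
-/

set_option autoImplicit false

namespace Fermat.Agent.S40

/-- the arithmetic of `he`. -/
theorem S40F2ME_arith {p : ℕ} (hp : p.Prime) (hp5 : 5 ≤ p) {m e' vp vϖ : ℤ}
    (hslope : -(12 * vp) = m * vϖ) (hvp : vp = p * ((p : ℤ) - 1)) (hvϖ : vϖ = p * e') :
    ¬ (p : ℤ) ∣ e' := by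
  rintro ⟨k, rfl⟩
  have hp0 : (p : ℤ) ≠ 0 := by exact_mod_cast hp.ne_zero
  rw [hvp, hvϖ] at hslope
  have h1 : (p : ℤ) * (-(12 * ((p : ℤ) - 1))) = (p : ℤ) * (m * (p * k)) := by
    linear_combination hslope
  have h2 := mul_left_cancel₀ hp0 h1
  have h3 : (p : ℤ) ∣ 12 := ⟨12 + m * k, by linear_combination h2⟩
  have h4 : p ∣ 12 := by exact_mod_cast h3
  have h5 : p ≤ 12 := Nat.le_of_dvd (by norm_num) h4
  interval_cases p <;> revert h4 <;> revert hp <;> decide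

section val

variable {L : Type*} [Field L] (A : ValuationSubring L)

/-- `v p = (v π ^ p) ^ (p − 1)`. -/
theorem S40F2ME_val_p {π ζ : L} {p : ℕ}
    (hπ : A.valuation π ^ p = A.valuation (1 - ζ))
    (hζ : A.valuation (1 - ζ) ^ (p - 1) = A.valuation (p : L)) :
    A.valuation (p : L) = (A.valuation π ^ p) ^ (p - 1) := by
  rw [hπ, hζ]

/-- **`hϖe`**: `v (p ^ e) = (v π ^ p) ^ ((p − 1) · e)`. -/
theorem S40F2ME_hϖe {π ζ : L} {p : ℕ} (hp1 : 1 ≤ p)
    (hπ : A.valuation π ^ p = A.valuation (1 - ζ))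
    (hζ : A.valuation (1 - ζ) ^ (p - 1) = A.valuation (p : L)) (e : ℕ) :
    A.valuation ((p : L) ^ e) = (A.valuation π ^ p) ^ (((p : ℤ) - 1) * (e : ℤ)) := by
  have h1 : ((p : ℤ) - 1) * (e : ℤ) = (((p - 1) * e : ℕ) : ℤ) := by
    push_cast [Nat.cast_sub hp1]
    ring
  rw [h1, zpow_natCast, map_pow, S40F2ME_val_p A hπ hζ, ← pow_mul]

end val

section vL

variable {L F : Type*} [Field L] [Field F] [Algebra L F]

/-- `vL x = k` for a constant `x` with `v x = v π ^ k` in `A`. -/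
theorem S40F2ME_vL_const (A : ValuationSubring L) (O : ValuationSubring F)
    (hAO : ∀ a : L, a ∈ A → algebraMap L F a ∈ O) {π x : L} (hπ0 : π ≠ 0)
    (hπ1 : O.valuation (algebraMap L F π) < 1) {k : ℤ}
    (h : A.valuation x = A.valuation π ^ k) :
    S40F2MV_vL O (algebraMap L F π) (algebraMap L F x) = k :=
  S40F2MV_eq O ((map_ne_zero _).mpr hπ0) hπ1 (S40F2MV_transfer A O hAO hπ0 h)

/-- `vL p = p · (p − 1)`. -/
theorem S40F2ME_vL_p (A : ValuationSubring L) (O : ValuationSubring F)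
    (hAO : ∀ a : L, a ∈ A → algebraMap L F a ∈ O) {π ζ : L} {p : ℕ} (hp1 : 1 ≤ p) (hπ0 : π ≠ 0)
    (hπ1 : O.valuation (algebraMap L F π) < 1)
    (hπ : A.valuation π ^ p = A.valuation (1 - ζ))
    (hζ : A.valuation (1 - ζ) ^ (p - 1) = A.valuation (p : L)) :
    S40F2MV_vL O (algebraMap L F π) (algebraMap L F (p : L)) = p * ((p : ℤ) - 1) := by
  apply S40F2ME_vL_const A O hAO hπ0 hπ1
  have h := S40F2ME_hϖe A hp1 hπ hζ 1
  rw [pow_one, Nat.cast_one, mul_one] at h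
  rw [h, ← zpow_natCast (A.valuation π) p, ← zpow_mul]

/-- `vL (p ^ e) = p · ((p − 1) · e)`. -/
theorem S40F2ME_vL_ϖ (A : ValuationSubring L) (O : ValuationSubring F)
    (hAO : ∀ a : L, a ∈ A → algebraMap L F a ∈ O) {π ζ : L} {p : ℕ} (hp1 : 1 ≤ p) (hπ0 : π ≠ 0)
    (hπ1 : O.valuation (algebraMap L F π) < 1)
    (hπ : A.valuation π ^ p = A.valuation (1 - ζ))
    (hζ : A.valuation (1 - ζ) ^ (p - 1) = A.valuation (p : L)) (e : ℕ) :
    S40F2MV_vL O (algebraMap L F π) (algebraMap L F ((p : L) ^ e)) =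
      p * (((p : ℤ) - 1) * (e : ℤ)) := by
  apply S40F2ME_vL_const A O hAO hπ0 hπ1
  rw [S40F2ME_hϖe A hp1 hπ hζ e, ← zpow_natCast (A.valuation π) p, ← zpow_mul]

/-- **`he`**: from the slope of the modular unit at the node (`− 12 · vL p = m · vL ϖ`, `ϖ = p ^ e`):
`p ∤ (p − 1) · e`. -/
theorem S40F2ME_he (A : ValuationSubring L) (O : ValuationSubring F)
    (hAO : ∀ a : L, a ∈ A → algebraMap L F a ∈ O) {π ζ : L} {p : ℕ} (hp : p.Prime) (hp5 : 5 ≤ p)
    (hπ0 : π ≠ 0) (hπ1 : O.valuation (algebraMap L F π) < 1)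
    (hπ : A.valuation π ^ p = A.valuation (1 - ζ))
    (hζ : A.valuation (1 - ζ) ^ (p - 1) = A.valuation (p : L)) (e : ℕ) (m : ℤ)
    (hslope : -(12 * S40F2MV_vL O (algebraMap L F π) (algebraMap L F (p : L))) =
      m * S40F2MV_vL O (algebraMap L F π) (algebraMap L F ((p : L) ^ e))) :
    ¬ (p : ℤ) ∣ ((p : ℤ) - 1) * (e : ℤ) :=
  S40F2ME_arith hp hp5 hslope (S40F2ME_vL_p A O hAO hp.one_le hπ0 hπ1 hπ hζ)
    (S40F2ME_vL_ϖ A O hAO hp.one_le hπ0 hπ1 hπ hζ e)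

/-- the thickness divides `12`: `m · e = − 12`. -/
theorem S40F2ME_e_dvd (A : ValuationSubring L) (O : ValuationSubring F)
    (hAO : ∀ a : L, a ∈ A → algebraMap L F a ∈ O) {π ζ : L} {p : ℕ} (hp : p.Prime)
    (hπ0 : π ≠ 0) (hπ1 : O.valuation (algebraMap L F π) < 1)
    (hπ : A.valuation π ^ p = A.valuation (1 - ζ))
    (hζ : A.valuation (1 - ζ) ^ (p - 1) = A.valuation (p : L)) (e : ℕ) (m : ℤ)
    (hslope : -(12 * S40F2MV_vL O (algebraMap L F π) (algebraMap L F (p : L))) =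
      m * S40F2MV_vL O (algebraMap L F π) (algebraMap L F ((p : L) ^ e))) :
    m * (e : ℤ) = -12 := by
  rw [S40F2ME_vL_p A O hAO hp.one_le hπ0 hπ1 hπ hζ,
    S40F2ME_vL_ϖ A O hAO hp.one_le hπ0 hπ1 hπ hζ e] at hslope
  have hp0 : (p : ℤ) ≠ 0 := by exact_mod_cast hp.ne_zero
  have hp1 : (p : ℤ) - 1 ≠ 0 := by
    have : (2 : ℤ) ≤ p := by exact_mod_cast hp.two_le
    omega
  have h1 : (p : ℤ) * ((p : ℤ) - 1) * (m * e) = (p : ℤ) * ((p : ℤ) - 1) * (-12) := by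
    linear_combination -hslope
  exact mul_left_cancel₀ (mul_ne_zero hp0 hp1) h1

end vL

end Fermat.Agent.S40
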