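import Mathlib
import Fermat.Agent.S40.F2Jump

/-!
# TRACK 13 (S40/S44), (F2'), package (A1-abs): the POLYNOMIAL annulus factor (helper1)

Prefix `S40F2Y_`.  Mathlib + helper29's `S40F2J_Cg`.

The points `P` of `D` centred at a node are in general NOT rational over `L = Fix(H)`; only the
`H`-invariant products are.  So the annulus factor must be taken in the polynomial form
`E = σ Φ / Φ`, `Φ = ∏ (X − w_P) = Σ_j a_j X^j` with coefficients `a_j ∈ O_L`, and the only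
input on the constants is `σ c ≡ c mod π^(i+1)` for `c ∈ O_L` (`S40LB_int`) and formula (B) for
the constant term.

`F` a field, `V` a valuation, `σ : F →+* F`, `π : F`, `i : ℕ`.

* `S40F2Y_ratio`      : `V ρ < 1`, `V (σ ρ − ρ) ≤ V π^(i+1)` `⇒ σ (1 + ρ) / (1 + ρ) ≡ 1`;
* `S40F2Y_sum`        : the hypotheses of `S40F2Y_ratio` for `ρ = Σ_j c_j m_j`
                        (`c_j` constants, `m_j` `σ`-fixed integral monomials);
* `S40F2Y_ratio_fixed`: `Φ = M (1 + ρ)`, `σ M = M` `⇒ σ Φ / Φ ≡ 1`                 (at `V₁`);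
* `S40F2Y_ratio_const`: `Φ = a (1 + ρ)`, `σ a / a ≡ 1 + A π^i` `⇒ σ Φ / Φ ≡ 1 + A π^i` (at `V₂`);
* `S40F2Y_poly_one`   : `Φ = P(X)`, `P` monic, lower coefficients non-units, `V X = 1`;
* `S40F2Y_poly_two`   : `Φ = P(X)`, constant term dominant: `c_j = a_j ϖ^j / a_0` non-units,
                        `V (X / ϖ) = 1`;
* **`S40F2Y_prod_one`, `S40F2Y_prod_two`** : the PRODUCT form `Φ = ∏_{j ∈ s} (X − w_j)`: only the
  COEFFICIENTS of `∏ (1 − w_j T)` resp. `∏ (1 − (ϖ / w_j) T)` have to be fixed by `σ` modulo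
  `π^(i+1)` (they are integral constants of `L` when the family `w` is `H`-stable), and
  `a = ∏ w_j` has to satisfy (B).
-/

set_option autoImplicit false

namespace Fermat.Agent.S40

open Finset Polynomial

variable {F : Type*} [Field F] {Γ : Type*} [LinearOrderedCommGroupWithZero Γ]
variable {V : Valuation F Γ} {σ : F →+* F} {π : F} {i : ℕ}

theorem S40F2Y_val_one_add {ρ : F} (hρ : V ρ < 1) : V (1 + ρ) = 1 := by
  have h1 : V ρ < V (1 : F) := by rwa [map_one]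
  rw [V.map_add_eq_of_lt_left h1, map_one]

/-- `σ (1 + ρ) / (1 + ρ) ≡ 1 mod π^(i+1)`. -/
theorem S40F2Y_ratio {ρ : F} (hρ : V ρ < 1) (hσ : V (σ ρ - ρ) ≤ V π ^ (i + 1)) :
    S40F2J_Cg V π i (σ (1 + ρ) / (1 + ρ)) 0 := by
  have h1 : V (1 + ρ) = 1 := S40F2Y_val_one_add hρ
  have h0 : (1 + ρ) ≠ 0 := by
    intro h
    rw [h, map_zero] at h1
    exact zero_ne_one h1
  unfold S40F2J_Cg
  have e : σ (1 + ρ) / (1 + ρ) - (1 + 0 * π ^ i) = (σ ρ - ρ) / (1 + ρ) := by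
    rw [map_add, map_one]
    field_simp
    ring
  rw [e, map_div₀, h1, div_one]
  exact hσ

/-- the hypotheses of `S40F2Y_ratio` for a sum `Σ_j c_j m_j`. -/
theorem S40F2Y_sum {ι : Type*} (s : Finset ι) (c m : ι → F)
    (hm : ∀ j ∈ s, V (m j) ≤ 1) (hσm : ∀ j ∈ s, σ (m j) = m j)
    (hc : ∀ j ∈ s, V (c j) < 1) (hσc : ∀ j ∈ s, V (σ (c j) - c j) ≤ V π ^ (i + 1)) :
    V (∑ j ∈ s, c j * m j) < 1 ∧
      V (σ (∑ j ∈ s, c j * m j) - ∑ j ∈ s, c j * m j) ≤ V π ^ (i + 1) := by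
  constructor
  · refine V.map_sum_lt (by simp) (fun j hj => ?_)
    rw [map_mul]
    calc V (c j) * V (m j) ≤ V (c j) * 1 := mul_le_mul' le_rfl (hm j hj)
      _ = V (c j) := mul_one _
      _ < 1 := hc j hj
  · have e : σ (∑ j ∈ s, c j * m j) - ∑ j ∈ s, c j * m j
        = ∑ j ∈ s, (σ (c j) - c j) * m j := by
      rw [map_sum, ← Finset.sum_sub_distrib]
      refine Finset.sum_congr rfl (fun j hj => ?_)
      rw [map_mul, hσm j hj]
      ring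
    rw [e]
    refine V.map_sum_le (fun j hj => ?_)
    rw [map_mul]
    calc V (σ (c j) - c j) * V (m j) ≤ V π ^ (i + 1) * 1 := mul_le_mul' (hσc j hj) (hm j hj)
      _ = V π ^ (i + 1) := mul_one _

/-- at `V₁`: `Φ = M (1 + ρ)` with `σ M = M`. -/
theorem S40F2Y_ratio_fixed {M ρ : F} (hM0 : M ≠ 0) (hM : σ M = M) (hρ : V ρ < 1)
    (hσ : V (σ ρ - ρ) ≤ V π ^ (i + 1)) :
    S40F2J_Cg V π i (σ (M * (1 + ρ)) / (M * (1 + ρ))) 0 := by
  have e : σ (M * (1 + ρ)) / (M * (1 + ρ)) = σ (1 + ρ) / (1 + ρ) := by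
    rw [map_mul, hM, mul_div_mul_left _ _ hM0]
  rw [e]
  exact S40F2Y_ratio hρ hσ

/-- at `V₂`: `Φ = a (1 + ρ)` with `σ a / a ≡ 1 + A π^i`. -/
theorem S40F2Y_ratio_const {a ρ A : F} (hA : V A ≤ 1)
    (hπ : V π < 1) (hi : 1 ≤ i)
    (haA : S40F2J_Cg V π i (σ a / a) A) (hρ : V ρ < 1)
    (hσ : V (σ ρ - ρ) ≤ V π ^ (i + 1)) :
    S40F2J_Cg V π i (σ (a * (1 + ρ)) / (a * (1 + ρ))) A := by
  have e : σ (a * (1 + ρ)) / (a * (1 + ρ)) = (σ a / a) * (σ (1 + ρ) / (1 + ρ)) := by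
    rw [map_mul, mul_div_mul_comm]
  rw [e]
  have := S40F2J_cg_mul haA (S40F2Y_ratio hρ hσ) hA (by simp) hπ hi
  rwa [add_zero] at this

/-- **at `V₁`**: `Φ = P(X)`, `P` monic with non-unit lower coefficients which are fixed by `σ`
modulo `π^(i+1)`, `V X = 1`, `σ X = X`: `σ Φ / Φ ≡ 1 mod π^(i+1)`. -/
theorem S40F2Y_poly_one (P : F[X]) (hP : P.Monic) {X : F} (hX : V X = 1) (hσX : σ X = X)
    (hlow : ∀ j < P.natDegree, V (P.coeff j) < 1)
    (hσc : ∀ j < P.natDegree, V (σ (P.coeff j) - P.coeff j) ≤ V π ^ (i + 1)) :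
    S40F2J_Cg V π i (σ (P.eval X) / P.eval X) 0 := by
  have hX0 : X ≠ 0 := by
    intro h
    rw [h, map_zero] at hX
    exact zero_ne_one hX
  set d := P.natDegree with hd
  have hXd0 : X ^ d ≠ 0 := pow_ne_zero d hX0
  have e : P.eval X = X ^ d * (1 + ∑ j ∈ range d, P.coeff j * (X ^ j / X ^ d)) := by
    rw [Polynomial.eval_eq_sum_range, ← hd, Finset.sum_range_succ, hd, hP.coeff_natDegree,
      ← hd, mul_add, mul_one, Finset.mul_sum, one_mul, add_comm]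
    congr 1
    refine Finset.sum_congr rfl (fun j _ => ?_)
    field_simp
  have hm : ∀ j ∈ range d, V (X ^ j / X ^ d) ≤ 1 := by
    intro j _
    rw [map_div₀, map_pow, map_pow, hX, one_pow, one_pow, div_one]
  have hσm : ∀ j ∈ range d, σ (X ^ j / X ^ d) = X ^ j / X ^ d := by
    intro j _
    rw [map_div₀, map_pow, map_pow, hσX]
  obtain ⟨h1, h2⟩ := S40F2Y_sum (V := V) (σ := σ) (π := π) (i := i) (range d)
    (fun j => P.coeff j) (fun j => X ^ j / X ^ d) hm hσm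
    (fun j hj => hlow j (Finset.mem_range.mp hj))
    (fun j hj => hσc j (Finset.mem_range.mp hj))
  rw [e]
  exact S40F2Y_ratio_fixed hXd0 (by rw [map_pow, hσX]) h1 h2

/-- **at `V₂`**: `Φ = P(X)` with dominant constant term `a₀`: the constants
`c_j = a_j ϖ^j / a₀` (`1 ≤ j ≤ deg P`) are non-units, fixed by `σ` modulo `π^(i+1)`,
`V (X / ϖ) = 1`, `σ X = X`, `σ ϖ = ϖ`, `σ a₀ / a₀ ≡ 1 + A π^i`:
`σ Φ / Φ ≡ 1 + A π^i mod π^(i+1)`. -/
theorem S40F2Y_poly_two (P : F[X]) {X ϖ A : F} (hϖ0 : ϖ ≠ 0) (ha0 : P.coeff 0 ≠ 0)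
    (hY : V (X / ϖ) = 1) (hσX : σ X = X) (hσϖ : σ ϖ = ϖ)
    (hA : V A ≤ 1) (hπ : V π < 1) (hi : 1 ≤ i)
    (haA : S40F2J_Cg V π i (σ (P.coeff 0) / P.coeff 0) A)
    (hc : ∀ j, 1 ≤ j → j ≤ P.natDegree → V (P.coeff j * ϖ ^ j / P.coeff 0) < 1)
    (hσc : ∀ j, 1 ≤ j → j ≤ P.natDegree →
      V (σ (P.coeff j * ϖ ^ j / P.coeff 0) - P.coeff j * ϖ ^ j / P.coeff 0) ≤ V π ^ (i + 1)) :
    S40F2J_Cg V π i (σ (P.eval X) / P.eval X) A := by
  set d := P.natDegree with hd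
  have e : P.eval X = P.coeff 0 *
      (1 + ∑ j ∈ range d, (P.coeff (j + 1) * ϖ ^ (j + 1) / P.coeff 0) * (X / ϖ) ^ (j + 1)) := by
    rw [Polynomial.eval_eq_sum_range, ← hd, Finset.sum_range_succ', pow_zero, mul_one, mul_add,
      mul_one, Finset.mul_sum, add_comm]
    congr 1
    refine Finset.sum_congr rfl (fun j _ => ?_)
    field_simp
    rw [div_pow, mul_assoc, mul_div_cancel₀ _ (pow_ne_zero _ hϖ0)]
  have hm : ∀ j ∈ range d, V ((X / ϖ) ^ (j + 1)) ≤ 1 := by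
    intro j _
    rw [map_pow, hY, one_pow]
  have hσm : ∀ j ∈ range d, σ ((X / ϖ) ^ (j + 1)) = (X / ϖ) ^ (j + 1) := by
    intro j _
    rw [map_pow, map_div₀, hσX, hσϖ]
  obtain ⟨h1, h2⟩ := S40F2Y_sum (V := V) (σ := σ) (π := π) (i := i) (range d)
    (fun j => P.coeff (j + 1) * ϖ ^ (j + 1) / P.coeff 0) (fun j => (X / ϖ) ^ (j + 1)) hm hσm
    (fun j hj => hc (j + 1) (Nat.le_add_left 1 j) (Finset.mem_range.mp hj))
    (fun j hj => hσc (j + 1) (Nat.le_add_left 1 j) (Finset.mem_range.mp hj))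
  rw [e]
  exact S40F2Y_ratio_const hA hπ hi haA h1 h2

/-! ### the product form: `Φ = ∏ (X − w_i)` -/

/-- `σ (G(m)) ≡ G(m) mod π^(i+1)` for a polynomial `G` whose coefficients are fixed by `σ`
modulo `π^(i+1)` and a `σ`-fixed integral argument `m`. -/
theorem S40F2Y_eval_sub (G : F[X]) {m : F} (hm : V m ≤ 1) (hσm : σ m = m)
    (hG : ∀ j, V (σ (G.coeff j) - G.coeff j) ≤ V π ^ (i + 1)) :
    V (σ (G.eval m) - G.eval m) ≤ V π ^ (i + 1) := by
  have e : σ (G.eval m) - G.eval m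
      = ∑ j ∈ range (G.natDegree + 1), (σ (G.coeff j) - G.coeff j) * m ^ j := by
    rw [Polynomial.eval_eq_sum_range, map_sum, ← Finset.sum_sub_distrib]
    refine Finset.sum_congr rfl (fun j _ => ?_)
    rw [map_mul, map_pow, hσm]
    ring
  rw [e]
  refine V.map_sum_le (fun j _ => ?_)
  rw [map_mul, map_pow]
  calc V (σ (G.coeff j) - G.coeff j) * V m ^ j ≤ V π ^ (i + 1) * 1 :=
        mul_le_mul' (hG j) (pow_le_one' hm j)
    _ = V π ^ (i + 1) := mul_one _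

/-- a product of elements `≡ 1` is `≡ 1`. -/
theorem S40F2Y_prod_sub_one {ι : Type*} (s : Finset ι) (x : ι → F)
    (hx : ∀ j ∈ s, V (x j - 1) < 1) : V (∏ j ∈ s, x j - 1) < 1 := by
  classical
  induction s using Finset.induction_on with
  | empty => simp
  | insert j s hj ih =>
    rw [Finset.prod_insert hj]
    have h1 := hx j (Finset.mem_insert_self j s)
    have h2 := ih (fun k hk => hx k (Finset.mem_insert_of_mem hk))
    have e : x j * ∏ k ∈ s, x k - 1 = (x j - 1) * (∏ k ∈ s, x k) + (∏ k ∈ s, x k - 1) := by ring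
    rw [e]
    have h3 : V (∏ k ∈ s, x k) = 1 := by
      have : ∏ k ∈ s, x k = 1 + (∏ k ∈ s, x k - 1) := by ring
      rw [this]
      exact S40F2Y_val_one_add h2
    refine lt_of_le_of_lt (V.map_add _ _) (max_lt ?_ h2)
    rw [map_mul, h3, mul_one]
    exact h1

/-- `Ψ ≡ 1`, `σ Ψ ≡ Ψ mod π^(i+1)` `⇒ σ Ψ / Ψ ≡ 1 mod π^(i+1)`. -/
theorem S40F2Y_ratio' {Ψ : F} (hΨ : V (Ψ - 1) < 1) (hσ : V (σ Ψ - Ψ) ≤ V π ^ (i + 1)) :
    S40F2J_Cg V π i (σ Ψ / Ψ) 0 := by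
  have e : Ψ = 1 + (Ψ - 1) := by ring
  have h1 : V (σ (Ψ - 1) - (Ψ - 1)) ≤ V π ^ (i + 1) := by
    have : σ (Ψ - 1) - (Ψ - 1) = σ Ψ - Ψ := by
      rw [map_sub, map_one]
      ring
    rwa [this]
  have := S40F2Y_ratio (V := V) (σ := σ) (π := π) (i := i) hΨ h1
  rwa [← e] at this

/-- **at `V₁`, product form**: `Φ = ∏_{j ∈ s} (X − w_j)`, `V X = 1`, `σ X = X`, `V (w_j) < 1`, and
the polynomial `G = ∏ (1 − w_j T)` has coefficients fixed by `σ` modulo `π^(i+1)` (they are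
integral constants of `L`): then `σ Φ / Φ ≡ 1 mod π^(i+1)`. -/
theorem S40F2Y_prod_one {ι : Type*} (s : Finset ι) (w : ι → F) {X : F} (hX : V X = 1)
    (hσX : σ X = X) (hw : ∀ j ∈ s, V (w j) < 1)
    (hG : ∀ n, V (σ ((∏ j ∈ s, (1 - C (w j) * Polynomial.X)).coeff n)
      - (∏ j ∈ s, (1 - C (w j) * Polynomial.X)).coeff n) ≤ V π ^ (i + 1)) :
    S40F2J_Cg V π i (σ (∏ j ∈ s, (X - w j)) / ∏ j ∈ s, (X - w j)) 0 := by
  have hX0 : X ≠ 0 := by
    intro h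
    rw [h, map_zero] at hX
    exact zero_ne_one hX
  have hXi : V X⁻¹ = 1 := by rw [map_inv₀, hX, inv_one]
  have hσXi : σ X⁻¹ = X⁻¹ := by rw [map_inv₀, hσX]
  set G : F[X] := ∏ j ∈ s, (1 - C (w j) * Polynomial.X) with hGdef
  have hGe : G.eval X⁻¹ = ∏ j ∈ s, (1 - w j * X⁻¹) := by
    rw [hGdef, Polynomial.eval_prod]
    refine Finset.prod_congr rfl (fun j _ => ?_)
    simp
  have e : ∏ j ∈ s, (X - w j) = X ^ s.card * G.eval X⁻¹ := by
    rw [hGe, ← Finset.prod_const, ← Finset.prod_mul_distrib]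
    refine Finset.prod_congr rfl (fun j _ => ?_)
    field_simp
  have h1 : V (G.eval X⁻¹ - 1) < 1 := by
    rw [hGe]
    refine S40F2Y_prod_sub_one s _ (fun j hj => ?_)
    have : 1 - w j * X⁻¹ - 1 = -(w j * X⁻¹) := by ring
    rw [this, Valuation.map_neg, map_mul, hXi, mul_one]
    exact hw j hj
  have h2 := S40F2Y_eval_sub (V := V) (σ := σ) (π := π) (i := i) G hXi.le hσXi hG
  have h3 := S40F2Y_ratio' (V := V) (σ := σ) (π := π) (i := i) h1 h2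
  rw [e, map_mul, map_pow, hσX, mul_div_mul_left _ _ (pow_ne_zero _ hX0)]
  exact h3

/-- **at `V₂`, product form**: `Φ = ∏_{j ∈ s} (X − w_j)`, `w_j ≠ 0`, `V (X / w_j) < 1`
(`v(w_j) < v(ϖ) = V₂(X)`), `σ X = X`, `σ ϖ = ϖ`, `V (X / ϖ) = 1`, the polynomial
`G = ∏ (1 − (ϖ / w_j) T)` has coefficients fixed by `σ` modulo `π^(i+1)`, and the constant
`a = ∏ w_j` satisfies `σ a / a ≡ 1 + A π^i` (formula (B)): then
`σ Φ / Φ ≡ 1 + A π^i mod π^(i+1)`. -/
theorem S40F2Y_prod_two {ι : Type*} (s : Finset ι) (w : ι → F) {X ϖ A : F} (hϖ0 : ϖ ≠ 0)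
    (hY : V (X / ϖ) = 1) (hσX : σ X = X) (hσϖ : σ ϖ = ϖ) (hw0 : ∀ j ∈ s, w j ≠ 0)
    (hw : ∀ j ∈ s, V (X / w j) < 1)
    (hA : V A ≤ 1) (hπ : V π < 1) (hi : 1 ≤ i)
    (haA : S40F2J_Cg V π i (σ (∏ j ∈ s, w j) / ∏ j ∈ s, w j) A)
    (hG : ∀ n, V (σ ((∏ j ∈ s, (1 - C (ϖ / w j) * Polynomial.X)).coeff n)
      - (∏ j ∈ s, (1 - C (ϖ / w j) * Polynomial.X)).coeff n) ≤ V π ^ (i + 1)) :
    S40F2J_Cg V π i (σ (∏ j ∈ s, (X - w j)) / ∏ j ∈ s, (X - w j)) A := by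
  have hσY : σ (X / ϖ) = X / ϖ := by rw [map_div₀, hσX, hσϖ]
  set G : F[X] := ∏ j ∈ s, (1 - C (ϖ / w j) * Polynomial.X) with hGdef
  have hGe : G.eval (X / ϖ) = ∏ j ∈ s, (1 - X / w j) := by
    rw [hGdef, Polynomial.eval_prod]
    refine Finset.prod_congr rfl (fun j hj => ?_)
    have := hw0 j hj
    simp only [Polynomial.eval_sub, Polynomial.eval_one, Polynomial.eval_mul, Polynomial.eval_C,
      Polynomial.eval_X]
    field_simp
  have e : ∏ j ∈ s, (X - w j) = ((-1) ^ s.card * ∏ j ∈ s, w j) * G.eval (X / ϖ) := by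
    rw [hGe, ← Finset.prod_const, ← Finset.prod_mul_distrib, ← Finset.prod_mul_distrib]
    refine Finset.prod_congr rfl (fun j hj => ?_)
    have := hw0 j hj
    field_simp
    ring
  have h1 : V (G.eval (X / ϖ) - 1) < 1 := by
    rw [hGe]
    refine S40F2Y_prod_sub_one s _ (fun j hj => ?_)
    have : 1 - X / w j - 1 = -(X / w j) := by ring
    rw [this, Valuation.map_neg]
    exact hw j hj
  have h2 := S40F2Y_eval_sub (V := V) (σ := σ) (π := π) (i := i) G hY.le hσY hG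
  have h3 := S40F2Y_ratio' (V := V) (σ := σ) (π := π) (i := i) h1 h2
  have hsign : σ ((-1 : F) ^ s.card) = (-1) ^ s.card := by
    rw [map_pow, map_neg, map_one]
  have hs0 : ((-1 : F) ^ s.card) ≠ 0 := pow_ne_zero _ (neg_ne_zero.mpr one_ne_zero)
  have e2 : σ (((-1) ^ s.card * ∏ j ∈ s, w j) * G.eval (X / ϖ))
      / (((-1) ^ s.card * ∏ j ∈ s, w j) * G.eval (X / ϖ))
      = (σ (∏ j ∈ s, w j) / ∏ j ∈ s, w j) * (σ (G.eval (X / ϖ)) / G.eval (X / ϖ)) := by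
    rw [map_mul, map_mul, hsign, mul_div_mul_comm, mul_div_mul_left _ _ hs0]
  rw [e, e2]
  have := S40F2J_cg_mul haA h3 hA (by simp) hπ hi
  rwa [add_zero] at this

end Fermat.Agent.S40
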