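import Mathlib
import Fermat.Agent.S40.F2Poly

/-!
# TRACK 13 (S40/S44), (F2'), package (A1-abs), part 2 (helper1): multiplicities and the
coefficients of the annulus polynomial

Prefix `S40F2Z_`.  Mathlib + `F2Poly`.

* `S40F2Z_prod_one_pow`, `S40F2Z_prod_two_pow` : the product forms of `F2Poly` with
  multiplicities: `Φ = ∏_{j ∈ s} (X − w_j)^(m_j)`;
* `S40F2Z_coeff_fixed` : if a ring endomorphism `g` permutes the family `(w_j, m_j)_{j ∈ s}`
  (`g (w j) = w (τ j)`, `m (τ j) = m j`, `τ` injective on `s`, `τ s ⊂ s`), then the coefficients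
  of `∏ (1 − w_j T)^(m_j)` are fixed by `g`  (so they lie in `L = Fix(H)`);
* `S40F2Z_coeff_mem`   : if all `w_j` lie in a subring `O`, so do the coefficients
  (so they are integral);
* `S40F2Z_prod_fixed`, `S40F2Z_prod_mem` : the same for the constant `a = ∏ w_j^(m_j)`.
-/

set_option autoImplicit false

namespace Fermat.Agent.S40

open Finset Polynomial

section pow

variable {F : Type*} [Field F] {Γ : Type*} [LinearOrderedCommGroupWithZero Γ]
variable {V : Valuation F Γ} {σ : F →+* F} {π : F} {i : ℕ}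

/-- a product with multiplicities as a product over a `Σ`-type index set. -/
theorem S40F2Z_prod_pow_eq {ι : Type*} {M : Type*} [CommMonoid M] (s : Finset ι) (m : ι → ℕ)
    (f : ι → M) :
    ∏ j ∈ s, f j ^ m j = ∏ x ∈ s.sigma (fun j => range (m j)), f x.1 := by
  rw [Finset.prod_sigma]
  refine Finset.prod_congr rfl (fun j _ => ?_)
  simp only [Finset.prod_const, Finset.card_range]

/-- **at `V₁`, with multiplicities**. -/
theorem S40F2Z_prod_one_pow {ι : Type*} (s : Finset ι) (w : ι → F) (m : ι → ℕ) {X : F}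
    (hX : V X = 1) (hσX : σ X = X) (hw : ∀ j ∈ s, V (w j) < 1)
    (hG : ∀ n, V (σ ((∏ j ∈ s, (1 - C (w j) * Polynomial.X) ^ m j).coeff n)
      - (∏ j ∈ s, (1 - C (w j) * Polynomial.X) ^ m j).coeff n) ≤ V π ^ (i + 1)) :
    S40F2J_Cg V π i (σ (∏ j ∈ s, (X - w j) ^ m j) / ∏ j ∈ s, (X - w j) ^ m j) 0 := by
  rw [S40F2Z_prod_pow_eq s m (fun j => X - w j)]
  refine S40F2Y_prod_one (s.sigma (fun j => range (m j))) (fun x => w x.1) hX hσX
    (fun x hx => hw x.1 (Finset.mem_sigma.mp hx).1) ?_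
  intro n
  rw [← S40F2Z_prod_pow_eq s m (fun j => (1 - C (w j) * Polynomial.X : F[X]))]
  exact hG n

/-- **at `V₂`, with multiplicities**. -/
theorem S40F2Z_prod_two_pow {ι : Type*} (s : Finset ι) (w : ι → F) (m : ι → ℕ) {X ϖ A : F}
    (hϖ0 : ϖ ≠ 0) (hY : V (X / ϖ) = 1) (hσX : σ X = X) (hσϖ : σ ϖ = ϖ)
    (hw0 : ∀ j ∈ s, w j ≠ 0) (hw : ∀ j ∈ s, V (X / w j) < 1)
    (hA : V A ≤ 1) (hπ : V π < 1) (hi : 1 ≤ i)
    (haA : S40F2J_Cg V π i (σ (∏ j ∈ s, w j ^ m j) / ∏ j ∈ s, w j ^ m j) A)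
    (hG : ∀ n, V (σ ((∏ j ∈ s, (1 - C (ϖ / w j) * Polynomial.X) ^ m j).coeff n)
      - (∏ j ∈ s, (1 - C (ϖ / w j) * Polynomial.X) ^ m j).coeff n) ≤ V π ^ (i + 1)) :
    S40F2J_Cg V π i (σ (∏ j ∈ s, (X - w j) ^ m j) / ∏ j ∈ s, (X - w j) ^ m j) A := by
  rw [S40F2Z_prod_pow_eq s m (fun j => X - w j)]
  refine S40F2Y_prod_two (s.sigma (fun j => range (m j))) (fun x => w x.1) hϖ0 hY hσX hσϖ
    (fun x hx => hw0 x.1 (Finset.mem_sigma.mp hx).1)
    (fun x hx => hw x.1 (Finset.mem_sigma.mp hx).1) hA hπ hi ?_ ?_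
  · rw [← S40F2Z_prod_pow_eq s m w]
    exact haA
  · intro n
    rw [← S40F2Z_prod_pow_eq s m (fun j => (1 - C (ϖ / w j) * Polynomial.X : F[X]))]
    exact hG n

end pow

section coeff

variable {K : Type*} [Field K]

/-- a permutation-like map `τ` of the index set: products are invariant. -/
theorem S40F2Z_prod_perm {ι : Type*} {M : Type*} [CommMonoid M] (s : Finset ι) (τ : ι → ι)
    (hτs : ∀ j ∈ s, τ j ∈ s) (hτi : Set.InjOn τ (s : Set ι)) (f : ι → M) :
    ∏ j ∈ s, f (τ j) = ∏ j ∈ s, f j := by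
  classical
  have himg : s.image τ = s := by
    apply Finset.eq_of_subset_of_card_le
    · intro x hx
      obtain ⟨j, hj, rfl⟩ := Finset.mem_image.mp hx
      exact hτs j hj
    · rw [Finset.card_image_of_injOn hτi]
  calc ∏ j ∈ s, f (τ j) = ∏ x ∈ s.image τ, f x :=
        (Finset.prod_image (fun x hx y hy h => hτi hx hy h)).symm
    _ = ∏ j ∈ s, f j := by rw [himg]

/-- **the coefficients of the annulus polynomial are fixed** by every ring endomorphism
permuting the family `(w_j, m_j)`. -/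
theorem S40F2Z_coeff_fixed (g : K →+* K) {ι : Type*} (s : Finset ι) (w : ι → K) (m : ι → ℕ)
    (τ : ι → ι) (hτs : ∀ j ∈ s, τ j ∈ s) (hτi : Set.InjOn τ (s : Set ι))
    (hgw : ∀ j ∈ s, g (w j) = w (τ j)) (hm : ∀ j ∈ s, m (τ j) = m j) (n : ℕ) :
    g ((∏ j ∈ s, (1 - C (w j) * Polynomial.X) ^ m j).coeff n) =
      (∏ j ∈ s, (1 - C (w j) * Polynomial.X) ^ m j).coeff n := by
  have h1 : (∏ j ∈ s, (1 - C (w j) * Polynomial.X) ^ m j).map g =
      ∏ j ∈ s, (1 - C (w j) * Polynomial.X) ^ m j := by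
    rw [Polynomial.map_prod]
    have e : ∀ j ∈ s, ((1 - C (w j) * Polynomial.X) ^ m j).map g =
        (1 - C (w (τ j)) * Polynomial.X) ^ m (τ j) := by
      intro j hj
      rw [Polynomial.map_pow, Polynomial.map_sub, Polynomial.map_one, Polynomial.map_mul,
        Polynomial.map_C, Polynomial.map_X, hgw j hj, hm j hj]
    rw [Finset.prod_congr rfl e]
    exact S40F2Z_prod_perm s τ hτs hτi (fun j => (1 - C (w j) * Polynomial.X) ^ m j)
  have h2 := congrArg (fun P => P.coeff n) h1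
  simpa [Polynomial.coeff_map] using h2

/-- the constant `∏ w_j^(m_j)` is fixed. -/
theorem S40F2Z_prod_fixed (g : K →+* K) {ι : Type*} (s : Finset ι) (w : ι → K) (m : ι → ℕ)
    (τ : ι → ι) (hτs : ∀ j ∈ s, τ j ∈ s) (hτi : Set.InjOn τ (s : Set ι))
    (hgw : ∀ j ∈ s, g (w j) = w (τ j)) (hm : ∀ j ∈ s, m (τ j) = m j) :
    g (∏ j ∈ s, w j ^ m j) = ∏ j ∈ s, w j ^ m j := by
  rw [map_prod]
  have e : ∀ j ∈ s, g (w j ^ m j) = w (τ j) ^ m (τ j) := by
    intro j hj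
    rw [map_pow, hgw j hj, hm j hj]
  rw [Finset.prod_congr rfl e]
  exact S40F2Z_prod_perm s τ hτs hτi (fun j => w j ^ m j)

/-- **the coefficients of the annulus polynomial are integral**. -/
theorem S40F2Z_coeff_mem (O : Subring K) {ι : Type*} (s : Finset ι) (w : ι → K) (m : ι → ℕ)
    (hw : ∀ j ∈ s, w j ∈ O) (n : ℕ) :
    (∏ j ∈ s, (1 - C (w j) * Polynomial.X) ^ m j).coeff n ∈ O := by
  have h : (∏ j ∈ s, (1 - C (w j) * Polynomial.X) ^ m j) ∈ Polynomial.lifts O.subtype := by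
    refine Subsemiring.prod_mem _ (fun j hj => ?_)
    refine Subsemiring.pow_mem _ ?_ _
    rw [Polynomial.mem_lifts]
    refine ⟨1 - C ⟨w j, hw j hj⟩ * Polynomial.X, ?_⟩
    simp
  rw [Polynomial.lifts_iff_coeff_lifts] at h
  obtain ⟨x, hx⟩ := h n
  rw [← hx]
  exact x.2

theorem S40F2Z_prod_mem (O : Subring K) {ι : Type*} (s : Finset ι) (w : ι → K) (m : ι → ℕ)
    (hw : ∀ j ∈ s, w j ∈ O) : ∏ j ∈ s, w j ^ m j ∈ O :=
  Subring.prod_mem _ (fun j hj => Subring.pow_mem _ (hw j hj) _)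

end coeff

end Fermat.Agent.S40
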