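import Fermat.Agent.S40.F2PolyInst
import Fermat.Agent.S40.F2PolyGal
import Fermat.Agent.S40.F2SlopeInt

/-!
# TRACK 13 (S40), (F2'), gap (A1), instance layer 2 (helper1).  Prefix `S40F2YK_`.

* `S40F2YK_prod_split` : a product with integer exponents as a quotient of two products with
  natural exponents;
* `S40F2YK_E_one`, `S40F2YK_E_two` : the annulus factor `E = σ Ψ / Ψ`, `Ψ = ∏ (X − w_j)^(m_j)`
  with INTEGER exponents, at `V₁` (`E ≡ 1`) and at `V₂` (`E ≡ 1 + (A⁺ − A⁻) π^i`);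
* `S40F2YK_coeff` : the coefficients of the annulus polynomials are `σ`-fixed modulo `π^(i+1)`
  when the pointed family `(w, m)` is permuted by every element of `H`;
* `S40F2YK_reindex` : a finite family indexed by a `Finset` of any type, re-indexed by `Fin n`.
-/

set_option autoImplicit false

namespace Fermat.Agent.S40

open Finset Polynomial

section A

variable {F : Type*} [Field F] {Γ : Type*} [LinearOrderedCommGroupWithZero Γ]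
variable {V : Valuation F Γ} {σ : F →+* F} {π : F} {i : ℕ}

/-- a product with integer exponents as a quotient of products with natural exponents. -/
theorem S40F2YK_prod_split {ι : Type*} (s : Finset ι) (f : ι → F) (hf : ∀ j ∈ s, f j ≠ 0)
    (m : ι → ℤ) :
    ∏ j ∈ s, f j ^ m j =
      (∏ j ∈ s, f j ^ (m j).toNat) / (∏ j ∈ s, f j ^ (-m j).toNat) := by
  rw [← Finset.prod_div_distrib]
  refine Finset.prod_congr rfl (fun j hj => ?_)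
  have e : m j = ((m j).toNat : ℤ) - ((-m j).toNat : ℤ) := (Int.toNat_sub_toNat_neg (m j)).symm
  conv_lhs => rw [e]
  rw [zpow_sub₀ (hf j hj), zpow_natCast, zpow_natCast]

/-- `σ Ψ / Ψ` for a quotient `Ψ = Ψ⁺ / Ψ⁻`. -/
theorem S40F2YK_ratio_div {P Q : F} (hP : P ≠ 0) (hQ : Q ≠ 0) :
    σ (P / Q) / (P / Q) = (σ P / P) / (σ Q / Q) := by
  have h1 : σ P ≠ 0 := (_root_.map_ne_zero σ).2 hP
  have h2 : σ Q ≠ 0 := (_root_.map_ne_zero σ).2 hQ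
  rw [map_div₀]
  field_simp

/-- **the annulus factor with integer exponents at `V₁`**. -/
theorem S40F2YK_E_one {ι : Type*} (s : Finset ι) (w : ι → F) (m : ι → ℤ) {X : F}
    (hX : V X = 1) (hσX : σ X = X) (hw : ∀ j ∈ s, V (w j) < 1) (hπ : V π < 1) (hi : 1 ≤ i)
    (hGp : ∀ n, V (σ ((∏ j ∈ s, (1 - C (w j) * Polynomial.X) ^ (m j).toNat).coeff n)
      - (∏ j ∈ s, (1 - C (w j) * Polynomial.X) ^ (m j).toNat).coeff n) ≤ V π ^ (i + 1))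
    (hGm : ∀ n, V (σ ((∏ j ∈ s, (1 - C (w j) * Polynomial.X) ^ (-m j).toNat).coeff n)
      - (∏ j ∈ s, (1 - C (w j) * Polynomial.X) ^ (-m j).toNat).coeff n) ≤ V π ^ (i + 1)) :
    S40F2J_Cg V π i (σ (∏ j ∈ s, (X - w j) ^ m j) / ∏ j ∈ s, (X - w j) ^ m j) 0 := by
  have hne : ∀ j ∈ s, X - w j ≠ 0 := by
    intro j hj h
    have h1 : X = w j := sub_eq_zero.1 h
    have := hw j hj
    rw [← h1, hX] at this
    exact lt_irrefl _ this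
  have hp := S40F2Z_prod_one_pow (V := V) (σ := σ) (π := π) (i := i) s w
    (fun j => (m j).toNat) hX hσX hw hGp
  have hm := S40F2Z_prod_one_pow (V := V) (σ := σ) (π := π) (i := i) s w
    (fun j => (-m j).toNat) hX hσX hw hGm
  have hP0 : ∏ j ∈ s, (X - w j) ^ (m j).toNat ≠ 0 :=
    Finset.prod_ne_zero_iff.2 (fun j hj => pow_ne_zero _ (hne j hj))
  have hQ0 : ∏ j ∈ s, (X - w j) ^ (-m j).toNat ≠ 0 :=
    Finset.prod_ne_zero_iff.2 (fun j hj => pow_ne_zero _ (hne j hj))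
  rw [S40F2YK_prod_split s (fun j => X - w j) hne m, S40F2YK_ratio_div hP0 hQ0]
  have h0 : V (0 : F) ≤ 1 := by rw [map_zero]; exact zero_le_one
  exact S40F2J_cg_congr_eq (S40F2J_cg_div hp hm h0 h0 hπ hi) (sub_zero 0)

/-- **the annulus factor with integer exponents at `V₂`**. -/
theorem S40F2YK_E_two {ι : Type*} (s : Finset ι) (w : ι → F) (m : ι → ℤ) {X ϖ Ap Am : F}
    (hϖ0 : ϖ ≠ 0) (hY : V (X / ϖ) = 1) (hσX : σ X = X) (hσϖ : σ ϖ = ϖ)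
    (hw0 : ∀ j ∈ s, w j ≠ 0) (hw : ∀ j ∈ s, V (X / w j) < 1)
    (hAp : V Ap ≤ 1) (hAm : V Am ≤ 1) (hπ : V π < 1) (hi : 1 ≤ i)
    (hap : S40F2J_Cg V π i
      (σ (∏ j ∈ s, w j ^ (m j).toNat) / ∏ j ∈ s, w j ^ (m j).toNat) Ap)
    (ham : S40F2J_Cg V π i
      (σ (∏ j ∈ s, w j ^ (-m j).toNat) / ∏ j ∈ s, w j ^ (-m j).toNat) Am)
    (hGp : ∀ n, V (σ ((∏ j ∈ s, (1 - C (ϖ / w j) * Polynomial.X) ^ (m j).toNat).coeff n)
      - (∏ j ∈ s, (1 - C (ϖ / w j) * Polynomial.X) ^ (m j).toNat).coeff n) ≤ V π ^ (i + 1))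
    (hGm : ∀ n, V (σ ((∏ j ∈ s, (1 - C (ϖ / w j) * Polynomial.X) ^ (-m j).toNat).coeff n)
      - (∏ j ∈ s, (1 - C (ϖ / w j) * Polynomial.X) ^ (-m j).toNat).coeff n) ≤ V π ^ (i + 1)) :
    S40F2J_Cg V π i (σ (∏ j ∈ s, (X - w j) ^ m j) / ∏ j ∈ s, (X - w j) ^ m j) (Ap - Am) := by
  have hne : ∀ j ∈ s, X - w j ≠ 0 := by
    intro j hj h
    have h1 : X = w j := sub_eq_zero.1 h
    have := hw j hj
    rw [← h1, div_self (h1 ▸ hw0 j hj), map_one] at this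
    exact lt_irrefl _ this
  have hp := S40F2Z_prod_two_pow (V := V) (σ := σ) (π := π) (i := i) s w
    (fun j => (m j).toNat) hϖ0 hY hσX hσϖ hw0 hw hAp hπ hi hap hGp
  have hm := S40F2Z_prod_two_pow (V := V) (σ := σ) (π := π) (i := i) s w
    (fun j => (-m j).toNat) hϖ0 hY hσX hσϖ hw0 hw hAm hπ hi ham hGm
  have hP0 : ∏ j ∈ s, (X - w j) ^ (m j).toNat ≠ 0 :=
    Finset.prod_ne_zero_iff.2 (fun j hj => pow_ne_zero _ (hne j hj))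
  have hQ0 : ∏ j ∈ s, (X - w j) ^ (-m j).toNat ≠ 0 :=
    Finset.prod_ne_zero_iff.2 (fun j hj => pow_ne_zero _ (hne j hj))
  rw [S40F2YK_prod_split s (fun j => X - w j) hne m, S40F2YK_ratio_div hP0 hQ0]
  exact S40F2J_cg_div hp hm hAp hAm hπ hi

end A

section B

variable {F : Type*} [Field F]

/-- **the coefficients of the annulus polynomial lie in `Cf ∩ O`** when every element of `Hs`
permutes the pointed family `(w, m)`, the `w j` are constants (elements of the subfield `K₀`),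
and the constants fixed by `Hs` are in `Cf`. -/
theorem S40F2YK_coeff_mem (K₀ Cf : Subfield F) (O : Subring F) (Hs : Set (F →+* F))
    (hCfix : ∀ a : F, a ∈ K₀ → (∀ g ∈ Hs, g a = a) → a ∈ Cf)
    {ι : Type*} (s : Finset ι) (w : ι → F) (m : ι → ℕ)
    (hwK : ∀ j ∈ s, w j ∈ K₀) (hwO : ∀ j ∈ s, w j ∈ O)
    (hperm : ∀ g ∈ Hs, ∃ τ : ι → ι, (∀ j ∈ s, τ j ∈ s) ∧ Set.InjOn τ (s : Set ι) ∧
      (∀ j ∈ s, g (w j) = w (τ j)) ∧ (∀ j ∈ s, m (τ j) = m j)) (n : ℕ) :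
    (∏ j ∈ s, (1 - Polynomial.C (w j) * Polynomial.X) ^ m j).coeff n ∈ Cf ∧
      (∏ j ∈ s, (1 - Polynomial.C (w j) * Polynomial.X) ^ m j).coeff n ∈ O := by
  refine ⟨hCfix _ (S40F2Z_coeff_mem K₀.toSubring s w m hwK n) (fun g hg => ?_),
    S40F2Z_coeff_mem O s w m hwO n⟩
  obtain ⟨τ, h1, h2, h3, h4⟩ := hperm g hg
  exact S40F2Z_coeff_fixed g s w m τ h1 h2 h3 h4 n

/-- the constant `∏ w_j^(m_j)` lies in `Cf`. -/
theorem S40F2YK_prod_mem (K₀ Cf : Subfield F) (Hs : Set (F →+* F))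
    (hCfix : ∀ a : F, a ∈ K₀ → (∀ g ∈ Hs, g a = a) → a ∈ Cf)
    {ι : Type*} (s : Finset ι) (w : ι → F) (m : ι → ℕ)
    (hwK : ∀ j ∈ s, w j ∈ K₀)
    (hperm : ∀ g ∈ Hs, ∃ τ : ι → ι, (∀ j ∈ s, τ j ∈ s) ∧ Set.InjOn τ (s : Set ι) ∧
      (∀ j ∈ s, g (w j) = w (τ j)) ∧ (∀ j ∈ s, m (τ j) = m j)) :
    ∏ j ∈ s, w j ^ m j ∈ Cf := by
  refine hCfix _ (S40F2Z_prod_mem K₀.toSubring s w m hwK) (fun g hg => ?_)
  obtain ⟨τ, h1, h2, h3, h4⟩ := hperm g hg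
  exact S40F2Z_prod_fixed g s w m τ h1 h2 h3 h4

/-- a finite family indexed by a `Finset` of any type, re-indexed by `Fin n`. -/
theorem S40F2YK_reindex {α : Type*} (s : Finset α) :
    ∃ (n : ℕ) (e : Fin n → α), (∀ j, e j ∈ s) ∧
      ∀ f : α → F, ∏ j : Fin n, f (e j) = ∏ a ∈ s, f a := by
  classical
  refine ⟨s.card, fun j => ((s.equivFin.symm j : ↥s) : α), fun j => (s.equivFin.symm j).2, ?_⟩
  intro f
  rw [← Finset.prod_coe_sort s f]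
  exact Equiv.prod_comp s.equivFin.symm (fun i : ↥s => f i)

end B

section C

variable {L F k : Type*} [Field L] [Field F] [Algebra L F] [Field k]

/-- `τ` is the action of the field endomorphism `g` on the places of the chart. -/
structure S40F2YK_Act (N : S40NA_Node L F k) (g : F →+* F)
    (τ : S40NA_Pt L F → S40NA_Pt L F) : Prop where
  centred : ∀ (Q : S40NA_Pt L F) (hQ : Q ∈ N.U), S40NA_Centred N Q hQ →
    ∃ hQ' : τ Q ∈ N.U, S40NA_Centred N (τ Q) hQ'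
  mem_iff : ∀ (Q : S40NA_Pt L F) (f : F), g f ∈ (τ Q).P ↔ f ∈ Q.P
  at_eq : ∀ (Q : S40NA_Pt L F) (f : F), f ∈ Q.P →
    algebraMap L F (S40F2N_at (τ Q) (g f)) = g (algebraMap L F (S40F2N_at Q f))

theorem S40F2YK_Act.isU_iff {N : S40NA_Node L F k} {g : F →+* F}
    {τ : S40NA_Pt L F → S40NA_Pt L F} (h : S40F2YK_Act N g τ) (Q : S40NA_Pt L F) (f : F) :
    S40F2S_IsU (τ Q).P (g f) ↔ S40F2S_IsU Q.P f := by
  rw [S40F2S_isU_iff, S40F2S_isU_iff, ← map_inv₀, h.mem_iff, h.mem_iff, _root_.map_ne_zero]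

theorem S40F2YK_Act.injective {N : S40NA_Node L F k} {g : F →+* F}
    {τ : S40NA_Pt L F → S40NA_Pt L F} (h : S40F2YK_Act N g τ) : Function.Injective τ := by
  intro Q Q' hQQ'
  apply S40F2YI_pt_ext
  ext f
  rw [← h.mem_iff Q f, ← h.mem_iff Q' f, hQQ']

/-- a power of a nonzero nonunit which is a unit has exponent `0`. -/
theorem S40F2YK_zpow_isU {O : ValuationSubring F} {t : F} (ht : t ∈ O.nonunits) (ht0 : t ≠ 0)
    {n : ℤ} (h : S40F2S_IsU O (t ^ n)) : n = 0 := by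
  unfold S40F2S_IsU at h
  rw [map_zpow₀] at h
  have h1 : O.valuation t < 1 := (ValuationSubring.mem_nonunits_iff _).1 ht
  have h0 : O.valuation t ≠ 0 := (Valuation.ne_zero_iff _).2 ht0
  exact (zpow_eq_one_iff_right₀ zero_le (ne_of_lt h1)).1 h

/-- **the pointed family of `u` at the node is permuted by `g`** (`g X = X`, `g u = u`). -/
theorem S40F2YK_perm {N : S40NA_Node L F k} {X : F} (HX : S40F2YI_Hyp N X) {g : F →+* F}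
    {τ : S40NA_Pt L F → S40NA_Pt L F} (hA : S40F2YK_Act N g τ) (hgX : g X = X) {u : F}
    (hgu : g u = u) (s : Finset (S40NA_Pt L F)) (m : S40NA_Pt L F → ℤ) (e : ℤ) (he : e ≠ 0)
    (hs : ∀ Q, Q ∈ s ↔ ∃ hQ : Q ∈ N.U, S40NA_Centred N Q hQ ∧ ¬ S40F2S_IsU Q.P u)
    (hm : ∀ (Q : S40NA_Pt L F) (hQ : Q ∈ N.U), S40NA_Centred N Q hQ →
      S40F2S_IsU Q.P (u / S40F2YI_t X Q ^ (e * m Q))) :
    (∀ Q ∈ s, τ Q ∈ s) ∧ Set.InjOn τ (s : Set (S40NA_Pt L F)) ∧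
      (∀ Q ∈ s, g (algebraMap L F (S40F2N_at Q X)) = algebraMap L F (S40F2N_at (τ Q) X)) ∧
      (∀ Q ∈ s, m (τ Q) = m Q) := by
  have hw : ∀ Q ∈ s, g (algebraMap L F (S40F2N_at Q X)) = algebraMap L F (S40F2N_at (τ Q) X) := by
    intro Q hQs
    obtain ⟨hQ, hc, -⟩ := (hs Q).1 hQs
    have := hA.at_eq Q X (HX.hXmem Q hQ hc)
    rw [hgX] at this
    exact this.symm
  refine ⟨?_, fun Q _ Q' _ h => hA.injective h, hw, ?_⟩
  · intro Q hQs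
    obtain ⟨hQ, hc, hnu⟩ := (hs Q).1 hQs
    obtain ⟨hQ', hc'⟩ := hA.centred Q hQ hc
    refine (hs (τ Q)).2 ⟨hQ', hc', ?_⟩
    intro h
    rw [← hgu, hA.isU_iff] at h
    exact hnu h
  · intro Q hQs
    obtain ⟨hQ, hc, -⟩ := (hs Q).1 hQs
    obtain ⟨hQ', hc'⟩ := hA.centred Q hQ hc
    have hgt : g (S40F2YI_t X Q) = S40F2YI_t X (τ Q) := by
      unfold S40F2YI_t
      rw [map_sub, hgX, hw Q hQs]
    have h1 : S40F2S_IsU (τ Q).P (u / S40F2YI_t X (τ Q) ^ (e * m Q)) := by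
      have := (hA.isU_iff Q _).2 (hm Q hQ hc)
      rwa [map_div₀, map_zpow₀, hgu, hgt] at this
    have h2 := hm (τ Q) hQ' hc'
    have ht0 := HX.ht0 (τ Q) hQ' hc'
    have hu0 : u ≠ 0 := by
      intro h0
      rw [h0, zero_div] at h1
      exact h1.ne_zero rfl
    have h3 : S40F2S_IsU (τ Q).P (S40F2YI_t X (τ Q) ^ (e * m (τ Q) - e * m Q)) := by
      have e' : S40F2YI_t X (τ Q) ^ (e * m (τ Q) - e * m Q) =
          u / S40F2YI_t X (τ Q) ^ (e * m Q) / (u / S40F2YI_t X (τ Q) ^ (e * m (τ Q))) := by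
        rw [zpow_sub₀ ht0]
        have a1 : S40F2YI_t X (τ Q) ^ (e * m Q) ≠ 0 := zpow_ne_zero _ ht0
        have a2 : S40F2YI_t X (τ Q) ^ (e * m (τ Q)) ≠ 0 := zpow_ne_zero _ ht0
        field_simp
      rw [e']
      exact h1.div h2
    have h4 := S40F2YK_zpow_isU (S40F2YI_t_nonunit (τ Q) (HX.hXmem (τ Q) hQ' hc')) ht0 h3
    have h5 : e * (m (τ Q) - m Q) = 0 := by rw [mul_sub]; exact h4
    rcases mul_eq_zero.1 h5 with h6 | h6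
    · exact absurd h6 he
    · exact sub_eq_zero.1 h6

/-- **(A1), core form** (index set = the places): the field `hdiv` of `S40F2M_Gen` for a
generator `u` fixed by `Hs`, locally a `p`-th power up to units, and `h` with
`h ^ p = r · σ u / u`. -/
theorem S40F2YK_hdiv_core (N : S40NA_Node L F k) {X Y ϖ : F} (HX : S40F2YI_Hyp N X)
    (Cf : Subfield F) (vL : F → ℤ) (π c : F) (p t : ℕ) (hp : p ≠ 0) (ht : 1 ≤ t) (σ : F →+* F)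
    (hCL : ∀ a ∈ Cf, ∃ b : L, algebraMap L F b = a)
    (hπ₁ : π ∈ N.O₁.nonunits) (hπ₂ : π ∈ N.O₂.nonunits)
    (hv : S40F2SI_Val N.O₂ Cf vL) (hc₂ : c ∈ N.O₂)
    (hXY : X * Y = ϖ) (hX : S40F2S_IsU N.O₁ X) (hY : S40F2S_IsU N.O₂ Y) (hϖL : ϖ ∈ Cf)
    (hσX : σ X = X) (hσϖ : σ ϖ = ϖ)
    (hrange : ∀ (Q : S40NA_Pt L F) (hQ : Q ∈ N.U), S40NA_Centred N Q hQ →
      algebraMap L F (S40F2N_at Q X) ≠ 0 ∧ algebraMap L F (S40F2N_at Q X) ∈ N.O₁.nonunits ∧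
        ϖ / algebraMap L F (S40F2N_at Q X) ∈ N.O₂.nonunits)
    (hσZP : ∀ g : F, S40F2SN_NoZP N g → S40F2SN_NoZP N (σ g))
    (hint₁ : ∀ a ∈ Cf, a ∈ N.O₁ → N.O₁.valuation (σ a - a) ≤ N.O₁.valuation π ^ (t + 1))
    (hint₂ : ∀ a ∈ Cf, a ∈ N.O₂ → N.O₂.valuation (σ a - a) ≤ N.O₂.valuation π ^ (t + 1))
    (hB : ∀ a ∈ Cf, a ≠ 0 → S40F2J_Cg N.O₂.valuation π t (σ a / a) (c * ((vL a : ℤ) : F)))
    (Hs : Set (F →+* F))
    (hCfix : ∀ b : L, (∀ g ∈ Hs, g (algebraMap L F b) = algebraMap L F b) →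
      algebraMap L F b ∈ Cf)
    (hHC : ∀ g ∈ Hs, ∀ a ∈ Cf, g a = a) (hHX : ∀ g ∈ Hs, g X = X)
    (hact : ∀ g ∈ Hs, ∃ τ : S40NA_Pt L F → S40NA_Pt L F, S40F2YK_Act N g τ)
    {u h r : F} (hu0 : u ≠ 0) (hHu : ∀ g ∈ Hs, g u = u)
    (hpow : ∀ (Q : S40NA_Pt L F) (hQ : Q ∈ N.U), S40NA_Centred N Q hQ →
      ∃ g : F, g ≠ 0 ∧ S40F2S_IsU Q.P (u / g ^ p))
    (hr : S40F2SN_NoZP N r) (hh : h ^ p = r * (σ u / u)) :
    ∃ (s : Finset (S40NA_Pt L F)) (w : S40NA_Pt L F → F) (m : S40NA_Pt L F → ℤ) (u' E : F),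
      (∀ i ∈ s, w i ≠ 0) ∧ (∀ i ∈ s, w i ∈ N.O₁.nonunits) ∧
      (∀ i ∈ s, ϖ / w i ∈ N.O₂.nonunits) ∧
      S40F2SN_NoZP N u' ∧ u = u' * ∏ i ∈ s, (X - w i) ^ ((p : ℤ) * m i) ∧
      ∏ i ∈ s, w i ^ m i ∈ Cf ∧
      S40F2K_Reg N (h / E) ∧
      S40F2J_Cg N.O₁.valuation π t E 0 ∧
      S40F2J_Cg N.O₂.valuation π t E (c * ((vL (∏ i ∈ s, w i ^ m i) : ℤ) : F)) := by
  classical
  obtain ⟨s, m, hs, hm, hNoZP⟩ := S40F2YI_factor_pow HX hu0 p hpow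
  set w : S40NA_Pt L F → F := fun Q => algebraMap L F (S40F2N_at Q X) with hw
  have htw : ∀ Q, S40F2YI_t X Q = X - w Q := fun Q => rfl
  have hpZ : (p : ℤ) ≠ 0 := by exact_mod_cast hp
  -- facts on the family
  have hfact : ∀ Q ∈ s, w Q ≠ 0 ∧ w Q ∈ N.O₁.nonunits ∧ ϖ / w Q ∈ N.O₂.nonunits := by
    intro Q hQs
    obtain ⟨hQ, hc, -⟩ := (hs Q).1 hQs
    exact hrange Q hQ hc
  have hX0 : X ≠ 0 := hX.ne_zero
  have hY0 : Y ≠ 0 := hY.ne_zero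
  have hϖ0 : ϖ ≠ 0 := by rw [← hXY]; exact mul_ne_zero hX0 hY0
  have hπ₁' : N.O₁.valuation π < 1 := (ValuationSubring.mem_nonunits_iff _).1 hπ₁
  have hπ₂' : N.O₂.valuation π < 1 := (ValuationSubring.mem_nonunits_iff _).1 hπ₂
  -- the permutations
  have hperm : ∀ g ∈ Hs, ∃ τ : S40NA_Pt L F → S40NA_Pt L F, (∀ Q ∈ s, τ Q ∈ s) ∧
      Set.InjOn τ (s : Set (S40NA_Pt L F)) ∧ (∀ Q ∈ s, g (w Q) = w (τ Q)) ∧
      (∀ Q ∈ s, m (τ Q) = m Q) := by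
    intro g hg
    obtain ⟨τ, hτ⟩ := hact g hg
    exact ⟨τ, S40F2YK_perm HX hτ (hHX g hg) (hHu g hg) s m (p : ℤ) hpZ hs hm⟩
  have hpermN : ∀ (f : ℤ → ℕ) (g : F →+* F), g ∈ Hs → ∃ τ : S40NA_Pt L F → S40NA_Pt L F,
      (∀ Q ∈ s, τ Q ∈ s) ∧ Set.InjOn τ (s : Set (S40NA_Pt L F)) ∧
      (∀ Q ∈ s, g (w Q) = w (τ Q)) ∧ (∀ Q ∈ s, f (m (τ Q)) = f (m Q)) := by
    intro f g hg
    obtain ⟨τ, h1, h2, h3, h4⟩ := hperm g hg
    exact ⟨τ, h1, h2, h3, fun Q hQ => by rw [h4 Q hQ]⟩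
  have hpermN₂ : ∀ (f : ℤ → ℕ) (g : F →+* F), g ∈ Hs → ∃ τ : S40NA_Pt L F → S40NA_Pt L F,
      (∀ Q ∈ s, τ Q ∈ s) ∧ Set.InjOn τ (s : Set (S40NA_Pt L F)) ∧
      (∀ Q ∈ s, g (ϖ / w Q) = ϖ / w (τ Q)) ∧ (∀ Q ∈ s, f (m (τ Q)) = f (m Q)) := by
    intro f g hg
    obtain ⟨τ, h1, h2, h3, h4⟩ := hperm g hg
    exact ⟨τ, h1, h2, fun Q hQ => by rw [map_div₀, hHC g hg ϖ hϖL, h3 Q hQ],
      fun Q hQ => by rw [h4 Q hQ]⟩
  -- constants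
  set K₀ : Subfield F := (algebraMap L F).fieldRange with hK₀
  have hCfix' : ∀ a : F, a ∈ K₀ → (∀ g ∈ Hs, g a = a) → a ∈ Cf := by
    rintro a ⟨b, rfl⟩ h
    exact hCfix b h
  have hwK : ∀ Q ∈ s, w Q ∈ K₀ := fun Q _ => ⟨_, rfl⟩
  have hϖK : ϖ ∈ K₀ := by
    obtain ⟨b, hb⟩ := hCL ϖ hϖL
    exact ⟨b, hb⟩
  have hwK₂ : ∀ Q ∈ s, ϖ / w Q ∈ K₀ := fun Q hQ => K₀.div_mem hϖK (hwK Q hQ)
  have hwO₁ : ∀ Q ∈ s, w Q ∈ N.O₁.toSubring := fun Q hQ =>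
    ValuationSubring.nonunits_subset (hfact Q hQ).2.1
  have hwO₂ : ∀ Q ∈ s, ϖ / w Q ∈ N.O₂.toSubring := fun Q hQ =>
    ValuationSubring.nonunits_subset (hfact Q hQ).2.2
  -- the congruences of the coefficients
  have hG₁ : ∀ (f : ℤ → ℕ) (n : ℕ), N.O₁.valuation
      (σ ((∏ Q ∈ s, (1 - Polynomial.C (w Q) * Polynomial.X) ^ f (m Q)).coeff n)
        - (∏ Q ∈ s, (1 - Polynomial.C (w Q) * Polynomial.X) ^ f (m Q)).coeff n)
      ≤ N.O₁.valuation π ^ (t + 1) := by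
    intro f n
    obtain ⟨h1, h2⟩ := S40F2YK_coeff_mem K₀ Cf N.O₁.toSubring Hs hCfix' s w
      (fun Q => f (m Q)) hwK hwO₁ (hpermN f) n
    exact hint₁ _ h1 h2
  have hG₂ : ∀ (f : ℤ → ℕ) (n : ℕ), N.O₂.valuation
      (σ ((∏ Q ∈ s, (1 - Polynomial.C (ϖ / w Q) * Polynomial.X) ^ f (m Q)).coeff n)
        - (∏ Q ∈ s, (1 - Polynomial.C (ϖ / w Q) * Polynomial.X) ^ f (m Q)).coeff n)
      ≤ N.O₂.valuation π ^ (t + 1) := by
    intro f n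
    obtain ⟨h1, h2⟩ := S40F2YK_coeff_mem K₀ Cf N.O₂.toSubring Hs hCfix' s
      (fun Q => ϖ / w Q) (fun Q => f (m Q)) hwK₂ hwO₂ (hpermN₂ f) n
    exact hint₂ _ h1 h2
  -- the constants `a⁺`, `a⁻`
  have haC : ∀ f : ℤ → ℕ, ∏ Q ∈ s, w Q ^ f (m Q) ∈ Cf := fun f =>
    S40F2YK_prod_mem K₀ Cf Hs hCfix' s w (fun Q => f (m Q)) hwK (hpermN f)
  have ha0 : ∀ f : ℤ → ℕ, ∏ Q ∈ s, w Q ^ f (m Q) ≠ 0 := fun f =>
    Finset.prod_ne_zero_iff.2 (fun Q hQ => pow_ne_zero _ (hfact Q hQ).1)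
  have hsplit : ∏ Q ∈ s, w Q ^ m Q =
      (∏ Q ∈ s, w Q ^ (m Q).toNat) / (∏ Q ∈ s, w Q ^ (-m Q).toNat) :=
    S40F2YK_prod_split s w (fun Q hQ => (hfact Q hQ).1) m
  have haCf : ∏ Q ∈ s, w Q ^ m Q ∈ Cf := by
    rw [hsplit]
    exact Cf.div_mem (haC Int.toNat) (haC (fun z => (-z).toNat))
  have hvL : vL (∏ Q ∈ s, w Q ^ m Q) =
      vL (∏ Q ∈ s, w Q ^ (m Q).toNat) - vL (∏ Q ∈ s, w Q ^ (-m Q).toNat) := by
    rw [hsplit]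
    exact hv.div (haC Int.toNat) (haC (fun z => (-z).toNat)) (ha0 Int.toNat)
      (ha0 (fun z => (-z).toNat))
  -- the annulus factor
  set Ψ : F := ∏ Q ∈ s, (X - w Q) ^ m Q with hΨ
  have hne : ∀ Q ∈ s, X - w Q ≠ 0 := by
    intro Q hQ h0
    have h1 : X = w Q := sub_eq_zero.1 h0
    have h2 := (ValuationSubring.mem_nonunits_iff _).1 (hfact Q hQ).2.1
    rw [← h1] at h2
    have h3 : N.O₁.valuation X = 1 := hX
    rw [h3] at h2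
    exact lt_irrefl _ h2
  have hΨ0 : Ψ ≠ 0 := Finset.prod_ne_zero_iff.2 (fun Q hQ => zpow_ne_zero _ (hne Q hQ))
  have hΨp : Ψ ^ p = ∏ Q ∈ s, (X - w Q) ^ ((p : ℤ) * m Q) := by
    rw [hΨ, ← Finset.prod_pow]
    refine Finset.prod_congr rfl (fun Q _ => ?_)
    rw [mul_comm (p : ℤ) (m Q), zpow_mul, zpow_natCast]
  have hval_c : ∀ z : ℤ, N.O₂.valuation (c * (z : F)) ≤ 1 := by
    intro z
    rw [map_mul]
    have h1 : N.O₂.valuation c ≤ 1 := (ValuationSubring.valuation_le_one_iff _ _).2 hc₂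
    have h2 : N.O₂.valuation (z : F) ≤ 1 := S40F2J_val_intCast z
    calc N.O₂.valuation c * N.O₂.valuation (z : F) ≤ 1 * 1 := mul_le_mul' h1 h2
      _ = 1 := one_mul 1
  have hY' : N.O₂.valuation (X / ϖ) = 1 := by
    have e : X / ϖ = Y⁻¹ := by
      rw [← hXY]
      field_simp
    rw [e]
    exact hY.inv
  have hw₂ : ∀ Q ∈ s, N.O₂.valuation (X / w Q) < 1 := by
    intro Q hQ
    have e : X / w Q = X / ϖ * (ϖ / w Q) := by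
      have := (hfact Q hQ).1
      field_simp
    rw [e, map_mul, hY', one_mul]
    exact (ValuationSubring.mem_nonunits_iff _).1 (hfact Q hQ).2.2
  have E1 : S40F2J_Cg N.O₁.valuation π t (σ Ψ / Ψ) 0 :=
    S40F2YK_E_one s w m hX hσX
      (fun Q hQ => (ValuationSubring.mem_nonunits_iff _).1 (hfact Q hQ).2.1) hπ₁' ht
      (hG₁ Int.toNat) (hG₁ (fun z => (-z).toNat))
  have E2 : S40F2J_Cg N.O₂.valuation π t (σ Ψ / Ψ)
      (c * ((vL (∏ Q ∈ s, w Q ^ m Q) : ℤ) : F)) := by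
    have := S40F2YK_E_two (V := N.O₂.valuation) (σ := σ) (π := π) (i := t) s w m hϖ0 hY' hσX
      hσϖ (fun Q hQ => (hfact Q hQ).1) hw₂ (hval_c _) (hval_c _) hπ₂' ht
      (hB _ (haC Int.toNat) (ha0 Int.toNat))
      (hB _ (haC (fun z => (-z).toNat)) (ha0 (fun z => (-z).toNat)))
      (hG₂ Int.toNat) (hG₂ (fun z => (-z).toNat))
    refine S40F2J_cg_congr_eq this ?_
    rw [hvL]
    push_cast
    ring
  refine ⟨s, w, m, u / Ψ ^ p, σ Ψ / Ψ, fun Q hQ => (hfact Q hQ).1, fun Q hQ => (hfact Q hQ).2.1,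
    fun Q hQ => (hfact Q hQ).2.2, hNoZP, ?_, haCf, ?_, E1, E2⟩
  · rw [← hΨp, div_mul_cancel₀ _ (pow_ne_zero _ hΨ0)]
  · exact S40F2YI_reg_quot N HX.hfin σ hσZP hp hΨ0
      (div_mul_cancel₀ _ (pow_ne_zero _ hΨ0)).symm hNoZP hr hh

/-- **(A1)** : the field `hdiv` of `S40F2M_Gen` (index type `Fin n`), verbatim. -/
theorem S40F2YK_hdiv (N : S40NA_Node L F k) {X Y ϖ : F} (HX : S40F2YI_Hyp N X)
    (Cf : Subfield F) (vL : F → ℤ) (π c : F) (p t : ℕ) (hp : p ≠ 0) (ht : 1 ≤ t) (σ : F →+* F)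
    (hCL : ∀ a ∈ Cf, ∃ b : L, algebraMap L F b = a)
    (hπ₁ : π ∈ N.O₁.nonunits) (hπ₂ : π ∈ N.O₂.nonunits)
    (hv : S40F2SI_Val N.O₂ Cf vL) (hc₂ : c ∈ N.O₂)
    (hXY : X * Y = ϖ) (hX : S40F2S_IsU N.O₁ X) (hY : S40F2S_IsU N.O₂ Y) (hϖL : ϖ ∈ Cf)
    (hσX : σ X = X) (hσϖ : σ ϖ = ϖ)
    (hrange : ∀ (Q : S40NA_Pt L F) (hQ : Q ∈ N.U), S40NA_Centred N Q hQ →
      algebraMap L F (S40F2N_at Q X) ≠ 0 ∧ algebraMap L F (S40F2N_at Q X) ∈ N.O₁.nonunits ∧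
        ϖ / algebraMap L F (S40F2N_at Q X) ∈ N.O₂.nonunits)
    (hσZP : ∀ g : F, S40F2SN_NoZP N g → S40F2SN_NoZP N (σ g))
    (hint₁ : ∀ a ∈ Cf, a ∈ N.O₁ → N.O₁.valuation (σ a - a) ≤ N.O₁.valuation π ^ (t + 1))
    (hint₂ : ∀ a ∈ Cf, a ∈ N.O₂ → N.O₂.valuation (σ a - a) ≤ N.O₂.valuation π ^ (t + 1))
    (hB : ∀ a ∈ Cf, a ≠ 0 → S40F2J_Cg N.O₂.valuation π t (σ a / a) (c * ((vL a : ℤ) : F)))
    (Hs : Set (F →+* F))
    (hCfix : ∀ b : L, (∀ g ∈ Hs, g (algebraMap L F b) = algebraMap L F b) →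
      algebraMap L F b ∈ Cf)
    (hHC : ∀ g ∈ Hs, ∀ a ∈ Cf, g a = a) (hHX : ∀ g ∈ Hs, g X = X)
    (hact : ∀ g ∈ Hs, ∃ τ : S40NA_Pt L F → S40NA_Pt L F, S40F2YK_Act N g τ)
    {u h r : F} (hu0 : u ≠ 0) (hHu : ∀ g ∈ Hs, g u = u)
    (hpow : ∀ (Q : S40NA_Pt L F) (hQ : Q ∈ N.U), S40NA_Centred N Q hQ →
      ∃ g : F, g ≠ 0 ∧ S40F2S_IsU Q.P (u / g ^ p))
    (hr : S40F2SN_NoZP N r) (hh : h ^ p = r * (σ u / u)) :
    ∃ (ι : Type) (s : Finset ι) (w : ι → F) (m : ι → ℤ) (u' E : F),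
      (∀ i ∈ s, w i ≠ 0) ∧ (∀ i ∈ s, w i ∈ N.O₁.nonunits) ∧
      (∀ i ∈ s, ϖ / w i ∈ N.O₂.nonunits) ∧
      S40F2SN_NoZP N u' ∧ u = u' * ∏ i ∈ s, (X - w i) ^ ((p : ℤ) * m i) ∧
      ∏ i ∈ s, w i ^ m i ∈ Cf ∧
      S40F2K_Reg N (h / E) ∧
      S40F2J_Cg N.O₁.valuation π t E 0 ∧
      S40F2J_Cg N.O₂.valuation π t E (c * ((vL (∏ i ∈ s, w i ^ m i) : ℤ) : F)) := by
  obtain ⟨s, w, m, u', E, h1, h2, h3, h4, h5, h6, h7, h8, h9⟩ :=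
    S40F2YK_hdiv_core N HX Cf vL π c p t hp ht σ hCL hπ₁ hπ₂ hv hc₂ hXY hX hY hϖL hσX hσϖ hrange
      hσZP hint₁ hint₂ hB Hs hCfix hHC hHX hact hu0 hHu hpow hr hh
  obtain ⟨n, e, he, hprod⟩ := S40F2YK_reindex (F := F) s
  have e1 : ∏ i : Fin n, (X - w (e i)) ^ ((p : ℤ) * m (e i)) =
      ∏ Q ∈ s, (X - w Q) ^ ((p : ℤ) * m Q) := hprod (fun Q => (X - w Q) ^ ((p : ℤ) * m Q))
  have e2 : ∏ i : Fin n, w (e i) ^ m (e i) = ∏ Q ∈ s, w Q ^ m Q :=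
    hprod (fun Q => w Q ^ m Q)
  refine ⟨Fin n, Finset.univ, fun i => w (e i), fun i => m (e i), u', E,
    fun i _ => h1 _ (he i), fun i _ => h2 _ (he i), fun i _ => h3 _ (he i), h4, ?_, ?_, h7, h8,
    ?_⟩
  · rw [e1]; exact h5
  · rw [e2]; exact h6
  · rw [e2]; exact h9

end C

end Fermat.Agent.S40
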