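import Fermat.Agent.S40.F2Main
import Fermat.Agent.S40.F2PolyInst2

/-!
# TRACK 13 (S40/S44, row 38), (F2'): `S40F2M_Gen` from the leaves (helper16).
Prefix `S40F2MG_`.  Abstract (`F2Main` + helper1's `F2PolyInst2`).

* `S40F2MG_pi₂`, `S40F2MG_c₂` : `π ∈ 𝔪₂`, `c ∈ O₂` from `S40F2M_Coord`;
* `S40F2MG_gen` : **job list 2 of `F2Main`**: the structure `S40F2M_Gen` for a pair `(u, h)` from
  `S40F2M_Coord`, the chart hypothesis `S40F2YI_Hyp N X` (P1), the break on the constants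
  (`hint₁`, `hint₂`, `hB`), the action of `H` on the places (`hact`), the generator facts
  (`hu0`, `hHu`, `hpow`, `hr`, `hh`) and the four constants with `hu₁`, `hu₂`, `H1`, `H2`;
* the final step is `S40F2M_main` (`S40/F2Main.lean`) with both `S40F2M_Gen`
  (for `(u, h)` and for the Hecke transform `(u', h')`) built by `S40F2MG_gen`.
-/

set_option autoImplicit false

namespace Fermat.Agent.S40

variable {L F k : Type*} [Field L] [Field F] [Algebra L F] [Field k]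

theorem S40F2MG_pi₂ (N : S40NA_Node L F k) {C : Subfield F} {vL : F → ℤ} {π c X Y ϖ : F}
    {p : ℕ} {e' : ℤ} (hC : S40F2M_Coord N C vL π c X Y ϖ p e') : π ∈ N.O₂.nonunits :=
  (ValuationSubring.mem_nonunits_iff (A := N.O₂)).mpr
    (S40F2K_node N C π hC.hCL hC.hA₁ hC.hA₂ hC.hπC hC.hπ0 hC.hπ1 hC.hdisc).hπ2

theorem S40F2MG_c₂ (N : S40NA_Node L F k) {C : Subfield F} {vL : F → ℤ} {π c X Y ϖ : F}
    {p : ℕ} {e' : ℤ} (hC : S40F2M_Coord N C vL π c X Y ϖ p e') : c ∈ N.O₂ := by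
  obtain ⟨b, rfl⟩ := hC.hCL c hC.hcC
  exact N.const₂ b (hC.hA₁ b hC.hc1.mem)

/-- **job list 2 of `F2Main` from the leaves.** -/
theorem S40F2MG_gen (N : S40NA_Node L F k) {C : Subfield F} {vL : F → ℤ} {π c X Y ϖ : F}
    {p : ℕ} (hp : p ≠ 0) {e' : ℤ} (hC : S40F2M_Coord N C vL π c X Y ϖ p e')
    (HX : S40F2YI_Hyp N X) {t : ℕ} (ht : 1 ≤ t) (σ : F →+* F)
    (hσX : σ X = X) (hσϖ : σ ϖ = ϖ)
    (hrange : ∀ (Q : S40NA_Pt L F) (hQ : Q ∈ N.U), S40NA_Centred N Q hQ →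
      algebraMap L F (S40F2N_at Q X) ≠ 0 ∧ algebraMap L F (S40F2N_at Q X) ∈ N.O₁.nonunits ∧
        ϖ / algebraMap L F (S40F2N_at Q X) ∈ N.O₂.nonunits)
    (hσZP : ∀ g : F, S40F2SN_NoZP N g → S40F2SN_NoZP N (σ g))
    (hint₁ : ∀ a ∈ C, a ∈ N.O₁ → N.O₁.valuation (σ a - a) ≤ N.O₁.valuation π ^ (t + 1))
    (hint₂ : ∀ a ∈ C, a ∈ N.O₂ → N.O₂.valuation (σ a - a) ≤ N.O₂.valuation π ^ (t + 1))
    (hB : ∀ a ∈ C, a ≠ 0 → S40F2J_Cg N.O₂.valuation π t (σ a / a) (c * ((vL a : ℤ) : F)))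
    (Hs : Set (F →+* F))
    (hCfix : ∀ b : L, (∀ g ∈ Hs, g (algebraMap L F b) = algebraMap L F b) →
      algebraMap L F b ∈ C)
    (hHC : ∀ g ∈ Hs, ∀ a ∈ C, g a = a) (hHX : ∀ g ∈ Hs, g X = X)
    (hact : ∀ g ∈ Hs, ∃ τ : S40NA_Pt L F → S40NA_Pt L F, S40F2YK_Act N g τ)
    {u h r : F} (hu0 : u ≠ 0) (hHu : ∀ g ∈ Hs, g u = u)
    (hpow : ∀ (Q : S40NA_Pt L F) (hQ : Q ∈ N.U), S40NA_Centred N Q hQ →
      ∃ g : F, g ≠ 0 ∧ S40F2S_IsU Q.P (u / g ^ p))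
    (hr : S40F2SN_NoZP N r) (hh : h ^ p = r * (σ u / u))
    {c₁ c₂ d₁ d₂ : F} {n : ℤ}
    (hc₁ : c₁ ∈ C) (hc₂ : c₂ ∈ C) (hc₁0 : c₁ ≠ 0) (hc₂0 : c₂ ≠ 0)
    (hd₁ : d₁ ∈ C) (hd₂ : d₂ ∈ C) (hd₁0 : d₁ ≠ 0) (hd₂0 : d₂ ≠ 0)
    (hu₁ : S40F2SN_U1 N (u / (c₁ * X ^ n))) (hu₂ : S40F2S_IsU N.O₂ (u / c₂))
    (H1 : S40F2J_Cg N.O₁.valuation π t (h / d₁) 0)
    (H2 : S40F2J_Cg N.O₂.valuation π t (h / d₂) 0) :
    S40F2M_Gen N C vL π c X ϖ p t u h c₁ c₂ d₁ d₂ n where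
  hc₁ := hc₁
  hc₂ := hc₂
  hc₁0 := hc₁0
  hc₂0 := hc₂0
  hd₁ := hd₁
  hd₂ := hd₂
  hd₁0 := hd₁0
  hd₂0 := hd₂0
  hu₁ := hu₁
  hu₂ := hu₂
  H1 := H1
  H2 := H2
  hdiv := S40F2YK_hdiv N HX C vL π c p t hp ht σ hC.hCL hC.hπ1 (S40F2MG_pi₂ N hC) hC.hv
    (S40F2MG_c₂ N hC) hC.hXY hC.hX hC.hY hC.hϖL hσX hσϖ hrange hσZP hint₁ hint₂ hB Hs hCfix hHC
    hHX hact hu0 hHu hpow hr hh

end Fermat.Agent.S40
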