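import Mathlib
import Fermat.Agent.S40.F2Main

/-!
# TRACK 13 (S40/S44, row 38), (F2'): the node step with RATIONAL correction constants (helper17).
Prefix `S40F2MK_`.  Mathlib + `F2Main` only.

`S40F2M_node` asks for the constants of the Hecke transform `(u', h')` to be EXACTLY the
`(l+1)`-st powers `d_j ^ (l+1)` of the constants of `(u, h)`.  When the Kummer generator `u_z` of
`z = σ x − x` has zeros and poles inside the annulus of the node (leaf `hr`), `h` is replaced per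
node by `h · Ψ_z` (`Ψ_z` the annulus polynomial of `u_z`, with `I¹`-rational coefficients), and the
function `h'` of the transform is only `const · g · t(h)` with `g` rational.  So the constants
satisfy only

  `d₂' / d₁' = κ · (d₂ / d₁) ^ (l+1)`,  `κ` a constant of the unramified-in-`π` field `F₀`.

Such a `κ` which is `≡ 1` modulo the maximal ideal is `≡ 1` modulo `π ^ p`, hence modulo
`π ^ (t+1)` (`t ≤ p − 1`): it does not change the first-order terms.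

* `S40F2MK_pow`  : `d₂ = d₁ (1 + δ π^t)`, `d₂' = d₁' (1 + δ' π^t)`,
  `d₂' d₁^m = κ d₁' d₂^m`, `κ` as above ⇒ `δ' ≡ m δ`;
* `S40F2MK_node` : **(F2') at one node with correction constants**;
* `S40F2MK_hκ`   : the hypothesis on `κ` from a discretely valued subfield `F₀ ∋ κ`
  (`v(x) < 1 ⇒ v(x) ≤ v(π)^p` on `F₀`) and `t + 1 ≤ p`;
* `S40F2MK_main` : the same for a family of nodes, with `h`, `h'`, `d_j`, `d_j'`, `κ` depending
  on the node.
-/

set_option autoImplicit false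

namespace Fermat.Agent.S40

variable {L F k : Type*} [Field L] [Field F] [Algebra L F] [Field k]

/-- `d₂ = d₁ (1 + δ π^t)`, `d₂' = d₁' (1 + δ' π^t)`, `d₂' d₁^m = κ d₁' d₂^m` with `κ ≡ 1` modulo
`π ^ (t+1)` as soon as `κ ≡ 1` modulo the maximal ideal: `δ' ≡ m δ`. -/
theorem S40F2MK_pow (O : ValuationSubring F) {π d₁ d₂ d₁' d₂' δ δ' κ : F} {t : ℕ} (ht : 1 ≤ t)
    (m : ℕ) (hπ0 : π ≠ 0) (hπ1 : π ∈ O.nonunits) (hd₁0 : d₁ ≠ 0) (hd₁'0 : d₁' ≠ 0)
    (hδ : δ ∈ O) (hδ' : δ' ∈ O)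
    (hd : d₂ = d₁ * (1 + δ * π ^ t)) (hd' : d₂' = d₁' * (1 + δ' * π ^ t))
    (hκ : d₂' * d₁ ^ m = κ * (d₁' * d₂ ^ m))
    (hκF : O.valuation (κ - 1) < 1 → O.valuation (κ - 1) ≤ O.valuation π ^ (t + 1)) :
    δ' - (m : F) * δ ∈ O.nonunits := by
  have hVπ : O.valuation π < 1 := (ValuationSubring.mem_nonunits_iff _).mp hπ1
  have hVπ0 : O.valuation π ≠ 0 := (map_ne_zero _).mpr hπ0
  have hVπt0 : O.valuation π ^ t ≠ 0 := pow_ne_zero t hVπ0
  have hVδ : O.valuation δ ≤ 1 := (ValuationSubring.valuation_le_one_iff _ _).mpr hδ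
  have hVδ' : O.valuation δ' ≤ 1 := (ValuationSubring.valuation_le_one_iff _ _).mpr hδ'
  have hπO : π ∈ O := O.nonunits_subset hπ1
  have hxO : δ * π ^ t ∈ O.toSubring := O.toSubring.mul_mem hδ (O.toSubring.pow_mem hπO t)
  obtain ⟨q, hq, e⟩ := S40F2M_binom O.toSubring hxO m
  have hVq : O.valuation q ≤ 1 := (ValuationSubring.valuation_le_one_iff _ _).mpr hq
  have hVm : O.valuation (m : F) ≤ 1 :=
    (ValuationSubring.valuation_le_one_iff _ _).mpr (natCast_mem O m)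
  obtain ⟨x, hx⟩ : ∃ x : F, x = δ * π ^ t := ⟨_, rfl⟩
  rw [← hx] at e
  have hVx : O.valuation x ≤ O.valuation π ^ t := by
    rw [hx, map_mul, map_pow]
    exact mul_le_of_le_one_left' hVδ
  have hVx' : O.valuation (δ' * π ^ t) ≤ O.valuation π ^ t := by
    rw [map_mul, map_pow]
    exact mul_le_of_le_one_left' hVδ'
  have hVπt1 : O.valuation π ^ t < 1 := pow_lt_one₀ zero_le hVπ (by omega)
  have hVπt_le : O.valuation π ^ t ≤ 1 := hVπt1.le
  -- `B = (1 + x)^m` is a unit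
  obtain ⟨B, hB⟩ : ∃ B : F, B = 1 + (m : F) * x + x ^ 2 * q := ⟨_, rfl⟩
  have hVx2q : O.valuation (x ^ 2 * q) ≤ O.valuation π ^ (t + 1) := by
    rw [map_mul, map_pow]
    have h1 : O.valuation x ^ 2 ≤ (O.valuation π ^ t) ^ 2 := pow_le_pow_left₀ zero_le hVx 2
    have h2 : (O.valuation π ^ t) ^ 2 ≤ O.valuation π ^ (t + 1) := by
      rw [← pow_mul]
      exact pow_le_pow_of_le_one zero_le hVπ.le (by omega)
    calc O.valuation x ^ 2 * O.valuation q ≤ O.valuation x ^ 2 * 1 :=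
          mul_le_mul' (le_refl _) hVq
      _ = O.valuation x ^ 2 := mul_one _
      _ ≤ O.valuation π ^ (t + 1) := h1.trans h2
  have hVπt1' : O.valuation π ^ (t + 1) ≤ O.valuation π ^ t :=
    pow_le_pow_of_le_one zero_le hVπ.le (by omega)
  have hVmx : O.valuation ((m : F) * x) ≤ O.valuation π ^ t := by
    rw [map_mul]
    exact (mul_le_of_le_one_left' hVm).trans hVx
  have hVB1 : O.valuation ((m : F) * x + x ^ 2 * q) < 1 :=
    lt_of_le_of_lt (O.valuation.map_add _ _)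
      (max_lt (lt_of_le_of_lt hVmx hVπt1) (lt_of_le_of_lt (hVx2q.trans hVπt1') hVπt1))
  have hVB : O.valuation B = 1 := by
    rw [hB, add_assoc]
    exact Valuation.map_one_add_of_lt _ hVB1
  -- the relation `1 + δ' π^t = κ B`
  have hrel : 1 + δ' * π ^ t = κ * B := by
    have h1 : d₁' * d₁ ^ m * (1 + δ' * π ^ t) = d₁' * d₁ ^ m * (κ * B) := by
      have h2 := hκ
      rw [hd', hd, mul_pow, ← hx, e, ← hB] at h2
      linear_combination h2
    exact mul_left_cancel₀ (mul_ne_zero hd₁'0 (pow_ne_zero m hd₁0)) h1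
  -- `κ ≡ 1` modulo `π^t`
  have hκB : (κ - 1) * B = δ' * π ^ t - ((m : F) * x + x ^ 2 * q) := by
    rw [hB] at hrel ⊢
    linear_combination -hrel
  have hVκ : O.valuation (κ - 1) ≤ O.valuation π ^ t := by
    have h1 : O.valuation ((κ - 1) * B) ≤ O.valuation π ^ t := by
      rw [hκB]
      refine (O.valuation.map_sub _ _).trans (max_le hVx' ?_)
      exact (O.valuation.map_add _ _).trans (max_le hVmx (hVx2q.trans hVπt1'))
    rwa [map_mul, hVB, mul_one] at h1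
  have hVκ' : O.valuation (κ - 1) ≤ O.valuation π ^ (t + 1) :=
    hκF (lt_of_le_of_lt hVκ hVπt1)
  -- the first-order terms
  have key : (δ' - (m : F) * δ) * π ^ t = (κ - 1) * B + x ^ 2 * q := by
    rw [hκB, hx]
    ring
  have hV : O.valuation ((δ' - (m : F) * δ) * π ^ t) ≤ O.valuation π ^ (t + 1) := by
    rw [key]
    refine (O.valuation.map_add _ _).trans (max_le ?_ hVx2q)
    rw [map_mul, hVB, mul_one]
    exact hVκ'
  rw [map_mul, map_pow, pow_succ'] at hV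
  have hfin : O.valuation (δ' - (m : F) * δ) ≤ O.valuation π := by
    by_contra hcon
    push_neg at hcon
    have h1 : O.valuation π * O.valuation π ^ t <
        O.valuation (δ' - (m : F) * δ) * O.valuation π ^ t :=
      mul_lt_mul_of_pos_right hcon (zero_lt_iff.mpr hVπt0)
    exact absurd hV (not_le.mpr h1)
  exact (ValuationSubring.mem_nonunits_iff _).mpr (lt_of_le_of_lt hfin hVπ)

/-- **(F2') at one node, with correction constants**: the relations (C) for `(u, h)` and for a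
pair `(u', h')` whose constants satisfy `vL c₂' − vL c₁' = (l+1)(vL c₂ − vL c₁)` and
`d₂' / d₁' = κ (d₂ / d₁)^(l+1)`, `κ ≡ 1 mod π^(t+1)` as soon as `κ ≡ 1 mod 𝔪`; with `n' ≡ a n`,
`p ∤ a − l − 1`, `p ∤ e'`: `p ∣ n`. -/
theorem S40F2MK_node (N : S40NA_Node L F k) {C : Subfield F} {vL : F → ℤ} {π c X Y ϖ : F} {p : ℕ}
    (hp : p.Prime) {e' : ℤ} (hC : S40F2M_Coord N C vL π c X Y ϖ p e') {t : ℕ} (ht : 1 ≤ t)
    {u h c₁ c₂ d₁ d₂ : F} {n : ℤ} (hG : S40F2M_Gen N C vL π c X ϖ p t u h c₁ c₂ d₁ d₂ n)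
    (l : ℕ) {u' h' c₁' c₂' d₁' d₂' : F} {n' : ℤ}
    (hG' : S40F2M_Gen N C vL π c X ϖ p t u' h' c₁' c₂' d₁' d₂' n')
    (hcc : vL c₂' - vL c₁' = ((l : ℤ) + 1) * (vL c₂ - vL c₁))
    (κ : F) (hκ : d₂' * d₁ ^ (l + 1) = κ * (d₁' * d₂ ^ (l + 1)))
    (hκF : N.O₁.valuation (κ - 1) < 1 → N.O₁.valuation (κ - 1) ≤ N.O₁.valuation π ^ (t + 1))
    (a : ℤ) (hn : (p : ℤ) ∣ n' - a * n) (he : ¬ (p : ℤ) ∣ e')
    (ha : ¬ (p : ℤ) ∣ a - (l : ℤ) - 1) : (p : ℤ) ∣ n := by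
  obtain ⟨K, Ns, δ, hK, hKd, hδ1, hd, hδ⟩ := S40F2M_C N hC ht hG
  obtain ⟨K', Ns', δ', hK', hKd', hδ1', hd', hδ'⟩ := S40F2M_C N hC ht hG'
  have hp0 : (p : ℤ) ≠ 0 := by exact_mod_cast hp.ne_zero
  -- `K' = (l + 1) K`
  have hKK : K' = ((l : ℤ) + 1) * K := by
    have e3 : (p : ℤ) * K' = (p : ℤ) * (((l : ℤ) + 1) * K) := by
      rw [← hK', hcc, hK]
      ring
    exact mul_left_cancel₀ hp0 e3
  -- `Ns' ≡ (l + 1) Ns`
  have hδδ : δ' - ((l + 1 : ℕ) : F) * δ ∈ N.O₁.nonunits :=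
    S40F2MK_pow N.O₁ ht (l + 1) hC.hπ0 hC.hπ1 hG.hd₁0 hG'.hd₁0 hδ1 hδ1' hd hd' hκ hκF
  have hNN : (p : ℤ) ∣ Ns' - ((l : ℤ) + 1) * Ns := by
    apply hC.hchar
    have hV := fun x (hx : x ∈ N.O₁.nonunits) =>
      (ValuationSubring.mem_nonunits_iff (A := N.O₁)).mp hx
    have h1 := hV _ hδ
    have h2 := hV _ hδ'
    have h3 := hV _ hδδ
    have hl : N.O₁.valuation (((l + 1 : ℕ) : F)) ≤ 1 :=
      (ValuationSubring.valuation_le_one_iff _ _).mpr (natCast_mem N.O₁ _)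
    have h4 : N.O₁.valuation (((l + 1 : ℕ) : F) * (c * (Ns : F) - δ)) < 1 := by
      rw [map_mul]
      exact mul_lt_one_of_nonneg_of_lt_one_right hl zero_le h1
    have e : c * (((Ns' - ((l : ℤ) + 1) * Ns : ℤ)) : F)
        = (c * (Ns' : F) - δ') + (δ' - ((l + 1 : ℕ) : F) * δ)
          - ((l + 1 : ℕ) : F) * (c * (Ns : F) - δ) := by
      push_cast
      ring
    have h5 : N.O₁.valuation (c * (((Ns' - ((l : ℤ) + 1) * Ns : ℤ)) : F)) < 1 := by
      rw [e]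
      refine lt_of_le_of_lt (N.O₁.valuation.map_sub _ _) (max_lt ?_ h4)
      exact lt_of_le_of_lt (N.O₁.valuation.map_add _ _) (max_lt h2 h3)
    rw [map_mul, hC.hc1, one_mul] at h5
    exact (ValuationSubring.mem_nonunits_iff (A := N.O₁)).mpr h5
  exact S40F2M_kill hp n n' e' K K' Ns Ns' a l hKd hKd' hKK hNN hn he ha

/-- the hypothesis on `κ`: `κ` lies in a subfield `F₀` on which the valuation is discrete with
uniformiser of value `v(π)^p`, and `t + 1 ≤ p`. -/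
theorem S40F2MK_hκ (O : ValuationSubring F) (F₀ : Subfield F) {π κ : F} {p t : ℕ}
    (htp : t + 1 ≤ p) (hπ1 : π ∈ O.nonunits)
    (hdisc : ∀ x ∈ F₀, O.valuation x < 1 → O.valuation x ≤ O.valuation π ^ p)
    (hκ : κ ∈ F₀) :
    O.valuation (κ - 1) < 1 → O.valuation (κ - 1) ≤ O.valuation π ^ (t + 1) := by
  intro h
  have hVπ : O.valuation π < 1 := (ValuationSubring.mem_nonunits_iff _).mp hπ1
  exact (hdisc _ (F₀.sub_mem hκ F₀.one_mem) h).trans
    (pow_le_pow_of_le_one zero_le hVπ.le htp)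

/-- **(F2') for a family of nodes, with correction constants** (everything about `h` may depend
on the node). -/
theorem S40F2MK_main {ι : Type*} (N : ι → S40NA_Node L F k) {C : Subfield F} {vL : F → ℤ}
    {π c : F} {X Y ϖ : ι → F} {p : ℕ} (hp : p.Prime) {e' : ι → ℤ}
    (hC : ∀ s, S40F2M_Coord (N s) C vL π c (X s) (Y s) (ϖ s) p (e' s)) {t : ℕ} (ht : 1 ≤ t)
    (htp : t + 1 ≤ p)
    {u c₁ c₂ : F} {h d₁ d₂ : ι → F} {n : ι → ℤ}
    (hG : ∀ s, S40F2M_Gen (N s) C vL π c (X s) (ϖ s) p t u (h s) c₁ c₂ (d₁ s) (d₂ s) (n s))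
    (l : ℕ) {u' c₁' c₂' : F} {h' d₁' d₂' : ι → F} {n' : ι → ℤ}
    (hG' : ∀ s, S40F2M_Gen (N s) C vL π c (X s) (ϖ s) p t u' (h' s) c₁' c₂' (d₁' s) (d₂' s)
      (n' s))
    (hcc : vL c₂' - vL c₁' = ((l : ℤ) + 1) * (vL c₂ - vL c₁))
    (F₀ : Subfield F)
    (hdisc : ∀ s, ∀ x ∈ F₀, (N s).O₁.valuation x < 1 →
      (N s).O₁.valuation x ≤ (N s).O₁.valuation π ^ p)
    (κ : ι → F) (hκF₀ : ∀ s, κ s ∈ F₀)
    (hκ : ∀ s, d₂' s * d₁ s ^ (l + 1) = κ s * (d₁' s * d₂ s ^ (l + 1)))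
    (a : ℤ) (hn : ∀ s, (p : ℤ) ∣ n' s - a * n s) (he : ∀ s, ¬ (p : ℤ) ∣ e' s)
    (ha : ¬ (p : ℤ) ∣ a - (l : ℤ) - 1) (s : ι) : (p : ℤ) ∣ n s :=
  S40F2MK_node (N s) hp (hC s) ht (hG s) l (hG' s) hcc (κ s) (hκ s)
    (S40F2MK_hκ (N s).O₁ F₀ htp (hC s).hπ1 (hdisc s) (hκF₀ s)) a (hn s) (he s) ha

end Fermat.Agent.S40
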