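import Fermat.Agent.S40.F2Main2
import Fermat.Agent.S40.F2MainN

/-!
# TRACK 13 (S40/S44, row 38), (F2'): the leaf `hn` of `S40F2M2_main` (helper22).
Prefix `S40F2MN2_`.  The interface `S40F2M2_Gen` of `S40/F2Main2.lean` (helper16, depth `p t`)
in place of `S40F2M_Gen`; the proofs are those of `S40/F2MainN.lean`.

* `S40F2MN2_hn_gen` : `hn` at one node from `hC : S40F2M_Coord`, `hG`, `hG' : S40F2M2_Gen`,
  `u' = κ · u ^ a · g ^ p` (P6-J) and a slope of `g`;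
* `S40F2MN2_hn_main` : the family version, verbatim the hypothesis `hn` of `S40F2M2_main`.
-/

set_option autoImplicit false

namespace Fermat.Agent.S40

variable {L F k : Type*} [Field L] [Field F] [Algebra L F] [Field k]

/-- **the leaf `hn`** in the shape of `S40F2M2_node`. -/
theorem S40F2MN2_hn_gen (N : S40NA_Node L F k) (Cn : S40F2N_Coord N) {C : Subfield F}
    {vL : F → ℤ} {π c Y ϖ : F} {p : ℕ} {e' : ℤ}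
    (hC : S40F2M_Coord N C vL π c Cn.X Y ϖ p e') {t : ℕ}
    {u y c₁ c₂ Y₁ Y₂ : F} {n : ℤ} (hG : S40F2M2_Gen N C vL π c Cn.X ϖ p t u y c₁ c₂ Y₁ Y₂ n)
    (l : ℕ) {u' y' : F} {n' : ℤ}
    (hG' : S40F2M2_Gen N C vL π c Cn.X ϖ p t u' y' (c₁ ^ (l + 1)) (c₂ ^ (l + 1)) (Y₁ ^ (l + 1))
      (Y₂ ^ (l + 1)) n')
    (κ : L) (a : ℤ) (g : F) (e : u' = algebraMap L F κ * u ^ a * g ^ p)
    (hg : ∃ (d : L) (m : ℤ), S40F2SN_U1 N (g / (algebraMap L F d * Cn.X ^ m))) :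
    (p : ℤ) ∣ n' - a * n :=
  S40F2MN_hn N Cn.hX Cn.εX Cn.X_unit hC.hA₁ (hC.hCL _ hG.hc₁) (hC.hCL _ hG'.hc₁) hG.hu₁ hG'.hu₁
    κ a p e hg

/-- **the leaf `hn` for a family of nodes**: verbatim the hypothesis `hn` of `S40F2M2_main`. -/
theorem S40F2MN2_hn_main {ι : Type*} (N : ι → S40NA_Node L F k) (Cn : ∀ s, S40F2N_Coord (N s))
    {C : Subfield F} {vL : F → ℤ} {π c : F} {Y ϖ : ι → F} {p : ℕ} {e' : ι → ℤ}
    (hC : ∀ s, S40F2M_Coord (N s) C vL π c (Cn s).X (Y s) (ϖ s) p (e' s)) {t : ℕ}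
    {u y c₁ c₂ Y₁ Y₂ : F} {n : ι → ℤ}
    (hG : ∀ s, S40F2M2_Gen (N s) C vL π c (Cn s).X (ϖ s) p t u y c₁ c₂ Y₁ Y₂ (n s))
    (l : ℕ) {u' y' : F} {n' : ι → ℤ}
    (hG' : ∀ s, S40F2M2_Gen (N s) C vL π c (Cn s).X (ϖ s) p t u' y' (c₁ ^ (l + 1))
      (c₂ ^ (l + 1)) (Y₁ ^ (l + 1)) (Y₂ ^ (l + 1)) (n' s))
    (κ : L) (a : ℤ) (g : F) (e : u' = algebraMap L F κ * u ^ a * g ^ p)
    (hg : ∀ s, ∃ (d : L) (m : ℤ), S40F2SN_U1 (N s) (g / (algebraMap L F d * (Cn s).X ^ m))) :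
    ∀ s, (p : ℤ) ∣ n' s - a * n s := fun s =>
  S40F2MN2_hn_gen (N s) (Cn s) (hC s) (hG s) l (hG' s) κ a g e (hg s)

/-- the whole Hecke step at the nodes: `S40F2M2_main` with `hn` discharged. -/
theorem S40F2MN2_main {ι : Type*} (N : ι → S40NA_Node L F k) (Cn : ∀ s, S40F2N_Coord (N s))
    {C : Subfield F} {vL : F → ℤ} {π c : F} {Y ϖ : ι → F} {p : ℕ} (hp : p.Prime) {e' : ι → ℤ}
    (hC : ∀ s, S40F2M_Coord (N s) C vL π c (Cn s).X (Y s) (ϖ s) p (e' s)) {t : ℕ} (ht : 1 ≤ t)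
    (hpv₁ : ∀ s, (N s).O₁.valuation (p : F) * (N s).O₁.valuation π ^ t
      ≤ (N s).O₁.valuation π ^ (p * t + 1))
    (hpv₂ : ∀ s, (N s).O₂.valuation (p : F) * (N s).O₂.valuation π ^ t
      ≤ (N s).O₂.valuation π ^ (p * t + 1))
    {u y c₁ c₂ Y₁ Y₂ : F} {n : ι → ℤ}
    (hG : ∀ s, S40F2M2_Gen (N s) C vL π c (Cn s).X (ϖ s) p t u y c₁ c₂ Y₁ Y₂ (n s))
    (l : ℕ) {u' y' : F} {n' : ι → ℤ}
    (hG' : ∀ s, S40F2M2_Gen (N s) C vL π c (Cn s).X (ϖ s) p t u' y' (c₁ ^ (l + 1))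
      (c₂ ^ (l + 1)) (Y₁ ^ (l + 1)) (Y₂ ^ (l + 1)) (n' s))
    (κ : L) (a : ℤ) (g : F) (e : u' = algebraMap L F κ * u ^ a * g ^ p)
    (hg : ∀ s, ∃ (d : L) (m : ℤ), S40F2SN_U1 (N s) (g / (algebraMap L F d * (Cn s).X ^ m)))
    (he : ∀ s, ¬ (p : ℤ) ∣ e' s) (ha : ¬ (p : ℤ) ∣ a - (l : ℤ) - 1) (s : ι) :
    (p : ℤ) ∣ n s :=
  S40F2M2_main N hp hC ht hpv₁ hpv₂ hG l hG' a
    (S40F2MN2_hn_main N Cn hC hG l hG' κ a g e hg) he ha s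

end Fermat.Agent.S40
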