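import Fermat.Agent.S40.F2N9
import Fermat.Agent.S40.NodeChartI
import Fermat.Agent.S40.F2SlopeCoord

/-!
# S40 (TRACK 13), (F2') node chain, the coordinate of leaf `hHDIV` (helper14).
Prefix `S40F2N10_`.

* `S40F2N10_coord` : at the node `i` of `S40NI_nodeGen` (ARBITRARY node data, as in
  `NodeChartI`), ONE statement with everything the node chain needs about the coordinate:
  `∃ Cn e hXU, 1 ≤ e ∧ e < 24 ∧ Cn.ϖ = p ^ e ∧ ord_{P i} (red₁ Cn.X) = 1 ∧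
     S40F2YI_Hyp (N i) Cn.X ∧ (∀ σ ∈ I_A, σ Cn.X = Cn.X)`
  (= the first four components of `hHDIV` of `S40F2AT_node` together with the inputs `HX`, `hIX`
  of `S40F2YG_hdiv`).
-/

set_option autoImplicit false
set_option synthInstance.maxHeartbeats 400000
set_option maxHeartbeats 1000000
set_option linter.unusedSectionVars false
set_option linter.unusedVariables false
set_option linter.style.haveILetI false

open HahnSeries IntermediateField AlgebraicCurve ModularCurve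

noncomputable section

namespace Fermat.Agent.S40

open Fermat.Agent.Lib Fermat.Agent.S17 Fermat.Agent.S18 Fermat.Agent.S24 Fermat.Agent.S34
  Fermat.Agent.S36 Fermat.Agent.GalRep Fermat.Agent.S33

local notation "Ω" => AlgebraicClosure ℚ

section inst

variable (M p : ℕ) [NeZero (M * p)] [NeZero p] (hp : p.Prime) (hpM : ¬ p ∣ M)
  (A : ValuationSubring Ω) (hA : A.LiesOverPrime p)
  (hgen : PrincipalGeneratedByIntegral A (IsLocalRing.residue A) (M * p))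

variable {s : ℕ}
  (e₁ : Fin s → ↥(S34M_chart M p A 1 Nat.one_pos).Rb₁ →ₐ[IsLocalRing.ResidueField A]
    IsLocalRing.ResidueField A)
  (e₂ : Fin s → ↥(S34M_chart M p A 1 Nat.one_pos).Rb₂ →ₐ[IsLocalRing.ResidueField A]
    IsLocalRing.ResidueField A)
  (P P' : Fin s → Place (IsLocalRing.ResidueField A)
    ↥(modularFunctionFieldFullC (IsLocalRing.ResidueField A) (M * p)))
  (hE : Function.Surjective (S34B_E e₁ e₂))
  (hW1 : S34K_W (S34M_same M p hp hpM A hgen) (S34M_chart M p A 1 Nat.one_pos) 1 =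
    S34B_W e₁ e₂)
  (hx : S34P_Hyp (S34M_T1 M p A hgen) (S34M_T2 M p hp hpM A hgen) (S34M_same M p hp hpM A hgen)
    (S34PX_j M p hp hpM A hgen))
  (hred : S34P_red (S34M_T1 M p A hgen) (S34M_T2 M p hp hpM A hgen)
    (S34PX_j M p hp hpM A hgen) = (S34M_xb M p A, S34M_xb M p A ^ p))
  (hP : ∀ i, 0 ≤ (P i).ord (S34M_xb M p A))
  (hP' : ∀ i, 0 ≤ (P' i).ord (S34M_xb M p A ^ p))
  (he₁ : ∀ i (a : ↥(S34M_chart M p A 1 Nat.one_pos).Rb₁), e₁ i a = FD_c0 (P i) (a : _))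
  (he₂ : ∀ i (b : ↥(S34M_chart M p A 1 Nat.one_pos).Rb₂), e₂ i b = FD_c0 (P' i) (b : _))

include hA hE hP hP' he₁ he₂ in
/-- **the coordinate of the node chain at the node `i`**. -/
theorem S40F2N10_coord (i : Fin s) :
    ∃ (Cn : S40F2N_Coord
        (S40NI_nodeGen (S18_hRR (M * p)).deg_one 1 Nat.one_pos hx hred e₁ e₂ hW1 i))
      (e : ℕ) (hXU : S40F2S_IsU (S34M_T1 M p A hgen).O Cn.X),
      1 ≤ e ∧ e < 24 ∧ Cn.ϖ = (p : Ω) ^ e ∧
      (P i).ord ((S34M_T1 M p A hgen).red ⟨Cn.X, hXU.mem⟩) = 1 ∧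
      S40F2YI_Hyp (S40NI_nodeGen (S18_hRR (M * p)).deg_one 1 Nat.one_pos hx hred e₁ e₂ hW1 i)
        Cn.X ∧
      (∀ σ ∈ A.inertiaSubgroupIn ℚ, GR_gal (M * p) σ Cn.X = Cn.X) ∧
      (∀ σ ∈ A.inertiaSubgroupIn ℚ, GR_gal (M * p) σ Cn.Y = Cn.Y) ∧
      (∀ σ ∈ A.inertiaSubgroupIn ℚ, GR_gal (M * p) σ Cn.H = Cn.H) := by
  obtain ⟨e, t, y, w, C, Ch, he1, he24, hϖ, hX, hY, hH, hR, hπ, hσX, hσY, hσH, hX₂, hY₁, hX₁,
      hY₂, hordX, hordY, hV2⟩ :=
    S40NX4_exists M p hp hpM A hA hgen e₁ e₂ P P' hE hW1 hx hred hP hP' he₁ he₂ i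
  have HX : S40F2YI_Hyp
      (S40NI_nodeGen (S18_hRR (M * p)).deg_one 1 Nat.one_pos hx hred e₁ e₂ hW1 i) C.X :=
    S40F2N9_hyp M p hp hpM A hA hgen (A.inertiaSubgroupIn ℚ) le_rfl e₁ e₂ hW1 hx hred (p : Ω)
      (S40F2PV_unif hp A hA) i C Ch hR
  have hXU : S40F2S_IsU (S34M_T1 M p A hgen).O C.X := S40F2SC_hX C
  exact ⟨C, e, hXU, he1, he24, hϖ, hordX, HX, hσX, hσY, hσH⟩

end inst

end Fermat.Agent.S40
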