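import Fermat.Agent.S40.F2N

/-!
# S40 (TRACK 13), GEO-6 package P1-abs, part 2: simplicity of the zero of `X − w` (helper14).
Prefix `S40F2N2_`.

Setting of `S40/F2N.lean` (node `N`, coordinate `C : S40F2N_Coord N`, chart `Ch : S40F2N_Chart N C`).

* `S40F2N2_simple` : if the chart `Ch.R` contains a finite set `S` and lies in the ring generated
  by `S` and the constants of `A`, then at every place `Q` specialising to the node
  `(f − f(Q)) / (X − X(Q))` is regular at `Q`, for all `f ∈ Ch.R`.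
  (Contraction with the "derivation" `f ↦ ((f − f(Q)) / d₀)(Q)`; no rank one hypothesis.)
* `S40F2N2_uniformiser` : if moreover the local ring of `L · Ch.R` at `Q` is `Q.P`
  (`S40F2N2_Loc`), then `X − X(Q)` is a uniformiser at `Q`: it divides every nonunit of `Q.P`.
* `S40F2N2_place_unique` : under `S40F2N2_Loc` at `Q` and `Q'` and the hypotheses of
  `S40F2N_ev_unique`, two places specialising to the node with `X(Q) = X(Q')` have the same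
  valuation ring.
-/

set_option autoImplicit false

namespace Fermat.Agent.S40

section

variable {L F k : Type*} [Field L] [Field F] [Algebra L F] [Field k]

/-- in a finite nonempty family of elements of a valued field there is one of largest
valuation. -/
theorem S40F2N2_exists_max {K ι : Type*} [Field K] (O : ValuationSubring K) (S : Finset ι)
    (g : ι → K) (hS : S.Nonempty) :
    ∃ s₀ ∈ S, ∀ s ∈ S, (g s₀ = 0 → g s = 0) ∧ g s * (g s₀)⁻¹ ∈ O := by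
  obtain ⟨s₀, hs₀, hmax⟩ := Finset.exists_max_image S (fun s => O.valuation (g s)) hS
  refine ⟨s₀, hs₀, fun s hs => ⟨?_, ?_⟩⟩
  · intro h0
    have h := hmax s hs
    simp only [h0, map_zero] at h
    exact (Valuation.zero_iff _).1 (le_antisymm h zero_le)
  · rw [← ValuationSubring.valuation_le_one_iff, map_mul, map_inv₀]
    exact mul_inv_le_one_of_le₀ (hmax s hs) zero_le

/-! ### `f − f(Q)` and the derivation -/

/-- `f − f(Q)`. -/
noncomputable def S40F2N2_dl (Q : S40NA_Pt L F) (f : F) : F :=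
  f - algebraMap L F (S40F2N_at Q f)

theorem S40F2N2_dl_const (Q : S40NA_Pt L F) (c : L) : S40F2N2_dl Q (algebraMap L F c) = 0 := by
  unfold S40F2N2_dl
  rw [S40F2N_at_alg, sub_self]

theorem S40F2N2_dl_zero (Q : S40NA_Pt L F) : S40F2N2_dl Q (0 : F) = 0 := by
  have := S40F2N2_dl_const Q (0 : L)
  rwa [map_zero] at this

theorem S40F2N2_dl_add (Q : S40NA_Pt L F) {f g : F} (hf : f ∈ Q.P) (hg : g ∈ Q.P) :
    S40F2N2_dl Q (f + g) = S40F2N2_dl Q f + S40F2N2_dl Q g := by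
  unfold S40F2N2_dl
  rw [S40F2N_at_add Q hf hg, map_add]
  ring

theorem S40F2N2_at_neg (Q : S40NA_Pt L F) {f : F} (hf : f ∈ Q.P) :
    S40F2N_at Q (-f) = -S40F2N_at Q f := by
  have := S40F2N_at_sub Q Q.P.zero_mem hf
  rwa [zero_sub, S40F2N_at_zero, zero_sub] at this

theorem S40F2N2_dl_neg (Q : S40NA_Pt L F) {f : F} (hf : f ∈ Q.P) :
    S40F2N2_dl Q (-f) = -S40F2N2_dl Q f := by
  unfold S40F2N2_dl
  rw [S40F2N2_at_neg Q hf, map_neg]
  ring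

theorem S40F2N2_dl_mul (Q : S40NA_Pt L F) {f g : F} (hf : f ∈ Q.P) (hg : g ∈ Q.P) :
    S40F2N2_dl Q (f * g) =
      f * S40F2N2_dl Q g + S40F2N2_dl Q f * algebraMap L F (S40F2N_at Q g) := by
  unfold S40F2N2_dl
  rw [S40F2N_at_mul Q hf hg, map_mul]
  ring

theorem S40F2N2_dl_mem (Q : S40NA_Pt L F) {f : F} (hf : f ∈ Q.P) : S40F2N2_dl Q f ∈ Q.P :=
  sub_mem hf (Q.alg_mem _)

theorem S40F2N2_dl_nonunit (Q : S40NA_Pt L F) {f : F} (hf : f ∈ Q.P) :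
    S40F2N2_dl Q f ∈ Q.P.nonunits := by
  rw [← S40F2N_at_eq_zero_iff Q (S40F2N2_dl_mem Q hf)]
  unfold S40F2N2_dl
  rw [S40F2N_at_sub Q hf (Q.alg_mem _), S40F2N_at_alg, sub_self]

/-- the "derivative" `((f − f(Q)) / d)(Q)`. -/
noncomputable def S40F2N2_D (Q : S40NA_Pt L F) (d : F) (f : F) : L :=
  S40F2N_at Q (S40F2N2_dl Q f * d⁻¹)

/-- `f` is regular at `Q` and `f − f(Q)` is divisible by `d` at `Q`. -/
def S40F2N2_Ok (Q : S40NA_Pt L F) (d : F) (f : F) : Prop :=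
  f ∈ Q.P ∧ S40F2N2_dl Q f * d⁻¹ ∈ Q.P

theorem S40F2N2_Ok_const (Q : S40NA_Pt L F) (d : F) (c : L) :
    S40F2N2_Ok Q d (algebraMap L F c) :=
  ⟨Q.alg_mem c, by rw [S40F2N2_dl_const, zero_mul]; exact Q.P.zero_mem⟩

theorem S40F2N2_D_const (Q : S40NA_Pt L F) (d : F) (c : L) :
    S40F2N2_D Q d (algebraMap L F c) = 0 := by
  unfold S40F2N2_D
  rw [S40F2N2_dl_const, zero_mul, S40F2N_at_zero]

theorem S40F2N2_Ok_add (Q : S40NA_Pt L F) (d : F) {f g : F} (hf : S40F2N2_Ok Q d f)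
    (hg : S40F2N2_Ok Q d g) : S40F2N2_Ok Q d (f + g) :=
  ⟨add_mem hf.1 hg.1, by rw [S40F2N2_dl_add Q hf.1 hg.1, add_mul]; exact add_mem hf.2 hg.2⟩

theorem S40F2N2_D_add (Q : S40NA_Pt L F) (d : F) {f g : F} (hf : S40F2N2_Ok Q d f)
    (hg : S40F2N2_Ok Q d g) :
    S40F2N2_D Q d (f + g) = S40F2N2_D Q d f + S40F2N2_D Q d g := by
  unfold S40F2N2_D
  rw [S40F2N2_dl_add Q hf.1 hg.1, add_mul, S40F2N_at_add Q hf.2 hg.2]

theorem S40F2N2_Ok_neg (Q : S40NA_Pt L F) (d : F) {f : F} (hf : S40F2N2_Ok Q d f) :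
    S40F2N2_Ok Q d (-f) :=
  ⟨neg_mem hf.1, by rw [S40F2N2_dl_neg Q hf.1, neg_mul]; exact neg_mem hf.2⟩

theorem S40F2N2_D_neg (Q : S40NA_Pt L F) (d : F) {f : F} (hf : S40F2N2_Ok Q d f) :
    S40F2N2_D Q d (-f) = -S40F2N2_D Q d f := by
  unfold S40F2N2_D
  rw [S40F2N2_dl_neg Q hf.1, neg_mul, S40F2N2_at_neg Q hf.2]

theorem S40F2N2_mul_aux (Q : S40NA_Pt L F) (d : F) (f g : F) :
    (f * S40F2N2_dl Q g + S40F2N2_dl Q f * algebraMap L F (S40F2N_at Q g)) * d⁻¹ =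
      f * (S40F2N2_dl Q g * d⁻¹) + S40F2N2_dl Q f * d⁻¹ * algebraMap L F (S40F2N_at Q g) := by
  ring

theorem S40F2N2_Ok_mul (Q : S40NA_Pt L F) (d : F) {f g : F} (hf : S40F2N2_Ok Q d f)
    (hg : S40F2N2_Ok Q d g) : S40F2N2_Ok Q d (f * g) :=
  ⟨mul_mem hf.1 hg.1, by
    rw [S40F2N2_dl_mul Q hf.1 hg.1, S40F2N2_mul_aux]
    exact add_mem (mul_mem hf.1 hg.2) (mul_mem hf.2 (Q.alg_mem _))⟩

theorem S40F2N2_D_mul (Q : S40NA_Pt L F) (d : F) {f g : F} (hf : S40F2N2_Ok Q d f)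
    (hg : S40F2N2_Ok Q d g) :
    S40F2N2_D Q d (f * g) =
      S40F2N_at Q f * S40F2N2_D Q d g + S40F2N2_D Q d f * S40F2N_at Q g := by
  unfold S40F2N2_D
  rw [S40F2N2_dl_mul Q hf.1 hg.1, S40F2N2_mul_aux,
    S40F2N_at_add Q (mul_mem hf.1 hg.2) (mul_mem hf.2 (Q.alg_mem _)),
    S40F2N_at_mul Q hf.1 hg.2, S40F2N_at_mul Q hf.2 (Q.alg_mem _), S40F2N_at_alg]

/-- the induction over the ring generated by `G`. -/
theorem S40F2N2_closure (N : S40NA_Node L F k) (Q : S40NA_Pt L F) (hQ : Q ∈ N.U)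
    (hc : S40NA_Centred N Q hQ) (G : Set F) (hG : ∀ g ∈ G, g ∈ N.Lam) (d : F) (c : L)
    (hgen : ∀ g ∈ G, S40F2N2_Ok Q d g ∧ S40F2N2_D Q d g * c ∈ N.A) :
    ∀ f ∈ Subring.closure G, S40F2N2_Ok Q d f ∧ S40F2N2_D Q d f * c ∈ N.A := by
  have hΛ : Subring.closure G ≤ N.Lam := Subring.closure_le.2 hG
  have hat : ∀ f ∈ Subring.closure G, S40F2N_at Q f ∈ N.A := fun f hf =>
    (S40F2N_centred_at N Q hQ hc (hΛ hf)).fst
  intro f hf
  induction hf using Subring.closure_induction with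
  | mem x hx => exact hgen x hx
  | zero =>
    rw [← map_zero (algebraMap L F)]
    exact ⟨S40F2N2_Ok_const Q d 0, by rw [S40F2N2_D_const, zero_mul]; exact N.A.zero_mem⟩
  | one =>
    rw [← map_one (algebraMap L F)]
    exact ⟨S40F2N2_Ok_const Q d 1, by rw [S40F2N2_D_const, zero_mul]; exact N.A.zero_mem⟩
  | add x y hx hy ihx ihy =>
    refine ⟨S40F2N2_Ok_add Q d ihx.1 ihy.1, ?_⟩
    rw [S40F2N2_D_add Q d ihx.1 ihy.1, add_mul]
    exact add_mem ihx.2 ihy.2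
  | neg x hx ih =>
    refine ⟨S40F2N2_Ok_neg Q d ih.1, ?_⟩
    rw [S40F2N2_D_neg Q d ih.1, neg_mul]
    exact neg_mem ih.2
  | mul x y hx hy ihx ihy =>
    refine ⟨S40F2N2_Ok_mul Q d ihx.1 ihy.1, ?_⟩
    rw [S40F2N2_D_mul Q d ihx.1 ihy.1]
    have e : (S40F2N_at Q x * S40F2N2_D Q d y + S40F2N2_D Q d x * S40F2N_at Q y) * c =
        S40F2N_at Q x * (S40F2N2_D Q d y * c) + S40F2N2_D Q d x * c * S40F2N_at Q y := by ring
    rw [e]
    exact add_mem (mul_mem (hat x hx) ihy.2) (mul_mem ihx.2 (hat y hy))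

/-- `(1/X)(Q) = 1 / X(Q)`. -/
theorem S40F2N2_at_inv (Q : S40NA_Pt L F) {f : F} (hf : f ∈ Q.P) (hfi : f⁻¹ ∈ Q.P)
    (hf0 : f ≠ 0) : S40F2N_at Q f⁻¹ = (S40F2N_at Q f)⁻¹ := by
  have h1 := S40F2N_at_mul Q hf hfi
  rw [mul_inv_cancel₀ hf0, S40F2N_at_one] at h1
  exact eq_inv_of_mul_eq_one_right h1.symm

/-- **(iii-c) simplicity**: if the chart is finitely generated over the constants, then at every
place `Q` specialising to the node, `X − X(Q)` divides `f − f(Q)` in the local ring at `Q`, for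
every function `f` of the chart. -/
theorem S40F2N2_simple {N : S40NA_Node L F k} (C : S40F2N_Coord N) (Ch : S40F2N_Chart N C)
    (Q : S40NA_Pt L F) (hQ : Q ∈ N.U) (hc : S40NA_Centred N Q hQ)
    (S : Finset F) (hSR : ∀ s ∈ S, s ∈ Ch.R)
    (hfg : ∀ f ∈ Ch.R, f ∈ Subring.closure (algebraMap L F '' (N.A : Set L) ∪ (S : Set F))) :
    ∀ f ∈ Ch.R, S40F2N2_dl Q f * (S40F2N2_dl Q C.X)⁻¹ ∈ Q.P := by
  classical
  set G : Set F := algebraMap L F '' (N.A : Set L) ∪ (S : Set F) with hGdef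
  have hG : ∀ g ∈ G, g ∈ N.Lam := by
    rintro g (⟨a, ha, rfl⟩ | hs)
    · exact N.const_mem ha
    · exact Ch.le g (hSR g hs)
  set xw : F := S40F2N2_dl Q C.X with hxw
  by_contra hcon
  push Not at hcon
  obtain ⟨f₀, hf₀R, hf₀⟩ := hcon
  by_cases hne : ∃ s ∈ S, S40F2N2_dl Q s ≠ 0
  swap
  · -- all generators are constant at first order: contradiction
    push Not at hne
    have hcl := S40F2N2_closure N Q hQ hc G hG xw 0 (by
      rintro g (⟨a, ha, rfl⟩ | hs)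
      · exact ⟨S40F2N2_Ok_const Q xw a, by rw [mul_zero]; exact N.A.zero_mem⟩
      · refine ⟨⟨N.mem_pt (Ch.le g (hSR g hs)) hQ, ?_⟩, by rw [mul_zero]; exact N.A.zero_mem⟩
        rw [hne g hs, zero_mul]
        exact Q.P.zero_mem)
    exact hf₀ (hcl f₀ (hfg f₀ hf₀R)).1.2
  obtain ⟨s', hs'S, hs'0⟩ := hne
  have hSne : S.Nonempty := ⟨s', hs'S⟩
  -- the generator of least order
  obtain ⟨s₀, hs₀S, hs₀⟩ := S40F2N2_exists_max Q.P S (fun s => S40F2N2_dl Q s) hSne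
  set d₀ : F := S40F2N2_dl Q s₀ with hd₀
  have hd₀0 : d₀ ≠ 0 := fun h => hs'0 ((hs₀ s' hs'S).1 h)
  have hOkS : ∀ s ∈ S, S40F2N2_Ok Q d₀ s := fun s hs =>
    ⟨N.mem_pt (Ch.le s (hSR s hs)) hQ, (hs₀ s hs).2⟩
  -- the generator of largest derivative
  obtain ⟨s₁, hs₁S, hs₁⟩ := S40F2N2_exists_max N.A S (fun s => S40F2N2_D Q d₀ s) hSne
  have hDs₀ : S40F2N2_D Q d₀ s₀ = 1 := by
    unfold S40F2N2_D
    rw [← hd₀, mul_inv_cancel₀ hd₀0, S40F2N_at_one]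
  have hDs₁ : S40F2N2_D Q d₀ s₁ ≠ 0 := by
    intro h
    have := (hs₁ s₀ hs₀S).1 h
    rw [hDs₀] at this
    exact one_ne_zero this
  set c : L := (S40F2N2_D Q d₀ s₁)⁻¹ with hcdef
  have hcl := S40F2N2_closure N Q hQ hc G hG d₀ c (by
    rintro g (⟨a, ha, rfl⟩ | hs)
    · exact ⟨S40F2N2_Ok_const Q d₀ a, by rw [S40F2N2_D_const, zero_mul]; exact N.A.zero_mem⟩
    · exact ⟨hOkS g hs, (hs₁ g hs).2⟩)
  have hR : ∀ f ∈ Ch.R, S40F2N2_Ok Q d₀ f ∧ S40F2N2_D Q d₀ f * c ∈ N.A := fun f hf =>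
    hcl f (hfg f hf)
  -- `X − X(Q)` vanishes to higher order than `d₀`
  have hXP : C.X ∈ Q.P := N.mem_pt C.hX hQ
  have hYP : C.Y ∈ Q.P := N.mem_pt C.hY hQ
  have hxd : xw * d₀⁻¹ ∈ Q.P.nonunits := by
    have hnot : d₀ * xw⁻¹ ∉ Q.P := by
      intro h
      apply hf₀
      have e : S40F2N2_dl Q f₀ * xw⁻¹ = S40F2N2_dl Q f₀ * d₀⁻¹ * (d₀ * xw⁻¹) := by
        field_simp
      rw [e]
      exact mul_mem (hR f₀ hf₀R).1.2 h
    have := (ValuationSubring.inv_mem_nonunits_iff (A := Q.P)).2 (Or.inr hnot)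
    rwa [mul_inv, inv_inv, mul_comm] at this
  have hOkX : S40F2N2_Ok Q d₀ C.X := ⟨hXP, ValuationSubring.nonunits_subset hxd⟩
  have hDX : S40F2N2_D Q d₀ C.X = 0 := S40F2N_at_nonunit Q hxd
  -- the values at `Q`
  obtain ⟨hw0, hwn, hϖw⟩ := S40F2N_range C Q hQ hc
  have hYn : S40F2N_at Q C.Y ∈ N.A.nonunits := by
    have := S40F2N_res_evA N Q hQ hc ⟨C.Y, C.hY⟩
    rw [C.εY] at this
    exact S40F2N_nonunit_of_res N _ this
  have hXi : C.X⁻¹ ∈ Q.P := S40F2N_inv_mem_of_not_nonunit Q.P (S40F2N_no_zero C Q hQ hc).1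
  have hX0 := C.X_ne_zero
  -- `Y`
  have hOkH := (hR C.H Ch.H_mem).1
  have hDH := (hR C.H Ch.H_mem).2
  have hrelδ : C.X * S40F2N2_dl Q C.Y =
      algebraMap L F C.ϖ * S40F2N2_dl Q C.H - xw * algebraMap L F (S40F2N_at Q C.Y) := by
    have h1 := S40F2N2_dl_mul Q hXP hYP
    have h2 := S40F2N2_dl_mul Q (Q.alg_mem C.ϖ) hOkH.1
    rw [S40F2N2_dl_const, zero_mul, add_zero, ← C.rel, h1] at h2
    rw [hxw, ← h2]
    ring
  have hYeq : S40F2N2_dl Q C.Y * d₀⁻¹ =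
      C.X⁻¹ * (algebraMap L F C.ϖ * (S40F2N2_dl Q C.H * d₀⁻¹)
        - xw * d₀⁻¹ * algebraMap L F (S40F2N_at Q C.Y)) := by
    have e : S40F2N2_dl Q C.Y = C.X⁻¹ * (C.X * S40F2N2_dl Q C.Y) := by
      field_simp
    rw [e, hrelδ]
    ring
  have hin : algebraMap L F C.ϖ * (S40F2N2_dl Q C.H * d₀⁻¹)
        - xw * d₀⁻¹ * algebraMap L F (S40F2N_at Q C.Y) ∈ Q.P :=
    sub_mem (mul_mem (Q.alg_mem _) hOkH.2) (mul_mem hOkX.2 (Q.alg_mem _))
  have hOkY : S40F2N2_Ok Q d₀ C.Y := ⟨hYP, by rw [hYeq]; exact mul_mem hXi hin⟩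
  have hDY : S40F2N2_D Q d₀ C.Y = C.ϖ * (S40F2N_at Q C.X)⁻¹ * S40F2N2_D Q d₀ C.H := by
    have hDX' : S40F2N_at Q (xw * d₀⁻¹) = 0 := hDX
    unfold S40F2N2_D
    rw [hYeq, S40F2N_at_mul Q hXi hin, S40F2N2_at_inv Q hXP hXi hX0,
      S40F2N_at_sub Q (mul_mem (Q.alg_mem _) hOkH.2) (mul_mem hOkX.2 (Q.alg_mem _)),
      S40F2N_at_mul Q (Q.alg_mem _) hOkH.2, S40F2N_at_alg,
      S40F2N_at_mul Q hOkX.2 (Q.alg_mem _), hDX', zero_mul, sub_zero]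
    ring
  have hDYc : S40F2N2_D Q d₀ C.Y * c ∈ N.A.nonunits := by
    have e : S40F2N2_D Q d₀ C.Y * c =
        C.ϖ * (S40F2N_at Q C.X)⁻¹ * (S40F2N2_D Q d₀ C.H * c) := by
      rw [hDY]; ring
    rw [e]
    exact S40NA_nonunits_mul N.A hϖw hDH
  -- contraction: `D f · c` is a nonunit for every `f` of the chart
  have hcontr : ∀ f ∈ Ch.R, S40F2N2_D Q d₀ f * c ∈ N.A.nonunits := by
    intro f hf
    obtain ⟨c₀, g₁, g₂, g₃, -, h₁, h₂, h₃, rfl⟩ := Ch.decomp f hf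
    have o₁ := (hR g₁ h₁).1
    have o₂ := (hR g₂ h₂).1
    have o₃ := (hR g₃ h₃).1
    have a₁ : S40F2N_at Q g₁ ∈ N.A := (S40F2N_centred_at N Q hQ hc (Ch.le g₁ h₁)).fst
    have a₂ : S40F2N_at Q g₂ ∈ N.A := (S40F2N_centred_at N Q hQ hc (Ch.le g₂ h₂)).fst
    have oc := S40F2N2_Ok_const Q d₀ c₀
    have oπ := S40F2N2_Ok_const Q d₀ Ch.π
    have oX := S40F2N2_Ok_mul Q d₀ hOkX o₁
    have oY := S40F2N2_Ok_mul Q d₀ hOkY o₂
    have oP := S40F2N2_Ok_mul Q d₀ oπ o₃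
    rw [S40F2N2_D_add Q d₀ (S40F2N2_Ok_add Q d₀ (S40F2N2_Ok_add Q d₀ oc oX) oY) oP,
      S40F2N2_D_add Q d₀ (S40F2N2_Ok_add Q d₀ oc oX) oY,
      S40F2N2_D_add Q d₀ oc oX, S40F2N2_D_const,
      S40F2N2_D_mul Q d₀ hOkX o₁, S40F2N2_D_mul Q d₀ hOkY o₂, S40F2N2_D_mul Q d₀ oπ o₃,
      S40F2N2_D_const, hDX, S40F2N_at_alg]
    have e : (0 + (S40F2N_at Q C.X * S40F2N2_D Q d₀ g₁ + 0 * S40F2N_at Q g₁) +
        (S40F2N_at Q C.Y * S40F2N2_D Q d₀ g₂ + S40F2N2_D Q d₀ C.Y * S40F2N_at Q g₂) +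
        (Ch.π * S40F2N2_D Q d₀ g₃ + 0 * S40F2N_at Q g₃)) * c =
        S40F2N_at Q C.X * (S40F2N2_D Q d₀ g₁ * c) +
        (S40F2N_at Q C.Y * (S40F2N2_D Q d₀ g₂ * c) + S40F2N2_D Q d₀ C.Y * c * S40F2N_at Q g₂) +
        Ch.π * (S40F2N2_D Q d₀ g₃ * c) := by ring
    rw [e]
    exact N.A.nonunits.add_mem (N.A.nonunits.add_mem
      (S40NA_nonunits_mul N.A hwn (hR g₁ h₁).2)
      (N.A.nonunits.add_mem (S40NA_nonunits_mul N.A hYn (hR g₂ h₂).2)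
        (S40NA_nonunits_mul N.A hDYc a₂)))
      (S40NA_nonunits_mul N.A Ch.hπ (hR g₃ h₃).2)
  have h1 := hcontr s₁ (hSR s₁ hs₁S)
  rw [hcdef, mul_inv_cancel₀ hDs₁] at h1
  exact S40F2N_one_not_nonunit N.A h1

/-! ### the local ring of the chart at a place -/

/-- the local ring of `L · R` at `Q` is the valuation ring of `Q`. -/
def S40F2N2_Loc {N : S40NA_Node L F k} {C : S40F2N_Coord N} (Ch : S40F2N_Chart N C)
    (Q : S40NA_Pt L F) : Prop :=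
  ∀ f ∈ Q.P, ∃ a b : F, a ∈ Submodule.span L Ch.R ∧ b ∈ Submodule.span L Ch.R ∧
    b ∉ Q.P.nonunits ∧ f * b = a

theorem S40F2N2_span_mem {N : S40NA_Node L F k} {C : S40F2N_Coord N} (Ch : S40F2N_Chart N C)
    (Q : S40NA_Pt L F) (hQ : Q ∈ N.U) : ∀ a ∈ Submodule.span L Ch.R, a ∈ Q.P := by
  intro a ha
  induction ha using Submodule.span_induction with
  | mem x hx => exact N.mem_pt (Ch.le x hx) hQ
  | zero => exact Q.P.zero_mem
  | add x y _ _ ihx ihy => exact add_mem ihx ihy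
  | smul c x _ ih =>
    rw [Algebra.smul_def]
    exact mul_mem (Q.alg_mem c) ih

/-- `X − X(Q)` divides `a − a(Q)` for `a` in the `L`-span of the chart. -/
theorem S40F2N2_simple_span {N : S40NA_Node L F k} (C : S40F2N_Coord N) (Ch : S40F2N_Chart N C)
    (Q : S40NA_Pt L F) (hQ : Q ∈ N.U) (hc : S40NA_Centred N Q hQ)
    (S : Finset F) (hSR : ∀ s ∈ S, s ∈ Ch.R)
    (hfg : ∀ f ∈ Ch.R, f ∈ Subring.closure (algebraMap L F '' (N.A : Set L) ∪ (S : Set F))) :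
    ∀ a ∈ Submodule.span L Ch.R, S40F2N2_dl Q a * (S40F2N2_dl Q C.X)⁻¹ ∈ Q.P := by
  have hmem := S40F2N2_span_mem Ch Q hQ
  have hs := S40F2N2_simple C Ch Q hQ hc S hSR hfg
  intro a ha
  induction ha using Submodule.span_induction with
  | mem x hx => exact hs x hx
  | zero =>
    rw [S40F2N2_dl_zero, zero_mul]
    exact Q.P.zero_mem
  | add x y hx hy ihx ihy =>
    rw [S40F2N2_dl_add Q (hmem x hx) (hmem y hy), add_mul]
    exact add_mem ihx ihy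
  | smul c x hx ih =>
    rw [Algebra.smul_def, S40F2N2_dl_mul Q (Q.alg_mem c) (hmem x hx), S40F2N2_dl_const,
      zero_mul, add_zero, mul_assoc]
    exact mul_mem (Q.alg_mem c) ih

/-- **`X − X(Q)` is a uniformiser** at a place specialising to the node: it divides every
function vanishing at `Q`. -/
theorem S40F2N2_uniformiser {N : S40NA_Node L F k} (C : S40F2N_Coord N) (Ch : S40F2N_Chart N C)
    (Q : S40NA_Pt L F) (hQ : Q ∈ N.U) (hc : S40NA_Centred N Q hQ)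
    (S : Finset F) (hSR : ∀ s ∈ S, s ∈ Ch.R)
    (hfg : ∀ f ∈ Ch.R, f ∈ Subring.closure (algebraMap L F '' (N.A : Set L) ∪ (S : Set F)))
    (hloc : S40F2N2_Loc Ch Q) :
    ∀ f ∈ Q.P.nonunits, f * (C.X - algebraMap L F (S40F2N_at Q C.X))⁻¹ ∈ Q.P := by
  intro f hf
  obtain ⟨a, b, ha, hb, hbn, hab⟩ := hloc f (ValuationSubring.nonunits_subset hf)
  have hbP := S40F2N2_span_mem Ch Q hQ b hb
  have haP := S40F2N2_span_mem Ch Q hQ a ha
  have han : a ∈ Q.P.nonunits := by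
    rw [← hab]
    exact S40NA_nonunits_mul Q.P hf hbP
  have hda : S40F2N2_dl Q a = a := by
    unfold S40F2N2_dl
    rw [S40F2N_at_nonunit Q han, map_zero, sub_zero]
  have h1 := S40F2N2_simple_span C Ch Q hQ hc S hSR hfg a ha
  rw [hda] at h1
  have hbi : b⁻¹ ∈ Q.P := S40F2N_inv_mem_of_not_nonunit Q.P hbn
  have hb0 : b ≠ 0 := fun h => hbn (h ▸ Q.P.nonunits.zero_mem)
  have e : f * (C.X - algebraMap L F (S40F2N_at Q C.X))⁻¹ =
      a * (S40F2N2_dl Q C.X)⁻¹ * b⁻¹ := by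
    rw [← hab]
    unfold S40F2N2_dl
    field_simp
  rw [e]
  exact mul_mem h1 hbi

/-- the evaluations agree on the `L`-span of the chart. -/
theorem S40F2N2_ev_unique_span {N : S40NA_Node L F k} (C : S40F2N_Coord N)
    (Ch : S40F2N_Chart N C)
    (hA : ∀ g b : L, b ∈ N.A.nonunits → ∃ m : ℕ, g * b ^ m ∈ N.A)
    (Q Q' : S40NA_Pt L F) (hQ : Q ∈ N.U) (hQ' : Q' ∈ N.U)
    (hc : S40NA_Centred N Q hQ) (hc' : S40NA_Centred N Q' hQ')
    (hX : S40F2N_at Q C.X = S40F2N_at Q' C.X) :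
    ∀ a ∈ Submodule.span L Ch.R, S40F2N_at Q a = S40F2N_at Q' a := by
  have hmem := S40F2N2_span_mem Ch Q hQ
  have hmem' := S40F2N2_span_mem Ch Q' hQ'
  have hu := S40F2N_ev_unique C Ch hA Q Q' hQ hQ' hc hc' hX
  intro a ha
  induction ha using Submodule.span_induction with
  | mem x hx => exact hu x hx
  | zero => rw [S40F2N_at_zero, S40F2N_at_zero]
  | add x y hx hy ihx ihy =>
    rw [S40F2N_at_add Q (hmem x hx) (hmem y hy), S40F2N_at_add Q' (hmem' x hx) (hmem' y hy),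
      ihx, ihy]
  | smul c x hx ih =>
    rw [Algebra.smul_def, S40F2N_at_mul Q (Q.alg_mem c) (hmem x hx),
      S40F2N_at_mul Q' (Q'.alg_mem c) (hmem' x hx), S40F2N_at_alg, S40F2N_at_alg, ih]

/-- **(iii-b) uniqueness of the place**: two places specialising to the node at which the
coordinate `X` takes the same value have the same valuation ring. -/
theorem S40F2N2_place_unique {N : S40NA_Node L F k} (C : S40F2N_Coord N)
    (Ch : S40F2N_Chart N C)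
    (hA : ∀ g b : L, b ∈ N.A.nonunits → ∃ m : ℕ, g * b ^ m ∈ N.A)
    (Q Q' : S40NA_Pt L F) (hQ : Q ∈ N.U) (hQ' : Q' ∈ N.U)
    (hc : S40NA_Centred N Q hQ) (hc' : S40NA_Centred N Q' hQ')
    (hX : S40F2N_at Q C.X = S40F2N_at Q' C.X)
    (hloc : S40F2N2_Loc Ch Q) (hloc' : S40F2N2_Loc Ch Q') : Q.P = Q'.P := by
  have key : ∀ (Q₁ Q₂ : S40NA_Pt L F) (hQ₁ : Q₁ ∈ N.U) (hQ₂ : Q₂ ∈ N.U),
      S40NA_Centred N Q₁ hQ₁ → S40NA_Centred N Q₂ hQ₂ →
      S40F2N_at Q₁ C.X = S40F2N_at Q₂ C.X → S40F2N2_Loc Ch Q₁ → Q₁.P ≤ Q₂.P := by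
    intro Q₁ Q₂ hQ₁ hQ₂ hc₁ hc₂ hX₁₂ hloc₁ f hf
    obtain ⟨a, b, ha, hb, hbn, hab⟩ := hloc₁ f hf
    have hbP₁ := S40F2N2_span_mem Ch Q₁ hQ₁ b hb
    have hbP₂ := S40F2N2_span_mem Ch Q₂ hQ₂ b hb
    have haP₂ := S40F2N2_span_mem Ch Q₂ hQ₂ a ha
    have hev := S40F2N2_ev_unique_span C Ch hA Q₁ Q₂ hQ₁ hQ₂ hc₁ hc₂ hX₁₂ b hb
    have hbn₂ : b ∉ Q₂.P.nonunits := by
      intro h
      apply hbn
      rw [← S40F2N_at_eq_zero_iff Q₁ hbP₁, hev]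
      exact S40F2N_at_nonunit Q₂ h
    have hbi : b⁻¹ ∈ Q₂.P := S40F2N_inv_mem_of_not_nonunit Q₂.P hbn₂
    have hb0 : b ≠ 0 := fun h => hbn (h ▸ Q₁.P.nonunits.zero_mem)
    have e : f = a * b⁻¹ := by
      rw [← hab]
      field_simp
    rw [e]
    exact mul_mem haP₂ hbi
  exact le_antisymm (key Q Q' hQ hQ' hc hc' hX hloc) (key Q' Q hQ' hQ hc' hc hX.symm hloc')

end

end Fermat.Agent.S40
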