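import Fermat.Agent.S40.F2N3

/-!
# S40 (TRACK 13), GEO-6 package P1-abs, part 4 (helper14): simplicity of the zero of `X − w`
without finite generation, uniqueness of the place.  Prefix `S40F2N4_`.

Setting of `S40/F2N3.lean` (node `N`, coordinate `C`, chart `Ch : S40F2N3_Chart N C`, `A` of rank
one).

* `S40F2N4_lip_span` : the Lipschitz estimate on the `L`-span of the chart, with a denominator
  `κ` which does not depend on the places.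
* `S40F2N4_Loc` : the local ring of `L · R` at `Q` is `Q.P`.
* `S40F2N4_hex` : from `S40F2N_exists_zero`: every `w' = X(Q) (1 − θ)`, `θ ∈ 𝔪_A`, is the value of
  `X` at a place specialising to the node.
* `S40F2N4_uniformiser` : **`X − X(Q)` is a uniformiser at `Q`** (it divides every nonunit of
  `Q.P`), for every place `Q` specialising to the node.
* `S40F2N4_place_unique` : two places specialising to the node with `X(Q) = X(Q')` have the same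
  valuation ring.
-/

set_option autoImplicit false

namespace Fermat.Agent.S40

section

variable {L F k : Type*} [Field L] [Field F] [Algebra L F] [Field k]

theorem S40F2N4_span_mem {N : S40NA_Node L F k} {C : S40F2N_Coord N} (Ch : S40F2N3_Chart N C)
    (Q : S40NA_Pt L F) (hQ : Q ∈ N.U) : ∀ a ∈ Submodule.span L (Ch.R : Set F), a ∈ Q.P := by
  intro a ha
  induction ha using Submodule.span_induction with
  | mem x hx => exact N.mem_pt (Ch.le x hx) hQ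
  | zero => exact Q.P.zero_mem
  | add x y _ _ ihx ihy => exact add_mem ihx ihy
  | smul c x _ ih =>
    rw [Algebra.smul_def]
    exact mul_mem (Q.alg_mem c) ih

/-- **Lipschitz estimate on the `L`-span of the chart**, with a uniform denominator. -/
theorem S40F2N4_lip_span {N : S40NA_Node L F k} (C : S40F2N_Coord N) (Ch : S40F2N3_Chart N C)
    (hA : ∀ g b : L, b ∈ N.A.nonunits → ∃ m : ℕ, g * b ^ m ∈ N.A) :
    ∀ a ∈ Submodule.span L (Ch.R : Set F), ∃ κ : L, κ ∈ N.A ∧ κ ≠ 0 ∧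
      ∀ (Q Q' : S40NA_Pt L F) (hQ : Q ∈ N.U) (hQ' : Q' ∈ N.U), S40NA_Centred N Q hQ →
        S40NA_Centred N Q' hQ' → ∀ θ ∈ N.A,
        S40F2N_at Q C.X - S40F2N_at Q' C.X = θ * S40F2N_at Q C.X →
        ∃ z ∈ N.A, κ * (S40F2N_at Q a - S40F2N_at Q' a) = θ * z := by
  intro a ha
  induction ha using Submodule.span_induction with
  | mem x hx =>
    refine ⟨1, N.A.one_mem, one_ne_zero, ?_⟩
    intro Q Q' hQ hQ' hc hc' θ hθ hX
    obtain ⟨z, hz, e⟩ := S40F2N3_lipschitz C Ch hA Q Q' hQ hQ' hc hc' θ hθ hX x hx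
    exact ⟨z, hz, by rw [one_mul, e]⟩
  | zero =>
    refine ⟨1, N.A.one_mem, one_ne_zero, ?_⟩
    intro Q Q' hQ hQ' hc hc' θ hθ hX
    exact ⟨0, N.A.zero_mem, by rw [S40F2N_at_zero, S40F2N_at_zero, sub_self, mul_zero, mul_zero]⟩
  | add x y hx hy ihx ihy =>
    obtain ⟨κx, hκx, hκx0, hLx⟩ := ihx
    obtain ⟨κy, hκy, hκy0, hLy⟩ := ihy
    refine ⟨κx * κy, mul_mem hκx hκy, mul_ne_zero hκx0 hκy0, ?_⟩
    intro Q Q' hQ hQ' hc hc' θ hθ hX
    obtain ⟨zx, hzx, ex⟩ := hLx Q Q' hQ hQ' hc hc' θ hθ hX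
    obtain ⟨zy, hzy, ey⟩ := hLy Q Q' hQ hQ' hc hc' θ hθ hX
    refine ⟨κy * zx + κx * zy, add_mem (mul_mem hκy hzx) (mul_mem hκx hzy), ?_⟩
    rw [S40F2N_at_add Q (S40F2N4_span_mem Ch Q hQ x hx) (S40F2N4_span_mem Ch Q hQ y hy),
      S40F2N_at_add Q' (S40F2N4_span_mem Ch Q' hQ' x hx) (S40F2N4_span_mem Ch Q' hQ' y hy)]
    linear_combination κy * ex + κx * ey
  | smul c x hx ih =>
    obtain ⟨κx, hκx, hκx0, hLx⟩ := ih
    -- a denominator of `c`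
    obtain ⟨c₂, hc₂, hc₂0, hcc⟩ : ∃ c₂ : L, c₂ ∈ N.A ∧ c₂ ≠ 0 ∧ c₂ * c ∈ N.A := by
      by_cases hcA : c ∈ N.A
      · exact ⟨1, N.A.one_mem, one_ne_zero, by rw [one_mul]; exact hcA⟩
      · have hc0 : c ≠ 0 := fun h0 => hcA (h0 ▸ N.A.zero_mem)
        have hci : c⁻¹ ∈ N.A := (N.A.mem_or_inv_mem c).resolve_left hcA
        exact ⟨c⁻¹, hci, inv_ne_zero hc0, by rw [inv_mul_cancel₀ hc0]; exact N.A.one_mem⟩
    refine ⟨κx * c₂, mul_mem hκx hc₂, mul_ne_zero hκx0 hc₂0, ?_⟩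
    intro Q Q' hQ hQ' hc hc' θ hθ hX
    obtain ⟨zx, hzx, ex⟩ := hLx Q Q' hQ hQ' hc hc' θ hθ hX
    refine ⟨c₂ * c * zx, mul_mem hcc hzx, ?_⟩
    rw [Algebra.smul_def, S40F2N_at_mul Q (Q.alg_mem c) (S40F2N4_span_mem Ch Q hQ x hx),
      S40F2N_at_mul Q' (Q'.alg_mem c) (S40F2N4_span_mem Ch Q' hQ' x hx), S40F2N_at_alg,
      S40F2N_at_alg]
    linear_combination c₂ * c * ex

/-- the local ring of `L · R` at `Q` is the valuation ring of `Q`. -/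
def S40F2N4_Loc {N : S40NA_Node L F k} {C : S40F2N_Coord N} (Ch : S40F2N3_Chart N C)
    (Q : S40NA_Pt L F) : Prop :=
  ∀ f ∈ Q.P, ∃ a b : F, a ∈ Submodule.span L (Ch.R : Set F) ∧
    b ∈ Submodule.span L (Ch.R : Set F) ∧ b ∉ Q.P.nonunits ∧ f * b = a

/-- **existence of nearby places**: from `S40F2N_exists_zero`, every `w' = X(Q)(1 − θ)` with
`θ ∈ 𝔪_A` is the value of `X` at a place specialising to the node. -/
theorem S40F2N4_hex {N : S40NA_Node L F k} (C : S40F2N_Coord N)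
    (Q : S40NA_Pt L F) (hQ : Q ∈ N.U) (hc : S40NA_Centred N Q hQ)
    (hm₁ : ∀ c : L, c ∈ N.A.nonunits → algebraMap L F c ∈ N.O₁.nonunits)
    (hm₂ : ∀ c : L, c ∈ N.A.nonunits → algebraMap L F c ∈ N.O₂.nonunits)
    (hfin : ∀ w' : L,
      {Q : S40NA_Pt L F | Q ∈ N.U ∧ C.X - algebraMap L F w' ∈ Q.P.nonunits}.Finite) :
    ∀ θ : L, θ ∈ N.A.nonunits → θ ≠ 0 → ∃ (Q' : S40NA_Pt L F) (hQ' : Q' ∈ N.U),
      S40NA_Centred N Q' hQ' ∧
        S40F2N_at Q C.X - S40F2N_at Q' C.X = θ * S40F2N_at Q C.X := by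
  intro θ hθ _
  obtain ⟨hw0, hwn, hϖw⟩ := S40F2N_range C Q hQ hc
  set w : L := S40F2N_at Q C.X with hw
  have h1θ : (1 + -θ)⁻¹ ∈ N.A := S40F2N_one_add_inv_mem N.A (N.A.nonunits.neg_mem hθ)
  have h1θ0 : (1 + -θ) ≠ 0 := by
    intro h
    have : θ = 1 := by linear_combination -h
    rw [this] at hθ
    exact S40F2N_one_not_nonunit N.A hθ
  have h1θA : (1 + -θ) ∈ N.A :=
    add_mem N.A.one_mem (neg_mem (ValuationSubring.nonunits_subset hθ))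
  set w' : L := w * (1 + -θ) with hw'
  have hw'0 : w' ≠ 0 := mul_ne_zero hw0 h1θ0
  have hw'n : w' ∈ N.A.nonunits := S40NA_nonunits_mul N.A hwn h1θA
  have hϖw' : C.ϖ * w'⁻¹ ∈ N.A.nonunits := by
    have e : C.ϖ * w'⁻¹ = C.ϖ * w⁻¹ * (1 + -θ)⁻¹ := by
      rw [hw', mul_inv, mul_assoc]
    rw [e]
    exact S40NA_nonunits_mul N.A hϖw h1θ
  obtain ⟨Q', hQ', hc', hz⟩ := S40F2N_exists_zero C w' hw'0 (hm₁ w' hw'n)
    (hm₂ _ hϖw') (hfin w')
  refine ⟨Q', hQ', hc', ?_⟩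
  have h0 := S40F2N_at_nonunit Q' hz
  rw [S40F2N_at_sub Q' (N.mem_pt C.hX hQ') (Q'.alg_mem _), S40F2N_at_alg] at h0
  have hX' : S40F2N_at Q' C.X = w' := sub_eq_zero.1 h0
  rw [hX', hw']
  ring

/-- **(iii-c) simplicity**: at every place `Q` specialising to the node, `X − X(Q)` is a
uniformiser: it divides every function vanishing at `Q`. -/
theorem S40F2N4_uniformiser {N : S40NA_Node L F k} (C : S40F2N_Coord N)
    (Ch : S40F2N3_Chart N C)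
    (hA : ∀ g b : L, b ∈ N.A.nonunits → ∃ m : ℕ, g * b ^ m ∈ N.A)
    (Q : S40NA_Pt L F) (hQ : Q ∈ N.U) (hc : S40NA_Centred N Q hQ)
    (hloc : S40F2N4_Loc Ch Q)
    (hex : ∀ θ : L, θ ∈ N.A.nonunits → θ ≠ 0 → ∃ (Q' : S40NA_Pt L F) (hQ' : Q' ∈ N.U),
      S40NA_Centred N Q' hQ' ∧
        S40F2N_at Q C.X - S40F2N_at Q' C.X = θ * S40F2N_at Q C.X) :
    ∀ f ∈ Q.P.nonunits, f * (C.X - algebraMap L F (S40F2N_at Q C.X))⁻¹ ∈ Q.P := by
  intro f hf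
  by_contra hnot
  obtain ⟨hw0, hwn, -⟩ := S40F2N_range C Q hQ hc
  set w : L := S40F2N_at Q C.X with hw
  set xw : F := C.X - algebraMap L F w with hxw
  have hxw0 : xw ≠ 0 := by
    intro h
    apply hnot
    rw [h, inv_zero, mul_zero]
    exact Q.P.zero_mem
  have hf0 : f ≠ 0 := by
    intro h
    apply hnot
    rw [h, zero_mul]
    exact Q.P.zero_mem
  have hfP : f ∈ Q.P := ValuationSubring.nonunits_subset hf
  have hψ₀ : xw * f⁻¹ ∈ Q.P.nonunits := by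
    have := (ValuationSubring.inv_mem_nonunits_iff (A := Q.P)).2 (Or.inr hnot)
    rwa [mul_inv, inv_inv, mul_comm] at this
  -- `f = a / b`
  obtain ⟨a, b, ha, hb, hbn, hab⟩ := hloc f hfP
  have hbP := S40F2N4_span_mem Ch Q hQ b hb
  have hb0 : b ≠ 0 := fun h => hbn (h ▸ Q.P.nonunits.zero_mem)
  have hbi : b⁻¹ ∈ Q.P := S40F2N_inv_mem_of_not_nonunit Q.P hbn
  have ha0 : a ≠ 0 := by rw [← hab]; exact mul_ne_zero hf0 hb0
  have han : a ∈ Q.P.nonunits := by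
    rw [← hab]
    exact S40NA_nonunits_mul Q.P hf hbP
  have hψ : xw * a⁻¹ ∈ Q.P.nonunits := by
    have e : xw * a⁻¹ = xw * f⁻¹ * b⁻¹ := by
      rw [← hab, mul_inv, mul_assoc]
    rw [e]
    exact S40NA_nonunits_mul Q.P hψ₀ hbi
  -- `(X − w) / a = a₁ / b₁`
  obtain ⟨a₁, b₁, ha₁, hb₁, hb₁n, hab₁⟩ := hloc _ (ValuationSubring.nonunits_subset hψ)
  have hb₁P := S40F2N4_span_mem Ch Q hQ b₁ hb₁
  have ha₁n : a₁ ∈ Q.P.nonunits := by
    rw [← hab₁]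
    exact S40NA_nonunits_mul Q.P hψ hb₁P
  have hid : xw * b₁ = a * a₁ := by
    rw [← hab₁]
    field_simp
  -- the Lipschitz denominators
  obtain ⟨κa, hκa, hκa0, hLa⟩ := S40F2N4_lip_span C Ch hA a ha
  obtain ⟨κ₁, hκ₁, hκ₁0, hL₁⟩ := S40F2N4_lip_span C Ch hA a₁ ha₁
  obtain ⟨κb, hκb, hκb0, hLb⟩ := S40F2N4_lip_span C Ch hA b₁ hb₁
  set β : L := S40F2N_at Q b₁ with hβ
  have hβ0 : β ≠ 0 := fun h => hb₁n ((S40F2N_at_eq_zero_iff Q hb₁P).1 h)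
  set B : L := w * κb * β * κa * κ₁ with hB
  have hB0 : B ≠ 0 :=
    mul_ne_zero (mul_ne_zero (mul_ne_zero (mul_ne_zero hw0 hκb0) hβ0) hκa0) hκ₁0
  -- the choice of `θ`
  obtain ⟨θ, hθn, hθ0, hBθ⟩ : ∃ θ : L, θ ∈ N.A.nonunits ∧ θ ≠ 0 ∧
      ∀ z ∈ N.A, B ≠ θ * z := by
    by_cases hBA : B ∈ N.A
    · refine ⟨C.ϖ * B, S40NA_nonunits_mul N.A C.hϖ hBA, mul_ne_zero C.hϖ0 hB0, ?_⟩
      intro z hz h
      have h1 : C.ϖ * z = 1 := by
        apply mul_left_cancel₀ hB0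
        rw [mul_one]
        linear_combination -h
      have := S40NA_nonunits_mul N.A C.hϖ hz
      rw [h1] at this
      exact S40F2N_one_not_nonunit N.A this
    · refine ⟨C.ϖ, C.hϖ, C.hϖ0, ?_⟩
      intro z hz h
      apply hBA
      rw [h]
      exact mul_mem (ValuationSubring.nonunits_subset C.hϖ) hz
  obtain ⟨Q', hQ', hc', hX⟩ := hex θ hθn hθ0
  have hθA : θ ∈ N.A := ValuationSubring.nonunits_subset hθn
  obtain ⟨za, hza, eza⟩ := hLa Q Q' hQ hQ' hc hc' θ hθA hX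
  obtain ⟨z₁, hz₁, ez₁⟩ := hL₁ Q Q' hQ hQ' hc hc' θ hθA hX
  obtain ⟨zb, hzb, ezb⟩ := hLb Q Q' hQ hQ' hc hc' θ hθA hX
  rw [S40F2N_at_nonunit Q han, zero_sub] at eza
  rw [S40F2N_at_nonunit Q ha₁n, zero_sub] at ez₁
  -- the identity at `Q'`
  have haP' := S40F2N4_span_mem Ch Q' hQ' a ha
  have ha₁P' := S40F2N4_span_mem Ch Q' hQ' a₁ ha₁
  have hb₁P' := S40F2N4_span_mem Ch Q' hQ' b₁ hb₁
  have hXP' : C.X ∈ Q'.P := N.mem_pt C.hX hQ'
  have hev : (S40F2N_at Q' C.X - w) * S40F2N_at Q' b₁ = S40F2N_at Q' a * S40F2N_at Q' a₁ := by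
    have := congrArg (S40F2N_at Q') hid
    rw [S40F2N_at_mul Q' (sub_mem hXP' (Q'.alg_mem _)) hb₁P', S40F2N_at_mul Q' haP' ha₁P',
      S40F2N_at_sub Q' hXP' (Q'.alg_mem _), S40F2N_at_alg] at this
    exact this
  apply hBθ (w * zb * κa * κ₁ - κb * za * z₁)
    (sub_mem (mul_mem (mul_mem (mul_mem (ValuationSubring.nonunits_subset hwn) hzb) hκa) hκ₁)
      (mul_mem (mul_mem hκb hza) hz₁))
  apply mul_left_cancel₀ hθ0
  linear_combination (-(κa * κ₁ * κb)) * hev + (κa * κ₁ * θ * w) * ezb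
    - (κa * κ₁ * κb * S40F2N_at Q' b₁) * hX - (κb * θ * za) * ez₁
    + (κb * κ₁ * S40F2N_at Q' a₁) * eza

/-- **(iii-b) uniqueness of the place**: two places specialising to the node at which the
coordinate `X` takes the same value have the same valuation ring. -/
theorem S40F2N4_place_unique {N : S40NA_Node L F k} (C : S40F2N_Coord N)
    (Ch : S40F2N3_Chart N C)
    (hA : ∀ g b : L, b ∈ N.A.nonunits → ∃ m : ℕ, g * b ^ m ∈ N.A)
    (Q Q' : S40NA_Pt L F) (hQ : Q ∈ N.U) (hQ' : Q' ∈ N.U)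
    (hc : S40NA_Centred N Q hQ) (hc' : S40NA_Centred N Q' hQ')
    (hX : S40F2N_at Q C.X = S40F2N_at Q' C.X)
    (hloc : S40F2N4_Loc Ch Q) (hloc' : S40F2N4_Loc Ch Q') : Q.P = Q'.P := by
  have key : ∀ (Q₁ Q₂ : S40NA_Pt L F) (hQ₁ : Q₁ ∈ N.U) (hQ₂ : Q₂ ∈ N.U),
      S40NA_Centred N Q₁ hQ₁ → S40NA_Centred N Q₂ hQ₂ →
      S40F2N_at Q₁ C.X = S40F2N_at Q₂ C.X → S40F2N4_Loc Ch Q₁ → Q₁.P ≤ Q₂.P := by
    intro Q₁ Q₂ hQ₁ hQ₂ hc₁ hc₂ hX₁₂ hloc₁ f hf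
    obtain ⟨a, b, ha, hb, hbn, hab⟩ := hloc₁ f hf
    have hbP₁ := S40F2N4_span_mem Ch Q₁ hQ₁ b hb
    have hbP₂ := S40F2N4_span_mem Ch Q₂ hQ₂ b hb
    have haP₂ := S40F2N4_span_mem Ch Q₂ hQ₂ a ha
    obtain ⟨κ, -, hκ0, hLip⟩ := S40F2N4_lip_span C Ch hA b hb
    obtain ⟨z, -, hz⟩ := hLip Q₁ Q₂ hQ₁ hQ₂ hc₁ hc₂ 0 N.A.zero_mem
      (by rw [hX₁₂, sub_self, zero_mul])
    rw [zero_mul] at hz
    have hev : S40F2N_at Q₁ b = S40F2N_at Q₂ b := by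
      rcases mul_eq_zero.1 hz with h | h
      · exact absurd h hκ0
      · exact sub_eq_zero.1 h
    have hbn₂ : b ∉ Q₂.P.nonunits := by
      intro h
      apply hbn
      rw [← S40F2N_at_eq_zero_iff Q₁ hbP₁, hev]
      exact S40F2N_at_nonunit Q₂ h
    have hbi : b⁻¹ ∈ Q₂.P := S40F2N_inv_mem_of_not_nonunit Q₂.P hbn₂
    have hb0 : b ≠ 0 := fun h => hbn (h ▸ Q₁.P.nonunits.zero_mem)
    have e : f = a * b⁻¹ := by
      rw [← hab]
      field_simp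
    rw [e]
    exact mul_mem haP₂ hbi
  exact le_antisymm (key Q Q' hQ hQ' hc hc' hX hloc) (key Q' Q hQ' hQ hc' hc hX.symm hloc')

end

end Fermat.Agent.S40
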