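import Fermat.Agent.S40.F2N5
import Fermat.Agent.S40.NodePl

/-!
# S40 (TRACK 13), GEO-6 package P1, instance fact (I-c): the local rings of the chart (helper14).
Prefix `S40F2N6_`.

* `S40F2N6_loc_of` : `S40F2N4_Loc Ch Q` from a set `B ⊆ span_L (Ch.R)` with denominators at `Q`.
* `S40F2N6_denom` : **(1)** on a function field with Riemann–Roch, a function regular at a place
  `v` of the chart `x ≠ ∞` is a quotient `a / b` of functions regular on the whole chart with
  `b(v) ≠ 0` (`S36RC_denom`).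
* `S40F2N6_loc` : `S40F2N4_Loc Ch Q` at every place `Q` of the chart, if **(2)** the functions
  regular on the chart are `L`-linear combinations of functions of `Ch.R`.
* `S40F2N6_hyp_node` : **`S40F2YI_Hyp` at the node `i`** from the chart `Ch`, rank one of the base
  and (2).
-/

set_option autoImplicit false
set_option synthInstance.maxHeartbeats 400000
set_option maxHeartbeats 1000000

open AlgebraicCurve

namespace Fermat.Agent.S40

open Fermat.Agent.Lib Fermat.Agent.S18 Fermat.Agent.S24 Fermat.Agent.S34 Fermat.Agent.S36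

section Abs

variable {L F k : Type*} [Field L] [Field F] [Algebra L F] [Field k]

/-- the local ring hypothesis from a set `B` of functions with denominators at `Q`. -/
theorem S40F2N6_loc_of {N : S40NA_Node L F k} {C : S40F2N_Coord N} (Ch : S40F2N3_Chart N C)
    (Q : S40NA_Pt L F) (B : Set F)
    (hB : ∀ s ∈ B, s ∈ Submodule.span L (Ch.R : Set F))
    (hden : ∀ f ∈ Q.P, ∃ a b : F, a ∈ B ∧ b ∈ B ∧ b ∉ Q.P.nonunits ∧ f * b = a) :
    S40F2N4_Loc Ch Q := by
  intro f hf
  obtain ⟨a, b, ha, hb, hbn, hab⟩ := hden f hf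
  exact ⟨a, b, hB a ha, hB b hb, hbn, hab⟩

end Abs

section Den

variable {K F : Type*} [Field K] [Field F] [Algebra K F]

/-- **(1) denominators on the chart**: a function regular at the place `v` of the chart `x ≠ ∞`
is `a / b` with `a, b` regular on the chart and `b(v) ≠ 0`. -/
theorem S40F2N6_denom [Infinite K] (h : RR_Hyp K F) (x : F) (c₀ : Place K F)
    (hc₀ : c₀.ord x < 0) (v : Place K F) (hv : 0 ≤ v.ord x) (f : F)
    (hf : f ∈ v.toValuationSubring) :
    ∃ a b : F, a ∈ S34SB_reg K x ∧ b ∈ S34SB_reg K x ∧ b ∉ v.toValuationSubring.nonunits ∧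
      f * b = a := by
  have hvc : v ≠ c₀ := by
    rintro rfl
    omega
  obtain ⟨g, hg0, hgQ, hg, hgf⟩ := S36RC_denom h c₀ f v hvc (S40NP_ord_nonneg v hf)
  have hreg : ∀ y : F, (∀ w : Place K F, w ≠ c₀ → 0 ≤ w.ord y) → y ∈ S34SB_reg K x := by
    intro y hy
    by_cases hy0 : y = 0
    · rw [hy0]; exact (S34SB_reg K x).zero_mem
    rw [S34SB_mem_reg_iff hy0]
    intro Q hQ
    exact hy Q (by rintro rfl; omega)
  refine ⟨f * g, g, hreg _ (by rw [mul_comm]; exact hgf), hreg g hg, ?_, rfl⟩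
  intro hn
  have hlt := S40NI_val_lt_of_nonunit v hn
  rw [v.adicValuation_eq_exp_neg_ord hg0, ← WithZero.exp_zero, WithZero.exp_lt_exp, hgQ] at hlt
  omega

end Den

section Loc

variable {L F k : Type*} [Field L] [Field F] [Algebra L F] [Field k]

/-- **(I-c)** the local ring hypothesis at every place of the chart `x ≠ ∞`, if the functions
regular on the chart are `L`-linear combinations of functions of `Ch.R`. -/
theorem S40F2N6_loc [Infinite L] (h : RR_Hyp L F) (hdeg : ∀ v : Place L F, v.deg = 1) (x : F)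
    (c₀ : Place L F) (hc₀ : c₀.ord x < 0) {N : S40NA_Node L F k} {C : S40F2N_Coord N}
    (Ch : S40F2N3_Chart N C)
    (hB : ∀ s ∈ S34SB_reg L x, s ∈ Submodule.span L (Ch.R : Set F))
    (Q : S40NA_Pt L F) (hQ : Q ∈ S40NI_U hdeg x) : S40F2N4_Loc Ch Q := by
  obtain ⟨v, hv, rfl⟩ := hQ
  refine S40F2N6_loc_of Ch _ (S34SB_reg L x : Set F) hB ?_
  intro f hf
  exact S40F2N6_denom h x c₀ hc₀ v hv f hf

end Loc

/-! ### the node `i` of `S40NI_nodeGen` -/

section Node

variable {L F k Fk₁ Fk₂ : Type*} [Field L] [Field F] [Algebra L F] [Field k] [Field Fk₁]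
  [Field Fk₂] [Algebra k Fk₁] [Algebra k Fk₂]
  {S₁ : S18_Val L F k Fk₁} {S₂ : S18_Val L F k Fk₂} {hS : S34P_Same S₁ S₂}
  (hdeg : ∀ v : Place L F, v.deg = 1) {x : S34P_O2 S₁ S₂} {x₁ : Fk₁} {x₂ : Fk₂}
  (n : ℕ) (hn : 0 < n) {ι : Type*}

/-- **`S40F2YI_Hyp` at the node `i`** (the five hypotheses of helper1's (A1) layer on the
coordinate `X`): from the chart `Ch` (`S40NS_chart`), rank one of the base, and the fact that the
functions regular on the chart `x ≠ ∞` are `L`-linear combinations of functions of `Ch.R`. -/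
theorem S40F2N6_hyp_node [Infinite L] (h : RR_Hyp L F) (c₀ : Place L F)
    (hc₀ : c₀.ord (x : F) < 0) (hx : S34P_Hyp S₁ S₂ hS x)
    (hred : S34P_red S₁ S₂ x = (x₁, x₂))
    (e₁ : ι → ↥(S34SB_chart L k (x : F) x₁ x₂ n hn).Rb₁ →ₐ[k] k)
    (e₂ : ι → ↥(S34SB_chart L k (x : F) x₁ x₂ n hn).Rb₂ →ₐ[k] k)
    (hW1 : S34K_W hS (S34SB_chart L k (x : F) x₁ x₂ n hn) 1 = S34B_W e₁ e₂) (i : ι)
    (C : S40F2N_Coord (S40NI_nodeGen hdeg n hn hx hred e₁ e₂ hW1 i))
    (Ch : S40F2N3_Chart (S40NI_nodeGen hdeg n hn hx hred e₁ e₂ hW1 i) C)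
    (hA : ∀ g b : L, b ∈ S₁.A.nonunits → ∃ m : ℕ, g * b ^ m ∈ S₁.A)
    (hB : ∀ s ∈ S34SB_reg L (x : F), s ∈ Submodule.span L (Ch.R : Set F)) :
    S40F2YI_Hyp (S40NI_nodeGen hdeg n hn hx hred e₁ e₂ hW1 i) C.X :=
  haveI : HasPrincipalDivisors L F := h.principal
  S40F2N5_hyp_node hdeg n hn hx hred e₁ e₂ hW1 i C Ch hA
    (fun Q hQ _ => S40F2N6_loc h hdeg (x : F) c₀ hc₀ Ch hB Q hQ)

end Node

end Fermat.Agent.S40
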