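import Fermat.Agent.S40.F2N6
import Fermat.Agent.S40.F2N7

/-!
# S40 (TRACK 13), hole (D-ORD)/(D-CUSP): the local rings for the DISC package (helper14).
Prefix `S40F2N8_`.

* `S40F2N8_loc_of` : `S40F2N7_Loc D Q` from a set `B ⊆ span_L (D.R)` with denominators at `Q`.
* `S40F2N8_loc` : `S40F2N7_Loc D Q` at every place `Q` of the chart `x ≠ ∞` of a function field
  with Riemann–Roch (`x` ANY function with a pole `c₀`: `jB` for the ordinary points,
  the coordinate of the second chart for the cusps), if the functions regular on the chart are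
  `L`-linear combinations of functions of `D.R`.
* `S40F2N8_hyp` : `S40F2YI_Hyp N D.X` for a disc `D` on a node `N` whose chart is
  `N.U = S40NI_U hdeg x`.
-/

set_option autoImplicit false
set_option synthInstance.maxHeartbeats 400000
set_option maxHeartbeats 1000000

open AlgebraicCurve

namespace Fermat.Agent.S40

open Fermat.Agent.Lib Fermat.Agent.S18 Fermat.Agent.S24 Fermat.Agent.S34 Fermat.Agent.S36

section

variable {L F k : Type*} [Field L] [Field F] [Algebra L F] [Field k]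

/-- the local ring hypothesis of the disc from a set `B` of functions with denominators at
`Q`. -/
theorem S40F2N8_loc_of {N : S40NA_Node L F k} (D : S40F2N7_Disc N)
    (Q : S40NA_Pt L F) (B : Set F)
    (hB : ∀ s ∈ B, s ∈ Submodule.span L (D.R : Set F))
    (hden : ∀ f ∈ Q.P, ∃ a b : F, a ∈ B ∧ b ∈ B ∧ b ∉ Q.P.nonunits ∧ f * b = a) :
    S40F2N7_Loc D Q := by
  intro f hf
  obtain ⟨a, b, ha, hb, hbn, hab⟩ := hden f hf
  exact ⟨a, b, hB a ha, hB b hb, hbn, hab⟩

/-- the local ring hypothesis of the disc at every place of the chart `x ≠ ∞`. -/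
theorem S40F2N8_loc [Infinite L] (h : RR_Hyp L F) (hdeg : ∀ v : Place L F, v.deg = 1) (x : F)
    (c₀ : Place L F) (hc₀ : c₀.ord x < 0) {N : S40NA_Node L F k} (D : S40F2N7_Disc N)
    (hB : ∀ s ∈ S34SB_reg L x, s ∈ Submodule.span L (D.R : Set F))
    (Q : S40NA_Pt L F) (hQ : Q ∈ S40NI_U hdeg x) : S40F2N7_Loc D Q := by
  obtain ⟨v, hv, rfl⟩ := hQ
  refine S40F2N8_loc_of D _ (S34SB_reg L x : Set F) hB ?_
  intro f hf
  exact S40F2N6_denom h x c₀ hc₀ v hv f hf

/-- **`S40F2YI_Hyp` for a disc** on a node with chart `N.U = S40NI_U hdeg x`. -/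
theorem S40F2N8_hyp [Infinite L] (h : RR_Hyp L F) (hdeg : ∀ v : Place L F, v.deg = 1) (x : F)
    (c₀ : Place L F) (hc₀ : c₀.ord x < 0) {N : S40NA_Node L F k} (hU : N.U = S40NI_U hdeg x)
    (D : S40F2N7_Disc N)
    (hA : ∀ g b : L, b ∈ N.A.nonunits → ∃ m : ℕ, g * b ^ m ∈ N.A)
    (hm₁ : ∀ c : L, c ∈ N.A.nonunits → algebraMap L F c ∈ N.O₁.nonunits)
    (hm₂ : ∀ c : L, c ∈ N.A.nonunits → algebraMap L F c ∈ N.O₂.nonunits)
    (hB : ∀ s ∈ S34SB_reg L x, s ∈ Submodule.span L (D.R : Set F)) :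
    S40F2YI_Hyp N D.X :=
  haveI : HasPrincipalDivisors L F := h.principal
  S40F2N7_hyp D hA (fun g => hU ▸ S40NI_poles_finite hdeg x g) hm₁ hm₂
    (fun Q hQ _ => S40F2N8_loc h hdeg x c₀ hc₀ D hB Q (hU ▸ hQ))

end

end Fermat.Agent.S40
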