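import Fermat.Agent.S40.F2SlopeNA

/-!
# TRACK 13 (S40 / S44, row 38), (F2-OUT), **the node seen from the second component** (helper12).
Prefix `S40T2N_`.

`N : S40NA_Node L F k` a node (Gauss valuation rings `O₁`, `O₂`, chart `U`, evaluation `ε` on
`Λ = O₁ ∩ O₂ ∩ reg U`), `X Y = ϖ` a node coordinate (`X` a unit of `O₁`, `Y` a unit of `O₂`).

* `S40T2N_swap N` : the SWAPPED node (`O₁ ↔ O₂`, the same chart and the same evaluation), so that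
  all the `U1` / `NoZP` / `UnitAt` calculus of `NodeAbs.lean`, `F2SlopeNA.lean` and
  `S40F2O_dvd` (`F2Out.lean`) applies on the second component;
* `S40T2N_noZP_swap`, `S40T2N_centred_swap` : `NoZP` and `Centred` do not see the swap;
* `S40T2N_u1_swap` : a `U1`-unit of `N` without zero and pole specialising to the node is a
  `U1`-unit of the swapped node (Hartogs);
* **`S40T2N_main`** : `u = u' ∏ (X − w i) ^ (p m i)`, `u'` without zero and pole in the annulus,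
  `∏ w i ^ m i` constant, `u / (c₁ X ^ n)` a `U1`-unit, `u / c₂` a unit of `O₂`, `p ∣ n`
  ⇒ `∃ n'', (u / c₂) / Y ^ (p n'')` is a `U1`-unit of the swapped node.
  With `S40F2O_dvd T₂ (P' i) (S40T2N_swap N)` this is `p ∣ ord_{P' i} (red₂ (u / c₂))`.
-/

set_option autoImplicit false

namespace Fermat.Agent.S40

variable {L F k : Type*} [Field L] [Field F] [Algebra L F] [Field k]

theorem S40T2N_Lam_swap (O₁ O₂ : ValuationSubring F) (U : Set (S40NA_Pt L F)) {f : F}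
    (hf : f ∈ S40NA_Lam O₂ O₁ U) : f ∈ S40NA_Lam O₁ O₂ U := by
  rw [S40NA_mem_Lam] at hf ⊢
  exact ⟨hf.2.1, hf.1, hf.2.2⟩

/-- the inclusion `Λ(O₂, O₁) → Λ(O₁, O₂)` (an equality of subrings). -/
def S40T2N_incl (O₁ O₂ : ValuationSubring F) (U : Set (S40NA_Pt L F)) :
    ↥(S40NA_Lam O₂ O₁ U) →+* ↥(S40NA_Lam O₁ O₂ U) :=
  Subring.inclusion (fun _ hf => S40T2N_Lam_swap O₁ O₂ U hf)

theorem S40T2N_incl_apply (O₁ O₂ : ValuationSubring F) (U : Set (S40NA_Pt L F))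
    (f : ↥(S40NA_Lam O₂ O₁ U)) :
    S40T2N_incl O₁ O₂ U f = ⟨(f : F), S40T2N_Lam_swap O₁ O₂ U f.2⟩ := rfl

/-- **the swapped node**. -/
def S40T2N_swap (N : S40NA_Node L F k) : S40NA_Node L F k where
  A := N.A
  res := N.res
  res_nonunit := N.res_nonunit
  O₁ := N.O₂
  O₂ := N.O₁
  const₁ := N.const₂
  const₂ := N.const₁
  U := N.U
  ε := N.ε.comp (S40T2N_incl N.O₁ N.O₂ N.U)
  ε_const := fun a ha h => N.ε_const a ha (S40T2N_Lam_swap N.O₁ N.O₂ N.U h)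
  ε_zero₁ := fun f hf => N.ε_zero₂ (S40T2N_incl N.O₁ N.O₂ N.U f) hf
  ε_zero₂ := fun f hf => N.ε_zero₁ (S40T2N_incl N.O₁ N.O₂ N.U f) hf

theorem S40T2N_swap_O₁ (N : S40NA_Node L F k) : (S40T2N_swap N).O₁ = N.O₂ := rfl

theorem S40T2N_swap_O₂ (N : S40NA_Node L F k) : (S40T2N_swap N).O₂ = N.O₁ := rfl

theorem S40T2N_swap_U (N : S40NA_Node L F k) : (S40T2N_swap N).U = N.U := rfl

theorem S40T2N_swap_A (N : S40NA_Node L F k) : (S40T2N_swap N).A = N.A := rfl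

theorem S40T2N_mem_swap (N : S40NA_Node L F k) {f : F} :
    f ∈ (S40T2N_swap N).Lam ↔ f ∈ N.Lam := by
  constructor
  · intro hf
    exact S40T2N_Lam_swap N.O₁ N.O₂ N.U hf
  · intro hf
    exact S40T2N_Lam_swap N.O₂ N.O₁ N.U hf

theorem S40T2N_swap_ε (N : S40NA_Node L F k) (f : F) (hf : f ∈ (S40T2N_swap N).Lam) :
    (S40T2N_swap N).ε ⟨f, hf⟩ = N.ε ⟨f, (S40T2N_mem_swap N).1 hf⟩ := rfl

theorem S40T2N_swap_ε' (N : S40NA_Node L F k) (f : F) (hf : f ∈ N.Lam) :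
    (S40T2N_swap N).ε ⟨f, (S40T2N_mem_swap N).2 hf⟩ = N.ε ⟨f, hf⟩ := rfl

/-- `Centred` does not see the swap. -/
theorem S40T2N_centred_swap (N : S40NA_Node L F k) (Q : S40NA_Pt L F) (hQ : Q ∈ N.U) :
    S40NA_Centred (S40T2N_swap N) Q hQ ↔ S40NA_Centred N Q hQ := by
  constructor
  · intro h f hf
    obtain ⟨h1, h2⟩ := h f ((S40T2N_mem_swap N).2 hf)
    exact ⟨h1, h2⟩
  · intro h f hf
    obtain ⟨h1, h2⟩ := h f ((S40T2N_mem_swap N).1 hf)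
    exact ⟨h1, h2⟩

/-- `NoZP` does not see the swap. -/
theorem S40T2N_noZP_swap (N : S40NA_Node L F k) {g : F} :
    S40F2SN_NoZP (S40T2N_swap N) g ↔ S40F2SN_NoZP N g := by
  constructor
  · intro h Q hQ hc
    exact h Q hQ ((S40T2N_centred_swap N Q hQ).2 hc)
  · intro h Q hQ hc
    exact h Q hQ ((S40T2N_centred_swap N Q hQ).1 hc)

/-- **Hartogs, unit form**: a unit of `O₁` and of `O₂` without zero and pole specialising to the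
node is a quotient `a / b` with `a, b ∈ Λ`, `ε a ≠ 0`, `ε b ≠ 0`. -/
theorem S40T2N_unit_quot (N : S40NA_Node L F k)
    (hfin : ∀ g : F, {Q : S40NA_Pt L F | Q ∈ N.U ∧ g ∉ Q.P}.Finite) {g : F}
    (h₁ : S40F2S_IsU N.O₁ g) (h₂ : S40F2S_IsU N.O₂ g) (hP : S40F2SN_NoZP N g) :
    ∃ (a b : F) (ha : a ∈ N.Lam) (hb : b ∈ N.Lam), g * b = a ∧ N.ε ⟨a, ha⟩ ≠ 0 ∧
      N.ε ⟨b, hb⟩ ≠ 0 := by
  obtain ⟨a, b, ha, hb, hab, hεb⟩ := S40NA_hartogs N g h₁.mem h₂.mem (hfin g)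
    (fun Q hQ hg hc => hg (hP Q hQ hc).mem)
  obtain ⟨a₂, b₂, ha₂, hb₂, hab₂, hεb₂⟩ := S40NA_hartogs N g⁻¹ h₁.inv_mem h₂.inv_mem (hfin g⁻¹)
    (fun Q hQ hg hc => hg (hP Q hQ hc).inv_mem)
  refine ⟨a, b, ha, hb, hab, ?_, hεb⟩
  have hg0 : g ≠ 0 := h₁.ne_zero
  have e : a * a₂ = b * b₂ := by
    rw [← hab, ← hab₂]
    field_simp
  have e' : (⟨a, ha⟩ : ↥N.Lam) * ⟨a₂, ha₂⟩ = ⟨b, hb⟩ * ⟨b₂, hb₂⟩ := Subtype.ext e
  have e'' := congrArg N.ε e'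
  rw [map_mul, map_mul] at e''
  intro h0
  rw [h0, zero_mul] at e''
  exact mul_ne_zero hεb hεb₂ e''.symm

/-- a `U1`-unit of `N` without zero and pole specialising to the node is a `U1`-unit of the
swapped node. -/
theorem S40T2N_u1_swap (N : S40NA_Node L F k)
    (hfin : ∀ g : F, {Q : S40NA_Pt L F | Q ∈ N.U ∧ g ∉ Q.P}.Finite) {g : F}
    (h₁ : S40F2SN_U1 N g) (hP : S40F2SN_NoZP N g) : S40F2SN_U1 (S40T2N_swap N) g := by
  have h₂ : S40F2S_IsU N.O₂ g := S40F2SN_glue_unit N hfin h₁ hP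
  obtain ⟨a, b, ha, hb, hab, hεa, hεb⟩ := S40T2N_unit_quot N hfin h₁.1 h₂ hP
  refine ⟨h₂, a, b, (S40T2N_mem_swap N).2 ha, (S40T2N_mem_swap N).2 hb, ?_, hεa, hεb⟩
  rw [hab, sub_self]
  exact (S40T2N_swap N).O₁.nonunits.zero_mem

/-- a constant which is a unit of `O₂` is a `U1`-unit of the swapped node. -/
theorem S40T2N_u1_const (N : S40NA_Node L F k)
    (hA₂ : ∀ a : L, algebraMap L F a ∈ N.O₂ → a ∈ N.A) {κ : F}
    (hκL : κ ∈ (algebraMap L F).fieldRange) (hκ : S40F2S_IsU N.O₂ κ) :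
    S40F2SN_U1 (S40T2N_swap N) κ := by
  obtain ⟨a, rfl⟩ := hκL
  have haA : a ∈ N.A := hA₂ a hκ.mem
  have hai : a⁻¹ ∈ N.A := by
    apply hA₂
    rw [map_inv₀]
    exact hκ.inv_mem
  have ha0 : a ≠ 0 := by
    rintro rfl
    exact hκ.ne_zero (map_zero _)
  refine ⟨hκ, S40NA_unitAt_const (S40T2N_swap N) haA ?_⟩
  intro h0
  have e : (⟨a, haA⟩ : ↥N.A) * ⟨a⁻¹, hai⟩ = 1 := Subtype.ext (mul_inv_cancel₀ ha0)
  have e' := congrArg N.res e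
  rw [map_mul, map_one] at e'
  have h0' : N.res ⟨a, haA⟩ = 0 := h0
  rw [h0', zero_mul] at e'
  exact zero_ne_one e'

/-- `(X − w) / w = −(1 − X / w)` is a `U1`-unit of the swapped node for `w` in the annulus. -/
theorem S40T2N_lin (N : S40NA_Node L F k) {X Y ϖ w : F} (hXY : X * Y = ϖ)
    (hY : S40F2S_IsU N.O₂ Y) (hw0 : w ≠ 0) (hw : ϖ / w ∈ N.O₂.nonunits) :
    S40F2SN_U1 (S40T2N_swap N) ((w - X) / w) := by
  have hY0 : Y ≠ 0 := hY.ne_zero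
  have h1 : (w - X) / w = 1 - ϖ / w * Y⁻¹ := by
    rw [← hXY]
    field_simp
  rw [h1]
  exact S40F2SN_u1_one_sub (S40T2N_swap N) (S40F2S_nonunits_mul_isU hw hY.inv)

/-- `∏ X ^ (m i) = X ^ (Σ m i)`. -/
theorem S40T2N_prod_zpow {ι : Type*} (s : Finset ι) (m : ι → ℤ) {X : F} (hX0 : X ≠ 0) :
    ∏ i ∈ s, X ^ (m i) = X ^ (∑ i ∈ s, m i) := by
  classical
  induction s using Finset.induction_on with
  | empty => simp
  | insert j t hjt ih =>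
    rw [Finset.prod_insert hjt, Finset.sum_insert hjt, ih, zpow_add₀ hX0]

/-- `∏ (w i) ^ (p · m i) = (∏ w i ^ m i) ^ p`. -/
theorem S40T2N_prod_pow {ι : Type*} (s : Finset ι) (w : ι → F) (m : ι → ℤ) (p : ℕ) :
    ∏ i ∈ s, (w i) ^ ((p : ℤ) * m i) = (∏ i ∈ s, w i ^ m i) ^ p := by
  rw [← Finset.prod_pow]
  refine Finset.prod_congr rfl (fun i _ => ?_)
  rw [mul_comm, zpow_mul, zpow_natCast]

/-- **the node seen from the second component**: the slope of `u / c₂` at the node on `C₂` is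
`≡ −n` modulo `p`; hence for `p ∣ n` a multiple of `p`. -/
theorem S40T2N_main (N : S40NA_Node L F k)
    (hfin : ∀ g : F, {Q : S40NA_Pt L F | Q ∈ N.U ∧ g ∉ Q.P}.Finite)
    (hA₂ : ∀ a : L, algebraMap L F a ∈ N.O₂ → a ∈ N.A)
    {X Y ϖ : F} (hXY : X * Y = ϖ) (hX : S40F2S_IsU N.O₁ X) (hY : S40F2S_IsU N.O₂ Y)
    (hXP : S40F2SN_NoZP N X) (hϖL : ϖ ∈ (algebraMap L F).fieldRange)
    {ι : Type*} (s : Finset ι) (w : ι → F) (m : ι → ℤ)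
    (hw0 : ∀ i ∈ s, w i ≠ 0)
    (hw₁ : ∀ i ∈ s, w i ∈ N.O₁.nonunits) (hw₂ : ∀ i ∈ s, ϖ / w i ∈ N.O₂.nonunits)
    {u u' c₁ c₂ : F} (hc₁ : c₁ ∈ (algebraMap L F).fieldRange) (hc₁0 : c₁ ≠ 0)
    (hc₂ : c₂ ∈ (algebraMap L F).fieldRange) (hc₂0 : c₂ ≠ 0)
    (hu'P : S40F2SN_NoZP N u') (p : ℕ)
    (hu : u = u' * ∏ i ∈ s, (X - w i) ^ ((p : ℤ) * m i))
    (hWL : ∏ i ∈ s, w i ^ m i ∈ (algebraMap L F).fieldRange)
    (n : ℤ) (hu₁ : S40F2SN_U1 N (u / (c₁ * X ^ n)))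
    (hu₂ : S40F2S_IsU N.O₂ (u / c₂)) (hpn : (p : ℤ) ∣ n) :
    ∃ n'' : ℤ, S40F2SN_U1 (S40T2N_swap N) (u / c₂ / Y ^ ((p : ℤ) * n'')) := by
  classical
  obtain ⟨q, rfl⟩ := hpn
  have hX0 : X ≠ 0 := hX.ne_zero
  have hY0 : Y ≠ 0 := hY.ne_zero
  have hϖ0 : ϖ ≠ 0 := by rw [← hXY]; exact mul_ne_zero hX0 hY0
  set Sm : ℤ := ∑ i ∈ s, m i with hSm
  -- the linear factors
  have hlin0 : ∀ i ∈ s, X - w i ≠ 0 := by
    intro i hi h
    have := (S40F2SN_lin₁ N hX (hw₁ i hi)).1.ne_zero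
    rw [h, zero_div] at this
    exact this rfl
  -- `P₁ = ∏ ((X − w i) / X) ^ (p m i)` is `U1` for `N`
  have hP₁ : S40F2SN_U1 N (∏ i ∈ s, ((X - w i) / X) ^ ((p : ℤ) * m i)) :=
    Finset.prod_induction _ (S40F2SN_U1 N) (fun a b ha hb => S40F2SN_u1_mul N ha hb)
      (S40F2SN_u1_one N) (fun i hi => S40F2SN_u1_zpow N (S40F2SN_lin₁ N hX (hw₁ i hi)) _)
  have hP₁eq : ∏ i ∈ s, ((X - w i) / X) ^ ((p : ℤ) * m i)
      = (∏ i ∈ s, (X - w i) ^ ((p : ℤ) * m i)) / X ^ ((p : ℤ) * Sm) := by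
    rw [hSm, Finset.mul_sum, ← S40T2N_prod_zpow s (fun i => (p : ℤ) * m i) hX0,
      ← Finset.prod_div_distrib]
    exact Finset.prod_congr rfl (fun i _ => div_zpow _ _ _)
  -- `P₂ = ∏ ((w i − X) / w i) ^ (p m i)` is `U1` for the swapped node
  have hP₂ : S40F2SN_U1 (S40T2N_swap N) (∏ i ∈ s, ((w i - X) / w i) ^ ((p : ℤ) * m i)) :=
    Finset.prod_induction _ (S40F2SN_U1 (S40T2N_swap N))
      (fun a b ha hb => S40F2SN_u1_mul _ ha hb) (S40F2SN_u1_one _)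
      (fun i hi => S40F2SN_u1_zpow _ (S40T2N_lin N hXY hY (hw0 i hi) (hw₂ i hi)) _)
  -- the sign
  set sg : F := ∏ i ∈ s, (-1 : F) ^ ((p : ℤ) * m i) with hsg
  have hsg0 : sg ≠ 0 := by
    rw [hsg, Finset.prod_ne_zero_iff]
    intro i _
    exact zpow_ne_zero _ (by norm_num)
  have hsgL : sg ∈ (algebraMap L F).fieldRange := by
    rw [hsg]
    refine Finset.prod_induction _ (fun x => x ∈ (algebraMap L F).fieldRange)
      (fun a b ha hb => mul_mem ha hb) (one_mem _) (fun i _ => ?_)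
    exact zpow_mem (neg_mem (one_mem _)) _
  have hP₂eq : ∏ i ∈ s, (X - w i) ^ ((p : ℤ) * m i)
      = (∏ i ∈ s, ((w i - X) / w i) ^ ((p : ℤ) * m i)) * (sg * (∏ i ∈ s, w i ^ m i) ^ p) := by
    rw [← S40T2N_prod_pow s w m p, hsg, ← Finset.prod_mul_distrib, ← Finset.prod_mul_distrib]
    refine Finset.prod_congr rfl (fun i hi => ?_)
    have hwi := hw0 i hi
    rw [← mul_zpow, ← mul_zpow]
    congr 1
    field_simp
    ring
  -- `g = u' / (c₁ X ^ (p q − p Sm))`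
  set g : F := u' / (c₁ * X ^ ((p : ℤ) * q - (p : ℤ) * Sm)) with hg
  have hgeq : g = u / (c₁ * X ^ ((p : ℤ) * q)) /
      (∏ i ∈ s, ((X - w i) / X) ^ ((p : ℤ) * m i)) := by
    have hq0 : (∏ i ∈ s, (X - w i) ^ ((p : ℤ) * m i)) ≠ 0 := by
      rw [Finset.prod_ne_zero_iff]
      intro i hi
      exact zpow_ne_zero _ (hlin0 i hi)
    have h1 : X ^ ((p : ℤ) * q) ≠ 0 := zpow_ne_zero _ hX0
    have h2 : X ^ ((p : ℤ) * Sm) ≠ 0 := zpow_ne_zero _ hX0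
    rw [hg, hP₁eq, hu, zpow_sub₀ hX0]
    field_simp
  have hg₁ : S40F2SN_U1 N g := by
    rw [hgeq]
    exact S40F2SN_u1_div N hu₁ hP₁
  have hgP : S40F2SN_NoZP N g :=
    S40F2SN_noZP_div N hu'P
      (S40F2SN_noZP_mul N (S40F2SN_noZP_const N hc₁ hc₁0) (S40F2SN_noZP_zpow N hXP _))
  have hgs : S40F2SN_U1 (S40T2N_swap N) g := S40T2N_u1_swap N hfin hg₁ hgP
  -- the constant
  set κ : F := c₁ * ϖ ^ ((p : ℤ) * q - (p : ℤ) * Sm) * (sg * (∏ i ∈ s, w i ^ m i) ^ p) / c₂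
    with hκ
  have hκL : κ ∈ (algebraMap L F).fieldRange := by
    rw [hκ]
    exact div_mem (mul_mem (mul_mem hc₁ (zpow_mem hϖL _)) (mul_mem hsgL (pow_mem hWL p))) hc₂
  -- the decomposition on the second component
  have hdec : u / c₂ / Y ^ ((p : ℤ) * (Sm - q))
      = g * (∏ i ∈ s, ((w i - X) / w i) ^ ((p : ℤ) * m i)) * κ := by
    have h1 : X ^ ((p : ℤ) * q - (p : ℤ) * Sm) ≠ 0 := zpow_ne_zero _ hX0
    have h2 : Y ^ ((p : ℤ) * q - (p : ℤ) * Sm) ≠ 0 := zpow_ne_zero _ hY0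
    have e1 : ϖ ^ ((p : ℤ) * q - (p : ℤ) * Sm)
        = X ^ ((p : ℤ) * q - (p : ℤ) * Sm) * Y ^ ((p : ℤ) * q - (p : ℤ) * Sm) := by
      rw [← hXY, mul_zpow]
    have e2 : Y ^ ((p : ℤ) * (Sm - q)) = (Y ^ ((p : ℤ) * q - (p : ℤ) * Sm))⁻¹ := by
      rw [← zpow_neg]
      congr 1
      ring
    rw [hκ, hg, hu, hP₂eq, e1, e2]
    field_simp
  have hκU : S40F2S_IsU N.O₂ κ := by
    have hprod0 : g * (∏ i ∈ s, ((w i - X) / w i) ^ ((p : ℤ) * m i)) ≠ 0 :=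
      mul_ne_zero hgs.1.ne_zero hP₂.1.ne_zero
    have e : κ = u / c₂ / Y ^ ((p : ℤ) * (Sm - q)) /
        (g * (∏ i ∈ s, ((w i - X) / w i) ^ ((p : ℤ) * m i))) := by
      rw [hdec, mul_div_cancel_left₀ _ hprod0]
    rw [e]
    exact (hu₂.div (hY.zpow _)).div (hgs.1.mul hP₂.1)
  refine ⟨Sm - q, ?_⟩
  rw [hdec]
  exact S40F2SN_u1_mul _ (S40F2SN_u1_mul _ hgs hP₂) (S40T2N_u1_const N hA₂ hκL hκU)

end Fermat.Agent.S40
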