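import Fermat.Agent.S40.F2Node2
import Fermat.Agent.S40.F2Main2
import Fermat.Agent.S40.F2Out

/-!
# TRACK 13 (S40 / S44, row 38), (F2-OUT), T₂-NODE in the vocabulary of the node chain (helper12).
Prefix `S40T2G_`.

`hC : S40F2M_Coord N C vL π c X Y ϖ p e'`, `hG : S40F2M2_Gen N C vL π c X ϖ p t u y c₁ c₂ Y₁ Y₂ n`
(the hypotheses of `S40F2M2_node` / `S40F2AS_node`), and `p ∣ n` (their conclusion):

* `S40T2G_u1`  : `∃ n'', (u / c₂) / Y ^ (p n'')` is a `U1`-unit of the swapped node;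
* **`S40T2G_dvd`** : for `S` the second Gauss valuation (`N.O₂ = S.O`) and `v` the place of the
  node on the second component (`hε`): `p ∣ ord_v (red₂ (u / c₂))`.
* `S40T2G_dvd₁` : the same on the first component (`= S40F2O_dvd`), for symmetry:
  `p ∣ ord_v (red₁ (u / c₁))`.
-/

set_option autoImplicit false
set_option linter.unusedVariables false

open AlgebraicCurve

noncomputable section

namespace Fermat.Agent.S40

open Fermat.Agent.S18 Fermat.Agent.GalRep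

variable {L F k : Type*} [Field L] [Field F] [Algebra L F] [Field k]

theorem S40T2G_range (N : S40NA_Node L F k) {C : Subfield F}
    (hCL : ∀ a ∈ C, ∃ b : L, algebraMap L F b = a) {a : F} (ha : a ∈ C) :
    a ∈ (algebraMap L F).fieldRange := by
  obtain ⟨b, hb⟩ := hCL a ha
  exact ⟨b, hb⟩

/-- **T₂-NODE, `U1` form.** -/
theorem S40T2G_u1 (N : S40NA_Node L F k) {C : Subfield F} {vL : F → ℤ} {π c X Y ϖ : F} {p : ℕ}
    {e' : ℤ} (hC : S40F2M_Coord N C vL π c X Y ϖ p e') {t : ℕ}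
    {u y c₁ c₂ Y₁ Y₂ : F} {n : ℤ} (hG : S40F2M2_Gen N C vL π c X ϖ p t u y c₁ c₂ Y₁ Y₂ n)
    (hpn : (p : ℤ) ∣ n) :
    ∃ n'' : ℤ, S40F2SN_U1 (S40T2N_swap N) (u / c₂ / Y ^ ((p : ℤ) * n'')) := by
  obtain ⟨ι, s, w, m, u', E, hw0, hw₁, hw₂, hu'P, hu, hWL, -, -, -⟩ := hG.hdiv
  exact S40T2N_main N hC.hfin hC.hA₂ hC.hXY hC.hX hC.hY hC.hXP
    (S40T2G_range N hC.hCL hC.hϖL) s w m hw0 hw₁ hw₂
    (S40T2G_range N hC.hCL hG.hc₁) hG.hc₁0 (S40T2G_range N hC.hCL hG.hc₂) hG.hc₂0 hu'P p hu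
    (S40T2G_range N hC.hCL hWL) n hG.hu₁ hG.hu₂ hpn

section

variable {Fk : Type*} [Field Fk] [Algebra k Fk] (S : S18_Val L F k Fk) (v : Place k Fk)

/-- **T₂-NODE**: `p ∣ ord_v (red₂ (u / c₂))` at the place `v` of the node on the second
component. -/
theorem S40T2G_dvd (N : S40NA_Node L F k) (hO : N.O₂ = S.O)
    (hε : ∀ (f : F) (hf : f ∈ N.Lam) (hfO : f ∈ S.O),
      N.ε ⟨f, hf⟩ ≠ 0 → v.ord (S.red ⟨f, hfO⟩) = 0)
    {C : Subfield F} {vL : F → ℤ} {π c X Y ϖ : F} {p : ℕ}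
    {e' : ℤ} (hC : S40F2M_Coord N C vL π c X Y ϖ p e') {t : ℕ}
    {u y c₁ c₂ Y₁ Y₂ : F} {n : ℤ} (hG : S40F2M2_Gen N C vL π c X ϖ p t u y c₁ c₂ Y₁ Y₂ n)
    (hpn : (p : ℤ) ∣ n) (hu : S40F2S_IsU S.O (u / c₂)) :
    (p : ℤ) ∣ v.ord (S.red ⟨u / c₂, hu.mem⟩) := by
  obtain ⟨n'', hn''⟩ := S40T2G_u1 N hC hG hpn
  have hY : S40F2S_IsU S.O Y := hO ▸ hC.hY
  refine S40F2O_dvd S v (S40T2N_swap N) hO ?_ hu hY p n'' hn''
  intro f hf hfO hεf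
  exact hε f ((S40T2N_mem_swap N).1 hf) hfO hεf

/-- the same on the first component (`S40F2O_dvd`): `p ∣ ord_v (red₁ (u / c₁))`. -/
theorem S40T2G_dvd₁ (N : S40NA_Node L F k) (hO : N.O₁ = S.O)
    (hε : ∀ (f : F) (hf : f ∈ N.Lam) (hfO : f ∈ S.O),
      N.ε ⟨f, hf⟩ ≠ 0 → v.ord (S.red ⟨f, hfO⟩) = 0)
    {C : Subfield F} {vL : F → ℤ} {π c X Y ϖ : F} {p : ℕ}
    {e' : ℤ} (hC : S40F2M_Coord N C vL π c X Y ϖ p e') {t : ℕ}
    {u y c₁ c₂ Y₁ Y₂ : F} {n : ℤ} (hG : S40F2M2_Gen N C vL π c X ϖ p t u y c₁ c₂ Y₁ Y₂ n)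
    (hpn : (p : ℤ) ∣ n) (hu : S40F2S_IsU S.O (u / c₁)) :
    (p : ℤ) ∣ v.ord (S.red ⟨u / c₁, hu.mem⟩) := by
  obtain ⟨q, rfl⟩ := hpn
  have hX : S40F2S_IsU S.O X := hO ▸ hC.hX
  have h1 := hG.hu₁
  have e : u / (c₁ * X ^ ((p : ℤ) * q)) = u / c₁ / X ^ ((p : ℤ) * q) := by rw [div_div]
  rw [e] at h1
  exact S40F2O_dvd S v N hO hε hu hX p q h1

end

end Fermat.Agent.S40
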