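import Fermat.Agent.S40.F2Out

/-!
# TRACK 13 (S40/S44, row 38), (F2'): the NODE at the SECOND component (helper11).
Prefix `S40F2O2_`.

`S : S18_Val L F k Fk` with `S.O = N.O₂` (the second Gauss valuation), `v` the place of the fibre
`Fk` which is the node on `C₂`: `hε : ∀ f ∈ Λ, ε f ≠ 0 → ord_v (red₂ f) = 0`.

* `S40F2O2_P S v p g`  : `g` is a unit of `S.O` and `p ∣ ord_v (red g)`;  closed under `*`, `⁻¹`,
  finite products; contains `x ^ e` for a unit `x` and `p ∣ e`;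
* `S40F2O2_P_of_quot`  : `g · b = a`, `a, b ∈ Λ`, `ε a ≠ 0`, `ε b ≠ 0`  ⇒  `ord_v (red g) = 0`;
* `S40F2O2_quot`       : a `U1`-unit without zero and pole specialising to the node is such a
  quotient (Hartogs `S40NA_hartogs` + the value at the node);
* **`S40F2O2_dvd`**    : `u = u' ∏ (X − w i) ^ (p m i)`, `u'` without zero/pole specialising to the
  node, `u / (c₁ X ^ n)` a `U1`-unit, `u / c₂` a unit of `O₂`, `p ∣ n`
  ⇒  `p ∣ ord_v (red₂ (u / c₂))`.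
-/

set_option autoImplicit false

open AlgebraicCurve

noncomputable section

namespace Fermat.Agent.S40

open Fermat.Agent.S18 Fermat.Agent.GalRep

section

variable {L F k Fk : Type*} [Field L] [Field F] [Algebra L F] [Field k] [Field Fk]
  [Algebra k Fk] (S : S18_Val L F k Fk) (v : Place k Fk)

/-- `g` is a unit of `S.O` whose reduction has order divisible by `p` at `v`. -/
def S40F2O2_P (p : ℕ) (g : F) : Prop :=
  ∃ hg : S40F2S_IsU S.O g, (p : ℤ) ∣ v.ord (S.red ⟨g, hg.mem⟩)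

variable {S v}

theorem S40F2O2_P_one (p : ℕ) : S40F2O2_P S v p (1 : F) := by
  refine ⟨S40F2S_isU_one S.O, ?_⟩
  have e : (⟨1, (S40F2S_isU_one S.O).mem⟩ : ↥S.O) = 1 := rfl
  rw [e, map_one, Place.ord_one]
  exact dvd_zero _

theorem S40F2O2_P_mul {p : ℕ} {g h : F} (hg : S40F2O2_P S v p g) (hh : S40F2O2_P S v p h) :
    S40F2O2_P S v p (g * h) := by
  obtain ⟨hg1, hg2⟩ := hg
  obtain ⟨hh1, hh2⟩ := hh
  refine ⟨hg1.mul hh1, ?_⟩
  have e : (⟨g * h, (hg1.mul hh1).mem⟩ : ↥S.O) = ⟨g, hg1.mem⟩ * ⟨h, hh1.mem⟩ := rfl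
  rw [e, map_mul, v.ord_mul (S40NS_red_ne_zero_of_isU S hg1) (S40NS_red_ne_zero_of_isU S hh1)]
  exact dvd_add hg2 hh2

theorem S40F2O2_P_inv {p : ℕ} {g : F} (hg : S40F2O2_P S v p g) : S40F2O2_P S v p g⁻¹ := by
  obtain ⟨hg1, hg2⟩ := hg
  refine ⟨hg1.inv, ?_⟩
  rw [S40NS_red_inv S hg1, v.ord_inv]
  exact (dvd_neg).2 hg2

theorem S40F2O2_P_zpow {p : ℕ} {x : F} (hx : S40F2S_IsU S.O x) {e : ℤ} (he : (p : ℤ) ∣ e) :
    S40F2O2_P S v p (x ^ e) := by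
  refine ⟨hx.zpow e, ?_⟩
  rw [S40NS_red_zpow S hx, v.ord_zpow]
  exact Dvd.dvd.mul_right he _

theorem S40F2O2_P_prod {p : ℕ} {ι : Type*} (s : Finset ι) (f : ι → F)
    (h : ∀ i ∈ s, S40F2O2_P S v p (f i)) : S40F2O2_P S v p (∏ i ∈ s, f i) := by
  classical
  induction s using Finset.induction_on with
  | empty =>
    rw [Finset.prod_empty]
    exact S40F2O2_P_one p
  | insert j t hjt ih =>
    rw [Finset.prod_insert hjt]
    exact S40F2O2_P_mul (h j (Finset.mem_insert_self j t))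
      (ih (fun i hi => h i (Finset.mem_insert_of_mem hi)))

variable (S v)

/-- a quotient of two functions of `Λ` which do not vanish at the node has order `0` at `v`. -/
theorem S40F2O2_P_of_quot (N : S40NA_Node L F k) (hO : N.O₂ = S.O)
    (hε : ∀ (f : F) (hf : f ∈ N.Lam) (hfO : f ∈ S.O),
      N.ε ⟨f, hf⟩ ≠ 0 → v.ord (S.red ⟨f, hfO⟩) = 0)
    (p : ℕ) {g a b : F} (ha : a ∈ N.Lam) (hb : b ∈ N.Lam) (hab : g * b = a)
    (hεa : N.ε ⟨a, ha⟩ ≠ 0) (hεb : N.ε ⟨b, hb⟩ ≠ 0) : S40F2O2_P S v p g := by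
  have key : ∀ (f : F) (hf : f ∈ N.Lam), N.ε ⟨f, hf⟩ ≠ 0 →
      ∃ hU : S40F2S_IsU S.O f, v.ord (S.red ⟨f, hU.mem⟩) = 0 := by
    intro f hf hεf
    have hfO : f ∈ S.O := hO ▸ N.mem_O₂ hf
    have hnn : f ∉ S.O.nonunits := by
      intro hn
      have hn' : f ∈ N.O₂.nonunits := hO ▸ hn
      exact hεf (N.ε_zero₂ ⟨f, hf⟩ hn')
    exact ⟨S40F2S_isU_of_not_nonunits hfO hnn, hε f hf hfO hεf⟩
  obtain ⟨hUa, hoa⟩ := key a ha hεa
  obtain ⟨hUb, hob⟩ := key b hb hεb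
  have hg : g = a / b := by
    rw [← hab, mul_div_assoc, div_self hUb.ne_zero, mul_one]
  subst hg
  refine ⟨hUa.div hUb, ?_⟩
  rw [S40NS_red_div S hUa.mem hUb (hUa.div hUb).mem, div_eq_mul_inv,
    v.ord_mul (S40NS_red_ne_zero_of_isU S hUa) (inv_ne_zero (S40NS_red_ne_zero_of_isU S hUb)),
    v.ord_inv, hoa, hob, neg_zero, add_zero]
  exact dvd_zero _

end

section node

variable {L F k : Type*} [Field L] [Field F] [Algebra L F] [Field k]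

theorem S40F2O2_u1_prod (N : S40NA_Node L F k) {ι : Type*} (s : Finset ι) (f : ι → F)
    (h : ∀ i ∈ s, S40F2SN_U1 N (f i)) : S40F2SN_U1 N (∏ i ∈ s, f i) := by
  classical
  induction s using Finset.induction_on with
  | empty =>
    rw [Finset.prod_empty]
    exact S40F2SN_u1_one N
  | insert j t hjt ih =>
    rw [Finset.prod_insert hjt]
    exact S40F2SN_u1_mul N (h j (Finset.mem_insert_self j t))
      (ih (fun i hi => h i (Finset.mem_insert_of_mem hi)))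

theorem S40F2O2_noZP_one (N : S40NA_Node L F k) : S40F2SN_NoZP N (1 : F) :=
  fun Q _ _ => S40F2S_isU_one Q.P

theorem S40F2O2_noZP_prod (N : S40NA_Node L F k) {ι : Type*} (s : Finset ι) (f : ι → F)
    (h : ∀ i ∈ s, S40F2SN_NoZP N (f i)) : S40F2SN_NoZP N (∏ i ∈ s, f i) := by
  classical
  induction s using Finset.induction_on with
  | empty =>
    rw [Finset.prod_empty]
    exact S40F2O2_noZP_one N
  | insert j t hjt ih =>
    rw [Finset.prod_insert hjt]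
    exact S40F2SN_noZP_mul N (h j (Finset.mem_insert_self j t))
      (ih (fun i hi => h i (Finset.mem_insert_of_mem hi)))

/-- **a `U1`-unit without zero and pole specialising to the node is a quotient `a / b` of
functions of `Λ` which do not vanish at the node.** -/
theorem S40F2O2_quot (N : S40NA_Node L F k)
    (hfin : ∀ g : F, {Q : S40NA_Pt L F | Q ∈ N.U ∧ g ∉ Q.P}.Finite) {g : F}
    (h₁ : S40F2SN_U1 N g) (hP : S40F2SN_NoZP N g) :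
    ∃ (a b : F) (ha : a ∈ N.Lam) (hb : b ∈ N.Lam), g * b = a ∧ N.ε ⟨a, ha⟩ ≠ 0 ∧
      N.ε ⟨b, hb⟩ ≠ 0 := by
  have hg₂ := S40F2SN_glue_unit N hfin h₁ hP
  obtain ⟨a, b, ha, hb, hab, hεb⟩ := S40NA_hartogs N g h₁.1.mem hg₂.mem (hfin g)
    (fun Q hQ hg hc => hg (hP Q hQ hc).mem)
  obtain ⟨a', b', ha', hb', hn, hεa', hεb'⟩ := h₁.2
  refine ⟨a, b, ha, hb, hab, ?_, hεb⟩
  intro hεa
  have hd : a * b' - a' * b ∈ N.Lam :=
    N.Lam.sub_mem (N.Lam.mul_mem ha hb') (N.Lam.mul_mem ha' hb)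
  have hdn : a * b' - a' * b ∈ N.O₁.nonunits := by
    have e : a * b' - a' * b = (g * b' - a') * b := by rw [← hab]; ring
    rw [e]
    exact S40NA_nonunits_mul N.O₁ hn (N.mem_O₁ hb)
  have h0 := N.ε_zero₁ ⟨a * b' - a' * b, hd⟩ hdn
  have e : (⟨a * b' - a' * b, hd⟩ : ↥N.Lam) = ⟨a, ha⟩ * ⟨b', hb'⟩ - ⟨a', ha'⟩ * ⟨b, hb⟩ := rfl
  rw [e, map_sub, map_mul, map_mul, hεa, zero_mul, zero_sub, neg_eq_zero] at h0
  exact mul_ne_zero hεa' hεb h0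

end node

section main

variable {L F k Fk : Type*} [Field L] [Field F] [Algebra L F] [Field k] [Field Fk]
  [Algebra k Fk] (S : S18_Val L F k Fk) (v : Place k Fk) (N : S40NA_Node L F k)

/-- **the node on the second component**: `p ∣ ord_v (red₂ (u / c₂))`. -/
theorem S40F2O2_dvd (hO : N.O₂ = S.O)
    (hε : ∀ (f : F) (hf : f ∈ N.Lam) (hfO : f ∈ S.O),
      N.ε ⟨f, hf⟩ ≠ 0 → v.ord (S.red ⟨f, hfO⟩) = 0)
    (hA₂ : ∀ a : L, algebraMap L F a ∈ N.O₂ → a ∈ N.A)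
    (hfin : ∀ g : F, {Q : S40NA_Pt L F | Q ∈ N.U ∧ g ∉ Q.P}.Finite)
    {X Y ϖ : F} (hXY : X * Y = ϖ) (hX : S40F2S_IsU N.O₁ X) (hY : S40F2S_IsU N.O₂ Y)
    (hXP : S40F2SN_NoZP N X)
    {ι : Type*} (s : Finset ι) (w : ι → F) (m : ι → ℤ)
    (hw0 : ∀ i ∈ s, w i ≠ 0)
    (hw₁ : ∀ i ∈ s, w i ∈ N.O₁.nonunits) (hw₂ : ∀ i ∈ s, ϖ / w i ∈ N.O₂.nonunits)
    {u' c₁ : F} (hc₁ : c₁ ∈ (algebraMap L F).fieldRange) (hc₁0 : c₁ ≠ 0)
    (hu'P : S40F2SN_NoZP N u') (p : ℕ)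
    {u c₂ : F} (hu : u = u' * ∏ i ∈ s, (X - w i) ^ ((p : ℤ) * m i))
    (hc₂ : c₂ ∈ (algebraMap L F).fieldRange) (hc₂0 : c₂ ≠ 0)
    (hϖ : ϖ ∈ (algebraMap L F).fieldRange)
    (hW : ∏ i ∈ s, w i ^ m i ∈ (algebraMap L F).fieldRange)
    (n : ℤ) (hpn : (p : ℤ) ∣ n)
    (hu₁ : S40F2SN_U1 N (u / (c₁ * X ^ n)))
    (hu₂ : S40F2S_IsU S.O (u / c₂)) :
    (p : ℤ) ∣ v.ord (S.red ⟨u / c₂, hu₂.mem⟩) := by
  classical
  have hX0 : X ≠ 0 := hX.ne_zero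
  have hY0 : Y ≠ 0 := hY.ne_zero
  have hϖ0 : ϖ ≠ 0 := by rw [← hXY]; exact mul_ne_zero hX0 hY0
  have hu₂' : S40F2S_IsU N.O₂ (u / c₂) := hO ▸ hu₂
  have hY' : S40F2S_IsU S.O Y := hO ▸ hY
  have hu0 : u ≠ 0 := by
    intro h
    rw [h, zero_div] at hu₂
    exact hu₂.ne_zero rfl
  -- the linear factors
  have hlin0 : ∀ i ∈ s, X - w i ≠ 0 := by
    intro i hi h
    have := (S40F2SN_lin₁ N hX (hw₁ i hi)).1.ne_zero
    rw [h, zero_div] at this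
    exact this rfl
  -- `PA = ∏ ((X − w i) / X) ^ (p m i)`, `PB = ∏ ((X − w i) / w i · Y) ^ (p m i)`,
  -- `PW = ∏ (w i / ϖ) ^ (p m i)`
  obtain ⟨PA, hPA⟩ : ∃ PA : F, PA = ∏ i ∈ s, ((X - w i) / X) ^ ((p : ℤ) * m i) := ⟨_, rfl⟩
  obtain ⟨PB, hPB⟩ : ∃ PB : F, PB = ∏ i ∈ s, ((X - w i) / w i * Y) ^ ((p : ℤ) * m i) :=
    ⟨_, rfl⟩
  obtain ⟨PW, hPW⟩ : ∃ PW : F, PW = ∏ i ∈ s, (w i / ϖ) ^ ((p : ℤ) * m i) := ⟨_, rfl⟩
  obtain ⟨PX, hPX⟩ : ∃ PX : F, PX = ∏ i ∈ s, X ^ ((p : ℤ) * m i) := ⟨_, rfl⟩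
  obtain ⟨PL, hPL⟩ : ∃ PL : F, PL = ∏ i ∈ s, (X - w i) ^ ((p : ℤ) * m i) := ⟨_, rfl⟩
  have hPABW : PA = PB * PW := by
    rw [hPA, hPB, hPW, ← Finset.prod_mul_distrib]
    refine Finset.prod_congr rfl (fun i hi => ?_)
    rw [← mul_zpow]
    congr 1
    have hw0i := hw0 i hi
    rw [← hXY]
    field_simp
  have hPALX : PA * PX = PL := by
    rw [hPA, hPX, hPL, ← Finset.prod_mul_distrib]
    refine Finset.prod_congr rfl (fun i hi => ?_)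
    rw [← mul_zpow, div_mul_cancel₀ _ hX0]
  have hPX0 : PX ≠ 0 := by
    rw [hPX, Finset.prod_ne_zero_iff]
    intro i _
    exact zpow_ne_zero _ hX0
  have hPL0 : PL ≠ 0 := by
    rw [hPL, Finset.prod_ne_zero_iff]
    intro i hi
    exact zpow_ne_zero _ (hlin0 i hi)
  have hPA0 : PA ≠ 0 := by
    intro h
    rw [h, zero_mul] at hPALX
    exact hPL0 hPALX.symm
  have hPAU : S40F2SN_U1 N PA := by
    rw [hPA]
    exact S40F2O2_u1_prod N s _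
      (fun i hi => S40F2SN_u1_zpow N (S40F2SN_lin₁ N hX (hw₁ i hi)) _)
  have hPXP : S40F2SN_NoZP N PX := by
    rw [hPX]
    exact S40F2O2_noZP_prod N s _ (fun i _ => S40F2SN_noZP_zpow N hXP _)
  -- the function `g`
  obtain ⟨g, hg⟩ : ∃ g : F, g = u / (c₁ * X ^ n) / PA := ⟨_, rfl⟩
  have hgU : S40F2SN_U1 N g := by
    rw [hg]
    exact S40F2SN_u1_div N hu₁ hPAU
  have hXn0 : X ^ n ≠ 0 := zpow_ne_zero _ hX0
  have hg' : g = u' * PX / (c₁ * X ^ n) := by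
    rw [hg, hu, ← hPL, ← hPALX]
    field_simp
  have hgP : S40F2SN_NoZP N g := by
    rw [hg']
    exact S40F2SN_noZP_div N (S40F2SN_noZP_mul N hu'P hPXP)
      (S40F2SN_noZP_mul N (S40F2SN_noZP_const N hc₁ hc₁0) (S40F2SN_noZP_zpow N hXP n))
  obtain ⟨a, b, ha, hb, hab, hεa, hεb⟩ := S40F2O2_quot N hfin hgU hgP
  have hPg : S40F2O2_P S v p g := S40F2O2_P_of_quot S v N hO hε p ha hb hab hεa hεb
  -- the constant `K`
  have hK := S40F2SN_slope_gen N hfin hXY hX hY hXP s w (fun i => (p : ℤ) * m i) hw0 hw₁ hw₂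
    hc₁ hc₁0 hu'P hu hc₂0 n hu₁ hu₂'
  rw [← hPW] at hK
  obtain ⟨K, hKdef⟩ : ∃ K : F, K = c₂ / (c₁ * ϖ ^ n * PW) := ⟨_, rfl⟩
  rw [← hKdef] at hK
  have hPWr : PW ∈ (algebraMap L F).fieldRange := by
    have e : PW = (∏ i ∈ s, w i ^ m i) ^ (p : ℤ) / (∏ i ∈ s, ϖ ^ m i) ^ (p : ℤ) := by
      rw [hPW, ← div_zpow, ← Finset.prod_div_distrib, zpow_natCast, ← Finset.prod_pow]
      refine Finset.prod_congr rfl (fun i _ => ?_)
      rw [← div_zpow, ← zpow_natCast, ← zpow_mul, mul_comm]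
    rw [e]
    exact div_mem (zpow_mem hW _) (zpow_mem (prod_mem (fun i _ => zpow_mem hϖ _)) _)
  have hKr : K ∈ (algebraMap L F).fieldRange := by
    rw [hKdef]
    exact div_mem hc₂ (mul_mem (mul_mem hc₁ (zpow_mem hϖ _)) hPWr)
  obtain ⟨κ, hκ⟩ := hKr
  have hκA : κ ∈ N.A := hA₂ κ (by rw [hκ]; exact hK.mem)
  have hκ'A : κ⁻¹ ∈ N.A := hA₂ κ⁻¹ (by rw [map_inv₀, hκ]; exact hK.inv_mem)
  have hκ0 : κ ≠ 0 := by
    intro h0
    rw [h0, map_zero] at hκ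
    exact hK.ne_zero hκ.symm
  have hresκ : N.res ⟨κ, hκA⟩ ≠ 0 := by
    intro h0
    have h1 : N.res (⟨κ, hκA⟩ * ⟨κ⁻¹, hκ'A⟩) = 1 := by
      have e : (⟨κ, hκA⟩ * ⟨κ⁻¹, hκ'A⟩ : ↥N.A) = 1 := Subtype.ext (mul_inv_cancel₀ hκ0)
      rw [e, map_one]
    rw [map_mul, h0, zero_mul] at h1
    exact zero_ne_one h1
  have hKΛ : K ∈ N.Lam := by rw [← hκ]; exact N.const_mem hκA
  have hεK : N.ε ⟨K, hKΛ⟩ ≠ 0 := by
    have e := N.ε_const κ hκA (N.const_mem hκA)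
    have e2 : (⟨K, hKΛ⟩ : ↥N.Lam) = ⟨algebraMap L F κ, N.const_mem hκA⟩ := Subtype.ext hκ.symm
    rw [e2, e]
    exact hresκ
  have hPK : S40F2O2_P S v p K :=
    S40F2O2_P_of_quot S v N hO hε p hKΛ N.Lam.one_mem (mul_one K) hεK (by
      have e : (⟨1, N.Lam.one_mem⟩ : ↥N.Lam) = 1 := rfl
      rw [e, map_one]
      exact one_ne_zero)
  -- the factors at `V₂`
  have hPPB : S40F2O2_P S v p PB := by
    rw [hPB]
    refine S40F2O2_P_prod s _ (fun i hi => ?_)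
    have hl₂ : S40F2S_IsU N.O₂ ((X - w i) / w i) :=
      S40F2SN_lin₂ N hXY hY (hw0 i hi) (hw₂ i hi)
    have hl₂' : S40F2S_IsU S.O ((X - w i) / w i * Y) := hO ▸ (hl₂.mul hY)
    exact S40F2O2_P_zpow hl₂' (Dvd.intro _ rfl)
  have hPY : S40F2O2_P S v p (Y ^ n) := S40F2O2_P_zpow hY' hpn
  -- the identity
  have hK0 : K ≠ 0 := hK.ne_zero
  have hPW0 : PW ≠ 0 := by
    intro h
    rw [h, mul_zero] at hPABW
    exact hPA0 hPABW
  have hϖn0 : ϖ ^ n ≠ 0 := zpow_ne_zero _ hϖ0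
  have hYn0 : Y ^ n ≠ 0 := zpow_ne_zero _ hY0
  have hXn : X ^ n = ϖ ^ n / Y ^ n := by
    rw [← hXY, mul_zpow, mul_div_assoc, div_self hYn0, mul_one]
  have hPB0 : PB ≠ 0 := by
    intro h
    rw [h, zero_mul] at hPABW
    exact hPA0 hPABW
  have key : u / c₂ = g * PB * K⁻¹ * (Y ^ n)⁻¹ := by
    rw [hg, hPABW, hKdef, hXn]
    field_simp
  have hfinal : S40F2O2_P S v p (u / c₂) := by
    rw [key]
    exact S40F2O2_P_mul (S40F2O2_P_mul (S40F2O2_P_mul hPg hPPB) (S40F2O2_P_inv hPK))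
      (S40F2O2_P_inv hPY)
  obtain ⟨_, h⟩ := hfinal
  exact h

end main

end Fermat.Agent.S40
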