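import Mathlib
import Fermat.Agent.S36.RegCount

/-!
# TRACK 13 (S40, row 38), (F2') package P1-EXIST (helper20).  Prefix `S40F2P_`.

**Existence of a coordinate pair at a node, for ANY thickness** — the iteration of TRACK 10's
`S36RC_unit` (helper17, helper19) without the global count (no hypothesis on elliptic points, no
count of supersingular points).

Setting (`S40F2P_Hyp`, the fields of `S36RC_Hyp` for ONE node, without `hcusp`): a commutative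
ring `Λ` (integral functions over a discretely valued base), `π : Λ` the uniformiser, the two
reductions `red₁ red₂`, `cart` (`ker red₁ ∩ ker red₂ = π Λ`), the node `P` on `C₁`, `P'` on `C₂`,
`compat`, `ex_t`, `ex_s`, `ex_den₁`, `ex_den₂`, the filtration `V2`, and `φ₀ = f₀⁻¹`
(`f₀ = Δ(pz)/Δ(z)`, `V₂(φ₀) = 12`) with `div₀ : V2 (12 + a) h → h = h' φ₀ ∧ V2 a h'`.

* `S40F2P_step`  : the improvement step `(s, t) ↦ (H₁ s − π^e r₁, H₂ t − π^e r₂)`;
* `S40F2P_bound` : `V₂(t) ≥ 24` is impossible for `t` with a simple zero at the node;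
* `S40F2P_main`  : `∃ e, 1 ≤ e < 24, ∃ s t w, s t = π^e w`, `red₁ s = 0`, `red₂ s` with a simple zero
  at `P'`, `red₂ t = 0`, `red₁ t` with a simple zero at `P`, `w` a unit at the node.
-/

set_option autoImplicit false

open AlgebraicCurve

namespace Fermat.Agent.S40

open Fermat.Agent.S36

/-- the hypotheses at one node. -/
structure S40F2P_Hyp (k F₁ F₂ Λ : Type*) [Field k] [Field F₁] [Field F₂] [Algebra k F₁]
    [Algebra k F₂] [CommRing Λ] where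
  /-- the uniformiser of the base -/
  π : Λ
  /-- reduction along the first component -/
  red₁ : Λ →+* F₁
  /-- reduction along the second component -/
  red₂ : Λ →+* F₂
  red₁_π : red₁ π = 0
  red₂_π : red₂ π = 0
  /-- `ker red₁ ∩ ker red₂ = π Λ` -/
  cart : ∀ x : Λ, red₁ x = 0 → red₂ x = 0 → ∃ w : Λ, x = π * w
  /-- the node, seen on the first component -/
  P : Place k F₁
  /-- the node, seen on the second component -/
  P' : Place k F₂
  /-- reductions are regular at the node -/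
  reg₁ : ∀ x : Λ, 0 ≤ P.ord (red₁ x)
  reg₂ : ∀ x : Λ, 0 ≤ P'.ord (red₂ x)
  /-- the value at the node is well defined -/
  compat : ∀ f : Λ, S36RC_van P (red₁ f) ↔ S36RC_van P' (red₂ f)
  /-- an element of the ideal of `C₂` with a simple zero at the node on `C₁` -/
  ex_t : ∃ t : Λ, red₂ t = 0 ∧ red₁ t ≠ 0 ∧ P.ord (red₁ t) = 1
  /-- an element of the ideal of `C₁` with a simple zero at the node on `C₂` -/
  ex_s : ∃ s : Λ, red₁ s = 0 ∧ red₂ s ≠ 0 ∧ P'.ord (red₂ s) = 1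
  /-- functions regular at the node are fractions of reductions (first component) -/
  ex_den₁ : ∀ ρ : F₁, 0 ≤ P.ord ρ →
    ∃ H r : Λ, red₁ r = red₁ H * ρ ∧ ¬ S36RC_van P (red₁ H)
  /-- functions regular at the node are fractions of reductions (second component) -/
  ex_den₂ : ∀ ρ : F₂, 0 ≤ P'.ord ρ →
    ∃ H r : Λ, red₂ r = red₂ H * ρ ∧ ¬ S36RC_van P' (red₂ H)
  /-- `V2 m x` : `V₂(x) ≥ m` -/
  V2 : ℕ → Λ → Prop
  V2_one : ∀ x : Λ, red₂ x = 0 → V2 1 x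
  V2_mul : ∀ (a b : ℕ) (x y : Λ), V2 a x → V2 b y → V2 (a + b) (x * y)
  V2_sat : ∀ (m : ℕ) (x y : Λ), V2 m (x * y) → red₂ x ≠ 0 → V2 m y
  /-- `φ₀ = f₀⁻¹` -/
  φ₀ : Λ
  φ₀_ne : red₁ φ₀ ≠ 0
  φ₀_red₂ : red₂ φ₀ = 0
  /-- `V₂(h) ≥ 12 + a ⇒ h = h' φ₀` with `V₂(h') ≥ a` -/
  div₀ : ∀ (a : ℕ) (h : Λ), V2 (12 + a) h → ∃ h' : Λ, h = h' * φ₀ ∧ V2 a h'

variable {k F₁ F₂ Λ : Type*} [Field k] [Field F₁] [Field F₂] [Algebra k F₁]
    [Algebra k F₂] [CommRing Λ] (H : S40F2P_Hyp k F₁ F₂ Λ)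

/-- a state of the iteration at level `e`. -/
def S40F2P_St (e : ℕ) (s t w : Λ) : Prop :=
  s * t = H.π ^ e * w ∧ H.red₁ s = 0 ∧ H.red₂ s ≠ 0 ∧ H.P'.ord (H.red₂ s) = 1 ∧
    H.red₂ t = 0 ∧ H.red₁ t ≠ 0 ∧ H.P.ord (H.red₁ t) = 1 ∧ H.V2 e t

theorem S40F2P_V2_pi (e : ℕ) : H.V2 (e + 1) (H.π ^ (e + 1)) := by
  induction e with
  | zero => simpa using H.V2_one _ H.red₂_π
  | succ n ih =>
    have := H.V2_mul _ _ _ _ ih (H.V2_one _ H.red₂_π)
    rw [pow_succ H.π (n + 1)]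
    exact this

theorem S40F2P_red₁_pi (e : ℕ) : H.red₁ (H.π ^ (e + 1)) = 0 := by
  rw [map_pow, H.red₁_π, zero_pow (Nat.succ_ne_zero e)]

theorem S40F2P_red₂_pi (e : ℕ) : H.red₂ (H.π ^ (e + 1)) = 0 := by
  rw [map_pow, H.red₂_π, zero_pow (Nat.succ_ne_zero e)]

/-- a reduction not vanishing at the node on `C₁` is nonzero of order `0` there. -/
theorem S40F2P_unit₁ {x : Λ} (hx : ¬ S36RC_van H.P (H.red₁ x)) :
    H.red₁ x ≠ 0 ∧ H.P.ord (H.red₁ x) = 0 := by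
  refine ⟨fun h => hx (Or.inl h), ?_⟩
  have h1 : ¬ 0 < H.P.ord (H.red₁ x) := fun h => hx (Or.inr h)
  have h2 := H.reg₁ x
  omega

/-- a reduction not vanishing at the node on `C₂` is nonzero of order `0` there. -/
theorem S40F2P_unit₂ {x : Λ} (hx : ¬ S36RC_van H.P' (H.red₂ x)) :
    H.red₂ x ≠ 0 ∧ H.P'.ord (H.red₂ x) = 0 := by
  refine ⟨fun h => hx (Or.inl h), ?_⟩
  have h1 : ¬ 0 < H.P'.ord (H.red₂ x) := fun h => hx (Or.inr h)
  have h2 := H.reg₂ x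
  omega

/-- the quotient of a function vanishing at `Q` by a function with a simple zero is regular. -/
theorem S40F2P_quot_reg {F : Type*} [Field F] [Algebra k F] (Q : Place k F) {a b : F}
    (ha : S36RC_van Q a) (hb0 : b ≠ 0) (hb : Q.ord b = 1) : 0 ≤ Q.ord (a * b⁻¹) := by
  rcases ha with h0 | hpos
  · rw [h0, zero_mul, Place.ord_zero]
  · have ha0 : a ≠ 0 := by
      intro h0
      rw [h0, Place.ord_zero] at hpos
      exact lt_irrefl _ hpos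
    rw [Place.ord_mul _ ha0 (inv_ne_zero hb0), Place.ord_inv]
    omega

/-- **the improvement step**: a state at level `e + 1` whose `w` vanishes at the node gives a
state at level `e + 2`. -/
theorem S40F2P_step (e : ℕ) {s t w : Λ} (hst : S40F2P_St H (e + 1) s t w)
    (hw : S36RC_van H.P (H.red₁ w)) :
    ∃ s' t' w' : Λ, S40F2P_St H (e + 2) s' t' w' := by
  obtain ⟨hrel, hs₁, hs₂, hs, ht₂, ht₁, ht, -⟩ := hst
  have hw' : S36RC_van H.P' (H.red₂ w) := (H.compat w).1 hw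
  obtain ⟨H₂, r₂, hr₂, hH₂⟩ := H.ex_den₂ _ (S40F2P_quot_reg H.P' hw' hs₂ hs)
  obtain ⟨H₁, r₁, hr₁, hH₁⟩ := H.ex_den₁ _ (S40F2P_quot_reg H.P hw ht₁ ht)
  -- the units at the node
  have hH₁' : ¬ S36RC_van H.P' (H.red₂ H₁) := fun h => hH₁ ((H.compat H₁).2 h)
  have hH₂' : ¬ S36RC_van H.P (H.red₁ H₂) := fun h => hH₂ ((H.compat H₂).1 h)
  obtain ⟨hH₁0, hH₁ord⟩ := S40F2P_unit₂ H hH₁'
  obtain ⟨hH₂0, hH₂ord⟩ := S40F2P_unit₁ H hH₂'
  -- the bracket
  have hB₁ : H.red₁ (H₁ * H₂ * w - H₁ * s * r₂ - H₂ * t * r₁) = 0 := by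
    simp only [map_sub, map_mul, hs₁, hr₁]
    field_simp
    ring
  have hB₂ : H.red₂ (H₁ * H₂ * w - H₁ * s * r₂ - H₂ * t * r₁) = 0 := by
    simp only [map_sub, map_mul, ht₂, hr₂]
    field_simp
    ring
  obtain ⟨w₀, hw₀⟩ := H.cart _ hB₁ hB₂
  refine ⟨H₁ * s - H.π ^ (e + 1) * r₁, H₂ * t - H.π ^ (e + 1) * r₂,
    w₀ + H.π ^ e * (r₁ * r₂), ?_, ?_, ?_, ?_, ?_, ?_, ?_, ?_⟩
  · -- the relation
    have e1 : (H₁ * s - H.π ^ (e + 1) * r₁) * (H₂ * t - H.π ^ (e + 1) * r₂) =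
        H₁ * H₂ * (s * t) - H.π ^ (e + 1) * (H₁ * s * r₂ + H₂ * t * r₁) +
          H.π ^ (e + 1) * H.π ^ (e + 1) * (r₁ * r₂) := by ring
    rw [e1, hrel]
    have e2 : H₁ * H₂ * (H.π ^ (e + 1) * w) - H.π ^ (e + 1) * (H₁ * s * r₂ + H₂ * t * r₁) =
        H.π ^ (e + 1) * (H₁ * H₂ * w - H₁ * s * r₂ - H₂ * t * r₁) := by ring
    rw [e2, hw₀]
    ring
  · rw [map_sub, map_mul, map_mul, hs₁, S40F2P_red₁_pi, mul_zero, zero_mul, sub_zero]
  · rw [map_sub, map_mul, map_mul, S40F2P_red₂_pi, zero_mul, sub_zero]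
    exact mul_ne_zero hH₁0 hs₂
  · rw [map_sub, map_mul, map_mul, S40F2P_red₂_pi, zero_mul, sub_zero,
      Place.ord_mul _ hH₁0 hs₂, hH₁ord, hs, zero_add]
  · rw [map_sub, map_mul, map_mul, ht₂, S40F2P_red₂_pi, mul_zero, zero_mul, sub_zero]
  · rw [map_sub, map_mul, map_mul, S40F2P_red₁_pi, zero_mul, sub_zero]
    exact mul_ne_zero hH₂0 ht₁
  · rw [map_sub, map_mul, map_mul, S40F2P_red₁_pi, zero_mul, sub_zero,
      Place.ord_mul _ hH₂0 ht₁, hH₂ord, ht, zero_add]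
  · -- `V₂(t') ≥ e + 2`
    have e3 : s * (H₂ * t - H.π ^ (e + 1) * r₂) = H.π ^ (e + 1) * (H₂ * w - s * r₂) := by
      have : s * (H₂ * t - H.π ^ (e + 1) * r₂) = H₂ * (s * t) - H.π ^ (e + 1) * (s * r₂) := by
        ring
      rw [this, hrel]
      ring
    have e4 : H.red₂ (H₂ * w - s * r₂) = 0 := by
      rw [map_sub, map_mul, map_mul, hr₂]
      field_simp
      ring
    have h1 := H.V2_mul _ _ _ _ (S40F2P_V2_pi H e) (H.V2_one _ e4)
    rw [← e3] at h1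
    exact H.V2_sat _ _ _ h1 hs₂

/-- the base state. -/
theorem S40F2P_base : ∃ s t w : Λ, S40F2P_St H 1 s t w := by
  obtain ⟨t, ht₂, ht₁, ht⟩ := H.ex_t
  obtain ⟨s, hs₁, hs₂, hs⟩ := H.ex_s
  obtain ⟨w, hw⟩ := H.cart (s * t) (by rw [map_mul, hs₁, zero_mul])
    (by rw [map_mul, ht₂, mul_zero])
  exact ⟨s, t, w, by rw [hw, pow_one], hs₁, hs₂, hs, ht₂, ht₁, ht, H.V2_one _ ht₂⟩

/-- `φ₀` vanishes at the node. -/
theorem S40F2P_phi_ord : 1 ≤ H.P.ord (H.red₁ H.φ₀) := by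
  have h1 : S36RC_van H.P (H.red₁ H.φ₀) := (H.compat H.φ₀).2 (Or.inl H.φ₀_red₂)
  rcases h1 with h | h
  · exact (H.φ₀_ne h).elim
  · omega

/-- **the bound**: no state at level `24`. -/
theorem S40F2P_bound {s t w : Λ} (hst : S40F2P_St H 24 s t w) : False := by
  obtain ⟨-, -, -, -, -, ht₁, ht, hV⟩ := hst
  obtain ⟨h', hh', hV'⟩ := H.div₀ 12 t hV
  obtain ⟨h'', hh'', -⟩ := H.div₀ 0 h' hV'
  have e : H.red₁ t = H.red₁ h'' * H.red₁ H.φ₀ * H.red₁ H.φ₀ := by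
    rw [hh', hh'', map_mul, map_mul]
  have hne : H.red₁ h'' ≠ 0 := by
    intro h0
    rw [h0, zero_mul, zero_mul] at e
    exact ht₁ e
  have h1 := S40F2P_phi_ord H
  have h2 := H.reg₁ h''
  rw [e, Place.ord_mul _ (mul_ne_zero hne H.φ₀_ne) H.φ₀_ne, Place.ord_mul _ hne H.φ₀_ne] at ht
  omega

/-- the induction: after `n` steps either a good state was found or a state at level `n + 1`
exists. -/
theorem S40F2P_iter (n : ℕ) :
    (∃ e : ℕ, e < n ∧ ∃ s t w : Λ, S40F2P_St H (e + 1) s t w ∧ ¬ S36RC_van H.P (H.red₁ w)) ∨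
      ∃ s t w : Λ, S40F2P_St H (n + 1) s t w := by
  induction n with
  | zero => exact Or.inr (S40F2P_base H)
  | succ n ih =>
    rcases ih with ⟨e, he, h⟩ | ⟨s, t, w, hst⟩
    · exact Or.inl ⟨e, by omega, h⟩
    · by_cases hw : S36RC_van H.P (H.red₁ w)
      · exact Or.inr (S40F2P_step H n hst hw)
      · exact Or.inl ⟨n, by omega, s, t, w, hst, hw⟩

/-- **P1-EXIST**: a coordinate pair at the node: `s t = π ^ e w` with `1 ≤ e < 24`, `s` in the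
ideal of `C₁` with a simple zero at the node on `C₂`, `t` in the ideal of `C₂` with a simple zero
at the node on `C₁`, and `w` a unit at the node. -/
theorem S40F2P_main :
    ∃ e : ℕ, 1 ≤ e ∧ e < 24 ∧ ∃ s t w : Λ, s * t = H.π ^ e * w ∧
      H.red₁ s = 0 ∧ H.red₂ s ≠ 0 ∧ H.P'.ord (H.red₂ s) = 1 ∧
      H.red₂ t = 0 ∧ H.red₁ t ≠ 0 ∧ H.P.ord (H.red₁ t) = 1 ∧ H.V2 e t ∧
      ¬ S36RC_van H.P (H.red₁ w) ∧ ¬ S36RC_van H.P' (H.red₂ w) := by
  rcases S40F2P_iter H 23 with ⟨e, he, s, t, w, hst, hw⟩ | ⟨s, t, w, hst⟩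
  · obtain ⟨hrel, hs₁, hs₂, hs, ht₂, ht₁, ht, hV⟩ := hst
    exact ⟨e + 1, by omega, by omega, s, t, w, hrel, hs₁, hs₂, hs, ht₂, ht₁, ht, hV, hw,
      fun h => hw ((H.compat w).2 h)⟩
  · exact (S40F2P_bound H hst).elim

end Fermat.Agent.S40
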