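import Mathlib
import Fermat.Agent.S40.F2P
import Fermat.Agent.S40.F2PEx

/-!
# TRACK 13 (S40/S44), (F2') package P1-INST, the BUILDER (helper13).  Prefix `S40F2PB_`.

`S40F2PB_Fib k F₁ F₂ Λ ι` : the geometric inputs of P1-INST in "fibre product + Riemann–Roch"
form, for ALL nodes at once (= `S36RC_Fib` of T10 without the count `hcusp`, with `lift₂` and
`reg` on BOTH components, and `div₀` in the graded form of `S40F2P_Hyp`):

* (a) [helper18] `cart`, `compat`, `reg₁`, `reg₂`, `lift₁`, `lift₁'`, `lift₂`, `lift₂'`, nodes,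
  cusps, `rr₁`, `rr₂`;
* (c) [helper12] `V2`, `V2_one`, `V2_mul`, `V2_sat`, `φ₀`, `φ₀_ne`, `φ₀_red₂`, `div₀`.

`S40F2PB_Fib.toHyp H i : S40F2P_Hyp k F₁ F₂ Λ` : the hypotheses of P1-EXIST at the node `i`
(`ex_t`, `ex_s`, `ex_den₁`, `ex_den₂` by `S40/F2PEx.lean`).
`S40F2PB_main H i` : the conclusion of `S40F2P_main` at the node `i`.
-/

set_option autoImplicit false
set_option linter.unusedSectionVars false
set_option linter.unusedVariables false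

open AlgebraicCurve

namespace Fermat.Agent.S40

open Fermat.Agent.Lib Fermat.Agent.S17 Fermat.Agent.S36

/-- the inputs of P1-INST, in "fibre product + Riemann–Roch" form, for all nodes. -/
structure S40F2PB_Fib (k F₁ F₂ Λ ι : Type*) [Field k] [Field F₁] [Field F₂] [Algebra k F₁]
    [Algebra k F₂] [CommRing Λ] where
  /-- the uniformiser of the base -/
  π : Λ
  /-- reduction along the first component -/
  red₁ : Λ →+* F₁
  /-- reduction along the second component -/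
  red₂ : Λ →+* F₂
  red₁_π : red₁ π = 0
  red₂_π : red₂ π = 0
  /-- `ker red₁ ∩ ker red₂ = π Λ` -/
  cart : ∀ x : Λ, red₁ x = 0 → red₂ x = 0 → ∃ w : Λ, x = π * w
  /-- the cusps of the first component -/
  cusps₁ : Finset (Place k F₁)
  /-- the cusps of the second component -/
  cusps₂ : Finset (Place k F₂)
  /-- a cusp of the first component -/
  c₁ : Place k F₁
  /-- a cusp of the second component -/
  c₂ : Place k F₂
  hc₁ : c₁ ∈ cusps₁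
  hc₂ : c₂ ∈ cusps₂
  /-- reductions are regular off the cusps -/
  reg₁ : ∀ (x : Λ) (Q : Place k F₁), Q ∉ cusps₁ → 0 ≤ Q.ord (red₁ x)
  reg₂ : ∀ (x : Λ) (Q : Place k F₂), Q ∉ cusps₂ → 0 ≤ Q.ord (red₂ x)
  /-- the nodes, seen on the first component -/
  P : ι → Place k F₁
  /-- the nodes, seen on the second component -/
  P' : ι → Place k F₂
  P_not_cusp : ∀ i, P i ∉ cusps₁
  P'_not_cusp : ∀ i, P' i ∉ cusps₂
  /-- the value at a node is well defined -/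
  compat : ∀ (i : ι) (f : Λ), S36RC_van (P i) (red₁ f) ↔ S36RC_van (P' i) (red₂ f)
  /-- fibre product, first component: `(a, 0)` lifts if `a` vanishes at the nodes -/
  lift₁ : ∀ a : F₁, (∀ Q : Place k F₁, Q ∉ cusps₁ → 0 ≤ Q.ord a) → (∀ i, S36RC_van (P i) a) →
    ∃ t : Λ, red₁ t = a ∧ red₂ t = 0
  /-- fibre product, second component: `(0, b)` lifts if `b` vanishes at the nodes -/
  lift₁' : ∀ b : F₂, (∀ Q : Place k F₂, Q ∉ cusps₂ → 0 ≤ Q.ord b) → (∀ i, S36RC_van (P' i) b) →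
    ∃ s : Λ, red₁ s = 0 ∧ red₂ s = b
  /-- `red₁` is onto the functions regular off the cusps -/
  lift₂' : ∀ a : F₁, (∀ Q : Place k F₁, Q ∉ cusps₁ → 0 ≤ Q.ord a) → ∃ x : Λ, red₁ x = a
  /-- `red₂` is onto the functions regular off the cusps -/
  lift₂ : ∀ b : F₂, (∀ Q : Place k F₂, Q ∉ cusps₂ → 0 ≤ Q.ord b) → ∃ x : Λ, red₂ x = b
  rr₁ : RR_Hyp k F₁
  rr₂ : RR_Hyp k F₂
  /-- `V2 m x` : `V₂(x) ≥ m` -/
  V2 : ℕ → Λ → Prop
  V2_one : ∀ x : Λ, red₂ x = 0 → V2 1 x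
  V2_mul : ∀ (a b : ℕ) (x y : Λ), V2 a x → V2 b y → V2 (a + b) (x * y)
  V2_sat : ∀ (m : ℕ) (x y : Λ), V2 m (x * y) → red₂ x ≠ 0 → V2 m y
  /-- `φ₀ = f₀⁻¹` -/
  φ₀ : Λ
  φ₀_ne : red₁ φ₀ ≠ 0
  φ₀_red₂ : red₂ φ₀ = 0
  /-- `V₂(h) ≥ 12 + a ⇒ h = h' φ₀` with `V₂(h') ≥ a` -/
  div₀ : ∀ (a : ℕ) (h : Λ), V2 (12 + a) h → ∃ h' : Λ, h = h' * φ₀ ∧ V2 a h'

variable {k F₁ F₂ Λ ι : Type*} [Field k] [Field F₁] [Field F₂] [Algebra k F₁]
    [Algebra k F₂] [CommRing Λ] [Fintype ι] [Infinite k]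

/-- **the hypotheses of P1-EXIST at the node `i`**. -/
noncomputable def S40F2PB_Fib.toHyp (H : S40F2PB_Fib k F₁ F₂ Λ ι) (i : ι) :
    S40F2P_Hyp k F₁ F₂ Λ where
  π := H.π
  red₁ := H.red₁
  red₂ := H.red₂
  red₁_π := H.red₁_π
  red₂_π := H.red₂_π
  cart := H.cart
  P := H.P i
  P' := H.P' i
  reg₁ := fun x => H.reg₁ x (H.P i) (H.P_not_cusp i)
  reg₂ := fun x => H.reg₂ x (H.P' i) (H.P'_not_cusp i)
  compat := H.compat i
  ex_t := S40F2PE_ex_t H.red₁ H.red₂ H.rr₁ H.cusps₁ H.c₁ H.hc₁ H.P H.P_not_cusp H.lift₁ i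
  ex_s := S40F2PE_ex_s H.red₁ H.red₂ H.rr₂ H.cusps₂ H.c₂ H.hc₂ H.P' H.P'_not_cusp H.lift₁' i
  ex_den₁ := fun ρ hρ =>
    S40F2PE_ex_den H.red₁ H.rr₁ H.cusps₁ H.c₁ H.hc₁ H.lift₂' (H.P i) (H.P_not_cusp i) ρ hρ
  ex_den₂ := fun ρ hρ =>
    S40F2PE_ex_den H.red₂ H.rr₂ H.cusps₂ H.c₂ H.hc₂ H.lift₂ (H.P' i) (H.P'_not_cusp i) ρ hρ
  V2 := H.V2
  V2_one := H.V2_one
  V2_mul := H.V2_mul
  V2_sat := H.V2_sat
  φ₀ := H.φ₀
  φ₀_ne := H.φ₀_ne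
  φ₀_red₂ := H.φ₀_red₂
  div₀ := H.div₀

/-- **P1 at the node `i`**: the coordinate pair of `S40F2P_main`, from the fibre product and
Riemann–Roch. -/
theorem S40F2PB_main (H : S40F2PB_Fib k F₁ F₂ Λ ι) (i : ι) :
    ∃ e : ℕ, 1 ≤ e ∧ e < 24 ∧ ∃ s t w : Λ, s * t = H.π ^ e * w ∧
      H.red₁ s = 0 ∧ H.red₂ s ≠ 0 ∧ (H.P' i).ord (H.red₂ s) = 1 ∧
      H.red₂ t = 0 ∧ H.red₁ t ≠ 0 ∧ (H.P i).ord (H.red₁ t) = 1 ∧ H.V2 e t ∧
      ¬ S36RC_van (H.P i) (H.red₁ w) ∧ ¬ S36RC_van (H.P' i) (H.red₂ w) :=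
  S40F2P_main (H.toHyp i)

end Fermat.Agent.S40
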