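import Fermat.Agent.S40.F2PolyInst2

/-!
# TRACK 13 (S40), (F2'), gap (A1), instance layer 3 (helper1).  Prefix `S40F2YA_`.

The action of a semilinear automorphism on the places, and the two hypotheses of
`S40F2YK_hdiv` which depend on it.

* `S40F2YA_mapPt g gL hg Q` : the place `g Q` (`g : F ≃+* F`, `gL : L ≃+* L`,
  `g (c) = gL c` on the constants): valuation ring `g (Q.P)`, evaluation `gL ∘ ev_Q ∘ g⁻¹`;
* `S40F2YA_act` : `S40F2YK_Act N g (S40F2YA_mapPt g gL hg)` as soon as `g` preserves the chart `U`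
  and the centred places (`hU`);
* `S40F2YA_centred` : `g Q` is centred if `g⁻¹` preserves `Λ` and `ε`, and `gL` preserves `A` and
  `res` (inertia);
* `S40F2YA_noZP` : `hσZP` of `S40F2YK_hdiv`: `NoZP f → NoZP (σ f)` from the action of `σ⁻¹`.
-/

set_option autoImplicit false

namespace Fermat.Agent.S40

section

variable {L F k : Type*} [Field L] [Field F] [Algebra L F] [Field k]

theorem S40F2YA_symm_alg (g : F ≃+* F) (gL : L ≃+* L)
    (hg : ∀ c : L, g (algebraMap L F c) = algebraMap L F (gL c)) (c : L) :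
    g.symm (algebraMap L F c) = algebraMap L F (gL.symm c) := by
  rw [RingEquiv.symm_apply_eq, hg, RingEquiv.apply_symm_apply]

theorem S40F2YA_mem_nonunits_comap (O : ValuationSubring F) (g : F ≃+* F) (x : F) :
    x ∈ (O.comap (g.symm : F →+* F)).nonunits ↔ g.symm x ∈ O.nonunits := by
  rw [ValuationSubring.mem_nonunits_iff_or, ValuationSubring.mem_nonunits_iff_or,
    ValuationSubring.mem_comap]
  have e1 : (g.symm : F →+* F) x⁻¹ = (g.symm x)⁻¹ := map_inv₀ _ _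
  have e2 : g.symm x = 0 ↔ x = 0 := map_eq_zero_iff _ g.symm.injective
  rw [e1, e2]

/-- **the place `g Q`.** -/
noncomputable def S40F2YA_mapPt (g : F ≃+* F) (gL : L ≃+* L)
    (hg : ∀ c : L, g (algebraMap L F c) = algebraMap L F (gL c)) (Q : S40NA_Pt L F) :
    S40NA_Pt L F where
  P := Q.P.comap (g.symm : F →+* F)
  ev := (gL : L →+* L).comp (Q.ev.comp
    (RingHom.restrict (g.symm : F →+* F) (Q.P.comap (g.symm : F →+* F)) Q.P
      (fun _ hx => ValuationSubring.mem_comap.1 hx)))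
  alg_mem := by
    intro c
    rw [ValuationSubring.mem_comap]
    show g.symm (algebraMap L F c) ∈ Q.P
    rw [S40F2YA_symm_alg g gL hg]
    exact Q.alg_mem _
  ev_alg := by
    intro c
    show gL (Q.ev ⟨g.symm (algebraMap L F c), _⟩) = c
    have e : (⟨g.symm (algebraMap L F c), by
        rw [S40F2YA_symm_alg g gL hg]; exact Q.alg_mem _⟩ : ↥Q.P) =
        ⟨algebraMap L F (gL.symm c), Q.alg_mem _⟩ :=
      Subtype.ext (S40F2YA_symm_alg g gL hg c)
    rw [e, Q.ev_alg, RingEquiv.apply_symm_apply]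
  ev_eq_zero := by
    intro x hx
    have h1 : gL (Q.ev ⟨g.symm (x : F), ValuationSubring.mem_comap.1 x.2⟩) = 0 := hx
    have h2 : Q.ev ⟨g.symm (x : F), ValuationSubring.mem_comap.1 x.2⟩ = 0 :=
      (map_eq_zero_iff _ gL.injective).1 h1
    exact (S40F2YA_mem_nonunits_comap Q.P g _).2 (Q.ev_eq_zero _ h2)
  arch := by
    intro g' b hb
    obtain ⟨m, hm⟩ := Q.arch (g.symm g') (g.symm b) ((S40F2YA_mem_nonunits_comap Q.P g b).1 hb)
    refine ⟨m, ?_⟩
    rw [ValuationSubring.mem_comap]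
    show g.symm (g' * b ^ m) ∈ Q.P
    rw [map_mul, map_pow]
    exact hm

theorem S40F2YA_mem_mapPt (g : F ≃+* F) (gL : L ≃+* L)
    (hg : ∀ c : L, g (algebraMap L F c) = algebraMap L F (gL c)) (Q : S40NA_Pt L F) (f : F) :
    f ∈ (S40F2YA_mapPt g gL hg Q).P ↔ g.symm f ∈ Q.P :=
  ValuationSubring.mem_comap

theorem S40F2YA_at_mapPt (g : F ≃+* F) (gL : L ≃+* L)
    (hg : ∀ c : L, g (algebraMap L F c) = algebraMap L F (gL c)) (Q : S40NA_Pt L F) (f : F)
    (hf : g.symm f ∈ Q.P) :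
    S40F2N_at (S40F2YA_mapPt g gL hg Q) f = gL (S40F2N_at Q (g.symm f)) := by
  rw [S40F2N_at_mem _ ((S40F2YA_mem_mapPt g gL hg Q f).2 hf), S40F2N_at_mem Q hf]
  rfl

/-- **the action of `g` on the places**, given that `g` preserves the centred places of the
chart. -/
theorem S40F2YA_act (N : S40NA_Node L F k) (g : F ≃+* F) (gL : L ≃+* L)
    (hg : ∀ c : L, g (algebraMap L F c) = algebraMap L F (gL c))
    (hU : ∀ (Q : S40NA_Pt L F) (hQ : Q ∈ N.U), S40NA_Centred N Q hQ →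
      ∃ hQ' : S40F2YA_mapPt g gL hg Q ∈ N.U, S40NA_Centred N (S40F2YA_mapPt g gL hg Q) hQ') :
    S40F2YK_Act N (g : F →+* F) (S40F2YA_mapPt g gL hg) where
  centred := hU
  mem_iff := by
    intro Q f
    rw [S40F2YA_mem_mapPt]
    show g.symm (g f) ∈ Q.P ↔ f ∈ Q.P
    rw [RingEquiv.symm_apply_apply]
  at_eq := by
    intro Q f hf
    have h1 : g.symm (g f) ∈ Q.P := by rw [RingEquiv.symm_apply_apply]; exact hf
    show algebraMap L F (S40F2N_at (S40F2YA_mapPt g gL hg Q) (g f)) =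
      g (algebraMap L F (S40F2N_at Q f))
    rw [S40F2YA_at_mapPt g gL hg Q (g f) h1, hg]
    congr 2
    rw [RingEquiv.symm_apply_apply]

/-- **`g Q` is centred at the node** when `Q` is, if `g⁻¹` preserves `Λ` and the value `ε` at
the node, and `gL` preserves `A` and the residue map (the case of the inertia group). -/
theorem S40F2YA_centred (N : S40NA_Node L F k) (g : F ≃+* F) (gL : L ≃+* L)
    (hg : ∀ c : L, g (algebraMap L F c) = algebraMap L F (gL c))
    (hΛ : ∀ (f : F) (hf : f ∈ N.Lam), ∃ hf' : g.symm f ∈ N.Lam,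
      N.ε ⟨g.symm f, hf'⟩ = N.ε ⟨f, hf⟩)
    (hA : ∀ (a : L) (ha : a ∈ N.A), ∃ ha' : gL a ∈ N.A, N.res ⟨gL a, ha'⟩ = N.res ⟨a, ha⟩)
    (Q : S40NA_Pt L F) (hQ : Q ∈ N.U) (hc : S40NA_Centred N Q hQ)
    (hQ' : S40F2YA_mapPt g gL hg Q ∈ N.U) :
    S40NA_Centred N (S40F2YA_mapPt g gL hg Q) hQ' := by
  intro f hf
  obtain ⟨hf', hε⟩ := hΛ f hf
  obtain ⟨h1, h2⟩ := hc (g.symm f) hf'
  obtain ⟨h3, h4⟩ := hA _ h1
  have e : (S40F2YA_mapPt g gL hg Q).ev ⟨f, N.mem_pt hf hQ'⟩ =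
      gL (Q.ev ⟨g.symm f, N.mem_pt hf' hQ⟩) := rfl
  refine ⟨by rw [e]; exact h3, ?_⟩
  have e' : (⟨(S40F2YA_mapPt g gL hg Q).ev ⟨f, N.mem_pt hf hQ'⟩, by rw [e]; exact h3⟩ : ↥N.A) =
      ⟨gL (Q.ev ⟨g.symm f, N.mem_pt hf' hQ⟩), h3⟩ := Subtype.ext e
  rw [e', h4, h2, hε]

/-- **`hσZP`**: `σ` preserves the functions without zero and pole specialising to the node, if
`σ⁻¹` acts on the places preserving the centred ones. -/
theorem S40F2YA_noZP (N : S40NA_Node L F k) (σ : F ≃+* F)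
    (τ : S40NA_Pt L F → S40NA_Pt L F) (hA : S40F2YK_Act N (σ.symm : F →+* F) τ) {f : F}
    (hf : S40F2SN_NoZP N f) : S40F2SN_NoZP N (σ f) := by
  intro Q hQ hc
  obtain ⟨hQ', hc'⟩ := hA.centred Q hQ hc
  have h1 := hf (τ Q) hQ' hc'
  have h2 := (hA.isU_iff Q (σ f)).1
  apply h2
  show S40F2S_IsU (τ Q).P (σ.symm (σ f))
  rw [RingEquiv.symm_apply_apply]
  exact h1

end

end Fermat.Agent.S40
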