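import Mathlib
import Fermat.Agent.S40.F2Jump

/-!
# TRACK 13 (S40), (F2'), gap (A1): the break inputs `hint`, `hB` of `S40F2YK_hdiv` (helper1).
Prefix `S40F2YB_`.  Mathlib + `F2Jump`.

Valuation form on a field `F` (the function field) with a subfield `Cf` of constants, a ring
endomorphism `σ`, and the constants `π, c, r` of the break
(`σ π = π (1 + c π^t) + π^(t+2) r`, `S40F2B_main`):

* `S40F2YB_int` : `V (σ z − z) ≤ V π ^ (t+1)` for the integral constants `z ∈ Cf`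
  (from `res`: `z = b + π z'`, `σ b = b`; the valuation form of `S40LB_int`);
* `S40F2YB_pi` : `σ π / π ≡ 1 + c π^t`;
* `S40F2YB_B` : **(B)** `σ a / a ≡ 1 + c · vL(a) · π^t  mod π^(t+1)` for every constant
  `a ∈ Cf`, `a ≠ 0`, `V a = V π ^ vL(a)`.
-/

set_option autoImplicit false

namespace Fermat.Agent.S40

variable {F : Type*} [Field F] {Γ : Type*} [LinearOrderedCommGroupWithZero Γ]
variable {V : Valuation F Γ} {σ : F →+* F} {π c r : F} {t : ℕ}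

/-- `V (σ π − π) ≤ V π ^ (t+1)`. -/
theorem S40F2YB_unif_le (hπ : V π ≤ 1) (hc : V c ≤ 1) (hr : V r ≤ 1)
    (hunif : σ π = π * (1 + c * π ^ t) + π ^ (t + 2) * r) :
    V (σ π - π) ≤ V π ^ (t + 1) := by
  have e : σ π - π = π ^ (t + 1) * (c + π * r) := by rw [hunif]; ring
  rw [e, map_mul, map_pow]
  have h1 : V (c + π * r) ≤ 1 := by
    refine V.map_add_le hc ?_
    rw [map_mul]
    exact mul_le_one' hπ hr
  exact mul_le_of_le_one_right' h1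

/-- `σ ≡ id mod π^n` on the integral constants, `n ≤ t + 1`. -/
theorem S40F2YB_int_aux (Cf : Subfield F) (hπ : V π ≤ 1)
    (hσV : ∀ a ∈ Cf, V a ≤ 1 → V (σ a) ≤ 1)
    (hres : ∀ z ∈ Cf, V z ≤ 1 → ∃ b z' : F, σ b = b ∧ z' ∈ Cf ∧ V z' ≤ 1 ∧ z = b + π * z')
    (hc : V c ≤ 1) (hr : V r ≤ 1) (hunif : σ π = π * (1 + c * π ^ t) + π ^ (t + 2) * r)
    (n : ℕ) (hn : n ≤ t + 1) : ∀ z ∈ Cf, V z ≤ 1 → V (σ z - z) ≤ V π ^ n := by
  induction n with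
  | zero =>
    intro z hz hz1
    rw [pow_zero]
    exact V.map_sub_le (hσV z hz hz1) hz1
  | succ n ih =>
    intro z hz hz1
    obtain ⟨b, z', hb, hz', hz'1, rfl⟩ := hres z hz hz1
    have e : σ (b + π * z') - (b + π * z') = (σ π - π) * σ z' + π * (σ z' - z') := by
      rw [map_add, map_mul, hb]; ring
    rw [e]
    refine V.map_add_le ?_ ?_
    · rw [map_mul]
      have h1 := S40F2YB_unif_le hπ hc hr hunif
      have h2 : V π ^ (t + 1) ≤ V π ^ (n + 1) := pow_le_pow_right_of_le_one' hπ hn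
      calc V (σ π - π) * V (σ z') ≤ V π ^ (t + 1) * 1 := mul_le_mul' h1 (hσV z' hz' hz'1)
        _ = V π ^ (t + 1) := mul_one _
        _ ≤ V π ^ (n + 1) := h2
    · rw [map_mul, pow_succ, mul_comm (V π ^ n)]
      exact mul_le_mul' le_rfl (ih (by omega) z' hz' hz'1)

/-- **`hint`**: `σ ≡ id mod π^(t+1)` on the integral constants. -/
theorem S40F2YB_int (Cf : Subfield F) (hπ : V π ≤ 1)
    (hσV : ∀ a ∈ Cf, V a ≤ 1 → V (σ a) ≤ 1)
    (hres : ∀ z ∈ Cf, V z ≤ 1 → ∃ b z' : F, σ b = b ∧ z' ∈ Cf ∧ V z' ≤ 1 ∧ z = b + π * z')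
    (hc : V c ≤ 1) (hr : V r ≤ 1) (hunif : σ π = π * (1 + c * π ^ t) + π ^ (t + 2) * r) :
    ∀ z ∈ Cf, V z ≤ 1 → V (σ z - z) ≤ V π ^ (t + 1) :=
  S40F2YB_int_aux Cf hπ hσV hres hc hr hunif (t + 1) le_rfl

/-- `σ π / π ≡ 1 + c π^t`. -/
theorem S40F2YB_pi (hπ0 : π ≠ 0) (hr : V r ≤ 1)
    (hunif : σ π = π * (1 + c * π ^ t) + π ^ (t + 2) * r) :
    S40F2J_Cg V π t (σ π / π) c := by
  unfold S40F2J_Cg
  have e : σ π / π - (1 + c * π ^ t) = π ^ (t + 1) * r := by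
    rw [hunif]
    field_simp
    ring
  rw [e, map_mul, map_pow]
  exact mul_le_of_le_one_right' hr

/-- a constant of valuation `1` : `σ ε / ε ≡ 1`. -/
theorem S40F2YB_unit {ε : F} (hε : V ε = 1) (h : V (σ ε - ε) ≤ V π ^ (t + 1)) :
    S40F2J_Cg V π t (σ ε / ε) 0 := by
  have hε0 : ε ≠ 0 := by
    rintro rfl
    rw [map_zero] at hε
    exact zero_ne_one hε
  unfold S40F2J_Cg
  have e : σ ε / ε - (1 + 0 * π ^ t) = (σ ε - ε) / ε := by
    field_simp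
    ring
  rw [e, map_div₀, hε, div_one]
  exact h

/-- **(B)**: `σ a / a ≡ 1 + c · vL(a) · π^t  mod π^(t+1)` for the constants `a ≠ 0`. -/
theorem S40F2YB_B (Cf : Subfield F) (vL : F → ℤ) (hπC : π ∈ Cf) (hπ0 : π ≠ 0) (hπ1 : V π < 1)
    (ht : 1 ≤ t)
    (hvL : ∀ a ∈ Cf, a ≠ 0 → V a = V π ^ (vL a))
    (hσV : ∀ a ∈ Cf, V a ≤ 1 → V (σ a) ≤ 1)
    (hres : ∀ z ∈ Cf, V z ≤ 1 → ∃ b z' : F, σ b = b ∧ z' ∈ Cf ∧ V z' ≤ 1 ∧ z = b + π * z')
    (hc : V c ≤ 1) (hr : V r ≤ 1) (hunif : σ π = π * (1 + c * π ^ t) + π ^ (t + 2) * r) :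
    ∀ a ∈ Cf, a ≠ 0 → S40F2J_Cg V π t (σ a / a) (c * ((vL a : ℤ) : F)) := by
  intro a ha ha0
  have hVπ0 : V π ≠ 0 := (Valuation.ne_zero_iff _).2 hπ0
  set ε : F := a / π ^ (vL a) with hε
  have hεC : ε ∈ Cf := Cf.div_mem ha (Cf.zpow_mem hπC _)
  have hε1 : V ε = 1 := by
    rw [hε, map_div₀, map_zpow₀, hvL a ha ha0]
    exact div_self (zpow_ne_zero _ hVπ0)
  have hπz : π ^ (vL a) ≠ 0 := zpow_ne_zero _ hπ0
  have hσπ0 : σ π ≠ 0 := (_root_.map_ne_zero σ).2 hπ0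
  have hεa : a = π ^ (vL a) * ε := by
    rw [hε]
    field_simp
  have hε0 : ε ≠ 0 := by
    rintro h0
    rw [h0, map_zero] at hε1
    exact zero_ne_one hε1
  have e : σ a / a = (σ π / π) ^ (vL a) * (σ ε / ε) := by
    conv_lhs => rw [hεa]
    rw [map_mul, map_zpow₀, div_zpow]
    have h1 : σ π ^ (vL a) ≠ 0 := zpow_ne_zero _ hσπ0
    field_simp
  rw [e]
  have h1 := S40F2J_cg_zpow (S40F2YB_pi (V := V) hπ0 hr hunif) hc hπ1 ht (vL a)
  have h2 := S40F2YB_unit hε1 (S40F2YB_int Cf hπ1.le hσV hres hc hr hunif ε hεC hε1.le)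
  have h3 : V (((vL a : ℤ) : F) * c) ≤ 1 := S40F2J_val_intCast_mul hc _
  have h0 : V (0 : F) ≤ 1 := by rw [map_zero]; exact zero_le_one
  refine S40F2J_cg_congr_eq (S40F2J_cg_mul h1 h2 h3 h0 hπ1 ht) ?_
  ring

end Fermat.Agent.S40
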