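import Fermat.Agent.S40.F2PolyInst2

/-!
# TRACK 13 (S40), (F2'), gap (A1) for `F2Main2` (helper1).  Prefix `S40F2YL_`.

helper16's `S40F2M2_Gen` reads the jump on `y = σ u / u` itself (depth `p t`): the field `hdiv`
asks `S40F2K_Reg N (y / E ^ p)` instead of `S40F2K_Reg N (h / E)`: no `h`, no `u_z`, no `hr`.

* `S40F2YL_core` : index set = the places;
* `S40F2YL_hdiv` : **the field `hdiv` of `S40F2M2_Gen` verbatim** (`y := σ u / u`, index `Fin n`).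
-/

set_option autoImplicit false

namespace Fermat.Agent.S40

open Finset Polynomial

section C

variable {L F k : Type*} [Field L] [Field F] [Algebra L F] [Field k]

/-- **(A1), core form exposing `Ψ`** (index set = the places): for a generator `u` fixed by
`Hs`, locally a `p`-th power up to units: `u = u' Ψ^p`, `Ψ = ∏ (X − w)^m`, `u'` without zero and
pole at the node, and the annulus factor `E = σ Ψ / Ψ`. -/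
theorem S40F2YL_core (N : S40NA_Node L F k) {X Y ϖ : F} (HX : S40F2YI_Hyp N X)
    (Cf : Subfield F) (vL : F → ℤ) (π c : F) (p t : ℕ) (hp : p ≠ 0) (ht : 1 ≤ t) (σ : F →+* F)
    (hCL : ∀ a ∈ Cf, ∃ b : L, algebraMap L F b = a)
    (hπ₁ : π ∈ N.O₁.nonunits) (hπ₂ : π ∈ N.O₂.nonunits)
    (hv : S40F2SI_Val N.O₂ Cf vL) (hc₂ : c ∈ N.O₂)
    (hXY : X * Y = ϖ) (hX : S40F2S_IsU N.O₁ X) (hY : S40F2S_IsU N.O₂ Y) (hϖL : ϖ ∈ Cf)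
    (hσX : σ X = X) (hσϖ : σ ϖ = ϖ)
    (hrange : ∀ (Q : S40NA_Pt L F) (hQ : Q ∈ N.U), S40NA_Centred N Q hQ →
      algebraMap L F (S40F2N_at Q X) ≠ 0 ∧ algebraMap L F (S40F2N_at Q X) ∈ N.O₁.nonunits ∧
        ϖ / algebraMap L F (S40F2N_at Q X) ∈ N.O₂.nonunits)
    (hσZP : ∀ g : F, S40F2SN_NoZP N g → S40F2SN_NoZP N (σ g))
    (hint₁ : ∀ a ∈ Cf, a ∈ N.O₁ → N.O₁.valuation (σ a - a) ≤ N.O₁.valuation π ^ (t + 1))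
    (hint₂ : ∀ a ∈ Cf, a ∈ N.O₂ → N.O₂.valuation (σ a - a) ≤ N.O₂.valuation π ^ (t + 1))
    (hB : ∀ a ∈ Cf, a ≠ 0 → S40F2J_Cg N.O₂.valuation π t (σ a / a) (c * ((vL a : ℤ) : F)))
    (Hs : Set (F →+* F))
    (hCfix : ∀ b : L, (∀ g ∈ Hs, g (algebraMap L F b) = algebraMap L F b) →
      algebraMap L F b ∈ Cf)
    (hHC : ∀ g ∈ Hs, ∀ a ∈ Cf, g a = a) (hHX : ∀ g ∈ Hs, g X = X)
    (hact : ∀ g ∈ Hs, ∃ τ : S40NA_Pt L F → S40NA_Pt L F, S40F2YK_Act N g τ)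
    {u : F} (hu0 : u ≠ 0) (hHu : ∀ g ∈ Hs, g u = u)
    (hpow : ∀ (Q : S40NA_Pt L F) (hQ : Q ∈ N.U), S40NA_Centred N Q hQ →
      ∃ g : F, g ≠ 0 ∧ S40F2S_IsU Q.P (u / g ^ p)) :
    ∃ (s : Finset (S40NA_Pt L F)) (w : S40NA_Pt L F → F) (m : S40NA_Pt L F → ℤ) (u' E : F),
      (∀ i ∈ s, w i ≠ 0) ∧ (∀ i ∈ s, w i ∈ N.O₁.nonunits) ∧
      (∀ i ∈ s, ϖ / w i ∈ N.O₂.nonunits) ∧
      S40F2SN_NoZP N u' ∧ u = u' * ∏ i ∈ s, (X - w i) ^ ((p : ℤ) * m i) ∧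
      ∏ i ∈ s, w i ^ m i ∈ Cf ∧
      S40F2K_Reg N (σ u / u / E ^ p) ∧
      S40F2J_Cg N.O₁.valuation π t E 0 ∧
      S40F2J_Cg N.O₂.valuation π t E (c * ((vL (∏ i ∈ s, w i ^ m i) : ℤ) : F)) := by
  classical
  obtain ⟨s, m, hs, hm, hNoZP⟩ := S40F2YI_factor_pow HX hu0 p hpow
  set w : S40NA_Pt L F → F := fun Q => algebraMap L F (S40F2N_at Q X) with hw
  have htw : ∀ Q, S40F2YI_t X Q = X - w Q := fun Q => rfl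
  have hpZ : (p : ℤ) ≠ 0 := by exact_mod_cast hp
  -- facts on the family
  have hfact : ∀ Q ∈ s, w Q ≠ 0 ∧ w Q ∈ N.O₁.nonunits ∧ ϖ / w Q ∈ N.O₂.nonunits := by
    intro Q hQs
    obtain ⟨hQ, hc, -⟩ := (hs Q).1 hQs
    exact hrange Q hQ hc
  have hX0 : X ≠ 0 := hX.ne_zero
  have hY0 : Y ≠ 0 := hY.ne_zero
  have hϖ0 : ϖ ≠ 0 := by rw [← hXY]; exact mul_ne_zero hX0 hY0
  have hπ₁' : N.O₁.valuation π < 1 := (ValuationSubring.mem_nonunits_iff _).1 hπ₁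
  have hπ₂' : N.O₂.valuation π < 1 := (ValuationSubring.mem_nonunits_iff _).1 hπ₂
  -- the permutations
  have hperm : ∀ g ∈ Hs, ∃ τ : S40NA_Pt L F → S40NA_Pt L F, (∀ Q ∈ s, τ Q ∈ s) ∧
      Set.InjOn τ (s : Set (S40NA_Pt L F)) ∧ (∀ Q ∈ s, g (w Q) = w (τ Q)) ∧
      (∀ Q ∈ s, m (τ Q) = m Q) := by
    intro g hg
    obtain ⟨τ, hτ⟩ := hact g hg
    exact ⟨τ, S40F2YK_perm HX hτ (hHX g hg) (hHu g hg) s m (p : ℤ) hpZ hs hm⟩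
  have hpermN : ∀ (f : ℤ → ℕ) (g : F →+* F), g ∈ Hs → ∃ τ : S40NA_Pt L F → S40NA_Pt L F,
      (∀ Q ∈ s, τ Q ∈ s) ∧ Set.InjOn τ (s : Set (S40NA_Pt L F)) ∧
      (∀ Q ∈ s, g (w Q) = w (τ Q)) ∧ (∀ Q ∈ s, f (m (τ Q)) = f (m Q)) := by
    intro f g hg
    obtain ⟨τ, h1, h2, h3, h4⟩ := hperm g hg
    exact ⟨τ, h1, h2, h3, fun Q hQ => by rw [h4 Q hQ]⟩
  have hpermN₂ : ∀ (f : ℤ → ℕ) (g : F →+* F), g ∈ Hs → ∃ τ : S40NA_Pt L F → S40NA_Pt L F,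
      (∀ Q ∈ s, τ Q ∈ s) ∧ Set.InjOn τ (s : Set (S40NA_Pt L F)) ∧
      (∀ Q ∈ s, g (ϖ / w Q) = ϖ / w (τ Q)) ∧ (∀ Q ∈ s, f (m (τ Q)) = f (m Q)) := by
    intro f g hg
    obtain ⟨τ, h1, h2, h3, h4⟩ := hperm g hg
    exact ⟨τ, h1, h2, fun Q hQ => by rw [map_div₀, hHC g hg ϖ hϖL, h3 Q hQ],
      fun Q hQ => by rw [h4 Q hQ]⟩
  -- constants
  set K₀ : Subfield F := (algebraMap L F).fieldRange with hK₀
  have hCfix' : ∀ a : F, a ∈ K₀ → (∀ g ∈ Hs, g a = a) → a ∈ Cf := by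
    rintro a ⟨b, rfl⟩ h
    exact hCfix b h
  have hwK : ∀ Q ∈ s, w Q ∈ K₀ := fun Q _ => ⟨_, rfl⟩
  have hϖK : ϖ ∈ K₀ := by
    obtain ⟨b, hb⟩ := hCL ϖ hϖL
    exact ⟨b, hb⟩
  have hwK₂ : ∀ Q ∈ s, ϖ / w Q ∈ K₀ := fun Q hQ => K₀.div_mem hϖK (hwK Q hQ)
  have hwO₁ : ∀ Q ∈ s, w Q ∈ N.O₁.toSubring := fun Q hQ =>
    ValuationSubring.nonunits_subset (hfact Q hQ).2.1
  have hwO₂ : ∀ Q ∈ s, ϖ / w Q ∈ N.O₂.toSubring := fun Q hQ =>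
    ValuationSubring.nonunits_subset (hfact Q hQ).2.2
  -- the congruences of the coefficients
  have hG₁ : ∀ (f : ℤ → ℕ) (n : ℕ), N.O₁.valuation
      (σ ((∏ Q ∈ s, (1 - Polynomial.C (w Q) * Polynomial.X) ^ f (m Q)).coeff n)
        - (∏ Q ∈ s, (1 - Polynomial.C (w Q) * Polynomial.X) ^ f (m Q)).coeff n)
      ≤ N.O₁.valuation π ^ (t + 1) := by
    intro f n
    obtain ⟨h1, h2⟩ := S40F2YK_coeff_mem K₀ Cf N.O₁.toSubring Hs hCfix' s w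
      (fun Q => f (m Q)) hwK hwO₁ (hpermN f) n
    exact hint₁ _ h1 h2
  have hG₂ : ∀ (f : ℤ → ℕ) (n : ℕ), N.O₂.valuation
      (σ ((∏ Q ∈ s, (1 - Polynomial.C (ϖ / w Q) * Polynomial.X) ^ f (m Q)).coeff n)
        - (∏ Q ∈ s, (1 - Polynomial.C (ϖ / w Q) * Polynomial.X) ^ f (m Q)).coeff n)
      ≤ N.O₂.valuation π ^ (t + 1) := by
    intro f n
    obtain ⟨h1, h2⟩ := S40F2YK_coeff_mem K₀ Cf N.O₂.toSubring Hs hCfix' s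
      (fun Q => ϖ / w Q) (fun Q => f (m Q)) hwK₂ hwO₂ (hpermN₂ f) n
    exact hint₂ _ h1 h2
  -- the constants `a⁺`, `a⁻`
  have haC : ∀ f : ℤ → ℕ, ∏ Q ∈ s, w Q ^ f (m Q) ∈ Cf := fun f =>
    S40F2YK_prod_mem K₀ Cf Hs hCfix' s w (fun Q => f (m Q)) hwK (hpermN f)
  have ha0 : ∀ f : ℤ → ℕ, ∏ Q ∈ s, w Q ^ f (m Q) ≠ 0 := fun f =>
    Finset.prod_ne_zero_iff.2 (fun Q hQ => pow_ne_zero _ (hfact Q hQ).1)
  have hsplit : ∏ Q ∈ s, w Q ^ m Q =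
      (∏ Q ∈ s, w Q ^ (m Q).toNat) / (∏ Q ∈ s, w Q ^ (-m Q).toNat) :=
    S40F2YK_prod_split s w (fun Q hQ => (hfact Q hQ).1) m
  have haCf : ∏ Q ∈ s, w Q ^ m Q ∈ Cf := by
    rw [hsplit]
    exact Cf.div_mem (haC Int.toNat) (haC (fun z => (-z).toNat))
  have hvL : vL (∏ Q ∈ s, w Q ^ m Q) =
      vL (∏ Q ∈ s, w Q ^ (m Q).toNat) - vL (∏ Q ∈ s, w Q ^ (-m Q).toNat) := by
    rw [hsplit]
    exact hv.div (haC Int.toNat) (haC (fun z => (-z).toNat)) (ha0 Int.toNat)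
      (ha0 (fun z => (-z).toNat))
  -- the annulus factor
  set Ψ : F := ∏ Q ∈ s, (X - w Q) ^ m Q with hΨ
  have hne : ∀ Q ∈ s, X - w Q ≠ 0 := by
    intro Q hQ h0
    have h1 : X = w Q := sub_eq_zero.1 h0
    have h2 := (ValuationSubring.mem_nonunits_iff _).1 (hfact Q hQ).2.1
    rw [← h1] at h2
    have h3 : N.O₁.valuation X = 1 := hX
    rw [h3] at h2
    exact lt_irrefl _ h2
  have hΨ0 : Ψ ≠ 0 := Finset.prod_ne_zero_iff.2 (fun Q hQ => zpow_ne_zero _ (hne Q hQ))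
  have hΨp : Ψ ^ p = ∏ Q ∈ s, (X - w Q) ^ ((p : ℤ) * m Q) := by
    rw [hΨ, ← Finset.prod_pow]
    refine Finset.prod_congr rfl (fun Q _ => ?_)
    rw [mul_comm (p : ℤ) (m Q), zpow_mul, zpow_natCast]
  have hval_c : ∀ z : ℤ, N.O₂.valuation (c * (z : F)) ≤ 1 := by
    intro z
    rw [map_mul]
    have h1 : N.O₂.valuation c ≤ 1 := (ValuationSubring.valuation_le_one_iff _ _).2 hc₂
    have h2 : N.O₂.valuation (z : F) ≤ 1 := S40F2J_val_intCast z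
    calc N.O₂.valuation c * N.O₂.valuation (z : F) ≤ 1 * 1 := mul_le_mul' h1 h2
      _ = 1 := one_mul 1
  have hY' : N.O₂.valuation (X / ϖ) = 1 := by
    have e : X / ϖ = Y⁻¹ := by
      rw [← hXY]
      field_simp
    rw [e]
    exact hY.inv
  have hw₂ : ∀ Q ∈ s, N.O₂.valuation (X / w Q) < 1 := by
    intro Q hQ
    have e : X / w Q = X / ϖ * (ϖ / w Q) := by
      have := (hfact Q hQ).1
      field_simp
    rw [e, map_mul, hY', one_mul]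
    exact (ValuationSubring.mem_nonunits_iff _).1 (hfact Q hQ).2.2
  have E1 : S40F2J_Cg N.O₁.valuation π t (σ Ψ / Ψ) 0 :=
    S40F2YK_E_one s w m hX hσX
      (fun Q hQ => (ValuationSubring.mem_nonunits_iff _).1 (hfact Q hQ).2.1) hπ₁' ht
      (hG₁ Int.toNat) (hG₁ (fun z => (-z).toNat))
  have E2 : S40F2J_Cg N.O₂.valuation π t (σ Ψ / Ψ)
      (c * ((vL (∏ Q ∈ s, w Q ^ m Q) : ℤ) : F)) := by
    have := S40F2YK_E_two (V := N.O₂.valuation) (σ := σ) (π := π) (i := t) s w m hϖ0 hY' hσX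
      hσϖ (fun Q hQ => (hfact Q hQ).1) hw₂ (hval_c _) (hval_c _) hπ₂' ht
      (hB _ (haC Int.toNat) (ha0 Int.toNat))
      (hB _ (haC (fun z => (-z).toNat)) (ha0 (fun z => (-z).toNat)))
      (hG₂ Int.toNat) (hG₂ (fun z => (-z).toNat))
    refine S40F2J_cg_congr_eq this ?_
    rw [hvL]
    push_cast
    ring
  refine ⟨s, w, m, u / Ψ ^ p, σ Ψ / Ψ, fun Q hQ => (hfact Q hQ).1, fun Q hQ => (hfact Q hQ).2.1,
    fun Q hQ => (hfact Q hQ).2.2, hNoZP, ?_, haCf, ?_, E1, E2⟩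
  · rw [← hΨp, div_mul_cancel₀ _ (pow_ne_zero _ hΨ0)]
  · refine S40F2YI_reg N (HX.hfin _) ?_
    have hσΨ0 : σ Ψ ≠ 0 := (_root_.map_ne_zero σ).2 hΨ0
    have e : σ u / u / (σ Ψ / Ψ) ^ p = σ (u / Ψ ^ p) / (u / Ψ ^ p) := by
      rw [map_div₀, map_pow, div_pow]
      have h1 : Ψ ^ p ≠ 0 := pow_ne_zero _ hΨ0
      have h2 : σ Ψ ^ p ≠ 0 := pow_ne_zero _ hσΨ0
      field_simp
    rw [e]
    exact S40F2SN_noZP_div N (hσZP _ hNoZP) hNoZP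

/-- **(A1) for `F2Main2`**: the field `hdiv` of `S40F2M2_Gen` with `y = σ u / u`, verbatim. -/
theorem S40F2YL_hdiv (N : S40NA_Node L F k) {X Y ϖ : F} (HX : S40F2YI_Hyp N X)
    (Cf : Subfield F) (vL : F → ℤ) (π c : F) (p t : ℕ) (hp : p ≠ 0) (ht : 1 ≤ t) (σ : F →+* F)
    (hCL : ∀ a ∈ Cf, ∃ b : L, algebraMap L F b = a)
    (hπ₁ : π ∈ N.O₁.nonunits) (hπ₂ : π ∈ N.O₂.nonunits)
    (hv : S40F2SI_Val N.O₂ Cf vL) (hc₂ : c ∈ N.O₂)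
    (hXY : X * Y = ϖ) (hX : S40F2S_IsU N.O₁ X) (hY : S40F2S_IsU N.O₂ Y) (hϖL : ϖ ∈ Cf)
    (hσX : σ X = X) (hσϖ : σ ϖ = ϖ)
    (hrange : ∀ (Q : S40NA_Pt L F) (hQ : Q ∈ N.U), S40NA_Centred N Q hQ →
      algebraMap L F (S40F2N_at Q X) ≠ 0 ∧ algebraMap L F (S40F2N_at Q X) ∈ N.O₁.nonunits ∧
        ϖ / algebraMap L F (S40F2N_at Q X) ∈ N.O₂.nonunits)
    (hσZP : ∀ g : F, S40F2SN_NoZP N g → S40F2SN_NoZP N (σ g))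
    (hint₁ : ∀ a ∈ Cf, a ∈ N.O₁ → N.O₁.valuation (σ a - a) ≤ N.O₁.valuation π ^ (t + 1))
    (hint₂ : ∀ a ∈ Cf, a ∈ N.O₂ → N.O₂.valuation (σ a - a) ≤ N.O₂.valuation π ^ (t + 1))
    (hB : ∀ a ∈ Cf, a ≠ 0 → S40F2J_Cg N.O₂.valuation π t (σ a / a) (c * ((vL a : ℤ) : F)))
    (Hs : Set (F →+* F))
    (hCfix : ∀ b : L, (∀ g ∈ Hs, g (algebraMap L F b) = algebraMap L F b) →
      algebraMap L F b ∈ Cf)
    (hHC : ∀ g ∈ Hs, ∀ a ∈ Cf, g a = a) (hHX : ∀ g ∈ Hs, g X = X)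
    (hact : ∀ g ∈ Hs, ∃ τ : S40NA_Pt L F → S40NA_Pt L F, S40F2YK_Act N g τ)
    {u : F} (hu0 : u ≠ 0) (hHu : ∀ g ∈ Hs, g u = u)
    (hpow : ∀ (Q : S40NA_Pt L F) (hQ : Q ∈ N.U), S40NA_Centred N Q hQ →
      ∃ g : F, g ≠ 0 ∧ S40F2S_IsU Q.P (u / g ^ p)) :
    ∃ (ι : Type) (s : Finset ι) (w : ι → F) (m : ι → ℤ) (u' E : F),
      (∀ i ∈ s, w i ≠ 0) ∧ (∀ i ∈ s, w i ∈ N.O₁.nonunits) ∧
      (∀ i ∈ s, ϖ / w i ∈ N.O₂.nonunits) ∧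
      S40F2SN_NoZP N u' ∧ u = u' * ∏ i ∈ s, (X - w i) ^ ((p : ℤ) * m i) ∧
      ∏ i ∈ s, w i ^ m i ∈ Cf ∧
      S40F2K_Reg N (σ u / u / E ^ p) ∧
      S40F2J_Cg N.O₁.valuation π t E 0 ∧
      S40F2J_Cg N.O₂.valuation π t E (c * ((vL (∏ i ∈ s, w i ^ m i) : ℤ) : F)) := by
  obtain ⟨s, w, m, u', E, h1, h2, h3, h4, h5, h6, h7, h8, h9⟩ :=
    S40F2YL_core N HX Cf vL π c p t hp ht σ hCL hπ₁ hπ₂ hv hc₂ hXY hX hY hϖL hσX hσϖ hrange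
      hσZP hint₁ hint₂ hB Hs hCfix hHC hHX hact hu0 hHu hpow
  obtain ⟨n, e, he, hprod⟩ := S40F2YK_reindex (F := F) s
  have e1 : ∏ i : Fin n, (X - w (e i)) ^ ((p : ℤ) * m (e i)) =
      ∏ Q ∈ s, (X - w Q) ^ ((p : ℤ) * m Q) := hprod (fun Q => (X - w Q) ^ ((p : ℤ) * m Q))
  have e2 : ∏ i : Fin n, w (e i) ^ m (e i) = ∏ Q ∈ s, w Q ^ m Q :=
    hprod (fun Q => w Q ^ m Q)
  refine ⟨Fin n, Finset.univ, fun i => w (e i), fun i => m (e i), u', E,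
    fun i _ => h1 _ (he i), fun i _ => h2 _ (he i), fun i _ => h3 _ (he i), h4, ?_, ?_, h7, h8,
    ?_⟩
  · rw [e1]; exact h5
  · rw [e2]; exact h6
  · rw [e2]; exact h9

end C

end Fermat.Agent.S40
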