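import Fermat.Agent.S40.F2PolyInst3
import Fermat.Agent.S40.F2PolyBreak
import Fermat.Agent.S40.F2MainCoord

/-!
# TRACK 13 (S40), (F2'), leaf (g) of the node chain (helper1).  Prefix `S40F2YM_`.

`S40F2YM_hdiv` : **the field `hdiv` of `S40F2M2_Gen`** (`y = σ u / u`) at a node `N` with
coordinate `C : S40F2N_Coord N`, in the shape of `S40F2MC_coord`
(`Cf = C₀.map (algebraMap L F)`, `vL = S40F2MV_vL N.O₁ (algebraMap L F π)`, constants
`algebraMap L F π`, `algebraMap L F c`, `X = C.X`, `ϖ = algebraMap L F C.ϖ`), from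

* the coordinate data `hC : S40F2M_Coord …` (output of `S40F2MC_coord`), `HX : S40F2YI_Hyp N C.X`
  (output of `S40F2N5_hyp`);
* the break on the constants, in `L`: `hval`, `hσA`, `hres`, `hunif` (`S40F2B_main`,
  `S40LR_res_sub`);
* `σ` semilinear over `σL`, `σ X = X`, `σL ϖ = ϖ`, `hσZP` (`S40F2YC_noZP`);
* the group `Hs` acting on the places (`S40F2YC_act`), fixing `C₀`, `X`, `u`;
* `hpow` (`S40F2YP_hpow`).
-/

set_option autoImplicit false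

namespace Fermat.Agent.S40

section

variable {L F k : Type*} [Field L] [Field F] [Algebra L F] [Field k]

/-- `A`-integral constants are `O`-integral and conversely: the valuations compare. -/
theorem S40F2YM_le_one (A : ValuationSubring L) (O : ValuationSubring F)
    (hAO : ∀ a : L, a ∈ A → algebraMap L F a ∈ O) (hOA : ∀ a : L, algebraMap L F a ∈ O → a ∈ A)
    (b : L) : O.valuation (algebraMap L F b) ≤ 1 ↔ b ∈ A := by
  rw [ValuationSubring.valuation_le_one_iff]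
  exact ⟨hOA b, hAO b⟩

/-- **leaf (g)**: the field `hdiv` of `S40F2M2_Gen` at a node. -/
theorem S40F2YM_hdiv (N : S40NA_Node L F k) (C : S40F2N_Coord N) (C₀ : Subfield L)
    {π c r : L} {p t : ℕ} (hp : p ≠ 0) (ht : 1 ≤ t) {e' : ℤ}
    (hC : S40F2M_Coord N (C₀.map (algebraMap L F)) (S40F2MV_vL N.O₁ (algebraMap L F π))
      (algebraMap L F π) (algebraMap L F c) C.X (C.Y * C.H⁻¹) (algebraMap L F C.ϖ) p e')
    (HX : S40F2YI_Hyp N C.X)
    (hπC : π ∈ C₀) (hπ0 : π ≠ 0) (hπ1 : N.A.valuation π < 1)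
    (hval : ∀ x ∈ C₀, x ≠ 0 → ∃ j : ℤ, N.A.valuation x = N.A.valuation π ^ j)
    (hcA : c ∈ N.A) (hrA : r ∈ N.A)
    (σ : F →+* F) (σL : L →+* L) (hσL : ∀ a : L, σ (algebraMap L F a) = algebraMap L F (σL a))
    (hσX : σ C.X = C.X) (hσϖ : σL C.ϖ = C.ϖ)
    (hσZP : ∀ g : F, S40F2SN_NoZP N g → S40F2SN_NoZP N (σ g))
    (hσA : ∀ a ∈ C₀, a ∈ N.A → σL a ∈ N.A)
    (hres : ∀ z ∈ C₀, z ∈ N.A → ∃ b z' : L, σL b = b ∧ z' ∈ C₀ ∧ z' ∈ N.A ∧ z = b + π * z')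
    (hunif : σL π = π * (1 + c * π ^ t) + π ^ (t + 2) * r)
    (Hs : Set (F →+* F))
    (hCfix : ∀ b : L, (∀ g ∈ Hs, g (algebraMap L F b) = algebraMap L F b) → b ∈ C₀)
    (hHC : ∀ g ∈ Hs, ∀ b ∈ C₀, g (algebraMap L F b) = algebraMap L F b)
    (hHX : ∀ g ∈ Hs, g C.X = C.X)
    (hact : ∀ g ∈ Hs, ∃ τ : S40NA_Pt L F → S40NA_Pt L F, S40F2YK_Act N g τ)
    {u : F} (hu0 : u ≠ 0) (hHu : ∀ g ∈ Hs, g u = u)
    (hpow : ∀ (Q : S40NA_Pt L F) (hQ : Q ∈ N.U), S40NA_Centred N Q hQ →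
      ∃ g : F, g ≠ 0 ∧ S40F2S_IsU Q.P (u / g ^ p)) :
    ∃ (ι : Type) (s : Finset ι) (w : ι → F) (m : ι → ℤ) (u' E : F),
      (∀ i ∈ s, w i ≠ 0) ∧ (∀ i ∈ s, w i ∈ N.O₁.nonunits) ∧
      (∀ i ∈ s, algebraMap L F C.ϖ / w i ∈ N.O₂.nonunits) ∧
      S40F2SN_NoZP N u' ∧ u = u' * ∏ i ∈ s, (C.X - w i) ^ ((p : ℤ) * m i) ∧
      ∏ i ∈ s, w i ^ m i ∈ C₀.map (algebraMap L F) ∧
      S40F2K_Reg N (σ u / u / E ^ p) ∧
      S40F2J_Cg N.O₁.valuation (algebraMap L F π) t E 0 ∧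
      S40F2J_Cg N.O₂.valuation (algebraMap L F π) t E
        (algebraMap L F c * ((S40F2MV_vL N.O₁ (algebraMap L F π) (∏ i ∈ s, w i ^ m i) : ℤ) : F))
    := by
  have hπ0' : algebraMap L F π ≠ 0 := (map_ne_zero _).mpr hπ0
  have hπA : π ∈ N.A.nonunits := (ValuationSubring.mem_nonunits_iff (A := N.A)).mpr hπ1
  have hπ₁ : algebraMap L F π ∈ N.O₁.nonunits := hC.hπ1
  have hπ₂ : algebraMap L F π ∈ N.O₂.nonunits := S40F2K_nonunit N.O₂ N.A hC.hA₂ hπA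
  have hπ₁' : N.O₁.valuation (algebraMap L F π) < 1 :=
    (ValuationSubring.mem_nonunits_iff (A := N.O₁)).mp hπ₁
  have hπ₂' : N.O₂.valuation (algebraMap L F π) < 1 :=
    (ValuationSubring.mem_nonunits_iff (A := N.O₂)).mp hπ₂
  -- range of the coordinate
  have hrange : ∀ (Q : S40NA_Pt L F) (hQ : Q ∈ N.U), S40NA_Centred N Q hQ →
      algebraMap L F (S40F2N_at Q C.X) ≠ 0 ∧
        algebraMap L F (S40F2N_at Q C.X) ∈ N.O₁.nonunits ∧
        algebraMap L F C.ϖ / algebraMap L F (S40F2N_at Q C.X) ∈ N.O₂.nonunits := by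
    intro Q hQ hc
    obtain ⟨h0, h1, h2⟩ := S40F2N_range C Q hQ hc
    refine ⟨(map_ne_zero _).mpr h0, S40F2K_nonunit N.O₁ N.A hC.hA₁ h1, ?_⟩
    have := S40F2K_nonunit N.O₂ N.A hC.hA₂ h2
    rwa [map_mul, map_inv₀, ← div_eq_mul_inv] at this
  -- the break at the level of `F`
  have hσV : ∀ (O : ValuationSubring F), (∀ a : L, a ∈ N.A → algebraMap L F a ∈ O) →
      (∀ a : L, algebraMap L F a ∈ O → a ∈ N.A) →
      ∀ a ∈ C₀.map (algebraMap L F), O.valuation a ≤ 1 → O.valuation (σ a) ≤ 1 := by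
    rintro O hAO hOA a ⟨b, hb, rfl⟩ ha
    rw [hσL, S40F2YM_le_one N.A O hAO hOA]
    exact hσA b hb ((S40F2YM_le_one N.A O hAO hOA b).1 ha)
  have hresF : ∀ (O : ValuationSubring F), (∀ a : L, a ∈ N.A → algebraMap L F a ∈ O) →
      (∀ a : L, algebraMap L F a ∈ O → a ∈ N.A) →
      ∀ z ∈ C₀.map (algebraMap L F), O.valuation z ≤ 1 →
        ∃ b z' : F, σ b = b ∧ z' ∈ C₀.map (algebraMap L F) ∧ O.valuation z' ≤ 1 ∧
          z = b + algebraMap L F π * z' := by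
    rintro O hAO hOA z ⟨b, hb, rfl⟩ hz
    obtain ⟨b₀, z', hb₀, hz', hz'A, e⟩ := hres b hb ((S40F2YM_le_one N.A O hAO hOA b).1 hz)
    refine ⟨algebraMap L F b₀, algebraMap L F z', by rw [hσL, hb₀], ⟨z', hz', rfl⟩,
      (S40F2YM_le_one N.A O hAO hOA z').2 hz'A, ?_⟩
    rw [e, map_add, map_mul]
  have hunifF : σ (algebraMap L F π) = algebraMap L F π *
      (1 + algebraMap L F c * algebraMap L F π ^ t) +
        algebraMap L F π ^ (t + 2) * algebraMap L F r := by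
    rw [hσL, hunif]
    simp only [map_add, map_mul, map_pow, map_one]
  have hcO : ∀ (O : ValuationSubring F), (∀ a : L, a ∈ N.A → algebraMap L F a ∈ O) →
      O.valuation (algebraMap L F c) ≤ 1 ∧ O.valuation (algebraMap L F r) ≤ 1 := by
    intro O hAO
    exact ⟨(ValuationSubring.valuation_le_one_iff _ _).2 (hAO c hcA),
      (ValuationSubring.valuation_le_one_iff _ _).2 (hAO r hrA)⟩
  have hint₁ : ∀ a ∈ C₀.map (algebraMap L F), a ∈ N.O₁ →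
      N.O₁.valuation (σ a - a) ≤ N.O₁.valuation (algebraMap L F π) ^ (t + 1) := by
    intro a ha haO
    exact S40F2YB_int (V := N.O₁.valuation) _ hπ₁'.le (hσV N.O₁ N.const₁ hC.hA₁)
      (hresF N.O₁ N.const₁ hC.hA₁) (hcO N.O₁ N.const₁).1 (hcO N.O₁ N.const₁).2 hunifF a ha
      ((ValuationSubring.valuation_le_one_iff _ _).2 haO)
  have hint₂ : ∀ a ∈ C₀.map (algebraMap L F), a ∈ N.O₂ →
      N.O₂.valuation (σ a - a) ≤ N.O₂.valuation (algebraMap L F π) ^ (t + 1) := by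
    intro a ha haO
    exact S40F2YB_int (V := N.O₂.valuation) _ hπ₂'.le (hσV N.O₂ N.const₂ hC.hA₂)
      (hresF N.O₂ N.const₂ hC.hA₂) (hcO N.O₂ N.const₂).1 (hcO N.O₂ N.const₂).2 hunifF a ha
      ((ValuationSubring.valuation_le_one_iff _ _).2 haO)
  have hvL₂ : ∀ a ∈ C₀.map (algebraMap L F), a ≠ 0 → N.O₂.valuation a =
      N.O₂.valuation (algebraMap L F π) ^ (S40F2MV_vL N.O₁ (algebraMap L F π) a) := by
    rintro a ⟨b, hb, rfl⟩ ha0
    have hb0 : b ≠ 0 := fun h => ha0 (by rw [h, map_zero])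
    obtain ⟨j, hj⟩ := hval b hb hb0
    have h1 := S40F2MV_transfer N.A N.O₁ N.const₁ hπ0 hj
    have h2 := S40F2MV_transfer N.A N.O₂ N.const₂ hπ0 hj
    rw [S40F2MV_eq N.O₁ hπ0' hπ₁' h1]
    exact h2
  have hB : ∀ a ∈ C₀.map (algebraMap L F), a ≠ 0 →
      S40F2J_Cg N.O₂.valuation (algebraMap L F π) t (σ a / a)
        (algebraMap L F c * ((S40F2MV_vL N.O₁ (algebraMap L F π) a : ℤ) : F)) :=
    S40F2YB_B (V := N.O₂.valuation) _ _ ⟨π, hπC, rfl⟩ hπ0' hπ₂' ht hvL₂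
      (hσV N.O₂ N.const₂ hC.hA₂) (hresF N.O₂ N.const₂ hC.hA₂) (hcO N.O₂ N.const₂).1
      (hcO N.O₂ N.const₂).2 hunifF
  exact S40F2YL_hdiv N HX (C₀.map (algebraMap L F)) _ (algebraMap L F π) (algebraMap L F c) p t
    hp ht σ hC.hCL hπ₁ hπ₂ hC.hv (N.const₂ c hcA) hC.hXY hC.hX hC.hY hC.hϖL hσX
    (by rw [hσL, hσϖ]) hrange hσZP hint₁ hint₂ hB Hs
    (fun b hb => ⟨b, hCfix b hb, rfl⟩)
    (by rintro g hg a ⟨b, hb, rfl⟩; exact hHC g hg b hb) hHX hact hu0 hHu hpow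

end

end Fermat.Agent.S40
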