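import Mathlib
import Fermat.Agent.S40.NodeInst
import Fermat.Agent.S40.F2Slope
import Fermat.Agent.S33.Degen

/-!
# TRACK 13 (S40/S44, row 38), (F2'): the leaf `hpow` of `S40F2MG_gen` (helper25).
Prefix `S40F2PW_`.

A Kummer generator `u` of exponent `p` (`S33DG_IsGen p x u`: `div u = p D`) is, at every place,
a `p`-th power up to a unit.

* `S40F2PW_place` : `p * m = ord_v u ⇒ ∃ g ≠ 0, u / g ^ p` is a unit at `v`;
* `S40F2PW_gen`   : the same from `S33DG_IsGen p x u`, for every place `v`;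
* `S40F2PW_pt`    : for the point `S40NI_pt v hdeg`;
* `S40F2PW_hpow`  : **the leaf `hpow`** for every node `N` whose points are places
  (`∀ Q ∈ N.U, ∃ v, Q.P = v.toValuationSubring`);
* `S40F2PW_hpow_U` : the points of the chart `S40NI_U hdeg x` are places.
-/

set_option autoImplicit false
set_option linter.unusedSectionVars false
set_option linter.unusedVariables false

open AlgebraicCurve

namespace Fermat.Agent.S40

open Fermat.Agent.S24 Fermat.Agent.S33

variable {K F : Type*} [Field K] [Field F] [Algebra K F]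

/-- an element of order `0` at `v` is a unit of the valuation ring of `v`. -/
theorem S40F2PW_isU_of_ord (v : Place K F) {f : F} (hf : f ≠ 0) (h0 : v.ord f = 0) :
    S40F2S_IsU v.toValuationSubring f := by
  rw [S40F2S_isU_iff]
  refine ⟨(BG_mem_iff_ord_nonneg v hf).2 h0.ge, ?_, hf⟩
  rw [BG_mem_iff_ord_nonneg v (inv_ne_zero hf), v.ord_inv, h0, neg_zero]

/-- `p * m = ord_v u ⇒ u` is a `p`-th power up to a unit at `v`. -/
theorem S40F2PW_place (v : Place K F) (p : ℕ) {u : F} (hu : u ≠ 0) (m : ℤ)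
    (hm : (p : ℤ) * m = v.ord u) :
    ∃ g : F, g ≠ 0 ∧ S40F2S_IsU v.toValuationSubring (u / g ^ p) := by
  obtain ⟨π, hπ⟩ := IsDiscreteValuationRing.exists_irreducible v.toValuationSubring
  have hπF : (π : F) ≠ 0 := by
    simpa [ne_eq, ZeroMemClass.coe_eq_zero] using hπ.ne_zero
  have hg0 : (π : F) ^ m ≠ 0 := zpow_ne_zero m hπF
  refine ⟨(π : F) ^ m, hg0, ?_⟩
  have hgp : ((π : F) ^ m) ^ p ≠ 0 := pow_ne_zero p hg0
  apply S40F2PW_isU_of_ord v (div_ne_zero hu hgp)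
  rw [div_eq_mul_inv, v.ord_mul hu (inv_ne_zero hgp), v.ord_inv, ← zpow_natCast, v.ord_zpow,
    v.ord_zpow, v.ord_coe_irreducible hπ, ← hm]
  ring

/-- a Kummer generator of exponent `p` is a `p`-th power up to a unit at every place. -/
theorem S40F2PW_gen {p : ℕ} {x : Pic0 K F} {u : F} (h : S33DG_IsGen p x u) (v : Place K F) :
    ∃ g : F, g ≠ 0 ∧ S40F2S_IsU v.toValuationSubring (u / g ^ p) := by
  obtain ⟨D, -, hu, hD⟩ := h
  exact S40F2PW_place v p hu _ (hD v)

/-- the same at the point `S40NI_pt v hdeg`. -/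
theorem S40F2PW_pt {p : ℕ} {x : Pic0 K F} {u : F} (h : S33DG_IsGen p x u) (v : Place K F)
    (hdeg : v.deg = 1) :
    ∃ g : F, g ≠ 0 ∧ S40F2S_IsU (S40NI_pt v hdeg).P (u / g ^ p) :=
  S40F2PW_gen h v

/-- **the leaf `hpow` of `S40F2MG_gen`** for a node whose points are places. -/
theorem S40F2PW_hpow {k : Type*} [Field k] (N : S40NA_Node K F k)
    (hU : ∀ Q ∈ N.U, ∃ v : Place K F, Q.P = v.toValuationSubring)
    {p : ℕ} {x : Pic0 K F} {u : F} (h : S33DG_IsGen p x u) :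
    ∀ (Q : S40NA_Pt K F) (hQ : Q ∈ N.U), S40NA_Centred N Q hQ →
      ∃ g : F, g ≠ 0 ∧ S40F2S_IsU Q.P (u / g ^ p) := by
  intro Q hQ _
  obtain ⟨v, hv⟩ := hU Q hQ
  rw [hv]
  exact S40F2PW_gen h v

/-- the points of the chart `S40NI_U hdeg x` are places. -/
theorem S40F2PW_hpow_U (hdeg : ∀ v : Place K F, v.deg = 1) (x : F) :
    ∀ Q ∈ S40NI_U hdeg x, ∃ v : Place K F, Q.P = v.toValuationSubring := by
  rintro Q ⟨v, -, rfl⟩
  exact ⟨v, rfl⟩

/-- `hpow` on the chart `S40NI_U hdeg x`, without reference to a node. -/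
theorem S40F2PW_hpow_chart (hdeg : ∀ v : Place K F, v.deg = 1) (x : F)
    {p : ℕ} {c : Pic0 K F} {u : F} (h : S33DG_IsGen p c u) :
    ∀ Q ∈ S40NI_U hdeg x, ∃ g : F, g ≠ 0 ∧ S40F2S_IsU Q.P (u / g ^ p) := by
  rintro Q ⟨v, -, rfl⟩
  exact S40F2PW_gen h v

end Fermat.Agent.S40
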