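import Mathlib
import Fermat.Agent.S40.F2NodeW
import Fermat.Agent.S40.R2HvHecke
import Fermat.Agent.S40.F2PolyTop

/-!
# TRACK 13 (row 38): THE CLOSURE of (F2-OUT), independent copy (helper20).  Prefix `S40F2SH_`.

The two leaves of the node chain (`S40/F2NodeW.lean`, helper3; `S40/F2AsmTop.lean`, helper16):

* `S40F2SH_start : S40F2NW_Start` — `S40R2Z_start` (helper17) fed with the leaf (HV)
  `S40R2HK_hv` (Hecke trick, `S40/R2HvHecke.lean`);
* `S40F2SH_hdiv : S40F2NW_Hdiv` — `S40F2YH_hdiv` (helper1);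
* `S40F2SH_node1 : S40F2FN_Node1`, `S40F2SH_kum1 : S44Q_Kum1`;
* **`S40F2SH_S44`** : the frozen statement S44, with NO hypothesis left.
-/

set_option autoImplicit false
set_option synthInstance.maxHeartbeats 400000
set_option maxHeartbeats 1000000
set_option linter.unusedSectionVars false
set_option linter.unusedVariables false
set_option linter.style.haveILetI false

open HahnSeries IntermediateField AlgebraicCurve ModularCurve

noncomputable section

namespace Fermat.Agent.S40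

open WeierstrassCurve Fermat.Agent.Lib Fermat.Agent.S18 Fermat.Agent.S24 Fermat.Agent.S34
  Fermat.Agent.S35 Fermat.Agent.S36 Fermat.Agent.GalRep Fermat.Agent.S33 Fermat.Agent.S19

local notation "Ω" => AlgebraicClosure ℚ
local notation "Γ" => (AlgebraicClosure ℚ ≃ₐ[ℚ] AlgebraicClosure ℚ)

/-- **leaf START.** -/
theorem S40F2SH_start : S40F2NW_Start := by
  intro W hΔ p hp hp5 hirr M' _ _ _ hpM hsq A hA V hVV0 hV hnew hB hR hK hI x hx hgen ζ₀ hprim
    σ H π c r t hD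
  exact S40R2Z_start M' p hp hpM A hA hgen V (fun y hy => (hVV0 y hy).1) hnew hprim x hx
    σ H π c r t hD
    (S40R2HK_hv M' p hp hpM A hA hgen W hΔ (by omega) hirr V hVV0 hprim x hx σ H π c r t hD)

/-- **leaf HDIV.** -/
theorem S40F2SH_hdiv : S40F2NW_Hdiv := by
  intro W hΔ p hp hp5 hirr M' _ _ _ hpM hsq A hA V hVV0 hV hnew hB hR hK hI x hx hgen s e₁ e₂
    P P' hE hW1 hx' hred hP hP' he₁ he₂ i ζ₀ hprim σ H π c r t hD
  obtain ⟨⟨hσ, hHVfix, hcyc, hσpV, hz, hHI, hdec, hconj, hnorm, hσp⟩, ht1, htp, hπH, hcH, hrH,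
    hvπ, hvc, hvr, hunif, hdisc, hπC, hπ0, hπ1, hval, hcC, hζ₀⟩ := hD
  exact S40F2YH_hdiv M' p hp hpM A hA hgen e₁ e₂ P P' hE hW1 hx' hred hP hP' he₁ he₂ i σ hσ H
    hHI ht1 hπH hcH hvπ hvc hvr hunif hdisc hπ0 hπ1 hζ₀

/-- **(N₁)**: the nodes. -/
theorem S40F2SH_node1 : S40F2FN_Node1 := S40F2NW_node1 S40F2SH_start S40F2SH_hdiv

/-- **(KUM₁)**. -/
theorem S40F2SH_kum1 : S44Q_Kum1 := S40F2NW_kum1 S40F2SH_start S40F2SH_hdiv

/-- **the frozen statement S44.** -/
theorem S40F2SH_S44 (P : FreyPackage) {N : ℕ} (hcond : P.IsConductorLevel N) (hpN : P.p ∣ N)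
    (hirr : WeierstrassCurve.Affine.Point.GaloisRepIsIrreducible (K := AlgebraicClosure ℚ) ℚ
      P.freyCurve P.p)
    (hmod : P.ModularRepOfLevel N) :
    ∃ M : ℕ, M ∣ N ∧ ¬ P.p ∣ M ∧ P.ModularRepOfLevel M :=
  S40F2NW_final S40F2SH_start S40F2SH_hdiv P hcond hpN hirr hmod

end Fermat.Agent.S40
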