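import Mathlib
import Fermat.Agent.S40.NodeAbs

/-!
# TRACK 13 (S40/S44, row 38), gap (SM): the value `ε_P` at a SMOOTH point `P` of `C₁`, abstract
form (helper29).  Prefix `S40F2SE_`.  Mathlib + `NodeAbs` only.

A smooth (ordinary) point `P` of the component `C₁` is a DEGENERATE node (`O₂ := O₁`,
helper16's `S40/F2Smooth.lean`); its `Λ` is `Λ₁ = O₁ ∩ reg(U)`, which is BIGGER than the
`Λ = O₁ ∩ O₂ ∩ reg(U)` of TRACK 7: a function of `Λ₁` may have a pole along `C₂`.  But there is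
`g₀ ∈ Λ` (`g₀ = f₀⁻¹`, the inverse of the modular unit) with `g₀(P) ≠ 0` and such that
`f · g₀ ^ m ∈ Λ` for `m ≫ 0`; hence the value at `P` extends from `Λ` to `Λ₁`:
`ε_P f = ε₀ (f g₀ ^ m) / ε₀ (g₀) ^ m`.

* `S40F2SE_Rel`, `S40F2SE_rel_unique/_add/_mul/_of_mem/_exists` : the graph of the extension;
* `S40F2SE_ext` : the extension `Λ₁ →+* k`, with `S40F2SE_ext_spec`, `S40F2SE_ext_of_mem`,
  `S40F2SE_ext_eq_zero`;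
* `S40F2SE_Half` : a node without `ε_zero₂`, with `g₀`;
* `S40F2SE_node H : S40NA_Node L F k` : the degenerate node (`O₂ = O₁` by `rfl`), with
  `S40F2SE_node_ε_of_mem` (`ε = ε₀` on `Λ`), `S40F2SE_node_ε_spec`.
-/

set_option autoImplicit false

namespace Fermat.Agent.S40

section Ext

variable {F k : Type*} [Field F] [Field k]

/-- the graph of the extension: `c · ε₀ (g₀) ^ m = ε₀ (f · g₀ ^ m)` for some `m`. -/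
def S40F2SE_Rel (Lam : Subring F) (ε₀ : ↥Lam →+* k) (g₀ : F) (hg₀ : g₀ ∈ Lam) (f : F) (c : k) :
    Prop :=
  ∃ (m : ℕ) (hm : f * g₀ ^ m ∈ Lam), c * ε₀ ⟨g₀, hg₀⟩ ^ m = ε₀ ⟨f * g₀ ^ m, hm⟩

variable {Lam : Subring F} {ε₀ : ↥Lam →+* k} {g₀ : F} {hg₀ : g₀ ∈ Lam}

theorem S40F2SE_rel_shift {f : F} {c : k} {m : ℕ} (hm : f * g₀ ^ m ∈ Lam)
    (h : c * ε₀ ⟨g₀, hg₀⟩ ^ m = ε₀ ⟨f * g₀ ^ m, hm⟩) (n : ℕ) :
    ∃ hmn : f * g₀ ^ (m + n) ∈ Lam,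
      c * ε₀ ⟨g₀, hg₀⟩ ^ (m + n) = ε₀ ⟨f * g₀ ^ (m + n), hmn⟩ := by
  have e : f * g₀ ^ (m + n) = f * g₀ ^ m * g₀ ^ n := by rw [pow_add, mul_assoc]
  have hmn : f * g₀ ^ (m + n) ∈ Lam := by
    rw [e]
    exact Lam.mul_mem hm (Lam.pow_mem hg₀ n)
  refine ⟨hmn, ?_⟩
  have e' : (⟨f * g₀ ^ (m + n), hmn⟩ : ↥Lam) = ⟨f * g₀ ^ m, hm⟩ * ⟨g₀, hg₀⟩ ^ n :=
    Subtype.ext e
  rw [e', map_mul, map_pow, ← h, pow_add, mul_assoc]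

/-- the graph is functional. -/
theorem S40F2SE_rel_unique (hε : ε₀ ⟨g₀, hg₀⟩ ≠ 0) {f : F} {c c' : k}
    (h : S40F2SE_Rel Lam ε₀ g₀ hg₀ f c) (h' : S40F2SE_Rel Lam ε₀ g₀ hg₀ f c') : c = c' := by
  obtain ⟨m, hm, e⟩ := h
  obtain ⟨n, hn, e'⟩ := h'
  obtain ⟨h1, e1⟩ := S40F2SE_rel_shift hm e n
  obtain ⟨h2, e2⟩ := S40F2SE_rel_shift hn e' m
  have hmn : (⟨f * g₀ ^ (m + n), h1⟩ : ↥Lam) = ⟨f * g₀ ^ (n + m), h2⟩ :=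
    Subtype.ext (show f * g₀ ^ (m + n) = f * g₀ ^ (n + m) by rw [add_comm])
  rw [hmn, ← e2, add_comm m n] at e1
  exact mul_right_cancel₀ (pow_ne_zero _ hε) e1

theorem S40F2SE_rel_of_mem {f : F} (hf : f ∈ Lam) :
    S40F2SE_Rel Lam ε₀ g₀ hg₀ f (ε₀ ⟨f, hf⟩) := by
  have h0 : f * g₀ ^ 0 ∈ Lam := by rw [pow_zero, mul_one]; exact hf
  refine ⟨0, h0, ?_⟩
  have e : (⟨f * g₀ ^ 0, h0⟩ : ↥Lam) = ⟨f, hf⟩ :=
    Subtype.ext (show f * g₀ ^ 0 = f by rw [pow_zero, mul_one])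
  rw [e, pow_zero, mul_one]

theorem S40F2SE_rel_add {f g : F} {c d : k} (h : S40F2SE_Rel Lam ε₀ g₀ hg₀ f c)
    (h' : S40F2SE_Rel Lam ε₀ g₀ hg₀ g d) : S40F2SE_Rel Lam ε₀ g₀ hg₀ (f + g) (c + d) := by
  obtain ⟨m, hm, e⟩ := h
  obtain ⟨n, hn, e'⟩ := h'
  obtain ⟨h1, e1⟩ := S40F2SE_rel_shift hm e n
  obtain ⟨h2, e2⟩ := S40F2SE_rel_shift hn e' m
  have h2' : g * g₀ ^ (m + n) ∈ Lam := by rw [add_comm]; exact h2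
  have e2' : d * ε₀ ⟨g₀, hg₀⟩ ^ (m + n) = ε₀ ⟨g * g₀ ^ (m + n), h2'⟩ := by
    have : (⟨g * g₀ ^ (m + n), h2'⟩ : ↥Lam) = ⟨g * g₀ ^ (n + m), h2⟩ :=
      Subtype.ext (show g * g₀ ^ (m + n) = g * g₀ ^ (n + m) by rw [add_comm])
    rw [this, ← e2, add_comm]
  have hs : (f + g) * g₀ ^ (m + n) ∈ Lam := by
    rw [add_mul]
    exact Lam.add_mem h1 h2'
  refine ⟨m + n, hs, ?_⟩
  have es : (⟨(f + g) * g₀ ^ (m + n), hs⟩ : ↥Lam) =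
      ⟨f * g₀ ^ (m + n), h1⟩ + ⟨g * g₀ ^ (m + n), h2'⟩ := Subtype.ext (add_mul _ _ _)
  rw [es, map_add, ← e1, ← e2', add_mul]

theorem S40F2SE_rel_mul {f g : F} {c d : k} (h : S40F2SE_Rel Lam ε₀ g₀ hg₀ f c)
    (h' : S40F2SE_Rel Lam ε₀ g₀ hg₀ g d) : S40F2SE_Rel Lam ε₀ g₀ hg₀ (f * g) (c * d) := by
  obtain ⟨m, hm, e⟩ := h
  obtain ⟨n, hn, e'⟩ := h'
  have ee : f * g * g₀ ^ (m + n) = f * g₀ ^ m * (g * g₀ ^ n) := by rw [pow_add]; ring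
  have hs : f * g * g₀ ^ (m + n) ∈ Lam := by
    rw [ee]
    exact Lam.mul_mem hm hn
  refine ⟨m + n, hs, ?_⟩
  have es : (⟨f * g * g₀ ^ (m + n), hs⟩ : ↥Lam) = ⟨f * g₀ ^ m, hm⟩ * ⟨g * g₀ ^ n, hn⟩ :=
    Subtype.ext ee
  rw [es, map_mul, ← e, ← e', pow_add]
  ring

theorem S40F2SE_rel_exists (hε : ε₀ ⟨g₀, hg₀⟩ ≠ 0) {f : F}
    (h : ∃ m : ℕ, f * g₀ ^ m ∈ Lam) : ∃ c : k, S40F2SE_Rel Lam ε₀ g₀ hg₀ f c := by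
  obtain ⟨m, hm⟩ := h
  refine ⟨ε₀ ⟨f * g₀ ^ m, hm⟩ * (ε₀ ⟨g₀, hg₀⟩ ^ m)⁻¹, m, hm, ?_⟩
  rw [mul_assoc, inv_mul_cancel₀ (pow_ne_zero _ hε), mul_one]

variable (Lam ε₀ g₀ hg₀)

/-- **the extension** of `ε₀ : Λ → k` to a subring `Λ₁ ⊆ Λ[1 / g₀]`, `ε₀ g₀ ≠ 0`. -/
noncomputable def S40F2SE_ext (hε : ε₀ ⟨g₀, hg₀⟩ ≠ 0) (Lam₁ : Subring F)
    (harch : ∀ f ∈ Lam₁, ∃ m : ℕ, f * g₀ ^ m ∈ Lam) : ↥Lam₁ →+* k where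
  toFun f := Classical.choose (S40F2SE_rel_exists (hg₀ := hg₀) hε (harch f f.2))
  map_one' := by
    have h1 := Classical.choose_spec
      (S40F2SE_rel_exists (ε₀ := ε₀) (hg₀ := hg₀) hε (harch (1 : ↥Lam₁) (1 : ↥Lam₁).2))
    have h2 : S40F2SE_Rel Lam ε₀ g₀ hg₀ ((1 : ↥Lam₁) : F) 1 := by
      have := S40F2SE_rel_of_mem (ε₀ := ε₀) (g₀ := g₀) (hg₀ := hg₀) Lam.one_mem
      rwa [show (⟨1, Lam.one_mem⟩ : ↥Lam) = 1 from rfl, map_one] at this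
    exact S40F2SE_rel_unique hε h1 h2
  map_zero' := by
    have h1 := Classical.choose_spec
      (S40F2SE_rel_exists (ε₀ := ε₀) (hg₀ := hg₀) hε (harch (0 : ↥Lam₁) (0 : ↥Lam₁).2))
    have h2 : S40F2SE_Rel Lam ε₀ g₀ hg₀ ((0 : ↥Lam₁) : F) 0 := by
      have := S40F2SE_rel_of_mem (ε₀ := ε₀) (g₀ := g₀) (hg₀ := hg₀) Lam.zero_mem
      rwa [show (⟨0, Lam.zero_mem⟩ : ↥Lam) = 0 from rfl, map_zero] at this
    exact S40F2SE_rel_unique hε h1 h2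
  map_mul' f g := by
    have h1 := Classical.choose_spec
      (S40F2SE_rel_exists (ε₀ := ε₀) (hg₀ := hg₀) hε (harch (f * g) (f * g).2))
    have hf := Classical.choose_spec
      (S40F2SE_rel_exists (ε₀ := ε₀) (hg₀ := hg₀) hε (harch f f.2))
    have hg := Classical.choose_spec
      (S40F2SE_rel_exists (ε₀ := ε₀) (hg₀ := hg₀) hε (harch g g.2))
    exact S40F2SE_rel_unique hε h1 (S40F2SE_rel_mul hf hg)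
  map_add' f g := by
    have h1 := Classical.choose_spec
      (S40F2SE_rel_exists (ε₀ := ε₀) (hg₀ := hg₀) hε (harch (f + g) (f + g).2))
    have hf := Classical.choose_spec
      (S40F2SE_rel_exists (ε₀ := ε₀) (hg₀ := hg₀) hε (harch f f.2))
    have hg := Classical.choose_spec
      (S40F2SE_rel_exists (ε₀ := ε₀) (hg₀ := hg₀) hε (harch g g.2))
    exact S40F2SE_rel_unique hε h1 (S40F2SE_rel_add hf hg)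

variable {Lam ε₀ g₀ hg₀}

theorem S40F2SE_ext_rel (hε : ε₀ ⟨g₀, hg₀⟩ ≠ 0) (Lam₁ : Subring F)
    (harch : ∀ f ∈ Lam₁, ∃ m : ℕ, f * g₀ ^ m ∈ Lam) (f : ↥Lam₁) :
    S40F2SE_Rel Lam ε₀ g₀ hg₀ (f : F) (S40F2SE_ext Lam ε₀ g₀ hg₀ hε Lam₁ harch f) :=
  Classical.choose_spec (S40F2SE_rel_exists (ε₀ := ε₀) (hg₀ := hg₀) hε (harch f f.2))

/-- `ε f · ε₀ (g₀) ^ m = ε₀ (f g₀ ^ m)` for EVERY `m` with `f g₀ ^ m ∈ Λ`. -/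
theorem S40F2SE_ext_spec (hε : ε₀ ⟨g₀, hg₀⟩ ≠ 0) (Lam₁ : Subring F)
    (harch : ∀ f ∈ Lam₁, ∃ m : ℕ, f * g₀ ^ m ∈ Lam) (f : ↥Lam₁) (m : ℕ)
    (hm : (f : F) * g₀ ^ m ∈ Lam) :
    S40F2SE_ext Lam ε₀ g₀ hg₀ hε Lam₁ harch f * ε₀ ⟨g₀, hg₀⟩ ^ m = ε₀ ⟨(f : F) * g₀ ^ m, hm⟩ := by
  have h1 := S40F2SE_ext_rel hε Lam₁ harch f
  have h2 : S40F2SE_Rel Lam ε₀ g₀ hg₀ (f : F)
      (ε₀ ⟨(f : F) * g₀ ^ m, hm⟩ * (ε₀ ⟨g₀, hg₀⟩ ^ m)⁻¹) :=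
    ⟨m, hm, by rw [mul_assoc, inv_mul_cancel₀ (pow_ne_zero _ hε), mul_one]⟩
  rw [S40F2SE_rel_unique hε h1 h2, mul_assoc, inv_mul_cancel₀ (pow_ne_zero _ hε), mul_one]

/-- the extension agrees with `ε₀` on `Λ`. -/
theorem S40F2SE_ext_of_mem (hε : ε₀ ⟨g₀, hg₀⟩ ≠ 0) (Lam₁ : Subring F)
    (harch : ∀ f ∈ Lam₁, ∃ m : ℕ, f * g₀ ^ m ∈ Lam) (f : ↥Lam₁) (hf : (f : F) ∈ Lam) :
    S40F2SE_ext Lam ε₀ g₀ hg₀ hε Lam₁ harch f = ε₀ ⟨(f : F), hf⟩ :=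
  S40F2SE_rel_unique hε (S40F2SE_ext_rel hε Lam₁ harch f) (S40F2SE_rel_of_mem hf)

/-- the extension kills what `ε₀` kills after multiplication by a power of `g₀`. -/
theorem S40F2SE_ext_eq_zero (hε : ε₀ ⟨g₀, hg₀⟩ ≠ 0) (Lam₁ : Subring F)
    (harch : ∀ f ∈ Lam₁, ∃ m : ℕ, f * g₀ ^ m ∈ Lam) (f : ↥Lam₁)
    (h0 : ∀ (m : ℕ) (hm : (f : F) * g₀ ^ m ∈ Lam), ε₀ ⟨(f : F) * g₀ ^ m, hm⟩ = 0) :
    S40F2SE_ext Lam ε₀ g₀ hg₀ hε Lam₁ harch f = 0 := by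
  obtain ⟨m, hm⟩ := harch f f.2
  have h := S40F2SE_ext_spec hε Lam₁ harch f m hm
  rw [h0 m hm] at h
  rcases mul_eq_zero.1 h with h | h
  · exact h
  · exact absurd h (pow_ne_zero _ hε)

end Ext

/-! ### the degenerate node -/

section Node

variable {L F k : Type*} [Field L] [Field F] [Algebra L F] [Field k]

/-- a node without `ε_zero₂` (the value at a point of `C₁` of the functions of `Λ`), with a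
function `g₀ ∈ Λ`, `g₀(P) ≠ 0`, a power of which clears every pole along `C₂`. -/
structure S40F2SE_Half (L F k : Type*) [Field L] [Field F] [Algebra L F] [Field k] where
  /-- the valuation ring of the constants -/
  A : ValuationSubring L
  /-- its residue map -/
  res : ↥A →+* k
  res_nonunit : ∀ a : ↥A, (a : L) ∈ A.nonunits → res a = 0
  /-- first Gauss valuation ring -/
  O₁ : ValuationSubring F
  /-- second Gauss valuation ring -/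
  O₂ : ValuationSubring F
  const₁ : ∀ a : L, a ∈ A → algebraMap L F a ∈ O₁
  const₂ : ∀ a : L, a ∈ A → algebraMap L F a ∈ O₂
  /-- the places of the chart -/
  U : Set (S40NA_Pt L F)
  /-- the value at the point, on `Λ` -/
  ε₀ : ↥(S40NA_Lam O₁ O₂ U) →+* k
  ε₀_const : ∀ (a : L) (ha : a ∈ A) (h : algebraMap L F a ∈ S40NA_Lam O₁ O₂ U),
    ε₀ ⟨algebraMap L F a, h⟩ = res ⟨a, ha⟩
  ε₀_zero₁ : ∀ f : ↥(S40NA_Lam O₁ O₂ U), (f : F) ∈ O₁.nonunits → ε₀ f = 0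
  /-- the function `g₀` -/
  g₀ : F
  g₀_mem : g₀ ∈ S40NA_Lam O₁ O₂ U
  ε₀_g₀ : ε₀ ⟨g₀, g₀_mem⟩ ≠ 0
  arch : ∀ f : F, f ∈ O₁ → ∃ m : ℕ, f * g₀ ^ m ∈ O₂

namespace S40F2SE_Half

variable (H : S40F2SE_Half L F k)

theorem lam_le : S40NA_Lam H.O₁ H.O₂ H.U ≤ S40NA_Lam H.O₁ H.O₁ H.U := by
  intro f hf
  obtain ⟨h1, -, h3⟩ := S40NA_mem_Lam.1 hf
  exact S40NA_mem_Lam.2 ⟨h1, h1, h3⟩

theorem arch_lam : ∀ f ∈ S40NA_Lam H.O₁ H.O₁ H.U,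
    ∃ m : ℕ, f * H.g₀ ^ m ∈ S40NA_Lam H.O₁ H.O₂ H.U := by
  intro f hf
  obtain ⟨h1, -, h3⟩ := S40NA_mem_Lam.1 hf
  obtain ⟨g1, -, g3⟩ := S40NA_mem_Lam.1 H.g₀_mem
  obtain ⟨m, hm⟩ := H.arch f h1
  exact ⟨m, S40NA_mem_Lam.2 ⟨H.O₁.mul_mem _ _ h1 (H.O₁.pow_mem g1 m), hm,
    fun Q hQ => Q.P.mul_mem _ _ (h3 Q hQ) (Q.P.pow_mem (g3 Q hQ) m)⟩⟩

end S40F2SE_Half

/-- **the degenerate node** at the point: `O₂ := O₁`, `ε` = the extension of `ε₀` to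
`Λ₁ = O₁ ∩ reg(U)`. -/
noncomputable def S40F2SE_node (H : S40F2SE_Half L F k) : S40NA_Node L F k where
  A := H.A
  res := H.res
  res_nonunit := H.res_nonunit
  O₁ := H.O₁
  O₂ := H.O₁
  const₁ := H.const₁
  const₂ := H.const₁
  U := H.U
  ε := S40F2SE_ext (S40NA_Lam H.O₁ H.O₂ H.U) H.ε₀ H.g₀ H.g₀_mem H.ε₀_g₀
    (S40NA_Lam H.O₁ H.O₁ H.U) H.arch_lam
  ε_const a ha h := by
    have hΛ : algebraMap L F a ∈ S40NA_Lam H.O₁ H.O₂ H.U :=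
      S40NA_mem_Lam.2 ⟨H.const₁ a ha, H.const₂ a ha, fun Q _ => Q.alg_mem a⟩
    rw [S40F2SE_ext_of_mem H.ε₀_g₀ _ H.arch_lam ⟨algebraMap L F a, h⟩ hΛ]
    exact H.ε₀_const a ha hΛ
  ε_zero₁ f hf := by
    refine S40F2SE_ext_eq_zero H.ε₀_g₀ _ H.arch_lam f (fun m hm => ?_)
    refine H.ε₀_zero₁ ⟨_, hm⟩ ?_
    show (f : F) * H.g₀ ^ m ∈ H.O₁.nonunits
    have hg : H.g₀ ^ m ∈ H.O₁ := H.O₁.pow_mem (S40NA_mem_Lam.1 H.g₀_mem).1 m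
    rw [ValuationSubring.mem_nonunits_iff] at hf ⊢
    rw [map_mul]
    calc H.O₁.valuation (f : F) * H.O₁.valuation (H.g₀ ^ m)
        ≤ H.O₁.valuation (f : F) * 1 :=
          mul_le_mul' le_rfl ((H.O₁.valuation_le_one_iff _).2 hg)
      _ = H.O₁.valuation (f : F) := mul_one _
      _ < 1 := hf
  ε_zero₂ f hf := by
    refine S40F2SE_ext_eq_zero H.ε₀_g₀ _ H.arch_lam f (fun m hm => ?_)
    refine H.ε₀_zero₁ ⟨_, hm⟩ ?_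
    show (f : F) * H.g₀ ^ m ∈ H.O₁.nonunits
    have hg : H.g₀ ^ m ∈ H.O₁ := H.O₁.pow_mem (S40NA_mem_Lam.1 H.g₀_mem).1 m
    rw [ValuationSubring.mem_nonunits_iff] at hf ⊢
    rw [map_mul]
    calc H.O₁.valuation (f : F) * H.O₁.valuation (H.g₀ ^ m)
        ≤ H.O₁.valuation (f : F) * 1 :=
          mul_le_mul' le_rfl ((H.O₁.valuation_le_one_iff _).2 hg)
      _ = H.O₁.valuation (f : F) := mul_one _
      _ < 1 := hf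

theorem S40F2SE_node_A (H : S40F2SE_Half L F k) : (S40F2SE_node H).A = H.A := rfl

theorem S40F2SE_node_res (H : S40F2SE_Half L F k) : (S40F2SE_node H).res = H.res := rfl

theorem S40F2SE_node_O₁ (H : S40F2SE_Half L F k) : (S40F2SE_node H).O₁ = H.O₁ := rfl

/-- the node is degenerate: `O₂ = O₁`. -/
theorem S40F2SE_node_O₂ (H : S40F2SE_Half L F k) :
    (S40F2SE_node H).O₂ = (S40F2SE_node H).O₁ := rfl

theorem S40F2SE_node_U (H : S40F2SE_Half L F k) : (S40F2SE_node H).U = H.U := rfl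

theorem S40F2SE_node_Lam (H : S40F2SE_Half L F k) :
    (S40F2SE_node H).Lam = S40NA_Lam H.O₁ H.O₁ H.U := rfl

/-- `ε = ε₀` on `Λ = O₁ ∩ O₂ ∩ reg(U)`. -/
theorem S40F2SE_node_ε_of_mem (H : S40F2SE_Half L F k) (f : F)
    (hf : f ∈ S40NA_Lam H.O₁ H.O₂ H.U) :
    (S40F2SE_node H).ε ⟨f, H.lam_le hf⟩ = H.ε₀ ⟨f, hf⟩ :=
  S40F2SE_ext_of_mem H.ε₀_g₀ _ H.arch_lam ⟨f, H.lam_le hf⟩ hf

/-- `ε f · ε₀ (g₀) ^ m = ε₀ (f g₀ ^ m)`. -/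
theorem S40F2SE_node_ε_spec (H : S40F2SE_Half L F k) (f : F)
    (hf : f ∈ (S40F2SE_node H).Lam) (m : ℕ)
    (hm : f * H.g₀ ^ m ∈ S40NA_Lam H.O₁ H.O₂ H.U) :
    (S40F2SE_node H).ε ⟨f, hf⟩ * H.ε₀ ⟨H.g₀, H.g₀_mem⟩ ^ m = H.ε₀ ⟨f * H.g₀ ^ m, hm⟩ :=
  S40F2SE_ext_spec H.ε₀_g₀ _ H.arch_lam ⟨f, hf⟩ m hm

/-- `g₀` is a unit at the point. -/
theorem S40F2SE_node_ε_g₀ (H : S40F2SE_Half L F k) :
    (S40F2SE_node H).ε ⟨H.g₀, H.lam_le H.g₀_mem⟩ ≠ 0 := by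
  rw [S40F2SE_node_ε_of_mem H H.g₀ H.g₀_mem]
  exact H.ε₀_g₀

end Node

end Fermat.Agent.S40
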