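import Fermat.Agent.S40.F2US
import Fermat.Agent.S40.F2SlopeCoord
import Fermat.Agent.S40.F2MainVal
import Fermat.Agent.S40.NodeChartP

/-!
# TRACK 13 (S40 / S44), (F2'), LEAF (c) of `S40F2AS_node` (helper3): the slope of the modular unit
`f₀` at a canonical node, in the shape of the hypothesis `hslope` of `S40F2AS_node` /
`S40F2MC_he` / `S40F2ME_he`.  Prefix `S40F2UC_`.

Node `N := S40NI_nodeGen (S18_hRR (M p)).deg_one 1 Nat.one_pos hx hred e₁ e₂ hW1 i` (arbitrary node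
data, as in `S40NX3_exists`), coordinate `C : S40F2N_Coord N` with `C.ϖ = p ^ e`, constants
`C₀`, `π` (`hA₁`, `hA₂`, `hπ0`, `hπ1`, `hval` exactly as in `S40F2AS_node`).

* `S40F2UC_hslope_gen` : with `hordX : ord_{P i} (red₁ C.X) = 1`;
* `S40F2UC_hslope` : with the coordinate of `S40NX3_exists` (`C.X = t`, `ord_{P i} (red₁ t) = 1`):
  `∃ m : ℤ, − (12 · vL p) = m · vL (p ^ e)`, `vL = S40F2MV_vL N.O₁ π`
  (`m = ord_{P i} (red₁ f₀)`).
-/

set_option autoImplicit false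
set_option synthInstance.maxHeartbeats 400000
set_option maxHeartbeats 1000000
set_option linter.unusedSectionVars false
set_option linter.unusedVariables false
set_option linter.style.haveILetI false

open HahnSeries IntermediateField AlgebraicCurve ModularCurve

noncomputable section

namespace Fermat.Agent.S40

open Fermat.Agent.Lib Fermat.Agent.S18 Fermat.Agent.S24 Fermat.Agent.S34 Fermat.Agent.S36
  Fermat.Agent.GalRep Fermat.Agent.S33

local notation "Ω" => AlgebraicClosure ℚ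

variable (M p : ℕ) [NeZero (M * p)] [NeZero p] (hp : p.Prime) (hpM : ¬ p ∣ M)
  (A : ValuationSubring Ω) (hA : A.LiesOverPrime p)
  (hgen : PrincipalGeneratedByIntegral A (IsLocalRing.residue A) (M * p))

variable {s : ℕ}
  (e₁ : Fin s → ↥(S34M_chart M p A 1 Nat.one_pos).Rb₁ →ₐ[IsLocalRing.ResidueField A]
    IsLocalRing.ResidueField A)
  (e₂ : Fin s → ↥(S34M_chart M p A 1 Nat.one_pos).Rb₂ →ₐ[IsLocalRing.ResidueField A]
    IsLocalRing.ResidueField A)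
  (P : Fin s → Place (IsLocalRing.ResidueField A)
    ↥(modularFunctionFieldFullC (IsLocalRing.ResidueField A) (M * p)))
  (hE : Function.Surjective (S34B_E e₁ e₂))
  (hW1 : S34K_W (S34M_same M p hp hpM A hgen) (S34M_chart M p A 1 Nat.one_pos) 1 = S34B_W e₁ e₂)
  (hx : S34P_Hyp (S34M_T1 M p A hgen) (S34M_T2 M p hp hpM A hgen) (S34M_same M p hp hpM A hgen)
    (S34PX_j M p hp hpM A hgen))
  (hred : S34P_red (S34M_T1 M p A hgen) (S34M_T2 M p hp hpM A hgen) (S34PX_j M p hp hpM A hgen) =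
    (S34M_xb M p A, S34M_xb M p A ^ p))
  (hP : ∀ i, 0 ≤ (P i).ord (S34M_xb M p A))
  (he₁ : ∀ i (a : ↥(S34M_chart M p A 1 Nat.one_pos).Rb₁), e₁ i a = FD_c0 (P i) (a : _))

include hA hE hP he₁ in
/-- **LEAF (c)**, general coordinate: `− 12 vL(p) = m · vL(p ^ e)`. -/
theorem S40F2UC_hslope_gen (i : Fin s)
    (C : S40F2N_Coord
      (S40NI_nodeGen (S18_hRR (M * p)).deg_one 1 Nat.one_pos hx hred e₁ e₂ hW1 i))
    (hordX : (P i).ord ((S34M_T1 M p A hgen).red ⟨C.X, (S40F2SC_hX C).mem⟩) = 1)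
    (e : ℕ) (hCϖ : C.ϖ = (p : Ω) ^ e)
    (C₀ : Subfield Ω) {π : Ω}
    (hA₁ : ∀ a : Ω, algebraMap Ω ↥(modularFunctionFieldBar (M * p)) a ∈
        (S40NI_nodeGen (S18_hRR (M * p)).deg_one 1 Nat.one_pos hx hred e₁ e₂ hW1 i).O₁ →
      a ∈ (S40NI_nodeGen (S18_hRR (M * p)).deg_one 1 Nat.one_pos hx hred e₁ e₂ hW1 i).A)
    (hA₂ : ∀ a : Ω, algebraMap Ω ↥(modularFunctionFieldBar (M * p)) a ∈
        (S40NI_nodeGen (S18_hRR (M * p)).deg_one 1 Nat.one_pos hx hred e₁ e₂ hW1 i).O₂ →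
      a ∈ (S40NI_nodeGen (S18_hRR (M * p)).deg_one 1 Nat.one_pos hx hred e₁ e₂ hW1 i).A)
    (hπ0 : π ≠ 0)
    (hπ1 : (S40NI_nodeGen (S18_hRR (M * p)).deg_one 1 Nat.one_pos hx hred e₁ e₂
      hW1 i).A.valuation π < 1)
    (hval : ∀ x ∈ C₀, x ≠ 0 → ∃ j : ℤ,
      (S40NI_nodeGen (S18_hRR (M * p)).deg_one 1 Nat.one_pos hx hred e₁ e₂ hW1 i).A.valuation x =
        (S40NI_nodeGen (S18_hRR (M * p)).deg_one 1 Nat.one_pos hx hred e₁ e₂
          hW1 i).A.valuation π ^ j) :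
    ∃ m : ℤ,
      -(12 * S40F2MV_vL
          (S40NI_nodeGen (S18_hRR (M * p)).deg_one 1 Nat.one_pos hx hred e₁ e₂ hW1 i).O₁
          (algebraMap Ω ↥(modularFunctionFieldBar (M * p)) π)
          (algebraMap Ω ↥(modularFunctionFieldBar (M * p)) (p : Ω))) =
      m * S40F2MV_vL
          (S40NI_nodeGen (S18_hRR (M * p)).deg_one 1 Nat.one_pos hx hred e₁ e₂ hW1 i).O₁
          (algebraMap Ω ↥(modularFunctionFieldBar (M * p)) π)
          (algebraMap Ω ↥(modularFunctionFieldBar (M * p)) ((p : Ω) ^ e)) := by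
  have hπ0' : algebraMap Ω ↥(modularFunctionFieldBar (M * p)) π ≠ 0 := (map_ne_zero _).mpr hπ0
  have hπnu : algebraMap Ω ↥(modularFunctionFieldBar (M * p)) π ∈
      (S40NI_nodeGen (S18_hRR (M * p)).deg_one 1 Nat.one_pos hx hred e₁ e₂ hW1 i).O₁.nonunits :=
    S40F2K_nonunit _ _ hA₁ ((ValuationSubring.mem_nonunits_iff _).mpr hπ1)
  have hπ1' := (ValuationSubring.mem_nonunits_iff _).mp hπnu
  have hval' : ∀ x ∈ C₀.map (algebraMap Ω ↥(modularFunctionFieldBar (M * p))), x ≠ 0 →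
      ∃ j : ℤ,
        (S40NI_nodeGen (S18_hRR (M * p)).deg_one 1 Nat.one_pos hx hred e₁ e₂
          hW1 i).O₁.valuation x =
        (S40NI_nodeGen (S18_hRR (M * p)).deg_one 1 Nat.one_pos hx hred e₁ e₂
          hW1 i).O₁.valuation (algebraMap Ω ↥(modularFunctionFieldBar (M * p)) π) ^ j := by
    rintro x ⟨b, hb, rfl⟩ hx0
    have hb0 : b ≠ 0 := fun h => hx0 (by rw [h, map_zero])
    obtain ⟨j, hj⟩ := hval b hb hb0
    exact ⟨j, S40F2MV_transfer _ _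
      (S40NI_nodeGen (S18_hRR (M * p)).deg_one 1 Nat.one_pos hx hred e₁ e₂ hW1 i).const₁ hπ0 hj⟩
  have hv : S40F2SI_Val
      (S40NI_nodeGen (S18_hRR (M * p)).deg_one 1 Nat.one_pos hx hred e₁ e₂ hW1 i).O₂
      (C₀.map (algebraMap Ω ↥(modularFunctionFieldBar (M * p))))
      (S40F2MV_vL (S40NI_nodeGen (S18_hRR (M * p)).deg_one 1 Nat.one_pos hx hred e₁ e₂ hW1 i).O₁
        (algebraMap Ω ↥(modularFunctionFieldBar (M * p)) π)) := by
    refine S40F2MV_val _ _ _ hπ0' hπ1' hval' ?_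
    rintro x ⟨b, -, rfl⟩ hu
    have hu' := S40F2S_isU_iff.1 hu
    have h1 := hA₂ b hu'.1
    have h2 := hA₂ b⁻¹ (by rw [map_inv₀]; exact hu'.2.1)
    have h3 :=
      (S40NI_nodeGen (S18_hRR (M * p)).deg_one 1 Nat.one_pos hx hred e₁ e₂ hW1 i).const₁ b h1
    have h4 :=
      (S40NI_nodeGen (S18_hRR (M * p)).deg_one 1 Nat.one_pos hx hred e₁ e₂ hW1 i).const₁ b⁻¹ h2
    rw [map_inv₀] at h4
    exact S40F2S_isU_iff.2 ⟨h3, h4, hu'.2.2⟩
  have hXY := S40F2SC_hXY C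
  rw [hCϖ] at hXY
  have hpC : (p : Ω) ∈ C₀ := natCast_mem C₀ p
  refine ⟨(P i).ord ((S34M_T1 M p A hgen).red
      ⟨S36F0_f0 M p, (S40F2US_isU₁ M p hp hpM A hA hgen).mem⟩), ?_⟩
  exact S40F2US_slope_val' M p hp hpM A hA hgen e₁ e₂ P hE hW1 hx hred hP he₁ i hXY
    (S40F2SC_hX C) (S40F2SC_hY C) (S40F2SC_noZP_X C) hordX _ rfl hv
    ⟨(p : Ω), hpC, rfl⟩ ⟨(p : Ω) ^ e, C₀.pow_mem hpC e, rfl⟩

variable (H : Subgroup (Ω ≃ₐ[ℚ] Ω))

include hA hE hP he₁ in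
/-- **LEAF (c)** at the coordinate of `S40NX3_exists` (`C.X = t`, `ord_{P i} (red₁ t) = 1`,
`C.ϖ = p ^ e`): the hypothesis `hslope` of `S40F2AS_node`. -/
theorem S40F2UC_hslope (i : Fin s)
    (C : S40F2N_Coord
      (S40NI_nodeGen (S18_hRR (M * p)).deg_one 1 Nat.one_pos hx hred e₁ e₂ hW1 i))
    (t : ↥(S33NX_Lam M p hp hpM A hgen H))
    (hCX : C.X = ((t : S33NX_F M p H) : ↥(modularFunctionFieldBar (M * p))))
    (hordt : (P i).ord (S40F2PV_red₁ M p hp hpM A hgen H t) = 1)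
    (e : ℕ) (hCϖ : C.ϖ = (p : Ω) ^ e)
    (C₀ : Subfield Ω) {π : Ω}
    (hA₁ : ∀ a : Ω, algebraMap Ω ↥(modularFunctionFieldBar (M * p)) a ∈
        (S40NI_nodeGen (S18_hRR (M * p)).deg_one 1 Nat.one_pos hx hred e₁ e₂ hW1 i).O₁ →
      a ∈ (S40NI_nodeGen (S18_hRR (M * p)).deg_one 1 Nat.one_pos hx hred e₁ e₂ hW1 i).A)
    (hA₂ : ∀ a : Ω, algebraMap Ω ↥(modularFunctionFieldBar (M * p)) a ∈
        (S40NI_nodeGen (S18_hRR (M * p)).deg_one 1 Nat.one_pos hx hred e₁ e₂ hW1 i).O₂ →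
      a ∈ (S40NI_nodeGen (S18_hRR (M * p)).deg_one 1 Nat.one_pos hx hred e₁ e₂ hW1 i).A)
    (hπ0 : π ≠ 0)
    (hπ1 : (S40NI_nodeGen (S18_hRR (M * p)).deg_one 1 Nat.one_pos hx hred e₁ e₂
      hW1 i).A.valuation π < 1)
    (hval : ∀ x ∈ C₀, x ≠ 0 → ∃ j : ℤ,
      (S40NI_nodeGen (S18_hRR (M * p)).deg_one 1 Nat.one_pos hx hred e₁ e₂ hW1 i).A.valuation x =
        (S40NI_nodeGen (S18_hRR (M * p)).deg_one 1 Nat.one_pos hx hred e₁ e₂
          hW1 i).A.valuation π ^ j) :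
    ∃ m : ℤ,
      -(12 * S40F2MV_vL
          (S40NI_nodeGen (S18_hRR (M * p)).deg_one 1 Nat.one_pos hx hred e₁ e₂ hW1 i).O₁
          (algebraMap Ω ↥(modularFunctionFieldBar (M * p)) π)
          (algebraMap Ω ↥(modularFunctionFieldBar (M * p)) (p : Ω))) =
      m * S40F2MV_vL
          (S40NI_nodeGen (S18_hRR (M * p)).deg_one 1 Nat.one_pos hx hred e₁ e₂ hW1 i).O₁
          (algebraMap Ω ↥(modularFunctionFieldBar (M * p)) π)
          (algebraMap Ω ↥(modularFunctionFieldBar (M * p)) ((p : Ω) ^ e)) := by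
  refine S40F2UC_hslope_gen M p hp hpM A hA hgen e₁ e₂ P hE hW1 hx hred hP he₁ i C ?_ e hCϖ C₀
    hA₁ hA₂ hπ0 hπ1 hval
  have h1 : S40F2PV_red₁ M p hp hpM A hgen H t =
      (S34M_T1 M p A hgen).red ⟨((t : S33NX_F M p H) : ↥(modularFunctionFieldBar (M * p))),
        (S33NX_mem_O_zero M p hp hpM A hgen H t).1 t.2.1.1⟩ := by
    rw [S40F2PF_red₁_eq]
    exact S40F2PI_red₁_apply M p hp hpM A hgen H t
  have e' : (⟨C.X, (S40F2SC_hX C).mem⟩ : ↥(S34M_T1 M p A hgen).O) =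
      ⟨((t : S33NX_F M p H) : ↥(modularFunctionFieldBar (M * p))),
        (S33NX_mem_O_zero M p hp hpM A hgen H t).1 t.2.1.1⟩ := Subtype.ext hCX
  rw [e', ← h1]
  exact hordt

end Fermat.Agent.S40
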