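import Mathlib
import Fermat.Agent.S40.FinInst
import Fermat.Agent.S40.FrobFixCls
import Fermat.Agent.S40.G5Gal

/-!
# TRACK 13 (S40/S44), GEO-5 route 2: the `red / γ` side of the wire `S40R2K_main` (helper4)

`A ⊂ ℚ̄` over `p ∤ N`, `red = reductionModL A N : J₀(N)(ℚ̄) → J̄ = JZeroC k N`.
For every point `y₀` of `J₀(N)` there is `g ∈ G_ℚ` (in `D_A`) such that

* `g • y₀ = y₀`                                             (`hg` of `S40R2K_main`),
* `red y = 0 → red (g • y) = 0`                             (`hgk`),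
* `red '' {w | red (g • w) = red w}` is finite              (`hfin`),
* `g • T_ℓ y = T_ℓ (g • y)` for all `ℓ`, all `y`            (`hgT`).

`S40FS_side` : the statement with `g : G_ℚ`;  `S40FS_side_hom` : the same with the additive
endomorphism `DistribSMul.toAddMonoidHom (JZero N) g`, in the exact shape of the hypotheses
`g`, `hg`, `hgk`, `hfin`, `hgT` of `S40R2K_main` (S40/R2Ker.lean).
Used: `S40FF_main_cls` (helper8, with `S40FC_finite` of helper27), `S40FI_red_smul` (helper4),
`S40GG_hecke_smul` (helper9).  Prefix `S40FS_`.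
-/

set_option autoImplicit false
set_option synthInstance.maxHeartbeats 400000
set_option maxHeartbeats 1000000
set_option linter.unusedSectionVars false
set_option linter.unusedVariables false

open HahnSeries IntermediateField AlgebraicCurve ModularCurve

namespace Fermat.Agent.S40

open Fermat.Agent.S18 Fermat.Agent.Lib Fermat.Agent.GalRep Fermat.Agent.S17 Fermat.Agent.S19

variable (N : ℕ) [NeZero N] (A : ValuationSubring (AlgebraicClosure ℚ)) {p : ℕ}

/-- **the `red / γ` side of route 2**, with `g : G_ℚ`. -/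
theorem S40FS_side (hp : p.Prime) (hA : A.LiesOverPrime p) (hpN : ¬ p ∣ N) (y₀ : JZero N) :
    ∃ g : AlgebraicClosure ℚ ≃ₐ[ℚ] AlgebraicClosure ℚ, g ∈ A.decompositionSubgroup ℚ ∧
      g • y₀ = y₀ ∧
      (∀ y : JZero N, reductionModL A N y = 0 → reductionModL A N (g • y) = 0) ∧
      (reductionModL A N '' {w : JZero N |
        reductionModL A N (g • w) = reductionModL A N w}).Finite ∧
      (∀ (ℓ : Nat.Primes) (y : JZero N),
        g • heckeOperatorBar N ℓ y = heckeOperatorBar N ℓ (g • y)) := by
  have h : ReductionInputsModL A N := S19IN_RI N A hp hA hpN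
  obtain ⟨g, hgy, hfin⟩ := S40FF_main_cls N A h hp hA hpN y₀
  refine ⟨(g : AlgebraicClosure ℚ ≃ₐ[ℚ] AlgebraicClosure ℚ), g.2, hgy, ?_, ?_, ?_⟩
  · intro y hy
    rw [S40FI_red_smul N A hp hA hpN g y, hy]
    exact smul_zero (A := JZeroC (IsLocalRing.ResidueField A) N) (S19EQ_gb N A g)
  · refine hfin.subset ?_
    rintro c ⟨w, hw, rfl⟩
    show S19EQ_gb N A g • reductionModL A N w = reductionModL A N w
    rw [← S40FI_red_smul N A hp hA hpN g w]
    exact hw
  · intro ℓ y
    exact (S40GG_hecke_smul N ℓ (g : AlgebraicClosure ℚ ≃ₐ[ℚ] AlgebraicClosure ℚ) y).symm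

/-- **the `red / γ` side of route 2**, in the shape of the hypotheses `g`, `hg`, `hgk`, `hfin`,
`hgT` of `S40R2K_main`. -/
theorem S40FS_side_hom (hp : p.Prime) (hA : A.LiesOverPrime p) (hpN : ¬ p ∣ N) (y₀ : JZero N) :
    ∃ g : JZero N →+ JZero N,
      g y₀ = y₀ ∧
      (∀ y : JZero N, reductionModL A N y = 0 → reductionModL A N (g y) = 0) ∧
      (reductionModL A N '' {w : JZero N |
        reductionModL A N (g w) = reductionModL A N w}).Finite ∧
      (∀ (ℓ : Nat.Primes) (y : JZero N),
        g (heckeOperatorBar N ℓ y) = heckeOperatorBar N ℓ (g y)) := by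
  obtain ⟨g, -, h1, h2, h3, h4⟩ := S40FS_side N A hp hA hpN y₀
  exact ⟨DistribSMul.toAddMonoidHom (JZero N) g, h1, h2, h3, h4⟩

end Fermat.Agent.S40
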