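import Mathlib
import Fermat.Agent.S19.LiftJ
import Fermat.Agent.S19.GalRed
import Fermat.Agent.S19.Inst

/-!
# TRACK 13 (row 38), GEO-5 route 2, item (iv-a), the LIFT (helper9).  Prefix `S40GL_`.

`A` over `p ∤ N`: the reduction map `reductionModL A N : J₀(N)(ℚ̄) → J₀(N)(k)` is SURJECTIVE
(every place of the special fibre is the reduction of a place: `S18_Spec.r_surjective`; classes:
`S19LJ_main` with the empty set of automorphisms).

* `S40GL_place_surjective` : `placeReductionModL h` is surjective;
* `S40GL_red_surjective`   : `reductionModL A N` is surjective;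
* `S40GL_lift`             : a class `c` with `p • c = 0`, `c ≠ 0` has a lift `y₀` with
  `p • red y₀ = 0`, `red y₀ ≠ 0` (the shape of `S40R2F_core`).
-/

set_option autoImplicit false
set_option synthInstance.maxHeartbeats 400000
set_option linter.unusedSectionVars false
set_option linter.unusedVariables false

open AlgebraicCurve ModularCurve

namespace Fermat.Agent.S40

open Fermat.Agent.S18 Fermat.Agent.S19 Fermat.Agent.S17

variable (N : ℕ) [NeZero N] (A : ValuationSubring (AlgebraicClosure ℚ)) {p : ℕ}

theorem S40GL_place_surjective (h : ReductionInputsModL A N) :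
    Function.Surjective (placeReductionModL h) :=
  (S18_specModL N A h).r_surjective (S18_hPD N)

/-- **the reduction map of `J₀(N)` at a place over `p ∤ N` is surjective.** -/
theorem S40GL_red_surjective (hp : p.Prime) (hA : A.LiesOverPrime p) (hpN : ¬ p ∣ N) :
    Function.Surjective (reductionModL A N) := by
  have h : ReductionInputsModL A N := S19IN_RI N A hp hA hpN
  intro c
  obtain ⟨x, hx, -⟩ := S19LJ_main N A h ∅
    (fun Q => by
      obtain ⟨P, hP⟩ := S40GL_place_surjective N A h Q
      exact ⟨P, hP, fun τ hτ => absurd hτ (Set.notMem_empty τ)⟩) c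
  exact ⟨x, hx⟩

/-- the lift in the shape of `S40R2F_core`. -/
theorem S40GL_lift (hp : p.Prime) (hA : A.LiesOverPrime p) (hpN : ¬ p ∣ N)
    (c : JZeroC (IsLocalRing.ResidueField A) N) (hpc : p • c = 0) (hc0 : c ≠ 0) :
    ∃ y₀ : JZero N, reductionModL A N y₀ = c ∧ p • reductionModL A N y₀ = 0 ∧
      reductionModL A N y₀ ≠ 0 := by
  obtain ⟨y₀, hy₀⟩ := S40GL_red_surjective N A hp hA hpN c
  exact ⟨y₀, hy₀, by rw [hy₀]; exact hpc, by rw [hy₀]; exact hc0⟩

end Fermat.Agent.S40
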