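import Mathlib
import Fermat.Agent.S18.Final
import Fermat.Agent.S34.WqJac
import Fermat.Agent.S37.HeckeP

/-!
# S40 (Mazur–Ribet at `p`, row 38), GEO-5 route 2, item (vi) (helper9): FINITE ORBITS.
Prefix `S40GO_`.

Every point of `J₀(N)(ℚ̄)` has a finite orbit under every cyclic subgroup of `G_ℚ`:

* `S40GO_periodic` : a point of a finite stable set is periodic (abstract);
* `S40GO_const` : `∀ a : ℚ̄, ∃ M > 0, σ ^ M a = a`;
* `S40GO_place` : `∀ P : Place ℚ̄ F_N, ∃ M > 0, σ ^ M • P = P`
  (`P` is a zero of `j − a` or of `j⁻¹`, which has finitely many zeros);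
* `S40GO_divisor`, `S40GO_orbit` : `∀ y : JZero N, ∃ M > 0, σ ^ M • y = y`.
-/

set_option autoImplicit false
set_option linter.style.haveILetI false
set_option linter.unusedSectionVars false
set_option linter.unusedVariables false
set_option synthInstance.maxHeartbeats 400000
set_option maxHeartbeats 1000000

open AlgebraicCurve ModularCurve IntermediateField

noncomputable section

namespace Fermat.Agent.S40

open Fermat.Agent.S18 Fermat.Agent.S24 Fermat.Agent.S34 Fermat.Agent.S37

local notation "Kb" => AlgebraicClosure ℚ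
local notation "GQ" => (AlgebraicClosure ℚ ≃ₐ[ℚ] AlgebraicClosure ℚ)

/-- a point of a finite set which is stable under `g` is periodic. -/
theorem S40GO_periodic {G X : Type*} [Group G] [MulAction G X] (g : G) (x : X) (Z : Set X)
    (hZ : Z.Finite) (hx : x ∈ Z) (hg : ∀ z ∈ Z, g • z ∈ Z) :
    ∃ M : ℕ, 0 < M ∧ g ^ M • x = x := by
  have hmem : ∀ n : ℕ, g ^ n • x ∈ Z := by
    intro n
    induction n with
    | zero => simpa using hx
    | succ n ih =>
      rw [pow_succ', mul_smul]
      exact hg _ ih
  haveI : Finite Z := hZ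
  obtain ⟨n, m, hnm, h⟩ := Finite.exists_ne_map_eq_of_infinite
    (fun n : ℕ => (⟨g ^ n • x, hmem n⟩ : Z))
  have h' : g ^ n • x = g ^ m • x := congrArg Subtype.val h
  have key : ∀ a b : ℕ, a < b → g ^ a • x = g ^ b • x → ∃ M : ℕ, 0 < M ∧ g ^ M • x = x := by
    intro a b hab hE
    refine ⟨b - a, Nat.sub_pos_of_lt hab, ?_⟩
    have hb : b = a + (b - a) := by omega
    rw [hb, pow_add, mul_smul] at hE
    exact (MulAction.injective (g ^ a) hE).symm
  rcases Nat.lt_or_gt_of_ne hnm with h1 | h1
  · exact key n m h1 h'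
  · exact key m n h1 h'.symm

/-- powers: if `g ^ M` fixes `x`, so does `g ^ (M * k)`. -/
theorem S40GO_pow_mul {G X : Type*} [Group G] [MulAction G X] (g : G) (x : X) {M : ℕ}
    (h : g ^ M • x = x) (k : ℕ) : g ^ (M * k) • x = x := by
  induction k with
  | zero => simp
  | succ k ih =>
    rw [Nat.mul_succ, pow_add, mul_smul, h, ih]

/-- every algebraic number is fixed by a power of `σ`. -/
theorem S40GO_const (σ : GQ) (a : Kb) : ∃ M : ℕ, 0 < M ∧ (σ ^ M) a = a := by
  have halg : IsAlgebraic ℚ a := (AlgebraicClosure.isAlgebraic ℚ).isAlgebraic a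
  have hint : IsIntegral ℚ a := halg.isIntegral
  have hZ : ((minpoly ℚ a).rootSet Kb).Finite := Polynomial.rootSet_finite _ _
  have hx : a ∈ (minpoly ℚ a).rootSet Kb := by
    rw [Polynomial.mem_rootSet]
    exact ⟨minpoly.ne_zero hint, minpoly.aeval ℚ a⟩
  obtain ⟨M, hM, h⟩ := S40GO_periodic (G := GQ) (X := Kb) σ a _ hZ hx (by
    intro z hz
    rw [Polynomial.mem_rootSet] at hz ⊢
    refine ⟨hz.1, ?_⟩
    show Polynomial.aeval (σ z) (minpoly ℚ a) = 0
    rw [Polynomial.aeval_algEquiv, AlgHom.comp_apply, hz.2, map_zero])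
  exact ⟨M, hM, h⟩

variable (N : ℕ) [NeZero N]

/-- the zeros of a nonzero function are finitely many. -/
theorem S40GO_zeros_finite (h : ↥(modularFunctionFieldBar N)) (hh : h ≠ 0) :
    {w : Place Kb ↥(modularFunctionFieldBar N) | 0 < w.ord h}.Finite := by
  haveI := S18_hPD N
  obtain ⟨D, hD, -⟩ := HasPrincipalDivisors.exists_divisor (K := Kb) h hh
  refine (D.support.finite_toSet).subset ?_
  intro w hw
  rw [Finset.mem_coe, Finsupp.mem_support_iff, hD w]
  have : 0 < w.ord h := hw
  omega

/-- a place at which a `τ`-invariant nonzero function vanishes is `τ`-periodic. -/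
theorem S40GO_place_of_fun (τ : GQ) (P : Place Kb ↥(modularFunctionFieldBar N))
    (h : ↥(modularFunctionFieldBar N)) (hh : h ≠ 0) (hP : 0 < P.ord h)
    (hτ : arithmeticGalois (modularFunctionFieldFull N) τ • h = h) :
    ∃ M : ℕ, 0 < M ∧ arithmeticGalois (modularFunctionFieldFull N) (τ ^ M) • P = P := by
  obtain ⟨M, hM, hfix⟩ := S40GO_periodic
    (arithmeticGalois (modularFunctionFieldFull N) τ) P _ (S40GO_zeros_finite N h hh) hP (by
      intro w hw
      have hw' : 0 < w.ord h := hw
      show 0 < (arithmeticGalois (modularFunctionFieldFull N) τ • w).ord h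
      have e := SemilinearAut.ord_smul (arithmeticGalois (modularFunctionFieldFull N) τ) w h
      rw [hτ] at e
      rw [e]
      exact hw')
  exact ⟨M, hM, by rw [map_pow]; exact hfix⟩

/-- **every place has a finite orbit** under the powers of `σ`. -/
theorem S40GO_place (σ : GQ) (P : Place Kb ↥(modularFunctionFieldBar N)) :
    ∃ M : ℕ, 0 < M ∧ arithmeticGalois (modularFunctionFieldFull N) (σ ^ M) • P = P := by
  have hj0 : jB N ≠ 0 := fun h0 => transcendental_jB N (by rw [h0]; exact isAlgebraic_zero)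
  have hgj : ∀ τ : GQ, arithmeticGalois (modularFunctionFieldFull N) τ • jB N = jB N :=
    fun τ => S34WJ_arith_jBar N τ 1 (one_dvd N)
  by_cases hpole : P.ord (jB N) < 0
  · -- a pole of `j`: a zero of `j⁻¹`
    obtain ⟨M, hM, h⟩ := S40GO_place_of_fun N σ P (jB N)⁻¹ (inv_ne_zero hj0)
      (by rw [Place.ord_inv]; omega)
      (by
        have := hgj σ
        rw [smul_inv'', this])
    exact ⟨M, hM, h⟩
  · -- a zero of `j − a`
    have hP1 : P.deg = 1 := S24_deg_eq_one (S37P_isFunctionField1 N) P
    obtain ⟨a, ha⟩ := S18_exists_value P hP1 (jB N) (by omega)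
    have hne : jB N - algebraMap Kb ↥(modularFunctionFieldBar N) a ≠ 0 := by
      intro h0
      apply transcendental_jB N
      rw [sub_eq_zero.1 h0]
      exact isAlgebraic_algebraMap a
    have hpos : 0 < P.ord (jB N - algebraMap Kb ↥(modularFunctionFieldBar N) a) := by
      rcases ha with h | h
      · exact absurd (sub_eq_zero.2 h) hne
      · exact h
    obtain ⟨M₁, hM₁, hσa⟩ := S40GO_const σ a
    have hinv : arithmeticGalois (modularFunctionFieldFull N) (σ ^ M₁) •
        (jB N - algebraMap Kb ↥(modularFunctionFieldBar N) a)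
        = jB N - algebraMap Kb ↥(modularFunctionFieldBar N) a := by
      have hgc : arithmeticGalois (modularFunctionFieldFull N) (σ ^ M₁) •
          algebraMap Kb ↥(modularFunctionFieldBar N) a
          = algebraMap Kb ↥(modularFunctionFieldBar N) a := by
        have h := arithmeticRingAut_algebraMap (modularFunctionFieldFull N) (σ ^ M₁) a
        rw [hσa] at h
        exact h
      rw [smul_sub, hgj, hgc]
    obtain ⟨M₂, hM₂, h⟩ := S40GO_place_of_fun N (σ ^ M₁) P _ hne hpos hinv
    exact ⟨M₁ * M₂, Nat.mul_pos hM₁ hM₂, by rw [pow_mul]; exact h⟩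

/-- a common period for finitely many places. -/
theorem S40GO_places (σ : GQ) (S : Finset (Place Kb ↥(modularFunctionFieldBar N))) :
    ∃ M : ℕ, 0 < M ∧ ∀ P ∈ S, arithmeticGalois (modularFunctionFieldFull N) (σ ^ M) • P = P := by
  classical
  induction S using Finset.induction_on with
  | empty => exact ⟨1, Nat.one_pos, fun P hP => absurd hP (Finset.notMem_empty P)⟩
  | insert Q S hQ ih =>
    obtain ⟨M, hM, hS⟩ := ih
    obtain ⟨M', hM', hQ'⟩ := S40GO_place N σ Q
    refine ⟨M * M', Nat.mul_pos hM hM', fun P hP => ?_⟩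
    rcases Finset.mem_insert.1 hP with rfl | hPS
    · have h1 : (arithmeticGalois (modularFunctionFieldFull N) σ) ^ M' • P = P := by
        rw [← map_pow]; exact hQ'
      have h2 := S40GO_pow_mul (arithmeticGalois (modularFunctionFieldFull N) σ) P h1 M
      rw [map_pow, mul_comm]
      exact h2
    · have h1 : (arithmeticGalois (modularFunctionFieldFull N) σ) ^ M • P = P := by
        rw [← map_pow]; exact hS P hPS
      have h2 := S40GO_pow_mul (arithmeticGalois (modularFunctionFieldFull N) σ) P h1 M'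
      rw [map_pow]
      exact h2

/-- a semilinear automorphism fixing the support of a divisor fixes the divisor. -/
theorem S40GO_divisor_fix (g : SemilinearAut Kb ↥(modularFunctionFieldBar N))
    (D : Divisor Kb ↥(modularFunctionFieldBar N)) (h : ∀ P ∈ D.support, g • P = P) :
    g • D = D := by
  apply Finsupp.ext
  intro w
  rw [SemilinearAut.divisor_smul_apply]
  by_cases hw : w ∈ D.support
  · have e : g⁻¹ • w = w := by
      have := h w hw
      calc g⁻¹ • w = g⁻¹ • (g • w) := by rw [this]
        _ = w := inv_smul_smul g w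
    rw [e]
  · have hw0 : D w = 0 := Finsupp.notMem_support_iff.1 hw
    rw [hw0]
    by_contra hne
    have hmem : g⁻¹ • w ∈ D.support := Finsupp.mem_support_iff.2 hne
    have := h _ hmem
    rw [smul_inv_smul] at this
    rw [← this] at hmem
    exact hw hmem

/-- **(vi): every point of `J₀(N)(ℚ̄)` has a finite orbit under the powers of `σ`.** -/
theorem S40GO_orbit (σ : GQ) (y : JZero N) : ∃ M : ℕ, 0 < M ∧ σ ^ M • y = y := by
  obtain ⟨D, rfl⟩ := Pic0.mk_surjective y
  obtain ⟨M, hM, hfix⟩ := S40GO_places N σ (D : Divisor Kb ↥(modularFunctionFieldBar N)).support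
  refine ⟨M, hM, ?_⟩
  rw [galois_smul_pic0_def, SemilinearAut.pic0_smul_mk]
  refine congrArg Pic0.mk (Subtype.ext ?_)
  rw [SemilinearAut.coe_degZeroSMulHom]
  exact S40GO_divisor_fix N _ _ hfix

/-- a common period for two points (used for `y₀` and its `p^a`-th roots). -/
theorem S40GO_orbit₂ (σ : GQ) (y z : JZero N) :
    ∃ M : ℕ, 0 < M ∧ σ ^ M • y = y ∧ σ ^ M • z = z := by
  obtain ⟨M, hM, hy⟩ := S40GO_orbit N σ y
  obtain ⟨M', hM', hz⟩ := S40GO_orbit N σ z
  refine ⟨M * M', Nat.mul_pos hM hM', S40GO_pow_mul σ y hy M', ?_⟩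
  rw [mul_comm]
  exact S40GO_pow_mul σ z hz M

end Fermat.Agent.S40
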