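import Mathlib

/-!
# TRACK 13 (S40), package G5-ALG (helper10): an eigen-character of a subquotient is an
eigen-character of the whole group.  Prefix `S40G5A_`.  Mathlib only.

`X` a finite abelian group, `T i` (`i : ι`, any index type) pairwise commuting endomorphisms,
`c i : ℤ`, `K ≤ Z` stable subgroups, `y ∈ Z ∖ K` with `T i y − c i • y ∈ K` for all `i`
(the class of `y` is a simultaneous eigenvector in `Z / K`).  Then `Z` contains a NONZERO
simultaneous eigenvector `x`: `T i x = c i • x` for all `i` (`S40G5A_eigen`).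

`S40G5A_eigen_sub` is the same statement for an arbitrary abelian group `X` and a FINITE
stable subgroup `Y` on which the `T i` commute.

`S40G5A_pull` is the form used in GEO-5 (helper5's encoding): `pull : E → J` equivariant,
`K₁ ≤ J` stable, `x ∈ J` an eigenvector with `x − pull y ∈ K₁` for some `y`, `x ∉ K₁`; then the
finite group `E` contains a nonzero eigenvector with the eigenvalues of `x`.
-/

set_option autoImplicit false

namespace Fermat.Agent.S40

section global

variable {X : Type*} [AddCommGroup X]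

/-- the `r`-th power of an endomorphism. -/
def S40G5A_pw (E : X →+ X) : ℕ → (X →+ X)
  | 0 => AddMonoidHom.id X
  | r + 1 => E.comp (S40G5A_pw E r)

theorem S40G5A_pw_zero (E : X →+ X) (x : X) : S40G5A_pw E 0 x = x := rfl

theorem S40G5A_pw_succ (E : X →+ X) (r : ℕ) (x : X) :
    S40G5A_pw E (r + 1) x = E (S40G5A_pw E r x) := rfl

theorem S40G5A_pw_succ' (E : X →+ X) (r : ℕ) (x : X) :
    S40G5A_pw E (r + 1) x = S40G5A_pw E r (E x) := by
  induction r with
  | zero => rfl
  | succ r ih => rw [S40G5A_pw_succ, ih, S40G5A_pw_succ]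

/-- the image of `K` under `E ^ r`. -/
def S40G5A_im (E : X →+ X) (K : AddSubgroup X) (r : ℕ) : AddSubgroup X :=
  K.map (S40G5A_pw E r)

theorem S40G5A_mem_im {E : X →+ X} {K : AddSubgroup X} {r : ℕ} {x : X} :
    x ∈ S40G5A_im E K r ↔ ∃ k ∈ K, S40G5A_pw E r k = x := by
  unfold S40G5A_im
  rw [AddSubgroup.mem_map]

theorem S40G5A_im_zero (E : X →+ X) (K : AddSubgroup X) : S40G5A_im E K 0 = K := by
  ext x
  rw [S40G5A_mem_im]
  constructor
  · rintro ⟨k, hk, rfl⟩
    exact hk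
  · intro hx
    exact ⟨x, hx, rfl⟩

theorem S40G5A_im_succ_le (E : X →+ X) (K : AddSubgroup X)
    (hK : ∀ x ∈ K, E x ∈ K) (r : ℕ) : S40G5A_im E K (r + 1) ≤ S40G5A_im E K r := by
  intro x hx
  rw [S40G5A_mem_im] at hx ⊢
  obtain ⟨k, hk, rfl⟩ := hx
  exact ⟨E k, hK k hk, (S40G5A_pw_succ' E r k).symm⟩

theorem S40G5A_im_le (E : X →+ X) (K : AddSubgroup X)
    (hK : ∀ x ∈ K, E x ∈ K) (r : ℕ) : S40G5A_im E K r ≤ K := by
  induction r with
  | zero => rw [S40G5A_im_zero]
  | succ r ih => exact (S40G5A_im_succ_le E K hK r).trans ih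

theorem S40G5A_exists_of_mem_im_succ {E : X →+ X} {K : AddSubgroup X} {r : ℕ} {x : X}
    (hx : x ∈ S40G5A_im E K (r + 1)) : ∃ κ ∈ S40G5A_im E K r, E κ = x := by
  rw [S40G5A_mem_im] at hx
  obtain ⟨k, hk, rfl⟩ := hx
  exact ⟨S40G5A_pw E r k, S40G5A_mem_im.2 ⟨k, hk, rfl⟩, rfl⟩

/-- the chain of images is stationary somewhere. -/
theorem S40G5A_im_stat [Finite X] (E : X →+ X) (K : AddSubgroup X)
    (hK : ∀ x ∈ K, E x ∈ K) : ∃ r, S40G5A_im E K (r + 1) = S40G5A_im E K r := by
  by_contra hcon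
  push Not at hcon
  have hlt : ∀ r, Nat.card (S40G5A_im E K (r + 1)) < Nat.card (S40G5A_im E K r) := by
    intro r
    have hle := S40G5A_im_succ_le E K hK r
    have h1 : Nat.card (S40G5A_im E K (r + 1)) ≤ Nat.card (S40G5A_im E K r) :=
      AddSubgroup.card_le_of_le hle
    rcases Nat.lt_or_ge (Nat.card (S40G5A_im E K (r + 1))) (Nat.card (S40G5A_im E K r)) with h | h
    · exact h
    · exact absurd (AddSubgroup.eq_of_le_of_card_ge hle h) (hcon r)
  have hbound : ∀ r, Nat.card (S40G5A_im E K r) + r ≤ Nat.card (S40G5A_im E K 0) := by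
    intro r
    induction r with
    | zero => exact le_rfl
    | succ r ih =>
      have := hlt r
      omega
  have := hbound (Nat.card (S40G5A_im E K 0) + 1)
  omega

variable {ι : Type*}

/-- **finite sets of indices**. -/
theorem S40G5A_eigen_fin [Finite X] (T : ι → X →+ X) (c : ι → ℤ)
    (hcomm : ∀ i j x, T i (T j x) = T j (T i x)) (F : Finset ι) :
    ∀ (Z K : AddSubgroup X), K ≤ Z → (∀ i, ∀ x ∈ Z, T i x ∈ Z) → (∀ i, ∀ x ∈ K, T i x ∈ K) →
      ∀ y ∈ Z, y ∉ K → (∀ i ∈ F, T i y - c i • y ∈ K) →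
      ∃ x ∈ Z, x ≠ 0 ∧ ∀ i ∈ F, T i x = c i • x := by
  classical
  induction F using Finset.induction_on with
  | empty =>
    intro Z K _ _ _ y hyZ hyK _
    refine ⟨y, hyZ, ?_, fun i hi => absurd hi (Finset.notMem_empty i)⟩
    rintro rfl
    exact hyK K.zero_mem
  | insert i F hiF ih =>
    intro Z K hKZ hZ hK y hyZ hyK hy
    -- the operator `S = T i - c i`
    let S : X →+ X := T i - (c i • AddMonoidHom.id X)
    have hSapp : ∀ x, S x = T i x - c i • x := fun x => rfl
    have hSK : ∀ x ∈ K, S x ∈ K := fun x hx => by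
      rw [hSapp]
      exact K.sub_mem (hK i x hx) (K.zsmul_mem hx _)
    have hSZ : ∀ x ∈ Z, S x ∈ Z := fun x hx => by
      rw [hSapp]
      exact Z.sub_mem (hZ i x hx) (Z.zsmul_mem hx _)
    have hST : ∀ j x, S (T j x) = T j (S x) := by
      intro j x
      rw [hSapp, hSapp, map_sub, map_zsmul, hcomm i j x]
    have hSrT : ∀ (r : ℕ) (j : ι) (x : X),
        S40G5A_pw S r (T j x) = T j (S40G5A_pw S r x) := by
      intro r
      induction r with
      | zero => intro j x; rfl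
      | succ r ihr =>
        intro j x
        rw [S40G5A_pw_succ, ihr, hST, S40G5A_pw_succ]
    have hSrZ : ∀ (r : ℕ), ∀ x ∈ Z, S40G5A_pw S r x ∈ Z := by
      intro r
      induction r with
      | zero => intro x hx; exact hx
      | succ r ihr =>
        intro x hx
        rw [S40G5A_pw_succ]
        exact hSZ _ (ihr x hx)
    -- the images are stable under all `T j`
    have himT : ∀ (r : ℕ) (j : ι), ∀ x ∈ S40G5A_im S K r, T j x ∈ S40G5A_im S K r := by
      intro r j x hx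
      rw [S40G5A_mem_im] at hx ⊢
      obtain ⟨k, hk, rfl⟩ := hx
      exact ⟨T j k, hK j k hk, hSrT r j k⟩
    -- find `r` with `S^r y ∉ im r`, `S^(r+1) y ∈ im (r+1)`
    have hex : ∃ r, S40G5A_pw S r y ∈ S40G5A_im S K r := by
      obtain ⟨r, hr⟩ := S40G5A_im_stat S K hSK
      refine ⟨r + 1, ?_⟩
      have hSy : S y ∈ K := by
        rw [hSapp]
        exact hy i (Finset.mem_insert_self i F)
      have : S40G5A_pw S r (S y) ∈ S40G5A_im S K r := S40G5A_mem_im.2 ⟨S y, hSy, rfl⟩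
      rw [hr, S40G5A_pw_succ']
      exact this
    have hr0 : Nat.find hex ≠ 0 := by
      intro h0
      have := Nat.find_spec hex
      rw [h0, S40G5A_im_zero] at this
      exact hyK this
    obtain ⟨r, hr⟩ := Nat.exists_eq_succ_of_ne_zero hr0
    have hr1 : S40G5A_pw S (r + 1) y ∈ S40G5A_im S K (r + 1) := by
      have := Nat.find_spec hex
      rw [hr] at this
      exact this
    have hr2 : S40G5A_pw S r y ∉ S40G5A_im S K r := by
      have := Nat.find_min hex (m := r) (by omega)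
      exact this
    obtain ⟨κ, hκ, hκe⟩ := S40G5A_exists_of_mem_im_succ hr1
    -- the new vector
    have hy''def : ∃ y'' : X, y'' = S40G5A_pw S r y - κ := ⟨_, rfl⟩
    obtain ⟨y'', hy''⟩ := hy''def
    have hSy'' : S y'' = 0 := by
      rw [hy'', map_sub, hκe, S40G5A_pw_succ, sub_self]
    have hκK : κ ∈ K := S40G5A_im_le S K hSK r hκ
    have hy''Z : y'' ∈ Z := by
      rw [hy'']
      exact Z.sub_mem (hSrZ r y hyZ) (hKZ hκK)
    have hy''K : y'' ∉ S40G5A_im S K r := by
      intro h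
      apply hr2
      have : S40G5A_pw S r y = y'' + κ := by rw [hy'']; abel
      rw [this]
      exact (S40G5A_im S K r).add_mem h hκ
    -- the new subgroups
    let Z' : AddSubgroup X := Z ⊓ S.ker
    let K' : AddSubgroup X := S40G5A_im S K r ⊓ S.ker
    have hZ'mem : ∀ x, x ∈ Z' ↔ x ∈ Z ∧ S x = 0 := fun x => by
      change x ∈ Z ⊓ S.ker ↔ _
      rw [AddSubgroup.mem_inf, AddMonoidHom.mem_ker]
    have hK'mem : ∀ x, x ∈ K' ↔ x ∈ S40G5A_im S K r ∧ S x = 0 := fun x => by
      change x ∈ S40G5A_im S K r ⊓ S.ker ↔ _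
      rw [AddSubgroup.mem_inf, AddMonoidHom.mem_ker]
    have hK'Z' : K' ≤ Z' := fun x hx => by
      rw [hK'mem] at hx
      rw [hZ'mem]
      exact ⟨hKZ (S40G5A_im_le S K hSK r hx.1), hx.2⟩
    have hkerT : ∀ j, ∀ x, S x = 0 → S (T j x) = 0 := by
      intro j x hx
      rw [hST, hx, map_zero]
    have hZ' : ∀ j, ∀ x ∈ Z', T j x ∈ Z' := fun j x hx => by
      rw [hZ'mem] at hx ⊢
      exact ⟨hZ j x hx.1, hkerT j x hx.2⟩
    have hK'st : ∀ j, ∀ x ∈ K', T j x ∈ K' := fun j x hx => by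
      rw [hK'mem] at hx ⊢
      exact ⟨himT r j x hx.1, hkerT j x hx.2⟩
    have hy''Z' : y'' ∈ Z' := (hZ'mem _).2 ⟨hy''Z, hSy''⟩
    have hy''K' : y'' ∉ K' := fun h => hy''K ((hK'mem _).1 h).1
    have hy''F : ∀ j ∈ F, T j y'' - c j • y'' ∈ K' := by
      intro j hj
      rw [hK'mem]
      constructor
      · -- in the image
        have h1 : T j y'' - c j • y'' =
            (S40G5A_pw S r (T j y - c j • y)) - (T j κ - c j • κ) := by
          rw [hy'', map_sub, map_sub, map_zsmul, hSrT r j y, smul_sub]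
          abel
        rw [h1]
        refine (S40G5A_im S K r).sub_mem ?_ ?_
        · exact S40G5A_mem_im.2 ⟨_, hy j (Finset.mem_insert_of_mem hj), rfl⟩
        · exact (S40G5A_im S K r).sub_mem (himT r j κ hκ) ((S40G5A_im S K r).zsmul_mem hκ _)
      · rw [map_sub, map_zsmul, hkerT j y'' hSy'', hSy'', smul_zero, sub_zero]
    obtain ⟨x, hxZ', hx0, hxF⟩ := ih Z' K' hK'Z' hZ' hK'st y'' hy''Z' hy''K' hy''F
    rw [hZ'mem] at hxZ'
    refine ⟨x, hxZ'.1, hx0, ?_⟩
    intro j hj
    rcases Finset.mem_insert.1 hj with rfl | hjF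
    · have := hxZ'.2
      rw [hSapp] at this
      exact sub_eq_zero.1 this
    · exact hxF j hjF

/-- **G5-ALG**: an eigen-character of the subquotient `Z / K` of a finite abelian group with
commuting operators has a nonzero eigenvector in `Z`. -/
theorem S40G5A_eigen [Finite X] (T : ι → X →+ X) (c : ι → ℤ)
    (hcomm : ∀ i j x, T i (T j x) = T j (T i x))
    (Z K : AddSubgroup X) (hKZ : K ≤ Z) (hZ : ∀ i, ∀ x ∈ Z, T i x ∈ Z)
    (hK : ∀ i, ∀ x ∈ K, T i x ∈ K)
    (y : X) (hyZ : y ∈ Z) (hyK : y ∉ K) (hy : ∀ i, T i y - c i • y ∈ K) :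
    ∃ x ∈ Z, x ≠ 0 ∧ ∀ i, T i x = c i • x := by
  classical
  -- the joint eigen-subgroup of a finite set of indices, inside `Z`
  let E : Finset ι → AddSubgroup X := fun F =>
    { carrier := {x | x ∈ Z ∧ ∀ i ∈ F, T i x = c i • x}
      zero_mem' := ⟨Z.zero_mem, fun i _ => by rw [map_zero, smul_zero]⟩
      add_mem' := fun {a b} ha hb => ⟨Z.add_mem ha.1 hb.1, fun i hi => by
        rw [map_add, ha.2 i hi, hb.2 i hi, smul_add]⟩
      neg_mem' := fun {a} ha => ⟨Z.neg_mem ha.1, fun i hi => by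
        rw [map_neg, ha.2 i hi, smul_neg]⟩ }
  have hEmem : ∀ F x, x ∈ E F ↔ (x ∈ Z ∧ ∀ i ∈ F, T i x = c i • x) := fun F x => Iff.rfl
  -- a finite set with minimal cardinality of `E F`
  have hne : ∃ n, ∃ F : Finset ι, Nat.card (E F) = n := ⟨_, ∅, rfl⟩
  obtain ⟨F₀, hF₀⟩ := Nat.find_spec hne
  have hmin : ∀ F : Finset ι, Nat.card (E F₀) ≤ Nat.card (E F) := by
    intro F
    rw [hF₀]
    exact Nat.find_min' hne ⟨F, rfl⟩
  obtain ⟨x, hxZ, hx0, hxF⟩ :=
    S40G5A_eigen_fin T c hcomm F₀ Z K hKZ hZ hK y hyZ hyK (fun i _ => hy i)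
  refine ⟨x, hxZ, hx0, ?_⟩
  intro i
  have hle : E (insert i F₀) ≤ E F₀ := by
    intro z hz
    rw [hEmem] at hz ⊢
    exact ⟨hz.1, fun j hj => hz.2 j (Finset.mem_insert_of_mem hj)⟩
  have heq : E (insert i F₀) = E F₀ := AddSubgroup.eq_of_le_of_card_ge hle (hmin _)
  have hx : x ∈ E (insert i F₀) := by
    rw [heq, hEmem]
    exact ⟨hxZ, hxF⟩
  exact ((hEmem _ _).1 hx).2 i (Finset.mem_insert_self i F₀)

end global

section sub

variable {X : Type*} [AddCommGroup X] {ι : Type*}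

/-- **G5-ALG, subgroup form**: `X` any abelian group, `Y` a FINITE subgroup stable under the
additive maps `T i`, which commute on `Y`; `K` stable (only `K ∩ Y` matters), `y ∈ Y ∖ K` with
`T i y − c i • y ∈ K` for all `i`.  Then `Y` contains a nonzero simultaneous eigenvector. -/
theorem S40G5A_eigen_sub (T : ι → X →+ X) (c : ι → ℤ)
    (Y K : AddSubgroup X) [Finite Y]
    (hY : ∀ i, ∀ x ∈ Y, T i x ∈ Y) (hK : ∀ i, ∀ x ∈ K, T i x ∈ K)
    (hcomm : ∀ i j, ∀ x ∈ Y, T i (T j x) = T j (T i x))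
    (y : X) (hyY : y ∈ Y) (hyK : y ∉ K) (hy : ∀ i, T i y - c i • y ∈ K) :
    ∃ x ∈ Y, x ≠ 0 ∧ ∀ i, T i x = c i • x := by
  classical
  -- restrict everything to `Y`
  let T' : ι → (Y →+ Y) := fun i =>
    ((T i).comp Y.subtype).codRestrict Y (fun x => hY i x x.2)
  have hT' : ∀ i (x : Y), ((T' i x : Y) : X) = T i (x : X) := fun i x => rfl
  have hcomm' : ∀ i j (x : Y), T' i (T' j x) = T' j (T' i x) := by
    intro i j x
    apply Subtype.ext
    rw [hT', hT', hT', hT']
    exact hcomm i j x x.2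
  let K' : AddSubgroup Y := K.addSubgroupOf Y
  have hK'mem : ∀ x : Y, x ∈ K' ↔ (x : X) ∈ K := fun x => AddSubgroup.mem_addSubgroupOf
  obtain ⟨x, -, hx0, hx⟩ := S40G5A_eigen T' c hcomm' ⊤ K' le_top
    (fun _ _ _ => AddSubgroup.mem_top _)
    (fun i x hx => by
      rw [hK'mem] at hx ⊢
      rw [hT']
      exact hK i x hx)
    ⟨y, hyY⟩ (AddSubgroup.mem_top _)
    (fun h => hyK ((hK'mem _).1 h))
    (fun i => by
      rw [hK'mem]
      have : (((T' i ⟨y, hyY⟩ - c i • (⟨y, hyY⟩ : Y) : Y)) : X) = T i y - c i • y := by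
        rw [AddSubgroup.coe_sub, hT', AddSubgroup.coe_zsmul]
      rw [this]
      exact hy i)
  refine ⟨(x : X), x.2, fun h => hx0 (Subtype.ext h), fun i => ?_⟩
  have := congrArg (fun z : Y => (z : X)) (hx i)
  simp only [AddSubgroup.coe_zsmul] at this
  rw [← hT']
  exact this

/-- **G5-ALG, pull-back form** (the abstract core of GEO-5 in helper5's encoding):
`E` finite with commuting operators `TE i`, `pull : E → J` equivariant, `K₁ ≤ J` stable under
the `TJ i`, `x ∈ J` an eigenvector of the `TJ i` with eigenvalues `a i`, `x ∉ K₁`, and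
`x − pull y ∈ K₁` for some `y : E`.  Then `E` contains a nonzero eigenvector with the same
eigenvalues. -/
theorem S40G5A_pull {E J : Type*} [AddCommGroup E] [AddCommGroup J] [Finite E]
    (TE : ι → E →+ E) (TJ : ι → J →+ J) (a : ι → ℤ)
    (hcomm : ∀ i j y, TE i (TE j y) = TE j (TE i y))
    (pull : E →+ J) (hpull : ∀ i y, pull (TE i y) = TJ i (pull y))
    (K₁ : AddSubgroup J) (hK₁ : ∀ i, ∀ x ∈ K₁, TJ i x ∈ K₁)
    (x : J) (hx : ∀ i, TJ i x = a i • x)
    (hfin : ∃ y : E, x - pull y ∈ K₁) (hnc : x ∉ K₁) :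
    ∃ y : E, y ≠ 0 ∧ ∀ i, TE i y = a i • y := by
  obtain ⟨y, hy⟩ := hfin
  let K : AddSubgroup E := K₁.comap pull
  have hKmem : ∀ z : E, z ∈ K ↔ pull z ∈ K₁ := fun z => AddSubgroup.mem_comap
  have hyK : y ∉ K := by
    intro h
    rw [hKmem] at h
    apply hnc
    have : x = (x - pull y) + pull y := by abel
    rw [this]
    exact K₁.add_mem hy h
  obtain ⟨z, -, hz0, hz⟩ := S40G5A_eigen TE a hcomm ⊤ K le_top
    (fun _ _ _ => AddSubgroup.mem_top _)
    (fun i z hz => by
      rw [hKmem] at hz ⊢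
      rw [hpull]
      exact hK₁ i _ hz)
    y (AddSubgroup.mem_top _) hyK
    (fun i => by
      rw [hKmem, map_sub, map_zsmul, hpull]
      have e : TJ i (pull y) - a i • pull y =
          a i • (x - pull y) - TJ i (x - pull y) := by
        rw [map_sub, hx i, smul_sub]
        abel
      rw [e]
      exact K₁.sub_mem (K₁.zsmul_mem hy _) (hK₁ i _ hy))
  exact ⟨z, hz0, hz⟩

end sub

end Fermat.Agent.S40
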