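import Mathlib
import Fermat.Agent.S40.Geo5Wire
import Fermat.Agent.S40.Geo5H2
import Fermat.Agent.S34.KActInst
import Fermat.Agent.S34.Defs

/-!
# TRACK 13 (S40, row 38), package GEO-5: the wire with (H2-gen) DISCHARGED (helper5).
Prefix `S40G5I_`.

* `S40G5I_H2` : (H2-gen) in the shape `S40G5W_H2` of the class-level wire, for the Gauss valuation
  ring `O = (S18_gaussModL N A hgen).O` of any level `N` (from helper10's `S40G5H_main`);
* `S40G5I_K_hecke` : `K₁ = S40G5W_K N n O` is stable under `T_q`, `q ∤ N n`, unconditionally;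
* `S40G5I_main` : **GEO-5 modulo (H4) only**: level `M * p`, `V₁ = S34DF_O1 M p A hgen`; an
  eigen-class `x` of `J₀(M p)[p]` which is finite (`x - α^* y ∈ K₁` for some `y ∈ J₀(M)[p^k]`) and
  not connected (`x ∉ K₁`) at `V₁` gives a nonzero eigen-class of `J₀(M)[p]`.
-/

set_option autoImplicit false
set_option linter.style.haveILetI false
set_option linter.unusedSectionVars false
set_option linter.unusedVariables false
set_option synthInstance.maxHeartbeats 400000
set_option maxHeartbeats 1000000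

open AlgebraicCurve ModularCurve

noncomputable section

namespace Fermat.Agent.S40

open Fermat.Agent.S17 Fermat.Agent.S18 Fermat.Agent.S19 Fermat.Agent.S24 Fermat.Agent.S32
  Fermat.Agent.S33 Fermat.Agent.S34 Fermat.Agent.S37 Fermat.Agent.GalRep Fermat.Agent.Lib

local notation "Kb" => AlgebraicClosure ℚ

section gen

variable (N : ℕ) [NeZero N] (A : ValuationSubring Kb)
  (hgen : PrincipalGeneratedByIntegral A (IsLocalRing.residue A) N)

/-- (H2-gen) for the Gauss valuation ring, in the shape of the wire. -/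
theorem S40G5I_H2 (n : ℕ) (q : Nat.Primes) :
    S40G5W_H2 N n (S18_gaussModL N A hgen).O q := by
  haveI : NeZero (q : ℕ) := ⟨q.2.ne_zero⟩
  intro ζ hζ hst u _ h1
  have hζ1 : ζ ^ (q : ℕ) = 1 := Units.ext (by
    rw [Units.val_pow_eq_pow_val]; exact hζ.pow_eq_one)
  obtain ⟨hmem, hred⟩ := (S34K_val_sub_one_lt (S18_gaussModL N A hgen).toVal u).1 h1
  obtain ⟨h', hred'⟩ := S40G5H_main N A hgen hζ1 hst u hmem hred
  exact (S34K_val_sub_one_lt (S18_gaussModL N A hgen).toVal (GRS_t hst u)).2 ⟨h', hred'⟩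

/-- `K₁` is stable under `T_q`, `q ∤ N n`. -/
theorem S40G5I_K_hecke (q : Nat.Primes) (hqN : ¬ (q : ℕ) ∣ N) {n : ℕ} (hn : 0 < n)
    (hqn : ¬ (q : ℕ) ∣ n) {x : JZero N}
    (hx : x ∈ S40G5W_K N n (S18_gaussModL N A hgen).O) :
    heckeOperatorBar N q x ∈ S40G5W_K N n (S18_gaussModL N A hgen).O :=
  S40G5W_K_hecke q hqN hn hqn _ (S40G5I_H2 N A hgen n q) hx

end gen

section main

variable (M p : ℕ) [NeZero M] [NeZero p] [NeZero (M * p)] (A : ValuationSubring Kb)
  (hgen : PrincipalGeneratedByIntegral A (IsLocalRing.residue A) (M * p))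

/-- **GEO-5 modulo (H4) only.** -/
theorem S40G5I_main (hp : p.Prime) (k : ℕ)
    (S : Set Nat.Primes) (hS : ∀ q ∈ S, ¬ (q : ℕ) ∣ M * p) (a : Nat.Primes → ℤ)
    (x : JZero (M * p)) (hpx : p • x = 0)
    (hx : ∀ q ∈ S, heckeOperatorBar (M * p) q x = a q • x)
    (hfin : ∃ y : JZero M, (p ^ k) • y = 0 ∧
      x - S40GP_pullJ M p y ∈ S40G5W_K (M * p) (p ^ k) (S34DF_O1 M p A hgen))
    (hnc : x ∉ S40G5W_K (M * p) (p ^ k) (S34DF_O1 M p A hgen)) :
    ∃ y : JZero M, y ≠ 0 ∧ p • y = 0 ∧ ∀ q ∈ S, heckeOperatorBar M q y = a q • y :=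
  S40G5W_main M p hp k (S34DF_O1 M p A hgen) S hS a
    (fun q _ => S40G5I_H2 (M * p) A hgen (p ^ k) q) x hpx hx hfin hnc

end main

end Fermat.Agent.S40
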