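import Fermat.Agent.S34.Pole

/-!
# TRACK 13 (S40/S44, row 38), (D-CUSP): `S34P_Hyp` for the INVERSE chart (helper29).
Prefix `S40HI_`.

`S34P_Hyp S₁ S₂ hS x` (the inputs of TRACK 7 for the chart function `x`) is symmetric in
`x ↔ x⁻¹`: `int ↔ int_inv`, `reg ↔ reg_inv`.

* `S40HI_inv h : S34P_O2 S₁ S₂` : the chart function `x⁻¹`;
* `S40HI_red_inv` : `red (x⁻¹) = ((red x).1⁻¹, (red x).2⁻¹)`;
* `S40HI_hyp h : S34P_Hyp S₁ S₂ hS (S40HI_inv h)`.
-/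

set_option autoImplicit false
set_option linter.unusedSectionVars false
set_option linter.unusedVariables false

open AlgebraicCurve

noncomputable section

namespace Fermat.Agent.S40

open Fermat.Agent.S18 Fermat.Agent.S34

variable {L F k Fk₁ Fk₂ : Type*} [Field L] [Field F] [Algebra L F] [Field k] [Field Fk₁]
  [Field Fk₂] [Algebra k Fk₁] [Algebra k Fk₂]
  {S₁ : S18_Val L F k Fk₁} {S₂ : S18_Val L F k Fk₂} {hS : S34P_Same S₁ S₂}
  {x : S34P_O2 S₁ S₂}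

/-- the chart function `x⁻¹`. -/
def S40HI_inv (h : S34P_Hyp S₁ S₂ hS x) : S34P_O2 S₁ S₂ := ⟨(x : F)⁻¹, h.inv_mem⟩

theorem S40HI_inv_coe (h : S34P_Hyp S₁ S₂ hS x) : ((S40HI_inv h : S34P_O2 S₁ S₂) : F) = (x : F)⁻¹ :=
  rfl

theorem S40HI_x_ne_zero (h : S34P_Hyp S₁ S₂ hS x) : (x : F) ≠ 0 := by
  intro h0
  apply h.red_ne₁
  have : x = 0 := Subtype.ext h0
  rw [this, map_zero]
  rfl

theorem S40HI_mul_inv (h : S34P_Hyp S₁ S₂ hS x) : x * S40HI_inv h = 1 :=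
  Subtype.ext (mul_inv_cancel₀ (S40HI_x_ne_zero h))

/-- `red (x⁻¹) = (red x)⁻¹` (first component). -/
theorem S40HI_red_inv₁ (h : S34P_Hyp S₁ S₂ hS x) :
    (S34P_red S₁ S₂ (S40HI_inv h)).1 = ((S34P_red S₁ S₂ x).1)⁻¹ := by
  have e := congrArg (fun z => (S34P_red S₁ S₂ z).1) (S40HI_mul_inv h)
  simp only [map_mul, map_one, Prod.fst_mul, Prod.fst_one] at e
  exact eq_inv_of_mul_eq_one_right e

/-- `red (x⁻¹) = (red x)⁻¹` (second component). -/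
theorem S40HI_red_inv₂ (h : S34P_Hyp S₁ S₂ hS x) :
    (S34P_red S₁ S₂ (S40HI_inv h)).2 = ((S34P_red S₁ S₂ x).2)⁻¹ := by
  have e := congrArg (fun z => (S34P_red S₁ S₂ z).2) (S40HI_mul_inv h)
  simp only [map_mul, map_one, Prod.snd_mul, Prod.snd_one] at e
  exact eq_inv_of_mul_eq_one_right e

theorem S40HI_red_inv (h : S34P_Hyp S₁ S₂ hS x) {x₁ : Fk₁} {x₂ : Fk₂}
    (hred : S34P_red S₁ S₂ x = (x₁, x₂)) :
    S34P_red S₁ S₂ (S40HI_inv h) = (x₁⁻¹, x₂⁻¹) := by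
  refine Prod.ext ?_ ?_
  · rw [S40HI_red_inv₁, hred]
  · rw [S40HI_red_inv₂, hred]

/-- **`S34P_Hyp` for the inverse chart.** -/
theorem S40HI_hyp (h : S34P_Hyp S₁ S₂ hS x) : S34P_Hyp S₁ S₂ hS (S40HI_inv h) where
  red_ne₁ := by
    rw [S40HI_red_inv₁]
    exact inv_ne_zero h.red_ne₁
  red_ne₂ := by
    rw [S40HI_red_inv₂]
    exact inv_ne_zero h.red_ne₂
  int z hz := by
    rw [S40HI_red_inv₁, S40HI_red_inv₂]
    exact h.int_inv z hz
  int_inv z hz := by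
    rw [S40HI_red_inv₁, S40HI_red_inv₂, inv_inv, inv_inv]
    rw [S40HI_inv_coe, inv_inv] at hz
    exact h.int z hz
  reg f hf := by
    refine h.reg_inv f (fun P hP => hf P ?_)
    rw [S40HI_inv_coe, P.ord_inv]
    omega
  reg_inv f hf := by
    have := h.reg f (fun P hP => hf P (by rw [S40HI_inv_coe, P.ord_inv]; omega))
    rw [S40HI_inv_coe, inv_inv]
    exact this
  lattice := h.lattice

end Fermat.Agent.S40
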