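import Mathlib
import Fermat.Agent.S32.SubQKappa

/-!
# TRACK 13 (S40), bridge package (helper29): the Kummer map is INJECTIVE.  Prefix `S40K_kappa`.

`S32Q_kappa N ℓ k : J₀(N)[ℓ^k] →+ ℤ/ℓ^k ⊗ parInt N` (on main, onto and Galois equivariant) is
injective, hence bijective:

* `S40K_kappa_isChar_zero` : a class of exponent `n` whose Kummer character is `0` is `0`;
* `S40K_kappa_chi_injective`, `S40K_kappa_injective`, `S40K_kappa_bijective`;
* `S40K_kappa_equiv` : the additive equivalence `J₀(N)[ℓ^k] ≃+ ℤ/ℓ^k ⊗ parInt N`;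
* `S40K_kappa_eq_zero_iff`, `S40K_kappa_exists_unique` (every `y` is `κ x` for a unique `x`);
* `S40K_kappa_tors` : the element of `J₀(N)[p^1]` of a class killed by `p`.

Proof: `KChar f 0` and `n D = div f` give `f = c gⁿ` (`KMF_kappa_final.inj`), so `D = div g`.
-/

set_option autoImplicit false
set_option linter.style.haveILetI false

open ModularCurve AlgebraicCurve CongruenceSubgroup
open scoped TensorProduct

namespace Fermat.Agent.S40

open Fermat.Agent.GalRep Fermat.Agent.S17 Fermat.Agent.S16 Fermat.Agent.S32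

variable {N : ℕ} [NeZero N]

/-- a class whose Kummer character is trivial is trivial. -/
theorem S40K_kappa_isChar_zero {n : ℕ} (hn : 0 < n) {z : JZero N}
    (h : S32Q_IsChar N n z 0) : z = 0 := by
  have κ := KMF_kappa_final N
  obtain ⟨D, f, hD, hf0, hf, hχ⟩ := h
  have hχ' : GR_KChar N n f 0 := hχ
  obtain ⟨c, g, hc0, hg0, hfg⟩ := κ.inj n hn f (S32Q_isKum_of hf0 hf) hχ'
  have hn0 : (n : ℤ) ≠ 0 := by exact_mod_cast hn.ne'
  rw [← hD]
  refine S17ST_mk_eq_zero D g hg0 (fun v => ?_)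
  have hcne : algebraMap (AlgebraicClosure ℚ) ↥(modularFunctionFieldBar N) c ≠ 0 := by
    rw [Ne, map_eq_zero_iff _ (algebraMap (AlgebraicClosure ℚ)
      ↥(modularFunctionFieldBar N)).injective]
    exact hc0
  have h1 : v.ord f = (n : ℤ) * v.ord g := by
    rw [hfg, v.ord_mul hcne (pow_ne_zero _ hg0), S17ST_ord_pow,
      Fermat.Agent.S24.BL_ord_algebraMap, zero_add]
  have h2 : (n : ℤ) * (D : Divisor _ _) v = (n : ℤ) * v.ord g := by rw [hf v, h1]
  exact mul_left_cancel₀ hn0 h2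

section kappa

variable (N) (ℓ k : ℕ) [NeZero (ℓ ^ k)]

theorem S40K_kappa_chi_zero : S32Q_chi N ℓ k 0 = 0 := by
  have h := S32Q_chi_add N ℓ k 0 0
  rw [add_zero] at h
  exact left_eq_add.mp h

theorem S40K_kappa_chi_eq_zero (x : ↥(Submodule.torsionBy ℤ (JZero N) ((ℓ : ℤ) ^ k)))
    (h : S32Q_chi N ℓ k x = 0) : x = 0 := by
  have h1 := S32Q_chi_spec N ℓ k x
  rw [h] at h1
  exact Subtype.ext (S40K_kappa_isChar_zero (Nat.pos_of_ne_zero (NeZero.ne (ℓ ^ k))) h1)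

theorem S40K_kappa_chi_injective : Function.Injective (S32Q_chi N ℓ k) := by
  intro x y hxy
  have h := S32Q_chi_add N ℓ k (x - y) y
  rw [sub_add_cancel, hxy] at h
  have h1 : S32Q_chi N ℓ k (x - y) = 0 := right_eq_add.mp h
  have h2 := S40K_kappa_chi_eq_zero N ℓ k _ h1
  exact sub_eq_zero.mp h2

/-- **the Kummer map `J₀(N)[ℓ^k] → ℤ/ℓ^k ⊗ parInt N` is injective.** -/
theorem S40K_kappa_injective : Function.Injective (S32Q_kappa N ℓ k) := by
  intro x y hxy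
  rw [S32Q_kappa_apply, S32Q_kappa_apply] at hxy
  exact S40K_kappa_chi_injective N ℓ k ((GRT_iso N (ℓ ^ k)).symm.injective hxy)

theorem S40K_kappa_bijective : Function.Bijective (S32Q_kappa N ℓ k) :=
  ⟨S40K_kappa_injective N ℓ k, S32Q_kappa_surjective N ℓ k⟩

theorem S40K_kappa_eq_zero_iff (x : ↥(Submodule.torsionBy ℤ (JZero N) ((ℓ : ℤ) ^ k))) :
    S32Q_kappa N ℓ k x = 0 ↔ x = 0 :=
  ⟨fun h => S40K_kappa_injective N ℓ k (h.trans (map_zero _).symm), fun h => by rw [h, map_zero]⟩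

/-- the Kummer map as an additive equivalence. -/
noncomputable def S40K_kappa_equiv :
    ↥(Submodule.torsionBy ℤ (JZero N) ((ℓ : ℤ) ^ k)) ≃+ (ZMod (ℓ ^ k) ⊗[ℤ] ↥(parInt N)) :=
  AddEquiv.ofBijective (S32Q_kappa N ℓ k) (S40K_kappa_bijective N ℓ k)

theorem S40K_kappa_equiv_apply (x : ↥(Submodule.torsionBy ℤ (JZero N) ((ℓ : ℤ) ^ k))) :
    S40K_kappa_equiv N ℓ k x = S32Q_kappa N ℓ k x := rfl

theorem S40K_kappa_equiv_symm_apply (y : ZMod (ℓ ^ k) ⊗[ℤ] ↥(parInt N)) :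
    S32Q_kappa N ℓ k ((S40K_kappa_equiv N ℓ k).symm y) = y :=
  (S40K_kappa_equiv N ℓ k).apply_symm_apply y

theorem S40K_kappa_exists_unique (y : ZMod (ℓ ^ k) ⊗[ℤ] ↥(parInt N)) :
    ∃! x : ↥(Submodule.torsionBy ℤ (JZero N) ((ℓ : ℤ) ^ k)), S32Q_kappa N ℓ k x = y :=
  (S40K_kappa_bijective N ℓ k).existsUnique y

/-- the Galois action read through `κ⁻¹`: `κ⁻¹ (r_σ y) = σ • κ⁻¹ y`. -/
theorem S40K_kappa_symm_gal (σ : GQ) (y : ZMod (ℓ ^ k) ⊗[ℤ] ↥(parInt N))
    (x' : ↥(Submodule.torsionBy ℤ (JZero N) ((ℓ : ℤ) ^ k)))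
    (hx' : (x' : JZero N) = σ • (((S40K_kappa_equiv N ℓ k).symm y : ↥(Submodule.torsionBy ℤ
      (JZero N) ((ℓ : ℤ) ^ k))) : JZero N)) :
    x' = (S40K_kappa_equiv N ℓ k).symm (GRT_r (KMF_kappa_final N) (ℓ ^ k) σ y) := by
  apply S40K_kappa_injective N ℓ k
  rw [S32Q_kappa_gal N ℓ k σ _ x' hx', S40K_kappa_equiv_symm_apply, S40K_kappa_equiv_symm_apply]

end kappa

section ptors

variable (N) (p : ℕ) [NeZero (p ^ 1)]

/-- a class killed by `p`, as an element of `J₀(N)[p^1]`. -/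
def S40K_kappa_tors (x : JZero N) (hx : p • x = 0) :
    ↥(Submodule.torsionBy ℤ (JZero N) ((p : ℤ) ^ 1)) :=
  ⟨x, by
    rw [Submodule.mem_torsionBy_iff, pow_one, natCast_zsmul]
    exact hx⟩

omit [NeZero N] [NeZero (p ^ 1)] in
theorem S40K_kappa_tors_coe (x : JZero N) (hx : p • x = 0) :
    ((S40K_kappa_tors N p x hx : ↥(Submodule.torsionBy ℤ (JZero N) ((p : ℤ) ^ 1))) : JZero N)
      = x := rfl

omit [NeZero N] [NeZero (p ^ 1)] in
theorem S40K_kappa_tors_nsmul (x : ↥(Submodule.torsionBy ℤ (JZero N) ((p : ℤ) ^ 1))) :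
    p • (x : JZero N) = 0 := by
  have h := S32Q_tors_nsmul N p 1 x
  rw [pow_one p] at h
  exact h

/-- `κ x = 0 ⇒ x = 0` for a class killed by `p`. -/
theorem S40K_kappa_tors_eq_zero (x : JZero N) (hx : p • x = 0)
    (h : S32Q_kappa N p 1 (S40K_kappa_tors N p x hx) = 0) : x = 0 := by
  have h1 := (S40K_kappa_eq_zero_iff N p 1 _).mp h
  have h2 := congrArg (fun t : ↥(Submodule.torsionBy ℤ (JZero N) ((p : ℤ) ^ 1)) =>
    (t : JZero N)) h1
  exact h2

/-- a nonzero vector of `ℤ/p ⊗ parInt N` is `κ x` for a nonzero class `x` killed by `p`. -/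
theorem S40K_kappa_exists_of_ne_zero (y : ZMod (p ^ 1) ⊗[ℤ] ↥(parInt N)) (hy : y ≠ 0) :
    ∃ (x : JZero N) (hx : p • x = 0), x ≠ 0 ∧ S32Q_kappa N p 1 (S40K_kappa_tors N p x hx) = y := by
  obtain ⟨x, hx⟩ := S32Q_kappa_surjective N p 1 y
  refine ⟨(x : JZero N), S40K_kappa_tors_nsmul N p x, ?_, ?_⟩
  · intro h0
    apply hy
    have : x = 0 := Subtype.ext h0
    rw [← hx, this, map_zero]
  · have : S40K_kappa_tors N p (x : JZero N) (S40K_kappa_tors_nsmul N p x) = x := Subtype.ext rfl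
    rw [this, hx]

end ptors

end Fermat.Agent.S40
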