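import Fermat.Agent.S58.HresMain
import Fermat.Agent.S58.Kol
import Fermat.Agent.S29

/-!
# TRACK 13 (S40), residual (E-res) (helper25) — prefix `S40K_`

The RESIDUAL form of `S58ER_teres`: the representation `ρ̄ : ResidualGaloisRep k` is only
CONGRUENT to `W` (as for a witness `(f, 𝔪)` of `W.IsResiduallyModularOfLevel p M` and the
representation of S29).

* `S40K_AttRes W ρ̄ T` : `charpoly ρ̄(Frob_ℓ) = X² − a_ℓ(W) X + ℓ` in `k` for all primes `ℓ ∉ T`;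
* `S40K_teres`        : for every `g` there are integers `V`, `D` with
  `charpoly ρ̄(g) = X² − V X + D`, `g² − V g + D = 0` on `W[p]`, `g ζ = ζ ^ D`.

(The kernel equality itself is `S40/AlgKer.lean`, prefix `S40AK_`.)
-/

set_option autoImplicit false
set_option linter.unusedSectionVars false
set_option linter.unusedVariables false
set_option linter.style.haveILetI false

open Polynomial
open scoped Pointwise

namespace Fermat.Agent.S40

open WeierstrassCurve Fermat.Agent.Lib Fermat.Agent.GalRep Fermat.Agent.S41 Fermat.Agent.S31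
  Fermat.Agent.S58

local notation "ℚbar" => AlgebraicClosure ℚ

/-- `ρ̄` is **residually attached to `W` off `T`**:
`charpoly ρ̄(σ) = X² − a_ℓ(W) X + ℓ` in `k` for every Frobenius element `σ` at a prime `ℓ ∉ T`. -/
def S40K_AttRes (W : WeierstrassCurve ℤ) {k : Type} [Field k] (ρ : ResidualGaloisRep k)
    (T : Finset ℕ) : Prop :=
  ∀ ℓ : ℕ, ℓ.Prime → ℓ ∉ T → ∀ A : ValuationSubring ℚbar, A.LiesOverPrime ℓ →
    ∀ σ : GQ, A.IsFrobeniusAt σ ℓ →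
      LinearMap.charpoly (ρ.ρ σ) = X ^ 2 - C (((W.apOfModel ℓ : ℤ) : k)) * X + C ((ℓ : k))

/-! ### residual (E-res) -/

/-- **residual (E-res)**: for every `g ∈ G_ℚ` the characteristic polynomial of `ρ̄(g)` is
`X² − V X + D` with integers `V`, `D` such that `g² − V g + D = 0` on `W[p]` and
`g ζ = ζ ^ D` on the `p`-th roots of unity. -/
theorem S40K_teres (W : WeierstrassCurve ℤ) (hΔ : W.Δ ≠ 0) {p : ℕ} (hp : p.Prime)
    (hp2 : p ≠ 2) {k : Type} [Field k] (ρ : ResidualGaloisRep k) (T : Finset ℕ)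
    (hAtt : S40K_AttRes W ρ T) (g : GQ) :
    ∃ (V : ℤ) (D : ℕ),
      LinearMap.charpoly (ρ.ρ g) = X ^ 2 - C ((V : k)) * X + C ((D : k)) ∧
      (∀ P : (W.baseChange ℚbar).toAffine.Point, p • P = 0 →
        g • g • P - V • g • P + (D : ℤ) • P = 0) ∧
      ∀ ζ : ℚbar, ζ ^ p = 1 → g ζ = ζ ^ D := by
  haveI : NeZero ((p : ℕ) : ℚ) := ⟨Nat.cast_ne_zero.2 hp.ne_zero⟩
  haveI : NeZero p := ⟨hp.ne_zero⟩
  obtain ⟨ζ, hζ⟩ := HasEnoughRootsOfUnity.exists_primitiveRoot ℚbar p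
  obtain ⟨L₁, hL₁, hL₁ρ⟩ := ρ.factorsThroughFiniteLevel
  haveI := hL₁
  haveI := S41NE_field_finiteDimensional W hΔ hp hp2 ζ
  haveI : FiniteDimensional ℚ (S41NE_field W p ζ ⊔ L₁ : IntermediateField ℚ ℚbar) :=
    IntermediateField.finiteDimensional_sup _ _
  obtain ⟨ℓ, σ, m, m', hℓ, hℓT', ⟨A, hA, hσ⟩, hgσ, -⟩ :=
    S41NE_fde g (S41NE_field W p ζ ⊔ L₁) (T ∪ W.Δ.natAbs.primeFactors ∪ {p})
  have hℓT : ℓ ∉ T := fun h => hℓT' (by simp [h])
  have hgood : ¬ (ℓ : ℤ) ∣ W.Δ := by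
    intro h
    apply hℓT'
    have h1 : ℓ ∣ W.Δ.natAbs := Int.natCast_dvd.1 h
    have h2 : ℓ ∈ W.Δ.natAbs.primeFactors :=
      Nat.mem_primeFactors.2 ⟨hℓ, h1, Int.natAbs_ne_zero.2 hΔ⟩
    simp [h2]
  have hℓp : ℓ ≠ p := fun h => hℓT' (by simp [h])
  have hℓp' : ¬ ℓ ∣ p := fun h => hℓp ((Nat.prime_dvd_prime_iff_eq hℓ hp).1 h)
  have hgσ1 : ∀ x ∈ L₁, g x = (σ ^ m) x := fun x hx =>
    hgσ x ((le_sup_right : L₁ ≤ S41NE_field W p ζ ⊔ L₁) hx)
  have hgσ2 : ∀ x ∈ S41NE_field W p ζ, g x = (σ ^ m) x := fun x hx =>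
    hgσ x ((le_sup_left : S41NE_field W p ζ ≤ S41NE_field W p ζ ⊔ L₁) hx)
  refine ⟨LUC_V (W.apOfModel ℓ) (ℓ : ℤ) m, ℓ ^ m, ?_, ?_, ?_⟩
  · -- the residual characteristic polynomial
    have hg : ρ.ρ g = (ρ.ρ σ) ^ m := by
      have h1 : ρ.ρ ((σ ^ m)⁻¹ * g) = 1 := by
        refine hL₁ρ _ (fun x hx => ?_)
        rw [AlgEquiv.mul_apply, hgσ1 x hx, ← AlgEquiv.mul_apply, inv_mul_cancel,
          AlgEquiv.one_apply]
      have h2 : g = σ ^ m * ((σ ^ m)⁻¹ * g) := by group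
      rw [← map_pow]
      conv_lhs => rw [h2]
      rw [map_mul, h1, mul_one]
    have h2 := hAtt ℓ hℓ hℓT A hA σ hσ
    have h3 := S58ER_charpoly_pow ρ.finrank_eq (ρ.ρ σ) _ _ h2 m
    rw [hg, h3]
    have hV : LUC_V (((W.apOfModel ℓ : ℤ) : k)) ((ℓ : ℕ) : k) m =
        ((LUC_V (W.apOfModel ℓ) (ℓ : ℤ) m : ℤ) : k) := by
      have := LUC_V_map (Int.castRingHom k) (W.apOfModel ℓ) (ℓ : ℤ) m
      simpa using this.symm
    rw [hV, Nat.cast_pow]
  · -- the relation on `W[p]`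
    intro P hP
    have hρ := S41NE_rho_eq_of_agree W p ζ g (σ ^ m) hgσ2
    have hgP : ∀ Q : (W.baseChange ℚbar).toAffine.Point, p • Q = 0 → g • Q = (σ ^ m) • Q := by
      intro Q hQ
      exact congrArg (fun f : Equiv.Perm (S41NE_X W p) => (f (S41NE_X.mk' Q hQ)).pt) hρ
    have hgP1 : p • (g • P) = 0 := by rw [← S41NE_gsmul_nsmul, hP, S41NE_gsmul_zero]
    have hrel := S58ER_rel_pow W A hℓ hA hgood hℓp' σ hσ m P hP
    rw [hgP _ hgP1, hgP P hP, Nat.cast_pow]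
    exact hrel
  · -- roots of unity
    intro ζ' hζ'
    obtain ⟨j, -, rfl⟩ := hζ.eq_pow_of_pow_eq_one hζ'
    rw [map_pow, hgσ2 ζ (S41NE_zeta_mem_field W p ζ), S58ER_zeta_pow hζ hp.pos hℓ hℓp' A hA σ hσ m,
      ← pow_mul, ← pow_mul, mul_comm]

end Fermat.Agent.S40
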