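import Mathlib
import Fermat.Agent.S40.LocB
import Fermat.Agent.S40.LocRes
import Fermat.Agent.S40.F2AB

/-!
# S40 / S44 (row 38), package BREAK-INST: the INSTANCE of the break datum and of Step 1–2 on the
ring of integral elements of a subfield (helper23).  Prefix `S40LI_`.

`E` a field (think `𝔽`, the modular function field), `V` a valuation on `E` (a Gauss valuation
`V_j`), `K ≤ E` a subfield (the `H`-fixed functions), `L ≤ K` (the constants of `K`),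
`σ : E →+* E` preserving `K`, `L`, `V`, with `σ^p = 1` on `K`.

* `S40LI_O V K`      : the subring `{x ∈ K | V x ≤ 1}` of `E`;
* `S40LI_sigma`      : `σ` restricted to it;  `S40LI_R` : its fixed subring;  `S40LI_C V K L` : the
  constants;
* `S40LI_mem_span`   : `x ∈ (π^n) ↔ V x ≤ V(π)^n`;
* **`S40LI_break`**  : `S40LB_Break (S40LI_R ..) (S40LI_sigma ..) π c t` from the constants
  `π, c, r` (`σ π = π (1 + c π^t) + π^(t+2) r`) and the value-group hypothesis `hval`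
  (`res` by `S40LR_res_sub`);
* `S40LI_units`, `S40LI_p_mem` : the arithmetic hypotheses of `S40LD_main`;
* **`S40LI_ctx`**    : `S40F2AB_Ctx` on the integral ring (`root` in valuation form `hroot`,
  `unit` from the discreteness `hdisc` of `V` on `L`);
* **`S40LI_main`**   : **Step 1–2 in FIELD FORM**: `h ∈ K`, `V h = 1`, `u ∈ K`,
  `V (u − c_z) ≤ V(π)^(pt+1)`, `c_z ∈ L`, `V c_z = 1`, `u · ∏_{j<p} σ^j h = κ ∈ L`
  `⇒ ∃ d ∈ L, V d = 1 ∧ V (h − d) ≤ V(π)^(t+1)`.   No subtype ring in the statement.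
-/

set_option autoImplicit false

namespace Fermat.Agent.S40

open Finset

section Inst

variable {E : Type*} [Field E] {Γ₀ : Type*} [LinearOrderedCommGroupWithZero Γ₀]

/-- the ring of the `V`-integral elements of the subfield `K`. -/
def S40LI_O (V : Valuation E Γ₀) (K : Subfield E) : Subring E where
  carrier := {x | x ∈ K ∧ V x ≤ 1}
  mul_mem' := by
    rintro x y ⟨hx, hx'⟩ ⟨hy, hy'⟩
    refine ⟨K.mul_mem hx hy, ?_⟩
    rw [map_mul]
    exact mul_le_one' hx' hy'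
  one_mem' := ⟨K.one_mem, by rw [map_one]⟩
  add_mem' := by
    rintro x y ⟨hx, hx'⟩ ⟨hy, hy'⟩
    exact ⟨K.add_mem hx hy, le_trans (V.map_add x y) (max_le hx' hy')⟩
  zero_mem' := ⟨K.zero_mem, by rw [map_zero]; exact zero_le⟩
  neg_mem' := by
    rintro x ⟨hx, hx'⟩
    exact ⟨K.neg_mem hx, by rwa [Valuation.map_neg]⟩

theorem S40LI_mem_O {V : Valuation E Γ₀} {K : Subfield E} {x : E} :
    x ∈ S40LI_O V K ↔ x ∈ K ∧ V x ≤ 1 := Iff.rfl

variable (V : Valuation E Γ₀) (K : Subfield E) (σ : E →+* E)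

/-- `σ` restricted to the integral elements of `K`. -/
def S40LI_sigma (hσK : ∀ x ∈ K, σ x ∈ K) (hσV : ∀ x ∈ K, V (σ x) = V x) :
    S40LI_O V K →+* S40LI_O V K :=
  (σ.comp (S40LI_O V K).subtype).codRestrict (S40LI_O V K)
    (fun x => ⟨hσK _ x.2.1, by
      show V (σ x) ≤ 1
      rw [hσV _ x.2.1]
      exact x.2.2⟩)

theorem S40LI_sigma_coe (hσK : ∀ x ∈ K, σ x ∈ K) (hσV : ∀ x ∈ K, V (σ x) = V x)
    (x : S40LI_O V K) : ((S40LI_sigma V K σ hσK hσV x : S40LI_O V K) : E) = σ (x : E) := rfl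

/-- the `σ`-fixed integral elements. -/
def S40LI_R : Subring (S40LI_O V K) where
  carrier := {x | σ (x : E) = x}
  mul_mem' := by
    intro x y hx hy
    show σ ((x * y : S40LI_O V K) : E) = _
    rw [Subring.coe_mul, map_mul, hx, hy]
  one_mem' := by
    show σ ((1 : S40LI_O V K) : E) = _
    rw [Subring.coe_one, map_one]
  add_mem' := by
    intro x y hx hy
    show σ ((x + y : S40LI_O V K) : E) = _
    rw [Subring.coe_add, map_add, hx, hy]
  zero_mem' := by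
    show σ ((0 : S40LI_O V K) : E) = _
    rw [Subring.coe_zero, map_zero]
  neg_mem' := by
    intro x hx
    show σ ((-x : S40LI_O V K) : E) = _
    rw [Subring.coe_neg, map_neg, hx]

/-- divisibility by `π^n` in the integral ring is a valuation inequality. -/
theorem S40LI_mem_span {π : E} (hπK : π ∈ K) (hπ0 : π ≠ 0) (hπ1 : V π ≤ 1) (n : ℕ)
    (x : S40LI_O V K) :
    x ∈ Ideal.span {(⟨π, hπK, hπ1⟩ : S40LI_O V K) ^ n} ↔ V (x : E) ≤ V π ^ n := by
  rw [Ideal.mem_span_singleton']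
  constructor
  · rintro ⟨a, rfl⟩
    show V ((a : E) * π ^ n) ≤ _
    rw [map_mul, map_pow]
    calc V (a : E) * V π ^ n ≤ 1 * V π ^ n := mul_le_mul_left (a.2.2) _
      _ = V π ^ n := one_mul _
  · intro h
    have hπn : π ^ n ≠ 0 := pow_ne_zero n hπ0
    refine ⟨⟨(x : E) / π ^ n, K.div_mem x.2.1 (K.pow_mem hπK n), ?_⟩, ?_⟩
    · rw [map_div₀, map_pow]
      have hV0 : V π ^ n ≠ 0 := pow_ne_zero n ((Valuation.ne_zero_iff V).2 hπ0)
      rw [div_le_iff₀ (zero_lt_iff.2 hV0), one_mul]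
      exact h
    · apply Subtype.ext
      show (x : E) / π ^ n * π ^ n = x
      rw [div_mul_cancel₀ _ hπn]

/-- **the break datum on the integral ring of `K`** (`fix`, `res`, `unif` of `S40LB_Break`). -/
theorem S40LI_break {p : ℕ} (hp : p.Prime) (hσK : ∀ x ∈ K, σ x ∈ K)
    (hσV : ∀ x ∈ K, V (σ x) = V x) {π c r : E} (hπK : π ∈ K) (hcK : c ∈ K) (hrK : r ∈ K)
    (hπ0 : π ≠ 0) (hπ1 : V π < 1) (hVc : V c ≤ 1) (hVr : V r ≤ 1)
    (hσp : ∀ x ∈ K, σ^[p] x = x) (hσπ : σ π ≠ π) {t : ℕ}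
    (hunif : σ π = π * (1 + c * π ^ t) + π ^ (t + 2) * r)
    (hval : ∀ w ∈ K, σ w = w → w ≠ 0 → ∃ m : ℤ, V w = V π ^ ((p : ℤ) * m)) :
    S40LB_Break (S40LI_R V K σ) (S40LI_sigma V K σ hσK hσV)
      (⟨π, hπK, hπ1.le⟩ : S40LI_O V K) (⟨c, hcK, hVc⟩ : S40LI_O V K) t where
  fix := by
    intro a ha
    exact Subtype.ext ha
  res := by
    intro z
    obtain ⟨a, haK, z', hz'K, hσa, hVa, hVz', hzz'⟩ :=
      S40LR_res_sub (V := V) hp K hσK hπK (hσp π hπK) hσπ hπ0 hπ1 hval (z : E) z.2.1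
        (hσp _ z.2.1) z.2.2
    exact ⟨⟨a, haK, hVa⟩, hσa, ⟨z', hz'K, hVz'⟩, Subtype.ext hzz'⟩
  unif := ⟨⟨r, hrK, hVr⟩, Subtype.ext hunif⟩

/-- `1, …, p - 1` are units of the integral ring when they have valuation `1`. -/
theorem S40LI_units {p : ℕ} (hVk : ∀ k : ℕ, 0 < k → k < p → V (k : E) = 1) :
    ∀ k : ℕ, 0 < k → k < p → IsUnit ((k : ℕ) : S40LI_O V K) := by
  intro k hk0 hkp
  have hV := hVk k hk0 hkp
  have hk : (k : E) ≠ 0 := by
    intro h
    rw [h, map_zero] at hV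
    exact zero_ne_one hV
  refine ⟨⟨(k : S40LI_O V K), ⟨(k : E)⁻¹, K.inv_mem (natCast_mem K k), ?_⟩, ?_, ?_⟩, rfl⟩
  · rw [map_inv₀, hV, inv_one]
  · apply Subtype.ext
    show ((k : S40LI_O V K) : E) * (k : E)⁻¹ = 1
    rw [Subring.coe_natCast, mul_inv_cancel₀ hk]
  · apply Subtype.ext
    show (k : E)⁻¹ * ((k : S40LI_O V K) : E) = 1
    rw [Subring.coe_natCast, inv_mul_cancel₀ hk]

/-- `p ∈ π^n O` from `V p ≤ V(π)^n`. -/
theorem S40LI_p_mem {p : ℕ} {π : E} (hπK : π ∈ K) (hπ0 : π ≠ 0) (hπ1 : V π ≤ 1) (n : ℕ)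
    (hVp : V (p : E) ≤ V π ^ n) :
    ∃ w : S40LI_O V K, ((p : ℕ) : S40LI_O V K) = (⟨π, hπK, hπ1⟩ : S40LI_O V K) ^ n * w := by
  have h : ((p : ℕ) : S40LI_O V K) ∈ Ideal.span {(⟨π, hπK, hπ1⟩ : S40LI_O V K) ^ n} := by
    rw [S40LI_mem_span V K hπK hπ0 hπ1, Subring.coe_natCast]
    exact hVp
  obtain ⟨w, hw⟩ := Ideal.mem_span_singleton'.1 h
  exact ⟨w, by rw [← hw, mul_comm]⟩

/-- the constants of the integral ring: the elements lying in the subfield `L`. -/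
def S40LI_C (L : Subfield E) : Subring (S40LI_O V K) where
  carrier := {x | (x : E) ∈ L}
  mul_mem' := by
    intro x y hx hy
    show ((x * y : S40LI_O V K) : E) ∈ L
    rw [Subring.coe_mul]
    exact L.mul_mem hx hy
  one_mem' := by
    show ((1 : S40LI_O V K) : E) ∈ L
    rw [Subring.coe_one]
    exact L.one_mem
  add_mem' := by
    intro x y hx hy
    show ((x + y : S40LI_O V K) : E) ∈ L
    rw [Subring.coe_add]
    exact L.add_mem hx hy
  zero_mem' := by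
    show ((0 : S40LI_O V K) : E) ∈ L
    rw [Subring.coe_zero]
    exact L.zero_mem
  neg_mem' := by
    intro x hx
    show ((-x : S40LI_O V K) : E) ∈ L
    rw [Subring.coe_neg]
    exact L.neg_mem hx

/-- **the context of Step 1–2 (`S40F2AB_Ctx`) on the integral ring of `K`**, constants `L ≤ K`
with discrete valuation `V(L^×) = V(π)^ℤ`; the field `root` is taken in valuation form. -/
theorem S40LI_ctx {p : ℕ} (hσK : ∀ x ∈ K, σ x ∈ K) (hσV : ∀ x ∈ K, V (σ x) = V x)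
    (L : Subfield E) (hσL : ∀ x ∈ L, σ x ∈ L)
    {π c : E} (hπK : π ∈ K) (hπL : π ∈ L) (hcK : c ∈ K) (hπ0 : π ≠ 0) (hπ1 : V π < 1)
    (hVc : V c ≤ 1) {R : Subring (S40LI_O V K)} {t : ℕ}
    (hbr : S40LB_Break R (S40LI_sigma V K σ hσK hσV)
      (⟨π, hπK, hπ1.le⟩ : S40LI_O V K) (⟨c, hcK, hVc⟩ : S40LI_O V K) t)
    (hdisc : ∀ w ∈ L, w ≠ 0 → ∃ m : ℤ, V w = V π ^ m)
    (hroot : ∀ b ∈ L, V b ≤ 1 → ∀ k ∈ L, V k ≤ 1 → ∀ x ∈ K, V x ≤ 1 →
      V (x ^ p + b * x - k) ≤ V π → ∃ γ ∈ L, γ ∈ K ∧ V γ ≤ 1 ∧ V (x - γ) ≤ V π) :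
    S40F2AB_Ctx (S40LI_sigma V K σ hσK hσV) p (⟨π, hπK, hπ1.le⟩ : S40LI_O V K)
      (S40LI_C V K L) where
  sigma_C := fun x hx => hσL _ hx
  pi_mem := hπL
  one_nmem := by
    intro h
    have h' := (S40LI_mem_span V K hπK hπ0 hπ1.le 1 1).1 (by rwa [pow_one])
    rw [Subring.coe_one, map_one, pow_one] at h'
    exact absurd hπ1 (not_lt.2 h')
  nzd := by
    intro x hx
    have h1 := congrArg (Subtype.val) hx
    rw [Subring.coe_mul, Subring.coe_zero] at h1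
    rcases mul_eq_zero.1 h1 with h | h
    · exact absurd h hπ0
    · exact Subtype.ext h
  int1 := S40F2AB_int1_of_break hbr
  root := by
    intro b hb k hk x hx
    have hx' := (S40LI_mem_span V K hπK hπ0 hπ1.le 1 _).1 (by rwa [pow_one])
    rw [pow_one] at hx'
    obtain ⟨γ, hγL, hγK, hVγ, hxγ⟩ := hroot (b : E) hb b.2.2 (k : E) hk k.2.2 (x : E) x.2.1
      x.2.2 hx'
    refine ⟨⟨γ, hγK, hVγ⟩, hγL, ?_⟩
    have := (S40LI_mem_span V K hπK hπ0 hπ1.le 1 (x - ⟨γ, hγK, hVγ⟩)).2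
      (by rw [pow_one]; exact hxγ)
    rwa [pow_one] at this
  unit := by
    intro d hd hdπ
    have hVπ0 : 0 < V π := by
      rw [Valuation.pos_iff]
      exact hπ0
    have hd0 : (d : E) ≠ 0 := by
      intro h
      apply hdπ
      have : d = 0 := Subtype.ext h
      rw [this]
      exact Ideal.zero_mem _
    have hlt : V π < V (d : E) := by
      by_contra hle
      push Not at hle
      apply hdπ
      have := (S40LI_mem_span V K hπK hπ0 hπ1.le 1 d).2 (by rw [pow_one]; exact hle)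
      rwa [pow_one] at this
    obtain ⟨m, hm⟩ := hdisc (d : E) hd hd0
    have hVd : V (d : E) = 1 := by
      refine le_antisymm d.2.2 ?_
      rw [hm] at hlt ⊢
      have h1 : V π ^ (1 : ℤ) < V π ^ m := by rwa [zpow_one]
      rw [zpow_lt_zpow_iff_right_of_lt_one₀ hVπ0 hπ1] at h1
      rw [← zpow_zero (V π), zpow_le_zpow_iff_right_of_lt_one₀ hVπ0 hπ1]
      omega
    refine ⟨⟨(d : E)⁻¹, K.inv_mem d.2.1, by rw [map_inv₀, hVd, inv_one]⟩, L.inv_mem hd, ?_⟩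
    apply Subtype.ext
    show (d : E) * (d : E)⁻¹ = 1
    exact mul_inv_cancel₀ hd0
  sat := by
    intro d hd n hdn
    have hV := (S40LI_mem_span V K hπK hπ0 hπ1.le n d).1 hdn
    have hπn : π ^ n ≠ 0 := pow_ne_zero n hπ0
    refine ⟨⟨(d : E) / π ^ n, K.div_mem d.2.1 (K.pow_mem hπK n), ?_⟩,
      L.div_mem hd (L.pow_mem hπL n), ?_⟩
    · rw [map_div₀, map_pow]
      have hV0 : V π ^ n ≠ 0 := pow_ne_zero n ((Valuation.ne_zero_iff V).2 hπ0)
      rw [div_le_iff₀ (zero_lt_iff.2 hV0), one_mul]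
      exact hV
    · apply Subtype.ext
      show (d : E) = π ^ n * ((d : E) / π ^ n)
      rw [mul_div_cancel₀ _ hπn]

theorem S40LI_iterate_coe (hσK : ∀ x ∈ K, σ x ∈ K) (hσV : ∀ x ∈ K, V (σ x) = V x) (j : ℕ)
    (x : S40LI_O V K) : (((S40LI_sigma V K σ hσK hσV)^[j] x : S40LI_O V K) : E) = σ^[j] (x : E) := by
  induction j with
  | zero => rfl
  | succ j ih =>
    rw [Function.iterate_succ_apply', Function.iterate_succ_apply', S40LI_sigma_coe, ih]

theorem S40LI_Nm_coe (hσK : ∀ x ∈ K, σ x ∈ K) (hσV : ∀ x ∈ K, V (σ x) = V x) (p : ℕ)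
    (x : S40LI_O V K) :
    ((S40LN_Nm (S40LI_sigma V K σ hσK hσV) p x : S40LI_O V K) : E) =
      ∏ j ∈ range p, σ^[j] (x : E) := by
  rw [S40LN_Nm]
  have h := map_prod (S40LI_O V K).subtype
    (fun j => (S40LI_sigma V K σ hσK hσV)^[j] x) (range p)
  simp only [Subring.coe_subtype] at h
  rw [h]
  exact prod_congr rfl fun j _ => S40LI_iterate_coe V K σ hσK hσV j x

/-- **Step 1–2 in field form** (no subtype rings): `E ⊇ K ⊇ L`, `σ`, `V`, the break constants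
`π, c, r ∈ L`, `h ∈ K` a unit, `u ∈ K` with `u ≡ c_z` modulo `π^(pt+1)`, `c_z ∈ L` a unit,
`u · ∏_{j<p} σ^j h = κ ∈ L`  ⇒  `h ≡ d` modulo `π^(t+1)` for a unit constant `d ∈ L`. -/
theorem S40LI_main {p : ℕ} (hp : p.Prime) (hσK : ∀ x ∈ K, σ x ∈ K)
    (hσV : ∀ x ∈ K, V (σ x) = V x) (L : Subfield E) (hLK : L ≤ K) (hσL : ∀ x ∈ L, σ x ∈ L)
    {π c r : E} (hπL : π ∈ L) (hcL : c ∈ L) (hrK : r ∈ K)
    (hπ0 : π ≠ 0) (hπ1 : V π < 1) (hVc : V c ≤ 1) (hVr : V r ≤ 1)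
    (hσp : ∀ x ∈ K, σ^[p] x = x) (hσπ : σ π ≠ π) {t : ℕ} (hpt : ¬ p ∣ t)
    (hunif : σ π = π * (1 + c * π ^ t) + π ^ (t + 2) * r)
    (hval : ∀ w ∈ K, σ w = w → w ≠ 0 → ∃ m : ℤ, V w = V π ^ ((p : ℤ) * m))
    (hdisc : ∀ w ∈ L, w ≠ 0 → ∃ m : ℤ, V w = V π ^ m)
    (hroot : ∀ b ∈ L, V b ≤ 1 → ∀ k ∈ L, V k ≤ 1 → ∀ x ∈ K, V x ≤ 1 →
      V (x ^ p + b * x - k) ≤ V π → ∃ γ ∈ L, γ ∈ K ∧ V γ ≤ 1 ∧ V (x - γ) ≤ V π)
    (hVk : ∀ k : ℕ, 0 < k → k < p → V (k : E) = 1)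
    (hVp : V (p : E) ≤ V π ^ ((p - 1) * t + 1))
    {h u cz κ : E} (hhK : h ∈ K) (hVh : V h = 1) (huK : u ∈ K) (hczL : cz ∈ L) (hVcz : V cz = 1)
    (hκL : κ ∈ L) (hu : V (u - cz) ≤ V π ^ (p * t + 1))
    (hrel : u * ∏ j ∈ range p, σ^[j] h = κ) :
    ∃ d ∈ L, V d = 1 ∧ V (h - d) ≤ V π ^ (t + 1) := by
  have hπK : π ∈ K := hLK hπL
  have hcK : c ∈ K := hLK hcL
  have hbr := S40LI_break V K σ hp hσK hσV hπK hcK hrK hπ0 hπ1 hVc hVr hσp hσπ hunif hval
  have ctx := S40LI_ctx V K σ (p := p) hσK hσV L hσL hπK hπL hcK hπ0 hπ1 hVc hbr hdisc hroot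
  have hh0 : h ≠ 0 := by
    intro h0
    rw [h0, map_zero] at hVh
    exact zero_ne_one hVh
  have hcz0 : cz ≠ 0 := by
    intro h0
    rw [h0, map_zero] at hVcz
    exact zero_ne_one hVcz
  -- the elements of the integral ring
  set hO : S40LI_O V K := ⟨h, hhK, hVh.le⟩ with hhO
  set hO' : S40LI_O V K := ⟨h⁻¹, K.inv_mem hhK, by rw [map_inv₀, hVh, inv_one]⟩ with hhO'
  set czO : S40LI_O V K := ⟨cz, hLK hczL, hVcz.le⟩ with hczO
  set czO' : S40LI_O V K := ⟨cz⁻¹, K.inv_mem (hLK hczL), by rw [map_inv₀, hVcz, inv_one]⟩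
    with hczO'
  have hVu : V u ≤ 1 := by
    have h1 : V (u - cz) ≤ 1 := le_trans hu (pow_le_one₀ zero_le hπ1.le)
    have h2 : u = (u - cz) + cz := by ring
    rw [h2]
    exact le_trans (V.map_add _ _) (max_le h1 hVcz.le)
  set uO : S40LI_O V K := ⟨u, huK, hVu⟩ with huO
  have hVκ : V κ ≤ 1 := by
    rw [← hrel, map_mul, map_prod]
    have h1 : ∀ j ∈ range p, V (σ^[j] h) = 1 := by
      intro j _
      have : ∀ j : ℕ, σ^[j] h ∈ K ∧ V (σ^[j] h) = 1 := by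
        intro j
        induction j with
        | zero => exact ⟨hhK, hVh⟩
        | succ j ih =>
          rw [Function.iterate_succ_apply']
          exact ⟨hσK _ ih.1, by rw [hσV _ ih.1]; exact ih.2⟩
      exact (this j).2
    rw [prod_congr rfl h1, prod_const_one, mul_one]
    exact hVu
  set κO : S40LI_O V K := ⟨κ, hLK hκL, hVκ⟩ with hκO
  have key := S40F2AB_main_break ctx hbr (show (⟨c, hcK, hVc⟩ : S40LI_O V K) ∈ S40LI_C V K L
      from hcL) hp hpt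
    (S40LI_units V K hVk) (S40LI_p_mem V K hπK hπ0 hπ1.le _ hVp)
    (h := hO) (h' := hO') (u := uO) (cz := czO) (cz' := czO') (κ := κO)
    (Subtype.ext (mul_inv_cancel₀ hh0))
    (show czO' ∈ S40LI_C V K L from L.inv_mem hczL)
    (Subtype.ext (mul_inv_cancel₀ hcz0))
    (show κO ∈ S40LI_C V K L from hκL)
    ((S40LI_mem_span V K hπK hπ0 hπ1.le (p * t + 1) (uO - czO)).2 hu)
    (by
      apply Subtype.ext
      rw [Subring.coe_mul, S40LI_Nm_coe]
      exact hrel)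
  obtain ⟨d, hdC, d', hd'C, hdd', hhd⟩ := key
  have hVd : V (d : E) = 1 := by
    refine le_antisymm d.2.2 ?_
    have h1 : (d : E) * (d' : E) = 1 := congrArg Subtype.val hdd'
    have h2 : V (d : E) * V (d' : E) = 1 := by rw [← map_mul, h1, map_one]
    by_contra hlt
    push Not at hlt
    have : V (d : E) * V (d' : E) < 1 := by
      calc V (d : E) * V (d' : E) ≤ V (d : E) * 1 := mul_le_mul_right d'.2.2 _
        _ = V (d : E) := mul_one _
        _ < 1 := hlt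
    rw [h2] at this
    exact lt_irrefl _ this
  exact ⟨d, hdC, hVd, (S40LI_mem_span V K hπK hπ0 hπ1.le (t + 1) (hO - d)).1 hhd⟩

end Inst

end Fermat.Agent.S40
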