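import Mathlib
import Fermat.Agent.S40.LocInst

/-!
# S40 / S44 (row 38), package BREAK-INST, part 3: the hypotheses `hroot`, `hval`, `hdisc` of
`S40LI_main` from DVR-type data (helper23).  Prefix `S40LT_`.

* `S40LT_root` : `hroot` from an algebraically closed field of constants `ι : Ω₀ →+* E`
  (`X^p + b X − k` splits), residue classes of integral constants represented in `L` (`hres`), and
  discreteness of `V` on `K`;
* `S40LT_lt_one` : `V w < 1 ⇒ V w ≤ V π` from `V(K^×) = V(π)^ℤ`;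
* `S40LT_hval`  : `hval` from `V(Fix^×) = V(ϖ)^ℤ`, `V ϖ = V(π)^p`;
* **`S40LT_main`** : `S40LI_main` (Step 1–2 in field form) with `hroot`, `hval`, `hdisc` replaced by
  `hdiscK` (the Gauss ring of `K` is a DVR with uniformiser `π`), `hdiscF` (that of the fixed
  field is a DVR with uniformiser `ϖ`, `V ϖ = V(π)^p`) and `hres`.
-/

set_option autoImplicit false

namespace Fermat.Agent.S40

open Finset Polynomial

section Root

variable {E : Type*} [Field E] {Γ₀ : Type*} [LinearOrderedCommGroupWithZero Γ₀]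
  (V : Valuation E Γ₀)

/-- a multiset product of elements of valuation `≥ 1` has valuation `≥ 1`. -/
theorem S40LT_one_le_prod (s : Multiset E) (h : ∀ a ∈ s, 1 ≤ V a) : 1 ≤ V s.prod := by
  induction s using Multiset.induction_on with
  | empty => simp
  | cons a s ih =>
    rw [Multiset.prod_cons, map_mul]
    have h1 := h a (Multiset.mem_cons_self a s)
    have h2 := ih (fun b hb => h b (Multiset.mem_cons_of_mem hb))
    calc (1 : Γ₀) = 1 * 1 := (one_mul 1).symm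
      _ ≤ V a * V s.prod := mul_le_mul' h1 h2

/-- **the field `root` of the context in valuation form**, from an algebraically closed field of
constants `Ω₀ → E`, residue classes of integral constants represented in `L`, and discreteness of
`V` on `K` (`V w < 1 ⇒ V w ≤ V π`). -/
theorem S40LT_root {Ω₀ : Type*} [Field Ω₀] [IsAlgClosed Ω₀] (ι : Ω₀ →+* E)
    (K L : Subfield E) (hLK : L ≤ K) (hLι : ∀ y ∈ L, ∃ y₀ : Ω₀, ι y₀ = y)
    (hres : ∀ ρ₀ : Ω₀, V (ι ρ₀) ≤ 1 → ∃ γ ∈ L, V γ ≤ 1 ∧ V (ι ρ₀ - γ) < 1)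
    {π : E} (hK : ∀ w ∈ K, V w < 1 → V w ≤ V π) (hπ1 : V π < 1) {p : ℕ} (hp : 2 ≤ p) :
    ∀ b ∈ L, V b ≤ 1 → ∀ k ∈ L, V k ≤ 1 → ∀ x ∈ K, V x ≤ 1 →
      V (x ^ p + b * x - k) ≤ V π → ∃ γ ∈ L, γ ∈ K ∧ V γ ≤ 1 ∧ V (x - γ) ≤ V π := by
  intro b hb _ k hk _ x hxK hVx hP
  obtain ⟨b₀, rfl⟩ := hLι b hb
  obtain ⟨k₀, rfl⟩ := hLι k hk
  set P₀ : Ω₀[X] := X ^ p + (C b₀ * X - C k₀) with hP₀
  have hdeg : (C b₀ * X - C k₀ : Ω₀[X]).degree < (p : WithBot ℕ) := by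
    refine lt_of_le_of_lt (degree_sub_le _ _) (max_lt ?_ ?_)
    · refine lt_of_le_of_lt (degree_C_mul_X_le b₀) ?_
      exact_mod_cast (by omega : 1 < p)
    · refine lt_of_le_of_lt degree_C_le ?_
      exact_mod_cast (by omega : 0 < p)
  have hmonic : P₀.Monic := monic_X_pow_add hdeg
  have hsplit : P₀.Splits := IsAlgClosed.splits P₀
  have hprod := hsplit.eq_prod_roots_of_monic hmonic
  have heval : x ^ p + ι b₀ * x - ι k₀ = (P₀.roots.map (fun a => x - ι a)).prod := by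
    have h1 : eval x (P₀.map ι) = x ^ p + ι b₀ * x - ι k₀ := by
      simp only [hP₀, Polynomial.map_add, Polynomial.map_sub, Polynomial.map_mul,
        Polynomial.map_pow, map_X, map_C, eval_add, eval_sub, eval_mul, eval_pow, eval_X, eval_C]
      ring
    rw [← h1]
    conv_lhs => rw [hprod]
    rw [Polynomial.map_multiset_prod, eval_multiset_prod, Multiset.map_map, Multiset.map_map]
    congr 1
    refine Multiset.map_congr rfl fun a _ => ?_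
    simp
  -- some factor is small
  have hlt : V (x ^ p + ι b₀ * x - ι k₀) < 1 := lt_of_le_of_lt hP hπ1
  have hex : ∃ a ∈ P₀.roots, V (x - ι a) < 1 := by
    by_contra hcon
    push Not at hcon
    have h1 : 1 ≤ V (P₀.roots.map (fun a => x - ι a)).prod := by
      refine S40LT_one_le_prod V _ fun y hy => ?_
      obtain ⟨a, ha, rfl⟩ := Multiset.mem_map.1 hy
      exact hcon a ha
    rw [← heval] at h1
    exact absurd hlt (not_lt.2 h1)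
  obtain ⟨a, -, ha⟩ := hex
  have hVa : V (ι a) ≤ 1 := by
    have e : ι a = x - (x - ι a) := by ring
    rw [e]
    exact le_trans (Valuation.map_sub V _ _) (max_le hVx ha.le)
  obtain ⟨γ, hγL, hVγ, hγ⟩ := hres a hVa
  refine ⟨γ, hγL, hLK hγL, hVγ, ?_⟩
  refine hK _ (K.sub_mem hxK (hLK hγL)) ?_
  have e : x - γ = (x - ι a) + (ι a - γ) := by ring
  rw [e]
  exact lt_of_le_of_lt (V.map_add _ _) (max_lt ha hγ)

/-- `V w < 1 ⇒ V w ≤ V π` from `V(K^×) = V(π)^ℤ`. -/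
theorem S40LT_lt_one (K : Subfield E) {π : E} (hπ0 : π ≠ 0) (hπ1 : V π < 1)
    (hdiscK : ∀ w ∈ K, w ≠ 0 → ∃ m : ℤ, V w = V π ^ m) :
    ∀ w ∈ K, V w < 1 → V w ≤ V π := by
  intro w hw hlt
  by_cases hw0 : w = 0
  · rw [hw0, map_zero]
    exact zero_le
  · have hVπ0 : 0 < V π := by
      rw [Valuation.pos_iff]
      exact hπ0
    obtain ⟨m, hm⟩ := hdiscK w hw hw0
    rw [hm] at hlt ⊢
    rw [← zpow_zero (V π), zpow_lt_zpow_iff_right_of_lt_one₀ hVπ0 hπ1] at hlt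
    have h1 : V π ^ m ≤ V π ^ (1 : ℤ) := by
      rw [zpow_le_zpow_iff_right_of_lt_one₀ hVπ0 hπ1]
      omega
    rwa [zpow_one] at h1

/-- `hval` from `V(Fix^×) = V(ϖ)^ℤ` and `V ϖ = V(π)^p`. -/
theorem S40LT_hval (K : Subfield E) (σ : E →+* E) {π ϖ : E} {p : ℕ}
    (hϖ : V ϖ = V π ^ p)
    (hdiscF : ∀ w ∈ K, σ w = w → w ≠ 0 → ∃ m : ℤ, V w = V ϖ ^ m) :
    ∀ w ∈ K, σ w = w → w ≠ 0 → ∃ m : ℤ, V w = V π ^ ((p : ℤ) * m) := by
  intro w hw hσw hw0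
  obtain ⟨m, hm⟩ := hdiscF w hw hσw hw0
  exact ⟨m, by rw [hm, hϖ, ← zpow_natCast, ← zpow_mul]⟩

/-- **Step 1–2 in field form, from DVR-type data.** -/
theorem S40LT_main {Ω₀ : Type*} [Field Ω₀] [IsAlgClosed Ω₀] (ι : Ω₀ →+* E)
    (K : Subfield E) (σ : E →+* E) {p : ℕ} (hp : p.Prime) (hσK : ∀ x ∈ K, σ x ∈ K)
    (hσV : ∀ x ∈ K, V (σ x) = V x) (L : Subfield E) (hLK : L ≤ K) (hσL : ∀ x ∈ L, σ x ∈ L)
    (hLι : ∀ y ∈ L, ∃ y₀ : Ω₀, ι y₀ = y)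
    (hres : ∀ ρ₀ : Ω₀, V (ι ρ₀) ≤ 1 → ∃ γ ∈ L, V γ ≤ 1 ∧ V (ι ρ₀ - γ) < 1)
    {π ϖ c r : E} (hπL : π ∈ L) (hcL : c ∈ L) (hrK : r ∈ K)
    (hπ0 : π ≠ 0) (hπ1 : V π < 1) (hVc : V c ≤ 1) (hVr : V r ≤ 1)
    (hσp : ∀ x ∈ K, σ^[p] x = x) (hσπ : σ π ≠ π) {t : ℕ} (hpt : ¬ p ∣ t)
    (hunif : σ π = π * (1 + c * π ^ t) + π ^ (t + 2) * r)
    (hdiscK : ∀ w ∈ K, w ≠ 0 → ∃ m : ℤ, V w = V π ^ m)
    (hϖ : V ϖ = V π ^ p)
    (hdiscF : ∀ w ∈ K, σ w = w → w ≠ 0 → ∃ m : ℤ, V w = V ϖ ^ m)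
    (hVk : ∀ k : ℕ, 0 < k → k < p → V (k : E) = 1)
    (hVp : V (p : E) ≤ V π ^ ((p - 1) * t + 1))
    {h u cz κ : E} (hhK : h ∈ K) (hVh : V h = 1) (huK : u ∈ K) (hczL : cz ∈ L) (hVcz : V cz = 1)
    (hκL : κ ∈ L) (hu : V (u - cz) ≤ V π ^ (p * t + 1))
    (hrel : u * ∏ j ∈ range p, σ^[j] h = κ) :
    ∃ d ∈ L, V d = 1 ∧ V (h - d) ≤ V π ^ (t + 1) :=
  S40LI_main V K σ hp hσK hσV L hLK hσL hπL hcL hrK hπ0 hπ1 hVc hVr hσp hσπ hpt hunif
    (S40LT_hval V K σ hϖ hdiscF) (fun w hw hw0 => hdiscK w (hLK hw) hw0)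
    (S40LT_root V ι K L hLK hLι hres (S40LT_lt_one V K hπ0 hπ1 hdiscK) hπ1 hp.two_le)
    hVk hVp hhK hVh huK hczL hVcz hκL hu hrel

end Root

end Fermat.Agent.S40
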