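import Mathlib
import Fermat.Agent.S40.LocD
import Fermat.Agent.S40.F2A

/-!
# S40 / S44 (row 38): BRIDGE from the break datum to the norm congruences of Step 1–2 (helper23).
Prefix `S40LX_`.

`S40LX_norm` : `S40F2A_Norm σ p π ϖ R C0 n` (helper1's `S40/F2A.lean`) for EVERY level `1 ≤ n ≤ t`
from the break datum `S40LB_Break R σ π c t` (`S40/LocB.lean`) via `S40LD_main` (`S40/LocD.lean`):

  `a = υ₀^n`,  `b = −[n = t] υ₀^n c₀^(p-1)`,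

where `π^p = ϖ υ`, `υ ≡ υ₀`, `c ≡ c₀` modulo `π`, `υ₀, c₀ ∈ C0`, `υ₀ ∉ (π)`.
Hypotheses beyond the break datum: `p` prime, `p ∤ t`, `1, …, p-1` units, `p ∈ π^((p-1)t+1) O`,
`σ^p = 1`, `C0 ≤ R`, `ϖ` a non-zero-divisor, and the descent `hdesc`
(`σ r = r`, `r ∈ (π)` ⇒ `r ∈ (ϖ)`), exactly as in `S40F2A_norm_one`.
-/

set_option autoImplicit false

namespace Fermat.Agent.S40

open Finset

variable {O : Type*} [CommRing O] {R C0 : Subring O} {σ : O →+* O} {π ϖ c : O} {t : ℕ}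

/-- `x ≡ y` modulo `π` ⇒ `x^n ≡ y^n` modulo `π`. -/
theorem S40LX_pow_congr {π x y : O} (h : x - y ∈ Ideal.span {π}) (n : ℕ) :
    x ^ n - y ^ n ∈ Ideal.span {π} := by
  rw [← Ideal.Quotient.eq] at h ⊢
  rw [map_pow, map_pow, h]

/-- `ϖ^n x = 0 ⇒ x = 0` for a non-zero-divisor `ϖ`. -/
theorem S40LX_nzd_pow {ϖ : O} (hnzd : ∀ x : O, ϖ * x = 0 → x = 0) (n : ℕ) (x : O)
    (hx : ϖ ^ n * x = 0) : x = 0 := by
  induction n with
  | zero => simpa using hx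
  | succ n ih =>
    apply ih
    apply hnzd
    rw [← mul_assoc, ← pow_succ']
    exact hx

/-- **the norm congruence of Step 1–2 at every level `1 ≤ n ≤ t`, from the break datum.** -/
theorem S40LX_norm (h : S40LB_Break R σ π c t) {p : ℕ} (hp : p.Prime) (hpt : ¬ p ∣ t)
    (hu : ∀ k, 0 < k → k < p → IsUnit (k : O))
    (hpπ : ∃ w : O, (p : O) = π ^ ((p - 1) * t + 1) * w)
    (hσp : ∀ s, σ^[p] s = s) (hC0R : C0 ≤ R) (hϖ : ϖ ∈ C0)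
    (hnzd : ∀ x : O, ϖ * x = 0 → x = 0) (h1 : (1 : O) ∉ Ideal.span {π})
    {υ υ₀ υ₁ c₀ : O} (hυ : π ^ p = ϖ * υ) (hυ₀ : υ₀ ∈ C0) (hυυ₀ : υ - υ₀ ∈ Ideal.span {π})
    (hυ₀u : υ₀ * υ₁ = 1) (hc₀ : c₀ ∈ C0) (hcc₀ : c - c₀ ∈ Ideal.span {π})
    (hdesc : ∀ r, σ r = r → r ∈ Ideal.span {π} → r ∈ Ideal.span {ϖ})
    (n : ℕ) (hn : 1 ≤ n) (hnt : n ≤ t) :
    S40F2A_Norm σ p π ϖ R C0 n := by
  have hfix : ∀ a ∈ C0, σ a = a := fun a ha => h.fix a (hC0R ha)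
  have ha : υ₀ ^ n ∈ C0 := Subring.pow_mem _ hυ₀ n
  have hb : -(if n = t then υ₀ ^ n * c₀ ^ (p - 1) else 0) ∈ C0 := by
    refine Subring.neg_mem _ ?_
    split_ifs
    · exact Subring.mul_mem _ ha (Subring.pow_mem _ hc₀ _)
    · exact Subring.zero_mem _
  refine ⟨υ₀ ^ n, ha, -(if n = t then υ₀ ^ n * c₀ ^ (p - 1) else 0), hb, Or.inl ?_,
    fun g g₀ hg₀ hgg₀ => ?_⟩
  · intro hmem
    apply h1
    have : (1 : O) = υ₀ ^ n * υ₁ ^ n := by rw [← mul_pow, hυ₀u, one_pow]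
    rw [this]
    exact Ideal.mul_mem_right _ _ hmem
  · obtain ⟨r, hr⟩ := S40LD_main h hp hpt hu hpπ n hn hnt g
    -- the quotient `x`
    set x : O := υ ^ n * (g ^ p - (if n = t then c ^ (p - 1) * g else 0)) + υ ^ n * π * r -
      (υ₀ ^ n * g₀ ^ p + -(if n = t then υ₀ ^ n * c₀ ^ (p - 1) else 0) * g₀) with hx
    have hd : S40LN_Nm σ p (1 + π ^ n * g) -
        (1 + ϖ ^ n * (υ₀ ^ n * g₀ ^ p + -(if n = t then υ₀ ^ n * c₀ ^ (p - 1) else 0) * g₀)) =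
        ϖ ^ n * x := by
      have e1 : π ^ (p * n) = ϖ ^ n * υ ^ n := by rw [pow_mul, hυ, mul_pow]
      rw [hr, pow_succ, e1, hx]
      ring
    -- `x ∈ (π)`
    have hxπ : x ∈ Ideal.span {π} := by
      have hπ0 : Ideal.Quotient.mk (Ideal.span {π}) π = 0 :=
        Ideal.Quotient.eq_zero_iff_mem.2 (Ideal.subset_span rfl)
      have e1 : Ideal.Quotient.mk (Ideal.span {π}) υ = Ideal.Quotient.mk (Ideal.span {π}) υ₀ :=
        Ideal.Quotient.eq.2 hυυ₀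
      have e2 : Ideal.Quotient.mk (Ideal.span {π}) g = Ideal.Quotient.mk (Ideal.span {π}) g₀ :=
        Ideal.Quotient.eq.2 hgg₀
      have e3 : Ideal.Quotient.mk (Ideal.span {π}) c = Ideal.Quotient.mk (Ideal.span {π}) c₀ :=
        Ideal.Quotient.eq.2 hcc₀
      rw [← Ideal.Quotient.eq_zero_iff_mem, hx]
      by_cases hnt' : n = t
      · simp only [if_pos hnt', map_sub, map_add, map_mul, map_pow, map_neg, e1, e2, e3, hπ0]
        ring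
      · simp only [if_neg hnt', map_sub, map_add, map_mul, map_pow, map_neg, map_zero, e1, e2,
          hπ0]
        ring
    -- `x` is fixed
    have hdfix : σ (ϖ ^ n * x) = ϖ ^ n * x := by
      rw [← hd, map_sub, S40LN_Nm_fix σ p hσp, map_add, map_one, map_mul, map_pow, hfix ϖ hϖ,
        map_add, map_mul, map_mul, map_pow, map_pow, hfix _ hυ₀, h.fix g₀ hg₀, hfix _ hb]
    have hxfix : σ x = x := by
      have : ϖ ^ n * (σ x - x) = 0 := by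
        have e := hdfix
        rw [map_mul, map_pow, hfix ϖ hϖ] at e
        rw [mul_sub, e, sub_self]
      exact sub_eq_zero.1 (S40LX_nzd_pow hnzd n _ this)
    obtain ⟨y, hy⟩ := Ideal.mem_span_singleton'.1 (hdesc x hxfix hxπ)
    rw [hd, Ideal.mem_span_singleton']
    exact ⟨y, by rw [← hy, pow_succ]; ring⟩

/-- **Step 1–2 from the break datum**: `S40F2A_main` with the norm congruences supplied by
`S40LX_norm`: `u · N(h) = κ`, `u ≡ c_z` modulo `ϖ^(t+1)` ⇒ `h ≡ d` modulo `π^(t+1)` for a unit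
constant `d` of `L`. -/
theorem S40LX_main {C : Subring O} {p : ℕ} (ctx : S40F2A_Ctx σ p π ϖ R C C0)
    (hB : S40LB_Break R σ π c t) (hp : p.Prime) (hpt : ¬ p ∣ t)
    (hu : ∀ k, 0 < k → k < p → IsUnit (k : O))
    (hpπ : ∃ w : O, (p : O) = π ^ ((p - 1) * t + 1) * w)
    {υ υ₀ υ₁ c₀ : O} (hυ : π ^ p = ϖ * υ) (hυ₀ : υ₀ ∈ C0) (hυυ₀ : υ - υ₀ ∈ Ideal.span {π})
    (hυ₀u : υ₀ * υ₁ = 1) (hc₀ : c₀ ∈ C0) (hcc₀ : c - c₀ ∈ Ideal.span {π})
    (hdesc : ∀ r, σ r = r → r ∈ Ideal.span {π} → r ∈ Ideal.span {ϖ})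
    {h h' u cz cz' κ : O} (hh : h * h' = 1) (hcz : cz ∈ C0) (hcz' : cz' ∈ C0)
    (hczu : cz * cz' = 1) (hκ : κ ∈ C0) (huz : u - cz ∈ Ideal.span {ϖ ^ (t + 1)})
    (hrel : u * S40LN_Nm σ p h = κ) :
    ∃ d ∈ C, ∃ d' ∈ C, d * d' = 1 ∧ h - d ∈ Ideal.span {π ^ (t + 1)} :=
  S40F2A_main ctx t
    (fun n hn hnt => S40LX_norm hB hp hpt hu hpπ ctx.sigma_p ctx.C0_le_R ctx.varpi_mem ctx.nzd
      ctx.one_nmem hυ hυ₀ hυυ₀ hυ₀u hc₀ hcc₀ hdesc n hn hnt)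
    hh hcz hcz' hczu hκ huz hrel

end Fermat.Agent.S40
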