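import Mathlib
import Fermat.Prelude.Def_FLTPrelim_ModularRep

/-!
# S40 (Mazur–Ribet at `p`, row 38): TOP WIRE, level-normalised form (helper2).  Prefix `S40W_`.

The J-side of TRACK 13 works at the level `M' * p` (`JZero (M' * p)`, `p ∤ M'`).

* `S40W_HoleLevel` : the frozen statement with `M = M' * p`, `p ∤ M'`, conclusion at level `M'`.
* `S40W_main3 : S40W_HoleLevel →` frozen S40, verbatim (no other input).
-/

set_option autoImplicit false

namespace Fermat.Agent.S40

/-- the frozen statement S40 at the level `M' * p`, `p ∤ M'`. -/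
def S40W_HoleLevel : Prop :=
  ∀ (W : WeierstrassCurve ℤ), W.Δ ≠ 0 → ∀ {p : ℕ}, p.Prime → p ≠ 2 → W.IsGoodPrimeFor p →
    W.ModRepIsIrreducible p → ∀ (M' : ℕ), 0 < M' → ¬ p ∣ M' →
    W.IsResiduallyModularOfLevel p (M' * p) → W.IsResiduallyModularOfLevel p M'

/-- **TOP WIRE, level-normalised**: the frozen statement S40 from `S40W_HoleLevel`. -/
theorem S40W_main3 (hlev : S40W_HoleLevel)
    (W : WeierstrassCurve ℤ) (hΔ : W.Δ ≠ 0)
    {p : ℕ} (hp : p.Prime) (hp2 : p ≠ 2)
    (hgood : W.IsGoodPrimeFor p)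
    (hirr : W.ModRepIsIrreducible p)
    {M : ℕ} (hM : 0 < M) (hpM : p ∣ M) (hp2M : ¬ p ^ 2 ∣ M)
    (hmod : W.IsResiduallyModularOfLevel p M) :
    W.IsResiduallyModularOfLevel p (M / p) := by
  obtain ⟨M', hM'⟩ := hpM
  have hMeq : M = M' * p := by rw [hM', mul_comm]
  subst hMeq
  have hM'pos : 0 < M' := by
    rcases Nat.eq_zero_or_pos M' with h | h
    · subst h; simp at hM
    · exact h
  have hpM' : ¬ p ∣ M' := by
    rintro ⟨k, rfl⟩
    exact hp2M ⟨k, by ring⟩
  rw [Nat.mul_div_cancel M' hp.pos]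
  exact hlev W hΔ hp hp2 hgood hirr M' hM'pos hpM' hmod

end Fermat.Agent.S40
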