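import Mathlib
import Fermat.Agent.S40.DefsJ3
import Fermat.Agent.S40.Wire3
import Fermat.Agent.S40.Geo1V0
import Fermat.Agent.S40.Geo3Core
import Fermat.Agent.S40.AlgRel
import Fermat.Agent.S40.AlgKerJ
import Fermat.Agent.S40.AlgScInst
import Fermat.Agent.S40.WPeu
import Fermat.Agent.S19.Inst

/-!
# TRACK 13 (row 38): the concrete MID WIRE (helper6).  Prefix `S40M_`.

* `S40M_core` : for ONE `W` and ONE odd prime `p`: from (INV) on the W-side in CASE B (`hinvW`) and
  the J-side statement for this `W`, `p`, `M'` (`hJ`),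
  `W.IsResiduallyModularOfLevel p (M' * p) → W.IsResiduallyModularOfLevel p M'`.
  Used: GEO-1 (`S40G1_V0_ne_bot`, helper9), a simple stable `V ≤ V₀` (`S40WA_exists_simple`,
  helper2), OLD (`S40G3_new_of_not_core`, helper1 + LIFT helper13/helper26), ALG-R (`S40AR_main`,
  helper4), ALG-K (`S40AK_ker`, helper25), CASE A (`S40AI_caseA`, helper8 + hN helper12).
* `S40M_generic` : the same from `S40DJ_Hole3` (`5 ≤ p`, any `W`): the form for S44.
* `S40M_holeLevel : S40DJ_Hole2 → S40W_HoleLevel` (W-PEU `S40WP_invW'`, helper24 with helper28,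
  helper7, helper11, helper14), and `S40M_main : S40DJ_Hole2 →` the frozen statement S40.
-/

set_option autoImplicit false
set_option linter.style.haveILetI false
set_option linter.unusedSectionVars false
set_option linter.unusedVariables false

namespace Fermat.Agent.S40

open WeierstrassCurve ModularCurve Fermat.Agent.S33

local notation "ℚbar" => AlgebraicClosure ℚ
local notation "GQ" => (AlgebraicClosure ℚ ≃ₐ[ℚ] AlgebraicClosure ℚ)

/-- **MID WIRE, core**: one `W`, one odd `p`, one level `M' * p`. -/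
theorem S40M_core (W : WeierstrassCurve ℤ) (hΔ : W.Δ ≠ 0) {p : ℕ} (hp : p.Prime) (hp2 : p ≠ 2)
    (hirr : W.ModRepIsIrreducible p) (M' : ℕ) [NeZero M'] [NeZero p] [NeZero (M' * p)]
    (hpM' : ¬ p ∣ M')
    (hinvW : ∀ A : ValuationSubring ℚbar, A.LiesOverPrime p → S40DJ_CaseB W A p →
      S40D_InvW W A p)
    (hJ : ∀ A : ValuationSubring ℚbar, A.LiesOverPrime p →
      ∀ V : AddSubgroup (JZero (M' * p)),
        (∀ x ∈ V, x ∈ S40D_V0 W p (M' * p)) → S40WA_Simple GQ V →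
        (∀ x ∈ V, S40DJ_New M' p x) → S40DJ_CaseB W A p →
        S40D_Rel W p (M' * p) V → S40D_Ker W p (M' * p) V → S40D_InvJ (M' * p) A p V →
        S40W_Core W p (M' * p))
    (hmod : W.IsResiduallyModularOfLevel p (M' * p)) :
    W.IsResiduallyModularOfLevel p M' := by
  haveI : Fact p.Prime := ⟨hp⟩
  have hM' : 0 < M' := Nat.pos_of_ne_zero (NeZero.ne M')
  suffices hcore : S40W_Core W p (M' * p) by
    have h := S40W_of_core W hp (Nat.mul_pos hM' hp.pos) (Dvd.intro_left M' rfl) hcore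
    rwa [Nat.mul_div_cancel M' hp.pos] at h
  by_contra hncore
  have hV0ne : S40G1_V0 W p (M' * p) ≠ ⊥ := S40G1_V0_ne_bot W hmod
  haveI := S40G1_V0_finite W p (M' * p)
  obtain ⟨V, hVle, hV⟩ := S40WA_exists_simple (G := GQ) (S40G1_V0 W p (M' * p)) hV0ne
    (S40G1_V0_stable W p (M' * p))
  have hVV0 : ∀ x ∈ V, x ∈ S40D_V0 W p (M' * p) := fun x hx => hVle hx
  have hVp : ∀ x ∈ V, p • x = 0 := fun x hx => (hVV0 x hx).1
  have hnew : ∀ x ∈ V, S40DJ_New M' p x :=
    fun x hx => S40G3_new_of_not_core W p M' hncore x (hVV0 x hx)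
  have hR : S40D_Rel W p (M' * p) V := S40AR_main W hΔ hp (M' * p) V hVV0
  haveI : Finite V := Finite.of_injective (AddSubgroup.inclusion hVle)
    (AddSubgroup.inclusion_injective hVle)
  have hK : S40D_Ker W p (M' * p) V := S40AK_ker W hΔ hp hp2 hirr V hVp hV hR
  obtain ⟨A, hA⟩ : ∃ A : ValuationSubring ℚbar, A.LiesOverPrime p :=
    Fermat.Agent.S19.S19IN_exists_A p hp
  by_cases hB : S40DJ_CaseB W A p
  · exact hncore (hJ A hA V hVV0 hV hnew hB hR hK (S40D_invJ_of_invW hK (hinvW A hA hB)))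
  · exact S40AI_caseA W hΔ p hp hp2 hirr M' hpM' A hA V hVp hV hnew hR hB

/-- **MID WIRE, generic form** (`5 ≤ p`, any `W`): from `S40DJ_Hole3` and (INV) on the W-side. -/
theorem S40M_generic (hJ : S40DJ_Hole3) (W : WeierstrassCurve ℤ) (hΔ : W.Δ ≠ 0) {p : ℕ}
    (hp : p.Prime) (hp5 : 5 ≤ p) (hirr : W.ModRepIsIrreducible p)
    (hinvW : ∀ A : ValuationSubring ℚbar, A.LiesOverPrime p → S40DJ_CaseB W A p →
      S40D_InvW W A p)
    (M' : ℕ) (hM' : 0 < M') (hpM' : ¬ p ∣ M')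
    (hmod : W.IsResiduallyModularOfLevel p (M' * p)) :
    W.IsResiduallyModularOfLevel p M' := by
  haveI : NeZero M' := ⟨hM'.ne'⟩
  haveI : NeZero p := ⟨hp.ne_zero⟩
  haveI : NeZero (M' * p) := ⟨(Nat.mul_pos hM' hp.pos).ne'⟩
  have hp2 : p ≠ 2 := by omega
  exact S40M_core W hΔ hp hp2 hirr M' hpM' hinvW
    (fun A hA V hVV0 hV hnew hB hR hK hI =>
      hJ W hΔ p hp hp5 hirr M' hpM' A hA V hVV0 hV hnew hB hR hK hI) hmod

/-- **MID WIRE for S40**: the level-normalised statement from the hole `S40DJ_Hole2`. -/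
theorem S40M_holeLevel (hJ : S40DJ_Hole2) : S40W_HoleLevel := by
  intro W hΔ p hp hp2 hgood hirr M' hM' hpM' hmod
  haveI : NeZero M' := ⟨hM'.ne'⟩
  haveI : NeZero p := ⟨hp.ne_zero⟩
  haveI : NeZero (M' * p) := ⟨(Nat.mul_pos hM' hp.pos).ne'⟩
  exact S40M_core W hΔ hp hp2 hirr M' hpM'
    (fun A hA hB => S40WP_invW' W A hΔ hp hp2 hA hgood hB)
    (fun A hA V hVV0 hV hnew hB hR hK hI =>
      hJ W hΔ p hp hp2 hgood hirr M' hpM' A hA V hVV0 hV hnew hB hR hK hI) hmod

/-- **the frozen statement S40 from the ONE hole of the J-side.** -/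
theorem S40M_main (hJ : S40DJ_Hole2)
    (W : WeierstrassCurve ℤ) (hΔ : W.Δ ≠ 0)
    {p : ℕ} (hp : p.Prime) (hp2 : p ≠ 2)
    (hgood : W.IsGoodPrimeFor p)
    (hirr : W.ModRepIsIrreducible p)
    {M : ℕ} (hM : 0 < M) (hpM : p ∣ M) (hp2M : ¬ p ^ 2 ∣ M)
    (hmod : W.IsResiduallyModularOfLevel p M) :
    W.IsResiduallyModularOfLevel p (M / p) :=
  S40W_main3 (S40M_holeLevel hJ) W hΔ hp hp2 hgood hirr hM hpM hp2M hmod

end Fermat.Agent.S40
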