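import Fermat.Agent.S40.NodeSlope

/-!
# TRACK 13 (S40/S44), (T₂-NODE) (helper26): the order at the SECOND end of a node.
Prefix `S40NT2_`.

`N : S40NA_Node L F k` a node, `S : S18_Val L F k Fk` the SECOND Gauss valuation (`N.O₂ = S.O`),
`v` the place of the second component at the node (`hε`: `ε f ≠ 0 ⇒ ord_v (red₂ f) = 0`),
`X Y = ϖ` the node coordinates (`ord_v (red₂ Y) = 1`).

* `S40NT2_nu S v g` : `ord_v (red g)` (`0` if `g ∉ S.O`), additive on the units of `S.O`.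
* `S40NT2_nu_glue` : a `U1`-unit without zero and pole specialising to the node is a unit of `O₂`
  whose second reduction is a unit at `v` (Hartogs at the second end).
* `S40NT2_ord_aux` : `u = u' ∏ (X − w i) ^ (e i)`, `u'` without zero and pole specialising to the
  node, `u / (c₁ X ^ n)` a `U1`-unit ⇒ `ord_v (red₂ (u / κ₀)) = Σ e i − n`,
  `κ₀ = c₁ ϖ ^ n ∏ (w i / ϖ) ^ (e i)`.
* `S40NT2_ord` : **`ord_v (red₂ (u / c₂)) = p Σ m i − n`** for `e i = p m i`, `c₂` any constant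
  with `u / c₂` a unit of `O₂`.
* `S40NT2_dvd` : **(T₂-NODE)** `p ∣ n ⇒ p ∣ ord_v (red₂ (u / c₂))`.
-/

set_option autoImplicit false

open AlgebraicCurve

noncomputable section

namespace Fermat.Agent.S40

open Fermat.Agent.S18

section nu

variable {L F k Fk : Type*} [Field L] [Field F] [Algebra L F] [Field k] [Field Fk]
  [Algebra k Fk] (S : S18_Val L F k Fk) (v : Place k Fk)

open Classical in
/-- the order at `v` of the reduction of `g` (`0` if `g` is not integral). -/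
def S40NT2_nu (g : F) : ℤ := if h : g ∈ S.O then v.ord (S.red ⟨g, h⟩) else 0

theorem S40NT2_nu_eq {g : F} (h : g ∈ S.O) : S40NT2_nu S v g = v.ord (S.red ⟨g, h⟩) := by
  unfold S40NT2_nu
  exact dif_pos h

theorem S40NT2_nu_mul {g h : F} (hg : S40F2S_IsU S.O g) (hh : S40F2S_IsU S.O h) :
    S40NT2_nu S v (g * h) = S40NT2_nu S v g + S40NT2_nu S v h := by
  rw [S40NT2_nu_eq S v (hg.mul hh).mem, S40NT2_nu_eq S v hg.mem, S40NT2_nu_eq S v hh.mem]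
  have e : (⟨g * h, (hg.mul hh).mem⟩ : ↥S.O) = ⟨g, hg.mem⟩ * ⟨h, hh.mem⟩ := rfl
  rw [e, map_mul, v.ord_mul (S40NS_red_ne_zero_of_isU S hg) (S40NS_red_ne_zero_of_isU S hh)]

theorem S40NT2_nu_inv {g : F} (hg : S40F2S_IsU S.O g) :
    S40NT2_nu S v g⁻¹ = -S40NT2_nu S v g := by
  rw [S40NT2_nu_eq S v hg.inv_mem, S40NT2_nu_eq S v hg.mem, S40NS_red_inv S hg, v.ord_inv]

theorem S40NT2_nu_zpow {g : F} (hg : S40F2S_IsU S.O g) (n : ℤ) :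
    S40NT2_nu S v (g ^ n) = n * S40NT2_nu S v g := by
  rw [S40NT2_nu_eq S v (hg.zpow n).mem, S40NT2_nu_eq S v hg.mem, S40NS_red_zpow S hg,
    v.ord_zpow]

theorem S40NT2_nu_one_sub {t : F} (ht : t ∈ S.O.nonunits) : S40NT2_nu S v (1 - t) = 0 := by
  have htO : t ∈ S.O := ValuationSubring.nonunits_subset ht
  have hm : 1 - t ∈ S.O := sub_mem S.O.one_mem htO
  rw [S40NT2_nu_eq S v hm]
  have e : (⟨1 - t, hm⟩ : ↥S.O) = 1 - ⟨t, htO⟩ := rfl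
  rw [e, map_sub, map_one, (S40NS_red_eq_zero_iff S htO).2 ht, sub_zero, Place.ord_one]

theorem S40NT2_nu_neg (g : F) : S40NT2_nu S v (-g) = S40NT2_nu S v g := by
  by_cases h : g ∈ S.O
  · have hn : -g ∈ S.O := neg_mem h
    rw [S40NT2_nu_eq S v hn, S40NT2_nu_eq S v h]
    have e : (⟨-g, hn⟩ : ↥S.O) = -⟨g, h⟩ := rfl
    rw [e, map_neg]
    by_cases h0 : S.red ⟨g, h⟩ = 0
    · rw [h0, neg_zero]
    · have h1 : -S.red ⟨g, h⟩ = (-1) * S.red ⟨g, h⟩ := by ring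
      rw [h1, v.ord_mul (neg_ne_zero.mpr one_ne_zero) h0, S18_Spec.ord_neg_one, zero_add]
  · have hn : -g ∉ S.O := fun hn => h (by simpa using neg_mem hn)
    unfold S40NT2_nu
    rw [dif_neg h, dif_neg hn]

/-- a constant which is a unit has order `0`. -/
theorem S40NT2_nu_const {c : F} (hc : c ∈ (algebraMap L F).fieldRange)
    (hU : S40F2S_IsU S.O c) : S40NT2_nu S v c = 0 := by
  obtain ⟨a, rfl⟩ := hc
  have haA : a ∈ S.A := (S.algebraMap_mem_iff a).1 hU.mem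
  rw [S40NT2_nu_eq S v hU.mem, S.red_algebraMap a haA hU.mem]
  exact S18_Spec.ord_algebraMap v _

end nu

section node

variable {L F k Fk : Type*} [Field L] [Field F] [Algebra L F] [Field k] [Field Fk]
  [Algebra k Fk] (S : S18_Val L F k Fk) (v : Place k Fk) (N : S40NA_Node L F k)

/-- **Hartogs at the second end**: a `U1`-unit without zero and pole specialising to the node is
a unit of `O₂`, and its second reduction is a unit at `v`. -/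
theorem S40NT2_nu_glue (hO₂ : N.O₂ = S.O)
    (hε : ∀ (f : F) (hf : f ∈ N.Lam) (hfO : f ∈ S.O),
      N.ε ⟨f, hf⟩ ≠ 0 → v.ord (S.red ⟨f, hfO⟩) = 0)
    (hfin : ∀ g : F, {Q : S40NA_Pt L F | Q ∈ N.U ∧ g ∉ Q.P}.Finite) {g : F}
    (h₁ : S40F2SN_U1 N g) (hP : S40F2SN_NoZP N g) :
    S40F2S_IsU S.O g ∧ S40NT2_nu S v g = 0 := by
  have hU₂ : S40F2S_IsU N.O₂ g := S40F2SN_glue_unit N hfin h₁ hP
  have hU : S40F2S_IsU S.O g := by rw [← hO₂]; exact hU₂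
  refine ⟨hU, ?_⟩
  obtain ⟨a, b, ha, hb, hab, hεb⟩ := S40NA_hartogs N g h₁.1.mem hU₂.mem (hfin g)
    (fun Q hQ hg hc => hg (hP Q hQ hc).mem)
  obtain ⟨a', b', ha', hb', hn, hεa', hεb'⟩ := h₁.2
  have hεa : N.ε ⟨a, ha⟩ ≠ 0 := by
    have hd : a * b' - a' * b ∈ N.Lam :=
      N.Lam.sub_mem (N.Lam.mul_mem ha hb') (N.Lam.mul_mem ha' hb)
    have hdn : a * b' - a' * b ∈ N.O₁.nonunits := by
      have e : a * b' - a' * b = (g * b' - a') * b := by rw [← hab]; ring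
      rw [e]; exact S40NA_nonunits_mul N.O₁ hn (N.mem_O₁ hb)
    have h0 := N.ε_zero₁ ⟨a * b' - a' * b, hd⟩ hdn
    have e : (⟨a * b' - a' * b, hd⟩ : ↥N.Lam) = ⟨a, ha⟩ * ⟨b', hb'⟩ - ⟨a', ha'⟩ * ⟨b, hb⟩ := rfl
    rw [e, map_sub, map_mul, map_mul, sub_eq_zero] at h0
    intro hz
    rw [hz, zero_mul] at h0
    exact mul_ne_zero hεa' hεb h0.symm
  have haO : a ∈ S.O := by rw [← hO₂]; exact N.mem_O₂ ha
  have hbO : b ∈ S.O := by rw [← hO₂]; exact N.mem_O₂ hb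
  have hoa := hε a ha haO hεa
  have hob := hε b hb hbO hεb
  have e : (⟨a, haO⟩ : ↥S.O) = ⟨g, hU.mem⟩ * ⟨b, hbO⟩ := Subtype.ext hab.symm
  have hra : S.red ⟨a, haO⟩ = S.red ⟨g, hU.mem⟩ * S.red ⟨b, hbO⟩ := by rw [e, map_mul]
  have hg0 := S40NS_red_ne_zero_of_isU S hU
  have hb0 : S.red ⟨b, hbO⟩ ≠ 0 := by
    intro hz
    have hbn : b ∈ S.O.nonunits := (S40NS_red_eq_zero_iff S hbO).1 hz
    have hbn' : b ∈ N.O₂.nonunits := by rw [hO₂]; exact hbn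
    exact hεb (N.ε_zero₂ ⟨b, hb⟩ hbn')
  rw [S40NT2_nu_eq S v hU.mem]
  have h3 := v.ord_mul hg0 hb0
  rw [← hra, hoa, hob, add_zero] at h3
  exact h3.symm

/-- `(X − w) / w` is a unit of `O₂` with second reduction `−1`. -/
theorem S40NT2_lin₂ (hO₂ : N.O₂ = S.O) {X Y ϖ w : F} (hXY : X * Y = ϖ)
    (hY : S40F2S_IsU N.O₂ Y) (hw0 : w ≠ 0) (hw : ϖ / w ∈ N.O₂.nonunits) :
    S40F2S_IsU S.O ((X - w) / w) ∧ S40NT2_nu S v ((X - w) / w) = 0 := by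
  have hU₂ := S40F2SN_lin₂ N hXY hY hw0 hw
  refine ⟨by rw [← hO₂]; exact hU₂, ?_⟩
  have hY0 : Y ≠ 0 := hY.ne_zero
  have h1 : (X - w) / w = -(1 - ϖ / w * Y⁻¹) := by
    rw [← hXY]
    field_simp
    ring
  rw [h1, S40NT2_nu_neg]
  apply S40NT2_nu_one_sub
  rw [← hO₂]
  exact S40F2S_nonunits_mul_isU hw hY.inv

/-- **the order at the second end**, relative to the constant
`κ₀ = c₁ ϖ ^ n ∏ (w i / ϖ) ^ (e i)`. -/
theorem S40NT2_ord_aux (hO₂ : N.O₂ = S.O)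
    (hε : ∀ (f : F) (hf : f ∈ N.Lam) (hfO : f ∈ S.O),
      N.ε ⟨f, hf⟩ ≠ 0 → v.ord (S.red ⟨f, hfO⟩) = 0)
    (hfin : ∀ g : F, {Q : S40NA_Pt L F | Q ∈ N.U ∧ g ∉ Q.P}.Finite)
    {X Y ϖ : F} (hXY : X * Y = ϖ) (hX : S40F2S_IsU N.O₁ X) (hY : S40F2S_IsU N.O₂ Y)
    (hXP : S40F2SN_NoZP N X) (hordY : S40NT2_nu S v Y = 1)
    {ι : Type*} (s : Finset ι) (w : ι → F) (e : ι → ℤ)
    (hw0 : ∀ i ∈ s, w i ≠ 0)
    (hw₁ : ∀ i ∈ s, w i ∈ N.O₁.nonunits) (hw₂ : ∀ i ∈ s, ϖ / w i ∈ N.O₂.nonunits)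
    {u' c₁ : F} (hc₁ : c₁ ∈ (algebraMap L F).fieldRange) (hc₁0 : c₁ ≠ 0)
    (hu'P : S40F2SN_NoZP N u')
    {u : F} (hu : u = u' * ∏ i ∈ s, (X - w i) ^ e i) (n : ℤ)
    (hu₁ : S40F2SN_U1 N (u / (c₁ * X ^ n))) :
    S40F2S_IsU S.O (u / (c₁ * ϖ ^ n * ∏ i ∈ s, (w i / ϖ) ^ e i)) ∧
      S40NT2_nu S v (u / (c₁ * ϖ ^ n * ∏ i ∈ s, (w i / ϖ) ^ e i)) = ∑ i ∈ s, e i - n := by
  classical
  have hX0 : X ≠ 0 := hX.ne_zero
  have hY0 : Y ≠ 0 := hY.ne_zero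
  have hϖ0 : ϖ ≠ 0 := by rw [← hXY]; exact mul_ne_zero hX0 hY0
  have hYS : S40F2S_IsU S.O Y := by rw [← hO₂]; exact hY
  induction s using Finset.induction_on generalizing u n with
  | empty =>
    simp only [Finset.prod_empty, mul_one, Finset.sum_empty, zero_sub] at hu ⊢
    subst hu
    have hgP : S40F2SN_NoZP N (u / (c₁ * X ^ n)) :=
      S40F2SN_noZP_div N hu'P
        (S40F2SN_noZP_mul N (S40F2SN_noZP_const N hc₁ hc₁0) (S40F2SN_noZP_zpow N hXP n))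
    obtain ⟨hgU, hg0⟩ := S40NT2_nu_glue S v N hO₂ hε hfin hu₁ hgP
    have h1 : u / (c₁ * ϖ ^ n) = u / (c₁ * X ^ n) * (Y ^ n)⁻¹ := by
      rw [← hXY, mul_zpow]
      have h1 : X ^ n ≠ 0 := zpow_ne_zero _ hX0
      have h2 : Y ^ n ≠ 0 := zpow_ne_zero _ hY0
      field_simp
    rw [h1]
    refine ⟨hgU.mul (hYS.zpow n).inv, ?_⟩
    rw [S40NT2_nu_mul S v hgU (hYS.zpow n).inv, S40NT2_nu_inv S v (hYS.zpow n),
      S40NT2_nu_zpow S v hYS, hg0, hordY]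
    ring
  | insert j t hjt ih =>
    have hwj0 : w j ≠ 0 := hw0 j (Finset.mem_insert_self j t)
    have hl₁ := S40F2SN_lin₁ N hX (hw₁ j (Finset.mem_insert_self j t))
    obtain ⟨hl₂U, hl₂0⟩ := S40NT2_lin₂ S v N hO₂ hXY hY hwj0
      (hw₂ j (Finset.mem_insert_self j t))
    have hlin0 : X - w j ≠ 0 := by
      intro h
      have := hl₁.1.ne_zero
      rw [h, zero_div] at this
      exact this rfl
    rw [Finset.prod_insert hjt] at hu ⊢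
    rw [Finset.sum_insert hjt]
    have hA : (X - w j) ^ e j ≠ 0 := zpow_ne_zero _ hlin0
    have hB : X ^ e j ≠ 0 := zpow_ne_zero _ hX0
    have hD : X ^ n ≠ 0 := zpow_ne_zero _ hX0
    have hW : w j ^ e j ≠ 0 := zpow_ne_zero _ hwj0
    have hE : ϖ ^ n ≠ 0 := zpow_ne_zero _ hϖ0
    have hG : ϖ ^ e j ≠ 0 := zpow_ne_zero _ hϖ0
    have key := ih
      (fun i hi => hw0 i (Finset.mem_insert_of_mem hi))
      (fun i hi => hw₁ i (Finset.mem_insert_of_mem hi))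
      (fun i hi => hw₂ i (Finset.mem_insert_of_mem hi))
      (u := u' * ∏ i ∈ t, (X - w i) ^ e i) rfl (n - e j) ?_
    · obtain ⟨kU, k0⟩ := key
      have e1 : u / (c₁ * ϖ ^ n * ((w j / ϖ) ^ e j * ∏ i ∈ t, (w i / ϖ) ^ e i)) =
          (u' * ∏ i ∈ t, (X - w i) ^ e i) /
              (c₁ * ϖ ^ (n - e j) * ∏ i ∈ t, (w i / ϖ) ^ e i) *
            ((X - w j) / w j) ^ e j := by
        rw [hu, zpow_sub₀ hϖ0, div_zpow, div_zpow]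
        field_simp
      rw [e1]
      refine ⟨kU.mul (hl₂U.zpow _), ?_⟩
      rw [S40NT2_nu_mul S v kU (hl₂U.zpow _), S40NT2_nu_zpow S v hl₂U, k0, hl₂0]
      ring
    · have e2 : (u' * ∏ i ∈ t, (X - w i) ^ e i) / (c₁ * X ^ (n - e j)) =
          u / (c₁ * X ^ n) * (((X - w j) / X) ^ e j)⁻¹ := by
        rw [hu, zpow_sub₀ hX0, div_zpow]
        field_simp
      rw [e2]
      exact S40F2SN_u1_mul N hu₁ (S40F2SN_u1_inv N (S40F2SN_u1_zpow N hl₁ _))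

/-- the constant `∏ (w i / ϖ) ^ (p m i)`. -/
theorem S40NT2_prod_const {ι : Type*} (s : Finset ι) (w : ι → F) (m : ι → ℤ) (p : ℕ) {ϖ : F}
    (hϖL : ϖ ∈ (algebraMap L F).fieldRange)
    (hWL : ∏ i ∈ s, w i ^ m i ∈ (algebraMap L F).fieldRange) :
    ∏ i ∈ s, (w i / ϖ) ^ ((p : ℤ) * m i) ∈ (algebraMap L F).fieldRange := by
  have e : ∀ i ∈ s, (w i / ϖ) ^ ((p : ℤ) * m i) =
      (w i ^ m i) ^ p * (ϖ ^ ((p : ℤ) * m i))⁻¹ := by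
    intro i _
    have h1 : w i ^ ((p : ℤ) * m i) = (w i ^ m i) ^ p := by
      rw [mul_comm, zpow_mul, zpow_natCast]
    rw [div_zpow, h1, div_eq_mul_inv]
  rw [Finset.prod_congr rfl e, Finset.prod_mul_distrib, Finset.prod_pow]
  exact mul_mem (pow_mem hWL p) (prod_mem fun i _ => inv_mem (zpow_mem hϖL _))

/-- **the order at the second end**: `ord_v (red₂ (u / c₂)) = p Σ m i − n`. -/
theorem S40NT2_ord (hO₂ : N.O₂ = S.O)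
    (hε : ∀ (f : F) (hf : f ∈ N.Lam) (hfO : f ∈ S.O),
      N.ε ⟨f, hf⟩ ≠ 0 → v.ord (S.red ⟨f, hfO⟩) = 0)
    (hfin : ∀ g : F, {Q : S40NA_Pt L F | Q ∈ N.U ∧ g ∉ Q.P}.Finite)
    {X Y ϖ : F} (hXY : X * Y = ϖ) (hX : S40F2S_IsU N.O₁ X) (hY : S40F2S_IsU N.O₂ Y)
    (hXP : S40F2SN_NoZP N X) (hϖL : ϖ ∈ (algebraMap L F).fieldRange)
    (hordY : S40NT2_nu S v Y = 1)
    {ι : Type*} (s : Finset ι) (w : ι → F) (m : ι → ℤ)
    (hw0 : ∀ i ∈ s, w i ≠ 0)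
    (hw₁ : ∀ i ∈ s, w i ∈ N.O₁.nonunits) (hw₂ : ∀ i ∈ s, ϖ / w i ∈ N.O₂.nonunits)
    {u' c₁ : F} (hc₁ : c₁ ∈ (algebraMap L F).fieldRange) (hc₁0 : c₁ ≠ 0)
    (hu'P : S40F2SN_NoZP N u') (p : ℕ)
    {u : F} (hu : u = u' * ∏ i ∈ s, (X - w i) ^ ((p : ℤ) * m i))
    (hWL : ∏ i ∈ s, w i ^ m i ∈ (algebraMap L F).fieldRange)
    {c₂ : F} (hc₂ : c₂ ∈ (algebraMap L F).fieldRange) (hc₂0 : c₂ ≠ 0) (n : ℤ)
    (hu₁ : S40F2SN_U1 N (u / (c₁ * X ^ n))) (hu₂ : S40F2S_IsU N.O₂ (u / c₂)) :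
    S40NT2_nu S v (u / c₂) = (p : ℤ) * ∑ i ∈ s, m i - n := by
  obtain ⟨hU, h0⟩ := S40NT2_ord_aux S v N hO₂ hε hfin hXY hX hY hXP hordY s w
    (fun i => (p : ℤ) * m i) hw0 hw₁ hw₂ hc₁ hc₁0 hu'P hu n hu₁
  have hκL : c₁ * ϖ ^ n * ∏ i ∈ s, (w i / ϖ) ^ ((p : ℤ) * m i) ∈
      (algebraMap L F).fieldRange :=
    mul_mem (mul_mem hc₁ (zpow_mem hϖL n)) (S40NT2_prod_const s w m p hϖL hWL)
  set κ₀ : F := c₁ * ϖ ^ n * ∏ i ∈ s, (w i / ϖ) ^ ((p : ℤ) * m i) with hκ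
  have hu₂S : S40F2S_IsU S.O (u / c₂) := by rw [← hO₂]; exact hu₂
  have hκ0 : κ₀ ≠ 0 := by
    intro h
    rw [h, div_zero] at hU
    exact hU.ne_zero rfl
  have hu0 : u ≠ 0 := by
    intro h
    rw [h, zero_div] at hU
    exact hU.ne_zero rfl
  have e : u / c₂ = u / κ₀ * (κ₀ / c₂) := by field_simp
  have hκU : S40F2S_IsU S.O (κ₀ / c₂) := by
    have e' : κ₀ / c₂ = u / c₂ / (u / κ₀) := by field_simp
    rw [e']
    exact hu₂S.div hU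
  rw [e, S40NT2_nu_mul S v hU hκU, h0, S40NT2_nu_const S v (div_mem hκL hc₂) hκU, add_zero,
    Finset.mul_sum]

/-- **(T₂-NODE)**: if `p ∣ n` (the slope of `u` at the first end), then `p` divides the order
of `red₂ (u / c₂)` at the node. -/
theorem S40NT2_dvd (hO₂ : N.O₂ = S.O)
    (hε : ∀ (f : F) (hf : f ∈ N.Lam) (hfO : f ∈ S.O),
      N.ε ⟨f, hf⟩ ≠ 0 → v.ord (S.red ⟨f, hfO⟩) = 0)
    (hfin : ∀ g : F, {Q : S40NA_Pt L F | Q ∈ N.U ∧ g ∉ Q.P}.Finite)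
    {X Y ϖ : F} (hXY : X * Y = ϖ) (hX : S40F2S_IsU N.O₁ X) (hY : S40F2S_IsU N.O₂ Y)
    (hXP : S40F2SN_NoZP N X) (hϖL : ϖ ∈ (algebraMap L F).fieldRange)
    (hordY : S40NT2_nu S v Y = 1)
    {ι : Type*} (s : Finset ι) (w : ι → F) (m : ι → ℤ)
    (hw0 : ∀ i ∈ s, w i ≠ 0)
    (hw₁ : ∀ i ∈ s, w i ∈ N.O₁.nonunits) (hw₂ : ∀ i ∈ s, ϖ / w i ∈ N.O₂.nonunits)
    {u' c₁ : F} (hc₁ : c₁ ∈ (algebraMap L F).fieldRange) (hc₁0 : c₁ ≠ 0)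
    (hu'P : S40F2SN_NoZP N u') (p : ℕ)
    {u : F} (hu : u = u' * ∏ i ∈ s, (X - w i) ^ ((p : ℤ) * m i))
    (hWL : ∏ i ∈ s, w i ^ m i ∈ (algebraMap L F).fieldRange)
    {c₂ : F} (hc₂ : c₂ ∈ (algebraMap L F).fieldRange) (hc₂0 : c₂ ≠ 0) (n : ℤ)
    (hu₁ : S40F2SN_U1 N (u / (c₁ * X ^ n))) (hu₂ : S40F2S_IsU N.O₂ (u / c₂))
    (hpn : (p : ℤ) ∣ n) (hmem : u / c₂ ∈ S.O) :
    (p : ℤ) ∣ v.ord (S.red ⟨u / c₂, hmem⟩) := by
  rw [← S40NT2_nu_eq S v hmem,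
    S40NT2_ord S v N hO₂ hε hfin hXY hX hY hXP hϖL hordY s w m hw0 hw₁ hw₂ hc₁ hc₁0 hu'P p hu
      hWL hc₂ hc₂0 n hu₁ hu₂]
  exact dvd_sub (dvd_mul_right _ _) hpn

end node

end Fermat.Agent.S40
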