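import Mathlib

/-!
# TRACK 13 (S40), package EG-f₀ (helper3), part 2 (Mathlib only): base change of the norm.
Prefix `S40NB_`.

A commutative square of fields
```
  F  ──algebraMap──▶ E
  │i                 │i'
  ▼                  ▼
  F' ──algebraMap──▶ E'
```
with `[E : F] = [E' : F']` finite and `E' = F'[i'(E)]` (the compositum) is a base change:

* `S40NB_span` : an `F`-basis of `E` spans `E'` over `F'`;
* `S40NB_norm` : `N_{E'/F'} (i' x) = i (N_{E/F} x)` for `x ∈ E`.
-/

set_option autoImplicit false
set_option linter.unusedSectionVars false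

open Module

namespace Fermat.Agent.S40

variable {F E F' E' : Type*} [Field F] [Field E] [Field F'] [Field E']
  [Algebra F E] [Algebra F' E']

/-- the image of `i'` lies in the `F'`-span of the image of an `F`-basis. -/
theorem S40NB_range_le {ι : Type*} [Fintype ι] (b : Basis ι F E) (i : F →+* F') (i' : E →+* E')
    (hcomm : ∀ a : F, i' (algebraMap F E a) = algebraMap F' E' (i a)) (e : E) :
    i' e ∈ Submodule.span F' (Set.range (fun k => i' (b k))) := by
  rw [← b.sum_repr e, map_sum]
  refine Submodule.sum_mem _ fun k _ => ?_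
  rw [Algebra.smul_def, map_mul, hcomm, ← Algebra.smul_def]
  exact Submodule.smul_mem _ _ (Submodule.subset_span ⟨k, rfl⟩)

/-- an `F`-basis of `E` spans the compositum `E'` over `F'`. -/
theorem S40NB_span {ι : Type*} [Fintype ι] (b : Basis ι F E) (i : F →+* F') (i' : E →+* E')
    (hcomm : ∀ a : F, i' (algebraMap F E a) = algebraMap F' E' (i a))
    (hgen : Algebra.adjoin F' (Set.range i') = ⊤) :
    Submodule.span F' (Set.range (fun k => i' (b k))) = ⊤ := by
  have h1 : (Algebra.adjoin F' (Set.range i')).toSubmodule =
      Submodule.span F' (Set.range i') := by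
    rw [Algebra.adjoin_eq_span]
    congr 1
    have : (Set.range i' : Set E') = ((MonoidHom.mrange (i' : E →* E') : Submonoid E') : Set E') := by
      ext y
      simp
    rw [this, Submonoid.closure_eq]
  have h2 : Submodule.span F' (Set.range i') ≤
      Submodule.span F' (Set.range (fun k => i' (b k))) := by
    rw [Submodule.span_le]
    rintro _ ⟨e, rfl⟩
    exact S40NB_range_le b i i' hcomm e
  rw [hgen] at h1
  rw [eq_top_iff]
  calc (⊤ : Submodule F' E') = (⊤ : Subalgebra F' E').toSubmodule := by simp
    _ = Submodule.span F' (Set.range i') := h1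
    _ ≤ _ := h2

variable [FiniteDimensional F E] [FiniteDimensional F' E']

/-- **base change of the norm**: `N_{E'/F'} (i' x) = i (N_{E/F} x)`. -/
theorem S40NB_norm (i : F →+* F') (i' : E →+* E')
    (hcomm : ∀ a : F, i' (algebraMap F E a) = algebraMap F' E' (i a))
    (hrank : Module.finrank F E = Module.finrank F' E')
    (hgen : Algebra.adjoin F' (Set.range i') = ⊤) (x : E) :
    Algebra.norm F' (i' x) = i (Algebra.norm F x) := by
  classical
  let b : Basis (Fin (finrank F E)) F E := Module.finBasis F E
  have hspan := S40NB_span b i i' hcomm hgen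
  have hcard : Fintype.card (Fin (finrank F E)) = finrank F' E' := by
    rw [Fintype.card_fin, hrank]
  let b' : Basis (Fin (finrank F E)) F' E' :=
    basisOfTopLeSpanOfCardEqFinrank (fun k => i' (b k)) hspan.ge hcard
  have hb' : ∀ k, b' k = i' (b k) := fun k => by
    simp [b']
  rw [Algebra.norm_eq_matrix_det b', Algebra.norm_eq_matrix_det b, RingHom.map_det]
  congr 1
  ext j k
  rw [Algebra.leftMulMatrix_eq_repr_mul, RingHom.mapMatrix_apply, Matrix.map_apply,
    Algebra.leftMulMatrix_eq_repr_mul]
  have h : i' x * b' k = ∑ j, i (b.repr (x * b k) j) • b' j := by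
    rw [hb', ← map_mul]
    conv_lhs => rw [← b.sum_repr (x * b k)]
    rw [map_sum]
    refine Finset.sum_congr rfl fun j _ => ?_
    rw [Algebra.smul_def, map_mul, hcomm, hb', Algebra.smul_def]
  rw [h, b'.repr_sum_self]

end Fermat.Agent.S40
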