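import Fermat.Agent.S40.F2PFib

/-!
# TRACK 13 (S40/S44), (D-ORD): the COVER lemma (helper18).  Prefix `S40OC_`.

Every place of the first component `C₁` is a cusp (pole of `j̄`), a node (`P i`) or ORDINARY, where
"ordinary" can be read as "`red₁ φ₀` (`φ₀ = f₀⁻¹`) is a unit at `v`":

* `S40OC_pow_V2`      : `red₂ t = 0 ⇒ V2 n (t ^ n)` (abstract, in a `S40F2PB_Fib`);
* **`S40OC_phi_unit`** : abstract form: `v ∉ cusps₁`, `v ≠ P i` for all `i` ⇒ `ord_v (red₁ φ₀) = 0`;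
* `S40OC_phi_pos`     : at a node, `0 < ord_{P i} (red₁ φ₀)` (so the zeros of `red₁ φ₀` off the cusps
  are EXACTLY the nodes);
* **`S40OC_cover`**    : the concrete objects of TRACK 11/13 (`Λ = S33NX_Lam`, `φ₀ = S40F2PV_phiL`,
  nodes of `S40NP_canon`): for a place `v` of `F̄` with `0 ≤ ord_v j̄` and `v ≠ P i` for all `i`,
  `ord_v (red₁ φ₀) = 0`;  `S40OC_node_pos` : `0 < ord_{P i} (red₁ φ₀)`.
-/

set_option autoImplicit false
set_option synthInstance.maxHeartbeats 400000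
set_option maxHeartbeats 1000000
set_option linter.unusedSectionVars false
set_option linter.unusedVariables false
set_option linter.style.haveILetI false

open HahnSeries IntermediateField AlgebraicCurve ModularCurve

noncomputable section

namespace Fermat.Agent.S40

open Fermat.Agent.Lib Fermat.Agent.S17 Fermat.Agent.S18 Fermat.Agent.S24 Fermat.Agent.S34
  Fermat.Agent.S36 Fermat.Agent.GalRep Fermat.Agent.S33

local notation "Ω" => AlgebraicClosure ℚ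

/-! ### abstract form -/

section abs

variable {k F₁ F₂ Λ ι : Type*} [Field k] [Field F₁] [Field F₂] [Algebra k F₁]
  [Algebra k F₂] [CommRing Λ] [Fintype ι] [Infinite k]

/-- `red₂ t = 0 ⇒ V₂(t ^ n) ≥ n`. -/
theorem S40OC_pow_V2 (H : S40F2PB_Fib k F₁ F₂ Λ ι) (t : Λ) (ht : H.red₂ t = 0) (n : ℕ) :
    H.V2 (n + 1) (t ^ (n + 1)) := by
  induction n with
  | zero =>
    rw [zero_add, pow_one]
    exact H.V2_one t ht
  | succ n ih =>
    rw [pow_succ]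
    exact H.V2_mul (n + 1) 1 _ _ ih (H.V2_one t ht)

/-- **COVER, abstract**: off the cusps and the nodes, `red₁ φ₀` is a unit. -/
theorem S40OC_phi_unit (H : S40F2PB_Fib k F₁ F₂ Λ ι) (v : Place k F₁) (hv : v ∉ H.cusps₁)
    (hvn : ∀ i, v ≠ H.P i) : v.ord (H.red₁ H.φ₀) = 0 := by
  obtain ⟨t, ht₂, ht₁, ht⟩ := S40F2PE_ex_ord₁ H.red₁ H.red₂ H.rr₁ H.cusps₁ H.c₁ H.hc₁ H.P
    H.P_not_cusp H.lift₁ v hv hvn
  have hV : H.V2 (12 + 0) (t ^ 12) := S40OC_pow_V2 H t ht₂ 11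
  obtain ⟨h', e, -⟩ := H.div₀ 0 (t ^ 12) hV
  have e₁ : H.red₁ t ^ 12 = H.red₁ h' * H.red₁ H.φ₀ := by
    rw [← map_pow, e, map_mul]
  have hh'0 : H.red₁ h' ≠ 0 := by
    intro h0
    rw [h0, zero_mul] at e₁
    exact ht₁ (pow_eq_zero_iff (by norm_num) |>.1 e₁)
  have hord : v.ord (H.red₁ t ^ 12) = v.ord (H.red₁ h') + v.ord (H.red₁ H.φ₀) := by
    rw [e₁, v.ord_mul hh'0 H.φ₀_ne]
  rw [S36RC_ord_pow, ht, mul_zero] at hord
  have h1 := H.reg₁ h' v hv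
  have h2 := H.reg₁ H.φ₀ v hv
  omega

/-- at a node, `red₁ φ₀` vanishes. -/
theorem S40OC_phi_pos (H : S40F2PB_Fib k F₁ F₂ Λ ι) (i : ι) :
    0 < (H.P i).ord (H.red₁ H.φ₀) := by
  have h := (H.compat i H.φ₀).2 (Or.inl H.φ₀_red₂)
  rcases h with h0 | hpos
  · exact absurd h0 H.φ₀_ne
  · exact hpos

end abs

/-! ### the concrete objects -/

section inst

variable (M p : ℕ) [NeZero (M * p)] [NeZero p] (hp : p.Prime) (hpM : ¬ p ∣ M)
  (A : ValuationSubring Ω) (hA : A.LiesOverPrime p)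
  (hgen : PrincipalGeneratedByIntegral A (IsLocalRing.residue A) (M * p))
  (H : Subgroup (Ω ≃ₐ[ℚ] Ω)) (hH : H ≤ A.inertiaSubgroupIn ℚ)
  (hU : S33NL2_Unif A H (p : Ω))
  {s : ℕ}
  (e₁ : Fin s → ↥(S34M_chart M p A 1 Nat.one_pos).Rb₁ →ₐ[IsLocalRing.ResidueField A]
    IsLocalRing.ResidueField A)
  (e₂ : Fin s → ↥(S34M_chart M p A 1 Nat.one_pos).Rb₂ →ₐ[IsLocalRing.ResidueField A]
    IsLocalRing.ResidueField A)
  (P P' : Fin s → Place (IsLocalRing.ResidueField A)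
    ↥(modularFunctionFieldFullC (IsLocalRing.ResidueField A) (M * p)))
  (hE : Function.Surjective (S34B_E e₁ e₂))
  (hW1 : S34K_W (S34M_same M p hp hpM A hgen) (S34M_chart M p A 1 Nat.one_pos) 1 =
    S34B_W e₁ e₂)
  (hP : ∀ i, 0 ≤ (P i).ord (S34M_xb M p A))
  (hP' : ∀ i, 0 ≤ (P' i).ord (S34M_xb M p A ^ p))
  (he₁ : ∀ i (a : ↥(S34M_chart M p A 1 Nat.one_pos).Rb₁), e₁ i a = FD_c0 (P i) (a : _))
  (he₂ : ∀ i (b : ↥(S34M_chart M p A 1 Nat.one_pos).Rb₂), e₂ i b = FD_c0 (P' i) (b : _))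

include hA hH hU hE hW1 hP hP' he₁ he₂ in
/-- **COVER**: a place of `C₁` where `j̄` is regular and which is not a node is ORDINARY:
`red₁ φ₀` (`φ₀ = f₀⁻¹`) is a unit there. -/
theorem S40OC_cover (v : Place (IsLocalRing.ResidueField A)
      ↥(modularFunctionFieldFullC (IsLocalRing.ResidueField A) (M * p)))
    (hv : 0 ≤ v.ord (S34M_xb M p A)) (hvn : ∀ i, v ≠ P i) :
    v.ord (S40F2PV_red₁ M p hp hpM A hgen H (S40F2PV_phiL M p hp hpM A hA hgen H)) = 0 := by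
  haveI : IsAlgClosed (IsLocalRing.ResidueField A) := S18_residue_isAlgClosed A
  haveI : Infinite (IsLocalRing.ResidueField A) := IsAlgClosed.instInfinite
  obtain ⟨c₁, hc₁⟩ := S40NP_pole₁ M p hp hpM A hA
  obtain ⟨c₂, hc₂⟩ := S40NP_pole₂ M p hp hpM A hA
  exact S40OC_phi_unit (S40F2PF_fib M p hp hpM A hA hgen H hH hU e₁ e₂ P P' hE hW1 hP hP'
    he₁ he₂ c₁ c₂ hc₁ hc₂) v
    (show v ∉ S40F2PI_cusps (S40F2PF_hk M p hp hpM A hA).principal (S34M_xb M p A) from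
      (S40F2PI_not_mem_cusps _ _ _).2 hv) hvn

include hA hH hU hE hW1 hP hP' he₁ he₂ in
/-- at a node, `red₁ φ₀` vanishes. -/
theorem S40OC_node_pos (i : Fin s) :
    0 < (P i).ord (S40F2PV_red₁ M p hp hpM A hgen H (S40F2PV_phiL M p hp hpM A hA hgen H)) := by
  haveI : IsAlgClosed (IsLocalRing.ResidueField A) := S18_residue_isAlgClosed A
  haveI : Infinite (IsLocalRing.ResidueField A) := IsAlgClosed.instInfinite
  obtain ⟨c₁, hc₁⟩ := S40NP_pole₁ M p hp hpM A hA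
  obtain ⟨c₂, hc₂⟩ := S40NP_pole₂ M p hp hpM A hA
  exact S40OC_phi_pos (S40F2PF_fib M p hp hpM A hA hgen H hH hU e₁ e₂ P P' hE hW1 hP hP'
    he₁ he₂ c₁ c₂ hc₁ hc₂) i

include hA hH hU hE hW1 hP hP' he₁ he₂ in
/-- **trichotomy**: every place of `C₁` is a cusp, a node, or ordinary. -/
theorem S40OC_trichotomy (v : Place (IsLocalRing.ResidueField A)
      ↥(modularFunctionFieldFullC (IsLocalRing.ResidueField A) (M * p))) :
    v.ord (S34M_xb M p A) < 0 ∨ (∃ i, v = P i) ∨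
      (0 ≤ v.ord (S34M_xb M p A) ∧
        v.ord (S40F2PV_red₁ M p hp hpM A hgen H (S40F2PV_phiL M p hp hpM A hA hgen H)) = 0) := by
  by_cases hv : v.ord (S34M_xb M p A) < 0
  · exact Or.inl hv
  by_cases hn : ∃ i, v = P i
  · exact Or.inr (Or.inl hn)
  · refine Or.inr (Or.inr ⟨not_lt.1 hv, ?_⟩)
    exact S40OC_cover M p hp hpM A hA hgen H hH hU e₁ e₂ P P' hE hW1 hP hP' he₁ he₂ v
      (not_lt.1 hv) (fun i hi => hn ⟨i, hi⟩)

end inst

end Fermat.Agent.S40
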