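import Mathlib

/-!
# TRACK 13 (S40), package P7 = (P-T) FIX (helper12): first-order trivialisation of a new, normalised
Kummer generator by a CONSTANT — abstract form.  Prefix `S40PT_`.  Mathlib only.

`F` a field (the function field of `X₀(pM')` over the constants fixed by `I¹`), `O`, `O₁`, `O₂`
subrings (the rational Gauss valuation rings), `π ∈ F` the uniformiser `π_F` of the constants,
`p` a prime with `p · π ∈ π ^ n · O` and `n ≤ p` (in the application `p = π ^ (p - 1) · unit`, so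
every `n ≤ p` is allowed; helper1's first-order route needs `n = 2`).

* `S40PT_Div O π n x`       : `x ∈ π ^ n · O`;
* `S40PT_pow`               : `(1 + π g) ^ p ∈ 1 + π ^ n · O` for `g ∈ O`;
* `S40PT_of_NE`             : the norm estimate (NE) of TRACK 11 at `a = π`
                              (`N / u − 1 ∈ p π O + π ^ p O`) gives `N − u ∈ π ^ n · O`;
* **`S40PT_main`**          : `u ∈ O`, (NE) for `N`, `N = c · H ^ p` (newness), `H = a (1 + π g)`,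
                              `g ∈ O`, `c a ^ p ∈ O`  ⇒  `u − c a ^ p ∈ π ^ n · O`:
                              the generator is CONSTANT modulo `π ^ n` at the valuation `O`;
* **`S40PT_glue`**          : the two constants `b₁` (at `O₁`) and `b₂` (at `O₂`) agree modulo `π ^ n`,
                              from saturation of a lattice `Λ ≤ O₁ ⊓ O₂` and the zeroth-order node
                              agreement for constants (TRACK 7);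
* **`S40PT_const`**         : all together: ONE constant `b` with `u − b ∈ π ^ n · O₁` and
                              `u − b ∈ π ^ n · O₂`.
-/

set_option autoImplicit false

namespace Fermat.Agent.S40

variable {F : Type*} [Field F]

/-- `x ∈ π ^ n · O`. -/
def S40PT_Div (O : Subring F) (π : F) (n : ℕ) (x : F) : Prop := ∃ t ∈ O, x = π ^ n * t

theorem S40PT_Div_zero (O : Subring F) (π : F) (n : ℕ) : S40PT_Div O π n 0 :=
  ⟨0, O.zero_mem, by rw [mul_zero]⟩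

theorem S40PT_Div_add {O : Subring F} {π : F} {n : ℕ} {x y : F} (hx : S40PT_Div O π n x)
    (hy : S40PT_Div O π n y) : S40PT_Div O π n (x + y) := by
  obtain ⟨s, hs, rfl⟩ := hx
  obtain ⟨t, ht, rfl⟩ := hy
  exact ⟨s + t, O.add_mem hs ht, by ring⟩

theorem S40PT_Div_neg {O : Subring F} {π : F} {n : ℕ} {x : F} (hx : S40PT_Div O π n x) :
    S40PT_Div O π n (-x) := by
  obtain ⟨s, hs, rfl⟩ := hx
  exact ⟨-s, O.neg_mem hs, by ring⟩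

theorem S40PT_Div_sub {O : Subring F} {π : F} {n : ℕ} {x y : F} (hx : S40PT_Div O π n x)
    (hy : S40PT_Div O π n y) : S40PT_Div O π n (x - y) := by
  rw [sub_eq_add_neg]
  exact S40PT_Div_add hx (S40PT_Div_neg hy)

theorem S40PT_Div_mul_left {O : Subring F} {π : F} {n : ℕ} {x : F} (y : F) (hy : y ∈ O)
    (hx : S40PT_Div O π n x) : S40PT_Div O π n (y * x) := by
  obtain ⟨s, hs, rfl⟩ := hx
  exact ⟨y * s, O.mul_mem hy hs, by ring⟩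

theorem S40PT_Div_mono {O : Subring F} {π : F} (hπ : π ∈ O) {n n' : ℕ} (h : n ≤ n') {x : F}
    (hx : S40PT_Div O π n' x) : S40PT_Div O π n x := by
  obtain ⟨t, ht, rfl⟩ := hx
  obtain ⟨d, rfl⟩ := Nat.exists_eq_add_of_le h
  exact ⟨π ^ d * t, O.mul_mem (O.pow_mem hπ d) ht, by rw [pow_add]; ring⟩

theorem S40PT_Div_le {O O' : Subring F} (h : O ≤ O') {π : F} {n : ℕ} {x : F}
    (hx : S40PT_Div O π n x) : S40PT_Div O' π n x := by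
  obtain ⟨t, ht, rfl⟩ := hx
  exact ⟨t, h ht, rfl⟩

/-- cancellation of one `π`. -/
theorem S40PT_Div_cancel {O : Subring F} {π : F} (hπ0 : π ≠ 0) {n : ℕ} {x : F}
    (hx : S40PT_Div O π (n + 1) (π * x)) : S40PT_Div O π n x := by
  obtain ⟨t, ht, e⟩ := hx
  refine ⟨t, ht, ?_⟩
  have : π * x = π * (π ^ n * t) := by rw [e, pow_succ]; ring
  exact mul_left_cancel₀ hπ0 this

/-- `(1 + π g) ^ p ∈ 1 + π ^ n · O` for `g ∈ O`, if `p · π ∈ π ^ n · O` and `n ≤ p`. -/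
theorem S40PT_pow (O : Subring F) (π : F) (hπ : π ∈ O) {p : ℕ} (hp : p.Prime) {n : ℕ}
    (hn : n ≤ p) (hpπ : S40PT_Div O π n ((p : F) * π)) (g : F) (hg : g ∈ O) :
    S40PT_Div O π n ((1 + π * g) ^ p - 1) := by
  -- the binomial identity inside the ring `O`
  obtain ⟨r, hr⟩ := exists_add_pow_prime_eq hp (1 : O) (⟨π, hπ⟩ * ⟨g, hg⟩ : O)
  have hr' : (1 + π * g) ^ p =
      1 + (π * g) ^ p + (p : F) * (1 * (π * g)) * (r : F) := by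
    have := congrArg (Subring.subtype O) hr
    simpa [one_pow] using this
  have e1 : (1 + π * g) ^ p - 1 = (π * g) ^ p + ((p : F) * π) * (g * (r : F)) := by
    rw [hr']; ring
  rw [e1]
  refine S40PT_Div_add ?_ ?_
  · obtain ⟨d, rfl⟩ := Nat.exists_eq_add_of_le hn
    exact ⟨π ^ d * g ^ (n + d), O.mul_mem (O.pow_mem hπ d) (O.pow_mem hg _), by
      rw [mul_pow, pow_add]; ring⟩
  · have := S40PT_Div_mul_left (g * (r : F)) (O.mul_mem hg r.2) hpπ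
    rwa [mul_comm] at this

/-- the norm estimate (NE) of TRACK 11 at `a = π` gives `N − u ∈ π ^ n · O`. -/
theorem S40PT_of_NE (O : Subring F) (π : F) (hπ : π ∈ O) {p : ℕ} {n : ℕ} (hn : n ≤ p)
    (hpπ : S40PT_Div O π n ((p : F) * π)) (u N : F) (hu : u ∈ O) (hu0 : u ≠ 0)
    (hNE : ∃ l₁ ∈ O, ∃ l₂ ∈ O, N / u - 1 = ((p : F) * π) * l₁ + π ^ p * l₂) :
    S40PT_Div O π n (N - u) := by
  obtain ⟨l₁, hl₁, l₂, hl₂, e⟩ := hNE
  have e1 : N - u = u * (((p : F) * π) * l₁ + π ^ p * l₂) := by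
    rw [← e]; field_simp
  rw [e1]
  refine S40PT_Div_mul_left u hu (S40PT_Div_add ?_ ?_)
  · have := S40PT_Div_mul_left l₁ hl₁ hpπ
    rwa [mul_comm] at this
  · obtain ⟨d, rfl⟩ := Nat.exists_eq_add_of_le hn
    exact ⟨π ^ d * l₂, O.mul_mem (O.pow_mem hπ d) hl₂, by rw [pow_add]; ring⟩

/-- **(P-T), one valuation**: a normalised generator `u` whose norm `N` (with `N ≡ u` by (NE)) is
`c · H ^ p` with `H ≡ a` modulo `π` is CONSTANT modulo `π ^ n`: `u − c a ^ p ∈ π ^ n · O`. -/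
theorem S40PT_main (O : Subring F) (π : F) (hπ : π ∈ O) {p : ℕ} (hp : p.Prime) {n : ℕ}
    (hn : n ≤ p) (hpπ : S40PT_Div O π n ((p : F) * π)) (u N c H a g : F) (hu : u ∈ O)
    (hu0 : u ≠ 0)
    (hNE : ∃ l₁ ∈ O, ∃ l₂ ∈ O, N / u - 1 = ((p : F) * π) * l₁ + π ^ p * l₂)
    (hN : N = c * H ^ p) (hH : H = a * (1 + π * g)) (hg : g ∈ O) (hca : c * a ^ p ∈ O) :
    S40PT_Div O π n (u - c * a ^ p) := by
  have h1 := S40PT_of_NE O π hπ hn hpπ u N hu hu0 hNE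
  have h2 := S40PT_pow O π hπ hp hn hpπ g hg
  have h3 : S40PT_Div O π n (N - c * a ^ p) := by
    have e : N - c * a ^ p = (c * a ^ p) * ((1 + π * g) ^ p - 1) := by
      rw [hN, hH, mul_pow]; ring
    rw [e]
    exact S40PT_Div_mul_left _ hca h2
  have e : u - c * a ^ p = (N - c * a ^ p) - (N - u) := by ring
  rw [e]
  exact S40PT_Div_sub h3 h1

/-- **gluing of the two constants**: if `u ≡ b₁` modulo `π ^ n` at `O₁` and `u ≡ b₂` modulo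
`π ^ n` at `O₂`, then `b₂ ≡ b₁` modulo `π ^ n` in the constants `C`, from
* (sat) saturation of the lattice `Λ ≤ O₁ ⊓ O₂`: divisible by `π` in `O₁` and in `O₂` ⇒ in `Λ`;
* (node) zeroth-order agreement at ONE node, for constants: `w ∈ Λ`, `w ∈ π O₁`,
  `w − c ∈ π O₂`, `c ∈ C` ⇒ `c ∈ π C`. -/
theorem S40PT_glue (O₁ O₂ Λ C : Subring F) (π : F) (hπ0 : π ≠ 0)
    (hΛ₁ : Λ ≤ O₁) (hΛ₂ : Λ ≤ O₂) (hCΛ : C ≤ Λ) (hπC : π ∈ C)
    (hsat : ∀ w ∈ Λ, S40PT_Div O₁ π 1 w → S40PT_Div O₂ π 1 w → S40PT_Div Λ π 1 w)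
    (hnode : ∀ w ∈ Λ, ∀ c ∈ C, S40PT_Div O₁ π 1 w → S40PT_Div O₂ π 1 (w - c) →
      S40PT_Div C π 1 c)
    (n : ℕ) (u b₁ b₂ : F) (hu : u ∈ Λ) (hb₁ : b₁ ∈ C) (hb₂ : b₂ ∈ C)
    (h₁ : S40PT_Div O₁ π n (u - b₁)) (h₂ : S40PT_Div O₂ π n (u - b₂)) :
    S40PT_Div C π n (b₂ - b₁) := by
  -- induction: `b₂ − b₁ = π^k δ`, `u − b₁ = π^k w`, `w ∈ Λ`, `w ∈ π^(n-k) O₁`, `w − δ ∈ π^(n-k) O₂`
  suffices H : ∀ k : ℕ, k ≤ n → ∃ δ ∈ C, ∃ w ∈ Λ, b₂ - b₁ = π ^ k * δ ∧ u - b₁ = π ^ k * w ∧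
      S40PT_Div O₁ π (n - k) w ∧ S40PT_Div O₂ π (n - k) (w - δ) by
    obtain ⟨δ, hδ, -, -, e, -⟩ := H n le_rfl
    exact ⟨δ, hδ, e⟩
  intro k
  induction k with
  | zero =>
    intro _
    refine ⟨b₂ - b₁, C.sub_mem hb₂ hb₁, u - b₁, Λ.sub_mem hu (hCΛ hb₁), by simp, by simp, ?_, ?_⟩
    · simpa using h₁
    · have e : u - b₁ - (b₂ - b₁) = u - b₂ := by ring
      rw [e]
      simpa using h₂
  | succ k ih =>
    intro hk
    obtain ⟨δ, hδ, w, hw, e₁, e₂, hw₁, hw₂⟩ := ih (by omega)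
    obtain ⟨m, hm⟩ : ∃ m, n - k = m + 1 := ⟨n - k - 1, by omega⟩
    have hm' : n - (k + 1) = m := by omega
    rw [hm] at hw₁ hw₂
    have hπ₁ : π ∈ O₁ := hΛ₁ (hCΛ hπC)
    have hπ₂ : π ∈ O₂ := hΛ₂ (hCΛ hπC)
    have hw₁' : S40PT_Div O₁ π 1 w := S40PT_Div_mono hπ₁ (by omega) hw₁
    have hw₂' : S40PT_Div O₂ π 1 (w - δ) := S40PT_Div_mono hπ₂ (by omega) hw₂
    obtain ⟨δ', hδ', eδ⟩ := hnode w hw δ hδ hw₁' hw₂'
    rw [pow_one] at eδ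
    have hw₂'' : S40PT_Div O₂ π 1 w := by
      have : w = (w - δ) + δ := by ring
      rw [this]
      exact S40PT_Div_add hw₂' ⟨δ', hΛ₂ (hCΛ hδ'), by rw [pow_one]; exact eδ⟩
    obtain ⟨w', hw', ew⟩ := hsat w hw hw₁' hw₂''
    rw [pow_one] at ew
    refine ⟨δ', hδ', w', hw', ?_, ?_, ?_, ?_⟩
    · rw [e₁, eδ, pow_succ]; ring
    · rw [e₂, ew, pow_succ]; ring
    · rw [hm']
      apply S40PT_Div_cancel hπ0
      rw [← ew]; exact hw₁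
    · rw [hm']
      apply S40PT_Div_cancel hπ0
      have : π * (w' - δ') = w - δ := by rw [mul_sub, ← ew, ← eδ]
      rw [this]; exact hw₂

/-- **(P-T)**: ONE constant `b` with `u ≡ b` modulo `π ^ n` at both valuations. -/
theorem S40PT_const (O₁ O₂ Λ C : Subring F) (π : F) (hπ0 : π ≠ 0)
    (hΛ₁ : Λ ≤ O₁) (hΛ₂ : Λ ≤ O₂) (hCΛ : C ≤ Λ) (hπC : π ∈ C)
    (hsat : ∀ w ∈ Λ, S40PT_Div O₁ π 1 w → S40PT_Div O₂ π 1 w → S40PT_Div Λ π 1 w)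
    (hnode : ∀ w ∈ Λ, ∀ c ∈ C, S40PT_Div O₁ π 1 w → S40PT_Div O₂ π 1 (w - c) →
      S40PT_Div C π 1 c)
    {p : ℕ} (hp : p.Prime) {n : ℕ} (hn : n ≤ p) (hpπ : S40PT_Div C π n ((p : F) * π))
    (u : F) (hu : u ∈ Λ) (hu0 : u ≠ 0)
    (N₁ c₁ H₁ a₁ g₁ : F)
    (hNE₁ : ∃ l₁ ∈ O₁, ∃ l₂ ∈ O₁, N₁ / u - 1 = ((p : F) * π) * l₁ + π ^ p * l₂)
    (hN₁ : N₁ = c₁ * H₁ ^ p) (hH₁ : H₁ = a₁ * (1 + π * g₁)) (hg₁ : g₁ ∈ O₁)
    (hca₁ : c₁ * a₁ ^ p ∈ C)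
    (N₂ c₂ H₂ a₂ g₂ : F)
    (hNE₂ : ∃ l₁ ∈ O₂, ∃ l₂ ∈ O₂, N₂ / u - 1 = ((p : F) * π) * l₁ + π ^ p * l₂)
    (hN₂ : N₂ = c₂ * H₂ ^ p) (hH₂ : H₂ = a₂ * (1 + π * g₂)) (hg₂ : g₂ ∈ O₂)
    (hca₂ : c₂ * a₂ ^ p ∈ C) :
    ∃ b ∈ C, S40PT_Div O₁ π n (u - b) ∧ S40PT_Div O₂ π n (u - b) := by
  have hC₁ : C ≤ O₁ := hCΛ.trans hΛ₁
  have hC₂ : C ≤ O₂ := hCΛ.trans hΛ₂
  have h₁ := S40PT_main O₁ π (hC₁ hπC) hp hn (S40PT_Div_le hC₁ hpπ) u N₁ c₁ H₁ a₁ g₁ (hΛ₁ hu) hu0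
    hNE₁ hN₁ hH₁ hg₁ (hC₁ hca₁)
  have h₂ := S40PT_main O₂ π (hC₂ hπC) hp hn (S40PT_Div_le hC₂ hpπ) u N₂ c₂ H₂ a₂ g₂ (hΛ₂ hu) hu0
    hNE₂ hN₂ hH₂ hg₂ (hC₂ hca₂)
  have hg := S40PT_glue O₁ O₂ Λ C π hπ0 hΛ₁ hΛ₂ hCΛ hπC hsat hnode n u _ _ hu hca₁ hca₂ h₁ h₂
  refine ⟨c₁ * a₁ ^ p, hca₁, h₁, ?_⟩
  have e : u - c₁ * a₁ ^ p = (u - c₂ * a₂ ^ p) + (c₂ * a₂ ^ p - c₁ * a₁ ^ p) := by ring
  rw [e]
  exact S40PT_Div_add h₂ (S40PT_Div_le hC₂ hg)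

end Fermat.Agent.S40
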