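import Fermat.Agent.S33.NewLocNE
import Fermat.Agent.S40.PT

/-!
# TRACK 13 (S40), package P7 (P-T FIX), the INSTANCE on `X₀(Mp)` over `ℚ̄` (helper12)

Level `M p`, `p ∤ M` prime, `A ⊂ ℚ̄` a valuation ring over `p`, `O₁ = (S34M_T1 …).O`,
`O₂ = (S34M_T2 …).O` the two Gauss valuation rings of `F = ℚ̄(X₀(Mp))` over `A`,
`N₁₂ = α ∘ N_α = S33N0B_N12`, `N₂₁ = β ∘ N_β = S33N0B_N21`.  Prefix `S40PTI_`.

The abstract package `S40/PT.lean` is applied to the norm estimates `(NE₁)`, `(NE₂)` which are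
proved on main (`S33NEZ_NE1`, `S33NEZ_NE2`):

* `S40PTI_V1` : START at `V₂` (`u − 1 ∈ π O₂`), `u ∈ O₁`, newness `N₁₂ u = c · H ^ p`,
  `H = a₀ (1 + π g)` with `g ∈ O₁` ⇒ `u − c a₀ ^ p ∈ π ^ n O₁` for every `n ≤ p` with
  `p π ∈ π ^ n A`;
* `S40PTI_V2` : the same with the roles of `V₁`, `V₂` exchanged (`N₂₁`, `(NE₂)`);
* `S40PTI_V1_dep`, `S40PTI_V2_dep` : the conclusion in the form of a depth
  (`S33N0_Dep … (π ^ n)`) of `u / (c a₀ ^ p)` when `c a₀ ^ p` is a unit of `A`: this is the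
  form in which the result is fed into `(NE₂)` resp. `(NE₁)` again.

The two hypotheses which are NOT free (helper17's note): the newness relation with an `H` which
is `π`-close to a constant at the valuation ring where the conclusion is drawn.
-/

set_option autoImplicit false
set_option synthInstance.maxHeartbeats 400000
set_option maxHeartbeats 1000000
set_option linter.unusedSectionVars false
set_option linter.unusedVariables false
set_option linter.style.haveILetI false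

open HahnSeries IntermediateField AlgebraicCurve ModularCurve

noncomputable section

namespace Fermat.Agent.S40

open Fermat.Agent.S18 Fermat.Agent.Lib Fermat.Agent.GalRep Fermat.Agent.S24 Fermat.Agent.S34
  Fermat.Agent.S35 Fermat.Agent.S36 Fermat.Agent.S33

local notation "Ω" => AlgebraicClosure ℚ

section inst

variable (M p : ℕ) [NeZero (M * p)] (hp : p.Prime) (hpM : ¬ p ∣ M)
  (A : ValuationSubring Ω) (hA : A.LiesOverPrime p)
  (hgen : PrincipalGeneratedByIntegral A (IsLocalRing.residue A) (M * p))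

/-- the abstract divisibility `S40PT_Div` of a constant, from divisibility in `A`. -/
theorem S40PTI_div_const {k Fk : Type*} [Field k] [Field Fk] [Algebra k Fk]
    (T : S18_Val Ω ↥(modularFunctionFieldBar (M * p)) k Fk) (hT : T.A = A)
    {π x : Ω} {n : ℕ} (h : ∃ r ∈ A, x = π ^ n * r) :
    S40PT_Div T.O.toSubring (algebraMap Ω ↥(modularFunctionFieldBar (M * p)) π) n
      (algebraMap Ω ↥(modularFunctionFieldBar (M * p)) x) := by
  obtain ⟨r, hr, e⟩ := h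
  refine ⟨algebraMap Ω ↥(modularFunctionFieldBar (M * p)) r,
    (S33N0B_const M p A T hT).1 r hr, ?_⟩
  rw [e, map_mul, map_pow]

include hA in
/-- **(P-T) at `V₁`**: START at `V₂` + newness ⇒ `u ≡ c a₀ ^ p` modulo `π ^ n` at `V₁`. -/
theorem S40PTI_V1 {n : ℕ} (hn : n ≤ p) (π : Ω) (hπ : π ∈ A) (hπ1 : A.valuation π < 1)
    (hpπ : ∃ r ∈ A, (p : Ω) * π = π ^ n * r)
    (u H g : ↥(modularFunctionFieldBar (M * p))) (c a₀ : Ω)
    (hu : u ∈ (S34M_T1 M p A hgen).O)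
    (hu2 : S33N0_Dep (S34M_T2 M p hp hpM A hgen).O π u)
    (hN : S33N0B_N12 M p hp hpM u =
      algebraMap Ω ↥(modularFunctionFieldBar (M * p)) c * H ^ p)
    (hH : H = algebraMap Ω ↥(modularFunctionFieldBar (M * p)) a₀ *
      (1 + algebraMap Ω ↥(modularFunctionFieldBar (M * p)) π * g))
    (hg : g ∈ (S34M_T1 M p A hgen).O) (hca : c * a₀ ^ p ∈ A) :
    ∃ l ∈ (S34M_T1 M p A hgen).O,
      u - algebraMap Ω ↥(modularFunctionFieldBar (M * p)) (c * a₀ ^ p) =
        algebraMap Ω ↥(modularFunctionFieldBar (M * p)) π ^ n * l := by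
  have hc1 := S33N0B_const M p A (S34M_T1 M p A hgen) rfl
  have hc2 := S33N0B_const M p A (S34M_T2 M p hp hpM A hgen) rfl
  have hu0 : u ≠ 0 := by
    obtain ⟨l, hl, e⟩ := hu2
    exact S33NEZ_ne_zero (S34M_T2 M p hp hpM A hgen).O (hc2.2 π hπ hπ1) hl e
  obtain ⟨l₁, hl₁, l₂, hl₂, e⟩ := S33NEZ_NE1 M p hp hpM A hA hgen π hπ hπ1 u hu2
  have hdiv : S40PT_Div (S34M_T1 M p A hgen).O.toSubring
      (algebraMap Ω ↥(modularFunctionFieldBar (M * p)) π) n
      ((p : ↥(modularFunctionFieldBar (M * p))) *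
        algebraMap Ω ↥(modularFunctionFieldBar (M * p)) π) := by
    have h := S40PTI_div_const M p A (S34M_T1 M p A hgen) rfl hpπ
    rwa [map_mul, map_natCast] at h
  have hNE : ∃ l₁ ∈ (S34M_T1 M p A hgen).O.toSubring, ∃ l₂ ∈ (S34M_T1 M p A hgen).O.toSubring,
      S33N0B_N12 M p hp hpM u / u - 1 =
        ((p : ↥(modularFunctionFieldBar (M * p))) *
          algebraMap Ω ↥(modularFunctionFieldBar (M * p)) π) * l₁ +
        algebraMap Ω ↥(modularFunctionFieldBar (M * p)) π ^ p * l₂ := by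
    refine ⟨l₁, hl₁, l₂, hl₂, ?_⟩
    rw [e, map_mul, map_natCast, map_pow]
  have hca' : algebraMap Ω ↥(modularFunctionFieldBar (M * p)) c *
      algebraMap Ω ↥(modularFunctionFieldBar (M * p)) a₀ ^ p ∈
      (S34M_T1 M p A hgen).O.toSubring := by
    have := hc1.1 _ hca
    rwa [map_mul, map_pow] at this
  obtain ⟨t, ht, et⟩ := S40PT_main (S34M_T1 M p A hgen).O.toSubring
    (algebraMap Ω ↥(modularFunctionFieldBar (M * p)) π) (hc1.1 π hπ) hp hn hdiv u
    (S33N0B_N12 M p hp hpM u) (algebraMap Ω ↥(modularFunctionFieldBar (M * p)) c) H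
    (algebraMap Ω ↥(modularFunctionFieldBar (M * p)) a₀) g hu hu0 hNE hN hH hg hca'
  refine ⟨t, ht, ?_⟩
  rw [map_mul, map_pow]
  exact et

include hA in
/-- **(P-T) at `V₂`**: START at `V₁` + newness ⇒ `u ≡ c a₀ ^ p` modulo `π ^ n` at `V₂`. -/
theorem S40PTI_V2 {n : ℕ} (hn : n ≤ p) (π : Ω) (hπ : π ∈ A) (hπ1 : A.valuation π < 1)
    (hpπ : ∃ r ∈ A, (p : Ω) * π = π ^ n * r)
    (u H g : ↥(modularFunctionFieldBar (M * p))) (c a₀ : Ω)
    (hu : u ∈ (S34M_T2 M p hp hpM A hgen).O)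
    (hu1 : S33N0_Dep (S34M_T1 M p A hgen).O π u)
    (hN : S33N0B_N21 M p hp u =
      algebraMap Ω ↥(modularFunctionFieldBar (M * p)) c * H ^ p)
    (hH : H = algebraMap Ω ↥(modularFunctionFieldBar (M * p)) a₀ *
      (1 + algebraMap Ω ↥(modularFunctionFieldBar (M * p)) π * g))
    (hg : g ∈ (S34M_T2 M p hp hpM A hgen).O) (hca : c * a₀ ^ p ∈ A) :
    ∃ l ∈ (S34M_T2 M p hp hpM A hgen).O,
      u - algebraMap Ω ↥(modularFunctionFieldBar (M * p)) (c * a₀ ^ p) =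
        algebraMap Ω ↥(modularFunctionFieldBar (M * p)) π ^ n * l := by
  have hc1 := S33N0B_const M p A (S34M_T1 M p A hgen) rfl
  have hc2 := S33N0B_const M p A (S34M_T2 M p hp hpM A hgen) rfl
  have hu0 : u ≠ 0 := by
    obtain ⟨l, hl, e⟩ := hu1
    exact S33NEZ_ne_zero (S34M_T1 M p A hgen).O (hc1.2 π hπ hπ1) hl e
  obtain ⟨l₁, hl₁, l₂, hl₂, e⟩ := S33NEZ_NE2 M p hp hpM A hA hgen π hπ hπ1 u hu1
  have hdiv : S40PT_Div (S34M_T2 M p hp hpM A hgen).O.toSubring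
      (algebraMap Ω ↥(modularFunctionFieldBar (M * p)) π) n
      ((p : ↥(modularFunctionFieldBar (M * p))) *
        algebraMap Ω ↥(modularFunctionFieldBar (M * p)) π) := by
    have h := S40PTI_div_const M p A (S34M_T2 M p hp hpM A hgen) rfl hpπ
    rwa [map_mul, map_natCast] at h
  have hNE : ∃ l₁ ∈ (S34M_T2 M p hp hpM A hgen).O.toSubring,
      ∃ l₂ ∈ (S34M_T2 M p hp hpM A hgen).O.toSubring,
      S33N0B_N21 M p hp u / u - 1 =
        ((p : ↥(modularFunctionFieldBar (M * p))) *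
          algebraMap Ω ↥(modularFunctionFieldBar (M * p)) π) * l₁ +
        algebraMap Ω ↥(modularFunctionFieldBar (M * p)) π ^ p * l₂ := by
    refine ⟨l₁, hl₁, l₂, hl₂, ?_⟩
    rw [e, map_mul, map_natCast, map_pow]
  have hca' : algebraMap Ω ↥(modularFunctionFieldBar (M * p)) c *
      algebraMap Ω ↥(modularFunctionFieldBar (M * p)) a₀ ^ p ∈
      (S34M_T2 M p hp hpM A hgen).O.toSubring := by
    have := hc2.1 _ hca
    rwa [map_mul, map_pow] at this
  obtain ⟨t, ht, et⟩ := S40PT_main (S34M_T2 M p hp hpM A hgen).O.toSubring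
    (algebraMap Ω ↥(modularFunctionFieldBar (M * p)) π) (hc2.1 π hπ) hp hn hdiv u
    (S33N0B_N21 M p hp u) (algebraMap Ω ↥(modularFunctionFieldBar (M * p)) c) H
    (algebraMap Ω ↥(modularFunctionFieldBar (M * p)) a₀) g hu hu0 hNE hN hH hg hca'
  refine ⟨t, ht, ?_⟩
  rw [map_mul, map_pow]
  exact et

/-- from `u − b = π ^ n l` to the depth of `u / b`, `b` a unit constant. -/
theorem S40PTI_dep_of_sub {k Fk : Type*} [Field k] [Field Fk] [Algebra k Fk]
    (T : S18_Val Ω ↥(modularFunctionFieldBar (M * p)) k Fk) (hT : T.A = A)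
    {π b : Ω} {n : ℕ} (hb0 : b ≠ 0) (hbi : b⁻¹ ∈ A) {u : ↥(modularFunctionFieldBar (M * p))}
    (h : ∃ l ∈ T.O, u - algebraMap Ω ↥(modularFunctionFieldBar (M * p)) b =
      algebraMap Ω ↥(modularFunctionFieldBar (M * p)) π ^ n * l) :
    S33N0_Dep T.O (π ^ n) (u / algebraMap Ω ↥(modularFunctionFieldBar (M * p)) b) := by
  obtain ⟨l, hl, e⟩ := h
  have hb0' : algebraMap Ω ↥(modularFunctionFieldBar (M * p)) b ≠ 0 := by
    rw [Ne, map_eq_zero_iff _ (algebraMap Ω ↥(modularFunctionFieldBar (M * p))).injective]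
    exact hb0
  refine ⟨algebraMap Ω ↥(modularFunctionFieldBar (M * p)) b⁻¹ * l,
    T.O.mul_mem _ _ ((S33N0B_const M p A T hT).1 _ hbi) hl, ?_⟩
  have e1 : u / algebraMap Ω ↥(modularFunctionFieldBar (M * p)) b - 1 =
      (u - algebraMap Ω ↥(modularFunctionFieldBar (M * p)) b) *
        (algebraMap Ω ↥(modularFunctionFieldBar (M * p)) b)⁻¹ := by
    field_simp
  rw [e1, e, map_pow, map_inv₀]
  ring

include hA in
/-- **(P-T) at `V₁`, depth form**. -/
theorem S40PTI_V1_dep {n : ℕ} (hn : n ≤ p) (π : Ω) (hπ : π ∈ A) (hπ1 : A.valuation π < 1)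
    (hpπ : ∃ r ∈ A, (p : Ω) * π = π ^ n * r)
    (u H g : ↥(modularFunctionFieldBar (M * p))) (c a₀ : Ω)
    (hu : u ∈ (S34M_T1 M p A hgen).O)
    (hu2 : S33N0_Dep (S34M_T2 M p hp hpM A hgen).O π u)
    (hN : S33N0B_N12 M p hp hpM u =
      algebraMap Ω ↥(modularFunctionFieldBar (M * p)) c * H ^ p)
    (hH : H = algebraMap Ω ↥(modularFunctionFieldBar (M * p)) a₀ *
      (1 + algebraMap Ω ↥(modularFunctionFieldBar (M * p)) π * g))
    (hg : g ∈ (S34M_T1 M p A hgen).O) (hca : c * a₀ ^ p ∈ A) (hca0 : c * a₀ ^ p ≠ 0)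
    (hcai : (c * a₀ ^ p)⁻¹ ∈ A) :
    S33N0_Dep (S34M_T1 M p A hgen).O (π ^ n)
      (u / algebraMap Ω ↥(modularFunctionFieldBar (M * p)) (c * a₀ ^ p)) :=
  S40PTI_dep_of_sub M p A (S34M_T1 M p A hgen) rfl hca0 hcai
    (S40PTI_V1 M p hp hpM A hA hgen hn π hπ hπ1 hpπ u H g c a₀ hu hu2 hN hH hg hca)

include hA in
/-- **(P-T) at `V₂`, depth form**. -/
theorem S40PTI_V2_dep {n : ℕ} (hn : n ≤ p) (π : Ω) (hπ : π ∈ A) (hπ1 : A.valuation π < 1)
    (hpπ : ∃ r ∈ A, (p : Ω) * π = π ^ n * r)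
    (u H g : ↥(modularFunctionFieldBar (M * p))) (c a₀ : Ω)
    (hu : u ∈ (S34M_T2 M p hp hpM A hgen).O)
    (hu1 : S33N0_Dep (S34M_T1 M p A hgen).O π u)
    (hN : S33N0B_N21 M p hp u =
      algebraMap Ω ↥(modularFunctionFieldBar (M * p)) c * H ^ p)
    (hH : H = algebraMap Ω ↥(modularFunctionFieldBar (M * p)) a₀ *
      (1 + algebraMap Ω ↥(modularFunctionFieldBar (M * p)) π * g))
    (hg : g ∈ (S34M_T2 M p hp hpM A hgen).O) (hca : c * a₀ ^ p ∈ A) (hca0 : c * a₀ ^ p ≠ 0)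
    (hcai : (c * a₀ ^ p)⁻¹ ∈ A) :
    S33N0_Dep (S34M_T2 M p hp hpM A hgen).O (π ^ n)
      (u / algebraMap Ω ↥(modularFunctionFieldBar (M * p)) (c * a₀ ^ p)) :=
  S40PTI_dep_of_sub M p A (S34M_T2 M p hp hpM A hgen) rfl hca0 hcai
    (S40PTI_V2 M p hp hpM A hA hgen hn π hπ hπ1 hpπ u H g c a₀ hu hu1 hN hH hg hca)

end inst

end Fermat.Agent.S40
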