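import Fermat.Agent.S40.R2Glue
import Fermat.Agent.S40.R2HvHecke

/-!
# TRACK 13 (S40 / S44, row 38), the node chain CLOSED (helper17).  Prefix `S40R2X_`.

* `S40R2X_hv : S40R2G_HV` : the last leaf, from helper20's `S40R2HK_hv` (the Hecke trick);
* `S40R2X_node1 : S40F2FN_Node1`;
* `S40R2X_kum1 : S44Q_Kum1`;
* `S40R2X_final` : the frozen statement S44, NO hypothesis left.
-/

set_option autoImplicit false
set_option linter.style.haveILetI false
set_option linter.unusedSectionVars false
set_option linter.unusedVariables false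
set_option synthInstance.maxHeartbeats 400000
set_option maxHeartbeats 2000000

open HahnSeries IntermediateField AlgebraicCurve ModularCurve

noncomputable section

namespace Fermat.Agent.S40

open WeierstrassCurve
open Fermat.Agent.Lib Fermat.Agent.S17 Fermat.Agent.S18 Fermat.Agent.S19 Fermat.Agent.S24
  Fermat.Agent.S34 Fermat.Agent.S35 Fermat.Agent.S36 Fermat.Agent.S37 Fermat.Agent.GalRep
  Fermat.Agent.S33

local notation "Ω" => AlgebraicClosure ℚ
local notation "Γ" => (AlgebraicClosure ℚ ≃ₐ[ℚ] AlgebraicClosure ℚ)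

/-- **the last leaf (HV)**. -/
theorem S40R2X_hv : S40R2G_HV := by
  intro W hΔ p hp hp5 hirr M' _ _ _ hpM hsq A hA V hVV0 hV hnew hB hR hK hI x hx hgen s e₁ e₂
    P P' hE hW1 hx' hred hP hP' he₁ he₂ i ζ₀ hprim σ H π c r t hData
  exact S40R2HK_hv M' p hp hpM A hA hgen W hΔ (by omega) hirr V hVV0 hprim x hx σ H π c r t
    hData

/-- **(N₁)**, no hypothesis left. -/
theorem S40R2X_node1 : S40F2FN_Node1 := S40R2G_node1 S40R2X_hv

/-- **(KUM₁)**, no hypothesis left. -/
theorem S40R2X_kum1 : S44Q_Kum1 := S40R2G_kum1 S40R2X_hv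

/-- **the frozen statement S44**, no hypothesis left. -/
theorem S40R2X_final
    (P : FreyPackage) {N : ℕ} (hcond : P.IsConductorLevel N) (hpN : P.p ∣ N)
    (hirr : WeierstrassCurve.Affine.Point.GaloisRepIsIrreducible (K := AlgebraicClosure ℚ) ℚ
      P.freyCurve P.p)
    (hmod : P.ModularRepOfLevel N) :
    ∃ M : ℕ, M ∣ N ∧ ¬ P.p ∣ M ∧ P.ModularRepOfLevel M :=
  S40R2G_final S40R2X_hv P hcond hpN hirr hmod

end Fermat.Agent.S40
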