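import Mathlib

/-!
# TRACK 13 (S40, row 38), (R2) START over `F`: the DESCENT `L → F` (helper17).  Prefix `S40R2D_`.

Abstract setting (Mathlib only).  `E` a field (`= ℚ̄(X₀(M'p))`), `O₁, O₂` valuation rings of `E`
(the two Gauss valuations), `F₀ ⊂ E` a subfield (`= F(X)`, the `I¹`-fixed functions) on which the
valuations are DISCRETE with uniformiser `ϖ`, `π ∈ E` a constant with `v(π) ^ p = v(ϖ)`
(a uniformiser of `L`, `[L : F] = p` totally ramified), `h = Σ_{i<p} a_i π ^ i` with `a_i ∈ F₀`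
(an element of `L(X) = ⊕ F(X) π ^ i`).

* `S40R2D_zpow_eq_one`      : `w ^ n = 1`, `0 ≠ w < 1` ⇒ `n = 0`;
* `S40R2D_term_ne`          : the values of the terms `a_i π ^ i`, `i < p`, are pairwise different;
* `S40R2D_exists_dominant`  : there is ONE dominant term `a_{i₀} π ^ {i₀}`;
* `S40R2D_dominant`         : `h ≡ a_{i₀} π ^ {i₀}` modulo `1`-units;
* `S40R2D_index_unique`     : the dominant index is `≡ v(h)` modulo `p`:
                              `v(h) = v(ϖ) ^ k · v(π) ^ i`, `i < p` ⇒ `i = i₀`;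
* `S40R2D_pow_one`          : `x ≡ 1 ⇒ x ^ n ≡ 1`;
* **`S40R2D_main`**         : (DESC) `c · u · h ^ p ≡ 1` at `O₁` and `O₂` (`u ∈ F₀`, `c` a constant)
  and THE SAME dominant index at `O₁` and `O₂`  ⇒  `c' · u · h' ^ p ≡ 1` at `O₁` and `O₂` with
  `h' = a_{i₀} ∈ F₀` and `c'` a constant of `F`.
-/

set_option autoImplicit false
set_option linter.unusedVariables false

namespace Fermat.Agent.S40

section abs

variable {E : Type*} [Field E]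

/-- in a linearly ordered group with zero: `w ^ n = 1`, `0 ≠ w < 1` ⇒ `n = 0`. -/
theorem S40R2D_zpow_eq_one {Γ₀ : Type*} [LinearOrderedCommGroupWithZero Γ₀] {w : Γ₀}
    (h0 : w ≠ 0) (h1 : w < 1) {n : ℤ} (hn : w ^ n = 1) : n = 0 := by
  obtain ⟨m, rfl | rfl⟩ := Int.eq_nat_or_neg n
  · rw [zpow_natCast] at hn
    rcases Nat.eq_zero_or_pos m with rfl | hm
    · rfl
    · exfalso
      have : w ^ m < 1 := pow_lt_one₀ zero_le h1 hm.ne'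
      rw [hn] at this
      exact lt_irrefl _ this
  · rw [zpow_neg, zpow_natCast, inv_eq_one] at hn
    rcases Nat.eq_zero_or_pos m with rfl | hm
    · simp
    · exfalso
      have : w ^ m < 1 := pow_lt_one₀ zero_le h1 hm.ne'
      rw [hn] at this
      exact lt_irrefl _ this

/-- the values `v(ϖ) ^ k · v(π) ^ i`, `i < p`, determine `i`. -/
theorem S40R2D_index_eq {Γ₀ : Type*} [LinearOrderedCommGroupWithZero Γ₀] {w W : Γ₀} {p : ℕ}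
    (h0 : w ≠ 0) (h1 : w < 1) (hW : w ^ p = W) {k k' : ℤ} {i i' : ℕ} (hi : i < p) (hi' : i' < p)
    (h : W ^ k * w ^ i = W ^ k' * w ^ i') : i = i' := by
  subst hW
  have e : w ^ ((p : ℤ) * k + i - ((p : ℤ) * k' + i')) = 1 := by
    simp only [zpow_sub₀ h0, zpow_add₀ h0, zpow_mul, zpow_natCast]
    rw [h]
    exact div_self (mul_ne_zero (zpow_ne_zero _ (pow_ne_zero _ h0)) (pow_ne_zero _ h0))
  have h2 := S40R2D_zpow_eq_one h0 h1 e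
  have h3 : ((i : ℤ) - i') = (p : ℤ) * (k' - k) := by linarith
  have h4 : (p : ℤ) ∣ (i : ℤ) - i' := ⟨k' - k, h3⟩
  have h5 : ((i : ℤ) - i') = 0 := by
    apply Int.eq_zero_of_abs_lt_dvd h4
    rw [abs_lt]
    constructor <;> omega
  omega

variable (O : ValuationSubring E)

/-- `x ≡ 1 ⇒ x ^ n ≡ 1`. -/
theorem S40R2D_pow_one {x : E} (hx : O.valuation (x - 1) < 1) (n : ℕ) :
    O.valuation (x ^ n - 1) < 1 := by
  induction n with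
  | zero => simp
  | succ n ih =>
    have hx1 : O.valuation x ≤ 1 := by
      have e : x = (x - 1) + 1 := by ring
      rw [e]
      exact le_trans (O.valuation.map_add _ _) (max_le hx.le (by simp))
    have e : x ^ (n + 1) - 1 = (x ^ n - 1) * x + (x - 1) := by ring
    rw [e]
    refine lt_of_le_of_lt (O.valuation.map_add _ _) (max_lt ?_ hx)
    rw [map_mul]
    exact lt_of_le_of_lt (mul_le_of_le_one_right' hx1) ih

/-- `h ≡ a_{i₀} π ^ {i₀}` modulo `1`-units when the term `i₀` is dominant. -/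
theorem S40R2D_dominant {p : ℕ} (a : ℕ → E) (π h : E)
    (hh : h = ∑ i ∈ Finset.range p, a i * π ^ i) (i₀ : ℕ) (hi₀ : i₀ < p)
    (ha : a i₀ * π ^ i₀ ≠ 0)
    (hdom : ∀ i < p, i ≠ i₀ → O.valuation (a i * π ^ i) < O.valuation (a i₀ * π ^ i₀)) :
    O.valuation (h / (a i₀ * π ^ i₀) - 1) < 1 := by
  classical
  have hmem : i₀ ∈ Finset.range p := Finset.mem_range.mpr hi₀
  have e1 : h - a i₀ * π ^ i₀ = ∑ i ∈ (Finset.range p).erase i₀, a i * π ^ i := by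
    rw [hh, ← Finset.add_sum_erase _ _ hmem]
    ring
  have hv0 : O.valuation (a i₀ * π ^ i₀) ≠ 0 := (map_ne_zero _).mpr ha
  have h2 : O.valuation (h - a i₀ * π ^ i₀) < O.valuation (a i₀ * π ^ i₀) := by
    rw [e1]
    apply Valuation.map_sum_lt _ hv0
    intro i hi
    rw [Finset.mem_erase, Finset.mem_range] at hi
    exact hdom i hi.2 hi.1
  have e2 : h / (a i₀ * π ^ i₀) - 1 = (h - a i₀ * π ^ i₀) / (a i₀ * π ^ i₀) := by
    rw [sub_div, div_self ha]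
  rw [e2, map_div₀]
  exact (div_lt_one₀ (zero_lt_iff.mpr hv0)).mpr h2

/-- there is ONE dominant term. -/
theorem S40R2D_exists_dominant (F₀ : Subfield E) (π ϖ : E) {p : ℕ}
    (hπ0 : π ≠ 0) (hπ1 : O.valuation π < 1) (hπ : O.valuation π ^ p = O.valuation ϖ)
    (hdv : ∀ x ∈ F₀, x ≠ 0 → ∃ k : ℤ, O.valuation x = O.valuation ϖ ^ k)
    (a : ℕ → E) (ha : ∀ i, a i ∈ F₀) (hne : ∃ i < p, a i ≠ 0) :
    ∃ i₀ < p, a i₀ ≠ 0 ∧
      ∀ i < p, i ≠ i₀ → O.valuation (a i * π ^ i) < O.valuation (a i₀ * π ^ i₀) := by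
  classical
  obtain ⟨j, hj, haj⟩ := hne
  have hne' : (Finset.range p).Nonempty := ⟨j, Finset.mem_range.mpr hj⟩
  obtain ⟨i₀, hi₀, hmax⟩ := Finset.exists_max_image (Finset.range p)
    (fun i => O.valuation (a i * π ^ i)) hne'
  have hw0 : O.valuation π ≠ 0 := (map_ne_zero _).mpr hπ0
  have hi₀' : i₀ < p := Finset.mem_range.mp hi₀
  have hai₀ : a i₀ ≠ 0 := by
    intro h0
    have h1 := hmax j (Finset.mem_range.mpr hj)
    simp only [h0, zero_mul, map_zero] at h1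
    have h2 : O.valuation (a j * π ^ j) ≠ 0 :=
      (map_ne_zero _).mpr (mul_ne_zero haj (pow_ne_zero _ hπ0))
    exact h2 (le_antisymm h1 zero_le)
  refine ⟨i₀, hi₀', hai₀, fun i hi hii => ?_⟩
  refine lt_of_le_of_ne (hmax i (Finset.mem_range.mpr hi)) ?_
  intro heq
  by_cases hai : a i = 0
  · rw [hai, zero_mul, map_zero] at heq
    exact (map_ne_zero O.valuation).mpr (mul_ne_zero hai₀ (pow_ne_zero _ hπ0)) heq.symm
  · obtain ⟨k, hk⟩ := hdv (a i) (ha i) hai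
    obtain ⟨k', hk'⟩ := hdv (a i₀) (ha i₀) hai₀
    rw [map_mul, map_mul, map_pow, map_pow, hk, hk'] at heq
    exact hii (S40R2D_index_eq hw0 hπ1 hπ hi hi₀' heq)

/-- the dominant index is determined by the value of `h`. -/
theorem S40R2D_index_unique (F₀ : Subfield E) (π ϖ : E) {p : ℕ}
    (hπ0 : π ≠ 0) (hπ1 : O.valuation π < 1) (hπ : O.valuation π ^ p = O.valuation ϖ)
    (hdv : ∀ x ∈ F₀, x ≠ 0 → ∃ k : ℤ, O.valuation x = O.valuation ϖ ^ k)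
    (a : ℕ → E) (ha : ∀ i, a i ∈ F₀) (h : E)
    (hh : h = ∑ i ∈ Finset.range p, a i * π ^ i) (i₀ : ℕ) (hi₀ : i₀ < p) (hai₀ : a i₀ ≠ 0)
    (hdom : ∀ i < p, i ≠ i₀ → O.valuation (a i * π ^ i) < O.valuation (a i₀ * π ^ i₀))
    (k : ℤ) (i : ℕ) (hi : i < p) (hv : O.valuation h = O.valuation ϖ ^ k * O.valuation π ^ i) :
    i = i₀ := by
  have hw0 : O.valuation π ≠ 0 := (map_ne_zero _).mpr hπ0
  have hne : a i₀ * π ^ i₀ ≠ 0 := mul_ne_zero hai₀ (pow_ne_zero _ hπ0)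
  have h1 := S40R2D_dominant O a π h hh i₀ hi₀ hne hdom
  have h2 : O.valuation (h / (a i₀ * π ^ i₀)) = 1 := by
    have e : h / (a i₀ * π ^ i₀) = 1 + (h / (a i₀ * π ^ i₀) - 1) := by ring
    rw [e]
    exact Valuation.map_one_add_of_lt _ h1
  have h3 : O.valuation h = O.valuation (a i₀ * π ^ i₀) := by
    have hv0 : O.valuation (a i₀ * π ^ i₀) ≠ 0 := (map_ne_zero _).mpr hne
    rw [map_div₀] at h2
    exact (div_eq_one_iff_eq hv0).mp h2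
  obtain ⟨k', hk'⟩ := hdv (a i₀) (ha i₀) hai₀
  rw [hv, map_mul, map_pow, hk'] at h3
  exact S40R2D_index_eq hw0 hπ1 hπ hi hi₀ h3

/-- `y = Z * T`, `y ≡ 1`, `T ≡ 1` ⇒ `Z ≡ 1`. -/
theorem S40R2D_cancel {y Z T : E} (hy : y = Z * T) (hy1 : O.valuation (y - 1) < 1)
    (hT : O.valuation (T - 1) < 1) : O.valuation (Z - 1) < 1 := by
  have hvT : O.valuation T = 1 := by
    have e : T = 1 + (T - 1) := by ring
    rw [e]
    exact Valuation.map_one_add_of_lt _ hT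
  have hT0 : T ≠ 0 := by
    rintro rfl
    rw [map_zero] at hvT
    exact zero_ne_one hvT
  have e : Z - 1 = ((y - 1) - (T - 1)) / T := by
    rw [hy]
    field_simp
    ring
  rw [e, map_div₀, hvT, div_one]
  exact lt_of_le_of_lt (Valuation.map_sub _ _ _) (max_lt hy1 hT)

/-- **(DESC)**: the descent `L → F` of a normalising pair `(c, h)`: if `c · u · h ^ p ≡ 1` at `O₁`
and at `O₂` (`u ∈ F₀`, `c ∈ CL` a constant, `h = Σ a_i π ^ i`, `a_i ∈ F₀`) and the SAME term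
`i₀` is dominant at `O₁` and at `O₂`, then `c' · u · h' ^ p ≡ 1` at `O₁` and at `O₂` with
`h' = a_{i₀} ∈ F₀` and `c' ∈ C` (the constants of `F`). -/
theorem S40R2D_main (O₁ O₂ : ValuationSubring E) (F₀ C CL : Subfield E) (hC : C ≤ F₀)
    (π ϖ : E) {p : ℕ} (hϖC : ϖ ∈ C) (hϖCL : ϖ ∈ CL) (hπCL : π ∈ CL) (hπ0 : π ≠ 0)
    (hϖ0 : ϖ ≠ 0)
    (hdv1 : ∀ x ∈ F₀, x ≠ 0 → ∃ k : ℤ, O₁.valuation x = O₁.valuation ϖ ^ k)
    (hsame : ∀ x ∈ CL, O₁.valuation x = 1 → O₂.valuation x = 1)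
    (hlift : ∀ x ∈ CL, O₁.valuation x = 1 →
      ∃ c' ∈ C, O₁.valuation (x - c') < 1 ∧ O₂.valuation (x - c') < 1)
    (c u h : E) (hc : c ∈ CL) (hu : u ∈ F₀)
    (a : ℕ → E) (ha : ∀ i, a i ∈ F₀) (hh : h = ∑ i ∈ Finset.range p, a i * π ^ i)
    (hy1 : O₁.valuation (c * u * h ^ p - 1) < 1) (hy2 : O₂.valuation (c * u * h ^ p - 1) < 1)
    (i₀ : ℕ) (hi₀ : i₀ < p) (hai₀ : a i₀ ≠ 0)
    (hdom1 : ∀ i < p, i ≠ i₀ → O₁.valuation (a i * π ^ i) < O₁.valuation (a i₀ * π ^ i₀))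
    (hdom2 : ∀ i < p, i ≠ i₀ → O₂.valuation (a i * π ^ i) < O₂.valuation (a i₀ * π ^ i₀)) :
    ∃ c' ∈ C, ∃ h' ∈ F₀, h' ≠ 0 ∧ O₁.valuation (c' * u * h' ^ p - 1) < 1 ∧
      O₂.valuation (c' * u * h' ^ p - 1) < 1 := by
  have hX0 : a i₀ * π ^ i₀ ≠ 0 := mul_ne_zero hai₀ (pow_ne_zero _ hπ0)
  -- `h = X * t_j`, `t_j ≡ 1`
  have ht1 := S40R2D_dominant O₁ a π h hh i₀ hi₀ hX0 hdom1
  have ht2 := S40R2D_dominant O₂ a π h hh i₀ hi₀ hX0 hdom2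
  have hT1 := S40R2D_pow_one O₁ ht1 p
  have hT2 := S40R2D_pow_one O₂ ht2 p
  obtain ⟨Z, hZ⟩ : ∃ Z, Z = c * u * (a i₀ * π ^ i₀) ^ p := ⟨_, rfl⟩
  have hyZ : c * u * h ^ p = Z * (h / (a i₀ * π ^ i₀)) ^ p := by
    rw [hZ, div_pow]
    have : (a i₀ * π ^ i₀) ^ p ≠ 0 := pow_ne_zero _ hX0
    field_simp
  have hZ1 : O₁.valuation (Z - 1) < 1 := S40R2D_cancel O₁ hyZ hy1 hT1
  have hZ2 : O₂.valuation (Z - 1) < 1 := S40R2D_cancel O₂ hyZ hy2 hT2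
  have hvZ1 : O₁.valuation Z = 1 := by
    have e : Z = 1 + (Z - 1) := by ring
    rw [e]
    exact Valuation.map_one_add_of_lt _ hZ1
  have hvZ2 : O₂.valuation Z = 1 := by
    have e : Z = 1 + (Z - 1) := by ring
    rw [e]
    exact Valuation.map_one_add_of_lt _ hZ2
  have hZ0 : Z ≠ 0 := by
    rintro rfl
    rw [map_zero] at hvZ1
    exact zero_ne_one hvZ1
  -- `Z = c₂ * Y`
  obtain ⟨Y, hY⟩ : ∃ Y, Y = u * a i₀ ^ p := ⟨_, rfl⟩
  obtain ⟨c₂, hc₂⟩ : ∃ c₂, c₂ = c * π ^ (i₀ * p) := ⟨_, rfl⟩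
  have hZY : Z = c₂ * Y := by
    rw [hZ, hc₂, hY, mul_pow, ← pow_mul]
    ring
  have hY0 : Y ≠ 0 := by
    rintro rfl
    rw [mul_zero] at hZY
    exact hZ0 hZY
  have hc₂0 : c₂ ≠ 0 := by
    rintro rfl
    rw [zero_mul] at hZY
    exact hZ0 hZY
  have hYF : Y ∈ F₀ := by
    rw [hY]
    exact F₀.mul_mem hu (F₀.pow_mem (ha i₀) p)
  have hc₂CL : c₂ ∈ CL := by
    rw [hc₂]
    exact CL.mul_mem hc (CL.pow_mem hπCL _)
  obtain ⟨k, hk⟩ := hdv1 Y hYF hY0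
  have hϖk0 : ϖ ^ k ≠ 0 := zpow_ne_zero _ hϖ0
  obtain ⟨c₃, hc₃⟩ : ∃ c₃, c₃ = c₂ * ϖ ^ k := ⟨_, rfl⟩
  obtain ⟨Y', hY'⟩ : ∃ Y', Y' = Y * (ϖ ^ k)⁻¹ := ⟨_, rfl⟩
  have hZ3 : Z = c₃ * Y' := by
    rw [hZY, hc₃, hY']
    field_simp
  have hvY'1 : O₁.valuation Y' = 1 := by
    rw [hY', map_mul, map_inv₀, map_zpow₀, hk]
    exact mul_inv_cancel₀ (zpow_ne_zero _ ((map_ne_zero _).mpr hϖ0))
  have hvc₃1 : O₁.valuation c₃ = 1 := by
    have h1 := hvZ1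
    rw [hZ3, map_mul, hvY'1, mul_one] at h1
    exact h1
  have hc₃CL : c₃ ∈ CL := by
    rw [hc₃]
    exact CL.mul_mem hc₂CL (zpow_mem hϖCL k)
  have hvc₃2 : O₂.valuation c₃ = 1 := hsame c₃ hc₃CL hvc₃1
  have hvY'2 : O₂.valuation Y' = 1 := by
    have h1 := hvZ2
    rw [hZ3, map_mul, hvc₃2, one_mul] at h1
    exact h1
  obtain ⟨c', hc'C, hl1, hl2⟩ := hlift c₃ hc₃CL hvc₃1
  refine ⟨c' * (ϖ ^ k)⁻¹, C.mul_mem hc'C (C.inv_mem (zpow_mem hϖC k)), a i₀, ha i₀, hai₀, ?_, ?_⟩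
  · have e : c' * (ϖ ^ k)⁻¹ * u * a i₀ ^ p - 1 = (Z - 1) - (c₃ - c') * Y' := by
      rw [hZ3, hY', hY]
      ring
    rw [e]
    refine lt_of_le_of_lt (Valuation.map_sub _ _ _) (max_lt hZ1 ?_)
    rw [map_mul, hvY'1, mul_one]
    exact hl1
  · have e : c' * (ϖ ^ k)⁻¹ * u * a i₀ ^ p - 1 = (Z - 1) - (c₃ - c') * Y' := by
      rw [hZ3, hY', hY]
      ring
    rw [e]
    refine lt_of_le_of_lt (Valuation.map_sub _ _ _) (max_lt hZ2 ?_)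
    rw [map_mul, hvY'2, mul_one]
    exact hl2

/-- **(DESC), valuation form**: the same with the hypothesis `p ∣ n₁ − n₂` in the form
`v_j(h) = v_j(ϖ) ^ k_j · v_j(π) ^ i` with THE SAME `i < p` for `j = 1, 2`. -/
theorem S40R2D_main' (O₁ O₂ : ValuationSubring E) (F₀ C CL : Subfield E) (hC : C ≤ F₀)
    (π ϖ : E) {p : ℕ} (hϖC : ϖ ∈ C) (hϖCL : ϖ ∈ CL) (hπCL : π ∈ CL) (hπ0 : π ≠ 0)
    (hϖ0 : ϖ ≠ 0)
    (hπ1 : O₁.valuation π < 1) (hπ2 : O₂.valuation π < 1)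
    (hπp1 : O₁.valuation π ^ p = O₁.valuation ϖ) (hπp2 : O₂.valuation π ^ p = O₂.valuation ϖ)
    (hdv1 : ∀ x ∈ F₀, x ≠ 0 → ∃ k : ℤ, O₁.valuation x = O₁.valuation ϖ ^ k)
    (hdv2 : ∀ x ∈ F₀, x ≠ 0 → ∃ k : ℤ, O₂.valuation x = O₂.valuation ϖ ^ k)
    (hsame : ∀ x ∈ CL, O₁.valuation x = 1 → O₂.valuation x = 1)
    (hlift : ∀ x ∈ CL, O₁.valuation x = 1 →
      ∃ c' ∈ C, O₁.valuation (x - c') < 1 ∧ O₂.valuation (x - c') < 1)
    (c u h : E) (hc : c ∈ CL) (hu : u ∈ F₀) (hh0 : h ≠ 0)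
    (a : ℕ → E) (ha : ∀ i, a i ∈ F₀) (hh : h = ∑ i ∈ Finset.range p, a i * π ^ i)
    (hy1 : O₁.valuation (c * u * h ^ p - 1) < 1) (hy2 : O₂.valuation (c * u * h ^ p - 1) < 1)
    (i : ℕ) (hi : i < p) (k₁ k₂ : ℤ)
    (hv1 : O₁.valuation h = O₁.valuation ϖ ^ k₁ * O₁.valuation π ^ i)
    (hv2 : O₂.valuation h = O₂.valuation ϖ ^ k₂ * O₂.valuation π ^ i) :
    ∃ c' ∈ C, ∃ h' ∈ F₀, h' ≠ 0 ∧ O₁.valuation (c' * u * h' ^ p - 1) < 1 ∧
      O₂.valuation (c' * u * h' ^ p - 1) < 1 := by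
  have hne : ∃ j < p, a j ≠ 0 := by
    by_contra hcon
    push_neg at hcon
    apply hh0
    rw [hh]
    apply Finset.sum_eq_zero
    intro j hj
    rw [hcon j (Finset.mem_range.mp hj), zero_mul]
  obtain ⟨i₁, hi₁, hai₁, hdom1⟩ := S40R2D_exists_dominant O₁ F₀ π ϖ hπ0 hπ1 hπp1 hdv1 a ha hne
  obtain ⟨i₂, hi₂, hai₂, hdom2⟩ := S40R2D_exists_dominant O₂ F₀ π ϖ hπ0 hπ2 hπp2 hdv2 a ha hne
  have e1 := S40R2D_index_unique O₁ F₀ π ϖ hπ0 hπ1 hπp1 hdv1 a ha h hh i₁ hi₁ hai₁ hdom1 k₁ i hi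
    hv1
  have e2 := S40R2D_index_unique O₂ F₀ π ϖ hπ0 hπ2 hπp2 hdv2 a ha h hh i₂ hi₂ hai₂ hdom2 k₂ i hi
    hv2
  subst e1
  subst e2
  exact S40R2D_main O₁ O₂ F₀ C CL hC π ϖ hϖC hϖCL hπCL hπ0 hϖ0 hdv1 hsame hlift c u h hc hu a ha
    hh hy1 hy2 i hi hai₁ hdom1 hdom2

end abs

end Fermat.Agent.S40
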