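import Mathlib

/-!
# TRACK 13 (S40, row 38), (R2) START over `F`: the expansion `h = Σ_{i<p} a_i π ^ i`
(helper17).  Prefix `S40R2I_`.

Abstract (Mathlib only, Lagrange interpolation).  `E` a field, `x₀, …, x_{p-1} ∈ E` pairwise
different (`x_k = σ^k π`, the conjugates of a uniformiser `π` of `L`), `y₀, …, y_{p-1} ∈ E`
(`y_k = σ^k h`).  There are `a_i ∈ E` (`i < p`) with `y_k = Σ_{i<p} a_i x_k ^ i` for all `k < p`,
and every ring endomorphism `g` of `E` which permutes the pairs `(x_k, y_k)` fixes all `a_i`.

* `S40R2I_interp` : the statement above;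
* `S40R2I_expand` : the form used in `S40/R2Desc.lean`: `h = Σ_{i<p} a_i π ^ i` with `a_i` in a
  subfield `F₀` which contains every element fixed by all `g ∈ G`.
-/

set_option autoImplicit false
set_option linter.unusedVariables false

open Polynomial

namespace Fermat.Agent.S40

section abs

variable {E : Type*} [Field E]

/-- **Lagrange expansion with invariance**. -/
theorem S40R2I_interp (p : ℕ) (hp : 0 < p) (x y : ℕ → E)
    (hinj : ∀ k < p, ∀ l < p, x k = x l → k = l) :
    ∃ a : ℕ → E, (∀ k < p, y k = ∑ i ∈ Finset.range p, a i * x k ^ i) ∧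
      ∀ g : E →+* E, (∀ k < p, ∃ l < p, g (x k) = x l ∧ g (y k) = y l) → ∀ i, g (a i) = a i := by
  classical
  have hvs : Set.InjOn x (Finset.range p : Set ℕ) := by
    intro k hk l hl hkl
    exact hinj k (Finset.mem_range.mp (Finset.mem_coe.mp hk)) l
      (Finset.mem_range.mp (Finset.mem_coe.mp hl)) hkl
  obtain ⟨P, hP⟩ : ∃ P, P = Lagrange.interpolate (Finset.range p) x y := ⟨_, rfl⟩
  have hdeg : P.degree < (Finset.range p).card := by
    rw [hP]
    exact Lagrange.degree_interpolate_lt y hvs
  have heval : ∀ k < p, P.eval (x k) = y k := by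
    intro k hk
    rw [hP]
    exact Lagrange.eval_interpolate_at_node y hvs (Finset.mem_range.mpr hk)
  have hnat : P.natDegree < p := by
    by_cases hP0 : P = 0
    · rw [hP0, natDegree_zero]
      exact hp
    · rw [Finset.card_range] at hdeg
      exact (natDegree_lt_iff_degree_lt hP0).mpr hdeg
  refine ⟨fun i => P.coeff i, fun k hk => ?_, fun g hg i => ?_⟩
  · rw [← heval k hk, eval_eq_sum_range' hnat]
  · -- `P.map g = P`
    have hdeg' : (P.map g).degree < (Finset.range p).card :=
      lt_of_le_of_lt (degree_map_le) hdeg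
    -- the induced map on indices is injective, hence surjective
    have hex : ∀ k : Fin p, ∃ l : Fin p, g (x k) = x l ∧ g (y k) = y l := by
      intro k
      obtain ⟨l, hl, h1, h2⟩ := hg k k.2
      exact ⟨⟨l, hl⟩, h1, h2⟩
    choose φ hφ using hex
    have hφinj : Function.Injective φ := by
      intro k k' hkk
      have h1 := (hφ k).1
      have h2 := (hφ k').1
      rw [hkk] at h1
      have h3 : g (x k) = g (x k') := h1.trans h2.symm
      have h4 : x k = x k' := g.injective h3
      exact Fin.ext (hinj k k.2 k' k'.2 h4)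
    have hφsurj : Function.Surjective φ := Finite.surjective_of_injective hφinj
    have heval' : ∀ l ∈ Finset.range p, (P.map g).eval (x l) = y l := by
      intro l hl
      obtain ⟨k, hk⟩ := hφsurj ⟨l, Finset.mem_range.mp hl⟩
      have h1 := (hφ k).1
      have h2 := (hφ k).2
      rw [hk] at h1 h2
      show (P.map g).eval (x l) = y l
      have h1' : x l = g (x k) := h1.symm
      rw [h1', eval_map, eval₂_hom, heval k k.2]
      exact h2
    have e1 : P.map g = Lagrange.interpolate (Finset.range p) x y :=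
      Lagrange.eq_interpolate_of_eval_eq y hvs hdeg' heval'
    have e2 : P.map g = P := by rw [e1, hP]
    have e3 := congrArg (fun Q : E[X] => Q.coeff i) e2
    simpa [coeff_map] using e3

/-- the expansion `h = Σ_{i<p} a_i π ^ i` with coefficients in a subfield `F₀` containing all
elements fixed by a set `G` of endomorphisms permuting the conjugates `(x_k, y_k)`. -/
theorem S40R2I_expand (p : ℕ) (hp : 0 < p) (x y : ℕ → E)
    (hinj : ∀ k < p, ∀ l < p, x k = x l → k = l)
    (G : Set (E →+* E)) (F₀ : Subfield E) (hF₀ : ∀ z : E, (∀ g ∈ G, g z = z) → z ∈ F₀)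
    (hG : ∀ g ∈ G, ∀ k < p, ∃ l < p, g (x k) = x l ∧ g (y k) = y l) :
    ∃ a : ℕ → E, (∀ i, a i ∈ F₀) ∧ y 0 = ∑ i ∈ Finset.range p, a i * x 0 ^ i := by
  obtain ⟨a, ha1, ha2⟩ := S40R2I_interp p hp x y hinj
  exact ⟨a, fun i => hF₀ (a i) (fun g hg => ha2 g (hG g hg) i), ha1 0 hp⟩

end abs

end Fermat.Agent.S40
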