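import Fermat.Agent.S40.F2CInst
import Fermat.Agent.S40.R2Desc
import Fermat.Agent.S40.R2Interp

/-!
# TRACK 13 (S40, row 38), (R2) START over `F`: the DESCENT `L → F`, INSTANCE (helper17).
Prefix `S40R2DI_`.

Level `M p`, `A ⊂ Ω = ℚ̄` over `p`, `H ≤ I_A` a subgroup of the inertia group with a uniformiser
`ϖ` of `A ∩ Ω^H` (in the application `H = I¹ = S40D_I1 A p`, `ϖ = 1 - ζ`), `O₁`, `O₂` the two
Gauss valuation rings of `F = ℚ̄(X₀(Mp))`.

* `S40R2DI_val_eq_of_dv` : discreteness in the form `v(x) = v(ϖ) ^ k`;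
* `S40R2DI_same`, `S40R2DI_lift` : constants: same unit constants at `V₁` and `V₂`, and every unit
  constant is congruent to an `H`-fixed constant (Teichmüller lift, `S19TE_exists_lift`);
* **`S40R2DI_main`** : (DESC) on the concrete objects: `u` fixed by `H`, `c · u · h ^ p ≡ 1` at
  `V₁` and `V₂`, the conjugates `(x_k, y_k)` of `(π, h)` permuted by `H`
  (`x₀ = π`, `y₀ = h`, `x_k` pairwise different), `v(π) ^ p = v(ϖ)`, and
  `v_j(h) = v_j(ϖ) ^ k_j · v_j(π) ^ i` with THE SAME `i < p` for `j = 1, 2`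
  `⇒` there are `c'`, `h'` fixed by `H` with `c' · u · h' ^ p ≡ 1` at `V₁` and `V₂`:
  an `H`-RATIONAL normalised Kummer generator of the class of `u` (= START over `F`).
-/

set_option autoImplicit false
set_option linter.unusedSectionVars false
set_option linter.unusedVariables false
set_option linter.style.haveILetI false
set_option synthInstance.maxHeartbeats 400000
set_option maxHeartbeats 1000000

open HahnSeries ModularCurve IntermediateField

namespace Fermat.Agent.S40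

open Fermat.Agent.S18 Fermat.Agent.S24 Fermat.Agent.S34 Fermat.Agent.S36 Fermat.Agent.GalRep
  Fermat.Agent.S33 Fermat.Agent.S19

local notation "Ω" => AlgebraicClosure ℚ

section inst

variable (M p : ℕ) [NeZero (M * p)] (hp : p.Prime) (hpM : ¬ p ∣ M)
  (A : ValuationSubring Ω) (hA : A.LiesOverPrime p)
  (hgen : PrincipalGeneratedByIntegral A (IsLocalRing.residue A) (M * p))
  (H : Subgroup (Ω ≃ₐ[ℚ] Ω)) {ϖ : Ω}

/-- all constants, as a subfield of `F`. -/
noncomputable def S40R2DI_CL : Subfield ↥(modularFunctionFieldBar (M * p)) :=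
  (⊤ : Subfield Ω).map (algebraMap Ω ↥(modularFunctionFieldBar (M * p)))

theorem S40R2DI_mem_CL (c : Ω) :
    algebraMap Ω ↥(modularFunctionFieldBar (M * p)) c ∈ S40R2DI_CL M p :=
  ⟨c, Subfield.mem_top c, rfl⟩

/-- discreteness in the form `v(x) = v(ϖ) ^ k`. -/
theorem S40R2DI_val_eq_of_dv {F : Type*} [Field F] (O : ValuationSubring F) (ϖ x : F)
    (hϖ0 : ϖ ≠ 0) (h : ∃ k : ℤ, O.valuation (x * ϖ ^ k) = 1) :
    ∃ k : ℤ, O.valuation x = O.valuation ϖ ^ k := by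
  obtain ⟨k, hk⟩ := h
  refine ⟨-k, ?_⟩
  have h0 : O.valuation ϖ ^ k ≠ 0 := zpow_ne_zero _ ((map_ne_zero _).mpr hϖ0)
  rw [map_mul, map_zpow₀] at hk
  rw [zpow_neg]
  exact eq_inv_of_mul_eq_one_left hk

/-- a constant which is a unit at an `S18_Val` over `A` is a unit at any other one. -/
theorem S40R2DI_same {k Fk k' Fk' : Type*} [Field k] [Field Fk] [Algebra k Fk] [Field k']
    [Field Fk'] [Algebra k' Fk']
    (T : S18_Val Ω ↥(modularFunctionFieldBar (M * p)) k Fk) (hT : T.A = A)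
    (T' : S18_Val Ω ↥(modularFunctionFieldBar (M * p)) k' Fk') (hT' : T'.A = A)
    (x : ↥(modularFunctionFieldBar (M * p))) (hx : x ∈ S40R2DI_CL M p)
    (h1 : T.O.valuation x = 1) : T'.O.valuation x = 1 := by
  obtain ⟨c, -, rfl⟩ := hx
  obtain ⟨hcA, hvc⟩ := S40F2CI_unit_const M p A T hT c h1
  have hle : T'.O.valuation (algebraMap Ω ↥(modularFunctionFieldBar (M * p)) c) ≤ 1 := by
    rw [ValuationSubring.valuation_le_one_iff, T'.algebraMap_mem_iff, hT']
    exact hcA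
  rcases lt_or_eq_of_le hle with h | h
  · have := (S40F2CI_val_const M p A T' hT' c).1 h
    rw [hvc] at this
    exact absurd this (lt_irrefl _)
  · exact h

include hp hA in
/-- every unit constant is congruent to a constant fixed by `H ≤ I_A`. -/
theorem S40R2DI_lift (hHI : H ≤ A.inertiaSubgroupIn ℚ)
    {k Fk k' Fk' : Type*} [Field k] [Field Fk] [Algebra k Fk] [Field k']
    [Field Fk'] [Algebra k' Fk']
    (T : S18_Val Ω ↥(modularFunctionFieldBar (M * p)) k Fk) (hT : T.A = A)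
    (T' : S18_Val Ω ↥(modularFunctionFieldBar (M * p)) k' Fk') (hT' : T'.A = A)
    (x : ↥(modularFunctionFieldBar (M * p))) (hx : x ∈ S40R2DI_CL M p)
    (h1 : T.O.valuation x = 1) :
    ∃ c' ∈ S40F2CI_C M p H, T.O.valuation (x - c') < 1 ∧ T'.O.valuation (x - c') < 1 := by
  obtain ⟨c, -, rfl⟩ := hx
  obtain ⟨hcA, hvc⟩ := S40F2CI_unit_const M p A T hT c h1
  haveI : Algebra.IsAlgebraic ℚ Ω := AlgebraicClosure.isAlgebraic ℚ
  obtain ⟨a, ha, hfix⟩ := S19TE_exists_lift A hp hA (IsLocalRing.residue A ⟨c, hcA⟩)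
  have hmem : (a : Ω) ∈ (S36FI_act (M * p) H).fixK :=
    (S36FI_mem_fixK (M * p) H).2 (fun τ hτ => hfix τ (hHI hτ))
  have hv : A.valuation (c - (a : Ω)) < 1 := by
    have h2 : IsLocalRing.residue A (⟨c, hcA⟩ - a) = 0 := by
      rw [map_sub, ha, sub_self]
    rw [IsLocalRing.residue_eq_zero_iff, ValuationSubring.valuation_lt_one_iff] at h2
    exact h2
  refine ⟨algebraMap Ω ↥(modularFunctionFieldBar (M * p)) (a : Ω),
    S40F2CI_mem_C M p H hmem, ?_, ?_⟩
  · rw [← map_sub]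
    exact (S40F2CI_val_const M p A T hT _).2 hv
  · rw [← map_sub]
    exact (S40F2CI_val_const M p A T' hT' _).2 hv

/-- `v(π) ^ p = v(ϖ)` passes from `A` to an `S18_Val` over `A`. -/
theorem S40R2DI_pow_val {k Fk : Type*} [Field k] [Field Fk] [Algebra k Fk]
    (T : S18_Val Ω ↥(modularFunctionFieldBar (M * p)) k Fk) (hT : T.A = A)
    (π ϖ : Ω) (hϖ0 : ϖ ≠ 0) (n : ℕ) (h : A.valuation π ^ n = A.valuation ϖ) :
    T.O.valuation (algebraMap Ω ↥(modularFunctionFieldBar (M * p)) π) ^ n =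
      T.O.valuation (algebraMap Ω ↥(modularFunctionFieldBar (M * p)) ϖ) := by
  have hv0 : A.valuation ϖ ≠ 0 := (map_ne_zero _).mpr hϖ0
  have h1 : A.valuation (π ^ n * ϖ⁻¹) = 1 := by
    rw [map_mul, map_pow, map_inv₀, h, mul_inv_cancel₀ hv0]
  have hmem : π ^ n * ϖ⁻¹ ∈ A := (A.valuation_le_one_iff _).mp h1.le
  have h2 : T.O.valuation (algebraMap Ω ↥(modularFunctionFieldBar (M * p)) (π ^ n * ϖ⁻¹)) = 1 := by
    have hle : T.O.valuation (algebraMap Ω ↥(modularFunctionFieldBar (M * p)) (π ^ n * ϖ⁻¹))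
        ≤ 1 := by
      rw [ValuationSubring.valuation_le_one_iff, T.algebraMap_mem_iff, hT]
      exact hmem
    rcases lt_or_eq_of_le hle with h | h
    · have := (S40F2CI_val_const M p A T hT _).1 h
      rw [h1] at this
      exact absurd this (lt_irrefl _)
    · exact h
  rw [map_mul, map_pow, map_inv₀, map_mul, map_pow, map_inv₀] at h2
  have hw0 : T.O.valuation (algebraMap Ω ↥(modularFunctionFieldBar (M * p)) ϖ) ≠ 0 :=
    (map_ne_zero _).mpr ((map_ne_zero _).mpr hϖ0)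
  calc T.O.valuation (algebraMap Ω ↥(modularFunctionFieldBar (M * p)) π) ^ n
      = T.O.valuation (algebraMap Ω ↥(modularFunctionFieldBar (M * p)) π) ^ n *
          (T.O.valuation (algebraMap Ω ↥(modularFunctionFieldBar (M * p)) ϖ))⁻¹ *
          T.O.valuation (algebraMap Ω ↥(modularFunctionFieldBar (M * p)) ϖ) := by
        rw [mul_assoc, inv_mul_cancel₀ hw0, mul_one]
    _ = T.O.valuation (algebraMap Ω ↥(modularFunctionFieldBar (M * p)) ϖ) := by
        rw [h2, one_mul]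

include hA in
/-- **(DESC) on the concrete objects**: an `H`-rational normalised Kummer generator. -/
theorem S40R2DI_main (hU : S33NL2_Unif A H ϖ) (hHI : H ≤ A.inertiaSubgroupIn ℚ)
    (π : Ω) (hπ0 : π ≠ 0) (hπ1 : A.valuation π < 1)
    (hπp : A.valuation π ^ p = A.valuation ϖ)
    (xs : ℕ → Ω) (ys : ℕ → ↥(modularFunctionFieldBar (M * p)))
    (hinj : ∀ k < p, ∀ l < p, xs k = xs l → k = l)
    (hperm : ∀ τ ∈ H, ∀ k < p, ∃ l < p, τ (xs k) = xs l ∧ GR_gal (M * p) τ (ys k) = ys l)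
    (hx0 : xs 0 = π)
    (u : ↥(modularFunctionFieldBar (M * p))) (c : Ω)
    (hu : ∀ τ ∈ H, GR_gal (M * p) τ u = u) (hh0 : ys 0 ≠ 0)
    (hy1 : (S34M_T1 M p A hgen).O.valuation
      (algebraMap Ω ↥(modularFunctionFieldBar (M * p)) c * u * ys 0 ^ p - 1) < 1)
    (hy2 : (S34M_T2 M p hp hpM A hgen).O.valuation
      (algebraMap Ω ↥(modularFunctionFieldBar (M * p)) c * u * ys 0 ^ p - 1) < 1)
    (i : ℕ) (hi : i < p) (k₁ k₂ : ℤ)
    (hv1 : (S34M_T1 M p A hgen).O.valuation (ys 0) =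
      (S34M_T1 M p A hgen).O.valuation (algebraMap Ω ↥(modularFunctionFieldBar (M * p)) ϖ) ^ k₁ *
      (S34M_T1 M p A hgen).O.valuation (algebraMap Ω ↥(modularFunctionFieldBar (M * p)) π) ^ i)
    (hv2 : (S34M_T2 M p hp hpM A hgen).O.valuation (ys 0) =
      (S34M_T2 M p hp hpM A hgen).O.valuation
        (algebraMap Ω ↥(modularFunctionFieldBar (M * p)) ϖ) ^ k₂ *
      (S34M_T2 M p hp hpM A hgen).O.valuation
        (algebraMap Ω ↥(modularFunctionFieldBar (M * p)) π) ^ i) :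
    ∃ (c' : Ω) (h' : ↥(modularFunctionFieldBar (M * p))),
      (∀ τ ∈ H, τ c' = c') ∧ (∀ τ ∈ H, GR_gal (M * p) τ h' = h') ∧ h' ≠ 0 ∧
      (S34M_T1 M p A hgen).O.valuation
        (algebraMap Ω ↥(modularFunctionFieldBar (M * p)) c' * u * h' ^ p - 1) < 1 ∧
      (S34M_T2 M p hp hpM A hgen).O.valuation
        (algebraMap Ω ↥(modularFunctionFieldBar (M * p)) c' * u * h' ^ p - 1) < 1 := by
  have hϖ0 : ϖ ≠ 0 := hU.ne_zero
  have hϖE0 : algebraMap Ω ↥(modularFunctionFieldBar (M * p)) ϖ ≠ 0 := (map_ne_zero _).mpr hϖ0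
  have hπE0 : algebraMap Ω ↥(modularFunctionFieldBar (M * p)) π ≠ 0 := (map_ne_zero _).mpr hπ0
  have hϖK : ϖ ∈ (S36FI_act (M * p) H).fixK := (S36FI_mem_fixK (M * p) H).2 hU.fixed
  -- the expansion of `h = ys 0`
  obtain ⟨a, ha, hexp⟩ := S40R2I_expand p hp.pos
    (fun k => algebraMap Ω ↥(modularFunctionFieldBar (M * p)) (xs k)) ys
    (fun k hk l hl hkl => hinj k hk l hl
      ((algebraMap Ω ↥(modularFunctionFieldBar (M * p))).injective hkl))
    {g | ∃ τ ∈ H, g = ((GR_gal (M * p) τ : ↥(modularFunctionFieldBar (M * p)) ≃+*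
      ↥(modularFunctionFieldBar (M * p))) : ↥(modularFunctionFieldBar (M * p)) →+*
      ↥(modularFunctionFieldBar (M * p)))}
    (S36FI_act (M * p) H).fixF
    (fun z hz => (S36FI_mem_fixF (M * p) H).2 (fun τ hτ => hz _ ⟨τ, hτ, rfl⟩))
    (by
      rintro g ⟨τ, hτ, rfl⟩ k hk
      obtain ⟨l, hl, h1, h2⟩ := hperm τ hτ k hk
      refine ⟨l, hl, ?_, h2⟩
      show GR_gal (M * p) τ (algebraMap Ω ↥(modularFunctionFieldBar (M * p)) (xs k)) = _
      rw [S36LD_gal_algebraMap, h1])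
  simp only [hx0] at hexp
  obtain ⟨c'E, hc'C, h', hh'F, hh'0, hd1, hd2⟩ := S40R2D_main' (S34M_T1 M p A hgen).O
    (S34M_T2 M p hp hpM A hgen).O (S36FI_act (M * p) H).fixF (S40F2CI_C M p H) (S40R2DI_CL M p)
    (S40F2CI_C_le M p H) (algebraMap Ω ↥(modularFunctionFieldBar (M * p)) π)
    (algebraMap Ω ↥(modularFunctionFieldBar (M * p)) ϖ) (S40F2CI_mem_C M p H hϖK)
    (S40R2DI_mem_CL M p ϖ) (S40R2DI_mem_CL M p π) hπE0 hϖE0
    ((S40F2CI_val_const M p A (S34M_T1 M p A hgen) rfl π).2 hπ1)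
    ((S40F2CI_val_const M p A (S34M_T2 M p hp hpM A hgen) rfl π).2 hπ1)
    (S40R2DI_pow_val M p A (S34M_T1 M p A hgen) rfl π ϖ hϖ0 p hπp)
    (S40R2DI_pow_val M p A (S34M_T2 M p hp hpM A hgen) rfl π ϖ hϖ0 p hπp)
    (fun x hx hx0 => S40R2DI_val_eq_of_dv _ _ x hϖE0
      (S40F2CI_dv1 M p hp hpM A hA hgen H hU x hx hx0))
    (fun x hx hx0 => S40R2DI_val_eq_of_dv _ _ x hϖE0
      (S40F2CI_dv2 M p hp hpM A hA hgen H hU x hx hx0))
    (fun x hx h1 => S40R2DI_same M p A (S34M_T1 M p A hgen) rfl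
      (S34M_T2 M p hp hpM A hgen) rfl x hx h1)
    (fun x hx h1 => S40R2DI_lift M p hp A hA H hHI (S34M_T1 M p A hgen) rfl
      (S34M_T2 M p hp hpM A hgen) rfl x hx h1)
    (algebraMap Ω ↥(modularFunctionFieldBar (M * p)) c) u (ys 0) (S40R2DI_mem_CL M p c)
    ((S36FI_mem_fixF (M * p) H).2 hu) hh0 a ha hexp hy1 hy2 i hi k₁ k₂ hv1 hv2
  obtain ⟨c', hc', rfl⟩ := hc'C
  exact ⟨c', h', (S36FI_mem_fixK (M * p) H).1 hc', (S36FI_mem_fixF (M * p) H).1 hh'F, hh'0,
    hd1, hd2⟩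

end inst

end Fermat.Agent.S40
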