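import Mathlib

/-!
# TRACK 13 (row 38), GEO-5 route 2, step (iv), ABSTRACT half (helper19).  Prefix `S40R2E_`.
Mathlib only.

`κ` a field (the function field of `C = X₀(M')` over `k̄`), `Dv` a torsion-free additive group (the
divisors of `C`), `dv : κ → Dv` additive on nonzero functions, `Tb : Dv →+ Dv` (helper10's
`T̄_ℓ` on divisors) and `tb : κ → κ` (the Hecke operator on functions) with
`Tb (dv f) = dv (tb f)`.

If `dv ū = p • D` (the reduction `ū` of a unit Kummer generator is a Kummer generator on `C`) and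
`tb ū = k₀ * ū ^ a * h ^ p` with `dv k₀ = 0` (reduction of `t u = c₀ u ^ a h ^ p`, which says
`T_ℓ x = a x`), then

* `S40R2E_div`   : `Tb D = a • D + dv h`;
* `S40R2E_eigen` : for every class map `q : Dv →+ Pc` killing the principal divisors and every
  `Tq : Pc →+ Pc` with `Tq ∘ q = q ∘ Tb`:  `Tq (q D) = a • q D`;
* `S40R2E_tors`  : `p • q D = 0`;
* `S40R2E_ne_zero` : if the kernel of `q` consists of principal divisors and `ū` is not
  `e * f ^ p` with `dv e = 0`, then `q D ≠ 0`.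
-/

set_option autoImplicit false

namespace Fermat.Agent.S40

variable {κ Dv Pc : Type*} [Field κ] [AddCommGroup Dv] [AddCommGroup Pc]

/-- `dv` of an integer power. -/
theorem S40R2E_dv_zpow (dv : κ → Dv)
    (hmul : ∀ f g : κ, f ≠ 0 → g ≠ 0 → dv (f * g) = dv f + dv g)
    (f : κ) (hf : f ≠ 0) (n : ℤ) : dv (f ^ n) = n • dv f := by
  have h1 : dv (1 : κ) = 0 := by
    have := hmul 1 1 one_ne_zero one_ne_zero
    rw [mul_one] at this
    exact left_eq_add.mp this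
  have hnat : ∀ m : ℕ, dv (f ^ m) = (m : ℤ) • dv f := by
    intro m
    induction m with
    | zero => simp [h1]
    | succ m ih =>
      rw [pow_succ, hmul _ _ (pow_ne_zero m hf) hf, ih]
      push_cast
      rw [add_smul, one_smul]
  have hinv : ∀ g : κ, g ≠ 0 → dv g⁻¹ = - dv g := by
    intro g hg
    have := hmul g g⁻¹ hg (inv_ne_zero hg)
    rw [mul_inv_cancel₀ hg, h1] at this
    exact (neg_eq_of_add_eq_zero_right this.symm).symm
  obtain ⟨m, rfl | rfl⟩ := n.eq_nat_or_neg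
  · rw [zpow_natCast, hnat]
  · rw [zpow_neg, zpow_natCast, hinv _ (pow_ne_zero m hf), hnat, neg_smul]

/-- **(iv), divisor form.** -/
theorem S40R2E_div (p : ℕ) (htf : ∀ d : Dv, p • d = 0 → d = 0)
    (dv : κ → Dv) (hmul : ∀ f g : κ, f ≠ 0 → g ≠ 0 → dv (f * g) = dv f + dv g)
    (Tb : Dv →+ Dv) (tb : κ → κ) (hT : ∀ f : κ, f ≠ 0 → Tb (dv f) = dv (tb f))
    (u k₀ h : κ) (hu : u ≠ 0) (hk₀ : k₀ ≠ 0) (hh : h ≠ 0) (hk : dv k₀ = 0)
    (D : Dv) (hD : dv u = p • D) (a : ℤ)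
    (ht : tb u = k₀ * u ^ a * h ^ p) :
    Tb D = a • D + dv h := by
  have hua : u ^ a ≠ 0 := zpow_ne_zero a hu
  have hhp : h ^ p ≠ 0 := pow_ne_zero p hh
  have h1 : Tb (dv u) = a • dv u + p • dv h := by
    rw [hT u hu, ht, hmul _ _ (mul_ne_zero hk₀ hua) hhp, hmul _ _ hk₀ hua, hk, zero_add,
      S40R2E_dv_zpow dv hmul u hu a]
    congr 1
    have := S40R2E_dv_zpow dv hmul h hh (p : ℤ)
    rw [zpow_natCast, natCast_zsmul] at this
    exact this
  rw [hD, map_nsmul] at h1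
  have h2 : p • (Tb D - (a • D + dv h)) = 0 := by
    rw [smul_sub, h1, smul_add, smul_comm p a D, sub_self]
  exact sub_eq_zero.mp (htf _ h2)

/-- **(iv), class form**: the class of `D` is an eigenclass. -/
theorem S40R2E_eigen (p : ℕ) (htf : ∀ d : Dv, p • d = 0 → d = 0)
    (dv : κ → Dv) (hmul : ∀ f g : κ, f ≠ 0 → g ≠ 0 → dv (f * g) = dv f + dv g)
    (Tb : Dv →+ Dv) (tb : κ → κ) (hT : ∀ f : κ, f ≠ 0 → Tb (dv f) = dv (tb f))
    (q : Dv →+ Pc) (hq : ∀ f : κ, f ≠ 0 → q (dv f) = 0)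
    (Tq : Pc →+ Pc) (hTq : ∀ d : Dv, Tq (q d) = q (Tb d))
    (u k₀ h : κ) (hu : u ≠ 0) (hk₀ : k₀ ≠ 0) (hh : h ≠ 0) (hk : dv k₀ = 0)
    (D : Dv) (hD : dv u = p • D) (a : ℤ)
    (ht : tb u = k₀ * u ^ a * h ^ p) :
    Tq (q D) = a • q D := by
  rw [hTq, S40R2E_div p htf dv hmul Tb tb hT u k₀ h hu hk₀ hh hk D hD a ht, map_add,
    map_zsmul, hq h hh, add_zero]

/-- the class of `D` is killed by `p`. -/
theorem S40R2E_tors (p : ℕ) (dv : κ → Dv) (q : Dv →+ Pc) (hq : ∀ f : κ, f ≠ 0 → q (dv f) = 0)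
    (u : κ) (hu : u ≠ 0) (D : Dv) (hD : dv u = p • D) : p • q D = 0 := by
  rw [← map_nsmul, ← hD, hq u hu]

/-- the class of `D` is nonzero as soon as `ū` is not a constant times a `p`-th power. -/
theorem S40R2E_ne_zero (p : ℕ)
    (dv : κ → Dv) (hmul : ∀ f g : κ, f ≠ 0 → g ≠ 0 → dv (f * g) = dv f + dv g)
    (q : Dv →+ Pc) (hker : ∀ d : Dv, q d = 0 → ∃ f : κ, f ≠ 0 ∧ dv f = d)
    (u : κ) (hu : u ≠ 0) (D : Dv) (hD : dv u = p • D)
    (hnp : ∀ e f : κ, e ≠ 0 → f ≠ 0 → dv e = 0 → u ≠ e * f ^ p) :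
    q D ≠ 0 := by
  intro h0
  obtain ⟨f, hf, hfD⟩ := hker D h0
  have hfp : f ^ p ≠ 0 := pow_ne_zero p hf
  have h1 : dv (f ^ p) = p • D := by
    have := S40R2E_dv_zpow dv hmul f hf (p : ℤ)
    rw [zpow_natCast, natCast_zsmul, hfD] at this
    exact this
  have he : u / f ^ p ≠ 0 := div_ne_zero hu hfp
  have h2 : dv (u / f ^ p) = 0 := by
    have := hmul (u / f ^ p) (f ^ p) he hfp
    rw [div_mul_cancel₀ u hfp, hD, h1] at this
    have h3 : dv (u / f ^ p) + p • D = 0 + p • D := by rw [zero_add]; exact this.symm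
    exact add_right_cancel h3
  exact hnp (u / f ^ p) f he hf h2 (by rw [div_mul_cancel₀ u hfp])

end Fermat.Agent.S40
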