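import Mathlib
import Fermat.Agent.S40.R2InstK
import Fermat.Agent.S40.Geo5Red

/-!
# TRACK 13 (row 38), GEO-5 / G5c, ROUTE 2: the wire with item (i) discharged (helper9).
Prefix `S40R2F_`.

`S40R2IK_main / _core` (S40/R2InstK.lean) with `hT` := `S40G5R_red_zero_bar` (helper10,
S40/Geo5Red.lean).  The ONLY remaining input of route 2 is item (iv): a class `y₀ ∈ J₀(N)(ℚ̄)`
whose reduction modulo `A` (over `p ∤ N`) is a nonzero `p`-torsion class with
`red (T_ℓ y₀) = a_ℓ • red y₀`.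

* `S40R2F_main` : nonzero eigenvector in `k ⊗ parInt N`;
* `S40R2F_core` : `S40W_Core W p M`.
-/

set_option autoImplicit false
set_option linter.unusedSectionVars false
set_option linter.unusedVariables false
set_option linter.style.haveILetI false

open ModularCurve AlgebraicCurve
open scoped TensorProduct

namespace Fermat.Agent.S40

open Fermat.Agent.GalRep Fermat.Agent.S32 Fermat.Agent.S17 Fermat.Agent.S18 Fermat.Agent.S19
  Fermat.Agent.S16 Fermat.Agent.S41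

variable (N : ℕ) [NeZero N] (p : ℕ) [hp : Fact p.Prime] (G : Set Nat.Primes)
variable (A : ValuationSubring (AlgebraicClosure ℚ))

/-- **route 2, only (iv) left**: cohomology form. -/
theorem S40R2F_main (hA : A.LiesOverPrime p) (hpN : ¬ p ∣ N)
    (hG : ∀ ℓ ∈ G, ¬ ((ℓ : Nat.Primes) : ℕ) ∣ N ∧ ((ℓ : Nat.Primes) : ℕ) ≠ p)
    (a : Nat.Primes → ℤ)
    (y₀ : JZero N) (hpc : p • reductionModL A N y₀ = 0) (hc0 : reductionModL A N y₀ ≠ 0)
    (heig : ∀ ℓ ∈ G, reductionModL A N (heckeOperatorBar N ℓ y₀) = a ℓ • reductionModL A N y₀)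
    (k : Type*) [Field k] [CharP k p] :
    ∃ x : k ⊗[ℤ] ↥(parInt N), x ≠ 0 ∧ ∀ ℓ ∈ G,
      (GRD_heckeL N (heckeGen ℓ)).baseChange k x = ((a ℓ : ℤ) : k) • x :=
  S40R2IK_main N p G A hA hpN hG a
    (fun ℓ hℓ y hy => S40G5R_red_zero_bar N A hp.out hA hpN ℓ (hG ℓ hℓ).1 y hy)
    y₀ hpc hc0 heig k

/-- **route 2, only (iv) left**: the core. -/
theorem S40R2F_core (W : WeierstrassCurve ℤ) (M M' : ℕ) [NeZero M'] (hpM : p ∣ M)
    (hM' : M' ∣ M / p) (hpM' : ¬ p ∣ M') (hA : A.LiesOverPrime p)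
    (y₀ : JZero M') (hpc : p • reductionModL A M' y₀ = 0) (hc0 : reductionModL A M' y₀ ≠ 0)
    (heig : ∀ ℓ : Nat.Primes, W.IsGoodPrimeFor ℓ → ¬ (ℓ : ℕ) ∣ M → (ℓ : ℕ) ≠ p →
      reductionModL A M' (heckeOperatorBar M' ℓ y₀)
        = (W.apOfModel ℓ : ℤ) • reductionModL A M' y₀) :
    S40W_Core W p M :=
  S40R2IK_core p A W M M' hpM hM' hpM' hA
    (fun ℓ hℓM' hℓp y hy => S40G5R_red_zero_bar M' A hp.out hA hpM' ℓ hℓM' y hy)
    y₀ hpc hc0 heig

end Fermat.Agent.S40
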