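import Fermat.Agent.S40.F2SlopeInt
import Fermat.Agent.S40.F2JumpNode

/-!
# TRACK 13 (S40/S44, row 38), leaf START, sub-lemma (helper29 for helper28).
Prefix `S40R2HS_`.  Abstract node; imports `S40/F2SlopeInt` + `S40/F2JumpNode`.

`S40R2HS_slope` : `y = a · b` with `a = u_a · ∏ (X − w_a i) ^ (p m_a i)`,
`b = u_b · ∏ (X − w_b i) ^ (p m_b i)` (`u_a`, `u_b` without zero and pole specialising to the node,
the `w` in the open annulus), `y ≡ 1` at `V₁` and at `V₂`, `vL ϖ = p e'`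
⇒ `p ∣ vL (∏ w_a ^ m_a) + vL (∏ w_b ^ m_b)`.

Proof: `S40F2SI_hx` on the disjoint union of the two families, `c₁ = c₂ = 1`, `n = 0`.
USE: `a = σ u_x`, `b = u_x⁻¹`, `y = σ u_x / u_x`: `p ∣ N_s` for the annulus factor
`E_s = E_a · E_b` of `σ h / h`.
-/

set_option autoImplicit false
set_option linter.unusedSectionVars false
set_option linter.unusedVariables false

namespace Fermat.Agent.S40

variable {L F k : Type*} [Field L] [Field F] [Algebra L F] [Field k]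

/-- a finite product of integer powers of nonzero elements of a subfield is nonzero. -/
theorem S40R2HS_prod_ne_zero {ι : Type*} (s : Finset ι) (w : ι → F) (m : ι → ℤ)
    (hw0 : ∀ i ∈ s, w i ≠ 0) : ∏ i ∈ s, w i ^ m i ≠ 0 :=
  Finset.prod_ne_zero_iff.2 (fun i hi => zpow_ne_zero _ (hw0 i hi))

/-- `y ≡ 1` at `O` ⇒ `y` is a unit of `O`. -/
theorem S40R2HS_isU_of_sub_one (O : ValuationSubring F) {y : F} (hy : O.valuation (y - 1) < 1) :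
    S40F2S_IsU O y := by
  have h1 : (1 : F) - y ∈ O.nonunits := by
    rw [ValuationSubring.mem_nonunits_iff, ← Valuation.map_neg, neg_sub]
    exact hy
  have := S40F2S_isU_one_sub h1
  rwa [sub_sub_cancel] at this

theorem S40R2HS_slope (N : S40NA_Node L F k)
    (hfin : ∀ g : F, {Q : S40NA_Pt L F | Q ∈ N.U ∧ g ∉ Q.P}.Finite)
    {X Y ϖ : F} (hXY : X * Y = ϖ) (hX : S40F2S_IsU N.O₁ X) (hY : S40F2S_IsU N.O₂ Y)
    (hXP : S40F2SN_NoZP N X)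
    {Lc : Subfield F} {vL : F → ℤ} (hv : S40F2SI_Val N.O₂ Lc vL)
    {ιa ιb : Type} (sa : Finset ιa) (sb : Finset ιb) (wa : ιa → F) (wb : ιb → F)
    (ma : ιa → ℤ) (mb : ιb → ℤ)
    (hwa0 : ∀ i ∈ sa, wa i ≠ 0) (hwa₁ : ∀ i ∈ sa, wa i ∈ N.O₁.nonunits)
    (hwa₂ : ∀ i ∈ sa, ϖ / wa i ∈ N.O₂.nonunits)
    (hwb0 : ∀ i ∈ sb, wb i ≠ 0) (hwb₁ : ∀ i ∈ sb, wb i ∈ N.O₁.nonunits)
    (hwb₂ : ∀ i ∈ sb, ϖ / wb i ∈ N.O₂.nonunits)
    {ua ub a b y : F} (hua : S40F2SN_NoZP N ua) (hub : S40F2SN_NoZP N ub) (p : ℕ) (hp : p ≠ 0)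
    (ha : a = ua * ∏ i ∈ sa, (X - wa i) ^ ((p : ℤ) * ma i))
    (hb : b = ub * ∏ i ∈ sb, (X - wb i) ^ ((p : ℤ) * mb i))
    (hy : y = a * b)
    (hy₁ : N.O₁.valuation (y - 1) < 1) (hy₂ : N.O₂.valuation (y - 1) < 1)
    (hϖL : ϖ ∈ Lc) (hWa : ∏ i ∈ sa, wa i ^ ma i ∈ Lc) (hWb : ∏ i ∈ sb, wb i ^ mb i ∈ Lc)
    (e' : ℤ) (hϖe : vL ϖ = p * e') :
    (p : ℤ) ∣ vL (∏ i ∈ sa, wa i ^ ma i) + vL (∏ i ∈ sb, wb i ^ mb i) := by
  classical
  -- the disjoint union of the two families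
  have hw0 : ∀ i ∈ sa.disjSum sb, Sum.elim wa wb i ≠ 0 := by
    intro i hi
    rcases Finset.mem_disjSum.1 hi with ⟨j, hj, rfl⟩ | ⟨j, hj, rfl⟩
    · exact hwa0 j hj
    · exact hwb0 j hj
  have hw₁ : ∀ i ∈ sa.disjSum sb, Sum.elim wa wb i ∈ N.O₁.nonunits := by
    intro i hi
    rcases Finset.mem_disjSum.1 hi with ⟨j, hj, rfl⟩ | ⟨j, hj, rfl⟩
    · exact hwa₁ j hj
    · exact hwb₁ j hj
  have hw₂ : ∀ i ∈ sa.disjSum sb, ϖ / Sum.elim wa wb i ∈ N.O₂.nonunits := by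
    intro i hi
    rcases Finset.mem_disjSum.1 hi with ⟨j, hj, rfl⟩ | ⟨j, hj, rfl⟩
    · exact hwa₂ j hj
    · exact hwb₂ j hj
  have hprod : ∏ i ∈ sa.disjSum sb,
      (X - Sum.elim wa wb i) ^ ((p : ℤ) * Sum.elim ma mb i) =
      (∏ i ∈ sa, (X - wa i) ^ ((p : ℤ) * ma i)) *
        ∏ i ∈ sb, (X - wb i) ^ ((p : ℤ) * mb i) := by
    rw [Finset.prod_disjSum]
    rfl
  have hW : ∏ i ∈ sa.disjSum sb, Sum.elim wa wb i ^ Sum.elim ma mb i =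
      (∏ i ∈ sa, wa i ^ ma i) * ∏ i ∈ sb, wb i ^ mb i := by
    rw [Finset.prod_disjSum]
    rfl
  have hu : y = (ua * ub) * ∏ i ∈ sa.disjSum sb,
      (X - Sum.elim wa wb i) ^ ((p : ℤ) * Sum.elim ma mb i) := by
    rw [hprod, hy, ha, hb]
    ring
  have h1F : (1 : F) ∈ (algebraMap L F).fieldRange := ⟨1, map_one _⟩
  -- `y` is a `U1`-unit at `V₁` and a unit at `V₂`
  have hu₁ : S40F2SN_U1 N (y / (1 * X ^ (0 : ℤ))) := by
    have ht : (1 : F) - y ∈ N.O₁.nonunits := by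
      rw [ValuationSubring.mem_nonunits_iff, ← Valuation.map_neg, neg_sub]
      exact hy₁
    have := S40F2SN_u1_one_sub N ht
    rw [sub_sub_cancel] at this
    rw [zpow_zero, mul_one, div_one]
    exact this
  have hu₂ : S40F2S_IsU N.O₂ (y / 1) := by
    rw [div_one]
    exact S40R2HS_isU_of_sub_one N.O₂ hy₂
  have hWL : ∏ i ∈ sa.disjSum sb, Sum.elim wa wb i ^ Sum.elim ma mb i ∈ Lc := by
    rw [hW]
    exact Lc.mul_mem hWa hWb
  obtain ⟨K, hK, hdvd⟩ := S40F2SI_hx N hfin hXY hX hY hXP hv (sa.disjSum sb) (Sum.elim wa wb)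
    (Sum.elim ma mb) hw0 hw₁ hw₂ h1F one_ne_zero (S40F2SN_noZP_mul N hua hub) p hu one_ne_zero 0
    hu₁ hu₂ Lc.one_mem Lc.one_mem hϖL hWL e' hϖe
  -- `K = 0`
  have hK0 : K = 0 := by
    rw [sub_self] at hK
    have hp' : (p : ℤ) ≠ 0 := Int.natCast_ne_zero.2 hp
    rcases mul_eq_zero.1 hK.symm with h | h
    · exact absurd h hp'
    · exact h
  rw [hK0, zero_mul, zero_add, zero_sub, hW,
    hv.mul _ hWa _ hWb (S40R2HS_prod_ne_zero sa wa ma hwa0)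
      (S40R2HS_prod_ne_zero sb wb mb hwb0)] at hdvd
  exact (Int.dvd_neg).1 hdvd

end Fermat.Agent.S40
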