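import Fermat.Agent.S36.BaseLCyc

/-!
# TRACK 13 (S40 / S44), (R2) START: the hypothesis `hpϖ` of `S40PTF_V1/_V2`, `S40R2ST_main`,
`S40R2W_start` for `ϖ = 1 − ζ`, `n = p` (helper12).  Prefix `S40PW_`.

`ζ` a primitive `p`-th root of unity, `A ⊂ ℚ̄` a valuation ring: `v(1 − ζ) ^ (p − 1) = v(p)`
(`S36BL_val_one_sub_zeta`), hence `p (1 − ζ) = (1 − ζ) ^ p · r` with `r` a unit of `A`.

* `S40PW_hpw`  : `∃ r ∈ A, (p : Ω) * (1 − ζ) = (1 − ζ) ^ p * r`;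
* `S40PW_hpw'` : the same for every `n ≤ p`.
-/

set_option autoImplicit false

namespace Fermat.Agent.S40

open Fermat.Agent.S36

local notation "Ω" => AlgebraicClosure ℚ

variable {p : ℕ} [hp : Fact p.Prime] (A : ValuationSubring Ω)

/-- `p (1 − ζ) = (1 − ζ) ^ p · r`, `r ∈ A`. -/
theorem S40PW_hpw {ζ : Ω} (hprim : IsPrimitiveRoot ζ p) :
    ∃ r ∈ A, (p : Ω) * (1 - ζ) = (1 - ζ) ^ p * r := by
  have hv := S36BL_val_one_sub_zeta A hprim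
  have hp1 : 1 < p := hp.out.one_lt
  have hζ1 : ζ ≠ 1 := hprim.ne_one hp1
  have hz0 : (1 - ζ : Ω) ≠ 0 := sub_ne_zero.mpr (Ne.symm hζ1)
  have hzp0 : (1 - ζ : Ω) ^ (p - 1) ≠ 0 := pow_ne_zero _ hz0
  refine ⟨(p : Ω) / (1 - ζ) ^ (p - 1), ?_, ?_⟩
  · rw [← A.valuation_le_one_iff, map_div₀, map_pow, hv]
    have h0 : A.valuation (p : Ω) ≠ 0 :=
      (map_ne_zero _).mpr (Nat.cast_ne_zero.mpr hp.out.ne_zero)
    rw [div_self h0]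
  · have e : (1 - ζ : Ω) ^ p = (1 - ζ) ^ (p - 1) * (1 - ζ) := by
      rw [← pow_succ]
      congr 1
      omega
    rw [e]
    field_simp

/-- `p (1 − ζ) = (1 − ζ) ^ n · r`, `r ∈ A`, for every `n ≤ p`. -/
theorem S40PW_hpw' {ζ : Ω} (hprim : IsPrimitiveRoot ζ p)
    (hζA : (1 - ζ : Ω) ∈ A) {n : ℕ} (hn : n ≤ p) :
    ∃ r ∈ A, (p : Ω) * (1 - ζ) = (1 - ζ) ^ n * r := by
  obtain ⟨r, hr, e⟩ := S40PW_hpw A hprim
  obtain ⟨d, rfl⟩ := Nat.exists_eq_add_of_le hn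
  refine ⟨(1 - ζ) ^ d * r, A.mul_mem _ _ (pow_mem hζA d) hr, ?_⟩
  rw [e, pow_add]
  ring

end Fermat.Agent.S40
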