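import Fermat.Agent.S40.R2SlopeCoord
import Fermat.Agent.S40.R2HSlope

/-!
# TRACK 13 (S40/S44, row 38), leaf START: (R2) valuation form at a node from `hdiv` of `y`
(helper29 for helper28).  Prefix `S40R2HA_`.  Abstract node.

* `S40R2HA_reg_of_pow` : `g ^ n ∈ R` (`n ≠ 0`) ⇒ `g ∈ R` (`R = S40F2K_R N`, the functions without
  pole specialising to the node);
* `S40R2HA_val` : `(σ h / h) ^ p = κ · (σ y / y)`, `hdiv` of `y` (annulus factor `E` of `σ y / y`,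
  `y ≡ 1` at `V₁`, `V₂`), the break `σ π = π w`, `h = Σ_{i<p} a_i π ^ i` over `F₀`
  ⇒ `v_j (h) = v_j (ϖF) ^ k_j · v_j (π) ^ i` with THE SAME `i < p` at `j = 1, 2`.
-/

set_option autoImplicit false
set_option linter.unusedVariables false
set_option linter.unusedSectionVars false

namespace Fermat.Agent.S40

section node

variable {L F k : Type*} [Field L] [Field F] [Algebra L F] [Field k]

/-- a valuation subring contains the roots of its elements. -/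
theorem S40R2HA_mem_of_pow_mem (O : ValuationSubring F) {g : F} {n : ℕ} (hn : n ≠ 0)
    (h : g ^ n ∈ O) : g ∈ O := by
  rw [← ValuationSubring.valuation_le_one_iff] at h ⊢
  rw [map_pow] at h
  by_contra hcon
  have h1 : 1 < O.valuation g := not_le.mp hcon
  have h2 : 1 < O.valuation g ^ n := one_lt_pow₀ h1 hn
  exact absurd h (not_le.mpr h2)

theorem S40R2HA_reg_of_pow (N : S40NA_Node L F k) {g : F} {n : ℕ} (hn : n ≠ 0)
    (h : S40F2K_Reg N (g ^ n)) : S40F2K_Reg N g := by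
  refine ⟨h.1.subset ?_, fun Q hQ hg => h.2 Q hQ ?_⟩
  · rintro Q ⟨hQ, hg⟩
    exact ⟨hQ, fun hc => hg (S40R2HA_mem_of_pow_mem Q.P hn hc)⟩
  · exact fun hc => hg (S40R2HA_mem_of_pow_mem Q.P hn hc)

theorem S40R2HA_val (N : S40NA_Node L F k) {Cf : Subfield F} {vL : F → ℤ}
    {π c X Y ϖ : F} {p : ℕ} {e' : ℤ} (hp : p ≠ 0)
    (hC : S40F2M_Coord N Cf vL π c X Y ϖ p e') {t : ℕ} (ht : 1 ≤ t)
    (σ : F →+* F) {h y : F} (κ : L)
    (hrel : (σ h / h) ^ p = algebraMap L F κ * (σ y / y))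
    (hdiv : ∃ (ι : Type) (s : Finset ι) (w : ι → F) (m : ι → ℤ) (u' E : F),
      (∀ i ∈ s, w i ≠ 0) ∧ (∀ i ∈ s, w i ∈ N.O₁.nonunits) ∧
      (∀ i ∈ s, ϖ / w i ∈ N.O₂.nonunits) ∧
      S40F2SN_NoZP N u' ∧ y = u' * ∏ i ∈ s, (X - w i) ^ ((p : ℤ) * m i) ∧
      ∏ i ∈ s, w i ^ m i ∈ Cf ∧
      S40F2K_Reg N (σ y / y / E ^ p) ∧
      S40F2J_Cg N.O₁.valuation π t E 0 ∧
      S40F2J_Cg N.O₂.valuation π t E (c * ((vL (∏ i ∈ s, w i ^ m i) : ℤ) : F)))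
    (hy₁ : N.O₁.valuation (y - 1) < 1) (hy₂ : N.O₂.valuation (y - 1) < 1)
    {w : F} (hwC : w ∈ Cf) (hσπ : σ π = π * w) (hw : S40F2J_Cg N.O₁.valuation π t w c)
    (F₀ : Subfield F) (ϖF : F)
    (hπp1 : N.O₁.valuation π ^ p = N.O₁.valuation ϖF)
    (hπp2 : N.O₂.valuation π ^ p = N.O₂.valuation ϖF)
    (hdv1 : ∀ x ∈ F₀, x ≠ 0 → ∃ k : ℤ, N.O₁.valuation x = N.O₁.valuation ϖF ^ k)
    (hdv2 : ∀ x ∈ F₀, x ≠ 0 → ∃ k : ℤ, N.O₂.valuation x = N.O₂.valuation ϖF ^ k)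
    (hσF : ∀ x ∈ F₀, σ x = x) (hh0 : h ≠ 0)
    (a : ℕ → F) (ha : ∀ i, a i ∈ F₀) (hexp : h = ∑ i ∈ Finset.range p, a i * π ^ i) :
    ∃ i < p, ∃ k₁ k₂ : ℤ,
      N.O₁.valuation h = N.O₁.valuation ϖF ^ k₁ * N.O₁.valuation π ^ i ∧
      N.O₂.valuation h = N.O₂.valuation ϖF ^ k₂ * N.O₂.valuation π ^ i := by
  classical
  have Nd : S40F2J_Node N.O₁.valuation N.O₂.valuation Cf (S40F2K_R N) π :=
    S40F2K_node N Cf π hC.hCL hC.hA₁ hC.hA₂ hC.hπC hC.hπ0 hC.hπ1 hC.hdisc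
  obtain ⟨ι, s, ww, m, u', E, hw0, hw₁, hw₂, hu', hyf, hW, hReg, E1, E2⟩ := hdiv
  -- `p ∣ Ns`
  have hNs : (p : ℤ) ∣ vL (∏ i ∈ s, ww i ^ m i) := by
    have h1F : (1 : F) ∈ (algebraMap L F).fieldRange := ⟨1, map_one _⟩
    have key := S40R2HS_slope N hC.hfin hC.hXY hC.hX hC.hY hC.hXP hC.hv (ιa := ι) (ιb := Empty)
      s (∅ : Finset Empty) ww (fun _ => (1 : F)) m (fun _ => (0 : ℤ)) hw0 hw₁ hw₂
      (fun i hi => absurd hi (Finset.notMem_empty i))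
      (fun i hi => absurd hi (Finset.notMem_empty i))
      (fun i hi => absurd hi (Finset.notMem_empty i))
      (ua := u') (ub := 1) (a := y) (b := 1) (y := y) hu'
      (S40F2SN_noZP_const N h1F one_ne_zero) p hp hyf
      (by rw [Finset.prod_empty, mul_one]) (mul_one y).symm hy₁ hy₂ hC.hϖL hW
      (by rw [Finset.prod_empty]; exact Cf.one_mem) e' hC.hϖe
    rw [Finset.prod_empty, hC.hv.one, add_zero] at key
    exact key
  -- `σ h / h / E ∈ R`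
  have hR : σ h / h / E ∈ S40F2K_R N := by
    rw [S40F2K_mem_R]
    refine S40R2HA_reg_of_pow N hp ?_
    have e : (σ h / h / E) ^ p = algebraMap L F κ * (σ y / y / E ^ p) := by
      rw [div_pow, hrel, mul_div_assoc]
    rw [e]
    exact (S40F2K_R N).mul_mem (S40F2K_reg_const N κ) hReg
  have hp' : ∀ n : ℤ, N.O₁.valuation (n : F) < 1 → (p : ℤ) ∣ n := fun n hn =>
    hC.hchar n ((ValuationSubring.mem_nonunits_iff _).2 hn)
  have hc1' : N.O₁.valuation c = 1 := hC.hc1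
  exact S40R2S_val N.O₁ N.O₂ F₀ π ϖF hπp1 hπp2 hdv1 hdv2 h hh0 a ha hexp Nd ht hp' σ hσF
    hC.hcC hc1' hwC hσπ hw (vL (∏ i ∈ s, ww i ^ m i)) hNs hR E1 E2

end node

end Fermat.Agent.S40
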