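import Mathlib
import Fermat.Agent.S40.F2JumpNode
import Fermat.Agent.S40.R2Desc

/-!
# TRACK 13 (S40, row 38), (R2) START over `F`: `p ∣ n₁ − n₂` by JUMP (helper28).  Prefix `S40R2S_`.

The one geometric input of helper17's descent `L → F` (`R2Desc.lean`, `S40R2D_main`): the dominant
index of `h = Σ_{i<p} a_i π ^ i` (`a_i ∈ F₀ = F(X)`) is THE SAME at the two Gauss valuations
`V₁`, `V₂` of a node.

Setting (abstract; Mathlib + `F2Jump` + `R2Desc`): `E` a field (the function field `L(X)`), `V₁`,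
`V₂` valuations, `CL` the constants (`= L`), `π` the uniformiser of `L`, `σ` the generator of
`Gal(L/F)` acting on `E`, `σ π = π w`, `w ≡ 1 + c π ^ t mod π ^ (t+1)` (the break, `c` a unit).

* `S40R2S_pow_sub_one` : `w ≡ 1 mod π ^ t ⇒ w ^ i ≡ 1 mod π ^ t`;
* `S40R2S_gap` : strict dominance + discreteness ⇒ dominance with a gap `v(π)`;
* **`S40R2S_cg_dominant`** : (i) `σ h / h ≡ 1 + i₀ c π ^ t mod π ^ (t+1)` when the term `i₀` of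
  `h = Σ a_i π ^ i` is dominant (`σ a_i = a_i`);
* **`S40R2S_jump`** : (ii) JUMP with equal constants: `g ≡ 1 + n_j c π ^ t` at `V_j`, `g / Es` regular
  at the node, `Es ≡ 1` at `V₁`, `Es ≡ 1 + c Ns π ^ t` at `V₂`  ⇒  `p ∣ n₁ − n₂ + Ns`;
* `S40R2S_Es` : the annulus factor of `g = σ h / h` is `Es = σ Φ / Φ` with `Φ = σ Ψ / Ψ`
  (`div h = σ D_x − D_x − D_z`, `σ D_z = D_z`); if `σ Ψ / Ψ` and `σ² Ψ / σ Ψ` have the SAME
  first-order constant at `V₂` (`σ` keeps the radii) then `Es ≡ 1` at `V₁` and at `V₂` (`Ns = 0`);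
* **`S40R2S_index`** : dominant indices `i₁` at `V₁`, `i₂` at `V₂` ⇒ `i₁ = i₂`;
* **`S40R2S_desc`** : helper17's (DESC) `S40R2D_main` with the hypothesis 'same dominant index'
  replaced by the JUMP hypotheses;
* **`S40R2S_val`** : the valuation form `v_j(h) = v_j(ϖ) ^ k_j · v_j(π) ^ i`, the SAME `i < p`
  (the hypothesis of `S40R2D_main'` and of `S40R2DI_main`).
-/

set_option autoImplicit false
set_option linter.unusedVariables false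

namespace Fermat.Agent.S40

section one

variable {E : Type*} [Field E] {Γ : Type*} [LinearOrderedCommGroupWithZero Γ]
variable {V : Valuation E Γ}

/-- `w ≡ 1 mod π ^ t ⇒ w ^ i ≡ 1 mod π ^ t`. -/
theorem S40R2S_pow_sub_one {π w : E} {t : ℕ} (hπ : V π ≤ 1) (hw : V (w - 1) ≤ V π ^ t) (i : ℕ) :
    V (w ^ i - 1) ≤ V π ^ t := by
  induction i with
  | zero => simp
  | succ k ih =>
    have hw1 : V w ≤ 1 := by
      have e : w = (w - 1) + 1 := by ring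
      rw [e]
      exact V.map_add_le (hw.trans (pow_le_one₀ zero_le hπ)) (by rw [map_one])
    have e : w ^ (k + 1) - 1 = w * (w ^ k - 1) + (w - 1) := by ring
    rw [e]
    refine V.map_add_le ?_ hw
    rw [map_mul]
    exact (mul_le_of_le_one_left' hw1).trans ih

/-- strict dominance + discreteness (`v(F₀ˣ) = v(ϖ) ^ ℤ`, `v(π) ^ p = v(ϖ)`) ⇒ dominance with a
gap `v(π)`. -/
theorem S40R2S_gap (F₀ : Subfield E) (π ϖ : E) {p : ℕ} (hπ0 : π ≠ 0) (hπ1 : V π < 1)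
    (hπ : V π ^ p = V ϖ) (hdv : ∀ x ∈ F₀, x ≠ 0 → ∃ k : ℤ, V x = V ϖ ^ k)
    (a : ℕ → E) (ha : ∀ i, a i ∈ F₀) {i i₀ : ℕ} (hai₀ : a i₀ ≠ 0)
    (hlt : V (a i * π ^ i) < V (a i₀ * π ^ i₀)) :
    V (a i * π ^ i) ≤ V π * V (a i₀ * π ^ i₀) := by
  by_cases hai : a i = 0
  · rw [hai, zero_mul, map_zero]
    exact zero_le
  obtain ⟨k, hk⟩ := hdv _ (ha i) hai
  obtain ⟨k', hk'⟩ := hdv _ (ha i₀) hai₀
  have hw0 : V π ≠ 0 := (map_ne_zero V).mpr hπ0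
  have hwpos : 0 < V π := zero_lt_iff.mpr hw0
  have e1 : V (a i * π ^ i) = V π ^ ((p : ℤ) * k + i) := by
    rw [map_mul, map_pow, hk, ← hπ, zpow_add₀ hw0, zpow_mul, zpow_natCast, zpow_natCast]
  have e2 : V (a i₀ * π ^ i₀) = V π ^ ((p : ℤ) * k' + i₀) := by
    rw [map_mul, map_pow, hk', ← hπ, zpow_add₀ hw0, zpow_mul, zpow_natCast, zpow_natCast]
  rw [e1, e2] at hlt ⊢
  have hm : (p : ℤ) * k' + i₀ < (p : ℤ) * k + i := by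
    by_contra hcon
    push Not at hcon
    exact absurd hlt (not_lt.mpr (zpow_le_zpow_right_of_le_one₀ hwpos hπ1.le hcon))
  have hm' : (p : ℤ) * k' + i₀ + 1 ≤ (p : ℤ) * k + i := hm
  calc V π ^ ((p : ℤ) * k + i) ≤ V π ^ ((p : ℤ) * k' + i₀ + 1) :=
        zpow_le_zpow_right_of_le_one₀ hwpos hπ1.le hm'
    _ = V π * V π ^ ((p : ℤ) * k' + i₀) := by
        rw [zpow_add_one₀ hw0, mul_comm]

/-- **(i)**: `σ h / h ≡ 1 + i₀ c π ^ t mod π ^ (t+1)` when the term `i₀` of `h = Σ a_i π ^ i` is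
dominant with a gap, `σ a_i = a_i`, `σ π = π w`, `w ≡ 1 + c π ^ t mod π ^ (t+1)`. -/
theorem S40R2S_cg_dominant (σ : E →+* E) {π c w : E} {t : ℕ} (ht : 1 ≤ t) (hπ0 : π ≠ 0)
    (hπ1 : V π < 1) (hc : V c ≤ 1) (hσπ : σ π = π * w) (hw : S40F2J_Cg V π t w c)
    {p : ℕ} (a : ℕ → E) (ha : ∀ i < p, σ (a i) = a i) {h : E}
    (hh : h = ∑ i ∈ Finset.range p, a i * π ^ i) {i₀ : ℕ} (hi₀ : i₀ < p) (hai₀ : a i₀ ≠ 0)
    (hdom : ∀ i < p, i ≠ i₀ → V (a i * π ^ i) ≤ V π * V (a i₀ * π ^ i₀)) :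
    h ≠ 0 ∧ S40F2J_Cg V π t (σ h / h) ((i₀ : E) * c) := by
  classical
  obtain ⟨T, hT⟩ : ∃ T, T = a i₀ * π ^ i₀ := ⟨_, rfl⟩
  rw [← hT] at hdom
  have hT0 : T ≠ 0 := by
    rw [hT]
    exact mul_ne_zero hai₀ (pow_ne_zero _ hπ0)
  have hVT0 : V T ≠ 0 := (map_ne_zero V).mpr hT0
  have hVTpos : 0 < V T := zero_lt_iff.mpr hVT0
  have hmem : i₀ ∈ Finset.range p := Finset.mem_range.mpr hi₀
  have e1 : h - T = ∑ i ∈ (Finset.range p).erase i₀, a i * π ^ i := by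
    rw [hh, hT, ← Finset.add_sum_erase _ _ hmem]
    ring
  have hπT : V π * V T < V T := by
    calc V π * V T < 1 * V T := mul_lt_mul_of_pos_right hπ1 hVTpos
      _ = V T := one_mul _
  have h2 : V (h - T) < V T := by
    rw [e1]
    apply Valuation.map_sum_lt _ hVT0
    intro i hi
    rw [Finset.mem_erase, Finset.mem_range] at hi
    exact (hdom i hi.2 hi.1).trans_lt hπT
  have hVh : V h = V T := by
    have e : h = T + (h - T) := by ring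
    rw [e]
    exact V.map_add_eq_of_lt_left h2
  have hh0 : h ≠ 0 := by
    intro h0
    rw [h0, map_zero] at hVh
    exact hVT0 hVh.symm
  refine ⟨hh0, ?_⟩
  have hσh : σ h = ∑ i ∈ Finset.range p, a i * π ^ i * w ^ i := by
    rw [hh, map_sum]
    refine Finset.sum_congr rfl (fun i hi => ?_)
    rw [map_mul, map_pow, ha i (Finset.mem_range.mp hi), hσπ, mul_pow, mul_assoc]
  have hw1 : V (w - 1) ≤ V π ^ t := S40F2J_cg_val_sub_one hw hc hπ1.le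
  have e2 : σ h - w ^ i₀ * h
      = ∑ i ∈ (Finset.range p).erase i₀, a i * π ^ i * (w ^ i - w ^ i₀) := by
    rw [hσh, hh, Finset.mul_sum, ← Finset.sum_sub_distrib, ← Finset.add_sum_erase _ _ hmem]
    have e0 : a i₀ * π ^ i₀ * w ^ i₀ - w ^ i₀ * (a i₀ * π ^ i₀) = 0 := by ring
    rw [e0, zero_add]
    refine Finset.sum_congr rfl (fun i _ => ?_)
    ring
  have h3 : V (σ h - w ^ i₀ * h) ≤ V π ^ (t + 1) * V T := by
    rw [e2]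
    apply Valuation.map_sum_le
    intro i hi
    rw [Finset.mem_erase, Finset.mem_range] at hi
    have hwi : V (w ^ i - w ^ i₀) ≤ V π ^ t := by
      have e : w ^ i - w ^ i₀ = (w ^ i - 1) - (w ^ i₀ - 1) := by ring
      rw [e]
      exact V.map_sub_le (S40R2S_pow_sub_one hπ1.le hw1 i) (S40R2S_pow_sub_one hπ1.le hw1 i₀)
    rw [map_mul]
    calc V (a i * π ^ i) * V (w ^ i - w ^ i₀) ≤ (V π * V T) * V π ^ t :=
          mul_le_mul' (hdom i hi.2 hi.1) hwi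
      _ = V π ^ (t + 1) * V T := by
          rw [pow_succ]
          ac_rfl
  have e3 : σ h / h - (1 + (i₀ : E) * c * π ^ t)
      = (σ h - w ^ i₀ * h) / h + (w ^ i₀ - (1 + (i₀ : E) * c * π ^ t)) := by
    field_simp
    ring
  unfold S40F2J_Cg
  rw [e3]
  refine V.map_add_le ?_ (S40F2J_cg_pow hw hc hπ1 ht i₀)
  rw [map_div₀, hVh]
  exact (div_le_iff₀ hVTpos).mpr h3

end one

section jump

variable {F : Type*} [Field F] {Γ₁ Γ₂ : Type*} [LinearOrderedCommGroupWithZero Γ₁]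
  [LinearOrderedCommGroupWithZero Γ₂]
variable {V₁ : Valuation F Γ₁} {V₂ : Valuation F Γ₂} {C : Subfield F} {R : Subring F} {π : F}

/-- a first-order congruence for a CONSTANT passes from `V₁` to `V₂`. -/
theorem S40R2S_cg_const (N : S40F2J_Node V₁ V₂ C R π) {t : ℕ} {w c : F} (hw : w ∈ C) (hc : c ∈ C)
    (h : S40F2J_Cg V₁ π t w c) : S40F2J_Cg V₂ π t w c := by
  unfold S40F2J_Cg at h ⊢
  have hmem : w - (1 + c * π ^ t) ∈ C :=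
    C.sub_mem hw (C.add_mem C.one_mem (C.mul_mem hc (C.pow_mem N.hπC t)))
  exact (N.le_pow_iff hmem (t + 1)).mp h

/-- **(ii) JUMP with equal constants.**  `g ≡ 1 + n_j c π ^ t` at `V_j` (`j = 1, 2`), `g / Es`
regular at the node, `Es ≡ 1` at `V₁`, `Es ≡ 1 + c Ns π ^ t` at `V₂`, `c` a unit, residue
characteristic `p`  ⇒  `p ∣ n₁ − n₂ + Ns`. -/
theorem S40R2S_jump (N : S40F2J_Node V₁ V₂ C R π) {t : ℕ} (ht : 1 ≤ t) (p : ℕ)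
    (hp : ∀ n : ℤ, V₁ (n : F) < 1 → (p : ℤ) ∣ n)
    {g Es c : F} (n₁ n₂ Ns : ℤ) (hR : g / Es ∈ R) (hcC : c ∈ C) (hc1 : V₁ c = 1)
    (H1 : S40F2J_Cg V₁ π t g ((n₁ : F) * c)) (H2 : S40F2J_Cg V₂ π t g ((n₂ : F) * c))
    (E1 : S40F2J_Cg V₁ π t Es 0) (E2 : S40F2J_Cg V₂ π t Es (c * (Ns : F))) :
    (p : ℤ) ∣ n₁ - n₂ + Ns := by
  have hc2 : V₂ c ≤ 1 := (N.hC c hcC).mp hc1.le
  have hγ₁ : V₁ ((n₁ : F) * c) ≤ 1 := S40F2J_val_intCast_mul hc1.le n₁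
  have hγ₂ : V₂ ((n₂ : F) * c) ≤ 1 := S40F2J_val_intCast_mul hc2 n₂
  have hA1 : V₂ (c * (Ns : F)) ≤ 1 := by
    rw [mul_comm]
    exact S40F2J_val_intCast_mul hc2 Ns
  have H1' : S40F2J_Cg V₁ π t (g / 1) ((n₁ : F) * c) := by rwa [div_one]
  have H2' : S40F2J_Cg V₂ π t (g / 1) ((n₂ : F) * c) := by rwa [div_one]
  obtain ⟨δ, -, -, hδc, hδ⟩ := S40F2J_main N ht hR C.one_mem C.one_mem one_ne_zero one_ne_zero
    (C.mul_mem (C.intCast_mem n₁) hcC) (C.mul_mem (C.intCast_mem n₂) hcC)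
    (C.mul_mem hcC (C.intCast_mem Ns)) hγ₁ hγ₂ hA1 H1' H2' E1 E2
  have hδ0 : δ = 0 := by
    have h1 : δ * π ^ t = 0 := by linear_combination -hδc
    exact (mul_eq_zero.mp h1).resolve_right (pow_ne_zero _ N.hπ0)
  subst hδ0
  apply hp
  have e : (n₁ : F) * c - (n₂ : F) * c + c * (Ns : F) - 0
      = c * ((n₁ - n₂ + Ns : ℤ) : F) := by
    push_cast
    ring
  rw [e, map_mul, hc1, one_mul] at hδ
  exact hδ

/-- the annulus factor of `g = σ h / h`: `Es = Φ' / Φ` with `Φ = σ Ψ / Ψ`, `Φ' = σ² Ψ / σ Ψ`, both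
`≡ 1` at `V₁` and both `≡ 1 + c m π ^ t` at `V₂` (the SAME `m`: `σ` keeps the radii).  Then
`Es ≡ 1` at `V₁` and at `V₂`. -/
theorem S40R2S_Es {Γ : Type*} [LinearOrderedCommGroupWithZero Γ] {V : Valuation F Γ} {t : ℕ}
    (ht : 1 ≤ t) (hπ1 : V π < 1) {Φ Φ' A : F} (hA : V A ≤ 1) (h : S40F2J_Cg V π t Φ A)
    (h' : S40F2J_Cg V π t Φ' A) : S40F2J_Cg V π t (Φ' / Φ) 0 := by
  have := S40F2J_cg_div h' h hA hA hπ1 ht
  rwa [sub_self] at this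

/-- **`p ∣ n₁ − n₂`, index form**: the dominant indices of `h = Σ_{i<p} a_i π ^ i` at `V₁` and
at `V₂` are EQUAL. -/
theorem S40R2S_index (N : S40F2J_Node V₁ V₂ C R π) {t : ℕ} (ht : 1 ≤ t) (p : ℕ)
    (hp : ∀ n : ℤ, V₁ (n : F) < 1 → (p : ℤ) ∣ n)
    (σ : F →+* F) {c w : F} (hcC : c ∈ C) (hc1 : V₁ c = 1) (hwC : w ∈ C) (hσπ : σ π = π * w)
    (hw : S40F2J_Cg V₁ π t w c)
    (a : ℕ → F) (ha : ∀ i < p, σ (a i) = a i) {h : F}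
    (hh : h = ∑ i ∈ Finset.range p, a i * π ^ i) {i₁ i₂ : ℕ} (hi₁ : i₁ < p) (hi₂ : i₂ < p)
    (hai₁ : a i₁ ≠ 0) (hai₂ : a i₂ ≠ 0)
    (hdom1 : ∀ i < p, i ≠ i₁ → V₁ (a i * π ^ i) ≤ V₁ π * V₁ (a i₁ * π ^ i₁))
    (hdom2 : ∀ i < p, i ≠ i₂ → V₂ (a i * π ^ i) ≤ V₂ π * V₂ (a i₂ * π ^ i₂))
    {Es : F} (Ns : ℤ) (hNs : (p : ℤ) ∣ Ns) (hR : σ h / h / Es ∈ R)
    (E1 : S40F2J_Cg V₁ π t Es 0) (E2 : S40F2J_Cg V₂ π t Es (c * (Ns : F))) :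
    i₁ = i₂ := by
  have hc2 : V₂ c ≤ 1 := (N.hC c hcC).mp hc1.le
  have hw2 : S40F2J_Cg V₂ π t w c := S40R2S_cg_const N hwC hcC hw
  have H1 := (S40R2S_cg_dominant (V := V₁) σ ht N.hπ0 N.hπ1 hc1.le hσπ hw a ha hh hi₁ hai₁
    hdom1).2
  have H2 := (S40R2S_cg_dominant (V := V₂) σ ht N.hπ0 N.hπ2 hc2 hσπ hw2 a ha hh hi₂ hai₂
    hdom2).2
  have H1' : S40F2J_Cg V₁ π t (σ h / h) (((i₁ : ℤ) : F) * c) := by
    rwa [Int.cast_natCast]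
  have H2' : S40F2J_Cg V₂ π t (σ h / h) (((i₂ : ℤ) : F) * c) := by
    rwa [Int.cast_natCast]
  have key := S40R2S_jump N ht p hp (i₁ : ℤ) (i₂ : ℤ) Ns hR hcC hc1 H1' H2' E1 E2
  have hd : (p : ℤ) ∣ (i₁ : ℤ) - i₂ := by
    have := dvd_sub key hNs
    rwa [add_sub_cancel_right] at this
  -- `|i₁ − i₂| < p`
  have habs : |(i₁ : ℤ) - i₂| < p := by
    rw [abs_lt]
    constructor <;> omega
  have h0 : (i₁ : ℤ) - i₂ = 0 := Int.eq_zero_of_abs_lt_dvd hd habs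
  omega

end jump

section desc

variable {E : Type*} [Field E]

/-- **(R2), descent with JUMP**: helper17's (DESC) `S40R2D_main` with the hypothesis 'the same
dominant index at `O₁` and `O₂`' replaced by the JUMP hypotheses at ONE node:
`Nd : S40F2J_Node V₁ V₂ CL R π` (GLUE), `σ` fixing `F₀`, `σ π = π w`, `w ≡ 1 + c₀ π ^ t`
(`c₀` a unit constant), the annulus factor `Es` of `σ h / h` (`≡ 1` at `V₁`, `≡ 1 + c₀ Ns π ^ t`
at `V₂`, `p ∣ Ns`). -/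
theorem S40R2S_desc (O₁ O₂ : ValuationSubring E) (F₀ C CL : Subfield E) (hC : C ≤ F₀)
    (π ϖ : E) {p : ℕ} (hϖC : ϖ ∈ C) (hϖCL : ϖ ∈ CL) (hπCL : π ∈ CL) (hϖ0 : ϖ ≠ 0)
    (hπp1 : O₁.valuation π ^ p = O₁.valuation ϖ) (hπp2 : O₂.valuation π ^ p = O₂.valuation ϖ)
    (hdv1 : ∀ x ∈ F₀, x ≠ 0 → ∃ k : ℤ, O₁.valuation x = O₁.valuation ϖ ^ k)
    (hdv2 : ∀ x ∈ F₀, x ≠ 0 → ∃ k : ℤ, O₂.valuation x = O₂.valuation ϖ ^ k)
    (hsame : ∀ x ∈ CL, O₁.valuation x = 1 → O₂.valuation x = 1)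
    (hlift : ∀ x ∈ CL, O₁.valuation x = 1 →
      ∃ c' ∈ C, O₁.valuation (x - c') < 1 ∧ O₂.valuation (x - c') < 1)
    (c u h : E) (hc : c ∈ CL) (hu : u ∈ F₀) (hh0 : h ≠ 0)
    (a : ℕ → E) (ha : ∀ i, a i ∈ F₀) (hh : h = ∑ i ∈ Finset.range p, a i * π ^ i)
    (hy1 : O₁.valuation (c * u * h ^ p - 1) < 1) (hy2 : O₂.valuation (c * u * h ^ p - 1) < 1)
    -- the JUMP hypotheses
    {R : Subring E} (Nd : S40F2J_Node O₁.valuation O₂.valuation CL R π) {t : ℕ} (ht : 1 ≤ t)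
    (hp : ∀ n : ℤ, O₁.valuation (n : E) < 1 → (p : ℤ) ∣ n)
    (σ : E →+* E) (hσ : ∀ x ∈ F₀, σ x = x) {c₀ w : E} (hc₀ : c₀ ∈ CL)
    (hc₀1 : O₁.valuation c₀ = 1) (hwC : w ∈ CL) (hσπ : σ π = π * w)
    (hw : S40F2J_Cg O₁.valuation π t w c₀)
    {Es : E} (Ns : ℤ) (hNs : (p : ℤ) ∣ Ns) (hR : σ h / h / Es ∈ R)
    (E1 : S40F2J_Cg O₁.valuation π t Es 0)
    (E2 : S40F2J_Cg O₂.valuation π t Es (c₀ * (Ns : E))) :
    ∃ c' ∈ C, ∃ h' ∈ F₀, h' ≠ 0 ∧ O₁.valuation (c' * u * h' ^ p - 1) < 1 ∧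
      O₂.valuation (c' * u * h' ^ p - 1) < 1 := by
  have hπ0 := Nd.hπ0
  have hπ1 := Nd.hπ1
  have hπ2 := Nd.hπ2
  have hne : ∃ j < p, a j ≠ 0 := by
    by_contra hcon
    push Not at hcon
    apply hh0
    rw [hh]
    apply Finset.sum_eq_zero
    intro j hj
    rw [hcon j (Finset.mem_range.mp hj), zero_mul]
  obtain ⟨i₁, hi₁, hai₁, hdom1⟩ := S40R2D_exists_dominant O₁ F₀ π ϖ hπ0 hπ1 hπp1 hdv1 a ha hne
  obtain ⟨i₂, hi₂, hai₂, hdom2⟩ := S40R2D_exists_dominant O₂ F₀ π ϖ hπ0 hπ2 hπp2 hdv2 a ha hne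
  have hg1 : ∀ i < p, i ≠ i₁ →
      O₁.valuation (a i * π ^ i) ≤ O₁.valuation π * O₁.valuation (a i₁ * π ^ i₁) :=
    fun i hi hne => S40R2S_gap F₀ π ϖ hπ0 hπ1 hπp1 hdv1 a ha hai₁ (hdom1 i hi hne)
  have hg2 : ∀ i < p, i ≠ i₂ →
      O₂.valuation (a i * π ^ i) ≤ O₂.valuation π * O₂.valuation (a i₂ * π ^ i₂) :=
    fun i hi hne => S40R2S_gap F₀ π ϖ hπ0 hπ2 hπp2 hdv2 a ha hai₂ (hdom2 i hi hne)
  have hii : i₁ = i₂ := S40R2S_index Nd ht p hp σ hc₀ hc₀1 hwC hσπ hw a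
    (fun i _ => hσ _ (ha i)) hh hi₁ hi₂ hai₁ hai₂ hg1 hg2 Ns hNs hR E1 E2
  subst hii
  exact S40R2D_main O₁ O₂ F₀ C CL hC π ϖ hϖC hϖCL hπCL hπ0 hϖ0 hdv1 hsame hlift c u h hc hu a ha
    hh hy1 hy2 i₁ hi₁ hai₁ hdom1 hdom2

/-- **(R2), valuation form** (the hypothesis of helper17's `S40R2D_main'` / `S40R2DI_main`):
`v_j(h) = v_j(ϖ) ^ k_j · v_j(π) ^ i` with THE SAME `i < p` at `j = 1, 2`, from the JUMP hypotheses
at one node. -/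
theorem S40R2S_val (O₁ O₂ : ValuationSubring E) (F₀ : Subfield E)
    (π ϖ : E) {p : ℕ}
    (hπp1 : O₁.valuation π ^ p = O₁.valuation ϖ) (hπp2 : O₂.valuation π ^ p = O₂.valuation ϖ)
    (hdv1 : ∀ x ∈ F₀, x ≠ 0 → ∃ k : ℤ, O₁.valuation x = O₁.valuation ϖ ^ k)
    (hdv2 : ∀ x ∈ F₀, x ≠ 0 → ∃ k : ℤ, O₂.valuation x = O₂.valuation ϖ ^ k)
    (h : E) (hh0 : h ≠ 0)
    (a : ℕ → E) (ha : ∀ i, a i ∈ F₀) (hh : h = ∑ i ∈ Finset.range p, a i * π ^ i)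
    -- the JUMP hypotheses
    {CL : Subfield E} {R : Subring E} (Nd : S40F2J_Node O₁.valuation O₂.valuation CL R π)
    {t : ℕ} (ht : 1 ≤ t)
    (hp : ∀ n : ℤ, O₁.valuation (n : E) < 1 → (p : ℤ) ∣ n)
    (σ : E →+* E) (hσ : ∀ x ∈ F₀, σ x = x) {c₀ w : E} (hc₀ : c₀ ∈ CL)
    (hc₀1 : O₁.valuation c₀ = 1) (hwC : w ∈ CL) (hσπ : σ π = π * w)
    (hw : S40F2J_Cg O₁.valuation π t w c₀)
    {Es : E} (Ns : ℤ) (hNs : (p : ℤ) ∣ Ns) (hR : σ h / h / Es ∈ R)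
    (E1 : S40F2J_Cg O₁.valuation π t Es 0)
    (E2 : S40F2J_Cg O₂.valuation π t Es (c₀ * (Ns : E))) :
    ∃ i < p, ∃ k₁ k₂ : ℤ, O₁.valuation h = O₁.valuation ϖ ^ k₁ * O₁.valuation π ^ i ∧
      O₂.valuation h = O₂.valuation ϖ ^ k₂ * O₂.valuation π ^ i := by
  have hπ0 := Nd.hπ0
  have hπ1 := Nd.hπ1
  have hπ2 := Nd.hπ2
  have hne : ∃ j < p, a j ≠ 0 := by
    by_contra hcon
    push Not at hcon
    apply hh0
    rw [hh]
    apply Finset.sum_eq_zero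
    intro j hj
    rw [hcon j (Finset.mem_range.mp hj), zero_mul]
  obtain ⟨i₁, hi₁, hai₁, hdom1⟩ := S40R2D_exists_dominant O₁ F₀ π ϖ hπ0 hπ1 hπp1 hdv1 a ha hne
  obtain ⟨i₂, hi₂, hai₂, hdom2⟩ := S40R2D_exists_dominant O₂ F₀ π ϖ hπ0 hπ2 hπp2 hdv2 a ha hne
  have hg1 : ∀ i < p, i ≠ i₁ →
      O₁.valuation (a i * π ^ i) ≤ O₁.valuation π * O₁.valuation (a i₁ * π ^ i₁) :=
    fun i hi hne => S40R2S_gap F₀ π ϖ hπ0 hπ1 hπp1 hdv1 a ha hai₁ (hdom1 i hi hne)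
  have hg2 : ∀ i < p, i ≠ i₂ →
      O₂.valuation (a i * π ^ i) ≤ O₂.valuation π * O₂.valuation (a i₂ * π ^ i₂) :=
    fun i hi hne => S40R2S_gap F₀ π ϖ hπ0 hπ2 hπp2 hdv2 a ha hai₂ (hdom2 i hi hne)
  have hii : i₁ = i₂ := S40R2S_index Nd ht p hp σ hc₀ hc₀1 hwC hσπ hw a
    (fun i _ => hσ _ (ha i)) hh hi₁ hi₂ hai₁ hai₂ hg1 hg2 Ns hNs hR E1 E2
  subst hii
  have hval : ∀ (O : ValuationSubring E),
      (∀ x ∈ F₀, x ≠ 0 → ∃ k : ℤ, O.valuation x = O.valuation ϖ ^ k) →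
      (∀ i < p, i ≠ i₁ → O.valuation (a i * π ^ i) < O.valuation (a i₁ * π ^ i₁)) →
      ∃ k : ℤ, O.valuation h = O.valuation ϖ ^ k * O.valuation π ^ i₁ := by
    intro O hdv hdom
    have hX0 : a i₁ * π ^ i₁ ≠ 0 := mul_ne_zero hai₁ (pow_ne_zero _ hπ0)
    have h1 := S40R2D_dominant O a π h hh i₁ hi₁ hX0 hdom
    have h2 : O.valuation (h / (a i₁ * π ^ i₁)) = 1 := by
      have e : h / (a i₁ * π ^ i₁) = 1 + (h / (a i₁ * π ^ i₁) - 1) := by ring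
      rw [e]
      exact Valuation.map_one_add_of_lt _ h1
    have hv0 : O.valuation (a i₁ * π ^ i₁) ≠ 0 := (map_ne_zero _).mpr hX0
    rw [map_div₀] at h2
    have h3 : O.valuation h = O.valuation (a i₁ * π ^ i₁) := (div_eq_one_iff_eq hv0).mp h2
    obtain ⟨k, hk⟩ := hdv (a i₁) (ha i₁) hai₁
    exact ⟨k, by rw [h3, map_mul, map_pow, hk]⟩
  obtain ⟨k₁, hk₁⟩ := hval O₁ hdv1 hdom1
  obtain ⟨k₂, hk₂⟩ := hval O₂ hdv2 hdom2
  exact ⟨i₁, hi₁, k₁, k₂, hk₁, hk₂⟩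

end desc

end Fermat.Agent.S40
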