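import Mathlib
import Fermat.Agent.S40.F2PolyInst2
import Fermat.Agent.S40.R2Slope

/-!
# TRACK 13 (S40, row 38), (R2) START over `F`: `p ∣ n₁ − n₂` AT A NODE (helper28).
Prefix `S40R2T_`.

The instance of `S40/R2Slope.lean` (`S40R2S_val`) at a node `N : S40NA_Node L F k` of helper26, with
the annulus factor of helper1's (A1) (`S40/F2PolyInst2.lean`).  The hole `Es` of `R2Slope` is
FILLED: for `h ^ p = r · σ u / u` (`r` without zero and pole centred at the node) helper1's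
annulus factor is `E = σ Ψ / Ψ` with `h / E` without zero and pole centred at the node, so
`Es := σ E / E` is the annulus factor of `σ h / h` and `Es ≡ 1` at `V₁` AND at `V₂`
(`σ` keeps the Gauss valuations).

* `S40R2T_cg_sigma` : `x ≡ 1 + A π ^ t ⇒ σ x ≡ 1 + A π ^ t` (`V ∘ σ = V`, `σ A ≡ A mod π`,
  `σ π = π w`, `w ≡ 1 mod π ^ t`);
* `S40R2T_hdiv_noZP` : helper1's `S40F2YK_hdiv_core` with the conclusion `NoZP (h / E)` (same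
  proof, same hypotheses);
* `S40R2T_Es` : the three hypotheses `hR`, `E1`, `E2` of `S40R2S_val` for `Es := σ E / E`, `Ns = 0`;
* **`S40R2T_val`** : `v_j(h) = v_j(ϖF) ^ k_j · v_j(π) ^ i` with THE SAME `i < p` at `j = 1, 2`
  (the hypothesis of helper17's `S40R2D_main'` / `S40R2DI_main`), from helper1's hypotheses of
  (A1), the node hypotheses of `S40F2M_Coord`, the break, and `V_j ∘ σ = V_j`.
-/

set_option autoImplicit false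
set_option linter.unusedVariables false

namespace Fermat.Agent.S40

open Finset Polynomial

section abs

variable {F : Type*} [Field F] {Γ : Type*} [LinearOrderedCommGroupWithZero Γ]

/-- `x ≡ 1 + A π ^ t mod π ^ (t+1)` ⇒ `σ x ≡ 1 + A π ^ t mod π ^ (t+1)`. -/
theorem S40R2T_cg_sigma {V : Valuation F Γ} (σ : F →+* F) (hσV : ∀ x, V (σ x) = V x)
    {π w x A : F} {t : ℕ} (ht : 1 ≤ t) (hπ1 : V π < 1) (hA : V A ≤ 1)
    (hσA : V (σ A - A) ≤ V π) (hσπ : σ π = π * w) (hw : V (w - 1) ≤ V π ^ t)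
    (hx : S40F2J_Cg V π t x A) : S40F2J_Cg V π t (σ x) A := by
  unfold S40F2J_Cg at hx ⊢
  have hwt : V (w ^ t - 1) ≤ V π ^ t := S40R2S_pow_sub_one hπ1.le hw t
  have hwt1 : V (w ^ t) ≤ 1 := by
    have e : w ^ t = (w ^ t - 1) + 1 := by ring
    rw [e]
    exact V.map_add_le (hwt.trans (pow_le_one₀ zero_le hπ1.le)) (by rw [map_one])
  have hπt : V π ^ t ≤ V π := by
    calc V π ^ t ≤ V π ^ 1 := pow_le_pow_right_of_le_one' hπ1.le ht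
      _ = V π := pow_one _
  have e : σ x - (1 + A * π ^ t)
      = σ (x - (1 + A * π ^ t)) + π ^ t * ((σ A - A) * w ^ t + A * (w ^ t - 1)) := by
    rw [map_sub, map_add, map_one, map_mul, map_pow, hσπ, mul_pow]
    ring
  rw [e]
  refine V.map_add_le ?_ ?_
  · rw [hσV]
    exact hx
  · rw [map_mul, map_pow, pow_succ]
    refine mul_le_mul' le_rfl ?_
    refine V.map_add_le ?_ ?_
    · rw [map_mul]
      exact (mul_le_of_le_one_right' hwt1).trans hσA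
    · rw [map_mul]
      exact (mul_le_of_le_one_left' hA).trans (hwt.trans hπt)

end abs

section node

variable {L F k : Type*} [Field L] [Field F] [Algebra L F] [Field k]

/-- helper1's (A1) `S40F2YK_hdiv_core` with the conclusion `NoZP (h / E)` (same proof). -/
theorem S40R2T_hdiv_noZP (N : S40NA_Node L F k) {X Y ϖ : F} (HX : S40F2YI_Hyp N X)
    (Cf : Subfield F) (vL : F → ℤ) (π c : F) (p t : ℕ) (hp : p ≠ 0) (ht : 1 ≤ t) (σ : F →+* F)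
    (hCL : ∀ a ∈ Cf, ∃ b : L, algebraMap L F b = a)
    (hπ₁ : π ∈ N.O₁.nonunits) (hπ₂ : π ∈ N.O₂.nonunits)
    (hv : S40F2SI_Val N.O₂ Cf vL) (hc₂ : c ∈ N.O₂)
    (hXY : X * Y = ϖ) (hX : S40F2S_IsU N.O₁ X) (hY : S40F2S_IsU N.O₂ Y) (hϖL : ϖ ∈ Cf)
    (hσX : σ X = X) (hσϖ : σ ϖ = ϖ)
    (hrange : ∀ (Q : S40NA_Pt L F) (hQ : Q ∈ N.U), S40NA_Centred N Q hQ →
      algebraMap L F (S40F2N_at Q X) ≠ 0 ∧ algebraMap L F (S40F2N_at Q X) ∈ N.O₁.nonunits ∧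
        ϖ / algebraMap L F (S40F2N_at Q X) ∈ N.O₂.nonunits)
    (hσZP : ∀ g : F, S40F2SN_NoZP N g → S40F2SN_NoZP N (σ g))
    (hint₁ : ∀ a ∈ Cf, a ∈ N.O₁ → N.O₁.valuation (σ a - a) ≤ N.O₁.valuation π ^ (t + 1))
    (hint₂ : ∀ a ∈ Cf, a ∈ N.O₂ → N.O₂.valuation (σ a - a) ≤ N.O₂.valuation π ^ (t + 1))
    (hB : ∀ a ∈ Cf, a ≠ 0 → S40F2J_Cg N.O₂.valuation π t (σ a / a) (c * ((vL a : ℤ) : F)))
    (Hs : Set (F →+* F))
    (hCfix : ∀ b : L, (∀ g ∈ Hs, g (algebraMap L F b) = algebraMap L F b) →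
      algebraMap L F b ∈ Cf)
    (hHC : ∀ g ∈ Hs, ∀ a ∈ Cf, g a = a) (hHX : ∀ g ∈ Hs, g X = X)
    (hact : ∀ g ∈ Hs, ∃ τ : S40NA_Pt L F → S40NA_Pt L F, S40F2YK_Act N g τ)
    {u h r : F} (hu0 : u ≠ 0) (hHu : ∀ g ∈ Hs, g u = u)
    (hpow : ∀ (Q : S40NA_Pt L F) (hQ : Q ∈ N.U), S40NA_Centred N Q hQ →
      ∃ g : F, g ≠ 0 ∧ S40F2S_IsU Q.P (u / g ^ p))
    (hr : S40F2SN_NoZP N r) (hh : h ^ p = r * (σ u / u)) :
    ∃ (E : F) (n : ℤ), S40F2SN_NoZP N (h / E) ∧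
      S40F2J_Cg N.O₁.valuation π t E 0 ∧
      S40F2J_Cg N.O₂.valuation π t E (c * (n : F)) := by
  classical
  obtain ⟨s, m, hs, hm, hNoZP⟩ := S40F2YI_factor_pow HX hu0 p hpow
  set w : S40NA_Pt L F → F := fun Q => algebraMap L F (S40F2N_at Q X) with hw
  have htw : ∀ Q, S40F2YI_t X Q = X - w Q := fun Q => rfl
  have hpZ : (p : ℤ) ≠ 0 := by exact_mod_cast hp
  -- facts on the family
  have hfact : ∀ Q ∈ s, w Q ≠ 0 ∧ w Q ∈ N.O₁.nonunits ∧ ϖ / w Q ∈ N.O₂.nonunits := by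
    intro Q hQs
    obtain ⟨hQ, hc, -⟩ := (hs Q).1 hQs
    exact hrange Q hQ hc
  have hX0 : X ≠ 0 := hX.ne_zero
  have hY0 : Y ≠ 0 := hY.ne_zero
  have hϖ0 : ϖ ≠ 0 := by rw [← hXY]; exact mul_ne_zero hX0 hY0
  have hπ₁' : N.O₁.valuation π < 1 := (ValuationSubring.mem_nonunits_iff _).1 hπ₁
  have hπ₂' : N.O₂.valuation π < 1 := (ValuationSubring.mem_nonunits_iff _).1 hπ₂
  -- the permutations
  have hperm : ∀ g ∈ Hs, ∃ τ : S40NA_Pt L F → S40NA_Pt L F, (∀ Q ∈ s, τ Q ∈ s) ∧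
      Set.InjOn τ (s : Set (S40NA_Pt L F)) ∧ (∀ Q ∈ s, g (w Q) = w (τ Q)) ∧
      (∀ Q ∈ s, m (τ Q) = m Q) := by
    intro g hg
    obtain ⟨τ, hτ⟩ := hact g hg
    exact ⟨τ, S40F2YK_perm HX hτ (hHX g hg) (hHu g hg) s m (p : ℤ) hpZ hs hm⟩
  have hpermN : ∀ (f : ℤ → ℕ) (g : F →+* F), g ∈ Hs → ∃ τ : S40NA_Pt L F → S40NA_Pt L F,
      (∀ Q ∈ s, τ Q ∈ s) ∧ Set.InjOn τ (s : Set (S40NA_Pt L F)) ∧
      (∀ Q ∈ s, g (w Q) = w (τ Q)) ∧ (∀ Q ∈ s, f (m (τ Q)) = f (m Q)) := by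
    intro f g hg
    obtain ⟨τ, h1, h2, h3, h4⟩ := hperm g hg
    exact ⟨τ, h1, h2, h3, fun Q hQ => by rw [h4 Q hQ]⟩
  have hpermN₂ : ∀ (f : ℤ → ℕ) (g : F →+* F), g ∈ Hs → ∃ τ : S40NA_Pt L F → S40NA_Pt L F,
      (∀ Q ∈ s, τ Q ∈ s) ∧ Set.InjOn τ (s : Set (S40NA_Pt L F)) ∧
      (∀ Q ∈ s, g (ϖ / w Q) = ϖ / w (τ Q)) ∧ (∀ Q ∈ s, f (m (τ Q)) = f (m Q)) := by
    intro f g hg
    obtain ⟨τ, h1, h2, h3, h4⟩ := hperm g hg
    exact ⟨τ, h1, h2, fun Q hQ => by rw [map_div₀, hHC g hg ϖ hϖL, h3 Q hQ],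
      fun Q hQ => by rw [h4 Q hQ]⟩
  -- constants
  set K₀ : Subfield F := (algebraMap L F).fieldRange with hK₀
  have hCfix' : ∀ a : F, a ∈ K₀ → (∀ g ∈ Hs, g a = a) → a ∈ Cf := by
    rintro a ⟨b, rfl⟩ h
    exact hCfix b h
  have hwK : ∀ Q ∈ s, w Q ∈ K₀ := fun Q _ => ⟨_, rfl⟩
  have hϖK : ϖ ∈ K₀ := by
    obtain ⟨b, hb⟩ := hCL ϖ hϖL
    exact ⟨b, hb⟩
  have hwK₂ : ∀ Q ∈ s, ϖ / w Q ∈ K₀ := fun Q hQ => K₀.div_mem hϖK (hwK Q hQ)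
  have hwO₁ : ∀ Q ∈ s, w Q ∈ N.O₁.toSubring := fun Q hQ =>
    ValuationSubring.nonunits_subset (hfact Q hQ).2.1
  have hwO₂ : ∀ Q ∈ s, ϖ / w Q ∈ N.O₂.toSubring := fun Q hQ =>
    ValuationSubring.nonunits_subset (hfact Q hQ).2.2
  -- the congruences of the coefficients
  have hG₁ : ∀ (f : ℤ → ℕ) (n : ℕ), N.O₁.valuation
      (σ ((∏ Q ∈ s, (1 - Polynomial.C (w Q) * Polynomial.X) ^ f (m Q)).coeff n)
        - (∏ Q ∈ s, (1 - Polynomial.C (w Q) * Polynomial.X) ^ f (m Q)).coeff n)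
      ≤ N.O₁.valuation π ^ (t + 1) := by
    intro f n
    obtain ⟨h1, h2⟩ := S40F2YK_coeff_mem K₀ Cf N.O₁.toSubring Hs hCfix' s w
      (fun Q => f (m Q)) hwK hwO₁ (hpermN f) n
    exact hint₁ _ h1 h2
  have hG₂ : ∀ (f : ℤ → ℕ) (n : ℕ), N.O₂.valuation
      (σ ((∏ Q ∈ s, (1 - Polynomial.C (ϖ / w Q) * Polynomial.X) ^ f (m Q)).coeff n)
        - (∏ Q ∈ s, (1 - Polynomial.C (ϖ / w Q) * Polynomial.X) ^ f (m Q)).coeff n)
      ≤ N.O₂.valuation π ^ (t + 1) := by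
    intro f n
    obtain ⟨h1, h2⟩ := S40F2YK_coeff_mem K₀ Cf N.O₂.toSubring Hs hCfix' s
      (fun Q => ϖ / w Q) (fun Q => f (m Q)) hwK₂ hwO₂ (hpermN₂ f) n
    exact hint₂ _ h1 h2
  -- the constants `a⁺`, `a⁻`
  have haC : ∀ f : ℤ → ℕ, ∏ Q ∈ s, w Q ^ f (m Q) ∈ Cf := fun f =>
    S40F2YK_prod_mem K₀ Cf Hs hCfix' s w (fun Q => f (m Q)) hwK (hpermN f)
  have ha0 : ∀ f : ℤ → ℕ, ∏ Q ∈ s, w Q ^ f (m Q) ≠ 0 := fun f =>
    Finset.prod_ne_zero_iff.2 (fun Q hQ => pow_ne_zero _ (hfact Q hQ).1)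
  have hsplit : ∏ Q ∈ s, w Q ^ m Q =
      (∏ Q ∈ s, w Q ^ (m Q).toNat) / (∏ Q ∈ s, w Q ^ (-m Q).toNat) :=
    S40F2YK_prod_split s w (fun Q hQ => (hfact Q hQ).1) m
  have haCf : ∏ Q ∈ s, w Q ^ m Q ∈ Cf := by
    rw [hsplit]
    exact Cf.div_mem (haC Int.toNat) (haC (fun z => (-z).toNat))
  have hvL : vL (∏ Q ∈ s, w Q ^ m Q) =
      vL (∏ Q ∈ s, w Q ^ (m Q).toNat) - vL (∏ Q ∈ s, w Q ^ (-m Q).toNat) := by
    rw [hsplit]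
    exact hv.div (haC Int.toNat) (haC (fun z => (-z).toNat)) (ha0 Int.toNat)
      (ha0 (fun z => (-z).toNat))
  -- the annulus factor
  set Ψ : F := ∏ Q ∈ s, (X - w Q) ^ m Q with hΨ
  have hne : ∀ Q ∈ s, X - w Q ≠ 0 := by
    intro Q hQ h0
    have h1 : X = w Q := sub_eq_zero.1 h0
    have h2 := (ValuationSubring.mem_nonunits_iff _).1 (hfact Q hQ).2.1
    rw [← h1] at h2
    have h3 : N.O₁.valuation X = 1 := hX
    rw [h3] at h2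
    exact lt_irrefl _ h2
  have hΨ0 : Ψ ≠ 0 := Finset.prod_ne_zero_iff.2 (fun Q hQ => zpow_ne_zero _ (hne Q hQ))
  have hΨp : Ψ ^ p = ∏ Q ∈ s, (X - w Q) ^ ((p : ℤ) * m Q) := by
    rw [hΨ, ← Finset.prod_pow]
    refine Finset.prod_congr rfl (fun Q _ => ?_)
    rw [mul_comm (p : ℤ) (m Q), zpow_mul, zpow_natCast]
  have hval_c : ∀ z : ℤ, N.O₂.valuation (c * (z : F)) ≤ 1 := by
    intro z
    rw [map_mul]
    have h1 : N.O₂.valuation c ≤ 1 := (ValuationSubring.valuation_le_one_iff _ _).2 hc₂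
    have h2 : N.O₂.valuation (z : F) ≤ 1 := S40F2J_val_intCast z
    calc N.O₂.valuation c * N.O₂.valuation (z : F) ≤ 1 * 1 := mul_le_mul' h1 h2
      _ = 1 := one_mul 1
  have hY' : N.O₂.valuation (X / ϖ) = 1 := by
    have e : X / ϖ = Y⁻¹ := by
      rw [← hXY]
      field_simp
    rw [e]
    exact hY.inv
  have hw₂ : ∀ Q ∈ s, N.O₂.valuation (X / w Q) < 1 := by
    intro Q hQ
    have e : X / w Q = X / ϖ * (ϖ / w Q) := by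
      have := (hfact Q hQ).1
      field_simp
    rw [e, map_mul, hY', one_mul]
    exact (ValuationSubring.mem_nonunits_iff _).1 (hfact Q hQ).2.2
  have E1 : S40F2J_Cg N.O₁.valuation π t (σ Ψ / Ψ) 0 :=
    S40F2YK_E_one s w m hX hσX
      (fun Q hQ => (ValuationSubring.mem_nonunits_iff _).1 (hfact Q hQ).2.1) hπ₁' ht
      (hG₁ Int.toNat) (hG₁ (fun z => (-z).toNat))
  have E2 : S40F2J_Cg N.O₂.valuation π t (σ Ψ / Ψ)
      (c * ((vL (∏ Q ∈ s, w Q ^ m Q) : ℤ) : F)) := by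
    have := S40F2YK_E_two (V := N.O₂.valuation) (σ := σ) (π := π) (i := t) s w m hϖ0 hY' hσX
      hσϖ (fun Q hQ => (hfact Q hQ).1) hw₂ (hval_c _) (hval_c _) hπ₂' ht
      (hB _ (haC Int.toNat) (ha0 Int.toNat))
      (hB _ (haC (fun z => (-z).toNat)) (ha0 (fun z => (-z).toNat)))
      (hG₂ Int.toNat) (hG₂ (fun z => (-z).toNat))
    refine S40F2J_cg_congr_eq this ?_
    rw [hvL]
    push_cast
    ring
  refine ⟨σ Ψ / Ψ, vL (∏ Q ∈ s, w Q ^ m Q), ?_, E1, E2⟩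
  exact S40F2YI_noZP_quot N σ hσZP hp hΨ0
    (div_mul_cancel₀ _ (pow_ne_zero _ hΨ0)).symm hNoZP hr hh

/-- the hypotheses `hR`, `E1`, `E2` of `S40R2S_val` for `Es := σ E / E` (`Ns = 0`). -/
theorem S40R2T_Es (N : S40NA_Node L F k)
    (hfin : ∀ g : F, {Q : S40NA_Pt L F | Q ∈ N.U ∧ g ∉ Q.P}.Finite) (σ : F →+* F)
    (hσZP : ∀ g : F, S40F2SN_NoZP N g → S40F2SN_NoZP N (σ g))
    (hσV₁ : ∀ x, N.O₁.valuation (σ x) = N.O₁.valuation x)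
    (hσV₂ : ∀ x, N.O₂.valuation (σ x) = N.O₂.valuation x)
    {π w A h E : F} {t : ℕ} (ht : 1 ≤ t)
    (hπ₁ : N.O₁.valuation π < 1) (hπ₂ : N.O₂.valuation π < 1)
    (hσπ : σ π = π * w) (hw₁ : N.O₁.valuation (w - 1) ≤ N.O₁.valuation π ^ t)
    (hw₂ : N.O₂.valuation (w - 1) ≤ N.O₂.valuation π ^ t)
    (hA : N.O₂.valuation A ≤ 1) (hσA : N.O₂.valuation (σ A - A) ≤ N.O₂.valuation π)
    (hE : S40F2SN_NoZP N (h / E))
    (E1 : S40F2J_Cg N.O₁.valuation π t E 0) (E2 : S40F2J_Cg N.O₂.valuation π t E A) :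
    σ h / h / (σ E / E) ∈ S40F2K_R N ∧
      S40F2J_Cg N.O₁.valuation π t (σ E / E) 0 ∧
      S40F2J_Cg N.O₂.valuation π t (σ E / E) 0 := by
  refine ⟨?_, ?_, ?_⟩
  · have h1 : S40F2SN_NoZP N (σ (h / E) / (h / E)) := S40F2SN_noZP_div N (hσZP _ hE) hE
    have e : σ (h / E) / (h / E) = σ h / h / (σ E / E) := by
      rw [map_div₀]
      simp only [div_eq_mul_inv, mul_inv, inv_inv]
      ring
    rw [e] at h1
    exact S40F2YI_reg N (hfin _) h1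
  · have h0 : N.O₁.valuation (0 : F) ≤ 1 := by simp
    have hσ0 : N.O₁.valuation (σ (0 : F) - 0) ≤ N.O₁.valuation π := by simp
    exact S40R2S_Es ht hπ₁ h0 E1 (S40R2T_cg_sigma σ hσV₁ ht hπ₁ h0 hσ0 hσπ hw₁ E1)
  · exact S40R2S_Es ht hπ₂ hA E2 (S40R2T_cg_sigma σ hσV₂ ht hπ₂ hA hσA hσπ hw₂ E2)

/-- **(R2), `p ∣ n₁ − n₂` at a node**: `v_j(h) = v_j(ϖF) ^ k_j · v_j(π) ^ i` with THE SAME
`i < p` at `j = 1, 2`. -/
theorem S40R2T_val (N : S40NA_Node L F k) {X Y ϖ : F} (HX : S40F2YI_Hyp N X)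
    (Cf : Subfield F) (vL : F → ℤ) (π c : F) (p t : ℕ) (hp : p ≠ 0) (ht : 1 ≤ t) (σ : F →+* F)
    -- helper1's hypotheses of (A1), verbatim
    (hCL : ∀ a ∈ Cf, ∃ b : L, algebraMap L F b = a)
    (hπ₁ : π ∈ N.O₁.nonunits) (hπ₂ : π ∈ N.O₂.nonunits)
    (hv : S40F2SI_Val N.O₂ Cf vL) (hc₂ : c ∈ N.O₂)
    (hXY : X * Y = ϖ) (hX : S40F2S_IsU N.O₁ X) (hY : S40F2S_IsU N.O₂ Y) (hϖL : ϖ ∈ Cf)
    (hσX : σ X = X) (hσϖ : σ ϖ = ϖ)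
    (hrange : ∀ (Q : S40NA_Pt L F) (hQ : Q ∈ N.U), S40NA_Centred N Q hQ →
      algebraMap L F (S40F2N_at Q X) ≠ 0 ∧ algebraMap L F (S40F2N_at Q X) ∈ N.O₁.nonunits ∧
        ϖ / algebraMap L F (S40F2N_at Q X) ∈ N.O₂.nonunits)
    (hσZP : ∀ g : F, S40F2SN_NoZP N g → S40F2SN_NoZP N (σ g))
    (hint₁ : ∀ a ∈ Cf, a ∈ N.O₁ → N.O₁.valuation (σ a - a) ≤ N.O₁.valuation π ^ (t + 1))
    (hint₂ : ∀ a ∈ Cf, a ∈ N.O₂ → N.O₂.valuation (σ a - a) ≤ N.O₂.valuation π ^ (t + 1))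
    (hB : ∀ a ∈ Cf, a ≠ 0 → S40F2J_Cg N.O₂.valuation π t (σ a / a) (c * ((vL a : ℤ) : F)))
    (Hs : Set (F →+* F))
    (hCfix : ∀ b : L, (∀ g ∈ Hs, g (algebraMap L F b) = algebraMap L F b) →
      algebraMap L F b ∈ Cf)
    (hHC : ∀ g ∈ Hs, ∀ a ∈ Cf, g a = a) (hHX : ∀ g ∈ Hs, g X = X)
    (hact : ∀ g ∈ Hs, ∃ τ : S40NA_Pt L F → S40NA_Pt L F, S40F2YK_Act N g τ)
    {u h r : F} (hu0 : u ≠ 0) (hHu : ∀ g ∈ Hs, g u = u)
    (hpow : ∀ (Q : S40NA_Pt L F) (hQ : Q ∈ N.U), S40NA_Centred N Q hQ →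
      ∃ g : F, g ≠ 0 ∧ S40F2S_IsU Q.P (u / g ^ p))
    (hr : S40F2SN_NoZP N r) (hh : h ^ p = r * (σ u / u))
    -- the node (fields of `S40F2M_Coord`)
    (hA₁ : ∀ a : L, algebraMap L F a ∈ N.O₁ → a ∈ N.A)
    (hA₂ : ∀ a : L, algebraMap L F a ∈ N.O₂ → a ∈ N.A)
    (hπC : π ∈ Cf) (hπ0 : π ≠ 0)
    (hdisc : ∀ a ∈ Cf, a ∈ N.O₁.nonunits → a / π ∈ N.O₁)
    (hcC : c ∈ Cf) (hc1 : S40F2S_IsU N.O₁ c)
    (hchar : ∀ n : ℤ, (n : F) ∈ N.O₁.nonunits → (p : ℤ) ∣ n)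
    -- `σ` keeps the Gauss valuations; the break
    (hσV₁ : ∀ x, N.O₁.valuation (σ x) = N.O₁.valuation x)
    (hσV₂ : ∀ x, N.O₂.valuation (σ x) = N.O₂.valuation x)
    {w : F} (hwC : w ∈ Cf) (hσπ : σ π = π * w) (hw : S40F2J_Cg N.O₁.valuation π t w c)
    -- the expansion `h = Σ a_i π ^ i` over `F₀` (discretely valued with uniformiser `ϖF`)
    (F₀ : Subfield F) (ϖF : F)
    (hπp1 : N.O₁.valuation π ^ p = N.O₁.valuation ϖF)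
    (hπp2 : N.O₂.valuation π ^ p = N.O₂.valuation ϖF)
    (hdv1 : ∀ x ∈ F₀, x ≠ 0 → ∃ k : ℤ, N.O₁.valuation x = N.O₁.valuation ϖF ^ k)
    (hdv2 : ∀ x ∈ F₀, x ≠ 0 → ∃ k : ℤ, N.O₂.valuation x = N.O₂.valuation ϖF ^ k)
    (hσF : ∀ x ∈ F₀, σ x = x) (hh0 : h ≠ 0)
    (a : ℕ → F) (ha : ∀ i, a i ∈ F₀) (hexp : h = ∑ i ∈ Finset.range p, a i * π ^ i) :
    ∃ i < p, ∃ k₁ k₂ : ℤ,
      N.O₁.valuation h = N.O₁.valuation ϖF ^ k₁ * N.O₁.valuation π ^ i ∧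
      N.O₂.valuation h = N.O₂.valuation ϖF ^ k₂ * N.O₂.valuation π ^ i := by
  have Nd : S40F2J_Node N.O₁.valuation N.O₂.valuation Cf (S40F2K_R N) π :=
    S40F2K_node N Cf π hCL hA₁ hA₂ hπC hπ0 hπ₁ hdisc
  have hπ₁' : N.O₁.valuation π < 1 := Nd.hπ1
  have hπ₂' : N.O₂.valuation π < 1 := Nd.hπ2
  have hc1' : N.O₁.valuation c = 1 := hc1
  have hc₂' : N.O₂.valuation c ≤ 1 := (ValuationSubring.valuation_le_one_iff _ _).mpr hc₂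
  have hw₂C : S40F2J_Cg N.O₂.valuation π t w c := S40R2S_cg_const Nd hwC hcC hw
  have hw₁ : N.O₁.valuation (w - 1) ≤ N.O₁.valuation π ^ t :=
    S40F2J_cg_val_sub_one hw hc1'.le hπ₁'.le
  have hw₂ : N.O₂.valuation (w - 1) ≤ N.O₂.valuation π ^ t :=
    S40F2J_cg_val_sub_one hw₂C hc₂' hπ₂'.le
  obtain ⟨E, n, hE, E1, E2⟩ := S40R2T_hdiv_noZP N HX Cf vL π c p t hp ht σ hCL hπ₁ hπ₂ hv hc₂
    hXY hX hY hϖL hσX hσϖ hrange hσZP hint₁ hint₂ hB Hs hCfix hHC hHX hact hu0 hHu hpow hr hh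
  have hA : N.O₂.valuation (c * (n : F)) ≤ 1 := by
    rw [mul_comm]
    exact S40F2J_val_intCast_mul hc₂' n
  have hσA : N.O₂.valuation (σ (c * (n : F)) - c * (n : F)) ≤ N.O₂.valuation π := by
    have e : σ (c * (n : F)) - c * (n : F) = (n : F) * (σ c - c) := by
      rw [map_mul, map_intCast]
      ring
    rw [e, map_mul]
    refine (mul_le_of_le_one_left' (S40F2J_val_intCast n)).trans ((hint₂ c hcC hc₂).trans ?_)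
    calc N.O₂.valuation π ^ (t + 1) ≤ N.O₂.valuation π ^ 1 :=
          pow_le_pow_right_of_le_one' hπ₂'.le (by omega)
      _ = N.O₂.valuation π := pow_one _
  obtain ⟨hR, Es1, Es2⟩ := S40R2T_Es N HX.hfin σ hσZP hσV₁ hσV₂ ht hπ₁' hπ₂' hσπ hw₁ hw₂ hA hσA
    hE E1 E2
  have Es2' : S40F2J_Cg N.O₂.valuation π t (σ E / E) (c * (((0 : ℤ) : F))) := by
    rw [Int.cast_zero, mul_zero]
    exact Es2
  have hp' : ∀ n : ℤ, N.O₁.valuation (n : F) < 1 → (p : ℤ) ∣ n :=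
    fun n hn => hchar n ((ValuationSubring.mem_nonunits_iff _).mpr hn)
  exact S40R2S_val N.O₁ N.O₂ F₀ π ϖF hπp1 hπp2 hdv1 hdv2 h hh0 a ha hexp Nd ht hp' σ hσF hcC
    hc1' hwC hσπ hw 0 (dvd_zero _) hR Es1 Es2'

end node

end Fermat.Agent.S40
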