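import Mathlib
import Fermat.Agent.S40.R2SlopeNode

/-!
# TRACK 13 (S40, row 38), (R2): `p ∣ n₁ − n₂` at a node WITHOUT `NoZP` of `u_z` (helper28).
Prefix `S40R2T_` (continued).

`S40R2T_val'` : the same as `S40R2T_val` (`S40/R2SlopeNode.lean`) for `h` with
`(h · Ψz) ^ p = r · σ u / u`, `σ Ψz = Ψz`, `r` without zero and pole centred at the node:
`Ψz` = the annulus part of the `F`-rational generator `u_z` of `z` (`u_z = u_z' · Ψz ^ p`),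
`r = (c_σ u_z')⁻¹`.  So (R2) does NOT need that the divisor of `u_z` is off the annulus.
-/

set_option autoImplicit false
set_option linter.unusedVariables false

namespace Fermat.Agent.S40

open Finset Polynomial

section node

variable {L F k : Type*} [Field L] [Field F] [Algebra L F] [Field k]

/-- **(R2), `p ∣ n₁ − n₂` at a node**, with an annulus part `Ψz` of `u_z` (`σ Ψz = Ψz`). -/
theorem S40R2T_val' (N : S40NA_Node L F k) {X Y ϖ : F} (HX : S40F2YI_Hyp N X)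
    (Cf : Subfield F) (vL : F → ℤ) (π c : F) (p t : ℕ) (hp : p ≠ 0) (ht : 1 ≤ t) (σ : F →+* F)
    -- helper1's hypotheses of (A1), verbatim
    (hCL : ∀ a ∈ Cf, ∃ b : L, algebraMap L F b = a)
    (hπ₁ : π ∈ N.O₁.nonunits) (hπ₂ : π ∈ N.O₂.nonunits)
    (hv : S40F2SI_Val N.O₂ Cf vL) (hc₂ : c ∈ N.O₂)
    (hXY : X * Y = ϖ) (hX : S40F2S_IsU N.O₁ X) (hY : S40F2S_IsU N.O₂ Y) (hϖL : ϖ ∈ Cf)
    (hσX : σ X = X) (hσϖ : σ ϖ = ϖ)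
    (hrange : ∀ (Q : S40NA_Pt L F) (hQ : Q ∈ N.U), S40NA_Centred N Q hQ →
      algebraMap L F (S40F2N_at Q X) ≠ 0 ∧ algebraMap L F (S40F2N_at Q X) ∈ N.O₁.nonunits ∧
        ϖ / algebraMap L F (S40F2N_at Q X) ∈ N.O₂.nonunits)
    (hσZP : ∀ g : F, S40F2SN_NoZP N g → S40F2SN_NoZP N (σ g))
    (hint₁ : ∀ a ∈ Cf, a ∈ N.O₁ → N.O₁.valuation (σ a - a) ≤ N.O₁.valuation π ^ (t + 1))
    (hint₂ : ∀ a ∈ Cf, a ∈ N.O₂ → N.O₂.valuation (σ a - a) ≤ N.O₂.valuation π ^ (t + 1))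
    (hB : ∀ a ∈ Cf, a ≠ 0 → S40F2J_Cg N.O₂.valuation π t (σ a / a) (c * ((vL a : ℤ) : F)))
    (Hs : Set (F →+* F))
    (hCfix : ∀ b : L, (∀ g ∈ Hs, g (algebraMap L F b) = algebraMap L F b) →
      algebraMap L F b ∈ Cf)
    (hHC : ∀ g ∈ Hs, ∀ a ∈ Cf, g a = a) (hHX : ∀ g ∈ Hs, g X = X)
    (hact : ∀ g ∈ Hs, ∃ τ : S40NA_Pt L F → S40NA_Pt L F, S40F2YK_Act N g τ)
    {u h r : F} (hu0 : u ≠ 0) (hHu : ∀ g ∈ Hs, g u = u)
    (hpow : ∀ (Q : S40NA_Pt L F) (hQ : Q ∈ N.U), S40NA_Centred N Q hQ →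
      ∃ g : F, g ≠ 0 ∧ S40F2S_IsU Q.P (u / g ^ p))
    (hr : S40F2SN_NoZP N r) {Ψz : F} (hΨ0 : Ψz ≠ 0) (hσΨ : σ Ψz = Ψz)
    (hh : (h * Ψz) ^ p = r * (σ u / u))
    -- the node (fields of `S40F2M_Coord`)
    (hA₁ : ∀ a : L, algebraMap L F a ∈ N.O₁ → a ∈ N.A)
    (hA₂ : ∀ a : L, algebraMap L F a ∈ N.O₂ → a ∈ N.A)
    (hπC : π ∈ Cf) (hπ0 : π ≠ 0)
    (hdisc : ∀ a ∈ Cf, a ∈ N.O₁.nonunits → a / π ∈ N.O₁)
    (hcC : c ∈ Cf) (hc1 : S40F2S_IsU N.O₁ c)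
    (hchar : ∀ n : ℤ, (n : F) ∈ N.O₁.nonunits → (p : ℤ) ∣ n)
    -- `σ` keeps the Gauss valuations; the break
    (hσV₁ : ∀ x, N.O₁.valuation (σ x) = N.O₁.valuation x)
    (hσV₂ : ∀ x, N.O₂.valuation (σ x) = N.O₂.valuation x)
    {w : F} (hwC : w ∈ Cf) (hσπ : σ π = π * w) (hw : S40F2J_Cg N.O₁.valuation π t w c)
    -- the expansion `h = Σ a_i π ^ i` over `F₀` (discretely valued with uniformiser `ϖF`)
    (F₀ : Subfield F) (ϖF : F)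
    (hπp1 : N.O₁.valuation π ^ p = N.O₁.valuation ϖF)
    (hπp2 : N.O₂.valuation π ^ p = N.O₂.valuation ϖF)
    (hdv1 : ∀ x ∈ F₀, x ≠ 0 → ∃ k : ℤ, N.O₁.valuation x = N.O₁.valuation ϖF ^ k)
    (hdv2 : ∀ x ∈ F₀, x ≠ 0 → ∃ k : ℤ, N.O₂.valuation x = N.O₂.valuation ϖF ^ k)
    (hσF : ∀ x ∈ F₀, σ x = x) (hh0 : h ≠ 0)
    (a : ℕ → F) (ha : ∀ i, a i ∈ F₀) (hexp : h = ∑ i ∈ Finset.range p, a i * π ^ i) :
    ∃ i < p, ∃ k₁ k₂ : ℤ,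
      N.O₁.valuation h = N.O₁.valuation ϖF ^ k₁ * N.O₁.valuation π ^ i ∧
      N.O₂.valuation h = N.O₂.valuation ϖF ^ k₂ * N.O₂.valuation π ^ i := by
  have Nd : S40F2J_Node N.O₁.valuation N.O₂.valuation Cf (S40F2K_R N) π :=
    S40F2K_node N Cf π hCL hA₁ hA₂ hπC hπ0 hπ₁ hdisc
  have hπ₁' : N.O₁.valuation π < 1 := Nd.hπ1
  have hπ₂' : N.O₂.valuation π < 1 := Nd.hπ2
  have hc1' : N.O₁.valuation c = 1 := hc1
  have hc₂' : N.O₂.valuation c ≤ 1 := (ValuationSubring.valuation_le_one_iff _ _).mpr hc₂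
  have hw₂C : S40F2J_Cg N.O₂.valuation π t w c := S40R2S_cg_const Nd hwC hcC hw
  have hw₁ : N.O₁.valuation (w - 1) ≤ N.O₁.valuation π ^ t :=
    S40F2J_cg_val_sub_one hw hc1'.le hπ₁'.le
  have hw₂ : N.O₂.valuation (w - 1) ≤ N.O₂.valuation π ^ t :=
    S40F2J_cg_val_sub_one hw₂C hc₂' hπ₂'.le
  obtain ⟨E, n, hE, E1, E2⟩ := S40R2T_hdiv_noZP N HX Cf vL π c p t hp ht σ hCL hπ₁ hπ₂ hv hc₂
    hXY hX hY hϖL hσX hσϖ hrange hσZP hint₁ hint₂ hB Hs hCfix hHC hHX hact hu0 hHu hpow hr hh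
  have hA : N.O₂.valuation (c * (n : F)) ≤ 1 := by
    rw [mul_comm]
    exact S40F2J_val_intCast_mul hc₂' n
  have hσA : N.O₂.valuation (σ (c * (n : F)) - c * (n : F)) ≤ N.O₂.valuation π := by
    have e : σ (c * (n : F)) - c * (n : F) = (n : F) * (σ c - c) := by
      rw [map_mul, map_intCast]
      ring
    rw [e, map_mul]
    refine (mul_le_of_le_one_left' (S40F2J_val_intCast n)).trans ((hint₂ c hcC hc₂).trans ?_)
    calc N.O₂.valuation π ^ (t + 1) ≤ N.O₂.valuation π ^ 1 :=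
          pow_le_pow_right_of_le_one' hπ₂'.le (by omega)
      _ = N.O₂.valuation π := pow_one _
  obtain ⟨hR', Es1, Es2⟩ := S40R2T_Es N HX.hfin σ hσZP hσV₁ hσV₂ ht hπ₁' hπ₂' hσπ hw₁ hw₂ hA hσA
    hE E1 E2
  have hR : σ h / h / (σ E / E) ∈ S40F2K_R N := by
    have e : σ (h * Ψz) / (h * Ψz) = σ h / h := by
      rw [map_mul, hσΨ, mul_div_mul_right _ _ hΨ0]
    rw [e] at hR'
    exact hR'
  have Es2' : S40F2J_Cg N.O₂.valuation π t (σ E / E) (c * (((0 : ℤ) : F))) := by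
    rw [Int.cast_zero, mul_zero]
    exact Es2
  have hp' : ∀ n : ℤ, N.O₁.valuation (n : F) < 1 → (p : ℤ) ∣ n :=
    fun n hn => hchar n ((ValuationSubring.mem_nonunits_iff _).mpr hn)
  exact S40R2S_val N.O₁ N.O₂ F₀ π ϖF hπp1 hπp2 hdv1 hdv2 h hh0 a ha hexp Nd ht hp' σ hσF hcC
    hc1' hwC hσπ hw 0 (dvd_zero _) hR Es1 Es2'

end node

end Fermat.Agent.S40
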