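import Fermat.Agent.S40.F2MainGen
import Fermat.Agent.S40.R2SlopeNode2

/-!
# TRACK 13 (S40, row 38), (R2): `p ∣ n₁ − n₂` from `S40F2M_Coord` and the leaves (helper28).
Prefix `S40R2T_` (continued).

`S40R2T_val_coord` : `S40R2T_val'` (`S40/R2SlopeNode2.lean`) with the SAME inputs as helper16's
`S40F2MG_gen` (`hC : S40F2M_Coord …`, `HX`, the break on the constants, the action of `H` on the
places, the generator facts with an annulus part `Ψz` of `u_z`), plus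
`hσV₁`, `hσV₂` (`S40R2V_V1/_V2` or `S40GV_V1/_V2`), the break of `π` in the form
`σ π / π ≡ 1 + c π ^ t` (`S40F2YB_pi`) and helper17's expansion `h = Σ a_i π ^ i`.
Output: `v_j(h) = v_j(ϖF) ^ k_j · v_j(π) ^ i` with THE SAME `i < p` (`hv1`, `hv2` of `S40R2DI_main`).
-/

set_option autoImplicit false
set_option linter.unusedVariables false

namespace Fermat.Agent.S40

variable {L F k : Type*} [Field L] [Field F] [Algebra L F] [Field k]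

/-- **(R2), `p ∣ n₁ − n₂`, from `S40F2M_Coord` and the leaves of `S40F2MG_gen`.** -/
theorem S40R2T_val_coord (N : S40NA_Node L F k) {C : Subfield F} {vL : F → ℤ} {π c X Y ϖ : F}
    {p : ℕ} (hp : p ≠ 0) {e' : ℤ} (hC : S40F2M_Coord N C vL π c X Y ϖ p e')
    (HX : S40F2YI_Hyp N X) {t : ℕ} (ht : 1 ≤ t) (σ : F →+* F)
    (hσX : σ X = X) (hσϖ : σ ϖ = ϖ)
    (hrange : ∀ (Q : S40NA_Pt L F) (hQ : Q ∈ N.U), S40NA_Centred N Q hQ →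
      algebraMap L F (S40F2N_at Q X) ≠ 0 ∧ algebraMap L F (S40F2N_at Q X) ∈ N.O₁.nonunits ∧
        ϖ / algebraMap L F (S40F2N_at Q X) ∈ N.O₂.nonunits)
    (hσZP : ∀ g : F, S40F2SN_NoZP N g → S40F2SN_NoZP N (σ g))
    (hint₁ : ∀ a ∈ C, a ∈ N.O₁ → N.O₁.valuation (σ a - a) ≤ N.O₁.valuation π ^ (t + 1))
    (hint₂ : ∀ a ∈ C, a ∈ N.O₂ → N.O₂.valuation (σ a - a) ≤ N.O₂.valuation π ^ (t + 1))
    (hB : ∀ a ∈ C, a ≠ 0 → S40F2J_Cg N.O₂.valuation π t (σ a / a) (c * ((vL a : ℤ) : F)))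
    (Hs : Set (F →+* F))
    (hCfix : ∀ b : L, (∀ g ∈ Hs, g (algebraMap L F b) = algebraMap L F b) →
      algebraMap L F b ∈ C)
    (hHC : ∀ g ∈ Hs, ∀ a ∈ C, g a = a) (hHX : ∀ g ∈ Hs, g X = X)
    (hact : ∀ g ∈ Hs, ∃ τ : S40NA_Pt L F → S40NA_Pt L F, S40F2YK_Act N g τ)
    {u h r : F} (hu0 : u ≠ 0) (hHu : ∀ g ∈ Hs, g u = u)
    (hpow : ∀ (Q : S40NA_Pt L F) (hQ : Q ∈ N.U), S40NA_Centred N Q hQ →
      ∃ g : F, g ≠ 0 ∧ S40F2S_IsU Q.P (u / g ^ p))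
    (hr : S40F2SN_NoZP N r) {Ψz : F} (hΨ0 : Ψz ≠ 0) (hσΨ : σ Ψz = Ψz)
    (hh : (h * Ψz) ^ p = r * (σ u / u))
    -- `σ` keeps the Gauss valuations; the break of `π`
    (hσV₁ : ∀ x, N.O₁.valuation (σ x) = N.O₁.valuation x)
    (hσV₂ : ∀ x, N.O₂.valuation (σ x) = N.O₂.valuation x)
    (hσπC : σ π ∈ C) (hw : S40F2J_Cg N.O₁.valuation π t (σ π / π) c)
    -- the expansion `h = Σ a_i π ^ i` over `F₀` (discretely valued with uniformiser `ϖF`)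
    (F₀ : Subfield F) (ϖF : F)
    (hπp1 : N.O₁.valuation π ^ p = N.O₁.valuation ϖF)
    (hπp2 : N.O₂.valuation π ^ p = N.O₂.valuation ϖF)
    (hdv1 : ∀ x ∈ F₀, x ≠ 0 → ∃ k : ℤ, N.O₁.valuation x = N.O₁.valuation ϖF ^ k)
    (hdv2 : ∀ x ∈ F₀, x ≠ 0 → ∃ k : ℤ, N.O₂.valuation x = N.O₂.valuation ϖF ^ k)
    (hσF : ∀ x ∈ F₀, σ x = x) (hh0 : h ≠ 0)
    (a : ℕ → F) (ha : ∀ i, a i ∈ F₀) (hexp : h = ∑ i ∈ Finset.range p, a i * π ^ i) :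
    ∃ i < p, ∃ k₁ k₂ : ℤ,
      N.O₁.valuation h = N.O₁.valuation ϖF ^ k₁ * N.O₁.valuation π ^ i ∧
      N.O₂.valuation h = N.O₂.valuation ϖF ^ k₂ * N.O₂.valuation π ^ i := by
  have hσπ : σ π = π * (σ π / π) := by
    rw [mul_div_cancel₀ _ hC.hπ0]
  exact S40R2T_val' N HX C vL π c p t hp ht σ hC.hCL hC.hπ1 (S40F2MG_pi₂ N hC) hC.hv
    (S40F2MG_c₂ N hC) hC.hXY hC.hX hC.hY hC.hϖL hσX hσϖ hrange hσZP hint₁ hint₂ hB Hs hCfix hHC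
    hHX hact hu0 hHu hpow hr hΨ0 hσΨ hh hC.hA₁ hC.hA₂ hC.hπC hC.hπ0 hC.hdisc hC.hcC hC.hc1
    hC.hchar hσV₁ hσV₂ (C.div_mem hσπC hC.hπC) hσπ hw F₀ ϖF hπp1 hπp2 hdv1 hdv2 hσF hh0 a ha hexp

end Fermat.Agent.S40
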