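import Fermat.Agent.S34.Asm3
import Fermat.Agent.S34.StraightFrob
import Fermat.Agent.S36.Val3Eq
import Fermat.Agent.S36.BaseLZeta

/-!
# TRACK 13 (S40, row 38), (R2): the Galois action keeps the two Gauss valuations (helper28).
Prefix `S40R2V_`.

The hypotheses `hσV₁`, `hσV₂` of `S40R2T_val` (`S40/R2SlopeNode.lean`) on the REAL objects:
level `M q`, `A ⊂ Ω = ℚ̄` a valuation ring, `τ` in the decomposition group of `A` (e.g. in the
inertia group), `O₁ = (S34M_T1 …).O`, `O₂ = (S34M_T2 …).O` the two Gauss valuation rings of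
`F = ℚ̄(X₀(M q))`:

* `S40R2V_abs` : abstract form (a ring automorphism `g` with `g f ∈ O ↔ f ∈ O` keeps the value of
  `c · u`, `u` a unit, as soon as it keeps the value of `c`);
* `S40R2V_gauss` : `v_O(τ f) = v_O(f)` for every `S18_Gauss` datum over `A` whose ring is kept by
  `τ`;
* **`S40R2V_V1`**, **`S40R2V_V2`** : `v_j(GR_gal τ f) = v_j(f)` at `V₁` and `V₂`.
-/

set_option autoImplicit false
set_option linter.unusedSectionVars false
set_option linter.unusedVariables false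
set_option linter.style.haveILetI false
set_option synthInstance.maxHeartbeats 400000
set_option maxHeartbeats 1000000

open HahnSeries ModularCurve IntermediateField

namespace Fermat.Agent.S40

open Fermat.Agent.S18 Fermat.Agent.S24 Fermat.Agent.S34 Fermat.Agent.S36 Fermat.Agent.GalRep

local notation "Ω" => AlgebraicClosure ℚ

section abs

variable {F : Type*} [Field F]

/-- `x ≠ 0`, `x, x⁻¹ ∈ O` ⇒ `v(x) = 1`. -/
theorem S40R2V_val_one_of_mem (O : ValuationSubring F) {x : F} (hx0 : x ≠ 0) (h1 : x ∈ O)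
    (h2 : x⁻¹ ∈ O) : O.valuation x = 1 := by
  have h1' := (O.valuation_le_one_iff x).mpr h1
  have h2' := (O.valuation_le_one_iff _).mpr h2
  have hv0 : O.valuation x ≠ 0 := (map_ne_zero _).mpr hx0
  rw [map_inv₀, inv_le_one₀ (zero_lt_iff.mpr hv0)] at h2'
  exact le_antisymm h1' h2'

/-- `v(x) = 1` ⇒ `x, x⁻¹ ∈ O`, `x ≠ 0`. -/
theorem S40R2V_mem_of_val_one (O : ValuationSubring F) {x : F} (h : O.valuation x = 1) :
    x ≠ 0 ∧ x ∈ O ∧ x⁻¹ ∈ O := by
  refine ⟨?_, (O.valuation_le_one_iff x).mp h.le, (O.valuation_le_one_iff _).mp ?_⟩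
  · rintro rfl
    rw [map_zero] at h
    exact zero_ne_one h
  · rw [map_inv₀, h, inv_one]

/-- a ring automorphism which keeps `O` keeps the units of `O`. -/
theorem S40R2V_unit (O : ValuationSubring F) (g : F ≃+* F) (hO : ∀ f : F, f ∈ O → g f ∈ O)
    {u : F} (hu : O.valuation u = 1) : O.valuation (g u) = 1 := by
  obtain ⟨hu0, h1, h2⟩ := S40R2V_mem_of_val_one O hu
  refine S40R2V_val_one_of_mem O ((map_ne_zero g).mpr hu0) (hO u h1) ?_
  rw [← map_inv₀]
  exact hO _ h2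

/-- **abstract form**: `g` keeps `O`, `f = c u`, `u` a unit, `v(g c) = v(c)` ⇒ `v(g f) = v(f)`. -/
theorem S40R2V_abs (O : ValuationSubring F) (g : F ≃+* F) (hO : ∀ f : F, f ∈ O → g f ∈ O)
    {f c u : F} (hf : f = c * u) (hu : O.valuation u = 1)
    (hc : O.valuation (g c) = O.valuation c) : O.valuation (g f) = O.valuation f := by
  rw [hf, map_mul, map_mul, map_mul, hc, hu, S40R2V_unit O g hO hu]

end abs

section gauss

variable (N : ℕ) [NeZero N] (A : ValuationSubring Ω)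
  {k Fk : Type*} [Field k] [Field Fk] [Algebra k Fk]

/-- `v_O(τ c) = v_O(c)` for a constant `c` and `τ` in the decomposition group. -/
theorem S40R2V_const (G : S18_Gauss Ω ↥(modularFunctionFieldBar N) k Fk) (hGA : G.A = A)
    (τ : Ω ≃ₐ[ℚ] Ω) (hτ : τ ∈ A.decompositionSubgroup ℚ) (c : Ω) :
    G.O.valuation (algebraMap Ω ↥(modularFunctionFieldBar N) (τ c)) =
      G.O.valuation (algebraMap Ω ↥(modularFunctionFieldBar N) c) := by
  subst hGA
  rcases eq_or_ne c 0 with rfl | hc0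
  · rw [map_zero]
  have hτc0 : τ c ≠ 0 := (map_ne_zero τ).mpr hc0
  have hv : G.A.valuation (τ c) = G.A.valuation c := S36BL_dec_val G.A hτ c
  have hb0 : τ c / c ≠ 0 := div_ne_zero hτc0 hc0
  have hvb : G.A.valuation (τ c / c) = 1 := by
    rw [map_div₀, hv]
    exact div_self ((map_ne_zero _).mpr hc0)
  obtain ⟨-, hb1, hb2⟩ := S40R2V_mem_of_val_one G.A hvb
  have h1 : algebraMap Ω ↥(modularFunctionFieldBar N) (τ c / c) ∈ G.O :=
    (G.algebraMap_mem_iff _).mpr hb1
  have h2 : (algebraMap Ω ↥(modularFunctionFieldBar N) (τ c / c))⁻¹ ∈ G.O := by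
    rw [← map_inv₀]
    exact (G.algebraMap_mem_iff _).mpr hb2
  have h3 := S40R2V_val_one_of_mem G.O ((map_ne_zero _).mpr hb0) h1 h2
  rw [map_div₀, map_div₀] at h3
  exact (div_eq_one_iff_eq ((map_ne_zero _).mpr ((map_ne_zero _).mpr hc0))).mp h3

/-- `v_O(τ f) = v_O(f)` for every Gauss datum over `A` whose ring is kept by `τ`. -/
theorem S40R2V_gauss (G : S18_Gauss Ω ↥(modularFunctionFieldBar N) k Fk) (hGA : G.A = A)
    (τ : Ω ≃ₐ[ℚ] Ω) (hτ : τ ∈ A.decompositionSubgroup ℚ)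
    (hO : ∀ f : ↥(modularFunctionFieldBar N), f ∈ G.O → GR_gal N τ f ∈ G.O)
    (f : ↥(modularFunctionFieldBar N)) :
    G.O.valuation (GR_gal N τ f) = G.O.valuation f := by
  rcases eq_or_ne f 0 with rfl | hf0
  · rw [map_zero]
  obtain ⟨c, u, hc0, hu, hfu⟩ := G.exists_const_mul_unit f hf0
  have hu1 : G.O.valuation (u : ↥(modularFunctionFieldBar N)) = 1 :=
    (ValuationSubring.valuation_eq_one_iff G.O u).mp ((G.red_ne_zero_iff u).mp hu)
  refine S40R2V_abs G.O (GR_gal N τ) hO hfu hu1 ?_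
  have e : GR_gal N τ (algebraMap Ω ↥(modularFunctionFieldBar N) c) =
      algebraMap Ω ↥(modularFunctionFieldBar N) (τ c) :=
    arithmeticRingAut_algebraMap (modularFunctionFieldFull N) τ c
  rw [e]
  exact S40R2V_const N A G hGA τ hτ c

end gauss

section inst

variable (M q : ℕ) [NeZero M] [NeZero q] [NeZero (M * q)] (hq : q.Prime) (hqM : ¬ q ∣ M)
  (A : ValuationSubring Ω)
  (hgen : PrincipalGeneratedByIntegral A (IsLocalRing.residue A) (M * q))

/-- **`V₁ ∘ τ = V₁`** for `τ` in the decomposition group of `A`. -/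
theorem S40R2V_V1 (τ : Ω ≃ₐ[ℚ] Ω) (hτ : τ ∈ A.decompositionSubgroup ℚ)
    (f : ↥(modularFunctionFieldBar (M * q))) :
    (S34M_T1 M q A hgen).O.valuation (GR_gal (M * q) τ f) =
      (S34M_T1 M q A hgen).O.valuation f := by
  refine S40R2V_gauss (M * q) A (S18_gaussModL (M * q) A hgen) rfl τ hτ ?_ f
  intro g hg
  exact (S34ST_gal_mem_iff (M * q) A τ hτ g).mpr hg

/-- **`V₂ ∘ τ = V₂`** for `τ` in the decomposition group of `A`. -/
theorem S40R2V_V2 (τ : Ω ≃ₐ[ℚ] Ω) (hτ : τ ∈ A.decompositionSubgroup ℚ)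
    (f : ↥(modularFunctionFieldBar (M * q))) :
    (S34M_T2 M q hq hqM A hgen).O.valuation (GR_gal (M * q) τ f) =
      (S34M_T2 M q hq hqM A hgen).O.valuation f := by
  refine S40R2V_gauss (M * q) A (S34V_comap (S18_gaussModL (M * q) A hgen)
    (S34DF_wq M q hq hqM)) rfl τ hτ ?_ f
  intro g hg
  have hg' : S34DF_wq M q hq hqM g ∈ S18_O A (M * q) := hg
  show S34DF_wq M q hq hqM (GR_gal (M * q) τ g) ∈ S18_O A (M * q)
  rw [S36VE_wq_gal M q hq hqM τ g]
  exact (S34ST_gal_mem_iff (M * q) A τ hτ _).mpr hg'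

end inst

end Fermat.Agent.S40
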