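import Fermat.Agent.S40.R2Start
import Fermat.Agent.S40.R2SlopeCoord
import Fermat.Agent.S40.R2SlopeVal

/-!
# TRACK 13 (S40 / S44, row 38), (R2) START over `F`: the WIRE on the real objects (helper28).
Prefix `S40R2W_`.

Level `M p`, `A ⊂ Ω = ℚ̄` over `p`, `H ≤ I_A` with a uniformiser `ϖ` of `A ∩ Ω^H`
(`H = I¹`, `ϖ = 1 − ζ`), `T₁ = S34M_T1`, `T₂ = S34M_T2` the two Gauss valuations of
`F = ℚ̄(X₀(Mp))`, `N` ANY node with `N.O₁ = T₁.O`, `N.O₂ = T₂.O`, `τ ∈ H`, `σ = GR_gal τ`.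

* **`S40R2W_val`** : the hypotheses `hv1`, `hv2` (THE SAME index `i < p` of `h = ys 0` at `V₁`,
  `V₂`) of helper17's `S40R2DI_main` / `S40R2ST_main`, from
  - the conjugates `(xs, ys)` of `(π, h)` (the inputs of `S40R2DI_main`),
  - `hC : S40F2M_Coord N …` and the leaves of helper16's `S40F2MG_gen` for the generator `ux`
    of `x` (`(h · Ψz) ^ p = r · σ ux / ux`, `Ψz` the annulus part of `u_z`, `σ Ψz = Ψz`),
  - the break of `π` (`S40F2YB_pi`).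
  (`hσV₁`, `hσV₂`, the expansion, the discreteness on `F^H` are DISCHARGED inside.)
* **`S40R2W_start`** : hence START + (P-T) = the conclusion of `S40R2ST_main` WITHOUT `hv1`, `hv2`.
-/

set_option autoImplicit false
set_option synthInstance.maxHeartbeats 400000
set_option maxHeartbeats 1000000
set_option linter.unusedSectionVars false
set_option linter.unusedVariables false
set_option linter.style.haveILetI false

open HahnSeries IntermediateField AlgebraicCurve ModularCurve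

noncomputable section

namespace Fermat.Agent.S40

open Fermat.Agent.S18 Fermat.Agent.Lib Fermat.Agent.GalRep Fermat.Agent.S24 Fermat.Agent.S34
  Fermat.Agent.S36 Fermat.Agent.S33 Fermat.Agent.S19

local notation "Ω" => AlgebraicClosure ℚ

section inst

variable (M p : ℕ) [NeZero (M * p)] (hp : p.Prime) (hpM : ¬ p ∣ M)
  (A : ValuationSubring Ω) (hA : A.LiesOverPrime p)
  (hgen : PrincipalGeneratedByIntegral A (IsLocalRing.residue A) (M * p))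
  (H : Subgroup (Ω ≃ₐ[ℚ] Ω)) {ϖ : Ω}

include hA in
/-- **(R2), same index on the real objects.** -/
theorem S40R2W_val (hU : S33NL2_Unif A H ϖ) (hHI : H ≤ A.inertiaSubgroupIn ℚ)
    (π : Ω) (hπ0 : π ≠ 0) (hπ1 : A.valuation π < 1)
    (hπp : A.valuation π ^ p = A.valuation ϖ)
    (xs : ℕ → Ω) (ys : ℕ → ↥(modularFunctionFieldBar (M * p)))
    (hinj : ∀ k < p, ∀ l < p, xs k = xs l → k = l)
    (hperm : ∀ τ ∈ H, ∀ k < p, ∃ l < p, τ (xs k) = xs l ∧ GR_gal (M * p) τ (ys k) = ys l)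
    (hx0 : xs 0 = π) (hh0 : ys 0 ≠ 0)
    -- the node
    {k : Type*} [Field k] (N : S40NA_Node Ω ↥(modularFunctionFieldBar (M * p)) k)
    (hO₁ : N.O₁ = (S34M_T1 M p A hgen).O) (hO₂ : N.O₂ = (S34M_T2 M p hp hpM A hgen).O)
    {C : Subfield ↥(modularFunctionFieldBar (M * p))}
    {vL : ↥(modularFunctionFieldBar (M * p)) → ℤ}
    {c X Y ϖs : ↥(modularFunctionFieldBar (M * p))} {e' : ℤ}
    (hC : S40F2M_Coord N C vL (algebraMap Ω ↥(modularFunctionFieldBar (M * p)) π) c X Y ϖs p e')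
    (HX : S40F2YI_Hyp N X) {t : ℕ} (ht : 1 ≤ t)
    -- `σ = GR_gal τ`, `τ ∈ H`
    (τ : Ω ≃ₐ[ℚ] Ω) (hτ : τ ∈ H)
    (σ : ↥(modularFunctionFieldBar (M * p)) →+* ↥(modularFunctionFieldBar (M * p)))
    (hστ : ∀ x, σ x = GR_gal (M * p) τ x)
    -- the leaves of `S40F2MG_gen`
    (hσX : σ X = X) (hσϖ : σ ϖs = ϖs)
    (hrange : ∀ (Q : S40NA_Pt Ω ↥(modularFunctionFieldBar (M * p))) (hQ : Q ∈ N.U),
      S40NA_Centred N Q hQ →
      algebraMap Ω ↥(modularFunctionFieldBar (M * p)) (S40F2N_at Q X) ≠ 0 ∧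
        algebraMap Ω ↥(modularFunctionFieldBar (M * p)) (S40F2N_at Q X) ∈ N.O₁.nonunits ∧
        ϖs / algebraMap Ω ↥(modularFunctionFieldBar (M * p)) (S40F2N_at Q X) ∈ N.O₂.nonunits)
    (hσZP : ∀ g : ↥(modularFunctionFieldBar (M * p)), S40F2SN_NoZP N g → S40F2SN_NoZP N (σ g))
    (hint₁ : ∀ a ∈ C, a ∈ N.O₁ → N.O₁.valuation (σ a - a) ≤
      N.O₁.valuation (algebraMap Ω ↥(modularFunctionFieldBar (M * p)) π) ^ (t + 1))
    (hint₂ : ∀ a ∈ C, a ∈ N.O₂ → N.O₂.valuation (σ a - a) ≤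
      N.O₂.valuation (algebraMap Ω ↥(modularFunctionFieldBar (M * p)) π) ^ (t + 1))
    (hB : ∀ a ∈ C, a ≠ 0 → S40F2J_Cg N.O₂.valuation
      (algebraMap Ω ↥(modularFunctionFieldBar (M * p)) π) t (σ a / a)
      (c * ((vL a : ℤ) : ↥(modularFunctionFieldBar (M * p)))))
    (Hs : Set (↥(modularFunctionFieldBar (M * p)) →+* ↥(modularFunctionFieldBar (M * p))))
    (hCfix : ∀ b : Ω, (∀ g ∈ Hs, g (algebraMap Ω ↥(modularFunctionFieldBar (M * p)) b) =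
      algebraMap Ω ↥(modularFunctionFieldBar (M * p)) b) →
      algebraMap Ω ↥(modularFunctionFieldBar (M * p)) b ∈ C)
    (hHC : ∀ g ∈ Hs, ∀ a ∈ C, g a = a) (hHX : ∀ g ∈ Hs, g X = X)
    (hact : ∀ g ∈ Hs, ∃ τ' : S40NA_Pt Ω ↥(modularFunctionFieldBar (M * p)) →
      S40NA_Pt Ω ↥(modularFunctionFieldBar (M * p)), S40F2YK_Act N g τ')
    {ux r : ↥(modularFunctionFieldBar (M * p))} (hu0 : ux ≠ 0) (hHu : ∀ g ∈ Hs, g ux = ux)
    (hpow : ∀ (Q : S40NA_Pt Ω ↥(modularFunctionFieldBar (M * p))) (hQ : Q ∈ N.U),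
      S40NA_Centred N Q hQ →
      ∃ g : ↥(modularFunctionFieldBar (M * p)), g ≠ 0 ∧ S40F2S_IsU Q.P (ux / g ^ p))
    (hr : S40F2SN_NoZP N r) {Ψz : ↥(modularFunctionFieldBar (M * p))} (hΨ0 : Ψz ≠ 0)
    (hσΨ : σ Ψz = Ψz) (hh : (ys 0 * Ψz) ^ p = r * (σ ux / ux))
    -- the break of `π`
    (hσπC : σ (algebraMap Ω ↥(modularFunctionFieldBar (M * p)) π) ∈ C)
    (hw : S40F2J_Cg N.O₁.valuation (algebraMap Ω ↥(modularFunctionFieldBar (M * p)) π) t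
      (σ (algebraMap Ω ↥(modularFunctionFieldBar (M * p)) π) /
        algebraMap Ω ↥(modularFunctionFieldBar (M * p)) π) c) :
    ∃ i < p, ∃ k₁ k₂ : ℤ,
      (S34M_T1 M p A hgen).O.valuation (ys 0) =
        (S34M_T1 M p A hgen).O.valuation
          (algebraMap Ω ↥(modularFunctionFieldBar (M * p)) ϖ) ^ k₁ *
        (S34M_T1 M p A hgen).O.valuation
          (algebraMap Ω ↥(modularFunctionFieldBar (M * p)) π) ^ i ∧
      (S34M_T2 M p hp hpM A hgen).O.valuation (ys 0) =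
        (S34M_T2 M p hp hpM A hgen).O.valuation
          (algebraMap Ω ↥(modularFunctionFieldBar (M * p)) ϖ) ^ k₂ *
        (S34M_T2 M p hp hpM A hgen).O.valuation
          (algebraMap Ω ↥(modularFunctionFieldBar (M * p)) π) ^ i := by
  haveI : NeZero p := ⟨hp.ne_zero⟩
  haveI : NeZero M := ⟨fun h0 => NeZero.ne (M * p) (by rw [h0, zero_mul])⟩
  have hϖ0 : ϖ ≠ 0 := hU.ne_zero
  have hϖE0 : algebraMap Ω ↥(modularFunctionFieldBar (M * p)) ϖ ≠ 0 := (map_ne_zero _).mpr hϖ0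
  have hτdec : τ ∈ A.decompositionSubgroup ℚ := S40F2B_inertia_dec A (hHI hτ)
  -- the expansion of `h = ys 0`
  obtain ⟨a, ha, hexp⟩ := S40R2I_expand p hp.pos
    (fun k => algebraMap Ω ↥(modularFunctionFieldBar (M * p)) (xs k)) ys
    (fun k hk l hl hkl => hinj k hk l hl
      ((algebraMap Ω ↥(modularFunctionFieldBar (M * p))).injective hkl))
    {g | ∃ τ ∈ H, g = ((GR_gal (M * p) τ : ↥(modularFunctionFieldBar (M * p)) ≃+*
      ↥(modularFunctionFieldBar (M * p))) : ↥(modularFunctionFieldBar (M * p)) →+*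
      ↥(modularFunctionFieldBar (M * p)))}
    (S36FI_act (M * p) H).fixF
    (fun z hz => (S36FI_mem_fixF (M * p) H).2 (fun τ hτ => hz _ ⟨τ, hτ, rfl⟩))
    (by
      rintro g ⟨τ, hτ, rfl⟩ k hk
      obtain ⟨l, hl, h1, h2⟩ := hperm τ hτ k hk
      refine ⟨l, hl, ?_, h2⟩
      show GR_gal (M * p) τ (algebraMap Ω ↥(modularFunctionFieldBar (M * p)) (xs k)) = _
      rw [S36LD_gal_algebraMap, h1])
  simp only [hx0] at hexp
  -- `σ` keeps the Gauss valuations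
  have hσV₁ : ∀ x, N.O₁.valuation (σ x) = N.O₁.valuation x := by
    intro x
    rw [hστ, hO₁]
    exact S40R2V_V1 M p A hgen τ hτdec x
  have hσV₂ : ∀ x, N.O₂.valuation (σ x) = N.O₂.valuation x := by
    intro x
    rw [hστ, hO₂]
    exact S40R2V_V2 M p hp hpM A hgen τ hτdec x
  have hπp1 : N.O₁.valuation (algebraMap Ω ↥(modularFunctionFieldBar (M * p)) π) ^ p =
      N.O₁.valuation (algebraMap Ω ↥(modularFunctionFieldBar (M * p)) ϖ) := by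
    rw [hO₁]
    exact S40R2DI_pow_val M p A (S34M_T1 M p A hgen) rfl π ϖ hϖ0 p hπp
  have hπp2 : N.O₂.valuation (algebraMap Ω ↥(modularFunctionFieldBar (M * p)) π) ^ p =
      N.O₂.valuation (algebraMap Ω ↥(modularFunctionFieldBar (M * p)) ϖ) := by
    rw [hO₂]
    exact S40R2DI_pow_val M p A (S34M_T2 M p hp hpM A hgen) rfl π ϖ hϖ0 p hπp
  have hdv1 : ∀ x ∈ (S36FI_act (M * p) H).fixF, x ≠ 0 → ∃ j : ℤ, N.O₁.valuation x =
      N.O₁.valuation (algebraMap Ω ↥(modularFunctionFieldBar (M * p)) ϖ) ^ j := by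
    intro x hx hx0
    rw [hO₁]
    exact S40R2DI_val_eq_of_dv _ _ x hϖE0 (S40F2CI_dv1 M p hp hpM A hA hgen H hU x hx hx0)
  have hdv2 : ∀ x ∈ (S36FI_act (M * p) H).fixF, x ≠ 0 → ∃ j : ℤ, N.O₂.valuation x =
      N.O₂.valuation (algebraMap Ω ↥(modularFunctionFieldBar (M * p)) ϖ) ^ j := by
    intro x hx hx0
    rw [hO₂]
    exact S40R2DI_val_eq_of_dv _ _ x hϖE0 (S40F2CI_dv2 M p hp hpM A hA hgen H hU x hx hx0)
  have hσF : ∀ x ∈ (S36FI_act (M * p) H).fixF, σ x = x := by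
    intro x hx
    rw [hστ]
    exact (S36FI_mem_fixF (M * p) H).1 hx τ hτ
  obtain ⟨i, hi, k₁, k₂, h1, h2⟩ := S40R2T_val_coord N hp.ne_zero hC HX ht σ hσX hσϖ hrange hσZP
    hint₁ hint₂ hB Hs hCfix hHC hHX hact hu0 hHu hpow hr hΨ0 hσΨ hh hσV₁ hσV₂ hσπC hw
    (S36FI_act (M * p) H).fixF (algebraMap Ω ↥(modularFunctionFieldBar (M * p)) ϖ)
    hπp1 hπp2 hdv1 hdv2 hσF hh0 a ha hexp
  rw [hO₁] at h1
  rw [hO₂] at h2
  exact ⟨i, hi, k₁, k₂, h1, h2⟩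

include hA in
/-- **(R2) START + (P-T) on the real objects**: the conclusion of helper17's `S40R2ST_main`
(an `H`-rational Kummer generator `c' · u · h' ^ p` of the class of `u = u_z`, congruent to
constants `≡ 1` modulo `ϖ ^ n` at `V₁` and `V₂`) WITHOUT the hypotheses `hv1`, `hv2`. -/
theorem S40R2W_start (hU : S33NL2_Unif A H ϖ) (hHI : H ≤ A.inertiaSubgroupIn ℚ)
    (π : Ω) (hπ0 : π ≠ 0) (hπ1 : A.valuation π < 1)
    (hπp : A.valuation π ^ p = A.valuation ϖ)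
    (xs : ℕ → Ω) (ys : ℕ → ↥(modularFunctionFieldBar (M * p)))
    (hinj : ∀ k < p, ∀ l < p, xs k = xs l → k = l)
    (hperm : ∀ τ ∈ H, ∀ k < p, ∃ l < p, τ (xs k) = xs l ∧ GR_gal (M * p) τ (ys k) = ys l)
    (hx0 : xs 0 = π) (hh0 : ys 0 ≠ 0)
    -- the node
    {k : Type*} [Field k] (N : S40NA_Node Ω ↥(modularFunctionFieldBar (M * p)) k)
    (hO₁ : N.O₁ = (S34M_T1 M p A hgen).O) (hO₂ : N.O₂ = (S34M_T2 M p hp hpM A hgen).O)
    {C : Subfield ↥(modularFunctionFieldBar (M * p))}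
    {vL : ↥(modularFunctionFieldBar (M * p)) → ℤ}
    {cN X Y ϖs : ↥(modularFunctionFieldBar (M * p))} {e' : ℤ}
    (hC : S40F2M_Coord N C vL (algebraMap Ω ↥(modularFunctionFieldBar (M * p)) π) cN X Y ϖs p e')
    (HX : S40F2YI_Hyp N X) {t : ℕ} (ht : 1 ≤ t)
    -- `σ = GR_gal τ`, `τ ∈ H`
    (τ : Ω ≃ₐ[ℚ] Ω) (hτ : τ ∈ H)
    (σ : ↥(modularFunctionFieldBar (M * p)) →+* ↥(modularFunctionFieldBar (M * p)))
    (hστ : ∀ x, σ x = GR_gal (M * p) τ x)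
    -- the leaves of `S40F2MG_gen`
    (hσX : σ X = X) (hσϖ : σ ϖs = ϖs)
    (hrange : ∀ (Q : S40NA_Pt Ω ↥(modularFunctionFieldBar (M * p))) (hQ : Q ∈ N.U),
      S40NA_Centred N Q hQ →
      algebraMap Ω ↥(modularFunctionFieldBar (M * p)) (S40F2N_at Q X) ≠ 0 ∧
        algebraMap Ω ↥(modularFunctionFieldBar (M * p)) (S40F2N_at Q X) ∈ N.O₁.nonunits ∧
        ϖs / algebraMap Ω ↥(modularFunctionFieldBar (M * p)) (S40F2N_at Q X) ∈ N.O₂.nonunits)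
    (hσZP : ∀ g : ↥(modularFunctionFieldBar (M * p)), S40F2SN_NoZP N g → S40F2SN_NoZP N (σ g))
    (hint₁ : ∀ a ∈ C, a ∈ N.O₁ → N.O₁.valuation (σ a - a) ≤
      N.O₁.valuation (algebraMap Ω ↥(modularFunctionFieldBar (M * p)) π) ^ (t + 1))
    (hint₂ : ∀ a ∈ C, a ∈ N.O₂ → N.O₂.valuation (σ a - a) ≤
      N.O₂.valuation (algebraMap Ω ↥(modularFunctionFieldBar (M * p)) π) ^ (t + 1))
    (hB : ∀ a ∈ C, a ≠ 0 → S40F2J_Cg N.O₂.valuation
      (algebraMap Ω ↥(modularFunctionFieldBar (M * p)) π) t (σ a / a)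
      (cN * ((vL a : ℤ) : ↥(modularFunctionFieldBar (M * p)))))
    (Hs : Set (↥(modularFunctionFieldBar (M * p)) →+* ↥(modularFunctionFieldBar (M * p))))
    (hCfix : ∀ b : Ω, (∀ g ∈ Hs, g (algebraMap Ω ↥(modularFunctionFieldBar (M * p)) b) =
      algebraMap Ω ↥(modularFunctionFieldBar (M * p)) b) →
      algebraMap Ω ↥(modularFunctionFieldBar (M * p)) b ∈ C)
    (hHC : ∀ g ∈ Hs, ∀ a ∈ C, g a = a) (hHX : ∀ g ∈ Hs, g X = X)
    (hact : ∀ g ∈ Hs, ∃ τ' : S40NA_Pt Ω ↥(modularFunctionFieldBar (M * p)) →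
      S40NA_Pt Ω ↥(modularFunctionFieldBar (M * p)), S40F2YK_Act N g τ')
    {ux r : ↥(modularFunctionFieldBar (M * p))} (hu0 : ux ≠ 0) (hHu : ∀ g ∈ Hs, g ux = ux)
    (hpow : ∀ (Q : S40NA_Pt Ω ↥(modularFunctionFieldBar (M * p))) (hQ : Q ∈ N.U),
      S40NA_Centred N Q hQ →
      ∃ g : ↥(modularFunctionFieldBar (M * p)), g ≠ 0 ∧ S40F2S_IsU Q.P (ux / g ^ p))
    (hr : S40F2SN_NoZP N r) {Ψz : ↥(modularFunctionFieldBar (M * p))} (hΨ0 : Ψz ≠ 0)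
    (hσΨ : σ Ψz = Ψz) (hh : (ys 0 * Ψz) ^ p = r * (σ ux / ux))
    -- the break of `π`
    (hσπC : σ (algebraMap Ω ↥(modularFunctionFieldBar (M * p)) π) ∈ C)
    (hw : S40F2J_Cg N.O₁.valuation (algebraMap Ω ↥(modularFunctionFieldBar (M * p)) π) t
      (σ (algebraMap Ω ↥(modularFunctionFieldBar (M * p)) π) /
        algebraMap Ω ↥(modularFunctionFieldBar (M * p)) π) cN)
    -- the function `u = u_z` to be descended, its normalising pair `(c, ys 0)`, newness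
    (u : ↥(modularFunctionFieldBar (M * p))) (c : Ω)
    (hu : ∀ τ ∈ H, GR_gal (M * p) τ u = u)
    (hy1 : (S34M_T1 M p A hgen).O.valuation
      (algebraMap Ω ↥(modularFunctionFieldBar (M * p)) c * u * ys 0 ^ p - 1) < 1)
    (hy2 : (S34M_T2 M p hp hpM A hgen).O.valuation
      (algebraMap Ω ↥(modularFunctionFieldBar (M * p)) c * u * ys 0 ^ p - 1) < 1)
    {n : ℕ} (hn : n ≤ p) (hpϖ : ∃ r ∈ A, (p : Ω) * ϖ = ϖ ^ n * r)
    (hnew12 : GR_IsTriv (M * p) p (S33N0B_N12 M p hp hpM u))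
    (hnew21 : GR_IsTriv (M * p) p (S33N0B_N21 M p hp u)) :
    ∃ (c' : Ω) (h' : ↥(modularFunctionFieldBar (M * p))),
      c' ≠ 0 ∧ h' ≠ 0 ∧ (∀ τ ∈ H, τ c' = c') ∧ (∀ τ ∈ H, GR_gal (M * p) τ h' = h') ∧
      (∃ b : Ω, b ∈ A ∧ A.valuation (b - 1) < 1 ∧ (∀ τ ∈ H, τ b = b) ∧
        ∃ l ∈ (S34M_T1 M p A hgen).O,
          algebraMap Ω ↥(modularFunctionFieldBar (M * p)) c' * u * h' ^ p -
            algebraMap Ω ↥(modularFunctionFieldBar (M * p)) b =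
            algebraMap Ω ↥(modularFunctionFieldBar (M * p)) ϖ ^ n * l) ∧
      (∃ b : Ω, b ∈ A ∧ A.valuation (b - 1) < 1 ∧ (∀ τ ∈ H, τ b = b) ∧
        ∃ l ∈ (S34M_T2 M p hp hpM A hgen).O,
          algebraMap Ω ↥(modularFunctionFieldBar (M * p)) c' * u * h' ^ p -
            algebraMap Ω ↥(modularFunctionFieldBar (M * p)) b =
            algebraMap Ω ↥(modularFunctionFieldBar (M * p)) ϖ ^ n * l) := by
  obtain ⟨i, hi, k₁, k₂, hv1, hv2⟩ := S40R2W_val M p hp hpM A hA hgen H hU hHI π hπ0 hπ1 hπp xs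
    ys hinj hperm hx0 hh0 N hO₁ hO₂ hC HX ht τ hτ σ hστ hσX hσϖ hrange hσZP hint₁ hint₂ hB Hs
    hCfix hHC hHX hact hu0 hHu hpow hr hΨ0 hσΨ hh hσπC hw
  exact S40R2ST_main M p hp hpM A hA hgen H hU hHI π hπ0 hπ1 hπp xs ys hinj hperm hx0 u c hu hh0
    hy1 hy2 i hi k₁ k₂ hv1 hv2 hn hpϖ hnew12 hnew21

end inst

end Fermat.Agent.S40
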