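import Fermat.Agent.S40.R2Plumb
import Fermat.Agent.S40.F2PolyTop
import Fermat.Agent.S40.R2HvAbs
import Fermat.Agent.S40.R2Wire

/-!
# TRACK 13 (S40 / S44, row 38), the leaf START: `hv1`, `hv2` on the real objects (helper23).
Prefix `S40R2HB_`.

`S40R2HB_hv` : at the canonical node `i` of arbitrary node data, for every datum
`S40F2AT_Data` (the output of `S40F2GK2_top`), the hypothesis `S40R2Z_HV` of helper17's
`S40R2Z_start` holds: for every descent relation `σ ux = c · ux · u_z · h ^ p` the function `h`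
has the same index `i < p` at `V₁` and at `V₂`.

Wired inside: the coordinate and the field `hdiv` for `y = σ ux / ux` (`S40F2YH_hdiv`), the
coordinate package (`S40F2MC_coord`), `y ≡ 1` at `V₁`, `V₂` (`S40R2Y_hy`), the break of `π`
(`S40F2YB_pi`), the expansion of `h` in the conjugates (`S40R2I_expand`, `S40R2P_perm`,
`S40R2P_inj`), the discreteness on `F^{I¹}` (`S40F2CI_dv1`, `S40F2CI_dv2`), and the abstract
node statement `S40R2HA_val`.
-/

set_option autoImplicit false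
set_option synthInstance.maxHeartbeats 400000
set_option maxHeartbeats 2000000
set_option linter.unusedSectionVars false
set_option linter.unusedVariables false
set_option linter.style.haveILetI false

open HahnSeries IntermediateField AlgebraicCurve ModularCurve

noncomputable section

namespace Fermat.Agent.S40

open WeierstrassCurve Fermat.Agent.Lib Fermat.Agent.S17 Fermat.Agent.S18 Fermat.Agent.S24
  Fermat.Agent.S34 Fermat.Agent.S35 Fermat.Agent.S36 Fermat.Agent.GalRep Fermat.Agent.S33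
  Fermat.Agent.S19

local notation "Ω" => AlgebraicClosure ℚ
local notation "Γ" => (AlgebraicClosure ℚ ≃ₐ[ℚ] AlgebraicClosure ℚ)

section top

variable (M p : ℕ) [NeZero M] [NeZero (M * p)] [NeZero p] (hp : p.Prime) (hpM : ¬ p ∣ M)
  (A : ValuationSubring Ω) (hA : A.LiesOverPrime p)
  (hgen : PrincipalGeneratedByIntegral A (IsLocalRing.residue A) (M * p))

variable {s : ℕ}
  (e₁ : Fin s → ↥(S34M_chart M p A 1 Nat.one_pos).Rb₁ →ₐ[IsLocalRing.ResidueField A]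
    IsLocalRing.ResidueField A)
  (e₂ : Fin s → ↥(S34M_chart M p A 1 Nat.one_pos).Rb₂ →ₐ[IsLocalRing.ResidueField A]
    IsLocalRing.ResidueField A)
  (P P' : Fin s → Place (IsLocalRing.ResidueField A)
    ↥(modularFunctionFieldFullC (IsLocalRing.ResidueField A) (M * p)))
  (hE : Function.Surjective (S34B_E e₁ e₂))
  (hW1 : S34K_W (S34M_same M p hp hpM A hgen) (S34M_chart M p A 1 Nat.one_pos) 1 =
    S34B_W e₁ e₂)
  (hx : S34P_Hyp (S34M_T1 M p A hgen) (S34M_T2 M p hp hpM A hgen) (S34M_same M p hp hpM A hgen)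
    (S34PX_j M p hp hpM A hgen))
  (hred : S34P_red (S34M_T1 M p A hgen) (S34M_T2 M p hp hpM A hgen)
    (S34PX_j M p hp hpM A hgen) = (S34M_xb M p A, S34M_xb M p A ^ p))
  (hP : ∀ i, 0 ≤ (P i).ord (S34M_xb M p A))
  (hP' : ∀ i, 0 ≤ (P' i).ord (S34M_xb M p A ^ p))
  (he₁ : ∀ i (a : ↥(S34M_chart M p A 1 Nat.one_pos).Rb₁), e₁ i a = FD_c0 (P i) (a : _))
  (he₂ : ∀ i (b : ↥(S34M_chart M p A 1 Nat.one_pos).Rb₂), e₂ i b = FD_c0 (P' i) (b : _))

include hA hE hW1 hx hred hP hP' he₁ he₂ in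
/-- **`hv1`, `hv2` on the real objects** (= `S40R2Z_HV`), at the canonical node `i`. -/
theorem S40R2HB_hv (i : Fin s) (V : AddSubgroup (JZero (M * p))) {ζ₀ : Ω}
    (hprim : IsPrimitiveRoot ζ₀ p) (x : JZero (M * p)) (σ : Γ) (H : Subgroup Γ) (π c r : Ω)
    (t : ℕ) (hData : S40F2AT_Data M p A V ζ₀ σ H π c r t) :
    S40R2Z_HV M p hp hpM A hgen ζ₀ σ H π x := by
  obtain ⟨⟨hσ, hHVfix, hcyc, hσpV, hz, hHI, hdec, hconj, hnorm, hσp⟩, ht1, htp, hπH, hcH, hrH,
    hvπ, hvc, hvr, hunif, hdisc, hπC, hπ0, hπ1, hval, hcC, hζ₀⟩ := hData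
  intro ux u_z h c₀ hux huxH huz huzI hc₀ hh₀ hc₀H hhH hrel
  haveI : Fact p.Prime := ⟨hp⟩
  haveI : IsAlgClosed (IsLocalRing.ResidueField A) := S18_residue_isAlgClosed A
  haveI : Infinite (IsLocalRing.ResidueField A) := IsAlgClosed.instInfinite
  haveI : HasPrincipalDivisors Ω ↥(modularFunctionFieldBar (M * p)) :=
    (S18_hRR (M * p)).principal
  have hgL : ∀ (τ : Γ) (a : Ω), (GR_gal (M * p) τ : ↥(modularFunctionFieldBar (M * p)) →+*
      ↥(modularFunctionFieldBar (M * p))) (algebraMap Ω ↥(modularFunctionFieldBar (M * p)) a) =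
      algebraMap Ω ↥(modularFunctionFieldBar (M * p)) ((τ : Ω →+* Ω) a) := fun τ a =>
    arithmeticRingAut_algebraMap (modularFunctionFieldFull (M * p)) τ a
  have hσin : σ ∈ A.inertiaSubgroupIn ℚ := (S40D_mem_I1.1 hσ).1
  have hux0 : ux ≠ 0 := S33DG_isGen_ne_zero hux
  have huz0 : u_z ≠ 0 := S33DG_isGen_ne_zero huz
  -- the coordinate and the leaf (g)
  obtain ⟨Cn, e, hXU, hϖ, hord, hdivAll⟩ := S40F2YH_hdiv M p hp hpM A hA hgen e₁ e₂ P P' hE hW1
    hx hred hP hP' he₁ he₂ i σ hσ H hHI ht1 hπH hcH hvπ hvc hvr hunif hdisc hπ0 hπ1 hζ₀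
  -- `y = σ ux / ux`
  have hσux0 : GR_gal (M * p) σ ux ≠ 0 := (map_ne_zero _).mpr hux0
  have hy0 : GR_gal (M * p) σ ux / ux ≠ 0 := div_ne_zero hσux0 hux0
  have hσuxH : ∀ τ ∈ H, GR_gal (M * p) τ (GR_gal (M * p) σ ux) = GR_gal (M * p) σ ux := by
    intro τ hτ
    have e : τ * σ = σ * (σ⁻¹ * τ * σ) := by
      rw [← mul_assoc, ← mul_assoc, mul_inv_cancel, one_mul]
    rw [← S40R2P_gal_mul, e, S40R2P_gal_mul, huxH _ (hnorm τ hτ)]
  have hyH : ∀ g ∈ H, GR_gal (M * p) g (GR_gal (M * p) σ ux / ux) =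
      GR_gal (M * p) σ ux / ux := by
    intro g hg
    rw [map_div₀, hσuxH g hg, huxH g hg]
  have hyE : GR_gal (M * p) σ ux / ux =
      algebraMap Ω ↥(modularFunctionFieldBar (M * p)) c₀ * u_z * h ^ p := by
    rw [hrel]
    field_simp
  have hydvd : ∀ v : Place Ω ↥(modularFunctionFieldBar (M * p)),
      (p : ℤ) ∣ v.ord (GR_gal (M * p) σ ux / ux) :=
    S40F2YG_dvd_of_eq (κ := c₀) (a := 1) (g := h) (S40F2YP_dvd_of_gen huz).2
      (by rw [hyE, zpow_one]) hy0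
  have hdiv := hdivAll _ hy0 hyH hydvd
  -- the coordinate package
  have hA₁ : ∀ a : Ω, algebraMap Ω ↥(modularFunctionFieldBar (M * p)) a ∈
      (S40NI_nodeGen (S18_hRR (M * p)).deg_one 1 Nat.one_pos hx hred e₁ e₂ hW1 i).O₁ →
      a ∈ (S40NI_nodeGen (S18_hRR (M * p)).deg_one 1 Nat.one_pos hx hred e₁ e₂ hW1 i).A :=
    fun a h => ((S34M_T1 M p A hgen).algebraMap_mem_iff a).1 h
  have hA₂ : ∀ a : Ω, algebraMap Ω ↥(modularFunctionFieldBar (M * p)) a ∈
      (S40NI_nodeGen (S18_hRR (M * p)).deg_one 1 Nat.one_pos hx hred e₁ e₂ hW1 i).O₂ →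
      a ∈ (S40NI_nodeGen (S18_hRR (M * p)).deg_one 1 Nat.one_pos hx hred e₁ e₂ hW1 i).A :=
    fun a h => ((S34M_T2 M p hp hpM A hgen).algebraMap_mem_iff a).1 h
  have hfin : ∀ g : ↥(modularFunctionFieldBar (M * p)),
      {Q : S40NA_Pt Ω ↥(modularFunctionFieldBar (M * p)) |
        Q ∈ (S40NI_nodeGen (S18_hRR (M * p)).deg_one 1 Nat.one_pos hx hred e₁ e₂ hW1 i).U ∧
          g ∉ Q.P}.Finite :=
    fun g => S40NI_poles_finite (S18_hRR (M * p)).deg_one (jB (M * p)) g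
  have hVp : (S40NI_nodeGen (S18_hRR (M * p)).deg_one 1 Nat.one_pos hx hred e₁ e₂
      hW1 i).A.valuation (p : Ω) < 1 := by
    have h1 : A.valuation (1 - ζ₀) < 1 := by
      rw [← hvπ]
      exact pow_lt_one₀ zero_le hπ1 hp.ne_zero
    have h2 : A.valuation (p : Ω) < 1 := by
      rw [← hζ₀]
      exact pow_lt_one₀ zero_le h1 (by have := hp.two_le; omega)
    exact h2
  have hC := S40F2MC_coord
    (S40NI_nodeGen (S18_hRR (M * p)).deg_one 1 Nat.one_pos hx hred e₁ e₂ hW1 i) Cn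
    (S36FI_act (M * p) H).fixK hp e hϖ hA₁ hA₂ hπC hπ0 hπ1 hval hcC hvc hVp hfin hvπ hζ₀
  -- the relation `(σ h / h) ^ p = κ · (σ y / y)`
  have hc₀σ : algebraMap Ω ↥(modularFunctionFieldBar (M * p)) ((σ : Ω →+* Ω) c₀) ≠ 0 :=
    (map_ne_zero _).mpr ((map_ne_zero _).mpr hc₀)
  have hc₀a : algebraMap Ω ↥(modularFunctionFieldBar (M * p)) c₀ ≠ 0 := (map_ne_zero _).mpr hc₀
  have hσh0 : GR_gal (M * p) σ h ≠ 0 := (map_ne_zero _).mpr hh₀
  have hσy : GR_gal (M * p) σ (GR_gal (M * p) σ ux / ux) =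
      algebraMap Ω ↥(modularFunctionFieldBar (M * p)) ((σ : Ω →+* Ω) c₀) * u_z *
        GR_gal (M * p) σ h ^ p := by
    rw [hyE, map_mul, map_mul, map_pow, huzI σ hσ]
    congr 2
    exact hgL σ c₀
  have hrel' : ((GR_gal (M * p) σ : ↥(modularFunctionFieldBar (M * p)) →+*
      ↥(modularFunctionFieldBar (M * p))) h / h) ^ p =
      algebraMap Ω ↥(modularFunctionFieldBar (M * p)) (c₀ / (σ : Ω →+* Ω) c₀) *
        ((GR_gal (M * p) σ : ↥(modularFunctionFieldBar (M * p)) →+*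
          ↥(modularFunctionFieldBar (M * p))) (GR_gal (M * p) σ ux / ux) /
          (GR_gal (M * p) σ ux / ux)) := by
    show (GR_gal (M * p) σ h / h) ^ p = algebraMap Ω ↥(modularFunctionFieldBar (M * p))
      (c₀ / (σ : Ω →+* Ω) c₀) * (GR_gal (M * p) σ (GR_gal (M * p) σ ux / ux) /
        (GR_gal (M * p) σ ux / ux))
    rw [hσy, hyE, map_div₀, div_pow]
    field_simp
  -- `y ≡ 1` at `V₁`, `V₂`
  have hUs : S33NL2_Unif A H π := S40R2Z_unif A H hπH hπ0 hπ1 hdisc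
  have hσπ1 : A.valuation (σ π / π - 1) < 1 :=
    S40R2Y_break A ht1 hπ0 hπ1 hvc.le hvr hunif
  obtain ⟨hy1, hy2⟩ := S40R2Y_hy M p hp hpM A hA hgen H hUs σ hσin hσπ1 huxH hux0 hrel
  rw [← hyE] at hy1 hy2
  -- the break of `π`
  have hσπH : ∀ g ∈ H, g (σ π) = σ π := by
    intro g hg
    have e : g * σ = σ * (σ⁻¹ * g * σ) := by
      rw [← mul_assoc, ← mul_assoc, mul_inv_cancel, one_mul]
    calc g (σ π) = (g * σ) π := rfl
      _ = (σ * (σ⁻¹ * g * σ)) π := by rw [e]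
      _ = σ ((σ⁻¹ * g * σ) π) := rfl
      _ = σ π := by rw [hπH _ (hnorm g hg)]
  have hwK : σ π / π ∈ (S36FI_act (M * p) H).fixK :=
    (S36FI_mem_fixK (M * p) H).2 (fun g hg => by rw [map_div₀, hσπH g hg, hπH g hg])
  have hwC : algebraMap Ω ↥(modularFunctionFieldBar (M * p)) (σ π / π) ∈
      ((S36FI_act (M * p) H).fixK).map (algebraMap Ω ↥(modularFunctionFieldBar (M * p))) :=
    ⟨_, hwK, rfl⟩
  have hσπa : (GR_gal (M * p) σ : ↥(modularFunctionFieldBar (M * p)) →+*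
      ↥(modularFunctionFieldBar (M * p))) (algebraMap Ω ↥(modularFunctionFieldBar (M * p)) π) =
      algebraMap Ω ↥(modularFunctionFieldBar (M * p)) (σ π) := hgL σ π
  have hσπ' : (GR_gal (M * p) σ : ↥(modularFunctionFieldBar (M * p)) →+*
      ↥(modularFunctionFieldBar (M * p))) (algebraMap Ω ↥(modularFunctionFieldBar (M * p)) π) =
      algebraMap Ω ↥(modularFunctionFieldBar (M * p)) π *
        algebraMap Ω ↥(modularFunctionFieldBar (M * p)) (σ π / π) := by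
    rw [hσπa, ← map_mul, mul_div_cancel₀ _ hπ0]
  have hπa0 : algebraMap Ω ↥(modularFunctionFieldBar (M * p)) π ≠ 0 := (map_ne_zero _).mpr hπ0
  have hrA : (S40NI_nodeGen (S18_hRR (M * p)).deg_one 1 Nat.one_pos hx hred e₁ e₂
      hW1 i).O₁.valuation (algebraMap Ω ↥(modularFunctionFieldBar (M * p)) r) ≤ 1 := by
    rw [ValuationSubring.valuation_le_one_iff]
    exact ((S34M_T1 M p A hgen).algebraMap_mem_iff r).2 ((A.valuation_le_one_iff r).1 hvr)
  have hunif' : (GR_gal (M * p) σ : ↥(modularFunctionFieldBar (M * p)) →+*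
      ↥(modularFunctionFieldBar (M * p))) (algebraMap Ω ↥(modularFunctionFieldBar (M * p)) π) =
      algebraMap Ω ↥(modularFunctionFieldBar (M * p)) π *
        (1 + algebraMap Ω ↥(modularFunctionFieldBar (M * p)) c *
          algebraMap Ω ↥(modularFunctionFieldBar (M * p)) π ^ t) +
        algebraMap Ω ↥(modularFunctionFieldBar (M * p)) π ^ (t + 2) *
          algebraMap Ω ↥(modularFunctionFieldBar (M * p)) r := by
    rw [hσπa, hunif]
    simp only [map_add, map_mul, map_pow, map_one]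
  have hw' : S40F2J_Cg (S40NI_nodeGen (S18_hRR (M * p)).deg_one 1 Nat.one_pos hx hred e₁ e₂
      hW1 i).O₁.valuation (algebraMap Ω ↥(modularFunctionFieldBar (M * p)) π) t
      (algebraMap Ω ↥(modularFunctionFieldBar (M * p)) (σ π / π))
      (algebraMap Ω ↥(modularFunctionFieldBar (M * p)) c) := by
    have h1 := S40F2YB_pi (V := (S40NI_nodeGen (S18_hRR (M * p)).deg_one 1 Nat.one_pos hx hred
      e₁ e₂ hW1 i).O₁.valuation) hπa0 hrA hunif'
    rw [hσπa, ← map_div₀] at h1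
    exact h1
  -- the fixed field of `I¹`
  have hU := S40R2ST_unif A hA hprim
  have hϖ0 : (1 - ζ₀ : Ω) ≠ 0 := hU.ne_zero
  have hϖE0 : algebraMap Ω ↥(modularFunctionFieldBar (M * p)) (1 - ζ₀) ≠ 0 :=
    (map_ne_zero _).mpr hϖ0
  have hπp1 : (S40NI_nodeGen (S18_hRR (M * p)).deg_one 1 Nat.one_pos hx hred e₁ e₂
      hW1 i).O₁.valuation (algebraMap Ω ↥(modularFunctionFieldBar (M * p)) π) ^ p =
      (S40NI_nodeGen (S18_hRR (M * p)).deg_one 1 Nat.one_pos hx hred e₁ e₂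
        hW1 i).O₁.valuation (algebraMap Ω ↥(modularFunctionFieldBar (M * p)) (1 - ζ₀)) :=
    S40R2DI_pow_val M p A (S34M_T1 M p A hgen) rfl π (1 - ζ₀) hϖ0 p hvπ
  have hπp2 : (S40NI_nodeGen (S18_hRR (M * p)).deg_one 1 Nat.one_pos hx hred e₁ e₂
      hW1 i).O₂.valuation (algebraMap Ω ↥(modularFunctionFieldBar (M * p)) π) ^ p =
      (S40NI_nodeGen (S18_hRR (M * p)).deg_one 1 Nat.one_pos hx hred e₁ e₂
        hW1 i).O₂.valuation (algebraMap Ω ↥(modularFunctionFieldBar (M * p)) (1 - ζ₀)) :=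
    S40R2DI_pow_val M p A (S34M_T2 M p hp hpM A hgen) rfl π (1 - ζ₀) hϖ0 p hvπ
  have hdv1 : ∀ x ∈ (S36FI_act (M * p) (S40D_I1 A p)).fixF, x ≠ 0 → ∃ j : ℤ,
      (S40NI_nodeGen (S18_hRR (M * p)).deg_one 1 Nat.one_pos hx hred e₁ e₂
        hW1 i).O₁.valuation x =
      (S40NI_nodeGen (S18_hRR (M * p)).deg_one 1 Nat.one_pos hx hred e₁ e₂
        hW1 i).O₁.valuation (algebraMap Ω ↥(modularFunctionFieldBar (M * p)) (1 - ζ₀)) ^ j :=
    fun x hx hx0 => S40R2DI_val_eq_of_dv _ _ x hϖE0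
      (S40F2CI_dv1 M p hp hpM A hA hgen (S40D_I1 A p) hU x hx hx0)
  have hdv2 : ∀ x ∈ (S36FI_act (M * p) (S40D_I1 A p)).fixF, x ≠ 0 → ∃ j : ℤ,
      (S40NI_nodeGen (S18_hRR (M * p)).deg_one 1 Nat.one_pos hx hred e₁ e₂
        hW1 i).O₂.valuation x =
      (S40NI_nodeGen (S18_hRR (M * p)).deg_one 1 Nat.one_pos hx hred e₁ e₂
        hW1 i).O₂.valuation (algebraMap Ω ↥(modularFunctionFieldBar (M * p)) (1 - ζ₀)) ^ j :=
    fun x hx hx0 => S40R2DI_val_eq_of_dv _ _ x hϖE0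
      (S40F2CI_dv2 M p hp hpM A hA hgen (S40D_I1 A p) hU x hx hx0)
  have hσF : ∀ x ∈ (S36FI_act (M * p) (S40D_I1 A p)).fixF,
      (GR_gal (M * p) σ : ↥(modularFunctionFieldBar (M * p)) →+*
        ↥(modularFunctionFieldBar (M * p))) x = x :=
    fun x hx => (S36FI_mem_fixF (M * p) (S40D_I1 A p)).1 hx σ hσ
  -- the expansion of `h`
  have hperm := S40R2P_perm (M * p) A H hp.pos hσ hdec hσp hπH (h := h) hhH
  have hinj := S40R2P_inj H hp hσp hπH (S40R2Z_break_ne A hπ0 hπ1 hvc hvr hunif)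
  obtain ⟨a, ha, hexp⟩ := S40R2I_expand p hp.pos
    (fun k => algebraMap Ω ↥(modularFunctionFieldBar (M * p)) (S40R2P_xs σ π k))
    (S40R2P_ys (M * p) σ h)
    (fun k hk l hl hkl => hinj k hk l hl
      ((algebraMap Ω ↥(modularFunctionFieldBar (M * p))).injective hkl))
    {g | ∃ τ ∈ S40D_I1 A p, g = ((GR_gal (M * p) τ : ↥(modularFunctionFieldBar (M * p)) ≃+*
      ↥(modularFunctionFieldBar (M * p))) : ↥(modularFunctionFieldBar (M * p)) →+*
      ↥(modularFunctionFieldBar (M * p)))}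
    (S36FI_act (M * p) (S40D_I1 A p)).fixF
    (fun z hz => (S36FI_mem_fixF (M * p) (S40D_I1 A p)).2 (fun τ hτ => hz _ ⟨τ, hτ, rfl⟩))
    (by
      rintro g ⟨τ, hτ, rfl⟩ k hk
      obtain ⟨l, hl, h1, h2⟩ := hperm τ hτ k hk
      refine ⟨l, hl, ?_, h2⟩
      show GR_gal (M * p) τ (algebraMap Ω ↥(modularFunctionFieldBar (M * p))
        (S40R2P_xs σ π k)) = _
      rw [S36LD_gal_algebraMap, h1])
  rw [S40R2P_y0] at hexp
  simp only [S40R2P_x0] at hexp
  exact S40R2HA_val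
    (S40NI_nodeGen (S18_hRR (M * p)).deg_one 1 Nat.one_pos hx hred e₁ e₂ hW1 i)
    hp.ne_zero hC ht1
    (GR_gal (M * p) σ : ↥(modularFunctionFieldBar (M * p)) →+*
      ↥(modularFunctionFieldBar (M * p)))
    (c₀ / (σ : Ω →+* Ω) c₀) hrel' hdiv hy1 hy2 hwC hσπ' hw'
    (S36FI_act (M * p) (S40D_I1 A p)).fixF
    (algebraMap Ω ↥(modularFunctionFieldBar (M * p)) (1 - ζ₀))
    hπp1 hπp2 hdv1 hdv2 hσF hh₀ a ha hexp

end top

end Fermat.Agent.S40
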