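import Mathlib
import Fermat.Agent.S40.R2Plumb
import Fermat.Agent.S40.F2CInst
import Fermat.Agent.S40.R2DescInst
import Fermat.Agent.S40.R2SlopeVal
import Fermat.Agent.S40.F2MainVal
import Fermat.Agent.S40.F2Break

/-!
# TRACK 13 (S40 / S44, row 38), the leaf START: `S40R2Z_HV` FROM THE SLOPE (helper13).
Prefix `S40R2HS2_`.

`σ ux = c · ux · u_z · h ^ p`, `V_j ∘ σ = V_j`, `u_z / b_j` a unit of `V_j` (`b_j` constants),
`v(b₂) = v(b₁) · v(π) ^ (p · (p · K))` (the slope of `u_z` is divisible by `p²`: helper16's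
`S40F2SL_Slope`), `h` and `c` fixed by `H`, `v` discrete on `Fix(H)` with uniformiser `π`,
`v(π) ^ p = v(1 - ζ)`.  Then `V₁(h) = v(1-ζ)^{k₁} v(π)^i`, `V₂(h) = v(1-ζ)^{k₂} v(π)^i` with THE
SAME `i < p`: this is `S40R2Z_HV` (helper17).

* `S40R2HS2_back`  : `V(x) = V(π)^k` for constants ⇒ the same in `A`;
* `S40R2HS2_core`  : `v(b) = v(π) ^ (-γ - p a)` from the relation at ONE valuation;
* `S40R2HS2_arith` : `a₁ - a₂ = p K`;
* `S40R2HS2_split` : `V(h) = V(π)^a`, `a = p k + i` ⇒ `V(h) = V(1-ζ)^k · V(π)^i`;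
* `S40R2HS2_hv`    : **`S40R2Z_HV` from the Data and the Slope**.
-/

set_option autoImplicit false
set_option synthInstance.maxHeartbeats 400000
set_option maxHeartbeats 2000000
set_option linter.unusedSectionVars false
set_option linter.unusedVariables false
set_option linter.style.haveILetI false

open HahnSeries IntermediateField AlgebraicCurve ModularCurve

noncomputable section

namespace Fermat.Agent.S40

open WeierstrassCurve Fermat.Agent.Lib Fermat.Agent.S18 Fermat.Agent.S24 Fermat.Agent.S34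
  Fermat.Agent.S35 Fermat.Agent.S36 Fermat.Agent.GalRep Fermat.Agent.S33 Fermat.Agent.S19

local notation "Ω" => AlgebraicClosure ℚ
local notation "Γ" => (AlgebraicClosure ℚ ≃ₐ[ℚ] AlgebraicClosure ℚ)

section abs

variable {L F : Type*} [Field L] [Field F] [Algebra L F]

/-- `V(x) = V(π) ^ k` for constants ⇒ the same in `A`. -/
theorem S40R2HS2_back (A : ValuationSubring L) (O : ValuationSubring F)
    (hOA : ∀ a : L, algebraMap L F a ∈ O → a ∈ A) {x π : L} (hx0 : x ≠ 0) (hπ0 : π ≠ 0) {k : ℤ}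
    (h : O.valuation (algebraMap L F x) = O.valuation (algebraMap L F π) ^ k) :
    A.valuation x = A.valuation π ^ k := by
  have hπk : π ^ k ≠ 0 := zpow_ne_zero _ hπ0
  have hVπ : O.valuation (algebraMap L F π) ≠ 0 := (map_ne_zero _).mpr ((map_ne_zero _).mpr hπ0)
  have hy0 : x / π ^ k ≠ 0 := div_ne_zero hx0 hπk
  have hy : O.valuation (algebraMap L F (x / π ^ k)) = 1 := by
    rw [map_div₀, map_zpow₀, map_div₀, map_zpow₀, h, div_self (zpow_ne_zero _ hVπ)]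
  have h1 : algebraMap L F (x / π ^ k) ∈ O := (O.valuation_le_one_iff _).mp hy.le
  have h2 : algebraMap L F (x / π ^ k)⁻¹ ∈ O := by
    rw [map_inv₀]
    refine (O.valuation_le_one_iff _).mp ?_
    rw [map_inv₀, hy, inv_one]
  have h3 : A.valuation (x / π ^ k) = 1 :=
    S40F2CI_val_one A hy0 (hOA _ h1) (hOA _ h2)
  have hAπ : A.valuation π ^ k ≠ 0 := zpow_ne_zero _ ((map_ne_zero _).mpr hπ0)
  rw [map_div₀, map_zpow₀] at h3
  exact (div_eq_one_iff_eq hAπ).mp h3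

/-- the relation at ONE valuation: `v(b) = v(π) ^ (-γ - p a)`. -/
theorem S40R2HS2_core (A : ValuationSubring L) (O : ValuationSubring F)
    (hAO : ∀ a : L, algebraMap L F a ∈ O ↔ a ∈ A)
    {π c b : L} (hπ0 : π ≠ 0) (hb0 : b ≠ 0)
    {ux σux u_z h : F} {p : ℕ} (hux0 : ux ≠ 0)
    (hσ : O.valuation σux = O.valuation ux)
    (hrel : σux = algebraMap L F c * ux * u_z * h ^ p)
    (hU : O.valuation (u_z / algebraMap L F b) = 1)
    {γ a : ℤ} (hγ : A.valuation c = A.valuation π ^ γ)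
    (ha : O.valuation h = O.valuation (algebraMap L F π) ^ a) :
    A.valuation b = A.valuation π ^ (-γ - (p : ℤ) * a) := by
  refine S40R2HS2_back A O (fun a h => (hAO a).1 h) hb0 hπ0 ?_
  have hVπ : O.valuation (algebraMap L F π) ≠ 0 := (map_ne_zero _).mpr ((map_ne_zero _).mpr hπ0)
  have hVb : O.valuation (algebraMap L F b) ≠ 0 := (map_ne_zero _).mpr ((map_ne_zero _).mpr hb0)
  have hVux : O.valuation ux ≠ 0 := (map_ne_zero _).mpr hux0
  have hc := S40F2MV_transfer A O (fun a h => (hAO a).2 h) hπ0 hγ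
  have huz : O.valuation u_z = O.valuation (algebraMap L F b) := by
    rw [map_div₀] at hU
    exact (div_eq_one_iff_eq hVb).mp hU
  have e1 := congrArg O.valuation hrel
  rw [map_mul, map_mul, map_mul, map_pow, hσ, hc, huz, ha] at e1
  -- `v ux = v π ^ γ * v ux * v b * (v π ^ a) ^ p`
  have e2 : O.valuation ux * 1 = O.valuation ux *
      (O.valuation (algebraMap L F π) ^ γ * O.valuation (algebraMap L F b) *
        (O.valuation (algebraMap L F π) ^ a) ^ p) := by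
    rw [mul_one]
    calc O.valuation ux = _ := e1
      _ = _ := by ac_rfl
  have e3 := mul_left_cancel₀ hVux e2
  have e4 : (O.valuation (algebraMap L F π) ^ a) ^ p =
      O.valuation (algebraMap L F π) ^ ((p : ℤ) * a) := by
    rw [← zpow_natCast, ← zpow_mul, mul_comm]
  rw [e4] at e3
  have hne1 : O.valuation (algebraMap L F π) ^ γ ≠ 0 := zpow_ne_zero _ hVπ
  have hne2 : O.valuation (algebraMap L F π) ^ ((p : ℤ) * a) ≠ 0 := zpow_ne_zero _ hVπ
  have e3' : O.valuation (algebraMap L F b) *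
      (O.valuation (algebraMap L F π) ^ γ *
        O.valuation (algebraMap L F π) ^ ((p : ℤ) * a)) = 1 := by
    calc O.valuation (algebraMap L F b) *
        (O.valuation (algebraMap L F π) ^ γ *
          O.valuation (algebraMap L F π) ^ ((p : ℤ) * a))
        = O.valuation (algebraMap L F π) ^ γ * O.valuation (algebraMap L F b) *
          O.valuation (algebraMap L F π) ^ ((p : ℤ) * a) := by ac_rfl
      _ = 1 := e3.symm
  have e5 := eq_inv_of_mul_eq_one_left e3'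
  rw [e5, ← zpow_add₀ hVπ, ← zpow_neg]
  congr 1
  ring

/-- the arithmetic: `a₁ - a₂ = p K`. -/
theorem S40R2HS2_arith (A : ValuationSubring L) {π b₁ b₂ : L} (hπ0 : π ≠ 0)
    (hπ1 : A.valuation π < 1) {p : ℕ} (hp : p ≠ 0) {γ a₁ a₂ K : ℤ}
    (h1 : A.valuation b₁ = A.valuation π ^ (-γ - (p : ℤ) * a₁))
    (h2 : A.valuation b₂ = A.valuation π ^ (-γ - (p : ℤ) * a₂))
    (hK : A.valuation b₂ = A.valuation b₁ * A.valuation π ^ ((p : ℤ) * ((p : ℤ) * K))) :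
    a₁ - a₂ = (p : ℤ) * K := by
  have hVπ : A.valuation π ≠ 0 := (map_ne_zero _).mpr hπ0
  have hpos : 0 < A.valuation π := zero_lt_iff.mpr hVπ
  rw [h1, h2, ← zpow_add₀ hVπ] at hK
  have hinj := zpow_right_injective₀ hpos hπ1.ne hK
  have hp' : (p : ℤ) ≠ 0 := by exact_mod_cast hp
  have e : (p : ℤ) * (a₁ - a₂) = (p : ℤ) * ((p : ℤ) * K) := by
    have : -γ - (p : ℤ) * a₂ = -γ - (p : ℤ) * a₁ + (p : ℤ) * ((p : ℤ) * K) := hinj
    linarith
  exact mul_left_cancel₀ hp' e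

/-- `V(h) = V(π) ^ a`, `a = p k + i` ⇒ `V(h) = V(ϖ) ^ k · V(π) ^ i`, if `V(π) ^ p = V(ϖ)`. -/
theorem S40R2HS2_split (O : ValuationSubring F) {h π ϖ : F} (hπ0 : π ≠ 0) {p i : ℕ} {a k : ℤ}
    (hπp : O.valuation π ^ p = O.valuation ϖ)
    (ha : O.valuation h = O.valuation π ^ a) (e : a = (p : ℤ) * k + i) :
    O.valuation h = O.valuation ϖ ^ k * O.valuation π ^ i := by
  have hVπ : O.valuation π ≠ 0 := (map_ne_zero _).mpr hπ0
  rw [ha, e, zpow_add₀ hVπ, zpow_mul, zpow_natCast, zpow_natCast, hπp]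

end abs

section inst

variable (M p : ℕ) [NeZero (M * p)] (hp : p.Prime) (hpM : ¬ p ∣ M)
  (A : ValuationSubring Ω) (hA : A.LiesOverPrime p)
  (hgen : PrincipalGeneratedByIntegral A (IsLocalRing.residue A) (M * p))

include hA in
/-- **`S40R2Z_HV` from the Slope** (explicit hypotheses). -/
theorem S40R2HS2_hv' {ζ : Ω} {σ : Γ} {H : Subgroup Γ} {π : Ω} {x : JZero (M * p)}
    (hσ : σ ∈ A.inertiaSubgroupIn ℚ)
    (hπH : ∀ g ∈ H, g π = π) (hπ0 : π ≠ 0) (hπ1 : A.valuation π < 1)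
    (hdisc : ∀ y : Ω, y ≠ 0 → (∀ g ∈ H, g y = y) →
      ∃ k : ℤ, A.valuation y = A.valuation π ^ k)
    (hvπ : A.valuation π ^ p = A.valuation (1 - ζ))
    (hSl : ∀ u_z : ↥(modularFunctionFieldBar (M * p)),
      S33DG_IsGen p (σ • x - x) u_z → (∀ g ∈ S40D_I1 A p, GR_gal (M * p) g u_z = u_z) →
      ∃ (b₁ b₂ : Ω) (K : ℤ), b₁ ≠ 0 ∧ b₂ ≠ 0 ∧
        S40F2S_IsU (S34M_T1 M p A hgen).O
          (u_z / algebraMap Ω ↥(modularFunctionFieldBar (M * p)) b₁) ∧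
        S40F2S_IsU (S34M_T2 M p hp hpM A hgen).O
          (u_z / algebraMap Ω ↥(modularFunctionFieldBar (M * p)) b₂) ∧
        A.valuation b₂ = A.valuation b₁ * A.valuation π ^ ((p : ℤ) * ((p : ℤ) * K))) :
    S40R2Z_HV M p hp hpM A hgen ζ σ H π x := by
  intro ux u_z h c hux huxH huz huzI hc0 hh0 hcH hhH hrel
  haveI : Fact p.Prime := ⟨hp⟩
  haveI : NeZero p := ⟨hp.ne_zero⟩
  haveI : NeZero M := ⟨fun h0 => NeZero.ne (M * p) (by rw [h0, zero_mul])⟩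
  obtain ⟨b₁, b₂, K, hb₁, hb₂, hU₁, hU₂, hK⟩ := hSl u_z huz huzI
  have hux0 : ux ≠ 0 := S33DG_isGen_ne_zero hux
  have hσdec : σ ∈ A.decompositionSubgroup ℚ := S40F2B_inertia_dec A hσ
  have hU : S33NL2_Unif A H π := S40R2Z_unif A H hπH hπ0 hπ1 hdisc
  have hπE0 : algebraMap Ω ↥(modularFunctionFieldBar (M * p)) π ≠ 0 := (map_ne_zero _).mpr hπ0
  have hζ0 : (1 - ζ : Ω) ≠ 0 := by
    intro h0
    rw [h0, map_zero] at hvπ
    exact (pow_ne_zero p ((map_ne_zero A.valuation).mpr hπ0)) hvπ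
  -- `h ∈ F^H`
  have hhF : h ∈ (S36FI_act (M * p) H).fixF :=
    (S36FI_mem_fixF (M * p) H).2 (fun τ hτ => hhH τ hτ)
  obtain ⟨a₁, ha₁⟩ := S40R2DI_val_eq_of_dv (S34M_T1 M p A hgen).O _ h hπE0
    (S40F2CI_dv1 M p hp hpM A hA hgen H hU h hhF hh0)
  obtain ⟨a₂, ha₂⟩ := S40R2DI_val_eq_of_dv (S34M_T2 M p hp hpM A hgen).O _ h hπE0
    (S40F2CI_dv2 M p hp hpM A hA hgen H hU h hhF hh0)
  obtain ⟨γ, hγ⟩ := hdisc c hc0 hcH
  have hAO₁ : ∀ a : Ω, algebraMap Ω ↥(modularFunctionFieldBar (M * p)) a ∈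
      (S34M_T1 M p A hgen).O ↔ a ∈ A := fun a => (S34M_T1 M p A hgen).algebraMap_mem_iff a
  have hAO₂ : ∀ a : Ω, algebraMap Ω ↥(modularFunctionFieldBar (M * p)) a ∈
      (S34M_T2 M p hp hpM A hgen).O ↔ a ∈ A :=
    fun a => (S34M_T2 M p hp hpM A hgen).algebraMap_mem_iff a
  have hc₁ := S40R2HS2_core A (S34M_T1 M p A hgen).O hAO₁ hπ0 hb₁ hux0
    (S40R2V_V1 M p A hgen σ hσdec ux) hrel hU₁ hγ ha₁
  have hc₂ := S40R2HS2_core A (S34M_T2 M p hp hpM A hgen).O hAO₂ hπ0 hb₂ hux0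
    (S40R2V_V2 M p hp hpM A hgen σ hσdec ux) hrel hU₂ hγ ha₂
  have hdiff : a₁ - a₂ = (p : ℤ) * K := S40R2HS2_arith A hπ0 hπ1 hp.ne_zero hc₁ hc₂ hK
  have hppos : (0 : ℤ) < p := by exact_mod_cast hp.pos
  have hi0 : 0 ≤ a₁ % (p : ℤ) := Int.emod_nonneg _ hppos.ne'
  have hilt : a₁ % (p : ℤ) < p := Int.emod_lt_of_pos _ hppos
  obtain ⟨i, hi⟩ : ∃ i : ℕ, (i : ℤ) = a₁ % (p : ℤ) := ⟨(a₁ % (p : ℤ)).toNat, Int.toNat_of_nonneg hi0⟩
  have hip : i < p := by
    have : (i : ℤ) < p := by rw [hi]; exact hilt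
    exact_mod_cast this
  have e₁ : a₁ = (p : ℤ) * (a₁ / (p : ℤ)) + i := by
    rw [hi]
    have := Int.emod_add_mul_ediv a₁ (p : ℤ)
    linarith
  have e₂ : a₂ = (p : ℤ) * (a₁ / (p : ℤ) - K) + i := by
    have : a₂ = a₁ - (p : ℤ) * K := by linarith
    rw [this]
    nth_rewrite 1 [e₁]
    ring
  have hπp₁ := S40R2DI_pow_val M p A (S34M_T1 M p A hgen) rfl π (1 - ζ) hζ0 p hvπ
  have hπp₂ := S40R2DI_pow_val M p A (S34M_T2 M p hp hpM A hgen) rfl π (1 - ζ) hζ0 p hvπ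
  exact ⟨i, hip, a₁ / (p : ℤ), a₁ / (p : ℤ) - K,
    S40R2HS2_split _ hπE0 hπp₁ ha₁ e₁, S40R2HS2_split _ hπE0 hπp₂ ha₂ e₂⟩

include hA in
/-- **`S40R2Z_HV` from the Data and the Slope.** -/
theorem S40R2HS2_hv (V : AddSubgroup (JZero (M * p))) {ζ : Ω} {σ : Γ} {H : Subgroup Γ}
    {π c r : Ω} {t : ℕ} (hData : S40F2AT_Data M p A V ζ σ H π c r t) (x : JZero (M * p))
    (hSl : ∀ u_z : ↥(modularFunctionFieldBar (M * p)),
      S33DG_IsGen p (σ • x - x) u_z → (∀ g ∈ S40D_I1 A p, GR_gal (M * p) g u_z = u_z) →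
      ∃ (b₁ b₂ : Ω) (K : ℤ), b₁ ≠ 0 ∧ b₂ ≠ 0 ∧
        S40F2S_IsU (S34M_T1 M p A hgen).O
          (u_z / algebraMap Ω ↥(modularFunctionFieldBar (M * p)) b₁) ∧
        S40F2S_IsU (S34M_T2 M p hp hpM A hgen).O
          (u_z / algebraMap Ω ↥(modularFunctionFieldBar (M * p)) b₂) ∧
        A.valuation b₂ = A.valuation b₁ * A.valuation π ^ ((p : ℤ) * ((p : ℤ) * K))) :
    S40R2Z_HV M p hp hpM A hgen ζ σ H π x := by
  obtain ⟨⟨hσ, -⟩, -, -, hπH, -, -, hvπ, -, -, -, hdisc, -, hπ0, hπ1, -⟩ := hData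
  exact S40R2HS2_hv' M p hp hpM A hA hgen hσ.1 hπH hπ0 hπ1 hdisc hvπ hSl

end inst

end Fermat.Agent.S40
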