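import Mathlib
import Fermat.Agent.S40.R2Abs

/-!
# TRACK 13 (row 38), GEO-5 route 2: the abstract wire in KERNEL FORM (helper19).  Prefix `S40R2K_`.

`S40R2_main` (S40/R2Abs.lean) wants operators `Tb i`, `γ` on the target `Jb` of `red`.  The
instance (helper10's (i), shape E4) gives instead: `T i` and `g` PRESERVE THE KERNEL of `red`.
This file restates the wire in that form; no operator on `Jb` is needed:

* `hT   : ∀ i y, red y = 0 → red (T i y) = 0`                       [(i) = E4]
* `hgk  : ∀ y, red y = 0 → red (g y) = 0`                           [Galois-equivariance of `red`]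
* `hfin : (red '' {w | red (g w) = red w}).Finite`                  [(iii): fixed classes finite]
* `heig : ∀ i, red (T i y₀) = a i • red y₀`                         [(iv)]

Proof: apply `S40R2_main` to `Jb := J ⧸ ker red`.
-/

set_option autoImplicit false

namespace Fermat.Agent.S40

variable {ι J Jb L : Type*} [AddCommGroup J] [AddCommGroup Jb] [AddCommGroup L]

/-- **Route 2, the wire, kernel form.** -/
theorem S40R2K_main (p : ℕ) (hp : p.Prime) (a : ι → ℤ)
    (T : ι → J →+ J) (ρ : MvPolynomial ι ℤ →+* Module.End ℤ L)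
    (red : J →+ Jb) (g : J →+ J)
    (hdiv : ∀ y : J, ∃ z : J, p • z = y)
    (hT : ∀ i y, red y = 0 → red (T i y) = 0)
    (hgT : ∀ i y, g (T i y) = T i (g y))
    (hgk : ∀ y, red y = 0 → red (g y) = 0)
    (hfin : (red '' {w : J | red (g w) = red w}).Finite)
    (hκ : ∀ (K : ℕ) (x : J), p ^ K • x = 0 → ∃ (κ : L →+ J) (l : L), κ l = x ∧
      ∀ i l', κ (ρ (MvPolynomial.X i) l') = T i (κ l'))
    (y₀ : J) (hg : g y₀ = y₀) (hpc : p • red y₀ = 0) (hc0 : red y₀ ≠ 0)
    (heig : ∀ i, red (T i y₀) = a i • red y₀) :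
    ∀ P : MvPolynomial ι ℤ, ρ P = 0 → (p : ℤ) ∣ MvPolynomial.eval a P := by
  classical
  -- the quotient `J ⧸ ker red`, embedded in `Jb` by `ι₀`
  set N : AddSubgroup J := red.ker with hN
  let red' : J →+ J ⧸ N := QuotientAddGroup.mk' N
  let ι₀ : J ⧸ N →+ Jb := QuotientAddGroup.kerLift red
  have hι₀ : ∀ y : J, ι₀ (red' y) = red y := fun y => rfl
  have hι₀inj : Function.Injective ι₀ := QuotientAddGroup.kerLift_injective red
  have hred'0 : ∀ y : J, red' y = 0 ↔ red y = 0 := by
    intro y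
    rw [← hι₀ y]
    constructor
    · intro h; rw [h, map_zero]
    · intro h; exact hι₀inj (by rw [h, map_zero])
  have hTN : ∀ i, N ≤ AddSubgroup.comap (T i) N := by
    intro i y hy
    rw [AddSubgroup.mem_comap, hN, AddMonoidHom.mem_ker]
    exact hT i y (AddMonoidHom.mem_ker.mp hy)
  have hgN : N ≤ AddSubgroup.comap g N := by
    intro y hy
    rw [AddSubgroup.mem_comap, hN, AddMonoidHom.mem_ker]
    exact hgk y (AddMonoidHom.mem_ker.mp hy)
  let Tb : ι → (J ⧸ N) →+ (J ⧸ N) := fun i => QuotientAddGroup.map N N (T i) (hTN i)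
  let γ : (J ⧸ N) →+ (J ⧸ N) := QuotientAddGroup.map N N g hgN
  have hTb : ∀ i y, red' (T i y) = Tb i (red' y) := fun i y => rfl
  have hγ : ∀ y, red' (g y) = γ (red' y) := fun y => rfl
  have hfin' : {c : J ⧸ N | γ c = c}.Finite := by
    refine Set.Finite.of_finite_image (f := ι₀) ?_ hι₀inj.injOn
    refine hfin.subset ?_
    rintro _ ⟨c, hc, rfl⟩
    obtain ⟨w, rfl⟩ := QuotientAddGroup.mk'_surjective N c
    refine ⟨w, ?_, (hι₀ w).symm⟩
    show red (g w) = red w
    have h1 : γ (red' w) = red' w := hc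
    rw [← hγ] at h1
    rw [← hι₀ (g w), ← hι₀ w, h1]
  refine S40R2_main p hp a T Tb ρ red' g (fun c => γ c) hdiv hTb hgT hγ hfin' hκ y₀ hg ?_ ?_ ?_
  · apply hι₀inj
    rw [map_nsmul, hι₀, hpc, map_zero]
  · intro h
    exact hc0 ((hred'0 y₀).mp h)
  · intro i
    apply hι₀inj
    rw [← hTb, hι₀, heig i, map_zsmul, hι₀]

end Fermat.Agent.S40
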