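import Mathlib
import Fermat.Agent.S40.R4Eigen

/-!
# TRACK 13 (S40/S44, row 38), (D-CUSP) route C0, the input [E] (helper13).  Prefix `S40R4E_`.

`x` an eigen-class of level `M p` (`T_q x = a x`), `u` a Kummer generator of exponent `p` of `x`
which is a unit of `V₁`, `g` a unit of the Gauss ring of level `M` with `red_M g = red₁ u` in
`k((t))`.  Then for EVERY place `Q` of the fibre `F̄_M`

  `(r_* (T_q (div g))) (Q) ≡ a · (r_* (div g)) (Q)  mod p`,   `(r_* (div g)) (Q) = ord_Q (red_M g)`.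

* `S40R4E_rdiv` : `r_* (div g) = div (red_M g)` pointwise;
* `S40R4E_main` : the congruence, in the shape of `heig` of `S40CP_final`.
-/

set_option autoImplicit false
set_option linter.unusedSectionVars false
set_option linter.unusedVariables false
set_option linter.style.haveILetI false
set_option synthInstance.maxHeartbeats 400000
set_option maxHeartbeats 1000000

open HahnSeries IntermediateField AlgebraicCurve ModularCurve

noncomputable section

namespace Fermat.Agent.S40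

open Fermat.Agent.S17 Fermat.Agent.S18 Fermat.Agent.S19 Fermat.Agent.S24 Fermat.Agent.S32
  Fermat.Agent.S33 Fermat.Agent.S34 Fermat.Agent.S37 Fermat.Agent.GalRep Fermat.Agent.Lib

local notation "Kb" => AlgebraicClosure ℚ

variable (M p : ℕ) [NeZero M] [NeZero p] [NeZero (M * p)] (A : ValuationSubring Kb)

/-- `r_* (div g) = div (red g)` for a unit `g` of the Gauss ring of level `M`. -/
theorem S40R4E_rdiv (h : ReductionInputsModL A M)
    (g : ↥(modularFunctionFieldBar M)) (hg : g ∈ S18_O A M) (hgred : S18_red A M ⟨g, hg⟩ ≠ 0)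
    (Q : Place (IsLocalRing.ResidueField A)
      ↥(modularFunctionFieldFullC (IsLocalRing.ResidueField A) M)) :
    Finsupp.mapDomain (placeReductionModL h) (ES_div M g) Q = Q.ord (S18_red A M ⟨g, hg⟩) :=
  (S18_specModL M A h).mapDomain_div ⟨g, hg⟩ hgred _ (fun P => ES_div_apply M _ P) Q

/-- **[E]**: `(r_* T_q (div g))(Q) ≡ a · (r_* div g)(Q) mod p` at EVERY place `Q` of the fibre. -/
theorem S40R4E_main (hp : p.Prime) (hA : A.LiesOverPrime p) (hpM : ¬ p ∣ M)
    (hgen : PrincipalGeneratedByIntegral A (IsLocalRing.residue A) (M * p))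
    (h : ReductionInputsModL A M)
    (q : Nat.Primes) (hq : ¬ (q : ℕ) ∣ M * p) (a : ℤ)
    (x : JZero (M * p)) (hx : heckeOperatorBar (M * p) q x = a • x)
    (u : ↥(modularFunctionFieldBar (M * p))) (hu : S33DG_IsGen p x u)
    (huO : u ∈ S18_O A (M * p)) (hured : S18_red A (M * p) ⟨u, huO⟩ ≠ 0)
    (g : ↥(modularFunctionFieldBar M)) (hg : g ∈ S18_O A M)
    (hgu : ((S18_red A (M * p) ⟨u, huO⟩ :
        ↥(modularFunctionFieldFullC (IsLocalRing.ResidueField A) (M * p))) :
          LaurentSeries (IsLocalRing.ResidueField A)) =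
      ((S18_red A M ⟨g, hg⟩ : ↥(modularFunctionFieldFullC (IsLocalRing.ResidueField A) M)) :
          LaurentSeries (IsLocalRing.ResidueField A)))
    (hα : haveI : NeZero (q : ℕ) := ⟨q.2.ne_zero⟩;
      (heckeAlphaBar Kb M (q : ℕ)).toRingHom.IsIntegral)
    (hβ : haveI : NeZero (q : ℕ) := ⟨q.2.ne_zero⟩;
      (heckeBetaBar Kb M (q : ℕ)).toRingHom.IsIntegral)
    (Q : Place (IsLocalRing.ResidueField A)
      ↥(modularFunctionFieldFullC (IsLocalRing.ResidueField A) M)) :
    haveI : NeZero (q : ℕ) := ⟨q.2.ne_zero⟩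
    haveI := S18_hPD (M * (q : ℕ))
    (p : ℤ) ∣ Finsupp.mapDomain (placeReductionModL h) (S37_Td hα hβ (ES_div M g)) Q -
      a * Finsupp.mapDomain (placeReductionModL h) (ES_div M g) Q := by
  haveI : NeZero (q : ℕ) := ⟨q.2.ne_zero⟩
  haveI := S18_hPD (M * (q : ℕ))
  have hqM : ¬ (q : ℕ) ∣ M := fun hd => hq (Dvd.dvd.mul_right hd p)
  obtain ⟨ζ, hζ, hH⟩ := S40R4_exists_zeta M (q : ℕ) q.2 hqM
  have hstM : GRS_Stab M (q : ℕ) ζ := S40G5R_stab M hqM ζ hH
  obtain ⟨htg, H, hH0, hord⟩ := S40R4_ord_rel M p A hp hA hgen h.choose_spec.2 q hq a x hx u hu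
    huO hured g hg hgu hζ hstM
  have hgred : S18_red A M ⟨g, hg⟩ ≠ 0 := by
    intro h0
    apply hured
    apply Subtype.ext
    rw [hgu, h0]
    rfl
  have hg0 : g ≠ 0 := by
    rintro rfl
    apply hgred
    have : (⟨0, hg⟩ : S18_O A M) = 0 := rfl
    rw [this, map_zero]
  obtain ⟨wM, hwM, hwMne, hE2⟩ := S40G5R_unit M A hp hA hpM h q.2 hqM hα hβ g hg hgred
  have hwMeq : wM = ⟨GRS_t hstM g, htg⟩ :=
    Subtype.ext (by rw [hwM]; exact (S40G5R_t_eq M hqM ζ hH hstM g hg0).symm)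
  rw [hwMeq] at hE2
  rw [hE2, RR_div_apply, hord Q, S40R4E_rdiv M A h g hg hgred Q]
  exact ⟨Q.ord H, by ring⟩

end Fermat.Agent.S40
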