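import Fermat.Agent.S40.WKum

/-!
# TRACK 13 (S40), package W-D, part "(d) over a predicate" (helper11)

The Kummer-basis lemma in the shape asked for by W-PEU (helper24): the coefficients
`c_k = res_k / β^k` (`res_k` = helper14's `S40WK_res`) satisfy a predicate `Fx` closed under
division (e.g. "fixed by all of `I¹`"), and no `c β^k` (`Fx c`, `c ≠ 0`, `0 < k < p`) is a unit
of `A`.  Then `v(σ z − z) < v(ζ − 1)` for every integral `z` with `σ^p z = z`.

* `S40RE_val_ne`   : the nonzero resolvents have pairwise distinct valuations;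
* `S40RE_res_mem`  : all resolvents of an integral `z` are integral;
* `S40RE_res_lt`   : `v(res_i) < 1` for `0 < i < p`;
* `S40RE_main`     : `v(σ z − z) < v(ζ − 1)`;
* `S40RE_dist`     : Bezout step: `β^p` in `Fx`, `Fx` closed under `*`, `^`: unit-freeness of
  `c β` gives unit-freeness of `c β^k`, `0 < k < p`.
-/

set_option autoImplicit false

open Finset

namespace Fermat.Agent.S40

variable {Ω : Type*} [Field Ω]

/-- the nonzero resolvents have pairwise distinct valuations. -/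
theorem S40RE_val_ne (A : ValuationSubring Ω) (Fx : Ω → Prop)
    (hdiv : ∀ a b : Ω, Fx a → Fx b → Fx (a / b)) {p : ℕ} {β : Ω}
    (hdist : ∀ c : Ω, Fx c → c ≠ 0 → ∀ k : ℕ, 0 < k → k < p → c * β ^ k ∈ A →
      c * β ^ k ∈ A.nonunits)
    (hβ : β ≠ 0) {r r' : Ω} {i k : ℕ} (hr : Fx (r / β ^ i)) (hr' : Fx (r' / β ^ k))
    (hr0 : r ≠ 0) (hr0' : r' ≠ 0) (hik : i < k) (hk : k < p) :
    A.valuation r ≠ A.valuation r' := by
  intro h
  have hbi : β ^ i ≠ 0 := pow_ne_zero i hβ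
  have hbk : β ^ k ≠ 0 := pow_ne_zero k hβ
  have hfix : Fx (r' / β ^ k / (r / β ^ i)) := hdiv _ _ hr' hr
  have hne : r' / β ^ k / (r / β ^ i) ≠ 0 :=
    div_ne_zero (div_ne_zero hr0' hbk) (div_ne_zero hr0 hbi)
  have e : r' / β ^ k / (r / β ^ i) * β ^ (k - i) = r' / r := by
    have : β ^ k = β ^ (k - i) * β ^ i := by rw [← pow_add]; congr 1; omega
    rw [this]
    have h2 : β ^ (k - i) ≠ 0 := pow_ne_zero _ hβ
    field_simp
  have hv1 : A.valuation (r' / r) = 1 := by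
    rw [map_div₀, ← h]
    exact div_self ((A.valuation).ne_zero_iff.mpr hr0)
  have hmemA : r' / β ^ k / (r / β ^ i) * β ^ (k - i) ∈ A := by
    rw [e, ← A.valuation_le_one_iff, hv1]
  have hnon := hdist _ hfix hne (k - i) (by omega) (by omega) hmemA
  rw [e, ValuationSubring.mem_nonunits_iff, hv1] at hnon
  exact lt_irrefl _ hnon

/-- all resolvents of an integral `z` are integral. -/
theorem S40RE_res_mem (A : ValuationSubring Ω) (Fx : Ω → Prop)
    (hdiv : ∀ a b : Ω, Fx a → Fx b → Fx (a / b)) (σ : Ω →+* Ω) {p : ℕ} (hp : p.Prime)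
    {ζ β z : Ω} (hζ : ζ ^ p = 1) (hζ1 : ζ ≠ 1) (hβ : β ≠ 0) (hpΩ : (p : Ω) ≠ 0) (hzA : z ∈ A)
    (hcoef : ∀ k : ℕ, k < p → Fx (S40WK_res p ζ σ z k / β ^ k))
    (hdist : ∀ c : Ω, Fx c → c ≠ 0 → ∀ k : ℕ, 0 < k → k < p → c * β ^ k ∈ A →
      c * β ^ k ∈ A.nonunits)
    (i : ℕ) (hi : i < p) :
    S40WK_res p ζ σ z i ∈ A := by
  classical
  set t : ℕ → Ω := fun i => S40WK_res p ζ σ z i with ht
  by_contra hcon
  set S : Finset ℕ := (range p).filter (fun i => t i ∉ A) with hS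
  have hSne : S.Nonempty := ⟨i, Finset.mem_filter.mpr ⟨Finset.mem_range.mpr hi, hcon⟩⟩
  obtain ⟨i₀, hi₀S, hmax⟩ := Finset.exists_max_image S (fun i => A.valuation (t i)) hSne
  have hi₀ : i₀ < p := Finset.mem_range.mp (Finset.mem_filter.mp hi₀S).1
  have hti₀ : t i₀ ∉ A := (Finset.mem_filter.mp hi₀S).2
  have hv₀ : 1 < A.valuation (t i₀) := by
    rw [← not_le]
    exact fun h => hti₀ ((A.valuation_le_one_iff _).mp h)
  have hc₀ : t i₀ ≠ 0 := by
    intro h0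
    apply hti₀
    rw [h0]
    exact A.zero_mem
  have hlt : ∀ k ∈ (range p).erase i₀, A.valuation (t k) < A.valuation (t i₀) := by
    intro k hk
    have hk1 : k ≠ i₀ := (Finset.mem_erase.mp hk).1
    have hkp : k < p := Finset.mem_range.mp (Finset.mem_erase.mp hk).2
    by_cases hkA : t k ∈ A
    · exact lt_of_le_of_lt ((A.valuation_le_one_iff _).mpr hkA) hv₀
    · have hkS : k ∈ S := Finset.mem_filter.mpr ⟨Finset.mem_range.mpr hkp, hkA⟩
      have hle := hmax k hkS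
      have hck : t k ≠ 0 := by
        intro h0
        apply hkA
        rw [h0]
        exact A.zero_mem
      refine lt_of_le_of_ne hle ?_
      rcases lt_or_gt_of_ne hk1 with h | h
      · exact S40RE_val_ne A Fx hdiv hdist hβ (hcoef k hkp) (hcoef i₀ hi₀) hck hc₀ h hi₀
      · exact (S40RE_val_ne A Fx hdiv hdist hβ (hcoef i₀ hi₀) (hcoef k hkp) hc₀ hck h hkp).symm
  have hsum : A.valuation (∑ k ∈ (range p).erase i₀, t k) < A.valuation (t i₀) :=
    Valuation.map_sum_lt _ (ne_of_gt (lt_trans zero_lt_one hv₀)) hlt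
  have hz' : z = t i₀ + ∑ k ∈ (range p).erase i₀, t k := by
    rw [Finset.add_sum_erase (range p) t (Finset.mem_range.mpr hi₀)]
    exact (S40WK_res_sum (σ := σ) (z := z) hp hpΩ hζ hζ1).symm
  have hvz : A.valuation z = A.valuation (t i₀) := by
    rw [hz']
    exact Valuation.map_add_eq_of_lt_left _ hsum
  have := (A.valuation_le_one_iff z).mpr hzA
  rw [hvz] at this
  exact absurd hv₀ (not_lt.mpr this)

/-- `v(res_i) < 1` for `0 < i < p`. -/
theorem S40RE_res_lt (A : ValuationSubring Ω) (Fx : Ω → Prop)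
    (hdiv : ∀ a b : Ω, Fx a → Fx b → Fx (a / b)) (σ : Ω →+* Ω) {p : ℕ} (hp : p.Prime)
    {ζ β z : Ω} (hζ : ζ ^ p = 1) (hζ1 : ζ ≠ 1) (hβ : β ≠ 0) (hpΩ : (p : Ω) ≠ 0) (hzA : z ∈ A)
    (hcoef : ∀ k : ℕ, k < p → Fx (S40WK_res p ζ σ z k / β ^ k))
    (hdist : ∀ c : Ω, Fx c → c ≠ 0 → ∀ k : ℕ, 0 < k → k < p → c * β ^ k ∈ A →
      c * β ^ k ∈ A.nonunits)
    (i : ℕ) (hi0 : 0 < i) (hi : i < p) :
    A.valuation (S40WK_res p ζ σ z i) < 1 := by
  by_cases h0 : S40WK_res p ζ σ z i = 0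
  · rw [h0, map_zero]
    exact zero_lt_one
  · have hbi : β ^ i ≠ 0 := pow_ne_zero i hβ
    have hmem := S40RE_res_mem A Fx hdiv σ hp hζ hζ1 hβ hpΩ hzA hcoef hdist i hi
    have e : S40WK_res p ζ σ z i / β ^ i * β ^ i = S40WK_res p ζ σ z i := by
      field_simp
    have hnon := hdist _ (hcoef i hi) (div_ne_zero h0 hbi) i hi0 hi (by rw [e]; exact hmem)
    rw [e] at hnon
    exact (ValuationSubring.mem_nonunits_iff (A := A)).mp hnon

/-- **(d)**: `v(σ z − z) < v(ζ − 1)`. -/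
theorem S40RE_main (A : ValuationSubring Ω) (Fx : Ω → Prop)
    (hdiv : ∀ a b : Ω, Fx a → Fx b → Fx (a / b)) (σ : Ω →+* Ω) {p : ℕ} (hp : p.Prime)
    {ζ β z : Ω} (hζ : ζ ^ p = 1) (hζ1 : ζ ≠ 1) (hσζ : σ ζ = ζ) (hβ : β ≠ 0)
    (hpΩ : (p : Ω) ≠ 0) (hz : (σ^[p]) z = z) (hzA : z ∈ A)
    (hcoef : ∀ k : ℕ, k < p → Fx (S40WK_res p ζ σ z k / β ^ k))
    (hdist : ∀ c : Ω, Fx c → c ≠ 0 → ∀ k : ℕ, 0 < k → k < p → c * β ^ k ∈ A →
      c * β ^ k ∈ A.nonunits) :
    A.valuation (σ z - z) < A.valuation (ζ - 1) := by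
  have hne : A.valuation (ζ - 1) ≠ 0 :=
    (A.valuation).ne_zero_iff.mpr (sub_ne_zero.mpr hζ1)
  rw [S40WK_map_sub hp hpΩ hζ hζ1 hσζ hz]
  refine Valuation.map_sum_lt _ hne (fun i hi => ?_)
  have hip : i < p := Finset.mem_range.mp hi
  rw [map_mul]
  by_cases hi0 : i = 0
  · subst hi0
    rw [pow_zero, sub_self, map_zero, zero_mul]
    exact lt_of_le_of_ne zero_le hne.symm
  · have h1 : A.valuation (ζ ^ i - 1) ≤ A.valuation (ζ - 1) :=
      S40WK_val_zeta_pow_sub_one_le A hp.ne_zero hζ i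
    have h2 : A.valuation (S40WK_res p ζ σ z i) < 1 :=
      S40RE_res_lt A Fx hdiv σ hp hζ hζ1 hβ hpΩ hzA hcoef hdist i (Nat.pos_of_ne_zero hi0) hip
    have hpos : 0 < A.valuation (ζ - 1) := lt_of_le_of_ne zero_le hne.symm
    calc A.valuation (ζ ^ i - 1) * A.valuation (S40WK_res p ζ σ z i)
        ≤ A.valuation (ζ - 1) * A.valuation (S40WK_res p ζ σ z i) := mul_le_mul' h1 le_rfl
      _ < A.valuation (ζ - 1) * 1 := by
          exact mul_lt_mul_of_pos_left h2 hpos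
      _ = A.valuation (ζ - 1) := mul_one _

/-- **Bezout step** for a predicate closed under products and powers: if `Fx (β ^ p)` and no
`c β` (`Fx c`, `c ≠ 0`) is a unit of `A`, then no `c β ^ k` (`Fx c`, `c ≠ 0`, `0 < k < p`) is. -/
theorem S40RE_dist (A : ValuationSubring Ω) (Fx : Ω → Prop)
    (hmul : ∀ a b : Ω, Fx a → Fx b → Fx (a * b)) (hone : Fx 1) {p : ℕ} (hp : p.Prime) {β : Ω}
    (hβ : β ≠ 0) (hβp : Fx (β ^ p))
    (hv : ∀ c : Ω, Fx c → c ≠ 0 → A.valuation (c * β) ≠ 1) :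
    ∀ c : Ω, Fx c → c ≠ 0 → ∀ k : ℕ, 0 < k → k < p → c * β ^ k ∈ A → c * β ^ k ∈ A.nonunits := by
  intro c hc hc0 k hk0 hkp hmem
  have hpow : ∀ (a : Ω) (n : ℕ), Fx a → Fx (a ^ n) := by
    intro a n ha
    induction n with
    | zero => rw [pow_zero]; exact hone
    | succ n ih => rw [pow_succ]; exact hmul _ _ ih ha
  rw [ValuationSubring.mem_nonunits_iff]
  refine lt_of_le_of_ne ((A.valuation_le_one_iff _).mpr hmem) ?_
  intro h
  have hcop : Nat.Coprime k p := by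
    rw [Nat.coprime_comm]
    exact (Nat.Prime.coprime_iff_not_dvd hp).mpr
      (fun hd => absurd (Nat.le_of_dvd hk0 hd) (not_le.mpr hkp))
  obtain ⟨a, ha⟩ : ∃ a : ℕ, a * k ≡ 1 [MOD p] := by
    obtain ⟨a, -, ha⟩ := Nat.exists_mul_mod_eq_one_of_coprime hcop hp.one_lt
    refine ⟨a, ?_⟩
    rw [mul_comm]
    show k * a % p = 1 % p
    rw [ha, Nat.mod_eq_of_lt hp.one_lt]
  have hak : 1 ≤ a * k := by
    rcases Nat.eq_zero_or_pos (a * k) with h0 | h0
    · rw [h0] at ha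
      have h1 : 1 % p = 0 % p := ha.symm
      rw [Nat.mod_eq_of_lt hp.one_lt, Nat.zero_mod] at h1
      exact absurd h1 one_ne_zero
    · exact h0
  obtain ⟨b, hb⟩ : ∃ b : ℕ, a * k = 1 + b * p := by
    have h1 : p ∣ a * k - 1 := (Nat.modEq_iff_dvd' hak).mp ha.symm
    obtain ⟨b, hb⟩ := h1
    exact ⟨b, by rw [mul_comm b p, ← hb]; omega⟩
  have e : (c * β ^ k) ^ a = (c ^ a * (β ^ p) ^ b) * β := by
    rw [mul_pow, ← pow_mul, mul_comm k a, hb, pow_add, pow_one, ← pow_mul, mul_comm p b]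
    ring
  have hmem' : Fx (c ^ a * (β ^ p) ^ b) := hmul _ _ (hpow c a hc) (hpow _ b hβp)
  have hne : c ^ a * (β ^ p) ^ b ≠ 0 :=
    mul_ne_zero (pow_ne_zero a hc0) (pow_ne_zero b (pow_ne_zero p hβ))
  apply hv _ hmem' hne
  rw [← e, map_pow, h, one_pow]

end Fermat.Agent.S40
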