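import Fermat.Agent.S41.NETransfer
import Fermat.Agent.S40.Defs

/-!
# TRACK 13 (S44 target), package W-MULT, part TRANSPORT (helper11).  Prefix `S40WT_`.

`E / ℚ` an elliptic curve (think `P.freyCurve`), `W / ℤ` ANY integral model of `E`
(`W.IsIntegralModelOf E`, as delivered by `P.ModularRepOfLevel N`).  The Galois-equivariant
additive bijection `S41NT_theta : W(ℚ̄) → E(ℚ̄)` transports every statement about the Galois
module `W[p]` to `E[p]` and back.

* `S40WT_DepthE E A p T`, `S40WT_DepthW W A p T` : the DEPTH statement (W-glue) for `τ ∈ T`;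
* `S40WT_depthW_of_depthE` : depth for `E` ⇒ depth for every integral model `W`;
* `S40WT_InvE E A p` : (INV) for `E`;  `S40WT_invW_of_invE`, `S40WT_invE_of_invW`;
* `S40WT_caseB_E_of_W`, `S40WT_caseB_W_of_E` : case B passes between `W` and `E`;
* `S40WT_fix_iff` : `g` fixes `W[p]` pointwise iff it fixes `E[p]` pointwise.
-/

set_option autoImplicit false
set_option linter.unusedSectionVars false
set_option linter.unusedVariables false

namespace Fermat.Agent.S40

open WeierstrassCurve Fermat.Agent.S41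

local notation "ℚbar" => AlgebraicClosure ℚ
local notation "GQ" => (AlgebraicClosure ℚ ≃ₐ[ℚ] AlgebraicClosure ℚ)

/-- the DEPTH statement for the points of `E / ℚ`, for the elements `τ` of a set `T`. -/
def S40WT_DepthE (E : WeierstrassCurve ℚ) (A : ValuationSubring ℚbar) (p : ℕ) (T : Set GQ) :
    Prop :=
  ∀ τ ∈ T, ∀ P : (E.baseChange ℚbar).toAffine.Point, p • P = 0 → τ • P ≠ P →
    ∃ z : ℚbar, z ∈ A ∧
      (∀ g g' : GQ, g ∈ A.inertiaSubgroupIn ℚ → g' ∈ A.inertiaSubgroupIn ℚ →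
        g • P = g' • P → g z = g' z) ∧
      A.valuation (p : ℚbar) ≤ A.valuation (τ z - z) ^ (p - 1)

/-- the DEPTH statement for the points of `W / ℤ`, for the elements `τ` of a set `T`. -/
def S40WT_DepthW (W : WeierstrassCurve ℤ) (A : ValuationSubring ℚbar) (p : ℕ) (T : Set GQ) :
    Prop :=
  ∀ τ ∈ T, ∀ P : (W.baseChange ℚbar).toAffine.Point, p • P = 0 → τ • P ≠ P →
    ∃ z : ℚbar, z ∈ A ∧
      (∀ g g' : GQ, g ∈ A.inertiaSubgroupIn ℚ → g' ∈ A.inertiaSubgroupIn ℚ →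
        g • P = g' • P → g z = g' z) ∧
      A.valuation (p : ℚbar) ≤ A.valuation (τ z - z) ^ (p - 1)

/-- **(INV) for `E / ℚ`**. -/
def S40WT_InvE (E : WeierstrassCurve ℚ) (A : ValuationSubring ℚbar) (p : ℕ) : Prop :=
  ∀ β : ℚbar, S40D_Tres A p β →
    ∃ g ∈ S40D_I1 A p, (∀ P : (E.baseChange ℚbar).toAffine.Point, p • P = 0 → g • P = P) ∧
      g β ≠ β

section transport

variable (E : WeierstrassCurve ℚ) [E.IsElliptic] (W : WeierstrassCurve ℤ)
  (C : WeierstrassCurve.VariableChange ℚ) (hC : C • E = W.map (Int.castRingHom ℚ))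

include hC in
/-- `g` fixes `P ∈ W(ℚ̄)` iff it fixes `θ P ∈ E(ℚ̄)`. -/
theorem S40WT_fix_pt_iff (g : GQ) (P : (W.baseChange ℚbar).toAffine.Point) :
    g • P = P ↔ g • S41NT_theta E W C hC P = S41NT_theta E W C hC P := by
  rw [← S41NT_theta_smul E W C hC g P]
  exact ⟨fun h => by rw [h], fun h => S41NT_theta_injective E W C hC h⟩

include hC in
/-- `g • P = g' • P` in `W(ℚ̄)` iff the same holds for `θ P` in `E(ℚ̄)`. -/
theorem S40WT_eq_pt_iff (g g' : GQ) (P : (W.baseChange ℚbar).toAffine.Point) :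
    g • P = g' • P ↔ g • S41NT_theta E W C hC P = g' • S41NT_theta E W C hC P := by
  rw [← S41NT_theta_smul E W C hC g P, ← S41NT_theta_smul E W C hC g' P]
  exact ⟨fun h => by rw [h], fun h => S41NT_theta_injective E W C hC h⟩

include hC in
theorem S40WT_theta_tors {p : ℕ} {P : (W.baseChange ℚbar).toAffine.Point} (hP : p • P = 0) :
    p • S41NT_theta E W C hC P = 0 := by
  rw [← map_nsmul, hP, map_zero]

include hC in
theorem S40WT_theta_tors_iff {p : ℕ} (P : (W.baseChange ℚbar).toAffine.Point) :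
    p • S41NT_theta E W C hC P = 0 ↔ p • P = 0 := by
  refine ⟨fun h => ?_, fun h => S40WT_theta_tors E W C hC h⟩
  rw [← map_nsmul] at h
  exact S41NT_theta_injective E W C hC (by rw [h, map_zero])

include hC in
/-- `g` fixes `W[p]` pointwise iff it fixes `E[p]` pointwise. -/
theorem S40WT_fix_iff (p : ℕ) (g : GQ) :
    (∀ P : (W.baseChange ℚbar).toAffine.Point, p • P = 0 → g • P = P) ↔
      ∀ Q : (E.baseChange ℚbar).toAffine.Point, p • Q = 0 → g • Q = Q := by
  constructor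
  · intro h Q hQ
    obtain ⟨P, rfl⟩ := S41NT_theta_surjective E W C hC Q
    exact (S40WT_fix_pt_iff E W C hC g P).1 (h P ((S40WT_theta_tors_iff E W C hC P).1 hQ))
  · intro h P hP
    exact (S40WT_fix_pt_iff E W C hC g P).2 (h _ (S40WT_theta_tors E W C hC hP))

include hC in
/-- **TRANSPORT of the depth statement** from `E` to the integral model `W`. -/
theorem S40WT_depthW_of_depthE' (A : ValuationSubring ℚbar) (p : ℕ) (T : Set GQ)
    (h : S40WT_DepthE E A p T) : S40WT_DepthW W A p T := by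
  intro τ hτ P hP hτP
  have hτQ : τ • S41NT_theta E W C hC P ≠ S41NT_theta E W C hC P :=
    fun hh => hτP ((S40WT_fix_pt_iff E W C hC τ P).2 hh)
  obtain ⟨z, hz, hstab, hdepth⟩ := h τ hτ _ (S40WT_theta_tors E W C hC hP) hτQ
  exact ⟨z, hz, fun g g' hg hg' hgP =>
    hstab g g' hg hg' ((S40WT_eq_pt_iff E W C hC g g' P).1 hgP), hdepth⟩

include hC in
/-- **TRANSPORT of (INV)** from `E` to the integral model `W`. -/
theorem S40WT_invW_of_invE' (A : ValuationSubring ℚbar) (p : ℕ) (h : S40WT_InvE E A p) :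
    S40D_InvW W A p := by
  intro β hβ
  obtain ⟨g, hg, hgE, hgβ⟩ := h β hβ
  exact ⟨g, hg, (S40WT_fix_iff E W C hC p g).2 hgE, hgβ⟩

include hC in
/-- **TRANSPORT of (INV)** from the integral model `W` to `E`. -/
theorem S40WT_invE_of_invW' (A : ValuationSubring ℚbar) (p : ℕ) (h : S40D_InvW W A p) :
    S40WT_InvE E A p := by
  intro β hβ
  obtain ⟨g, hg, hgW, hgβ⟩ := h β hβ
  exact ⟨g, hg, (S40WT_fix_iff E W C hC p g).1 hgW, hgβ⟩

include hC in
/-- case B passes from `W` to `E`. -/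
theorem S40WT_caseB_E_of_W' (p : ℕ) (S : Set GQ)
    (hB : ∀ g ∈ S, ∃ P : (W.baseChange ℚbar).toAffine.Point, P ≠ 0 ∧ p • P = 0 ∧ g • P = P) :
    ∀ g ∈ S, ∃ Q : (E.baseChange ℚbar).toAffine.Point, Q ≠ 0 ∧ p • Q = 0 ∧ g • Q = Q := by
  intro g hg
  obtain ⟨P, hP0, hP, hgP⟩ := hB g hg
  refine ⟨S41NT_theta E W C hC P, ?_, S40WT_theta_tors E W C hC hP,
    (S40WT_fix_pt_iff E W C hC g P).1 hgP⟩
  intro h0
  exact hP0 (S41NT_theta_injective E W C hC (by rw [h0, map_zero]))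

include hC in
/-- case B passes from `E` to `W`. -/
theorem S40WT_caseB_W_of_E' (p : ℕ) (S : Set GQ)
    (hB : ∀ g ∈ S, ∃ Q : (E.baseChange ℚbar).toAffine.Point, Q ≠ 0 ∧ p • Q = 0 ∧ g • Q = Q) :
    ∀ g ∈ S, ∃ P : (W.baseChange ℚbar).toAffine.Point, P ≠ 0 ∧ p • P = 0 ∧ g • P = P := by
  intro g hg
  obtain ⟨Q, hQ0, hQ, hgQ⟩ := hB g hg
  obtain ⟨P, rfl⟩ := S41NT_theta_surjective E W C hC Q
  refine ⟨P, ?_, (S40WT_theta_tors_iff E W C hC P).1 hQ, (S40WT_fix_pt_iff E W C hC g P).2 hgQ⟩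
  rintro rfl
  exact hQ0 (map_zero _)

end transport

section model

variable (E : WeierstrassCurve ℚ) [E.IsElliptic] {W : WeierstrassCurve ℤ}

/-- **TRANSPORT of the depth statement** to any integral model. -/
theorem S40WT_depthW_of_depthE (hW : W.IsIntegralModelOf E) (A : ValuationSubring ℚbar)
    (p : ℕ) (T : Set GQ) (h : S40WT_DepthE E A p T) : S40WT_DepthW W A p T := by
  obtain ⟨C, hC⟩ := hW
  exact S40WT_depthW_of_depthE' E W C hC A p T h

/-- **TRANSPORT of (INV)** to any integral model. -/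
theorem S40WT_invW_of_invE (hW : W.IsIntegralModelOf E) (A : ValuationSubring ℚbar)
    (p : ℕ) (h : S40WT_InvE E A p) : S40D_InvW W A p := by
  obtain ⟨C, hC⟩ := hW
  exact S40WT_invW_of_invE' E W C hC A p h

/-- **TRANSPORT of (INV)** from an integral model. -/
theorem S40WT_invE_of_invW (hW : W.IsIntegralModelOf E) (A : ValuationSubring ℚbar)
    (p : ℕ) (h : S40D_InvW W A p) : S40WT_InvE E A p := by
  obtain ⟨C, hC⟩ := hW
  exact S40WT_invE_of_invW' E W C hC A p h

/-- case B passes from an integral model to `E`. -/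
theorem S40WT_caseB_E_of_W (hW : W.IsIntegralModelOf E) (p : ℕ) (S : Set GQ)
    (hB : ∀ g ∈ S, ∃ P : (W.baseChange ℚbar).toAffine.Point, P ≠ 0 ∧ p • P = 0 ∧ g • P = P) :
    ∀ g ∈ S, ∃ Q : (E.baseChange ℚbar).toAffine.Point, Q ≠ 0 ∧ p • Q = 0 ∧ g • Q = Q := by
  obtain ⟨C, hC⟩ := hW
  exact S40WT_caseB_E_of_W' E W C hC p S hB

/-- case B passes from `E` to an integral model. -/
theorem S40WT_caseB_W_of_E (hW : W.IsIntegralModelOf E) (p : ℕ) (S : Set GQ)
    (hB : ∀ g ∈ S, ∃ Q : (E.baseChange ℚbar).toAffine.Point, Q ≠ 0 ∧ p • Q = 0 ∧ g • Q = Q) :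
    ∀ g ∈ S, ∃ P : (W.baseChange ℚbar).toAffine.Point, P ≠ 0 ∧ p • P = 0 ∧ g • P = P := by
  obtain ⟨C, hC⟩ := hW
  exact S40WT_caseB_W_of_E' E W C hC p S hB

end model

end Fermat.Agent.S40
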