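import Mathlib

/-!
# TRACK 13 (S40 / S44), (D-CUSP)(a), ABSTRACT part (helper24).  Prefix `S40WD_`.  Mathlib only.

`F` a field, `K ⊂ F` a subfield, `O` a valuation ring of `F`, `w : F →+* F` (an Atkin–Lehner
involution), `b : Fin n → F` a family with `b i ∈ O`, `w (b i) ∈ O` whose RESIDUES ARE LINEARLY
INDEPENDENT over the residue field of `O ∩ K`:

  (LI)  `a i ∈ K ∩ O` and `∑ a i * b i ∈ 𝔪_O`  ⇒  every `a i ∈ 𝔪_O`.

* `S40WD_coeff_mem` : if `∑ a i * b i ∈ O` with `a i ∈ K` then every `a i ∈ O`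
  (`O` is the free `(O ∩ K)`-module on the `b i`);
* `S40WD_linearIndependent` : the `b i` are linearly independent over `K`;
* `S40WD_span` : if moreover `[F : K] ≤ n` then the `b i` span `F` over `K`;
* **`S40WD_main`** : if `w (K ∩ O) ⊆ O` then `w O ⊆ O`  (NO fundamental inequality, NO
  approximation theorem: `O` is the only valuation ring of `F` over `O ∩ K` because the residue
  degree is the full degree);
* `S40WD_comap` : for an involution `w`: `O.comap w = O`.
-/

set_option autoImplicit false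
set_option linter.unusedSectionVars false
set_option linter.unusedVariables false

namespace Fermat.Agent.S40

variable {F : Type*} [Field F]

/-- `x ∈ 𝔪_O` iff `V x < 1`. -/
theorem S40WD_mem_nonunits (O : ValuationSubring F) (x : F) :
    x ∈ O.nonunits ↔ O.valuation x < 1 :=
  ValuationSubring.mem_nonunits_iff O

/-- the scaling step: a family of coefficients, one of which is not in `O`, can be divided by a
coefficient `c` of maximal valuation; then `V c > 1`, all `a i / c ∈ O` and one of them is `1`. -/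
theorem S40WD_exists_max (O : ValuationSubring F) {n : ℕ} (a : Fin n → F)
    (h : ∃ i, a i ≠ 0) :
    ∃ i₁, a i₁ ≠ 0 ∧ ∀ i, O.valuation (a i) ≤ O.valuation (a i₁) := by
  obtain ⟨i₀, hi₀⟩ := h
  obtain ⟨i₁, -, hmax⟩ := Finset.exists_max_image Finset.univ (fun i => O.valuation (a i))
    ⟨i₀, Finset.mem_univ _⟩
  refine ⟨i₁, ?_, fun i => hmax i (Finset.mem_univ _)⟩
  intro h0
  have h1 := hmax i₀ (Finset.mem_univ _)
  rw [h0, map_zero] at h1
  exact hi₀ ((Valuation.zero_iff _).1 (le_zero_iff.1 h1))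

variable (K : Subfield F) (O : ValuationSubring F) {n : ℕ} (b : Fin n → F)

/-- **the lattice lemma**: under (LI), `∑ a i * b i ∈ O` with `a i ∈ K` forces `a i ∈ O`. -/
theorem S40WD_coeff_mem
    (hLI : ∀ a : Fin n → F, (∀ i, a i ∈ K) → (∀ i, a i ∈ O) →
      ∑ i, a i * b i ∈ O.nonunits → ∀ i, a i ∈ O.nonunits)
    (a : Fin n → F) (ha : ∀ i, a i ∈ K) (hx : ∑ i, a i * b i ∈ O) : ∀ i, a i ∈ O := by
  by_contra hcon
  push Not at hcon
  obtain ⟨i₀, hi₀⟩ := hcon
  have hi₀0 : a i₀ ≠ 0 := by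
    intro h0
    exact hi₀ (h0 ▸ O.zero_mem)
  obtain ⟨i₁, hc0, hmax⟩ := S40WD_exists_max O a ⟨i₀, hi₀0⟩
  set c : F := a i₁ with hc
  have hVc : 1 < O.valuation c := by
    have h1 : 1 < O.valuation (a i₀) := by
      rw [← not_le, O.valuation_le_one_iff]
      exact hi₀
    exact lt_of_lt_of_le h1 (hmax i₀)
  have hVc0 : O.valuation c ≠ 0 := (Valuation.ne_zero_iff _).2 hc0
  have hVcpos : 0 < O.valuation c := zero_lt_iff.2 hVc0
  have ha' : ∀ i, a i / c ∈ K := fun i => K.div_mem (ha i) (ha i₁)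
  have ha'O : ∀ i, a i / c ∈ O := by
    intro i
    rw [← O.valuation_le_one_iff, map_div₀]
    exact div_le_one_of_le₀ (hmax i) zero_le
  have hsum : ∑ i, a i / c * b i = (∑ i, a i * b i) / c := by
    rw [Finset.sum_div]
    refine Finset.sum_congr rfl fun i _ => ?_
    field_simp
  have hnu : ∑ i, a i / c * b i ∈ O.nonunits := by
    rw [hsum, S40WD_mem_nonunits, map_div₀, div_lt_one₀ hVcpos]
    exact lt_of_le_of_lt ((O.valuation_le_one_iff _).2 hx) hVc
  have h1 := hLI (fun i => a i / c) ha' ha'O hnu i₁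
  have h2 : a i₁ / c = 1 := div_self hc0
  rw [h2, S40WD_mem_nonunits, map_one] at h1
  exact lt_irrefl _ h1

/-- under (LI) the `b i` are linearly independent over `K`. -/
theorem S40WD_linearIndependent
    (hLI : ∀ a : Fin n → F, (∀ i, a i ∈ K) → (∀ i, a i ∈ O) →
      ∑ i, a i * b i ∈ O.nonunits → ∀ i, a i ∈ O.nonunits) :
    LinearIndependent K b := by
  rw [Fintype.linearIndependent_iff]
  intro g hg
  by_contra hcon
  push Not at hcon
  obtain ⟨i₀, hi₀⟩ := hcon
  have hi₀' : ((g i₀ : K) : F) ≠ 0 := fun h => hi₀ (Subtype.ext h)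
  obtain ⟨i₁, hc0, hmax⟩ := S40WD_exists_max O (fun i => ((g i : K) : F)) ⟨i₀, hi₀'⟩
  set c : F := ((g i₁ : K) : F) with hc
  have hVc0 : O.valuation c ≠ 0 := (Valuation.ne_zero_iff _).2 hc0
  have ha' : ∀ i, ((g i : K) : F) / c ∈ K := fun i => K.div_mem (g i).2 (g i₁).2
  have ha'O : ∀ i, ((g i : K) : F) / c ∈ O := by
    intro i
    rw [← O.valuation_le_one_iff, map_div₀]
    exact div_le_one_of_le₀ (hmax i) zero_le
  have hg' : ∑ i, ((g i : K) : F) * b i = 0 := by
    have := hg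
    simpa [Subfield.smul_def] using this
  have hsum : ∑ i, ((g i : K) : F) / c * b i = 0 := by
    have : ∑ i, ((g i : K) : F) / c * b i = (∑ i, ((g i : K) : F) * b i) / c := by
      rw [Finset.sum_div]
      refine Finset.sum_congr rfl fun i _ => ?_
      field_simp
    rw [this, hg', zero_div]
  have hnu : ∑ i, ((g i : K) : F) / c * b i ∈ O.nonunits := by
    rw [hsum, S40WD_mem_nonunits, map_zero]
    exact zero_lt_one
  have h1 := hLI (fun i => ((g i : K) : F) / c) ha' ha'O hnu i₁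
  have h2 : ((g i₁ : K) : F) / c = 1 := div_self hc0
  rw [h2, S40WD_mem_nonunits, map_one] at h1
  exact lt_irrefl _ h1

/-- under (LI) and `[F : K] ≤ n` the `b i` span `F` over `K`. -/
theorem S40WD_span [FiniteDimensional K F]
    (hLI : ∀ a : Fin n → F, (∀ i, a i ∈ K) → (∀ i, a i ∈ O) →
      ∑ i, a i * b i ∈ O.nonunits → ∀ i, a i ∈ O.nonunits)
    (hdim : Module.finrank K F ≤ n) (x : F) :
    ∃ a : Fin n → F, (∀ i, a i ∈ K) ∧ x = ∑ i, a i * b i := by
  have hli := S40WD_linearIndependent K O b hLI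
  have hcard : Fintype.card (Fin n) = Module.finrank K F := by
    rw [Fintype.card_fin]
    have := hli.fintype_card_le_finrank
    rw [Fintype.card_fin] at this
    omega
  have hspan : Submodule.span K (Set.range b) = ⊤ :=
    hli.span_eq_top_of_card_eq_finrank' hcard
  have hx : x ∈ Submodule.span K (Set.range b) := by rw [hspan]; trivial
  obtain ⟨g, hg⟩ := (Submodule.mem_span_range_iff_exists_fun K).1 hx
  refine ⟨fun i => ((g i : K) : F), fun i => (g i).2, ?_⟩
  rw [← hg]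
  simp [Subfield.smul_def]

variable (w : F →+* F)

/-- **(D-CUSP)(a), abstract form**: if the residues of the `b i` are linearly independent over the
residue field of `O ∩ K`, the `b i` span `F` over `K`, and `w` maps `K ∩ O`, and the `b i`, into
`O`, then `w O ⊆ O`. -/
theorem S40WD_main (hwb : ∀ i, w (b i) ∈ O)
    (hspan : ∀ x : F, ∃ a : Fin n → F, (∀ i, a i ∈ K) ∧ x = ∑ i, a i * b i)
    (hLI : ∀ a : Fin n → F, (∀ i, a i ∈ K) → (∀ i, a i ∈ O) →
      ∑ i, a i * b i ∈ O.nonunits → ∀ i, a i ∈ O.nonunits)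
    (hK : ∀ a ∈ K, a ∈ O → w a ∈ O) (x : F) (hx : x ∈ O) : w x ∈ O := by
  obtain ⟨a, ha, rfl⟩ := hspan x
  have haO := S40WD_coeff_mem K O b hLI a ha hx
  rw [map_sum]
  refine O.toSubring.sum_mem fun i _ => ?_
  rw [map_mul]
  exact O.mul_mem _ _ (hK _ (ha i) (haO i)) (hwb i)

/-- the same with the dimension bound instead of the spanning hypothesis. -/
theorem S40WD_main' [FiniteDimensional K F] (hwb : ∀ i, w (b i) ∈ O)
    (hdim : Module.finrank K F ≤ n)
    (hLI : ∀ a : Fin n → F, (∀ i, a i ∈ K) → (∀ i, a i ∈ O) →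
      ∑ i, a i * b i ∈ O.nonunits → ∀ i, a i ∈ O.nonunits)
    (hK : ∀ a ∈ K, a ∈ O → w a ∈ O) (x : F) (hx : x ∈ O) : w x ∈ O :=
  S40WD_main K O b w hwb (S40WD_span K O b hLI hdim) hLI hK x hx

/-- for an involution `w`: `f ∈ O ↔ w f ∈ O`. -/
theorem S40WD_iff (hww : ∀ x, w (w x) = x) (h : ∀ x ∈ O, w x ∈ O) (x : F) :
    w x ∈ O ↔ x ∈ O :=
  ⟨fun hx => by have := h _ hx; rwa [hww] at this, h x⟩

/-- (LI) from the linear independence of the residues: `red : O → κ` a ring homomorphism with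
kernel `𝔪_O`, `κ'` a subfield of `κ` containing `red (K ∩ O)`, `red (b i)` linearly independent
over `κ'`. -/
theorem S40WD_LI_of_red {κ : Type*} [Field κ] (red : O →+* κ)
    (hker : ∀ x : O, red x = 0 → (x : F) ∈ O.nonunits)
    (κ' : Subfield κ) (hκ : ∀ (a : F) (ha : a ∈ O), a ∈ K → red ⟨a, ha⟩ ∈ κ')
    (hb : ∀ i, b i ∈ O)
    (hli : LinearIndependent κ' (fun i => red ⟨b i, hb i⟩))
    (hnu : ∀ x : O, (x : F) ∈ O.nonunits → red x = 0) :
    ∀ a : Fin n → F, (∀ i, a i ∈ K) → (∀ i, a i ∈ O) →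
      ∑ i, a i * b i ∈ O.nonunits → ∀ i, a i ∈ O.nonunits := by
  intro a haK haO hsum i
  rw [Fintype.linearIndependent_iff] at hli
  have hmem : ∑ i, a i * b i ∈ O :=
    O.toSubring.sum_mem fun i _ => O.mul_mem _ _ (haO i) (hb i)
  have h0 : red ⟨∑ i, a i * b i, hmem⟩ = 0 := hnu _ hsum
  have e : (⟨∑ i, a i * b i, hmem⟩ : O) = ∑ i, (⟨a i, haO i⟩ : O) * ⟨b i, hb i⟩ := by
    apply Subtype.ext
    simp
  rw [e, map_sum] at h0
  have h1 : ∑ i, (⟨red ⟨a i, haO i⟩, hκ _ (haO i) (haK i)⟩ : κ') • red ⟨b i, hb i⟩ = 0 := by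
    rw [← h0]
    refine Finset.sum_congr rfl fun i _ => ?_
    rw [map_mul, Subfield.smul_def, smul_eq_mul]
  have h2 := hli _ h1 i
  have h3 : red ⟨a i, haO i⟩ = 0 := congrArg Subtype.val h2
  exact hker _ h3

end Fermat.Agent.S40
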