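import Mathlib
import Fermat.Prelude.Def_ModularCurve_X0ModL

/-!
# TRACK 13 (S40 / S44), (D-CUSP)(a), instance: the residue subfield (helper10).
Prefix `S40WDD_`.

`E = F̄_N`, `E' = F̄_{N'}` as subfields of `k((q))`.  `S40WDD_sub k N N'` is `E'` as a subfield of
`↥E` (the elements of `E` lying in `E'`); for `N' ∣ N` this is a copy of `E'`.
-/

set_option autoImplicit false

open ModularCurve

namespace Fermat.Agent.S40

/-- `F̄_{N'} ∩ F̄_N` as a subfield of `↥F̄_N`. -/
noncomputable def S40WDD_sub (k : Type*) [Field k] (N N' : ℕ) [NeZero N] [NeZero N'] :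
    Subfield ↥(modularFunctionFieldFullC k N) :=
  (modularFunctionFieldFullC k N').toSubfield.comap
    (algebraMap ↥(modularFunctionFieldFullC k N) (LaurentSeries k))

theorem S40WDD_mem_sub {k : Type*} [Field k] {N N' : ℕ} [NeZero N] [NeZero N']
    {x : ↥(modularFunctionFieldFullC k N)} :
    x ∈ S40WDD_sub k N N' ↔ (x : LaurentSeries k) ∈ modularFunctionFieldFullC k N' :=
  Iff.rfl

/-- the constants lie in the subfield. -/
theorem S40WDD_const_mem {k : Type*} [Field k] {N N' : ℕ} [NeZero N] [NeZero N'] (c : k) :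
    algebraMap k ↥(modularFunctionFieldFullC k N) c ∈ S40WDD_sub k N N' :=
  (modularFunctionFieldFullC k N').algebraMap_mem c

end Fermat.Agent.S40
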