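import Mathlib
import Fermat.Agent.S34.ValFk

/-!
# TRACK 13 (S40/S44), (D-CUSP) route AL, leaf (a)(II) (helper4): the degree `[F̄_N : F̄_{N'}] = d + 1`

`A ⊂ ℚ̄` a valuation ring over `p`, `k` its residue field, `F̄_L = modularFunctionFieldFullC k L`
inside `k((q))`, `J = k(j̄)`.

* `S40WDG_relfinrank_J`   : `[F̄_L : k(j̄)] = ψ(L)` as a `relfinrank` in `k((q))`, `p ∤ L`;
* `S40WDG_relfinrank`     : `[F̄_{L d} : F̄_L] = d + 1` for a prime `d ∤ L`, `p ∤ L d`;
* `S40WDG_relfinrank_p`   : `[F̄_{L d p} : F̄_{L p}] = d + 1` (levels divisible by `p`: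
  `F̄_{L p} = F̄_L`, `S34VF_FkN_res`);
* `S40WDG_relfinrank_of_eq` : the same for any two levels `N'`, `N` whose fibre fields are `F̄_L`
  and `F̄_{L d}`;
* `S40WDG_finrank`        : the same as a `Module.finrank` over `F̄_{N'}` of
  `IntermediateField.extendScalars`;
* `S40WDG_exists_li`      : a family of elements spanning `F̄_N` over `F̄_{N'}` as a module contains
  `d + 1` elements which are linearly independent over `F̄_{N'}` — abstract form
  `S40WDG_exists_li_abs` (any field extension of finrank `n`).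
Prefix `S40WDG_`.
-/

set_option autoImplicit false
set_option synthInstance.maxHeartbeats 400000
set_option maxHeartbeats 1000000
set_option linter.unusedSectionVars false
set_option linter.unusedVariables false
set_option linter.style.haveILetI false

open HahnSeries IntermediateField AlgebraicCurve ModularCurve

namespace Fermat.Agent.S40

open Fermat.Agent.Lib Fermat.Agent.S18 Fermat.Agent.S24 Fermat.Agent.S34 Fermat.Agent.GalRep

variable (A : ValuationSubring (AlgebraicClosure ℚ)) {p : ℕ}

local notation "kk" => IsLocalRing.ResidueField A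

/-- `k(j̄) ≤ F̄_L` inside `k((q))`. -/
theorem S40WDG_J_le (L : ℕ) [NeZero L] :
    (kk)⟮jqModC kk⟯ ≤ modularFunctionFieldFullC kk L := by
  rw [adjoin_simple_le_iff]
  exact jqModC_mem_full kk L

/-- `[F̄_L : k(j̄)] = ψ(L)` as a relative rank inside `k((q))`. -/
theorem S40WDG_relfinrank_J (hp : p.Prime) (hA : A.LiesOverPrime p) (L : ℕ) [NeZero L]
    (hpL : ¬ p ∣ L) :
    relfinrank ((kk)⟮jqModC kk⟯) (modularFunctionFieldFullC kk L) = dedekindPsi L := by
  have h := RIG_finrank_eq_psi L A hp hA hpL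
  rw [← relfinrank_top_right,
    ← relfinrank_map_map _ _ (modularFunctionFieldFullC kk L).val] at h
  rw [adjoin_map, Set.image_singleton, ← AlgHom.fieldRange_eq_map,
    IntermediateField.fieldRange_val] at h
  exact h

/-- **`[F̄_{L d} : F̄_L] = d + 1`** for a prime `d ∤ L`, `p ∤ L d`. -/
theorem S40WDG_relfinrank (hp : p.Prime) (hA : A.LiesOverPrime p) (L d : ℕ) [NeZero L]
    [NeZero (L * d)] (hd : d.Prime) (hdL : ¬ d ∣ L) (hpL : ¬ p ∣ L) (hpd : p ≠ d) :
    relfinrank (modularFunctionFieldFullC kk L) (modularFunctionFieldFullC kk (L * d)) =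
      d + 1 := by
  have hpLd : ¬ p ∣ L * d := by
    intro h
    rcases (Nat.Prime.dvd_mul hp).1 h with h1 | h1
    · exact hpL h1
    · exact hpd ((Nat.prime_dvd_prime_iff_eq hp hd).1 h1)
  have h1 := S40WDG_relfinrank_J A hp hA L hpL
  have h2 := S40WDG_relfinrank_J A hp hA (L * d) hpLd
  have hle : modularFunctionFieldFullC kk L ≤ modularFunctionFieldFullC kk (L * d) :=
    full_degeneracyC_le kk (Dvd.intro d rfl)
  have h3 := relfinrank_mul_relfinrank (S40WDG_J_le A L) hle
  have hψ : dedekindPsi (L * d) = dedekindPsi L * (d + 1) := by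
    rw [mul_comm L d, Fermat.Agent.S20.S20_dedekindPsi_prime_mul_of_not_dvd hd (NeZero.ne L) hdL,
      mul_comm]
  rw [h1, h2, hψ] at h3
  exact Nat.eq_of_mul_eq_mul_left (GRHF_dedekindPsi_pos L) h3

/-- the same for any two levels with the fibre fields `F̄_L`, `F̄_{L d}`. -/
theorem S40WDG_relfinrank_of_eq (hp : p.Prime) (hA : A.LiesOverPrime p) (L d : ℕ) [NeZero L]
    [NeZero (L * d)] (hd : d.Prime) (hdL : ¬ d ∣ L) (hpL : ¬ p ∣ L) (hpd : p ≠ d)
    (E' E : IntermediateField kk (LaurentSeries kk))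
    (hE' : E' = modularFunctionFieldFullC kk L)
    (hE : E = modularFunctionFieldFullC kk (L * d)) :
    relfinrank E' E = d + 1 := by
  rw [hE', hE]
  exact S40WDG_relfinrank A hp hA L d hd hdL hpL hpd

/-- **`[F̄_{L d p} : F̄_{L p}] = d + 1`**: the levels divisible by `p`. -/
theorem S40WDG_relfinrank_p (hp : p.Prime) (hA : A.LiesOverPrime p) (L d : ℕ) [NeZero L]
    [NeZero (L * d)] [NeZero (L * p)] [NeZero (L * d * p)]
    (hd : d.Prime) (hdL : ¬ d ∣ L) (hpL : ¬ p ∣ L) (hpd : p ≠ d) :
    relfinrank (modularFunctionFieldFullC kk (L * p))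
      (modularFunctionFieldFullC kk (L * d * p)) = d + 1 :=
  S40WDG_relfinrank_of_eq A hp hA L d hd hdL hpL hpd _ _
    (S34VF_FkN_res L A hp hA) (S34VF_FkN_res (L * d) A hp hA)

/-- the same as a `finrank` of `extendScalars`. -/
theorem S40WDG_finrank (hp : p.Prime) (hA : A.LiesOverPrime p) (L d : ℕ) [NeZero L]
    [NeZero (L * d)] (hd : d.Prime) (hdL : ¬ d ∣ L) (hpL : ¬ p ∣ L) (hpd : p ≠ d)
    (E' E : IntermediateField kk (LaurentSeries kk))
    (hE' : E' = modularFunctionFieldFullC kk L)
    (hE : E = modularFunctionFieldFullC kk (L * d)) (hle : E' ≤ E) :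
    Module.finrank ↥E' ↥(extendScalars hle) = d + 1 := by
  rw [← relfinrank_eq_finrank_of_le hle]
  exact S40WDG_relfinrank_of_eq A hp hA L d hd hdL hpL hpd E' E hE' hE

/-- **abstract**: a spanning set of a vector space of finrank `n` contains `n` linearly
independent elements. -/
theorem S40WDG_exists_li_abs {K V : Type*} [Field K] [AddCommGroup V] [Module K V]
    (S : Set V) (hS : Submodule.span K S = ⊤) (n : ℕ) (hn : Module.finrank K V = n) :
    ∃ f : Fin n → V, (∀ i, f i ∈ S) ∧ LinearIndependent K f := by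
  rcases Nat.eq_zero_or_pos n with h0 | hpos
  · subst h0
    exact ⟨fun i => i.elim0, fun i => i.elim0, linearIndependent_empty_type⟩
  · haveI : Module.Finite K V := Module.finite_of_finrank_pos (by rw [hn]; exact hpos)
    obtain ⟨b, hbS, hspan, hli⟩ := exists_linearIndependent K S
    have hspan' : ⊤ ≤ Submodule.span K (Set.range (fun x : b => (x : V))) := by
      rw [Subtype.range_coe, hspan, hS]
    let B : Module.Basis b K V := Module.Basis.mk hli hspan'
    haveI : Finite b := Module.Finite.finite_basis B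
    haveI : Fintype b := Fintype.ofFinite b
    have hcard : Fintype.card b = n := by
      rw [← hn, Module.finrank_eq_card_basis B]
    let e : Fin n ≃ b := (Fintype.equivFinOfCardEq hcard).symm
    refine ⟨fun i => ((e i : b) : V), fun i => hbS (e i).2, ?_⟩
    exact hli.comp e e.injective

/-- **(III)-helper**: a set `S ⊂ F̄_N` spanning `F̄_N` over `F̄_{N'}` contains `d + 1` elements
linearly independent over `F̄_{N'}`. -/
theorem S40WDG_exists_li (hp : p.Prime) (hA : A.LiesOverPrime p) (L d : ℕ) [NeZero L]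
    [NeZero (L * d)] (hd : d.Prime) (hdL : ¬ d ∣ L) (hpL : ¬ p ∣ L) (hpd : p ≠ d)
    (E' E : IntermediateField kk (LaurentSeries kk))
    (hE' : E' = modularFunctionFieldFullC kk L)
    (hE : E = modularFunctionFieldFullC kk (L * d)) (hle : E' ≤ E)
    (S : Set ↥(extendScalars hle)) (hS : Submodule.span ↥E' S = ⊤) :
    ∃ f : Fin (d + 1) → ↥(extendScalars hle), (∀ i, f i ∈ S) ∧ LinearIndependent ↥E' f :=
  S40WDG_exists_li_abs S hS (d + 1) (S40WDG_finrank A hp hA L d hd hdL hpL hpd E' E hE' hE hle)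

end Fermat.Agent.S40
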