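import Mathlib
import Fermat.Agent.S34.AtkinLehnerPhi
import Fermat.Agent.S18.ValDefs
import Fermat.Agent.S40.CuspJ

/-!
# T13 (D-CUSP)(a): the BRIDGE to the shape `hWO` of the cusp assembly (helper24), prefix `S40WDW_`

* `S40WDW_cast`  : (a) at level `M * q` for `w_q = S34WQ_wqMq M q` gives (a) at every level `N` with
  `hN : q * M = N` for `S34WQ_wq hq hqM hN`;
* `S40WDW_w`     : (a) for the total function `S40CJ_w N d` (identity unless `d` is a prime with
  `d ∥ N`);
* `S40WDW_hWO`   : the hypothesis `hWO` of `S40/CuspAll.lean`, level `M' * p`, all primes `d ∣ M'`;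
* `S40WDW_W`     : the same for the products `S40CJ_W N l`.
-/

set_option autoImplicit false
set_option synthInstance.maxHeartbeats 400000
set_option maxHeartbeats 1000000
set_option linter.unusedSectionVars false
set_option linter.style.haveILetI false

open ModularCurve

noncomputable section

namespace Fermat.Agent.S40

open Fermat.Agent.S18 Fermat.Agent.S24 Fermat.Agent.S34

variable (A : ValuationSubring (AlgebraicClosure ℚ))

/-- (a) at level `M * q` gives (a) at level `N`, `hN : q * M = N`. -/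
theorem S40WDW_cast {q M N : ℕ} [NeZero N] [NeZero M] [NeZero q] (hq : q.Prime) (hqM : ¬ q ∣ M)
    (hN : q * M = N)
    (H : ∀ f ∈ S18_O A (M * q), S34WQ_wqMq M q hq hqM f ∈ S18_O A (M * q)) :
    ∀ f ∈ S18_O A N, S34WQ_wq hq hqM hN f ∈ S18_O A N := by
  obtain rfl : N = M * q := by rw [← hN, mul_comm]
  exact H

/-- (a) for the total function `S40CJ_w N d`. -/
theorem S40WDW_w (N : ℕ) [NeZero N] (d : ℕ)
    (H : ∀ (M : ℕ) [NeZero M] [NeZero d] (hd : d.Prime) (hdM : ¬ d ∣ M), M * d = N →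
      ∀ f ∈ S18_O A (M * d), S34WQ_wqMq M d hd hdM f ∈ S18_O A (M * d)) :
    ∀ f ∈ S18_O A N, S40CJ_w N d f ∈ S18_O A N := by
  intro f hf
  by_cases h : d.Prime ∧ d ∣ N ∧ ¬ d ∣ N / d
  · rw [S40CJ_w_eq N h.1 h.2.1 h.2.2]
    have hN : d * (N / d) = N := Nat.mul_div_cancel' h.2.1
    haveI : NeZero (N / d) := ⟨fun h0 => NeZero.ne N (by rw [← hN, h0, mul_zero])⟩
    haveI : NeZero d := ⟨h.1.ne_zero⟩
    exact S40WDW_cast A h.1 h.2.2 hN
      (H (N / d) h.1 h.2.2 (by rw [mul_comm]; exact hN)) f hf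
  · have e : S40CJ_w N d = AlgEquiv.refl := dif_neg h
    rw [e]
    exact hf

/-- **the hypothesis `hWO` of the cusp assembly**: level `M' * p`, every prime `d ∣ M'`. -/
theorem S40WDW_hWO (M' p : ℕ) [NeZero (M' * p)] (hpM : ¬ p ∣ M')
    (H : ∀ (M d : ℕ) [NeZero M] [NeZero d] (hd : d.Prime) (hdM : ¬ d ∣ M), M * d = M' * p →
      d ∣ M' → d ≠ p →
      ∀ f ∈ S18_O A (M * d), S34WQ_wqMq M d hd hdM f ∈ S18_O A (M * d)) :
    ∀ d : ℕ, d.Prime → d ∣ M' → ∀ f ∈ S18_O A (M' * p),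
      S40CJ_w (M' * p) d f ∈ S18_O A (M' * p) := by
  intro d _ hdM'
  refine S40WDW_w A (M' * p) d ?_
  intro M _ _ hd' hdM e
  exact H M d hd' hdM e hdM' (fun h => hpM (h ▸ hdM'))

/-- the same for the products `W_l = S40CJ_W N l`. -/
theorem S40WDW_W (N : ℕ) [NeZero N] (l : List ℕ)
    (H : ∀ d ∈ l, ∀ f ∈ S18_O A N, S40CJ_w N d f ∈ S18_O A N) :
    ∀ f ∈ S18_O A N, S40CJ_W N l f ∈ S18_O A N := by
  induction l with
  | nil => intro f hf; exact hf
  | cons d l ih =>
    intro f hf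
    rw [S40CJ_W_cons]
    exact H d (List.mem_cons_self) _ (ih (fun d' hd' => H d' (List.mem_cons_of_mem _ hd')) f hf)

end Fermat.Agent.S40
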