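import Mathlib
import Fermat.Agent.S34.ValHgenAsm
import Fermat.Agent.S34.ValFk
import Fermat.Agent.S40.WdDefs
import Fermat.Agent.S40.WdDeg
import Fermat.Agent.S40.WdWire

/-!
# T13 (D-CUSP)(a): the FINAL wire (helper24), prefix `S40WDF_`

`hWO` of the cusp assembly (`S40/CuspAll.lean`) with no hypothesis left:

* `S40WDF_finrank_sub`, `S40WDF_finite_sub` (abstract): for intermediate fields `E' ≤ E` of `L/K`,
  `finrank (E' ∩ E) E = relfinrank E' E` where `E' ∩ E = E'.toSubfield.comap (algebraMap E L)`;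
* `S40WDF_deg` : `hfd` and `hdeg` of `S40WDI_main` at the level `(L * p) * d`;
* `S40WDF_hWO_of` : `hWO` from the statement of `S40WDI_main`;
-/

set_option autoImplicit false
set_option synthInstance.maxHeartbeats 400000
set_option maxHeartbeats 1000000
set_option linter.unusedSectionVars false
set_option linter.unusedVariables false
set_option linter.style.haveILetI false

open ModularCurve IntermediateField

noncomputable section

namespace Fermat.Agent.S40

open Fermat.Agent.S18 Fermat.Agent.S24 Fermat.Agent.S34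

section Abs

variable {K L : Type*} [Field K] [Field L] [Algebra K L]

/-- `E' ∩ E` as a subfield of `↥E`. -/
def S40WDF_sub (E' E : IntermediateField K L) : Subfield ↥E :=
  E'.toSubfield.comap (algebraMap ↥E L)

/-- the ring isomorphism `S40WDF_sub E' E ≃ E'` for `E' ≤ E`. -/
def S40WDF_equiv {E' E : IntermediateField K L} (hle : E' ≤ E) : ↥(S40WDF_sub E' E) ≃+* ↥E' where
  toFun x := ⟨((x : ↥E) : L), x.2⟩
  invFun y := ⟨⟨(y : L), hle y.2⟩, y.2⟩
  left_inv x := rfl
  right_inv y := rfl
  map_mul' x y := rfl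
  map_add' x y := rfl

/-- `finrank (E' ∩ E) E = relfinrank E' E` for `E' ≤ E`. -/
theorem S40WDF_finrank_sub {E' E : IntermediateField K L} (hle : E' ≤ E) :
    Module.finrank ↥(S40WDF_sub E' E) ↥E = relfinrank E' E := by
  rw [relfinrank_eq_finrank_of_le hle]
  exact Algebra.finrank_eq_of_equiv_equiv (S40WDF_equiv hle)
    (RingEquiv.refl _ : ↥E ≃+* ↥(extendScalars hle)) rfl

theorem S40WDF_finite_sub {E' E : IntermediateField K L} (hle : E' ≤ E)
    (h : 0 < relfinrank E' E) :
    FiniteDimensional ↥(S40WDF_sub E' E) ↥E :=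
  Module.finite_of_finrank_pos (by rw [S40WDF_finrank_sub hle]; exact h)

end Abs

variable (A : ValuationSubring (AlgebraicClosure ℚ))

/-- the level of `modularFunctionFieldFullC` may be rewritten. -/
theorem S40WDF_Fk_congr (k : Type*) [Field k] {N N' : ℕ} [NeZero N] [NeZero N'] (e : N = N') :
    modularFunctionFieldFullC k N = modularFunctionFieldFullC k N' := by
  subst e
  rfl

/-- the level of `PrincipalGeneratedByIntegral` may be rewritten. -/
theorem S40WDF_hgen_congr {N N' : ℕ} [NeZero N] [NeZero N'] (e : N = N')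
    (h : PrincipalGeneratedByIntegral A (IsLocalRing.residue A) N) :
    PrincipalGeneratedByIntegral A (IsLocalRing.residue A) N' := by
  subst e
  exact h

/-- **(II)** in the shape `hfd`, `hdeg` of `S40WDI_main`, level `(L * p) * d`. -/
theorem S40WDF_deg {p : ℕ} (hp : p.Prime) (hA : A.LiesOverPrime p) (L d : ℕ) [NeZero L]
    [NeZero d] [NeZero (L * p)] [NeZero (L * p * d)]
    (hd : d.Prime) (hdL : ¬ d ∣ L) (hpL : ¬ p ∣ L) (hpd : p ≠ d) :
    FiniteDimensional (S40WDD_sub (IsLocalRing.ResidueField A) (L * p * d) (L * p))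
        ↥(modularFunctionFieldFullC (IsLocalRing.ResidueField A) (L * p * d)) ∧
      d + 1 ≤ Module.finrank (S40WDD_sub (IsLocalRing.ResidueField A) (L * p * d) (L * p))
        ↥(modularFunctionFieldFullC (IsLocalRing.ResidueField A) (L * p * d)) := by
  haveI : NeZero p := ⟨hp.ne_zero⟩
  haveI : NeZero (L * d) := ⟨Nat.mul_ne_zero (NeZero.ne L) (NeZero.ne d)⟩
  haveI : NeZero (L * d * p) := ⟨Nat.mul_ne_zero (NeZero.ne (L * d)) hp.ne_zero⟩
  have hE' : modularFunctionFieldFullC (IsLocalRing.ResidueField A) (L * p) =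
      modularFunctionFieldFullC (IsLocalRing.ResidueField A) L := S34VF_FkN_res L A hp hA
  have hE : modularFunctionFieldFullC (IsLocalRing.ResidueField A) (L * p * d) =
      modularFunctionFieldFullC (IsLocalRing.ResidueField A) (L * d) := by
    rw [S40WDF_Fk_congr (IsLocalRing.ResidueField A) (show L * p * d = L * d * p by ring)]
    exact S34VF_FkN_res (L * d) A hp hA
  have hrel := S40WDG_relfinrank_of_eq A hp hA L d hd hdL hpL hpd _ _ hE' hE
  have hle : modularFunctionFieldFullC (IsLocalRing.ResidueField A) (L * p) ≤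
      modularFunctionFieldFullC (IsLocalRing.ResidueField A) (L * p * d) :=
    full_degeneracyC_le (IsLocalRing.ResidueField A) (dvd_mul_right (L * p) d)
  have h1 := S40WDF_finrank_sub hle
  rw [hrel] at h1
  have h2 := S40WDF_finite_sub hle (by rw [hrel]; omega)
  exact ⟨h2, le_of_eq h1.symm⟩

/-- **`hWO` from the statement of `S40WDI_main`.** -/
theorem S40WDF_hWO_of
    (HI : ∀ (M q : ℕ) [NeZero M] [NeZero q] (A : ValuationSubring (AlgebraicClosure ℚ))
      (hq : q.Prime) (hqM : ¬ q ∣ M)
      (hgen : PrincipalGeneratedByIntegral A (IsLocalRing.residue A) (M * q))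
      (hgenM : PrincipalGeneratedByIntegral A (IsLocalRing.residue A) M)
      (hfd : FiniteDimensional (S40WDD_sub (IsLocalRing.ResidueField A) (M * q) M)
        ↥(modularFunctionFieldFullC (IsLocalRing.ResidueField A) (M * q)))
      (hdeg : q + 1 ≤ Module.finrank (S40WDD_sub (IsLocalRing.ResidueField A) (M * q) M)
        ↥(modularFunctionFieldFullC (IsLocalRing.ResidueField A) (M * q)))
      (x : ↥(modularFunctionFieldBar (M * q))) (hx : x ∈ S18_O A (M * q)),
      S34WQ_wqMq M q hq hqM x ∈ S18_O A (M * q))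
    (M' p : ℕ) [NeZero (M' * p)] (hp : p.Prime) (hpM : ¬ p ∣ M')
    (hA : A.LiesOverPrime p) :
    ∀ d : ℕ, d.Prime → d ∣ M' → ∀ f ∈ S18_O A (M' * p),
      S40CJ_w (M' * p) d f ∈ S18_O A (M' * p) := by
  haveI : NeZero p := ⟨hp.ne_zero⟩
  haveI : NeZero M' := ⟨fun h => NeZero.ne (M' * p) (by rw [h, zero_mul])⟩
  refine S40WDW_hWO A M' p hpM ?_
  intro M d _ _ hd hdM e hdM' hdp f hf
  obtain ⟨L, rfl⟩ := hdM'
  have hM : M = L * p := by
    apply Nat.eq_of_mul_eq_mul_right hd.pos
    rw [e]
    ring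
  subst hM
  have hpL : ¬ p ∣ L := fun h => hpM (h.mul_left d)
  have hdL : ¬ d ∣ L := fun h => hdM (h.mul_right p)
  haveI : NeZero L := ⟨fun h => NeZero.ne (L * p) (by rw [h, zero_mul])⟩
  have hgenM : PrincipalGeneratedByIntegral A (IsLocalRing.residue A) (L * p) :=
    S34VH_hgen L p hp hpL A hA
  have hgen : PrincipalGeneratedByIntegral A (IsLocalRing.residue A) (L * p * d) :=
    S40WDF_hgen_congr A e.symm (S34VH_hgen (d * L) p hp hpM A hA)
  obtain ⟨hfd, hdeg⟩ := S40WDF_deg A hp hA L d hd hdL hpL (fun h => hdp h.symm)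
  exact HI (L * p) d A hd hdM hgen hgenM hfd hdeg f hf

end Fermat.Agent.S40
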