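import Mathlib
import Fermat.Agent.S34.ValAB
import Fermat.Agent.S34.AtkinLehnerPhi
import Fermat.Agent.S18.GaussModL
import Fermat.Agent.S37.FinrankAlpha
import Fermat.Agent.S40.WdAbs

/-!
# T13 (D-CUSP)(a), pieces (K) and (I) of the instance (helper24), prefix `S40WDK_`

Level `M * q` (`q` prime, `q ∤ M`), `A` a valuation ring of `ℚ̄`, `O_N = S18_O A N` the Gauss ring
of `F_N` at `∞`, `α = heckeAlphaBar M q : F_M → F_{Mq}`, `w_q = S34WQ_wqMq M q`.

* `S40WDK_of_alpha_mem`   : `α f ∈ O_{Mq} ⇒ f ∈ O_M` (needs `hgen` at level `M`);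
* `S40WDK_alpha_mem_iff`  : `α f ∈ O_{Mq} ⇔ f ∈ O_M`;
* `S40WDK_hK`             : `a ∈ α F_M`, `a ∈ O_{Mq}` ⇒ `w_q a ∈ O_{Mq}`        (= `hK` of `S40WD_main'`);
* `S40WDK_hκ`             : `a ∈ α F_M ∩ O_{Mq}` ⇒ `red_{Mq} a ∈ Fk_M` (as Laurent series);
* `S40WDK_finrank_le`     : `finrank (α F_M) F_{Mq} ≤ q + 1`                    (= `hdim`);
* `S40WDK_finrank_eq`, `S40WDK_finiteDimensional`.
-/

set_option autoImplicit false
set_option synthInstance.maxHeartbeats 400000
set_option maxHeartbeats 1000000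
set_option linter.unusedSectionVars false
set_option linter.style.haveILetI false

open HahnSeries IntermediateField AlgebraicCurve ModularCurve Polynomial

noncomputable section

namespace Fermat.Agent.S40

open Fermat.Agent.S18 Fermat.Agent.S24 Fermat.Agent.S34 Fermat.Agent.S37 Fermat.Agent.Lib

variable (M q : ℕ) [NeZero M] [NeZero q] (A : ValuationSubring (AlgebraicClosure ℚ))

/-- `α f ∈ O_{Mq} ⇒ f ∈ O_M`. -/
theorem S40WDK_of_alpha_mem
    (hgenM : PrincipalGeneratedByIntegral A (IsLocalRing.residue A) M)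
    {f : ↥(modularFunctionFieldBar M)}
    (hf : heckeAlphaBar (AlgebraicClosure ℚ) M q f ∈ S18_O A (M * q)) :
    f ∈ S18_O A M := by
  by_contra hfO
  have hfO' : f ∉ (S18_gaussModL M A hgenM).O := hfO
  have hinv : f⁻¹ ∈ (S18_gaussModL M A hgenM).O :=
    ((S18_gaussModL M A hgenM).O.mem_or_inv_mem f).resolve_left hfO'
  have hf0 : f ≠ 0 := by
    rintro rfl
    exact hfO' (zero_mem _)
  have hnu : ¬ IsUnit (⟨f⁻¹, hinv⟩ : (S18_gaussModL M A hgenM).O) := by
    intro hu
    obtain ⟨y, hy⟩ := hu.exists_right_inv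
    have hy' : f⁻¹ * (y : ↥(modularFunctionFieldBar M)) = 1 := congrArg Subtype.val hy
    have : (y : ↥(modularFunctionFieldBar M)) = f := by
      have := congrArg (fun z => f * z) hy'
      simp only [mul_one] at this
      rw [← mul_assoc, mul_inv_cancel₀ hf0, one_mul] at this
      exact this
    exact hfO' (this ▸ y.2)
  have hred0 : (S18_gaussModL M A hgenM).red ⟨f⁻¹, hinv⟩ = 0 :=
    ((S18_gaussModL M A hgenM).red_eq_zero_iff _).2 hnu
  have hinv' : f⁻¹ ∈ S18_O A M := hinv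
  have hred0' : S18_red A M ⟨f⁻¹, hinv'⟩ = 0 := hred0
  have h1 := S34VW_red_alpha q A (f := f⁻¹) hinv'
  rw [hred0'] at h1
  have h2 : S18_red A (M * q) ⟨heckeAlphaBar (AlgebraicClosure ℚ) M q f⁻¹,
      S34VW_alpha_mem q A hinv'⟩ = 0 := Subtype.ext h1
  have h3 : (⟨heckeAlphaBar (AlgebraicClosure ℚ) M q f, hf⟩ : S18_O A (M * q)) *
      ⟨heckeAlphaBar (AlgebraicClosure ℚ) M q f⁻¹, S34VW_alpha_mem q A hinv'⟩ = 1 := by
    apply Subtype.ext
    show heckeAlphaBar (AlgebraicClosure ℚ) M q f * heckeAlphaBar (AlgebraicClosure ℚ) M q f⁻¹ = 1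
    rw [← map_mul, mul_inv_cancel₀ hf0, map_one]
  have h4 := congrArg (S18_red A (M * q)) h3
  rw [map_mul, h2, mul_zero, map_one] at h4
  exact zero_ne_one h4

/-- `α f ∈ O_{Mq} ⇔ f ∈ O_M`. -/
theorem S40WDK_alpha_mem_iff
    (hgenM : PrincipalGeneratedByIntegral A (IsLocalRing.residue A) M)
    (f : ↥(modularFunctionFieldBar M)) :
    heckeAlphaBar (AlgebraicClosure ℚ) M q f ∈ S18_O A (M * q) ↔ f ∈ S18_O A M :=
  ⟨S40WDK_of_alpha_mem M q A hgenM, S34VW_alpha_mem q A⟩

variable (hq : q.Prime) (hqM : ¬ q ∣ M)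

/-- **(K)**: `w_q` keeps `O_{Mq}` on the subfield `α F_M`. -/
theorem S40WDK_hK
    (hgenM : PrincipalGeneratedByIntegral A (IsLocalRing.residue A) M)
    (a : ↥(modularFunctionFieldBar (M * q)))
    (haK : a ∈ (heckeAlphaBar (AlgebraicClosure ℚ) M q).fieldRange)
    (haO : a ∈ S18_O A (M * q)) :
    S34WQ_wqMq M q hq hqM a ∈ S18_O A (M * q) := by
  obtain ⟨g, rfl⟩ := haK
  have hg : g ∈ S18_O A M := S40WDK_of_alpha_mem M q A hgenM haO
  have e : S34WQ_wqMq M q hq hqM (heckeAlphaBar (AlgebraicClosure ℚ) M q g) =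
      heckeBetaBar (AlgebraicClosure ℚ) M q g := S34WQ_wq_alpha M q hq hqM g
  show S34WQ_wqMq M q hq hqM (heckeAlphaBar (AlgebraicClosure ℚ) M q g) ∈ S18_O A (M * q)
  rw [e]
  exact S34VW_beta_mem q A hg

/-- the residue of an element of `α F_M ∩ O_{Mq}` is the residue of an element of `O_M`. -/
theorem S40WDK_hκ
    (hgenM : PrincipalGeneratedByIntegral A (IsLocalRing.residue A) M)
    (a : ↥(modularFunctionFieldBar (M * q)))
    (haO : a ∈ S18_O A (M * q))
    (haK : a ∈ (heckeAlphaBar (AlgebraicClosure ℚ) M q).fieldRange) :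
    ∃ (g : ↥(modularFunctionFieldBar M)) (hg : g ∈ S18_O A M),
      heckeAlphaBar (AlgebraicClosure ℚ) M q g = a ∧
      ((S18_red A (M * q) ⟨a, haO⟩ :
        ↥(modularFunctionFieldFullC (IsLocalRing.ResidueField A) (M * q))) :
          LaurentSeries (IsLocalRing.ResidueField A)) =
        ((S18_red A M ⟨g, hg⟩ : ↥(modularFunctionFieldFullC (IsLocalRing.ResidueField A) M)) :
          LaurentSeries (IsLocalRing.ResidueField A)) := by
  obtain ⟨g, rfl⟩ := haK
  have hg : g ∈ S18_O A M := S40WDK_of_alpha_mem M q A hgenM haO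
  exact ⟨g, hg, rfl, S34VW_red_alpha q A hg⟩

/-- the residue of an element of `α F_M ∩ O_{Mq}` lies in `Fk_M ⊆ k((t))`. -/
theorem S40WDK_hκ_mem
    (hgenM : PrincipalGeneratedByIntegral A (IsLocalRing.residue A) M)
    (a : ↥(modularFunctionFieldBar (M * q)))
    (haO : a ∈ S18_O A (M * q))
    (haK : a ∈ (heckeAlphaBar (AlgebraicClosure ℚ) M q).fieldRange) :
    ((S18_red A (M * q) ⟨a, haO⟩ :
        ↥(modularFunctionFieldFullC (IsLocalRing.ResidueField A) (M * q))) :
          LaurentSeries (IsLocalRing.ResidueField A)) ∈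
      modularFunctionFieldFullC (IsLocalRing.ResidueField A) M := by
  obtain ⟨g, hg, -, e⟩ := S40WDK_hκ M q A hgenM a haO haK
  rw [e]
  exact (S18_red A M ⟨g, hg⟩).2

include hq hqM in
/-- **(I)**: `[F_{Mq} : α F_M] ≤ q + 1`. -/
theorem S40WDK_finrank_le :
    Module.finrank ↥(heckeAlphaBar (AlgebraicClosure ℚ) M q).fieldRange
      ↥(modularFunctionFieldBar (M * q)) ≤ q + 1 := by
  rw [S37P_finrank_alphaRange M q hq, if_neg hqM]

include hq hqM in
theorem S40WDK_finrank_eq :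
    Module.finrank ↥(heckeAlphaBar (AlgebraicClosure ℚ) M q).fieldRange
      ↥(modularFunctionFieldBar (M * q)) = q + 1 := by
  rw [S37P_finrank_alphaRange M q hq, if_neg hqM]

include hq hqM in
/-- `F_{Mq}` is finite-dimensional over `α F_M`. -/
theorem S40WDK_finiteDimensional :
    FiniteDimensional ↥(heckeAlphaBar (AlgebraicClosure ℚ) M q).fieldRange
      ↥(modularFunctionFieldBar (M * q)) :=
  FiniteDimensional.of_finrank_pos (by rw [S40WDK_finrank_eq M q hq hqM]; omega)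

end Fermat.Agent.S40
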