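import Mathlib

/-!
# TRACK 13 (S40 / S44), (D-CUSP)(a), instance part (III), abstract (helper10).  Prefix `S40WDM_`.
Mathlib only.

`κ` a field, `κ'` a subfield with `[κ : κ'] < ∞`, `S ⊆ κ` a set generating `κ` as a `κ'`-algebra,
`G` a submonoid of `κ` containing `S`:

* `S40WDM_span`   : the monomials in `S` span `κ` over `κ'`;
* `S40WDM_exists` : for `n ≤ [κ : κ']` there are `n` elements of `G` which are linearly
  independent over `κ'`;
* `S40WDM_adjoin_top` : `Algebra.adjoin κ' S = ⊤` as soon as `S ∪ κ'` generates `κ` as a field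
  (in the form of an induction principle).
-/

set_option autoImplicit false

namespace Fermat.Agent.S40

variable {κ : Type*} [Field κ] (κ' : Subfield κ) (S : Set κ)

/-- the monomials in `S` span `κ` over `κ'`. -/
theorem S40WDM_span (hgen : Algebra.adjoin κ' S = ⊤) :
    Submodule.span κ' (Submonoid.closure S : Set κ) = ⊤ := by
  rw [← Algebra.adjoin_eq_span, hgen]
  rfl

/-- `n ≤ [κ : κ']` linearly independent elements of a submonoid containing `S`. -/
theorem S40WDM_exists [FiniteDimensional κ' κ] (hgen : Algebra.adjoin κ' S = ⊤)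
    (G : Submonoid κ) (hG : S ⊆ G) (n : ℕ) (hn : n ≤ Module.finrank κ' κ) :
    ∃ m : Fin n → κ, (∀ i, m i ∈ G) ∧ LinearIndependent κ' m := by
  classical
  obtain ⟨B, hBsub, hBspan, hBli⟩ :=
    exists_linearIndependent κ' (Submonoid.closure S : Set κ)
  have hB : Submodule.span κ' B = ⊤ := hBspan.trans (S40WDM_span κ' S hgen)
  haveI : Finite B := hBli.finite
  haveI : Fintype B := Fintype.ofFinite B
  have hcard : Fintype.card B = Module.finrank κ' κ := by
    have h1 := finrank_span_eq_card hBli
    rw [Subtype.range_coe, hB, finrank_top] at h1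
    exact h1.symm
  have hle : Fintype.card (Fin n) ≤ Fintype.card B := by
    rw [Fintype.card_fin, hcard]
    exact hn
  obtain ⟨f⟩ := Function.Embedding.nonempty_of_card_le hle
  refine ⟨fun i => ((f i : B) : κ), fun i => ?_, hBli.comp f f.injective⟩
  have h1 : ((f i : B) : κ) ∈ (Submonoid.closure S : Set κ) := hBsub (f i).2
  exact (Submonoid.closure_le.2 hG) h1

/-- the subalgebra generated by `S` is everything if `κ' ∪ S` generates `κ` as a field and `κ`
is algebraic over `κ'`: induction principle form. -/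
theorem S40WDM_adjoin_top [Algebra.IsAlgebraic κ' κ]
    (hind : ∀ P : κ → Prop, (∀ x ∈ S, P x) → (∀ c : κ', P (c : κ)) →
      (∀ x y, P x → P y → P (x + y)) → (∀ x y, P x → P y → P (x * y)) →
      (∀ x, P x → P x⁻¹) → ∀ x, P x) :
    Algebra.adjoin κ' S = ⊤ := by
  rw [eq_top_iff]
  intro x _
  refine hind (fun y => y ∈ Algebra.adjoin κ' S) (fun y hy => Algebra.subset_adjoin hy)
    (fun c => (Algebra.adjoin κ' S).algebraMap_mem c)
    (fun y z hy hz => (Algebra.adjoin κ' S).add_mem hy hz)
    (fun y z hy hz => (Algebra.adjoin κ' S).mul_mem hy hz)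
    (fun y hy => ?_) x
  exact Subalgebra.inv_mem_of_algebraic (Algebra.adjoin κ' S)
    (x := ⟨y, hy⟩) (Algebra.IsAlgebraic.isAlgebraic y)

end Fermat.Agent.S40
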