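import Mathlib
import Fermat.Agent.S40.WdK
import Fermat.Agent.S40.WdMono
import Fermat.Agent.S40.WdDefs
import Fermat.Agent.S34.ValWire

/-!
# TRACK 13 (S40 / S44), (D-CUSP)(a), the instance (helper10).  Prefix `S40WDI_`.

Level `M * q` (`q` prime, `q ∤ M`), `A` a place of `ℚ̄` (any residue characteristic),
`w_q = S34WQ_wqMq M q hq hqM` the Atkin–Lehner involution of `F_{Mq}`, `O = S18_O A (M * q)` the
Gauss valuation ring.

* `S40WDI_S`, `S40WDI_G` : the generators `j̄(t^e)` (`e ∣ M q`) of the fibre field, and the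
  submonoid of residues of elements `b ∈ O` with `w_q b ∈ O`;
* `S40WDI_adjoin` : the generators generate the fibre field as an algebra over `F̄_M`;
* **`S40WDI_main`** : `w_q O ⊆ O`, under the degree bound (II)
  `q + 1 ≤ [F̄_{Mq} : F̄_M]` (and finiteness).
-/

set_option autoImplicit false
set_option synthInstance.maxHeartbeats 400000
set_option maxHeartbeats 1000000
set_option linter.style.haveILetI false

open HahnSeries IntermediateField AlgebraicCurve ModularCurve

noncomputable section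

namespace Fermat.Agent.S40

open Fermat.Agent.S18 Fermat.Agent.S24 Fermat.Agent.S34 Fermat.Agent.Lib

/-- induction principle for an adjoined field, on the subtype. -/
theorem S40WDI_ind_abs {k Ω : Type*} [Field k] [Field Ω] [Algebra k Ω] (S₀ : Set Ω)
    (P : ↥(IntermediateField.adjoin k S₀) → Prop)
    (hS : ∀ x : ↥(IntermediateField.adjoin k S₀), (x : Ω) ∈ S₀ → P x)
    (hc : ∀ c : k, P (algebraMap k ↥(IntermediateField.adjoin k S₀) c))
    (hadd : ∀ x y, P x → P y → P (x + y)) (hmul : ∀ x y, P x → P y → P (x * y))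
    (hinv : ∀ x, P x → P x⁻¹) (x : ↥(IntermediateField.adjoin k S₀)) : P x := by
  have key : ∀ y : Ω, ∀ hy : y ∈ IntermediateField.adjoin k S₀, P ⟨y, hy⟩ := by
    intro y hy
    induction hy using IntermediateField.adjoin_induction with
    | mem x hx => exact hS ⟨x, _⟩ hx
    | algebraMap c => exact hc c
    | add x y hx hy ihx ihy => exact hadd _ _ ihx ihy
    | inv x hx ih => exact hinv _ ih
    | mul x y hx hy ihx ihy => exact hmul _ _ ihx ihy
  exact key x.1 x.2

/-- the generators of the fibre field of level `N`. -/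
def S40WDI_S (k : Type*) [Field k] (N : ℕ) [NeZero N] : Set ↥(modularFunctionFieldFullC k N) :=
  {x | (x : LaurentSeries k) ∈ divisorExpansionsC k N}

/-- the generators generate the fibre field as an algebra over `F̄_{N'}`. -/
theorem S40WDI_adjoin (k : Type*) [Field k] (N N' : ℕ) [NeZero N] [NeZero N']
    [FiniteDimensional (S40WDD_sub k N N') ↥(modularFunctionFieldFullC k N)] :
    Algebra.adjoin (S40WDD_sub k N N') (S40WDI_S k N) = ⊤ := by
  refine S40WDM_adjoin_top _ _ (fun P hS hc hadd hmul hinv x => ?_)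
  exact S40WDI_ind_abs (k := k) (divisorExpansionsC k N) P (fun x hx => hS x hx)
    (fun c => hc ⟨_, S40WDD_const_mem c⟩) hadd hmul hinv x


variable (M q : ℕ) [NeZero M] [NeZero q] (A : ValuationSubring (AlgebraicClosure ℚ))
  (hq : q.Prime) (hqM : ¬ q ∣ M)

/-- the carrier: residues of the elements `b ∈ O` with `w_q b ∈ O`. -/
def S40WDI_P (x : ↥(modularFunctionFieldFullC (IsLocalRing.ResidueField A) (M * q))) : Prop :=
  ∃ (b : ↥(modularFunctionFieldBar (M * q))) (hb : b ∈ S18_O A (M * q)),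
    S34WQ_wqMq M q hq hqM b ∈ S18_O A (M * q) ∧ S18_red A (M * q) ⟨b, hb⟩ = x

theorem S40WDI_P_one : S40WDI_P M q A hq hqM 1 := by
  refine ⟨1, (S18_O A (M * q)).one_mem, ?_, ?_⟩
  · have h1 : S34WQ_wqMq M q hq hqM 1 = 1 := map_one (S34WQ_wqMq M q hq hqM)
    rw [h1]
    exact (S18_O A (M * q)).one_mem
  · exact map_one (S18_red A (M * q))

theorem S40WDI_P_mul (x y : ↥(modularFunctionFieldFullC (IsLocalRing.ResidueField A) (M * q)))
    (hx : S40WDI_P M q A hq hqM x) (hy : S40WDI_P M q A hq hqM y) :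
    S40WDI_P M q A hq hqM (x * y) := by
  obtain ⟨b, hb, hwb, rfl⟩ := hx
  obtain ⟨c, hc, hwc, rfl⟩ := hy
  refine ⟨b * c, (S18_O A (M * q)).mul_mem hb hc, ?_, ?_⟩
  · have h1 : S34WQ_wqMq M q hq hqM (b * c) =
        S34WQ_wqMq M q hq hqM b * S34WQ_wqMq M q hq hqM c := map_mul (S34WQ_wqMq M q hq hqM) b c
    rw [h1]
    exact (S18_O A (M * q)).mul_mem hwb hwc
  · have e : (⟨b * c, (S18_O A (M * q)).mul_mem hb hc⟩ : S18_O A (M * q)) =
        (⟨b, hb⟩ : S18_O A (M * q)) * (⟨c, hc⟩ : S18_O A (M * q)) := Subtype.ext rfl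
    rw [e]
    exact map_mul (S18_red A (M * q)) _ _

/-- the residues of the elements `b ∈ O` with `w_q b ∈ O`, as a submonoid. -/
def S40WDI_G : Submonoid ↥(modularFunctionFieldFullC (IsLocalRing.ResidueField A) (M * q)) where
  carrier := {x | S40WDI_P M q A hq hqM x}
  one_mem' := S40WDI_P_one M q A hq hqM
  mul_mem' := fun {x y} hx hy => S40WDI_P_mul M q A hq hqM x y hx hy


/-- the generators are residues of elements `b ∈ O` with `w_q b ∈ O`. -/
theorem S40WDI_S_sub_G :
    S40WDI_S (IsLocalRing.ResidueField A) (M * q) ⊆ (S40WDI_G M q A hq hqM : Set _) := by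
  rintro x ⟨e, he0, he, hx⟩
  haveI := he0
  show S40WDI_P M q A hq hqM x
  by_cases hqe : q ∣ e
  · obtain ⟨e', rfl⟩ := hqe
    have he' : e' ∣ M := by
      rw [mul_comm M q] at he
      exact (Nat.mul_dvd_mul_iff_left hq.pos).1 he
    haveI : NeZero e' := ⟨fun h => by
      subst h
      exact (NeZero.ne (q * 0)) (mul_zero q)⟩
    refine ⟨jBar (M * q) (q * e') he, S34VW_jBar_mem (M * q) A (q * e') he, ?_, ?_⟩
    · have h1 := S34WQ_wqMq_jBar_new M q hq hqM e' he'
      rw [h1]
      exact S34VW_jBar_mem (M * q) A e' _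
    · apply Subtype.ext
      rw [S34VW_red_jBar, hx]
  · have hcop : Nat.Coprime e q :=
      (Nat.coprime_comm.1 ((Nat.Prime.coprime_iff_not_dvd hq).2 hqe))
    have he' : e ∣ M := hcop.dvd_of_dvd_mul_right he
    refine ⟨jBar (M * q) e he, S34VW_jBar_mem (M * q) A e he, ?_, ?_⟩
    · have h1 := S34WQ_wqMq_jBar_old M q hq hqM e he'
      rw [h1]
      exact S34VW_jBar_mem (M * q) A (q * e) _
    · apply Subtype.ext
      rw [S34VW_red_jBar, hx]


/-- **(D-CUSP)(a)**: the Atkin–Lehner involution `w_q` keeps the Gauss valuation ring of level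
`M q`, under the degree bound (II). -/
theorem S40WDI_main
    (hgen : PrincipalGeneratedByIntegral A (IsLocalRing.residue A) (M * q))
    (hgenM : PrincipalGeneratedByIntegral A (IsLocalRing.residue A) M)
    (hfd : FiniteDimensional (S40WDD_sub (IsLocalRing.ResidueField A) (M * q) M)
      ↥(modularFunctionFieldFullC (IsLocalRing.ResidueField A) (M * q)))
    (hdeg : q + 1 ≤ Module.finrank (S40WDD_sub (IsLocalRing.ResidueField A) (M * q) M)
      ↥(modularFunctionFieldFullC (IsLocalRing.ResidueField A) (M * q)))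
    (x : ↥(modularFunctionFieldBar (M * q))) (hx : x ∈ S18_O A (M * q)) :
    S34WQ_wqMq M q hq hqM x ∈ S18_O A (M * q) := by
  haveI := hfd
  obtain ⟨m, hmG, hli⟩ := S40WDM_exists (S40WDD_sub (IsLocalRing.ResidueField A) (M * q) M)
    (S40WDI_S (IsLocalRing.ResidueField A) (M * q))
    (S40WDI_adjoin (IsLocalRing.ResidueField A) (M * q) M)
    (S40WDI_G M q A hq hqM) (S40WDI_S_sub_G M q A hq hqM) (q + 1) hdeg
  have hmG' : ∀ i, S40WDI_P M q A hq hqM (m i) := hmG
  choose b hb hwb hred using hmG'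
  haveI hfdK := S40WDK_finiteDimensional M q hq hqM
  have hli' : LinearIndependent (S40WDD_sub (IsLocalRing.ResidueField A) (M * q) M)
      (fun i => (S18_gaussModL (M * q) A hgen).red ⟨b i, hb i⟩) := by
    have e : (fun i => (S18_gaussModL (M * q) A hgen).red ⟨b i, hb i⟩) = m := funext hred
    rw [e]
    exact hli
  have hLI := S40WD_LI_of_red
    (K := (heckeAlphaBar (AlgebraicClosure ℚ) M q).fieldRange.toSubfield)
    (O := (S18_gaussModL (M * q) A hgen).O) (b := b)
    (S18_gaussModL (M * q) A hgen).red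
    (fun y hy => by
      have h1 := ((S18_gaussModL (M * q) A hgen).red_eq_zero_iff y).1 hy
      exact (ValuationSubring.coe_mem_nonunits_iff).2
        ((IsLocalRing.mem_maximalIdeal _).2 h1))
    (S40WDD_sub (IsLocalRing.ResidueField A) (M * q) M)
    (fun a ha haK => S40WDK_hκ_mem M q A hgenM a ha haK)
    hb hli'
    (fun y hy => by
      have h1 : ¬ IsUnit y :=
        (IsLocalRing.mem_maximalIdeal _).1 ((ValuationSubring.coe_mem_nonunits_iff).1 hy)
      exact ((S18_gaussModL (M * q) A hgen).red_eq_zero_iff y).2 h1)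
  exact S40WD_main' (K := (heckeAlphaBar (AlgebraicClosure ℚ) M q).fieldRange.toSubfield)
    (O := (S18_gaussModL (M * q) A hgen).O) (b := b)
    (w := ((S34WQ_wqMq M q hq hqM : ↥(modularFunctionFieldBar (M * q)) ≃ₐ[AlgebraicClosure ℚ]
      ↥(modularFunctionFieldBar (M * q))) : ↥(modularFunctionFieldBar (M * q)) →+*
      ↥(modularFunctionFieldBar (M * q))))
    hwb (S40WDK_finrank_le M q hq hqM) hLI
    (fun a haK haO => S40WDK_hK M q A hq hqM hgenM a haK haO) x hx

end Fermat.Agent.S40
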