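import Mathlib
import Fermat.Agent.S40.WdFinal
import Fermat.Agent.S40.WdInst

/-!
# TRACK 13 (S40 / S44), (D-CUSP)(a), closed (helper10).  Prefix `S40WDZ_`.

`S40WDZ_hWO` : the hypothesis `hWO` of the cusp assembly, with no hypothesis left: for a place `A`
over `p`, `p ∤ M'`, every prime `d ∣ M'`: the Atkin–Lehner operator `S40CJ_w (M' * p) d` keeps the
Gauss valuation ring `S18_O A (M' * p)`.  (`S40WDF_hWO_of` of helper24 applied to `S40WDI_main`.)
-/

set_option autoImplicit false
set_option synthInstance.maxHeartbeats 400000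
set_option maxHeartbeats 1000000

open ModularCurve

noncomputable section

namespace Fermat.Agent.S40

open Fermat.Agent.S18 Fermat.Agent.S24 Fermat.Agent.S34

/-- **(D-CUSP)(a)**: `w_d` keeps the Gauss valuation ring of level `M' p`, every prime `d ∣ M'`. -/
theorem S40WDZ_hWO (A : ValuationSubring (AlgebraicClosure ℚ)) (M' p : ℕ) [NeZero (M' * p)]
    (hp : p.Prime) (hpM : ¬ p ∣ M') (hA : A.LiesOverPrime p) :
    ∀ d : ℕ, d.Prime → d ∣ M' → ∀ f ∈ S18_O A (M' * p),
      S40CJ_w (M' * p) d f ∈ S18_O A (M' * p) :=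
  S40WDF_hWO_of A
    (fun M q _ _ A' hq hqM hgen hgenM hfd hdeg x hx =>
      S40WDI_main M q A' hq hqM hgen hgenM hfd hdeg x hx) M' p hp hpM hA

end Fermat.Agent.S40
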