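import Mathlib
import Fermat.Agent.S40.WdInst
import Fermat.Agent.S40.WdFinal

/-!
# T13 (D-CUSP)(a): `hWO` of the cusp assembly, hypothesis-free (helper24), prefix `S40WDF2_`

`S40WDF2_hWO` : level `M' * p` (`p` prime, `p ∤ M'`), `A` a valuation ring of `ℚ̄` over `p`: every
Atkin–Lehner involution `w_d` (`d ∣ M'` prime) keeps the Gauss ring `S18_O A (M' * p)`.
`S40WDF2_W` : the same for the products `W_l = S40CJ_W (M' * p) l` of primes dividing `M'`.
-/

set_option autoImplicit false
set_option synthInstance.maxHeartbeats 400000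
set_option maxHeartbeats 1000000
set_option linter.unusedSectionVars false
set_option linter.unusedVariables false

open ModularCurve

noncomputable section

namespace Fermat.Agent.S40

open Fermat.Agent.S18 Fermat.Agent.S24 Fermat.Agent.S34

/-- **(D-CUSP)(a)**: `w_d` keeps the Gauss ring of `X₀(M' p)` at `p`, for every prime `d ∣ M'`. -/
theorem S40WDF2_hWO (A : ValuationSubring (AlgebraicClosure ℚ)) (M' p : ℕ) [NeZero (M' * p)]
    (hp : p.Prime) (hpM : ¬ p ∣ M') (hA : A.LiesOverPrime p) :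
    ∀ d : ℕ, d.Prime → d ∣ M' → ∀ f ∈ S18_O A (M' * p),
      S40CJ_w (M' * p) d f ∈ S18_O A (M' * p) :=
  S40WDF_hWO_of A
    (fun M q _ _ A hq hqM hgen hgenM hfd hdeg x hx =>
      S40WDI_main M q A hq hqM hgen hgenM hfd hdeg x hx)
    M' p hp hpM hA

/-- the same for the products `W_l`, `l` a list of primes dividing `M'`. -/
theorem S40WDF2_W (A : ValuationSubring (AlgebraicClosure ℚ)) (M' p : ℕ) [NeZero (M' * p)]
    (hp : p.Prime) (hpM : ¬ p ∣ M') (hA : A.LiesOverPrime p) (l : List ℕ)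
    (hl : ∀ d ∈ l, d.Prime ∧ d ∣ M') :
    ∀ f ∈ S18_O A (M' * p), S40CJ_W (M' * p) l f ∈ S18_O A (M' * p) :=
  S40WDW_W A (M' * p) l (fun d hd => S40WDF2_hWO A M' p hp hpM hA d (hl d hd).1 (hl d hd).2)

end Fermat.Agent.S40
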