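import Mathlib
import Fermat.Agent.S40.WdDefs
import Fermat.Agent.S40.WdDeg

/-!
# TRACK 13 (S40 / S44), (D-CUSP)(a)(II): the degree in the shape of `S40WDI_main` (helper6).
Prefix `S40WDS_`.

* `S40WDS_finrank_abs` : `E' ≤ E` intermediate fields of `L / k`, `S` the copy of `E'` inside `↥E`
  (`E'.toSubfield.comap (algebraMap ↥E L)`): `finrank ↥S ↥E = relfinrank E' E`;
* `S40WDS_finrank_sub` : `finrank (S40WDD_sub k N N') F̄_N = relfinrank F̄_{N'} F̄_N`;
* **`S40WDS_main`**   : level `M * q`, `M = L * p`, `p ∤ L`, `q` prime `∤ M`, `q ≠ p`, `k` of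
  characteristic `p`: `F̄_{M q}` is finite over the copy of `F̄_M`, of degree `≥ q + 1`
  (`= hfd`, `hdeg` of `S40WDI_main`);
* `S40WDS_main'`      : the same with the hypotheses `M * d = M' * p`, `d ∣ M'`, `d ≠ p`, `p ∤ M'`
  of `S40WDW_hWO`.
-/

set_option autoImplicit false
set_option synthInstance.maxHeartbeats 400000
set_option maxHeartbeats 1000000
set_option linter.unusedSectionVars false
set_option linter.unusedVariables false
set_option linter.style.haveILetI false

open HahnSeries IntermediateField AlgebraicCurve ModularCurve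

noncomputable section

namespace Fermat.Agent.S40

open Fermat.Agent.Lib Fermat.Agent.S18 Fermat.Agent.S24 Fermat.Agent.S34 Fermat.Agent.GalRep

section abs

variable {k L : Type*} [Field k] [Field L] [Algebra k L] (E' E : IntermediateField k L)

/-- the copy of `E'` inside `↥E` is isomorphic to `E'`. -/
def S40WDS_i (hle : E' ≤ E) :
    ↥(E'.toSubfield.comap (algebraMap ↥E L)) ≃+* ↥E' where
  toFun x := ⟨((x : ↥E) : L), x.2⟩
  invFun y := ⟨⟨(y : L), hle y.2⟩, y.2⟩
  left_inv x := rfl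
  right_inv y := rfl
  map_mul' x y := rfl
  map_add' x y := rfl

/-- `↥E` as `↥(extendScalars hle)`. -/
def S40WDS_j (hle : E' ≤ E) : ↥E ≃+* ↥(extendScalars hle) where
  toFun x := ⟨(x : L), x.2⟩
  invFun y := ⟨(y : L), y.2⟩
  left_inv x := rfl
  right_inv y := rfl
  map_mul' x y := rfl
  map_add' x y := rfl

/-- `finrank ↥S ↥E = relfinrank E' E`. -/
theorem S40WDS_finrank_abs (hle : E' ≤ E) :
    Module.finrank ↥(E'.toSubfield.comap (algebraMap ↥E L)) ↥E = relfinrank E' E := by
  rw [relfinrank_eq_finrank_of_le hle]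
  exact Algebra.finrank_eq_of_equiv_equiv (S40WDS_i E' E hle) (S40WDS_j E' E hle) (by
    ext x
    rfl)

end abs

section sub

variable (k : Type*) [Field k] (N N' : ℕ) [NeZero N] [NeZero N']

/-- `finrank (S40WDD_sub k N N') F̄_N = relfinrank F̄_{N'} F̄_N`. -/
theorem S40WDS_finrank_sub
    (hle : modularFunctionFieldFullC k N' ≤ modularFunctionFieldFullC k N) :
    Module.finrank ↥(S40WDD_sub k N N') ↥(modularFunctionFieldFullC k N) =
      relfinrank (modularFunctionFieldFullC k N') (modularFunctionFieldFullC k N) :=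
  S40WDS_finrank_abs _ _ hle

end sub

section main

variable (A : ValuationSubring (AlgebraicClosure ℚ)) {p : ℕ}

local notation "kk" => IsLocalRing.ResidueField A

/-- **(a)(II)** at the level `(L p) q`: `hfd` and `hdeg` of `S40WDI_main`. -/
theorem S40WDS_mainL (hp : p.Prime) (hA : A.LiesOverPrime p) (L q : ℕ) [NeZero L]
    [NeZero (L * p)] [NeZero q] [NeZero (L * p * q)] (hq : q.Prime) (hqL : ¬ q ∣ L)
    (hpL : ¬ p ∣ L) (hpq : p ≠ q) :
    FiniteDimensional ↥(S40WDD_sub kk (L * p * q) (L * p))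
        ↥(modularFunctionFieldFullC kk (L * p * q)) ∧
      q + 1 ≤ Module.finrank ↥(S40WDD_sub kk (L * p * q) (L * p))
        ↥(modularFunctionFieldFullC kk (L * p * q)) := by
  haveI : NeZero (L * q) := ⟨mul_ne_zero (NeZero.ne L) hq.ne_zero⟩
  haveI : NeZero (L * q * p) := ⟨mul_ne_zero (NeZero.ne (L * q)) hp.ne_zero⟩
  have hle : modularFunctionFieldFullC kk (L * p) ≤ modularFunctionFieldFullC kk (L * p * q) :=
    full_degeneracyC_le kk (Dvd.intro q rfl)
  have hE : modularFunctionFieldFullC kk (L * p * q) = modularFunctionFieldFullC kk (L * q) :=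
    (congrArg (modularFunctionFieldFullC kk) (Nat.mul_right_comm L p q)).trans
      (S34VF_FkN_res (L * q) A hp hA)
  have h1 : relfinrank (modularFunctionFieldFullC kk (L * p))
      (modularFunctionFieldFullC kk (L * p * q)) = q + 1 :=
    S40WDG_relfinrank_of_eq A hp hA L q hq hqL hpL hpq _ _ (S34VF_FkN_res L A hp hA) hE
  have h2 := S40WDS_finrank_sub kk (L * p * q) (L * p) hle
  rw [h1] at h2
  refine ⟨?_, h2.ge⟩
  exact Module.finite_of_finrank_pos (by rw [h2]; exact Nat.succ_pos q)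

/-- **(a)(II)** in the shape of `S40WDI_main`: level `M * q`, `p ∥ M`. -/
theorem S40WDS_main (hp : p.Prime) (hA : A.LiesOverPrime p) (M q : ℕ) [NeZero M] [NeZero q]
    [NeZero (M * q)] (hq : q.Prime) (hqM : ¬ q ∣ M) (hpq : p ≠ q) (hpM : p ∣ M)
    (hpM2 : ¬ p ∣ M / p) :
    FiniteDimensional ↥(S40WDD_sub kk (M * q) M) ↥(modularFunctionFieldFullC kk (M * q)) ∧
      q + 1 ≤ Module.finrank ↥(S40WDD_sub kk (M * q) M)
        ↥(modularFunctionFieldFullC kk (M * q)) := by
  obtain ⟨L, rfl⟩ : ∃ L, M = L * p := ⟨M / p, (Nat.div_mul_cancel hpM).symm⟩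
  have hL : (L * p) / p = L := Nat.mul_div_cancel L hp.pos
  rw [hL] at hpM2
  haveI : NeZero L := ⟨fun h => NeZero.ne (L * p) (by rw [h, zero_mul])⟩
  exact S40WDS_mainL A hp hA L q hq (fun h => hqM (Dvd.dvd.mul_right h p)) hpM2 hpq

/-- **(a)(II)** with the hypotheses of `S40WDW_hWO`: `M * d = M' * p`, `d ∣ M'`, `d ≠ p`,
`p ∤ M'`. -/
theorem S40WDS_main' (hp : p.Prime) (hA : A.LiesOverPrime p) (M' : ℕ) (hpM' : ¬ p ∣ M')
    (M d : ℕ) [NeZero M] [NeZero d] [NeZero (M * d)] (hd : d.Prime) (hdM : ¬ d ∣ M)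
    (e : M * d = M' * p) (hdM' : d ∣ M') (hdp : d ≠ p) :
    FiniteDimensional ↥(S40WDD_sub kk (M * d) M) ↥(modularFunctionFieldFullC kk (M * d)) ∧
      d + 1 ≤ Module.finrank ↥(S40WDD_sub kk (M * d) M)
        ↥(modularFunctionFieldFullC kk (M * d)) := by
  have hpM : p ∣ M := by
    have h1 : p ∣ M * d := by rw [e]; exact Dvd.intro_left M' rfl
    rcases (Nat.Prime.dvd_mul hp).1 h1 with h | h
    · exact h
    · exact absurd ((Nat.prime_dvd_prime_iff_eq hp hd).1 h).symm hdp
  have hpM2 : ¬ p ∣ M / p := by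
    intro h
    obtain ⟨c, hc⟩ := hpM
    have hc' : M / p = c := by rw [hc]; exact Nat.mul_div_cancel_left c hp.pos
    rw [hc'] at h
    -- `M' = c * d`
    have h2 : p * (c * d) = p * M' := by
      rw [← mul_assoc, ← hc, e, mul_comm]
    have h3 : c * d = M' := Nat.eq_of_mul_eq_mul_left hp.pos h2
    exact hpM' (h3 ▸ Dvd.dvd.mul_right h d)
  exact S40WDS_main A hp hA M d hd hdM (fun h => hdp h.symm) hpM hpM2

end main

end Fermat.Agent.S40
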