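import Mathlib
import Fermat.Prelude.Def_CuspForm_Newforms
import Fermat.Prelude.Def_FLTPrelim_ModularRep
import Fermat.Agent.S40.Wire

/-!
# S40 (Mazur–Ribet at `p`, row 38): MID WIRE (helper2).  Prefix `S40W_`.

The hole `S40W_HoleNew` of the top wire, reduced to a statement on the NEWFORM `g₀` alone:

* `S40W_HoleMR` : **Mazur–Ribet core**: `W` good at the odd prime `p`, `W[p]` irreducible,
  `g₀` a newform of level `M₀` with `p ∥ M₀`, congruent to `W` modulo `𝔪 ∋ p` at the primes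
  `ℓ ≠ p`, `ℓ ∤ M` (`M` any positive multiple of `M₀`), good for `W`.  Then there are a normalised
  eigenform `h` of level `M₀ / p` and a maximal ideal `𝔪' ∋ p` with the same congruences.
* `S40W_holeNew_of_MR : S40W_HoleMR → S40W_HoleNew`, `S40W_main' : S40W_HoleMR →` frozen S40.
-/

set_option autoImplicit false

open ModularFormClass

namespace Fermat.Agent.S40

open CuspForm

/-- `M₀ ∣ M`, `p ∣ M₀`, `p` prime `⇒` `M₀ / p ∣ M / p`. -/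
theorem S40W_div_dvd_div {p M M₀ : ℕ} (hp : p.Prime) (hM₀M : M₀ ∣ M) (hpM₀ : p ∣ M₀) :
    M₀ / p ∣ M / p := by
  obtain ⟨a, rfl⟩ := hpM₀
  obtain ⟨b, rfl⟩ := hM₀M
  rw [Nat.mul_div_cancel_left a hp.pos, mul_assoc, Nat.mul_div_cancel_left (a * b) hp.pos]
  exact Dvd.intro b rfl

/-- `¬ p ^ 2 ∣ M`, `M₀ ∣ M` `⇒` `¬ p ^ 2 ∣ M₀`. -/
theorem S40W_not_sq_dvd {p M M₀ : ℕ} (hM₀M : M₀ ∣ M) (hp2M : ¬ p ^ 2 ∣ M) : ¬ p ^ 2 ∣ M₀ :=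
  fun h => hp2M (h.trans hM₀M)

/-- **Mazur–Ribet core** (the NEW case on the newform alone). -/
def S40W_HoleMR : Prop :=
  ∀ (W : WeierstrassCurve ℤ), W.Δ ≠ 0 → ∀ {p : ℕ}, p.Prime → p ≠ 2 → W.IsGoodPrimeFor p →
    W.ModRepIsIrreducible p → ∀ {M₀ M : ℕ}, 0 < M → M₀ ∣ M → p ∣ M₀ → ¬ p ^ 2 ∣ M₀ →
    ∀ (g₀ : CuspForm (CongruenceSubgroup.Gamma0 M₀) 2) (𝔪 : Ideal (integralClosure ℤ ℂ)),
      g₀.IsNewform → 𝔪.IsMaximal → (p : integralClosure ℤ ℂ) ∈ 𝔪 → S40W_Cong W p M g₀ 𝔪 →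
      ∃ (h : CuspForm (CongruenceSubgroup.Gamma0 (M₀ / p)) 2)
        (𝔪' : Ideal (integralClosure ℤ ℂ)),
        h.IsNormalizedEigenform ∧ 𝔪'.IsMaximal ∧ (p : integralClosure ℤ ℂ) ∈ 𝔪' ∧
          S40W_Cong W p M h 𝔪'

/-- the hole of the top wire from the Mazur–Ribet core. -/
theorem S40W_holeNew_of_MR (hMR : S40W_HoleMR) : S40W_HoleNew := by
  intro W hΔ p hp hp2 hgood hirr M hM hpM hp2M f 𝔪 hf h𝔪 hp𝔪 hcong M₀ hM₀ g₀ hg₀ hco hpM₀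
  have hcong₀ : S40W_Cong W p M g₀ 𝔪 :=
    S40W_cong_congr W p M f g₀ 𝔪 (fun ℓ hℓ hℓM _ => hco ℓ hℓ hℓM) hcong
  obtain ⟨h, 𝔪', hh, h𝔪', hp𝔪', hcong'⟩ :=
    hMR W hΔ hp hp2 hgood hirr hM hM₀ hpM₀ (S40W_not_sq_dvd hM₀ hp2M) g₀ 𝔪 hg₀ h𝔪 hp𝔪 hcong₀
  exact ⟨M₀ / p, S40W_div_dvd_div hp hM₀ hpM₀, h, 𝔪', hh, h𝔪', hp𝔪', hcong'⟩

/-- **TOP WIRE, second form**: the frozen statement S40 from the Mazur–Ribet core. -/
theorem S40W_main' (hMR : S40W_HoleMR)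
    (W : WeierstrassCurve ℤ) (hΔ : W.Δ ≠ 0)
    {p : ℕ} (hp : p.Prime) (hp2 : p ≠ 2)
    (hgood : W.IsGoodPrimeFor p)
    (hirr : W.ModRepIsIrreducible p)
    {M : ℕ} (hM : 0 < M) (hpM : p ∣ M) (hp2M : ¬ p ^ 2 ∣ M)
    (hmod : W.IsResiduallyModularOfLevel p M) :
    W.IsResiduallyModularOfLevel p (M / p) :=
  S40W_main (S40W_holeNew_of_MR hMR) W hΔ hp hp2 hgood hirr hM hpM hp2M hmod

end Fermat.Agent.S40
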