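import Mathlib
import Fermat.Agent.S40.F2NodeW2
import Fermat.Agent.S40.R2Plumb
import Fermat.Agent.S40.R2HvHecke

/-!
# S44 (row 38): THE CLOSE (helper2).  Prefix `S44C_`.

* `S44C_start : S40F2NW_Start`  — the leaf START of the node chain, from helper17's
  `S40R2Z_start` and helper20's `S40R2HK_hv` (the leaf (HV), node-free);
* `S44C_final` : **frozen S44**, no hypothesis
  (`S40F2NW_final` helper3, `S40F2NW_hdiv` helper3/helper1).
-/

set_option autoImplicit false
set_option linter.style.haveILetI false
set_option linter.unusedSectionVars false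
set_option linter.unusedVariables false
set_option synthInstance.maxHeartbeats 400000
set_option maxHeartbeats 1000000

open AlgebraicCurve ModularCurve IntermediateField

noncomputable section

namespace Fermat.Agent.S40

open WeierstrassCurve
open Fermat.Agent.S17 Fermat.Agent.S18 Fermat.Agent.S19 Fermat.Agent.S24 Fermat.Agent.S34
  Fermat.Agent.S35 Fermat.Agent.S36 Fermat.Agent.S37 Fermat.Agent.GalRep Fermat.Agent.S33

/-- **the leaf START holds.** -/
theorem S44C_start : S40F2NW_Start := by
  intro W hΔ p hp hp5 hirr M' _ _ _ hpM hsq A hA V hVV0 hV hnew hB hR hK hI x hx hgen ζ₀ hprim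
    σ H π c r t hD
  have hp2 : p ≠ 2 := by omega
  exact S40R2Z_start M' p hp hpM A hA hgen V (fun y hy => (hVV0 y hy).1) hnew hprim x hx
    σ H π c r t hD
    (S40R2HK_hv M' p hp hpM A hA hgen W hΔ hp2 hirr V hVV0 hprim x hx σ H π c r t hD)

/-- **frozen S44** (Mazur–Ribet at `p`, Frey form). -/
theorem S44C_final
    (P : FreyPackage) {N : ℕ} (hcond : P.IsConductorLevel N) (hpN : P.p ∣ N)
    (hirr : WeierstrassCurve.Affine.Point.GaloisRepIsIrreducible (K := AlgebraicClosure ℚ) ℚ
      P.freyCurve P.p)
    (hmod : P.ModularRepOfLevel N) :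
    ∃ M : ℕ, M ∣ N ∧ ¬ P.p ∣ M ∧ P.ModularRepOfLevel M :=
  S40F2NW_final S44C_start S40F2NW_hdiv P hcond hpN hirr hmod

end Fermat.Agent.S40
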