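import Mathlib
import Fermat.Agent.S40.Wire44Sym
import Fermat.Agent.S40.F2Top

/-!
# S44 (row 38): the top wire from the place-wise statement (LOC₁) (helper2).  Prefix `S44L_`.

* `S44L_final : S40F2TP_Loc1 →` frozen S44  (`S40F2TP_kum1` helper20, `S44Y_final`): the ONLY
  hole left for S44 is (LOC₁) = `S40F2TP_Loc1` (`S40/F2Top.lean`): at squarefree level, for every
  `x ∈ V` and every place `v` of the fibre some generator of `x` is a unit at `T₁` with
  `p ∣ ord_v (red₁ u)`.
-/

set_option autoImplicit false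
set_option linter.unusedSectionVars false
set_option linter.unusedVariables false

namespace Fermat.Agent.S40

open WeierstrassCurve

/-- **frozen S44 from (LOC₁).** -/
theorem S44L_final (h : S40F2TP_Loc1)
    (P : FreyPackage) {N : ℕ} (hcond : P.IsConductorLevel N) (hpN : P.p ∣ N)
    (hirr : WeierstrassCurve.Affine.Point.GaloisRepIsIrreducible (K := AlgebraicClosure ℚ) ℚ
      P.freyCurve P.p)
    (hmod : P.ModularRepOfLevel N) :
    ∃ M : ℕ, M ∣ N ∧ ¬ P.p ∣ M ∧ P.ModularRepOfLevel M :=
  S44Y_final (S40F2TP_kum1 h) P hcond hpN hirr hmod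

end Fermat.Agent.S40
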