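import Mathlib
import Fermat.Agent.S40.Wire44Sym
import Fermat.Agent.S40.F2Final

/-!
# S44 (row 38): the top wire from the NODE statement (N₁) (helper2).  Prefix `S44N_`.

* `S44N_final : S40F2FN_Node1 →` frozen S44  (`S40F2FN_kum1` helper20: cusps, ordinary places
  and the trichotomy are closed; `S44Y_final`: the `T₂` side by the `w_p`-symmetry).
  The ONLY hole left for S44 is (N₁) = `S40F2FN_Node1` (`S40/F2Final.lean`).
-/

set_option autoImplicit false
set_option linter.unusedSectionVars false
set_option linter.unusedVariables false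

namespace Fermat.Agent.S40

open WeierstrassCurve

/-- **frozen S44 from (N₁).** -/
theorem S44N_final (h : S40F2FN_Node1)
    (P : FreyPackage) {N : ℕ} (hcond : P.IsConductorLevel N) (hpN : P.p ∣ N)
    (hirr : WeierstrassCurve.Affine.Point.GaloisRepIsIrreducible (K := AlgebraicClosure ℚ) ℚ
      P.freyCurve P.p)
    (hmod : P.ModularRepOfLevel N) :
    ∃ M : ℕ, M ∣ N ∧ ¬ P.p ∣ M ∧ P.ModularRepOfLevel M :=
  S44Y_final (S40F2FN_kum1 h) P hcond hpN hirr hmod

end Fermat.Agent.S40
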